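/-
S56, brick LF (flat local bound), row A1: LF1 (rigidity) and ROOT.

Setting: `R` a commutative ring, `π θ : R` with `π ^ (p - 1) = p * θ` (`p` prime).

* `one_add_mul_pow` : the binomial identity
    `(1 + π Y) ^ p = 1 + p π Y (1 + π W(Y) + θ Y ^ (p - 1))`  for a polynomial `W`.
* `eq_zero_of_pow_eq_one` (LF1): if every `1 + π a + θ b` is a unit and `p π` is a
  non-zero-divisor, then `(1 + π y) ^ p = 1` forces `y = 0`.
* `exists_fixed_point`, `fixed_point_unique` : contraction principle in an adically complete module.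
* `isUnit_one_add` : `1 + x` is a unit for `x ∈ I • ⊤` in an algebra which is `I`-adically complete
  as a module.
* `exists_root` (ROOT): in such an algebra, with `π θ ∈ I`, every `1 + p π c` is the `p`-th power
  of some `1 + π Y`; `root_unique` : uniqueness of `Y` when `p π` is a non-zero-divisor.

Everything is stated for an `S`-algebra `R` which is `I`-adically complete as an `S`-MODULE
(`I : Ideal S`), so that the statements apply verbatim to `S` itself and to convolution rings
`Hom_{R0}(H, S)` of a finite free `H`.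
-/
import Mathlib

set_option autoImplicit false

namespace Fermat.Agent.S56.LF.Root

open Polynomial

/-! ### The binomial identity -/

section Binomial

variable {R : Type*} [CommRing R]

/-- The binomial identity behind LF1 and ROOT:
`(1 + π Y) ^ p = 1 + p π Y (1 + π W(Y) + θ Y ^ (p - 1))` when `π ^ (p - 1) = p θ`. -/
theorem one_add_mul_pow {p : ℕ} (hp : p.Prime) (π θ : R) (h : π ^ (p - 1) = (p : R) * θ) :
    ∃ W : R[X], ∀ Y : R,
      (1 + π * Y) ^ p = 1 + (p : R) * π * Y * (1 + π * W.eval Y + θ * Y ^ (p - 1)) := by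
  obtain ⟨m, rfl⟩ : ∃ m, p = m + 2 := ⟨p - 2, by have := hp.two_le; omega⟩
  have hdiv : ∀ i ∈ Finset.range m,
      (((m + 2 : ℕ) : R)) * ((((m + 2).choose (i + 2) / (m + 2) : ℕ)) : R)
        = (((m + 2).choose (i + 2) : ℕ) : R) := by
    intro i hi
    have hi' : i < m := Finset.mem_range.mp hi
    have hd : (m + 2) ∣ (m + 2).choose (i + 2) :=
      hp.dvd_choose_self (by omega) (by omega)
    rw [← Nat.cast_mul, Nat.mul_div_cancel' hd]
  refine ⟨∑ i ∈ Finset.range m,
    C ((((m + 2).choose (i + 2) / (m + 2) : ℕ)) : R) * C (π ^ i) * X ^ (i + 1), fun Y => ?_⟩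
  have h' : π ^ (m + 1) = ((m + 2 : ℕ) : R) * θ := by simpa using h
  have e : m + 2 - 1 = m + 1 := by omega
  rw [e]
  rw [add_comm (1 : R) (π * Y), add_pow]
  rw [Finset.sum_range_succ, Finset.sum_range_succ', Finset.sum_range_succ']
  simp only [one_pow, mul_one, Nat.choose_self, Nat.cast_one, Nat.choose_zero_right, pow_zero,
    zero_add, pow_one, Nat.choose_one_right, eval_finsetSum, eval_mul, eval_C, eval_pow, eval_X]
  have hsum : ∑ i ∈ Finset.range m, (π * Y) ^ (i + 1 + 1) * (((m + 2).choose (i + 1 + 1) : ℕ) : R)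
      = ((m + 2 : ℕ) : R) * π * Y * (π * ∑ i ∈ Finset.range m,
          ((((m + 2).choose (i + 2) / (m + 2) : ℕ)) : R) * π ^ i * Y ^ (i + 1)) := by
    rw [Finset.mul_sum, Finset.mul_sum]
    refine Finset.sum_congr rfl fun i hi => ?_
    rw [← hdiv i hi]
    ring
  rw [hsum]
  have htop : (π * Y) ^ (m + 2) = ((m + 2 : ℕ) : R) * π * Y * (θ * Y ^ (m + 1)) := by
    have : (π * Y) ^ (m + 2) = π * π ^ (m + 1) * Y * Y ^ (m + 1) := by ring
    rw [this, h']
    ring
  rw [htop]
  ring

/-- **LF1 (rigidity)**, abstract form. -/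
theorem eq_zero_of_pow_eq_one {p : ℕ} (hp : p.Prime) {π θ : R} (h : π ^ (p - 1) = (p : R) * θ)
    (hu : ∀ a b : R, IsUnit (1 + π * a + θ * b))
    (htf : ∀ y : R, (p : R) * π * y = 0 → y = 0) {y : R} (hy : (1 + π * y) ^ p = 1) : y = 0 := by
  obtain ⟨W, hW⟩ := one_add_mul_pow hp π θ h
  have h1 := hW y
  rw [hy] at h1
  have h2 : (p : R) * π * y * (1 + π * W.eval y + θ * y ^ (p - 1)) = 0 := by
    linear_combination -h1
  exact htf y ((hu (W.eval y) (y ^ (p - 1))).mul_left_eq_zero.mp h2)

/-- **LF1 (rigidity)**, ideal form: `x ∈ (π)` and `(1 + x) ^ p = 1` force `x = 0`. -/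
theorem eq_zero_of_mem_span_of_pow_eq_one {p : ℕ} (hp : p.Prime) {π θ : R}
    (h : π ^ (p - 1) = (p : R) * θ) (hu : ∀ a b : R, IsUnit (1 + π * a + θ * b))
    (htf : ∀ y : R, (p : R) * π * y = 0 → y = 0) {x : R} (hx : x ∈ Ideal.span ({π} : Set R))
    (hxp : (1 + x) ^ p = 1) : x = 0 := by
  obtain ⟨y, rfl⟩ := Ideal.mem_span_singleton'.mp hx
  have : y = 0 := eq_zero_of_pow_eq_one hp h hu htf (y := y) (by rwa [mul_comm] at hxp)
  rw [this, zero_mul]

end Binomial

/-! ### Contractions of an adically complete module -/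

section FixedPoint

variable {S M : Type*} [CommRing S] [AddCommGroup M] [Module S M]

theorem pow_smul_top_anti (I : Ideal S) {m n : ℕ} (hmn : m ≤ n) :
    (I ^ n • ⊤ : Submodule S M) ≤ I ^ m • ⊤ :=
  Submodule.smul_mono_left (Ideal.pow_le_pow_right hmn)

/-- A contraction of a Hausdorff module has at most one fixed point. -/
theorem fixed_point_unique (I : Ideal S) [IsHausdorff I M] (Φ : M → M)
    (hΦ : ∀ (n : ℕ) (a b : M), a - b ∈ (I ^ n • ⊤ : Submodule S M) →
      Φ a - Φ b ∈ (I ^ (n + 1) • ⊤ : Submodule S M))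
    {Y Y' : M} (hY : Φ Y = Y) (hY' : Φ Y' = Y') : Y = Y' := by
  have hmem : ∀ n : ℕ, Y - Y' ∈ (I ^ n • ⊤ : Submodule S M) := by
    intro n
    induction n with
    | zero => simp
    | succ n ih =>
      have := hΦ n Y Y' ih
      rwa [hY, hY'] at this
  have : Y - Y' = 0 := by
    apply IsHausdorff.haus (I := I) inferInstance
    intro n
    rw [SModEq.sub_mem, sub_zero]
    exact hmem n
  exact sub_eq_zero.mp this

/-- A contraction of an adically complete module has a fixed point. -/
theorem exists_fixed_point (I : Ideal S) [IsAdicComplete I M] (Φ : M → M)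
    (hΦ : ∀ (n : ℕ) (a b : M), a - b ∈ (I ^ n • ⊤ : Submodule S M) →
      Φ a - Φ b ∈ (I ^ (n + 1) • ⊤ : Submodule S M)) :
    ∃ Y : M, Φ Y = Y := by
  let f : ℕ → M := fun n => Φ^[n] 0
  have hf : ∀ n, f (n + 1) = Φ (f n) := fun n => Function.iterate_succ_apply' Φ n 0
  have hstep : ∀ n, f (n + 1) - f n ∈ (I ^ n • ⊤ : Submodule S M) := by
    intro n
    induction n with
    | zero => simp
    | succ n ih =>
      have := hΦ n _ _ ih
      rwa [← hf n, ← hf (n + 1)] at this
  have hcauchy : ∀ {m n : ℕ}, m ≤ n → f m ≡ f n [SMOD (I ^ m • ⊤ : Submodule S M)] := by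
    intro m n hmn
    induction n, hmn using Nat.le_induction with
    | base => exact SModEq.rfl
    | succ n hmn ih =>
      refine ih.trans ?_
      rw [SModEq.sub_mem]
      have h2 := Submodule.neg_mem _ (pow_smul_top_anti I hmn (hstep n))
      rwa [neg_sub] at h2
  obtain ⟨L, hL⟩ := IsPrecomplete.prec (I := I) (M := M) inferInstance hcauchy
  refine ⟨L, ?_⟩
  have : Φ L - L = 0 := by
    apply IsHausdorff.haus (I := I) inferInstance
    intro n
    rw [SModEq.sub_mem, sub_zero]
    have h1 : f n - L ∈ (I ^ n • ⊤ : Submodule S M) := SModEq.sub_mem.mp (hL n)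
    have h1' : L - f n ∈ (I ^ n • ⊤ : Submodule S M) := by
      have := Submodule.neg_mem _ h1
      rwa [neg_sub] at this
    have h2 : Φ L - Φ (f n) ∈ (I ^ (n + 1) • ⊤ : Submodule S M) := hΦ n L (f n) h1'
    have h3 : f (n + 1) - L ∈ (I ^ (n + 1) • ⊤ : Submodule S M) := SModEq.sub_mem.mp (hL (n + 1))
    have h4 : Φ L - L = (Φ L - Φ (f n)) + (f (n + 1) - L) := by
      rw [hf n]; abel
    rw [h4]
    exact pow_smul_top_anti I (Nat.le_succ n) (Submodule.add_mem _ h2 h3)
  exact sub_eq_zero.mp this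

end FixedPoint

/-! ### Algebras that are adically complete as modules -/

section Algebra

variable {S R : Type*} [CommRing S] [CommRing R] [Algebra S R]

/-- `I ^ n • ⊤` is stable under multiplication by elements of `R`. -/
theorem mul_mem_pow_smul_top (I : Ideal S) (n : ℕ) (r : R) {x : R}
    (hx : x ∈ (I ^ n • ⊤ : Submodule S R)) : r * x ∈ (I ^ n • ⊤ : Submodule S R) := by
  refine Submodule.smul_induction_on hx (fun s hs m _ => ?_) (fun x y hx hy => ?_)
  · rw [mul_smul_comm]
    exact Submodule.smul_mem_smul hs Submodule.mem_top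
  · rw [mul_add]
    exact Submodule.add_mem _ hx hy

/-- Multiplying by `s ∈ I` raises the level by one. -/
theorem smul_mem_pow_succ_smul_top (I : Ideal S) (n : ℕ) {s : S} (hs : s ∈ I) {x : R}
    (hx : x ∈ (I ^ n • ⊤ : Submodule S R)) : s • x ∈ (I ^ (n + 1) • ⊤ : Submodule S R) := by
  rw [pow_succ', Submodule.mul_smul]
  exact Submodule.smul_mem_smul hs hx

/-- Multiplying by an element of `I • ⊤` raises the level by one. -/
theorem mul_mem_pow_succ_smul_top (I : Ideal S) (n : ℕ) {x y : R}
    (hx : x ∈ (I • ⊤ : Submodule S R)) (hy : y ∈ (I ^ n • ⊤ : Submodule S R)) :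
    x * y ∈ (I ^ (n + 1) • ⊤ : Submodule S R) := by
  refine Submodule.smul_induction_on hx (fun s hs m _ => ?_) (fun x y hx hy' => ?_)
  · rw [smul_mul_assoc]
    exact smul_mem_pow_succ_smul_top I n hs (mul_mem_pow_smul_top I n m hy)
  · rw [add_mul]
    exact Submodule.add_mem _ hx hy'

theorem algebraMap_mul_mem_smul_top (I : Ideal S) {s : S} (hs : s ∈ I) (r : R) :
    algebraMap S R s * r ∈ (I • ⊤ : Submodule S R) := by
  rw [← Algebra.smul_def]
  exact Submodule.smul_mem_smul hs Submodule.mem_top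

/-- In an algebra that is `I`-adically complete as a module, `1 + x` is a unit for
`x ∈ I • ⊤`. -/
theorem isUnit_one_add (I : Ideal S) [IsAdicComplete I R] {x : R}
    (hx : x ∈ (I • ⊤ : Submodule S R)) : IsUnit (1 + x) := by
  obtain ⟨Y, hY⟩ := exists_fixed_point I (fun Y : R => 1 - x * Y) (by
    intro n a b hab
    have : (1 - x * a) - (1 - x * b) = x * (-(a - b)) := by ring
    rw [this]
    exact mul_mem_pow_succ_smul_top I n hx (Submodule.neg_mem _ hab))
  exact IsUnit.of_mul_eq_one Y (by linear_combination -hY)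

/-- **LF1 (rigidity)** in the complete setting: only the torsion-freeness hypothesis is left. -/
theorem eq_zero_of_pow_eq_one_of_complete (I : Ideal S) [IsAdicComplete I R] {p : ℕ}
    (hp : p.Prime) {π θ : S} (hπ : π ∈ I) (hθ : θ ∈ I) (h : π ^ (p - 1) = (p : S) * θ)
    (htf : ∀ y : R, (p : R) * algebraMap S R π * y = 0 → y = 0) {y : R}
    (hy : (1 + algebraMap S R π * y) ^ p = 1) : y = 0 := by
  have h' : algebraMap S R π ^ (p - 1) = (p : R) * algebraMap S R θ := by
    rw [← map_pow, h, map_mul, map_natCast]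
  refine eq_zero_of_pow_eq_one hp h' (fun a b => ?_) htf hy
  rw [add_assoc]
  exact isUnit_one_add I (Submodule.add_mem _ (algebraMap_mul_mem_smul_top I hπ a)
    (algebraMap_mul_mem_smul_top I hθ b))

/-- **ROOT**: in an algebra that is `I`-adically complete as a module, with `π θ ∈ I` and
`π ^ (p - 1) = p θ`, every `1 + p π c` is the `p`-th power of some `1 + π Y`. -/
theorem exists_root (I : Ideal S) [IsAdicComplete I R] {p : ℕ} (hp : p.Prime) {π θ : S}
    (hπ : π ∈ I) (hθ : θ ∈ I) (h : π ^ (p - 1) = (p : S) * θ) (c : R) :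
    ∃ Y : R, (1 + algebraMap S R π * Y) ^ p = 1 + (p : R) * algebraMap S R π * c := by
  have h' : algebraMap S R π ^ (p - 1) = (p : R) * algebraMap S R θ := by
    rw [← map_pow, h, map_mul, map_natCast]
  obtain ⟨W, hW⟩ := one_add_mul_pow hp (algebraMap S R π) (algebraMap S R θ) h'
  obtain ⟨Y, hY⟩ := exists_fixed_point I
    (fun Y : R => c - algebraMap S R π * (X * W).eval Y - algebraMap S R θ * Y ^ p) (by
    intro n a b hab
    obtain ⟨d1, hd1⟩ := Polynomial.sub_dvd_eval_sub a b (X * W)
    obtain ⟨d2, hd2⟩ := sub_dvd_pow_sub_pow a b p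
    have : (c - algebraMap S R π * (X * W).eval a - algebraMap S R θ * a ^ p)
        - (c - algebraMap S R π * (X * W).eval b - algebraMap S R θ * b ^ p)
        = algebraMap S R π * (-d1) * (a - b) + algebraMap S R θ * (-d2) * (a - b) := by
      linear_combination (-(algebraMap S R π)) * hd1 - (algebraMap S R θ) * hd2
    rw [this]
    exact Submodule.add_mem _
      (mul_mem_pow_succ_smul_top I n (algebraMap_mul_mem_smul_top I hπ _) hab)
      (mul_mem_pow_succ_smul_top I n (algebraMap_mul_mem_smul_top I hθ _) hab))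
  refine ⟨Y, ?_⟩
  have hp1 : Y * Y ^ (p - 1) = Y ^ p := by
    rw [← pow_succ', Nat.sub_add_cancel hp.one_le]
  simp only [eval_mul, eval_X] at hY
  rw [hW Y]
  linear_combination ((p : R) * algebraMap S R π * algebraMap S R θ) * hp1
    - ((p : R) * algebraMap S R π) * hY

/-- Uniqueness in **ROOT** when `p π` is a non-zero-divisor. -/
theorem root_unique (I : Ideal S) [IsAdicComplete I R] {p : ℕ} (hp : p.Prime) {π θ : S}
    (hπ : π ∈ I) (hθ : θ ∈ I) (h : π ^ (p - 1) = (p : S) * θ)
    (htf : ∀ y : R, (p : R) * algebraMap S R π * y = 0 → y = 0) {Y Y' : R}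
    (hYY' : (1 + algebraMap S R π * Y) ^ p = (1 + algebraMap S R π * Y') ^ p) : Y = Y' := by
  obtain ⟨u, hu⟩ := isUnit_one_add I (algebraMap_mul_mem_smul_top I hπ Y)
  have hv : (1 + algebraMap S R π * Y) * (↑u⁻¹ : R) = 1 := by rw [← hu]; exact u.mul_inv
  have hkey : (1 + algebraMap S R π * ((Y' - Y) * (↑u⁻¹ : R))) ^ p = 1 := by
    have e : 1 + algebraMap S R π * ((Y' - Y) * (↑u⁻¹ : R))
        = (1 + algebraMap S R π * Y') * (↑u⁻¹ : R) := by
      linear_combination -hv
    rw [e, mul_pow, ← hYY', ← mul_pow, hv, one_pow]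
  have h0 := eq_zero_of_pow_eq_one_of_complete I hp hπ hθ h htf hkey
  have h1 : Y' - Y = 0 := by
    have := congrArg (fun z => z * (u : R)) h0
    simpa [mul_assoc] using this
  exact (sub_eq_zero.mp h1).symm

end Algebra

end Fermat.Agent.S56.LF.Root
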