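import Mathlib

/-!
# S56, brick LF, row C3 (Kummer twin): the Kummer dictionary over an arbitrary Galois extension

Generic-base twin of `CFT/Kummer/Gen.lean` (number fields inside `ℚ̄`) and of the resolvent lemma
of `S14/Wiring/Kummer.lean`: `Ω / F` is ANY Galois extension (finite or not; the application is
`F = ℚ_p`, `Ω = PadicAlgCl p`), `K ≤ Ω` an intermediate field containing a primitive `p`-th root
of unity `ζ`, `G_K = K.fixingSubgroup`.

* `IsKummerGen K ζ c θ` : `θ ≠ 0`, `θ ^ p ∈ K` and `σ θ = ζ ^ (c σ) * θ` for all `σ ∈ G_K`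
  (`θ` is a Kummer generator of the character `c : Gal(Ω/F) → ZMod p` on `G_K`).
* `exists_isKummerGen` (G1): every `c` which is additive on `G_K` and of finite level has a
  Kummer generator.
* `IsKummerGen.div_mem` (G2): two generators of the same character differ by an element of `K`.
* `exists_char_of_pow_mem` (G3): conversely every `p`-th root of an element of `Kˣ` is a Kummer
  generator of a character which is additive on `G_K`.
* `IsKummerGen.mul`, `IsKummerGen.pow`, `IsKummerGen.one` : the dictionary is additive.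
* `IsKummerGen.eq_zero_of_mem`, `IsKummerGen.mem_of_eq_zero` : the character vanishes on `G_K`
  iff the generator lies in `K`.
* `IsKummerGen.conj` (G4): for `s ∈ Gal(Ω/F)` with `s K ⊆ K` and `s ζ = ζ ^ m`, the conjugate
  `s θ` is a Kummer generator of `g ↦ m * c (s⁻¹ g s)`.
-/

set_option autoImplicit false

open scoped IntermediateField

namespace Fermat.Agent.S56.LF.KummerGen

section Group

/-- If `g ^ m ∈ N` and `g ^ p ∈ N` with `m` prime to `p`, then `g ∈ N`. -/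
theorem mem_of_pow_mem_of_coprime {G : Type*} [Group G] (N : Subgroup G) (g : G) {m p : ℕ}
    (hmp : Nat.Coprime m p) (hm : g ^ m ∈ N) (hp : g ^ p ∈ N) : g ∈ N := by
  have h1 : g ^ (Nat.gcd m p : ℤ) ∈ N := by
    rw [Nat.gcd_eq_gcd_ab, zpow_add, zpow_mul, zpow_mul]
    refine N.mul_mem (N.zpow_mem ?_ _) (N.zpow_mem ?_ _)
    · simpa using hm
    · simpa using hp
  rw [hmp.gcd_eq_one] at h1
  simpa using h1

/-- Exponents of a primitive `p`-th root of unity are determined modulo `p`. -/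
theorem natCast_eq_of_pow_eq_pow_val {p : ℕ} [NeZero p] {R : Type*} [CommMonoid R] {z : R}
    (hz : IsPrimitiveRoot z p) (n : ℕ) (k : ZMod p) (h : z ^ n = z ^ k.val) :
    (n : ZMod p) = k := by
  rw [pow_eq_pow_mod n hz.pow_eq_one] at h
  have h1 : n % p = k.val := hz.pow_inj (Nat.mod_lt _ (NeZero.pos p)) (ZMod.val_lt k) h
  rw [← ZMod.natCast_mod n p, h1, ZMod.natCast_zmod_val]

/-- `z ^ a.val * z ^ b.val = z ^ (a + b).val` for `z ^ p = 1`. -/
theorem pow_val_add {p : ℕ} [NeZero p] {R : Type*} [CommMonoid R] {z : R} (hz : z ^ p = 1)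
    (a b : ZMod p) : z ^ (a + b).val = z ^ a.val * z ^ b.val := by
  rw [← pow_add, ZMod.val_add, pow_eq_pow_mod (a.val + b.val) hz]

/-- `(z ^ a.val) ^ n = z ^ (n * a).val` for `z ^ p = 1`. -/
theorem pow_val_mul {p : ℕ} [NeZero p] {R : Type*} [CommMonoid R] {z : R} (hz : z ^ p = 1)
    (n : ℕ) (a : ZMod p) : z ^ ((n : ZMod p) * a).val = (z ^ a.val) ^ n := by
  have h1 : (z ^ a.val) ^ p = 1 := by rw [← pow_mul, mul_comm, pow_mul, hz, one_pow]
  rw [ZMod.val_mul, ZMod.val_natCast, ← pow_eq_pow_mod _ hz, mul_comm, pow_mul,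
    ← pow_eq_pow_mod n h1]

end Group

variable {F Ω : Type*} [Field F] [Field Ω] [Algebra F Ω]

/-- An element of `Ω` fixed by `G_K` lies in `K`. -/
theorem mem_of_forall_fixingSubgroup [IsGalois F Ω] (K : IntermediateField F Ω) (x : Ω)
    (hx : ∀ τ ∈ K.fixingSubgroup, τ x = x) : x ∈ K := by
  have hfixedK : IntermediateField.fixedField K.fixingSubgroup = K :=
    InfiniteGalois.fixedField_fixingSubgroup K
  rw [← hfixedK, IntermediateField.mem_fixedField_iff]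
  exact hx

/-- Dedekind independence: a Lagrange resolvent which does not vanish. -/
theorem exists_resolvent_ne_zero [IsGalois F Ω] {p : ℕ} (hp : p.Prime) (ζ : Ω)
    (N : Subgroup (Ω ≃ₐ[F] Ω)) (hNcl : IsClosed (N : Set (Ω ≃ₐ[F] Ω)))
    (g0 : Ω ≃ₐ[F] Ω) (hg0N : g0 ∉ N) (hpow : g0 ^ p ∈ N) :
    ∃ y : Ω, (∀ n ∈ N, n y = y) ∧ ∑ i ∈ Finset.range p, ζ⁻¹ ^ i * (g0 ^ i) y ≠ 0 := by
  set L : IntermediateField F Ω := IntermediateField.fixedField N with hL
  have hfix : L.fixingSubgroup = N :=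
    InfiniteGalois.fixingSubgroup_fixedField ⟨N, hNcl⟩
  -- the monoid homs `g0 ^ i` restricted to `L`
  let f : Fin p → (L →* Ω) := fun i =>
    ((g0 ^ (i : ℕ) : Ω ≃ₐ[F] Ω) : Ω →* Ω).comp (L.val : L →* Ω)
  have hf_apply : ∀ (i : Fin p) (y : L), f i y = (g0 ^ (i : ℕ)) (y : Ω) := fun i y => rfl
  have hinj : Function.Injective f := by
    intro i k hik
    by_contra hne
    wlog hlt : (i : ℕ) < (k : ℕ) generalizing i k
    · exact this hik.symm (Ne.symm hne) (lt_of_le_of_ne (not_lt.mp hlt)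
        (fun h => hne (Fin.ext h.symm)))
    have hmem : g0 ^ ((k : ℕ) - (i : ℕ)) ∈ N := by
      rw [← hfix]
      rw [IntermediateField.mem_fixingSubgroup_iff]
      intro y hy
      have h1 : (g0 ^ (i : ℕ)) y = (g0 ^ (k : ℕ)) y := by
        have := congrArg (fun φ : L →* Ω => φ ⟨y, hy⟩) hik
        simpa [hf_apply] using this
      have h2 : g0 ^ (k : ℕ) = g0 ^ (i : ℕ) * g0 ^ ((k : ℕ) - (i : ℕ)) := by
        rw [← pow_add]; congr 1; omega
      rw [h2, AlgEquiv.mul_apply] at h1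
      exact ((g0 ^ (i : ℕ)).injective h1).symm
    have hcop : Nat.Coprime ((k : ℕ) - (i : ℕ)) p := by
      rw [Nat.coprime_comm]
      refine (Nat.Prime.coprime_iff_not_dvd hp).mpr ?_
      intro hdvd
      have := Nat.le_of_dvd (by omega) hdvd
      have := k.isLt
      omega
    exact hg0N (mem_of_pow_mem_of_coprime N g0 hcop hmem hpow)
  have hli : LinearIndependent Ω (fun i : Fin p => (f i : L → Ω)) :=
    (linearIndependent_monoidHom L Ω).comp f hinj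
  by_contra hcon
  push Not at hcon
  have hzero : ∑ i : Fin p, (ζ⁻¹ ^ (i : ℕ)) • (f i : L → Ω) = 0 := by
    funext y
    have h0 := hcon (y : Ω) (fun n hn => by
      have : (y : Ω) ∈ IntermediateField.fixedField N := y.2
      rw [IntermediateField.mem_fixedField_iff] at this
      exact this n hn)
    rw [Finset.sum_apply]
    simp only [Pi.smul_apply, smul_eq_mul, Pi.zero_apply, hf_apply]
    rw [← h0, Finset.sum_range]
  have hcoef := (Fintype.linearIndependent_iff.mp hli) (fun i => ζ⁻¹ ^ (i : ℕ)) hzero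
    ⟨0, hp.pos⟩
  simp at hcoef

/-- Every element of `Ω` is fixed by the fixing subgroup of a finite subextension. -/
theorem exists_finite_level [IsGalois F Ω] (θ : Ω) :
    ∃ F' : IntermediateField F Ω, FiniteDimensional F F' ∧ ∀ s ∈ F'.fixingSubgroup, s θ = θ := by
  refine ⟨F⟮θ⟯, IntermediateField.adjoin.finiteDimensional (IsGalois.integral F θ),
    fun s hs => ?_⟩
  exact (IntermediateField.mem_fixingSubgroup_iff _ s).mp hs θ
    (IntermediateField.mem_adjoin_simple_self F θ)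

/-- `θ` is a **Kummer generator** of the character `c` on `G_K`: `θ ≠ 0`, `θ ^ p ∈ K` and
`σ θ = ζ ^ (c σ) * θ` for all `σ ∈ G_K`. -/
def IsKummerGen {p : ℕ} (K : IntermediateField F Ω) (ζ : K) (c : (Ω ≃ₐ[F] Ω) → ZMod p)
    (θ : Ω) : Prop :=
  θ ≠ 0 ∧ θ ^ p ∈ K ∧ ∀ σ ∈ K.fixingSubgroup, σ θ = (ζ : Ω) ^ (c σ).val * θ

/-- **(G1)** Kummer generator of an additive character of `G_K` of finite level. -/
theorem exists_kummer_of_hom [IsGalois F Ω] {p : ℕ} [Fact p.Prime] (K : IntermediateField F Ω)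
    [FiniteDimensional F K] (ζ : K) (hζ : IsPrimitiveRoot ζ p) (c : (Ω ≃ₐ[F] Ω) → ZMod p)
    (hadd : ∀ σ ∈ K.fixingSubgroup, ∀ τ ∈ K.fixingSubgroup, c (σ * τ) = c σ + c τ)
    (hlev : ∃ F' : IntermediateField F Ω, FiniteDimensional F F' ∧
      ∀ s ∈ F'.fixingSubgroup, s ∈ K.fixingSubgroup → c s = 0) :
    ∃ (α : K) (θ : Ω), α ≠ 0 ∧ θ ^ p = (α : Ω) ∧
      ∀ σ ∈ K.fixingSubgroup, σ θ = (ζ : Ω) ^ (c σ).val * θ := by
  classical
  have hp : p.Prime := Fact.out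
  have : NeZero p := ⟨hp.ne_zero⟩
  set z : Ω := (ζ : Ω) with hz
  have hzprim : IsPrimitiveRoot z p := hζ.map_of_injective (f := K.val) K.val.injective
  have hz0 : z ≠ 0 := hzprim.ne_zero hp.ne_zero
  have hzp : z ^ p = 1 := hzprim.pow_eq_one
  have hfixz : ∀ τ ∈ K.fixingSubgroup, τ z = z := fun τ hτ =>
    (IntermediateField.mem_fixingSubgroup_iff K τ).mp hτ z ζ.2
  have hc1 : c 1 = 0 := by
    have h := hadd 1 (one_mem _) 1 (one_mem _)
    rw [mul_one] at h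
    exact left_eq_add.mp h
  have hcinv : ∀ σ ∈ K.fixingSubgroup, c σ⁻¹ = - c σ := by
    intro σ hσ
    have h := hadd σ hσ σ⁻¹ (inv_mem hσ)
    rw [mul_inv_cancel, hc1] at h
    exact eq_neg_of_add_eq_zero_right h.symm
  have hcpow : ∀ σ ∈ K.fixingSubgroup, ∀ n : ℕ, c (σ ^ n) = n * c σ := by
    intro σ hσ n
    induction n with
    | zero => simp [hc1]
    | succ n ih =>
      rw [pow_succ, hadd _ (pow_mem hσ n) _ hσ, ih]
      push_cast
      ring
  by_cases htriv : ∀ σ ∈ K.fixingSubgroup, c σ = 0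
  · refine ⟨1, 1, one_ne_zero, by simp, fun σ hσ => ?_⟩
    rw [htriv σ hσ]
    simp
  push Not at htriv
  obtain ⟨g, hgK, hg⟩ := htriv
  -- normalise the generator
  set g0 : Ω ≃ₐ[F] Ω := g ^ ((c g)⁻¹).val with hg0
  have hg0K : g0 ∈ K.fixingSubgroup := pow_mem hgK _
  have hcg0 : c g0 = 1 := by
    rw [hg0, hcpow g hgK, ZMod.natCast_zmod_val, inv_mul_cancel₀ hg]
  -- the kernel
  let N : Subgroup (Ω ≃ₐ[F] Ω) :=
    { carrier := {σ | σ ∈ K.fixingSubgroup ∧ c σ = 0}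
      one_mem' := ⟨one_mem _, hc1⟩
      mul_mem' := fun {a b} ha hb =>
        ⟨mul_mem ha.1 hb.1, by rw [hadd a ha.1 b hb.1, ha.2, hb.2, add_zero]⟩
      inv_mem' := fun {a} ha => ⟨inv_mem ha.1, by rw [hcinv a ha.1, ha.2, neg_zero]⟩ }
  have hNmem : ∀ σ, σ ∈ N ↔ σ ∈ K.fixingSubgroup ∧ c σ = 0 := fun σ => Iff.rfl
  have hNK : N ≤ K.fixingSubgroup := fun σ hσ => hσ.1
  have hNcl : IsClosed (N : Set (Ω ≃ₐ[F] Ω)) := by
    obtain ⟨F', hF', hFc⟩ := hlev
    have hle : (F' ⊔ K).fixingSubgroup ≤ N := by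
      intro s hs
      rw [IntermediateField.fixingSubgroup_sup] at hs
      exact ⟨hs.2, hFc s hs.1 hs.2⟩
    have hfd : FiniteDimensional F ↥(F' ⊔ K) := IntermediateField.finiteDimensional_sup F' K
    have hopen : IsOpen ((F' ⊔ K).fixingSubgroup : Set (Ω ≃ₐ[F] Ω)) :=
      IntermediateField.fixingSubgroup_isOpen (F' ⊔ K)
    exact Subgroup.isClosed_of_isOpen N (Subgroup.isOpen_mono hle hopen)
  have hg0N : g0 ∉ N := fun h => by
    rw [hNmem, hcg0] at h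
    exact one_ne_zero h.2
  have hpow : g0 ^ p ∈ N :=
    ⟨pow_mem hg0K p, by rw [hcpow g0 hg0K, hcg0, mul_one]; exact ZMod.natCast_self p⟩
  obtain ⟨y, hyN, hθ0⟩ := exists_resolvent_ne_zero hp z N hNcl g0 hg0N hpow
  set θ : Ω := ∑ i ∈ Finset.range p, z⁻¹ ^ i * (g0 ^ i) y with hθdef
  have hg0z : g0 z = z := hfixz g0 hg0K
  have hg0py : (g0 ^ p) y = y := hyN _ hpow
  -- `g0 θ = z θ`
  have hg0θ : g0 θ = z * θ := by
    have h1 : g0 θ = ∑ i ∈ Finset.range p, z⁻¹ ^ i * (g0 ^ (i + 1)) y := by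
      rw [hθdef, map_sum]
      refine Finset.sum_congr rfl fun i _ => ?_
      rw [map_mul, map_pow, map_inv₀, hg0z, pow_succ', AlgEquiv.mul_apply]
    have h2 : z * θ = ∑ i ∈ Finset.range p, z⁻¹ ^ i * z * (g0 ^ i) y := by
      rw [hθdef, Finset.mul_sum]
      refine Finset.sum_congr rfl fun i _ => ?_
      ring
    have h3 : ∑ i ∈ Finset.range p, z⁻¹ ^ i * z * (g0 ^ i) y
        = ∑ i ∈ Finset.range p, z⁻¹ ^ i * (g0 ^ (i + 1)) y := by
      have hA : ∑ i ∈ Finset.range (p + 1), z⁻¹ ^ i * z * (g0 ^ i) y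
          = ∑ i ∈ Finset.range p, z⁻¹ ^ i * (g0 ^ (i + 1)) y + z * y := by
        rw [Finset.sum_range_succ']
        congr 1
        · refine Finset.sum_congr rfl fun i _ => ?_
          rw [pow_succ, mul_assoc (z⁻¹ ^ i), inv_mul_cancel₀ hz0, mul_one]
        · simp
      have hB : ∑ i ∈ Finset.range (p + 1), z⁻¹ ^ i * z * (g0 ^ i) y
          = ∑ i ∈ Finset.range p, z⁻¹ ^ i * z * (g0 ^ i) y + z * y := by
        rw [Finset.sum_range_succ, hg0py, inv_pow, hzp, inv_one, one_mul]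
      exact add_right_cancel (hB.symm.trans hA)
    rw [h1, h2, h3]
  -- `N` fixes `θ`
  have hNθ : ∀ σ ∈ N, σ θ = θ := by
    intro σ hσ
    have hσz : σ z = z := hfixz σ (hNK hσ)
    rw [hθdef, map_sum]
    refine Finset.sum_congr rfl fun i _ => ?_
    rw [map_mul, map_pow, map_inv₀, hσz]
    congr 1
    have hconjmem : (g0 ^ i)⁻¹ * σ * (g0 ^ i) ∈ N := by
      have hgi : g0 ^ i ∈ K.fixingSubgroup := pow_mem hg0K i
      refine ⟨mul_mem (mul_mem (inv_mem hgi) hσ.1) hgi, ?_⟩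
      rw [hadd _ (mul_mem (inv_mem hgi) hσ.1) _ hgi, hadd _ (inv_mem hgi) _ hσ.1, hcinv _ hgi,
        hσ.2]
      ring
    have h4 : σ * g0 ^ i = g0 ^ i * ((g0 ^ i)⁻¹ * σ * (g0 ^ i)) := by group
    calc σ ((g0 ^ i) y) = (σ * g0 ^ i) y := rfl
      _ = (g0 ^ i * ((g0 ^ i)⁻¹ * σ * (g0 ^ i))) y := by rw [h4]
      _ = (g0 ^ i) (((g0 ^ i)⁻¹ * σ * (g0 ^ i)) y) := rfl
      _ = (g0 ^ i) y := by rw [hyN _ hconjmem]
  have hg0kθ : ∀ k : ℕ, (g0 ^ k) θ = z ^ k * θ := by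
    intro k
    induction k with
    | zero => simp
    | succ k ih =>
      rw [pow_succ', AlgEquiv.mul_apply, ih, map_mul, map_pow, hg0z, hg0θ, pow_succ]
      ring
  have hGKθ : ∀ τ ∈ K.fixingSubgroup, τ θ = z ^ (c τ).val * θ := by
    intro τ hτ
    set k := (c τ).val with hk
    have hmem : (g0 ^ k)⁻¹ * τ ∈ N := by
      have hgk : g0 ^ k ∈ K.fixingSubgroup := pow_mem hg0K k
      refine ⟨mul_mem (inv_mem hgk) hτ, ?_⟩
      rw [hadd _ (inv_mem hgk) _ hτ, hcinv _ hgk, hcpow g0 hg0K, hcg0, mul_one, hk,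
        ZMod.natCast_zmod_val]
      ring
    have h5 : τ = g0 ^ k * ((g0 ^ k)⁻¹ * τ) := by group
    calc τ θ = (g0 ^ k * ((g0 ^ k)⁻¹ * τ)) θ := by rw [← h5]
      _ = (g0 ^ k) (((g0 ^ k)⁻¹ * τ) θ) := rfl
      _ = (g0 ^ k) θ := by rw [hNθ _ hmem]
      _ = z ^ k * θ := hg0kθ k
  have hθpK : θ ^ p ∈ K := by
    refine mem_of_forall_fixingSubgroup K _ fun τ hτ => ?_
    rw [map_pow, hGKθ τ hτ, mul_pow, ← pow_mul, mul_comm _ p, pow_mul, hzp, one_pow, one_mul]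
  refine ⟨⟨θ ^ p, hθpK⟩, θ, ?_, rfl, hGKθ⟩
  intro h0
  have h1 : θ ^ p = 0 := congrArg (fun a : K => (a : Ω)) h0
  exact hθ0 ((pow_eq_zero_iff hp.ne_zero).mp h1)

/-- **(G1)**, predicate form. -/
theorem exists_isKummerGen [IsGalois F Ω] {p : ℕ} [Fact p.Prime] (K : IntermediateField F Ω)
    [FiniteDimensional F K] (ζ : K) (hζ : IsPrimitiveRoot ζ p) (c : (Ω ≃ₐ[F] Ω) → ZMod p)
    (hadd : ∀ σ ∈ K.fixingSubgroup, ∀ τ ∈ K.fixingSubgroup, c (σ * τ) = c σ + c τ)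
    (hlev : ∃ F' : IntermediateField F Ω, FiniteDimensional F F' ∧
      ∀ s ∈ F'.fixingSubgroup, s ∈ K.fixingSubgroup → c s = 0) :
    ∃ θ : Ω, IsKummerGen K ζ c θ := by
  have hp : p.Prime := Fact.out
  obtain ⟨α, θ, hα, hθ, h⟩ := exists_kummer_of_hom K ζ hζ c hadd hlev
  refine ⟨θ, ?_, ?_, h⟩
  · rintro rfl
    rw [zero_pow hp.ne_zero] at hθ
    exact hα (Subtype.ext hθ.symm)
  · rw [hθ]; exact α.2

/-- **(G2)** Two Kummer generators with the same character differ by an element of `K`. -/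
theorem div_mem_of_same_char [IsGalois F Ω] (K : IntermediateField F Ω) (θ θ' : Ω)
    (hθ' : θ' ≠ 0)
    (h : ∀ σ ∈ K.fixingSubgroup, σ θ * θ' = θ * σ θ') : θ / θ' ∈ K := by
  refine mem_of_forall_fixingSubgroup K _ fun σ hσ => ?_
  have hσθ' : σ θ' ≠ 0 := by
    intro h0
    exact hθ' (by simpa using h0)
  rw [map_div₀, div_eq_div_iff hσθ' hθ']
  exact h σ hσ

/-- **(G3)** The Kummer character of a `p`-th root `θ` of an element of `Kˣ`: it is additive on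
`G_K`, constant on the cosets `g * Stab(θ)`, and vanishes on `G_K` exactly at the stabiliser of
`θ`. -/
theorem exists_hom_of_kummer {p : ℕ} [Fact p.Prime] (K : IntermediateField F Ω) (ζ : K)
    (hζ : IsPrimitiveRoot ζ p) (θ : Ω) (α : K) (hα : α ≠ 0) (hθ : θ ^ p = (α : Ω)) :
    ∃ c : (Ω ≃ₐ[F] Ω) → ZMod p,
      (∀ σ ∈ K.fixingSubgroup, σ θ = (ζ : Ω) ^ (c σ).val * θ) ∧
      (∀ σ ∈ K.fixingSubgroup, ∀ τ ∈ K.fixingSubgroup, c (σ * τ) = c σ + c τ) ∧
      (∀ g s : Ω ≃ₐ[F] Ω, s θ = θ → c (g * s) = c g) ∧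
      (∀ σ ∈ K.fixingSubgroup, (c σ = 0 ↔ σ θ = θ)) := by
  classical
  have hp : p.Prime := Fact.out
  have : NeZero p := ⟨hp.ne_zero⟩
  set z : Ω := (ζ : Ω) with hz
  have hzprim : IsPrimitiveRoot z p := hζ.map_of_injective (f := K.val) K.val.injective
  have hzp : z ^ p = 1 := hzprim.pow_eq_one
  have hfixz : ∀ τ ∈ K.fixingSubgroup, τ z = z := fun τ hτ =>
    (IntermediateField.mem_fixingSubgroup_iff K τ).mp hτ z ζ.2
  have hα' : (α : Ω) ≠ 0 := by simpa using hα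
  have hθ0 : θ ≠ 0 := by
    rintro rfl
    rw [zero_pow hp.ne_zero] at hθ
    exact hα' hθ.symm
  let f : Ω → ZMod p := fun w =>
    if h : ∃ k : ZMod p, w = z ^ k.val * θ then h.choose else 0
  have hf : ∀ w : Ω, (∃ k : ZMod p, w = z ^ k.val * θ) → w = z ^ (f w).val * θ := by
    intro w h
    simp only [f, dif_pos h]
    exact h.choose_spec
  have hex : ∀ σ ∈ K.fixingSubgroup, ∃ k : ZMod p, σ θ = z ^ k.val * θ := by
    intro σ hσ
    have hσα : σ (α : Ω) = α := (IntermediateField.mem_fixingSubgroup_iff K σ).mp hσ α α.2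
    have h1 : (σ θ / θ) ^ p = 1 := by
      rw [div_pow, ← map_pow, hθ, hσα, div_self hα']
    obtain ⟨i, hi, hi'⟩ := hzprim.eq_pow_of_pow_eq_one h1
    refine ⟨(i : ZMod p), ?_⟩
    rw [ZMod.val_natCast, Nat.mod_eq_of_lt hi, hi', div_mul_cancel₀ _ hθ0]
  have hspec : ∀ σ ∈ K.fixingSubgroup, σ θ = z ^ (f (σ θ)).val * θ := fun σ hσ =>
    hf _ (hex σ hσ)
  refine ⟨fun σ => f (σ θ), hspec, ?_, ?_, ?_⟩
  · intro σ hσ τ hτ
    show f ((σ * τ) θ) = f (σ θ) + f (τ θ)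
    have hσθ := hspec σ hσ
    have hτθ := hspec τ hτ
    have hστθ := hspec (σ * τ) (mul_mem hσ hτ)
    generalize f ((σ * τ) θ) = d at hστθ ⊢
    generalize f (σ θ) = a at hσθ ⊢
    generalize f (τ θ) = b at hτθ ⊢
    have h1 : (σ * τ) θ = z ^ (a.val + b.val) * θ := by
      rw [AlgEquiv.mul_apply, hτθ, map_mul, map_pow, hfixz σ hσ, hσθ, pow_add]
      ring
    rw [h1] at hστθ
    have h3 : z ^ (a.val + b.val) = z ^ d.val := mul_right_cancel₀ hθ0 hστθ
    have h4 := natCast_eq_of_pow_eq_pow_val hzprim _ _ h3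
    rw [← h4]
    push_cast
    rw [ZMod.natCast_zmod_val, ZMod.natCast_zmod_val]
  · intro g s hs
    show f ((g * s) θ) = f (g θ)
    rw [AlgEquiv.mul_apply, hs]
  · intro σ hσ
    show f (σ θ) = 0 ↔ σ θ = θ
    constructor
    · intro h0
      have h1 := hspec σ hσ
      rw [h0] at h1
      simpa using h1
    · intro h0
      have h1 := hspec σ hσ
      have h2 : z ^ 0 = z ^ (f (σ θ)).val := by
        have h3 : 1 * θ = z ^ (f (σ θ)).val * θ := by
          rw [one_mul]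
          conv_lhs => rw [← h0]
          exact h1
        rw [pow_zero]
        exact mul_right_cancel₀ hθ0 h3
      have h4 := natCast_eq_of_pow_eq_pow_val hzprim 0 _ h2
      rw [← h4]
      simp

/-- **(G3)**, predicate form: every `θ ≠ 0` with `θ ^ p ∈ K` is a Kummer generator of a
character which is additive on `G_K` and constant on the cosets of the stabiliser of `θ`. -/
theorem exists_char_of_pow_mem {p : ℕ} [Fact p.Prime] (K : IntermediateField F Ω) (ζ : K)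
    (hζ : IsPrimitiveRoot ζ p) (θ : Ω) (hθ0 : θ ≠ 0) (hθ : θ ^ p ∈ K) :
    ∃ c : (Ω ≃ₐ[F] Ω) → ZMod p, IsKummerGen K ζ c θ ∧
      (∀ σ ∈ K.fixingSubgroup, ∀ τ ∈ K.fixingSubgroup, c (σ * τ) = c σ + c τ) ∧
      (∀ g s : Ω ≃ₐ[F] Ω, s θ = θ → c (g * s) = c g) ∧
      (∀ σ ∈ K.fixingSubgroup, (c σ = 0 ↔ σ θ = θ)) := by
  have hp : p.Prime := Fact.out
  have hα : (⟨θ ^ p, hθ⟩ : K) ≠ 0 := by
    intro h0
    have h1 : θ ^ p = 0 := congrArg (fun a : K => (a : Ω)) h0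
    exact hθ0 ((pow_eq_zero_iff hp.ne_zero).mp h1)
  obtain ⟨c, h1, h2, h3, h4⟩ := exists_hom_of_kummer K ζ hζ θ ⟨θ ^ p, hθ⟩ hα rfl
  exact ⟨c, ⟨hθ0, hθ, h1⟩, h2, h3, h4⟩

namespace IsKummerGen

variable {p : ℕ} {K : IntermediateField F Ω} {ζ : K} {c c' : (Ω ≃ₐ[F] Ω) → ZMod p}
  {θ θ' : Ω}

theorem ne_zero (h : IsKummerGen K ζ c θ) : θ ≠ 0 := h.1

theorem pow_mem (h : IsKummerGen K ζ c θ) : θ ^ p ∈ K := h.2.1

theorem apply (h : IsKummerGen K ζ c θ) {σ : Ω ≃ₐ[F] Ω} (hσ : σ ∈ K.fixingSubgroup) :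
    σ θ = (ζ : Ω) ^ (c σ).val * θ := h.2.2 σ hσ

/-- Only the values of the character on `G_K` matter. -/
theorem congr (h : IsKummerGen K ζ c θ) (hc : ∀ σ ∈ K.fixingSubgroup, c σ = c' σ) :
    IsKummerGen K ζ c' θ :=
  ⟨h.1, h.2.1, fun σ hσ => by rw [← hc σ hσ]; exact h.2.2 σ hσ⟩

/-- The trivial character is generated by `1`. -/
theorem one : IsKummerGen K ζ (fun _ => (0 : ZMod p)) (1 : Ω) := by
  refine ⟨one_ne_zero, ?_, fun σ _ => ?_⟩
  · rw [one_pow]; exact K.one_mem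
  · by_cases hp : p = 0
    · subst hp
      simp
    · have : NeZero p := ⟨hp⟩
      simp

/-- Every nonzero element of `K` generates the trivial character. -/
theorem of_mem {x : Ω} (hx : x ∈ K) (hx0 : x ≠ 0) :
    IsKummerGen K ζ (fun _ => (0 : ZMod p)) x := by
  refine ⟨hx0, _root_.pow_mem hx p, fun σ hσ => ?_⟩
  have h1 : σ x = x := (IntermediateField.mem_fixingSubgroup_iff K σ).mp hσ x hx
  by_cases hp : p = 0
  · subst hp
    simp [h1]
  · have : NeZero p := ⟨hp⟩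
    simp [h1]

/-- **(G2)** Two Kummer generators of the same character differ by an element of `K`. -/
theorem div_mem [IsGalois F Ω] (h : IsKummerGen K ζ c θ) (h' : IsKummerGen K ζ c θ') :
    θ / θ' ∈ K := by
  refine div_mem_of_same_char K θ θ' h'.1 fun σ hσ => ?_
  rw [h.2.2 σ hσ, h'.2.2 σ hσ]
  ring

/-- The dictionary is additive. -/
theorem mul [NeZero p] (hζ : (ζ : Ω) ^ p = 1) (h : IsKummerGen K ζ c θ)
    (h' : IsKummerGen K ζ c' θ') : IsKummerGen K ζ (fun σ => c σ + c' σ) (θ * θ') := by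
  refine ⟨mul_ne_zero h.1 h'.1, ?_, fun σ hσ => ?_⟩
  · rw [mul_pow]; exact K.mul_mem h.2.1 h'.2.1
  · show σ (θ * θ') = (ζ : Ω) ^ (c σ + c' σ).val * (θ * θ')
    rw [map_mul, h.2.2 σ hσ, h'.2.2 σ hσ, pow_val_add hζ]
    ring

/-- Multiplying a generator by a nonzero element of `K` does not change the character. -/
theorem mul_mem [NeZero p] (hζ : (ζ : Ω) ^ p = 1) (h : IsKummerGen K ζ c θ) {x : Ω}
    (hx : x ∈ K) (hx0 : x ≠ 0) : IsKummerGen K ζ c (θ * x) :=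
  (h.mul hζ (of_mem (ζ := ζ) hx hx0)).congr fun _ _ => add_zero _

/-- Powers: `θ ^ n` generates `n * c`. -/
theorem pow [NeZero p] (hζ : (ζ : Ω) ^ p = 1) (h : IsKummerGen K ζ c θ) (n : ℕ) :
    IsKummerGen K ζ (fun σ => (n : ZMod p) * c σ) (θ ^ n) := by
  refine ⟨pow_ne_zero n h.1, ?_, fun σ hσ => ?_⟩
  · rw [← pow_mul, mul_comm, pow_mul]; exact _root_.pow_mem h.2.1 n
  · show σ (θ ^ n) = (ζ : Ω) ^ ((n : ZMod p) * c σ).val * θ ^ n
    rw [map_pow, h.2.2 σ hσ, mul_pow, pow_val_mul hζ]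

/-- The inverse of a generator generates the opposite character. -/
theorem inv [NeZero p] (hζ : (ζ : Ω) ^ p = 1) (h : IsKummerGen K ζ c θ) :
    IsKummerGen K ζ (fun σ => - c σ) θ⁻¹ := by
  refine ⟨inv_ne_zero h.1, ?_, fun σ hσ => ?_⟩
  · rw [inv_pow]; exact K.inv_mem h.2.1
  · show σ θ⁻¹ = (ζ : Ω) ^ (- c σ).val * θ⁻¹
    have h1 : (ζ : Ω) ^ (- c σ).val * (ζ : Ω) ^ (c σ).val = 1 := by
      rw [← pow_val_add hζ, neg_add_cancel, ZMod.val_zero, pow_zero]
    rw [map_inv₀, h.2.2 σ hσ, mul_inv, eq_inv_of_mul_eq_one_left h1]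

/-- An element of `G_K` which fixes the generator lies in the kernel of the character. -/
theorem eq_zero_of_apply_eq [NeZero p] (hζ : IsPrimitiveRoot (ζ : Ω) p)
    (h : IsKummerGen K ζ c θ) {σ : Ω ≃ₐ[F] Ω} (hσ : σ ∈ K.fixingSubgroup) (h1 : σ θ = θ) :
    c σ = 0 := by
  have h2 := h.2.2 σ hσ
  rw [h1] at h2
  have h3 : (ζ : Ω) ^ 0 = (ζ : Ω) ^ (c σ).val := by
    rw [pow_zero]
    have h4 : 1 * θ = (ζ : Ω) ^ (c σ).val * θ := by rw [one_mul]; exact h2
    exact mul_right_cancel₀ h.1 h4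
  have h5 := natCast_eq_of_pow_eq_pow_val hζ 0 _ h3
  rw [← h5]
  simp

/-- An element of `G_K` in the kernel of the character fixes the generator. -/
theorem apply_eq_of_eq_zero [NeZero p] (h : IsKummerGen K ζ c θ) {σ : Ω ≃ₐ[F] Ω}
    (hσ : σ ∈ K.fixingSubgroup) (hc : c σ = 0) : σ θ = θ := by
  rw [h.2.2 σ hσ, hc, ZMod.val_zero, pow_zero, one_mul]

/-- If the generator lies in `K`, the character vanishes on `G_K`. -/
theorem eq_zero_of_mem [NeZero p] (hζ : IsPrimitiveRoot (ζ : Ω) p) (h : IsKummerGen K ζ c θ)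
    (hθ : θ ∈ K) {σ : Ω ≃ₐ[F] Ω} (hσ : σ ∈ K.fixingSubgroup) : c σ = 0 :=
  h.eq_zero_of_apply_eq hζ hσ ((IntermediateField.mem_fixingSubgroup_iff K σ).mp hσ θ hθ)

/-- The character of a Kummer generator is additive on `G_K`. -/
theorem char_mul [NeZero p] (hζ : IsPrimitiveRoot (ζ : Ω) p) (h : IsKummerGen K ζ c θ)
    {σ τ : Ω ≃ₐ[F] Ω} (hσ : σ ∈ K.fixingSubgroup) (hτ : τ ∈ K.fixingSubgroup) :
    c (σ * τ) = c σ + c τ := by
  have hσζ : σ (ζ : Ω) = ζ := (IntermediateField.mem_fixingSubgroup_iff K σ).mp hσ ζ ζ.2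
  have h1 : (σ * τ) θ = (ζ : Ω) ^ (c σ + c τ).val * θ := by
    rw [AlgEquiv.mul_apply, h.2.2 τ hτ, map_mul, map_pow, hσζ, h.2.2 σ hσ,
      pow_val_add hζ.pow_eq_one]
    ring
  have h2 : (ζ : Ω) ^ (c (σ * τ)).val * θ = (ζ : Ω) ^ (c σ + c τ).val * θ := by
    rw [← h.2.2 (σ * τ) (Subgroup.mul_mem _ hσ hτ), h1]
  have h3 : (ζ : Ω) ^ (c (σ * τ)).val = (ζ : Ω) ^ (c σ + c τ).val := mul_right_cancel₀ h.1 h2
  have h4 := natCast_eq_of_pow_eq_pow_val hζ _ _ h3
  rw [← h4, ZMod.natCast_zmod_val]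

/-- The character of a Kummer generator has finite level. -/
theorem exists_level [IsGalois F Ω] [NeZero p] (hζ : IsPrimitiveRoot (ζ : Ω) p)
    (h : IsKummerGen K ζ c θ) :
    ∃ F' : IntermediateField F Ω, FiniteDimensional F F' ∧
      ∀ s ∈ F'.fixingSubgroup, s ∈ K.fixingSubgroup → c s = 0 := by
  obtain ⟨F', hF', hs⟩ := exists_finite_level (F := F) θ
  exact ⟨F', hF', fun s hsF hsK => h.eq_zero_of_apply_eq hζ hsK (hs s hsF)⟩

/-- If the character vanishes on `G_K`, the generator lies in `K`. -/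
theorem mem_of_eq_zero [IsGalois F Ω] [NeZero p] (h : IsKummerGen K ζ c θ)
    (hc : ∀ σ ∈ K.fixingSubgroup, c σ = 0) : θ ∈ K := by
  refine mem_of_forall_fixingSubgroup K θ fun σ hσ => ?_
  rw [h.2.2 σ hσ, hc σ hσ, ZMod.val_zero, pow_zero, one_mul]

/-- Two generators of characters which agree on `G_K` differ by an element of `K`. -/
theorem div_mem_of_eq [IsGalois F Ω] (h : IsKummerGen K ζ c θ) (h' : IsKummerGen K ζ c' θ')
    (hc : ∀ σ ∈ K.fixingSubgroup, c σ = c' σ) : θ / θ' ∈ K :=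
  (h.congr hc).div_mem h'

/-- Two generators of the same character have `p`-th powers which differ by the `p`-th power
of a nonzero element of `K`. -/
theorem exists_pow_eq [IsGalois F Ω] (h : IsKummerGen K ζ c θ) (h' : IsKummerGen K ζ c θ') :
    ∃ w : Ω, w ∈ K ∧ w ≠ 0 ∧ θ ^ p = w ^ p * θ' ^ p := by
  refine ⟨θ / θ', h.div_mem h', div_ne_zero h.1 h'.1, ?_⟩
  rw [div_pow, div_mul_cancel₀ _ (pow_ne_zero p h'.1)]

/-- The character of a generator is determined on `G_K`. -/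
theorem eq_of_gen [NeZero p] (hζ : IsPrimitiveRoot (ζ : Ω) p) (h : IsKummerGen K ζ c θ)
    (h' : IsKummerGen K ζ c' θ) {σ : Ω ≃ₐ[F] Ω} (hσ : σ ∈ K.fixingSubgroup) : c σ = c' σ := by
  have h1 : (ζ : Ω) ^ (c σ).val * θ = (ζ : Ω) ^ (c' σ).val * θ := by
    rw [← h.2.2 σ hσ, ← h'.2.2 σ hσ]
  have h2 : (ζ : Ω) ^ (c σ).val = (ζ : Ω) ^ (c' σ).val := mul_right_cancel₀ h.1 h1
  have h3 := natCast_eq_of_pow_eq_pow_val hζ _ _ h2
  rw [← h3, ZMod.natCast_zmod_val]

/-- If `θ ^ p` is the `p`-th power of an element of `K`, the character vanishes on `G_K`. -/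
theorem eq_zero_of_pow_eq [Fact p.Prime] (hζ : IsPrimitiveRoot (ζ : Ω) p)
    (h : IsKummerGen K ζ c θ) {w : Ω} (hw : w ∈ K) (hθw : θ ^ p = w ^ p) {σ : Ω ≃ₐ[F] Ω}
    (hσ : σ ∈ K.fixingSubgroup) : c σ = 0 := by
  have hp : p.Prime := Fact.out
  have : NeZero p := ⟨hp.ne_zero⟩
  have hw0 : w ≠ 0 := by
    rintro rfl
    rw [zero_pow hp.ne_zero] at hθw
    exact h.1 ((pow_eq_zero_iff hp.ne_zero).mp hθw)
  have h1 : (θ / w) ^ p = 1 := by rw [div_pow, hθw, div_self (pow_ne_zero p hw0)]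
  obtain ⟨i, -, hi⟩ := hζ.eq_pow_of_pow_eq_one h1
  have h2 : θ = (ζ : Ω) ^ i * w := by rw [hi, div_mul_cancel₀ _ hw0]
  have hθK : θ ∈ K := by
    rw [h2]
    exact K.mul_mem (_root_.pow_mem ζ.2 i) hw
  exact h.eq_zero_of_mem hζ hθK hσ

/-- **(G4)** Conjugation.  Let `s ∈ Gal(Ω/F)` map `K` into `K`, with `s ζ = ζ ^ m`.  If `θ` is a
Kummer generator of `c`, then `s θ` is a Kummer generator of `g ↦ m * c (s⁻¹ * g * s)`. -/
theorem conj [NeZero p] (hζ : (ζ : Ω) ^ p = 1) (h : IsKummerGen K ζ c θ) (s : Ω ≃ₐ[F] Ω)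
    (hsK : ∀ x ∈ K, s x ∈ K) (m : ℕ) (hsζ : s (ζ : Ω) = (ζ : Ω) ^ m) :
    IsKummerGen K ζ (fun g => (m : ZMod p) * c (s⁻¹ * g * s)) (s θ) := by
  refine ⟨?_, ?_, fun g hg => ?_⟩
  · intro h0
    exact h.1 (by simpa using h0)
  · rw [← map_pow]; exact hsK _ h.2.1
  · have hconj : s⁻¹ * g * s ∈ K.fixingSubgroup := by
      rw [IntermediateField.mem_fixingSubgroup_iff]
      intro x hx
      have h1 : g (s x) = s x :=
        (IntermediateField.mem_fixingSubgroup_iff K g).mp hg (s x) (hsK x hx)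
      show s⁻¹ (g (s x)) = x
      rw [h1]
      show (s⁻¹ * s) x = x
      rw [inv_mul_cancel]
      rfl
    have h2 : g (s θ) = s ((s⁻¹ * g * s) θ) := by
      show g (s θ) = (s * (s⁻¹ * g * s)) θ
      have h3 : s * (s⁻¹ * g * s) = g * s := by group
      rw [h3]
      rfl
    show g (s θ) = (ζ : Ω) ^ ((m : ZMod p) * c (s⁻¹ * g * s)).val * s θ
    rw [h2, h.2.2 _ hconj, map_mul, map_pow, hsζ, pow_val_mul hζ, ← pow_mul, ← pow_mul,
      mul_comm m]

end IsKummerGen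

end Fermat.Agent.S56.LF.KummerGen
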