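import Mathlib
import Fermat.Agent.S56.Flat.Defs
import Fermat.Agent.S56.Flat.Coord
import Fermat.Agent.S56.LF.KummerGen

/-!
# S56, brick LF: flat ⟹ Kummer-bounded (the junction of LF8 with LF5)

Let `X` be a flat `Gal(ℚ̄_p/ℚ_p)`-module killed by `p` (`FlatLocal`), `K` a finite extension of
`ℚ_p` containing a primitive `p`-th root of unity `ζ`, and `φ : G_K → k` an additive function which
vanishes on the elements of `G_K` acting trivially on `X`.  Then for every additive `ℓ : k → 𝔽_p`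
the character `ℓ ∘ φ` of `G_K` has a Kummer generator `θ` with `θ ^ p ∈ K`, `‖θ ^ p - 1‖ ≤ ‖p‖`
(`mem_HSpace_of_flat`): this is the third clause of `Flat.HSpace`.

The only input which is not proved here is `LevelStatement` = rows A3 + B2 of the design
(LF4 + LF5: a `p`-th root lying in `L' K`, `L'` the coordinate field of a finite flat group scheme
killed by `p`, is the `p`-th root of a unit `≡ 1` modulo `p`, up to `p`-th powers of `K`).

* `LevelStatement` : the exit of LF4 + LF5 as a `Prop`.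
* `pow_eq_one_of_flat`, `act_eq_of_fixes_coordField` : the two consequences of `FlatLocal` used.
* `mem_HSpace_of_flat` : the junction, for an abstract flat module `X`.
* `flatLocal_of_equiv`, `flatLocal_liftAct_of_sub_mem_inn` : flatness is a property of the class.
* `d_one`, `d_conj`, `d_eq_zero_of_liftAct` : derivation bookkeeping on `G_K`.
* `entry_mem_HSpace` : the junction for a matrix entry of a derivation `d` with `r + ε d` flat.
-/

set_option autoImplicit false

noncomputable section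

namespace Fermat.Agent.S56.LF.FlatKummer

open GaloisRep WithConv Fermat.Agent.S56.Flat Fermat.Agent.S56.Flat.Coord
open Fermat.Agent.S56.LF.KummerGen

/-- **The exit of LF4 + LF5.**  `H` a finite free cocommutative Hopf algebra over `ℤ_(p)` all of
whose `ℚ̄_p`-points are killed by `p`, `L'` its coordinate field, `K ∋ ζ_p` finite over `ℚ_p`:
if `u ∈ Kˣ` has a `p`-th root in `L' K` then `u ∈ U_K^(e) · K^{×p}` (norm form). -/
def LevelStatement : Prop :=
  ∀ (p : ℕ) [Fact p.Prime], p ≠ 2 →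
  ∀ (H : Type) [CommRing H] [HopfAlgebra (ratLocalizedAt p) H]
    [Module.Finite (ratLocalizedAt p) H] [Module.Free (ratLocalizedAt p) H]
    [Coalgebra.IsCocomm (ratLocalizedAt p) H],
    (∀ f : WithConv (H →ₐ[ratLocalizedAt p] PadicAlgCl p), f ^ p = 1) →
  ∀ (K : IntermediateField ℚ_[p] (PadicAlgCl p)) [FiniteDimensional ℚ_[p] K] (ζ : PadicAlgCl p),
    IsPrimitiveRoot ζ p → ζ ∈ K →
  ∀ u θ : PadicAlgCl p, u ∈ K → u ≠ 0 → θ ∈ coordField p H ⊔ K → θ ^ p = u →
    ∃ w ∈ K, w ≠ 0 ∧ ‖u / w ^ p - 1‖ ≤ ‖(p : PadicAlgCl p)‖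

section Points

variable {p : ℕ} [Fact p.Prime] {X : Type}
  {H : Type} [CommRing H] [Bialgebra (ratLocalizedAt p) H]

/-- The points of a flat module killed by `p` are killed by `p`. -/
theorem pow_eq_one_of_flat [AddCommGroup X] (hpX : ∀ x : X, p • x = 0)
    (e : WithConv (H →ₐ[ratLocalizedAt p] PadicAlgCl p) ≃ X)
    (hmul : ∀ f g : WithConv (H →ₐ[ratLocalizedAt p] PadicAlgCl p), e (f * g) = e f + e g)
    (f : WithConv (H →ₐ[ratLocalizedAt p] PadicAlgCl p)) : f ^ p = 1 := by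
  have h1 : e 1 = 0 := by
    have h := hmul 1 1
    rw [mul_one] at h
    exact (add_eq_left.mp h.symm)
  have hpow : ∀ n : ℕ, e (f ^ n) = n • e f := by
    intro n
    induction n with
    | zero => rw [pow_zero, zero_smul, h1]
    | succ n ih => rw [pow_succ, hmul, ih, succ_nsmul]
  apply e.injective
  rw [hpow, hpX, h1]

/-- An element of `Gal(ℚ̄_p/ℚ_p)` fixing the coordinate field acts trivially on the flat module. -/
theorem act_eq_of_fixes_coordField {act : Gp p → X → X}
    (e : WithConv (H →ₐ[ratLocalizedAt p] PadicAlgCl p) ≃ X)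
    (hgal : ∀ (τ : Gp p) (f g : WithConv (H →ₐ[ratLocalizedAt p] PadicAlgCl p)),
      (∀ h : H, g.ofConv h = τ (f.ofConv h)) → e g = act τ (e f))
    (τ : Gp p) (hτ : ∀ x ∈ coordField p H, τ x = x) (x : X) : act τ x = x := by
  obtain ⟨f, rfl⟩ := e.surjective x
  exact (hgal τ f f (fun h => (hτ _ (coord_mem p H f.ofConv h)).symm)).symm

end Points

section Junction

variable {p : ℕ} [Fact p.Prime] {k : Type} [Field k]

/-- **Flat ⟹ Kummer-bounded.**  An additive, `χ`-equivariant function `φ : G_K → k` vanishing on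
the elements of `G_K` that act trivially on a flat module `X` killed by `p` lies in
`HSpace p k F0 K ζ _ χ`. -/
theorem mem_HSpace_of_flat (hLev : LevelStatement) (hp2 : p ≠ 2)
    {X : Type} [AddCommGroup X] (act : Gp p → X → X) (hpX : ∀ x : X, p • x = 0)
    (hflat : FlatLocal p X act) (F0 K : IntermediateField ℚ_[p] (PadicAlgCl p))
    [FiniteDimensional ℚ_[p] K] (ζ : PadicAlgCl p) (hζ : IsPrimitiveRoot ζ p) (hζK : ζ ∈ K)
    (χ : Gp p → k) (φ : K.fixingSubgroup → k)
    (hadd : ∀ g h : K.fixingSubgroup, φ (g * h) = φ g + φ h)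
    (hχ : ∀ σ : Gp p, σ ∈ F0.fixingSubgroup → ∀ g g' : K.fixingSubgroup,
      (g' : Gp p) = σ * g * σ⁻¹ → φ g' = χ σ * φ g)
    (hker : ∀ g : K.fixingSubgroup, (∀ x : X, act (g : Gp p) x = x) → φ g = 0) :
    φ ∈ HSpace p k F0 K ζ hζ.pow_eq_one χ := by
  classical
  obtain ⟨H, instC, instH, hfin, hfree, hco, e, hmul, hgal⟩ := hflat
  refine ⟨hadd, hχ, fun ℓ => ?_⟩
  -- the character `ℓ ∘ φ`, extended by zero outside `G_K`
  let c : Gp p → ZMod p := fun σ => if hσ : σ ∈ K.fixingSubgroup then ℓ (φ ⟨σ, hσ⟩) else 0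
  have hc : ∀ (σ : Gp p) (hσ : σ ∈ K.fixingSubgroup), c σ = ℓ (φ ⟨σ, hσ⟩) := fun σ hσ =>
    dif_pos hσ
  have hcadd : ∀ σ ∈ K.fixingSubgroup, ∀ τ ∈ K.fixingSubgroup, c (σ * τ) = c σ + c τ := by
    intro σ hσ τ hτ
    rw [hc σ hσ, hc τ hτ, hc (σ * τ) (mul_mem hσ hτ), ← map_add, ← hadd]
    rfl
  have hfdL : FiniteDimensional ℚ_[p] (coordField p H) := finiteDimensional_coordField p H
  have htriv : ∀ s : Gp p, s ∈ (coordField p H).fixingSubgroup → ∀ hs : s ∈ K.fixingSubgroup,
      c s = 0 := by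
    intro s hs hsK
    rw [hc s hsK, hker ⟨s, hsK⟩ (fun x => act_eq_of_fixes_coordField e hgal s
      (fun y hy => (IntermediateField.mem_fixingSubgroup_iff _ s).mp hs y hy) x), map_zero]
  have hlev : ∃ F' : IntermediateField ℚ_[p] (PadicAlgCl p), FiniteDimensional ℚ_[p] F' ∧
      ∀ s ∈ F'.fixingSubgroup, s ∈ K.fixingSubgroup → c s = 0 :=
    ⟨coordField p H, hfdL, fun s hs hsK => htriv s hs hsK⟩
  have hζ' : IsPrimitiveRoot (⟨ζ, hζK⟩ : K) p :=
    IsPrimitiveRoot.coe_submonoidClass_iff.mp hζ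
  obtain ⟨θ, hθ0, hθK, hθ⟩ := exists_isKummerGen K ⟨ζ, hζK⟩ hζ' c hcadd hlev
  -- `θ` lies in `L' K`
  have hθmem : θ ∈ coordField p H ⊔ K := by
    apply mem_of_forall_fixingSubgroup
    intro s hs
    have hsL : s ∈ (coordField p H).fixingSubgroup :=
      IntermediateField.fixingSubgroup_antitone le_sup_left hs
    have hsK : s ∈ K.fixingSubgroup :=
      IntermediateField.fixingSubgroup_antitone le_sup_right hs
    rw [hθ s hsK, htriv s hsL hsK, ZMod.val_zero, pow_zero, one_mul]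
  obtain ⟨w, hwK, hw0, hw⟩ := hLev p hp2 H (pow_eq_one_of_flat hpX e hmul) K ζ hζ hζK (θ ^ p) θ
    hθK (pow_ne_zero _ hθ0) hθmem rfl
  refine ⟨θ / w, ?_, ?_, fun g => ?_⟩
  · rw [div_pow]
    exact div_mem hθK (pow_mem hwK p)
  · rw [div_pow]
    exact hw
  · have hgw : (g : Gp p) w = w :=
      (IntermediateField.mem_fixingSubgroup_iff K (g : Gp p)).mp g.2 w hwK
    rw [map_div₀, hθ g g.2, hgw, hc g g.2, mul_div_assoc]

end Junction

section Class

variable {p : ℕ} [Fact p.Prime]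

/-- Flatness transports along an equivariant additive bijection. -/
theorem flatLocal_of_equiv {X X' : Type} [AddCommGroup X] [AddCommGroup X']
    {act : Gp p → X → X} {act' : Gp p → X' → X'} (ε : X ≃+ X')
    (hε : ∀ (τ : Gp p) (x : X), ε (act τ x) = act' τ (ε x)) (h : FlatLocal p X act) :
    FlatLocal p X' act' := by
  obtain ⟨H, instC, instH, hfin, hfree, hco, e, hmul, hgal⟩ := h
  refine ⟨H, instC, instH, hfin, hfree, hco, e.trans ε.toEquiv, fun f g => ?_,
    fun τ f g hfg => ?_⟩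
  · show ε (e (f * g)) = ε (e f) + ε (e g)
    rw [hmul, map_add]
  · show ε (e g) = act' τ (ε (e f))
    rw [hgal τ f g hfg, hε]

variable {k : Type} [Field k]

/-- **Flatness is a property of the class**: if `d' - d` is an inner derivation then `r + ε d'`
is flat as soon as `r + ε d` is. -/
theorem flatLocal_liftAct_of_sub_mem_inn (r d d' : Gp p → Matrix (Fin 2) (Fin 2) k)
    (hdd' : d' - d ∈ Inn (p := p) r)
    (h : FlatLocal p ((Fin 2 → k) × (Fin 2 → k)) (liftAct r d)) :
    FlatLocal p ((Fin 2 → k) × (Fin 2 → k)) (liftAct r d') := by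
  obtain ⟨Y, hY⟩ := hdd'
  let ε : (Fin 2 → k) × (Fin 2 → k) ≃+ (Fin 2 → k) × (Fin 2 → k) :=
    { toFun := fun vw => (vw.1, vw.2 + Y.mulVec vw.1)
      invFun := fun vw => (vw.1, vw.2 - Y.mulVec vw.1)
      left_inv := fun vw => Prod.ext rfl (add_sub_cancel_right _ _)
      right_inv := fun vw => Prod.ext rfl (sub_add_cancel _ _)
      map_add' := fun vw vw' => by
        ext i
        · rfl
        · simp only [Prod.snd_add, Prod.fst_add, Matrix.mulVec_add, Pi.add_apply]
          ring }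
  refine flatLocal_of_equiv ε (fun τ vw => ?_) h
  have hd' : d' τ = d τ + (Y * r τ - r τ * Y) := by
    have := hY τ
    rw [Pi.sub_apply] at this
    rw [← this]
    abel
  show ((r τ).mulVec vw.1, (r τ).mulVec vw.2 + (d τ).mulVec vw.1 + Y.mulVec ((r τ).mulVec vw.1)) =
    ((r τ).mulVec vw.1, (r τ).mulVec (vw.2 + Y.mulVec vw.1) + (d' τ).mulVec vw.1)
  rw [hd', Matrix.mulVec_add, Matrix.add_mulVec, Matrix.sub_mulVec, Matrix.mulVec_mulVec,
    Matrix.mulVec_mulVec]
  congr 1
  abel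

end Class

section Entries

variable {p : ℕ} [Fact p.Prime] {k : Type} [Field k]
  (r : Gp p →* Matrix (Fin 2) (Fin 2) k) (d : Gp p → Matrix (Fin 2) (Fin 2) k)

/-- A derivation vanishes at `1`. -/
theorem d_one (hd : ∀ σ τ : Gp p, d (σ * τ) = d σ * r τ + r σ * d τ) : d 1 = 0 := by
  have h := hd 1 1
  rw [mul_one, map_one, mul_one, one_mul] at h
  exact (add_eq_left.mp h.symm)

/-- Conjugation formula for a derivation at an element where `r` is trivial. -/
theorem d_conj (hd : ∀ σ τ : Gp p, d (σ * τ) = d σ * r τ + r σ * d τ) (σ g : Gp p)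
    (hg : r g = 1) : d (σ * g * σ⁻¹) = r σ * d g * r σ⁻¹ := by
  have h1 : d σ * r σ⁻¹ + r σ * d σ⁻¹ = 0 := by
    rw [← hd σ σ⁻¹, mul_inv_cancel, d_one r d hd]
  have h2 : d (σ * g) = d σ + r σ * d g := by rw [hd, hg, mul_one]
  have h3 : r (σ * g) = r σ := by rw [map_mul, hg, mul_one]
  rw [hd (σ * g) σ⁻¹, h2, h3, add_mul, add_right_comm, h1, zero_add]

/-- If `r + ε d` acts trivially at `g` then `d g = 0`. -/
theorem d_eq_zero_of_liftAct (g : Gp p)
    (h : ∀ x : (Fin 2 → k) × (Fin 2 → k), liftAct r d g x = x) : d g = 0 := by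
  ext i j
  have h1 := congrArg Prod.snd (h (Pi.single j 1, 0))
  have h2 := congrFun h1 i
  simpa [liftAct, Matrix.mulVec_single_one] using h2

/-- **The junction for matrix entries.**  `r + ε d` flat, `r` trivial on `G_K`: an entry of `d`
on which conjugation by `G_{F0}` acts through `χ` restricts to an element of
`HSpace p k F0 K ζ _ χ`. -/
theorem entry_mem_HSpace (hLev : LevelStatement) (hp2 : p ≠ 2) [CharP k p]
    (hd : ∀ σ τ : Gp p, d (σ * τ) = d σ * r τ + r σ * d τ)
    (hflat : FlatLocal p ((Fin 2 → k) × (Fin 2 → k)) (liftAct r d))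
    (F0 K : IntermediateField ℚ_[p] (PadicAlgCl p)) [FiniteDimensional ℚ_[p] K]
    (ζ : PadicAlgCl p) (hζ : IsPrimitiveRoot ζ p) (hζK : ζ ∈ K)
    (hrK : ∀ g ∈ K.fixingSubgroup, r g = 1) (i j : Fin 2) (χ : Gp p → k)
    (hχ : ∀ σ ∈ F0.fixingSubgroup, ∀ g ∈ K.fixingSubgroup,
      (r σ * d g * r σ⁻¹) i j = χ σ * d g i j) :
    (fun g : K.fixingSubgroup => d (g : Gp p) i j) ∈ HSpace p k F0 K ζ hζ.pow_eq_one χ := by
  refine mem_HSpace_of_flat hLev hp2 (liftAct r d) (fun x => ?_) hflat F0 K ζ hζ hζK χ _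
    (fun g h => ?_) (fun σ hσ g g' hgg' => ?_) (fun g hg => ?_)
  · rw [← Nat.cast_smul_eq_nsmul k p x, CharP.cast_eq_zero k p, zero_smul]
  · show d ((g : Gp p) * (h : Gp p)) i j = d (g : Gp p) i j + d (h : Gp p) i j
    rw [hd, hrK g g.2, hrK h h.2, mul_one, one_mul, Matrix.add_apply]
  · show d (g' : Gp p) i j = χ σ * d (g : Gp p) i j
    rw [hgg', d_conj r d hd σ g (hrK g g.2)]
    exact hχ σ hσ g g.2
  · show d (g : Gp p) i j = 0
    rw [d_eq_zero_of_liftAct r d g hg]
    rfl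

end Entries

end Fermat.Agent.S56.LF.FlatKummer
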