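/-
S56 / brick LF, row A2 (helper168's S56_LF_design.md sec. A; `S56/Flat/AlgBricks.lean`):
**LF2, lifting of `p`-torsion points** (helper137).

`H` a commutative cocommutative bialgebra, finite free over `R0`; `S` an `R0`-algebra, `I`-adically
complete, `π θ ∈ I`, `π^(p-1) = p θ`, `p π` a non-zero-divisor of `S`.  Every `p`-torsion point
`g0 : H →ₐ S ⧸ (p π)` (convolution monoid) has a UNIQUE `p`-torsion lift `g : H →ₐ S` with
`g ≡ g0` modulo `π`.

* `lf2Statement_of : LF1Statement → RootStatement → LF2Statement` (the Prop of `AlgBricks`, verbatim);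
* `exists_lift`, `lift_unique`, `exists_unique_lift` : the same with `Bialgebra` binders;
* generic tools for a finite free cocommutative coalgebra `C` (used for `C = H` and `C = H ⊗ H`):
  `exists_eq_smul`, `isAdicComplete_linearMap`, `isAdicComplete_conv`, `conv_rigidity`,
  the monoid homs `postHom` (reduce the target) and `preHom` (precompose with a coalgebra hom),
  `prodMap f g = lmul' ∘ (f ⊗ g)` with `prodMap_mul`, `prodMap_one`, `prodMap_pow`.

Mathlib + `S56/Flat/AlgBricks` (statements only).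
-/
import Mathlib
import Fermat.Agent.S56.Flat.AlgBricks

set_option autoImplicit false
set_option linter.unusedSectionVars false
set_option linter.style.haveILetI false

noncomputable section

namespace Fermat.Agent.S56.LF.LiftProof

open TensorProduct WithConv Coalgebra

/-! ## Adic completeness along a linear equivalence -/

section Transfer

variable {S : Type*} [CommRing S] {M N : Type*} [AddCommGroup M] [Module S M] [AddCommGroup N]
  [Module S N]

theorem map_mem_smul_top (f : M →ₗ[S] N) (J : Ideal S) {z : M}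
    (hz : z ∈ (J • ⊤ : Submodule S M)) : f z ∈ (J • ⊤ : Submodule S N) := by
  refine Submodule.smul_induction_on hz (fun r hr m _ => ?_) (fun u v hu hv => ?_)
  · rw [map_smul]
    exact Submodule.smul_mem_smul hr Submodule.mem_top
  · rw [map_add]
    exact Submodule.add_mem _ hu hv

theorem isAdicComplete_of_linearEquiv (I : Ideal S) (e : M ≃ₗ[S] N) [IsAdicComplete I M] :
    IsAdicComplete I N := by
  have key : ∀ (n : ℕ) (x y : N), x ≡ y [SMOD (I ^ n • ⊤ : Submodule S N)] ↔
      e.symm x ≡ e.symm y [SMOD (I ^ n • ⊤ : Submodule S M)] := by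
    intro n x y
    rw [SModEq.sub_mem, SModEq.sub_mem, ← map_sub]
    constructor
    · intro h
      exact map_mem_smul_top e.symm.toLinearMap (I ^ n) h
    · intro h
      have h2 := map_mem_smul_top e.toLinearMap (I ^ n) h
      simpa using h2
  refine { haus' := ?_, prec' := ?_ }
  · intro x hx
    have h0 : e.symm x = 0 := by
      refine IsHausdorff.haus (inferInstance : IsHausdorff I M) _ fun n => ?_
      have := (key n x 0).mp (hx n)
      simpa using this
    simpa using congrArg e h0
  · intro f hf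
    obtain ⟨L, hL⟩ := IsPrecomplete.prec (inferInstance : IsPrecomplete I M)
      (f := fun n => e.symm (f n)) (fun {m n} hmn => (key m _ _).mp (hf hmn))
    refine ⟨e L, fun n => ?_⟩
    rw [key]
    simpa using hL n

end Transfer

/-! ## Linear maps from a finite free module -/

section Free

variable {R0 : Type*} [CommRing R0] {C : Type*} [AddCommGroup C] [Module R0 C]
  [Module.Free R0 C] [Module.Finite R0 C] {S : Type*} [CommRing S] [Algebra R0 S]

/-- A linear map from a finite free module with values in `a S` is `a • c`. -/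
theorem exists_eq_smul (a : S) (f : C →ₗ[R0] S) (hf : ∀ x, f x ∈ Ideal.span {a}) :
    ∃ c : C →ₗ[R0] S, f = a • c := by
  classical
  let b := Module.Free.chooseBasis R0 C
  have hc : ∀ i, ∃ s : S, f (b i) = a * s := fun i => by
    obtain ⟨s, hs⟩ := Ideal.mem_span_singleton'.mp (hf (b i))
    exact ⟨s, by rw [← hs, mul_comm]⟩
  choose s hs using hc
  refine ⟨b.constr S s, b.ext fun i => ?_⟩
  rw [LinearMap.smul_apply, Module.Basis.constr_basis, hs, smul_eq_mul]

theorem apply_mem_of_mem_smul_top (J : Ideal S) {y : C →ₗ[R0] S}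
    (hy : y ∈ (J • ⊤ : Submodule S (C →ₗ[R0] S))) (x : C) : y x ∈ J := by
  refine Submodule.smul_induction_on hy (fun r hr m _ => ?_) (fun u v hu hv => ?_)
  · rw [LinearMap.smul_apply, smul_eq_mul]
    exact J.mul_mem_right _ hr
  · rw [LinearMap.add_apply]
    exact J.add_mem hu hv

theorem mem_smul_top_of_basis (J : Ideal S) {y : C →ₗ[R0] S}
    (hy : ∀ i, y (Module.Free.chooseBasis R0 C i) ∈ J) :
    y ∈ (J • ⊤ : Submodule S (C →ₗ[R0] S)) := by
  classical
  let b := Module.Free.chooseBasis R0 C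
  have e : y = ∑ i, y (b i) • b.constr S (Pi.single i (1 : S)) := by
    refine b.ext fun j => ?_
    simp [LinearMap.sum_apply, Pi.single_apply]
  rw [e]
  exact Submodule.sum_mem _ fun i _ => Submodule.smul_mem_smul (hy i) Submodule.mem_top

/-- `Hom(C, S)` is `I`-adically complete when `S` is and `C` is finite free. -/
theorem isAdicComplete_linearMap (I : Ideal S) [IsAdicComplete I S] :
    IsAdicComplete I (C →ₗ[R0] S) := by
  classical
  let b := Module.Free.chooseBasis R0 C
  have hS : ∀ (n : ℕ) (a c : S), a ≡ c [SMOD (I ^ n • ⊤ : Submodule S S)] ↔ a - c ∈ I ^ n := by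
    intro n a c
    rw [SModEq.sub_mem, smul_eq_mul, Ideal.mul_top]
  refine { haus' := ?_, prec' := ?_ }
  · intro x hx
    refine b.ext fun i => ?_
    rw [LinearMap.zero_apply]
    refine IsHausdorff.haus (inferInstance : IsHausdorff I S) _ fun n => ?_
    rw [hS, sub_zero]
    have h := hx n
    rw [SModEq.sub_mem, sub_zero] at h
    exact apply_mem_of_mem_smul_top (I ^ n) h (b i)
  · intro f hf
    have hcoord : ∀ i, ∃ ℓ : S, ∀ n, f n (b i) ≡ ℓ [SMOD (I ^ n • ⊤ : Submodule S S)] := by
      intro i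
      refine IsPrecomplete.prec (inferInstance : IsPrecomplete I S) (f := fun n => f n (b i)) ?_
      intro m n hmn
      rw [hS]
      have h := hf hmn
      rw [SModEq.sub_mem] at h
      have h2 := apply_mem_of_mem_smul_top (I ^ m) h (b i)
      simpa using h2
    choose ℓ hℓ using hcoord
    refine ⟨b.constr S ℓ, fun n => ?_⟩
    rw [SModEq.sub_mem]
    refine mem_smul_top_of_basis (I ^ n) fun i => ?_
    rw [LinearMap.sub_apply, Module.Basis.constr_basis]
    exact (hS n _ _).mp (hℓ i n)

end Free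

/-! ## The convolution ring `B = Hom(C, S)` of a finite free cocommutative coalgebra -/

section Conv

variable {R0 : Type} [CommRing R0] {C : Type} [AddCommGroup C] [Module R0 C] [Coalgebra R0 C]
  [Coalgebra.IsCocomm R0 C] [Module.Free R0 C] [Module.Finite R0 C]
  {S : Type} [CommRing S] [Algebra R0 S]

theorem algebraMap_mul_eq_smul (s : S) (x : WithConv (C →ₗ[R0] S)) :
    algebraMap S (WithConv (C →ₗ[R0] S)) s * x = s • x := (Algebra.smul_def s x).symm

theorem smul_apply' (s : S) (x : WithConv (C →ₗ[R0] S)) (c : C) : (s • x) c = s * x c := rfl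

/-- The convolution ring is complete for the extended ideal. -/
theorem isAdicComplete_conv (I : Ideal S) [IsAdicComplete I S] :
    IsAdicComplete (I.map (algebraMap S (WithConv (C →ₗ[R0] S)))) (WithConv (C →ₗ[R0] S)) := by
  haveI h1 : IsAdicComplete I (C →ₗ[R0] S) := isAdicComplete_linearMap I
  haveI h2 : IsAdicComplete I (WithConv (C →ₗ[R0] S)) :=
    isAdicComplete_of_linearEquiv I (WithConv.linearEquiv S (C →ₗ[R0] S)).symm
  exact (IsAdicComplete.map_algebraMap_iff (I := I) (S := WithConv (C →ₗ[R0] S))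
    (M := WithConv (C →ₗ[R0] S))).mpr h2

variable (I : Ideal S) [IsAdicComplete I S] (p : ℕ) (hp : p.Prime) (π θ : S)
  (hπI : π ∈ I) (hθI : θ ∈ I) (hπ : π ^ (p - 1) = (p : S) * θ)
  (hnzd : ∀ s : S, (p : S) * π * s = 0 → s = 0)

include hπI hθI in
theorem isUnit_conv (a b : WithConv (C →ₗ[R0] S)) :
    IsUnit (1 + algebraMap S (WithConv (C →ₗ[R0] S)) π * a +
      algebraMap S (WithConv (C →ₗ[R0] S)) θ * b) := by
  haveI := isAdicComplete_conv (R0 := R0) (C := C) I
  have hJ := IsAdicComplete.le_jacobson_bot (I.map (algebraMap S (WithConv (C →ₗ[R0] S))))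
  have hx : algebraMap S (WithConv (C →ₗ[R0] S)) π * a +
      algebraMap S (WithConv (C →ₗ[R0] S)) θ * b ∈
      (I.map (algebraMap S (WithConv (C →ₗ[R0] S)))) :=
    Ideal.add_mem _ (Ideal.mul_mem_right _ _ (Ideal.mem_map_of_mem _ hπI))
      (Ideal.mul_mem_right _ _ (Ideal.mem_map_of_mem _ hθI))
  have h := (Ideal.mem_jacobson_bot.mp (hJ hx)) 1
  have e : 1 + algebraMap S (WithConv (C →ₗ[R0] S)) π * a +
      algebraMap S (WithConv (C →ₗ[R0] S)) θ * b =
      (algebraMap S (WithConv (C →ₗ[R0] S)) π * a +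
        algebraMap S (WithConv (C →ₗ[R0] S)) θ * b) * 1 + 1 := by ring
  rw [e]
  exact h

include hnzd in
theorem conv_torsion (y : WithConv (C →ₗ[R0] S))
    (h : (p : WithConv (C →ₗ[R0] S)) * algebraMap S (WithConv (C →ₗ[R0] S)) π * y = 0) :
    y = 0 := by
  have e : (p : WithConv (C →ₗ[R0] S)) * algebraMap S (WithConv (C →ₗ[R0] S)) π * y =
      ((p : S) * π) • y := by
    rw [← map_natCast (algebraMap S (WithConv (C →ₗ[R0] S))) p, ← map_mul,
      algebraMap_mul_eq_smul]
  rw [e] at h
  apply WithConv.ext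
  apply LinearMap.ext
  intro c
  have hc : ((p : S) * π) * y c = 0 := by
    have := congrArg (fun z : WithConv (C →ₗ[R0] S) => z c) h
    simpa [smul_apply'] using this
  simpa using hnzd _ hc

include hp hπI hθI hπ hnzd in
/-- **Rigidity in the convolution ring**: two `p`-torsion elements congruent modulo `π` agree. -/
theorem conv_rigidity (hLF1 : Flat.LF1Statement) {x y : WithConv (C →ₗ[R0] S)} (hx : x ^ p = 1)
    (hy : y ^ p = 1) (hxy : ∀ c, x c - y c ∈ Ideal.span {π}) : x = y := by
  haveI : Fact p.Prime := ⟨hp⟩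
  obtain ⟨d, hd⟩ := exists_eq_smul π (x - y).ofConv (fun c => hxy c)
  have hd' : x - y = π • toConv d := by
    apply WithConv.ext
    exact hd
  set πB := algebraMap S (WithConv (C →ₗ[R0] S)) π with hπB
  set θB := algebraMap S (WithConv (C →ₗ[R0] S)) θ with hθB
  have hπB' : πB ^ (p - 1) = (p : WithConv (C →ₗ[R0] S)) * θB := by
    rw [hπB, hθB, ← map_pow, hπ, map_mul, map_natCast]
  have hy1 : y * y ^ (p - 1) = 1 := by
    rw [← pow_succ', Nat.sub_add_cancel hp.one_le, hy]
  have hz : (x - y) * y ^ (p - 1) = πB * (toConv d * y ^ (p - 1)) := by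
    rw [hd', ← algebraMap_mul_eq_smul, mul_assoc]
  have hpow : (1 + πB * (toConv d * y ^ (p - 1))) ^ p = 1 := by
    have e : 1 + πB * (toConv d * y ^ (p - 1)) = x * y ^ (p - 1) := by
      rw [← hz, sub_mul, hy1]; ring
    rw [e, mul_pow, hx, one_mul, ← pow_mul, mul_comm, pow_mul, hy, one_pow]
  have h0 := hLF1 p (WithConv (C →ₗ[R0] S)) πB θB hπB'
    (fun a b => isUnit_conv I π θ hπI hθI a b)
    (fun z hz0 => conv_torsion p π hnzd z hz0) _ hpow
  have h1 : x - y = 0 := by
    have h2 : (x - y) * y ^ (p - 1) = 0 := by rw [hz, h0, mul_zero]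
    have := congrArg (fun z => z * y) h2
    simp only [zero_mul] at this
    rw [mul_assoc, ← pow_succ, Nat.sub_add_cancel hp.one_le, hy, mul_one] at this
    exact this
  exact sub_eq_zero.mp h1

end Conv

/-! ## Monoid homs between convolution rings -/

section Homs

variable {R0 : Type*} [CommRing R0] {C : Type*} [AddCommGroup C] [Module R0 C] [Coalgebra R0 C]
  {S T : Type*} [CommRing S] [Algebra R0 S] [CommRing T] [Algebra R0 T]

/-- Post-composition with an algebra hom, as a monoid hom of convolution rings. -/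
def postHom (φ : S →ₐ[R0] T) : WithConv (C →ₗ[R0] S) →* WithConv (C →ₗ[R0] T) where
  toFun f := toConv (φ.toLinearMap ∘ₗ f.ofConv)
  map_one' := by
    apply WithConv.ext
    apply LinearMap.ext
    intro c
    show φ (algebraMap R0 S (Coalgebra.counit (R := R0) c)) =
      algebraMap R0 T (Coalgebra.counit (R := R0) c)
    exact φ.commutes _
  map_mul' f g := by
    apply WithConv.ext
    exact LinearMap.algHom_comp_convMul_distrib φ f g

theorem postHom_apply (φ : S →ₐ[R0] T) (f : WithConv (C →ₗ[R0] S)) (c : C) :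
    postHom φ f c = φ (f c) := rfl

variable {C' : Type*} [AddCommGroup C'] [Module R0 C'] [Coalgebra R0 C']

/-- Pre-composition with a coalgebra hom, as a monoid hom of convolution rings. -/
def preHom (h : C' →ₗc[R0] C) : WithConv (C →ₗ[R0] S) →* WithConv (C' →ₗ[R0] S) where
  toFun f := toConv (f.ofConv ∘ₗ h.toLinearMap)
  map_one' := by
    apply WithConv.ext
    apply LinearMap.ext
    intro c
    show algebraMap R0 S (Coalgebra.counit (R := R0) (h c)) =
      algebraMap R0 S (Coalgebra.counit (R := R0) c)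
    rw [CoalgHomClass.counit_comp_apply]
  map_mul' f g := by
    apply WithConv.ext
    exact LinearMap.convMul_comp_coalgHom_distrib f g h

theorem preHom_apply (h : C' →ₗc[R0] C) (f : WithConv (C →ₗ[R0] S)) (c : C') :
    preHom h f c = f (h c) := rfl

end Homs

/-! ## Bialgebra-specific facts -/

section Bialg

variable {R0 : Type*} [CommRing R0] {H : Type*} [CommRing H] [Bialgebra R0 H]
  {S : Type*} [CommRing S] [Algebra R0 S]

/-- `Ψ(f, g) = lmul' ∘ (f ⊗ g)`. -/
def prodMap (f g : WithConv (H →ₗ[R0] S)) : WithConv (H ⊗[R0] H →ₗ[R0] S) :=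
  toConv ((Algebra.TensorProduct.lmul' R0 (S := S)).toLinearMap ∘ₗ
    (TensorProduct.map f.ofConv g.ofConv))

theorem prodMap_tmul (f g : WithConv (H →ₗ[R0] S)) (h h' : H) :
    prodMap f g (h ⊗ₜ[R0] h') = f h * g h' := by
  show (Algebra.TensorProduct.lmul' R0 (S := S)) (TensorProduct.map f.ofConv g.ofConv (h ⊗ₜ[R0] h'))
    = f h * g h'
  rw [TensorProduct.map_tmul, Algebra.TensorProduct.lmul'_apply_tmul]

theorem prodMap_mul (f g f' g' : WithConv (H →ₗ[R0] S)) :
    prodMap f g * prodMap f' g' = prodMap (f * f') (g * g') := by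
  have h1 := TensorProduct.map_convMul_map (R := R0) (f := f) (h := f') (g := g) (k := g')
  have h2 := LinearMap.algHom_comp_convMul_distrib (Algebra.TensorProduct.lmul' R0 (S := S))
    (toConv (TensorProduct.map f.ofConv g.ofConv))
    (toConv (TensorProduct.map f'.ofConv g'.ofConv))
  apply WithConv.ext
  rw [h1] at h2
  exact h2.symm

theorem prodMap_one : prodMap (1 : WithConv (H →ₗ[R0] S)) 1 = 1 := by
  apply WithConv.ext
  apply TensorProduct.ext'
  intro h h'
  have e1 : (prodMap (1 : WithConv (H →ₗ[R0] S)) 1).ofConv (h ⊗ₜ[R0] h') =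
      algebraMap R0 S (Coalgebra.counit (R := R0) h) *
        algebraMap R0 S (Coalgebra.counit (R := R0) h') :=
    prodMap_tmul 1 1 h h'
  have e2 : (1 : WithConv (H ⊗[R0] H →ₗ[R0] S)).ofConv (h ⊗ₜ[R0] h') =
      algebraMap R0 S (Coalgebra.counit (R := R0) h' • Coalgebra.counit (R := R0) h) := rfl
  rw [e1, e2, smul_eq_mul, map_mul, mul_comm]

theorem prodMap_pow (f g : WithConv (H →ₗ[R0] S)) (n : ℕ) :
    prodMap f g ^ n = prodMap (f ^ n) (g ^ n) := by
  induction n with
  | zero => rw [pow_zero, pow_zero, pow_zero, prodMap_one]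
  | succ n ih => rw [pow_succ, pow_succ, pow_succ, ih, prodMap_mul]

theorem conv_mul_apply_one (f g : WithConv (H →ₗ[R0] S)) : (f * g) 1 = f 1 * g 1 := by
  rw [LinearMap.convMul_apply, Bialgebra.comul_one, Algebra.TensorProduct.one_def,
    TensorProduct.map_tmul, LinearMap.mul'_apply]

theorem conv_one_apply_one : (1 : WithConv (H →ₗ[R0] S)) 1 = 1 := by
  rw [LinearMap.convOne_apply, Bialgebra.counit_one, map_one]

theorem conv_pow_apply_one (f : WithConv (H →ₗ[R0] S)) (n : ℕ) : (f ^ n) 1 = (f 1) ^ n := by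
  induction n with
  | zero => rw [pow_zero, pow_zero, conv_one_apply_one]
  | succ n ih => rw [pow_succ, pow_succ, conv_mul_apply_one, ih]

/-- The underlying linear map of a point, in the convolution ring. -/
def lin (g : WithConv (H →ₐ[R0] S)) : WithConv (H →ₗ[R0] S) := toConv g.ofConv.toLinearMap

theorem lin_apply (g : WithConv (H →ₐ[R0] S)) (h : H) : lin g h = g h := rfl

theorem lin_pow (g : WithConv (H →ₐ[R0] S)) (n : ℕ) : lin (g ^ n) = lin g ^ n :=
  AlgHom.toLinearMap_convPow g n

theorem lin_one : lin (1 : WithConv (H →ₐ[R0] S)) = 1 := AlgHom.toLinearMap_convOne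

theorem lin_injective : Function.Injective (lin : WithConv (H →ₐ[R0] S) → _) := by
  intro g g' h
  apply WithConv.ext
  apply AlgHom.toLinearMap_injective
  exact congrArg WithConv.ofConv h

end Bialg

/-! ## LF2 -/

section Main

variable {R0 : Type} [CommRing R0] {H : Type} [CommRing H] [Bialgebra R0 H]
  [Coalgebra.IsCocomm R0 H] [Module.Free R0 H] [Module.Finite R0 H]
  {S : Type} [CommRing S] [Algebra R0 S] (hLF1 : Flat.LF1Statement) (hRoot : Flat.RootStatement)
  (I : Ideal S) [IsAdicComplete I S]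
  (p : ℕ) (hp : p.Prime) (π θ : S) (hπI : π ∈ I) (hθI : θ ∈ I) (hπ : π ^ (p - 1) = (p : S) * θ)
  (hnzd : ∀ s : S, (p : S) * π * s = 0 → s = 0)

include hπI hθI in
theorem isUnit_base (a b : S) : IsUnit (1 + π * a + θ * b) := by
  have hS : I ≤ Ideal.jacobson ⊥ := IsAdicComplete.le_jacobson_bot I
  have hx : π * a + θ * b ∈ I := I.add_mem (I.mul_mem_right _ hπI) (I.mul_mem_right _ hθI)
  have h := (Ideal.mem_jacobson_bot.mp (hS hx)) 1
  have e : 1 + π * a + θ * b = (π * a + θ * b) * 1 + 1 := by ring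
  rw [e]
  exact h

include hLF1 hRoot hp hπI hθI hπ hnzd in
/-- **LF2, existence.** -/
theorem exists_lift (g0 : WithConv (H →ₐ[R0] S ⧸ Ideal.span {(p : S) * π})) (hg0 : g0 ^ p = 1) :
    ∃ g : WithConv (H →ₐ[R0] S), g ^ p = 1 ∧
      ∀ (h : H) (s : S), Ideal.Quotient.mk (Ideal.span {(p : S) * π}) s = g0 h →
        g h - s ∈ Ideal.span {π} := by
  classical
  haveI : Fact p.Prime := ⟨hp⟩
  let q : S →ₐ[R0] S ⧸ Ideal.span {(p : S) * π} := Ideal.Quotient.mkₐ R0 _
  have hq : Function.Surjective q := Ideal.Quotient.mkₐ_surjective R0 _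
  have hqmk : ∀ s : S, q s = Ideal.Quotient.mk (Ideal.span {(p : S) * π}) s := fun s => rfl
  -- a linear lift
  obtain ⟨b0, hb0⟩ := Module.projective_lifting_property q.toLinearMap g0.ofConv.toLinearMap hq
  let b : WithConv (H →ₗ[R0] S) := toConv b0
  have hb : postHom q b = lin g0 := by
    apply WithConv.ext
    exact hb0
  have hbh : ∀ h : H, q (b h) = g0 h := by
    intro h
    have h2 := congrArg (fun z : WithConv (H →ₗ[R0] S ⧸ Ideal.span {(p : S) * π}) => z h) hb
    exact h2
  have hbp : postHom q (b ^ p) = postHom q 1 := by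
    rw [map_pow, hb, ← lin_pow, hg0, lin_one, map_one]
  have hval : ∀ c : H, (b ^ p - 1 : WithConv (H →ₗ[R0] S)).ofConv c ∈
      Ideal.span {(p : S) * π} := by
    intro c
    have h1 : q ((b ^ p : WithConv (H →ₗ[R0] S)) c) = q ((1 : WithConv (H →ₗ[R0] S)) c) := by
      have h2 := congrArg (fun z : WithConv (H →ₗ[R0] S ⧸ Ideal.span {(p : S) * π}) => z c) hbp
      exact h2
    have h5 : (b ^ p - 1 : WithConv (H →ₗ[R0] S)).ofConv c =
        (b ^ p : WithConv (H →ₗ[R0] S)) c - (1 : WithConv (H →ₗ[R0] S)) c := rfl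
    rw [h5]
    exact Ideal.Quotient.eq.mp h1
  obtain ⟨c', hc'⟩ := exists_eq_smul ((p : S) * π) (b ^ p - 1 : WithConv (H →ₗ[R0] S)).ofConv hval
  set πB := algebraMap S (WithConv (H →ₗ[R0] S)) π with hπB
  set θB := algebraMap S (WithConv (H →ₗ[R0] S)) θ with hθB
  have hbp' : b ^ p = 1 + (p : WithConv (H →ₗ[R0] S)) * πB * toConv c' := by
    have e : b ^ p - 1 = ((p : S) * π) • (toConv c' : WithConv (H →ₗ[R0] S)) := by
      apply WithConv.ext
      exact hc'
    have e2 : ((p : S) * π) • (toConv c' : WithConv (H →ₗ[R0] S)) =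
        (p : WithConv (H →ₗ[R0] S)) * πB * toConv c' := by
      rw [← algebraMap_mul_eq_smul, map_mul, map_natCast]
    rw [← e2, ← e]
    ring
  have hπB' : πB ^ (p - 1) = (p : WithConv (H →ₗ[R0] S)) * θB := by
    rw [hπB, hθB, ← map_pow, hπ, map_mul, map_natCast]
  haveI := isAdicComplete_conv (R0 := R0) (C := H) I
  obtain ⟨Y, hY⟩ := hRoot p (WithConv (H →ₗ[R0] S))
    (I.map (algebraMap S (WithConv (H →ₗ[R0] S)))) πB θB
    (Ideal.mem_map_of_mem _ hπI) (Ideal.mem_map_of_mem _ hθI) hπB' (toConv c')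
  obtain ⟨v', hv'⟩ := (isUnit_conv (R0 := R0) (C := H) I π θ hπI hθI Y 0).exists_right_inv
  have hv : (1 + πB * Y) * v' = 1 := by
    rw [mul_zero, add_zero] at hv'
    exact hv'
  let gB : WithConv (H →ₗ[R0] S) := b * v'
  have hgBp : gB ^ p = 1 := by
    show (b * v') ^ p = 1
    rw [mul_pow, hbp', ← hY, ← mul_pow, hv, one_pow]
  have hgb : ∀ c : H, gB c - b c ∈ Ideal.span {π} := by
    intro c
    have e : gB - b = π • (-(b * v' * Y) : WithConv (H →ₗ[R0] S)) := by
      rw [← algebraMap_mul_eq_smul]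
      show b * v' - b = πB * (-(b * v' * Y))
      linear_combination b * hv
    have e2 : gB c - b c = π * (-(b * v' * Y) : WithConv (H →ₗ[R0] S)) c := by
      have h2 := congrArg (fun z : WithConv (H →ₗ[R0] S) => z c) e
      exact h2
    rw [e2]
    exact Ideal.mul_mem_right _ _ (Ideal.mem_span_singleton_self π)
  have hJle : Ideal.span {(p : S) * π} ≤ Ideal.span {π} := by
    rw [Ideal.span_singleton_le_span_singleton]
    exact Dvd.intro_left _ rfl
  have hcong : ∀ (h : H) (s : S), Ideal.Quotient.mk (Ideal.span {(p : S) * π}) s = g0 h →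
      gB h - s ∈ Ideal.span {π} := by
    intro h s hs
    have h1 : b h - s ∈ Ideal.span {(p : S) * π} := by
      apply Ideal.Quotient.eq.mp
      rw [hs, ← hqmk]
      exact hbh h
    have e : gB h - s = (gB h - b h) + (b h - s) := by ring
    rw [e]
    exact Ideal.add_mem _ (hgb h) (hJle h1)
  have hg1 : gB 1 = 1 := by
    have hx : gB 1 - 1 ∈ Ideal.span {π} :=
      hcong 1 1 (by rw [map_one]; exact (map_one g0.ofConv).symm)
    obtain ⟨y, hy⟩ := Ideal.mem_span_singleton'.mp hx
    have hpow : (1 + π * y) ^ p = 1 := by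
      rw [mul_comm π y, hy, add_sub_cancel, ← conv_pow_apply_one, hgBp, conv_one_apply_one]
    have h0 := hLF1 p S π θ hπ (fun a b => isUnit_base I π θ hπI hθI a b) hnzd y hpow
    rw [h0, zero_mul] at hy
    exact (sub_eq_zero.mp hy.symm)
  have hmul : ∀ x y : H, gB (x * y) = gB x * gB y := by
    let u : WithConv (H ⊗[R0] H →ₗ[R0] S) := preHom (Bialgebra.mulCoalgHom R0 H) gB
    let w : WithConv (H ⊗[R0] H →ₗ[R0] S) := prodMap gB gB
    have hu : u ^ p = 1 := by
      show (preHom (Bialgebra.mulCoalgHom R0 H) gB) ^ p = 1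
      rw [← map_pow, hgBp, map_one]
    have hw : w ^ p = 1 := by
      show (prodMap gB gB) ^ p = 1
      rw [prodMap_pow, hgBp, prodMap_one]
    have eu : ∀ x y : H, u (x ⊗ₜ[R0] y) = gB (x * y) := by
      intro x y
      show gB.ofConv (LinearMap.mul' R0 H (x ⊗ₜ[R0] y)) = gB.ofConv (x * y)
      rw [LinearMap.mul'_apply]
    have huw : ∀ z : H ⊗[R0] H, u z - w z ∈ Ideal.span {π} := by
      intro z
      induction z using TensorProduct.induction_on with
      | zero =>
        have e : u (0 : H ⊗[R0] H) - w (0 : H ⊗[R0] H) = 0 := by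
          show u.ofConv 0 - w.ofConv 0 = 0
          rw [map_zero, map_zero, sub_zero]
        rw [e]
        exact Ideal.zero_mem _
      | tmul x y =>
        obtain ⟨s, hs⟩ := Ideal.Quotient.mk_surjective (g0 x)
        obtain ⟨t, ht⟩ := Ideal.Quotient.mk_surjective (g0 y)
        have h1 := hcong x s hs
        have h2 := hcong y t ht
        have h3 := hcong (x * y) (s * t)
          (by rw [map_mul, hs, ht]; exact (map_mul g0.ofConv x y).symm)
        have ew : w (x ⊗ₜ[R0] y) = gB x * gB y := prodMap_tmul gB gB x y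
        rw [eu, ew]
        have e : gB (x * y) - gB x * gB y =
            (gB (x * y) - s * t) - ((gB x - s) * gB y + s * (gB y - t)) := by ring
        rw [e]
        exact Ideal.sub_mem _ h3
          (Ideal.add_mem _ (Ideal.mul_mem_right _ _ h1) (Ideal.mul_mem_left _ _ h2))
      | add z1 z2 h1 h2 =>
        have e : u (z1 + z2) - w (z1 + z2) = (u z1 - w z1) + (u z2 - w z2) := by
          show u.ofConv (z1 + z2) - w.ofConv (z1 + z2) =
            (u.ofConv z1 - w.ofConv z1) + (u.ofConv z2 - w.ofConv z2)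
          rw [map_add, map_add]
          ring
        rw [e]
        exact Ideal.add_mem _ h1 h2
    have huw' : u = w :=
      conv_rigidity (R0 := R0) (C := H ⊗[R0] H) I p hp π θ hπI hθI hπ hnzd hLF1 hu hw huw
    intro x y
    rw [← eu, huw']
    exact prodMap_tmul gB gB x y
  let g : H →ₐ[R0] S := AlgHom.ofLinearMap gB.ofConv hg1 hmul
  refine ⟨toConv g, ?_, ?_⟩
  · apply lin_injective
    rw [lin_pow, lin_one]
    exact hgBp
  · intro h s hs
    exact hcong h s hs

include hLF1 hp hπI hθI hπ hnzd in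
/-- **LF2, uniqueness.** -/
theorem lift_unique (g0 : WithConv (H →ₐ[R0] S ⧸ Ideal.span {(p : S) * π}))
    (g g' : WithConv (H →ₐ[R0] S)) (hg : g ^ p = 1) (hg' : g' ^ p = 1)
    (hc : ∀ (h : H) (s : S), Ideal.Quotient.mk (Ideal.span {(p : S) * π}) s = g0 h →
      g h - s ∈ Ideal.span {π})
    (hc' : ∀ (h : H) (s : S), Ideal.Quotient.mk (Ideal.span {(p : S) * π}) s = g0 h →
      g' h - s ∈ Ideal.span {π}) : g = g' := by
  apply lin_injective
  refine conv_rigidity (R0 := R0) (C := H) I p hp π θ hπI hθI hπ hnzd hLF1 ?_ ?_ ?_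
  · rw [← lin_pow, hg, lin_one]
  · rw [← lin_pow, hg', lin_one]
  · intro h
    obtain ⟨s, hs⟩ := Ideal.Quotient.mk_surjective (g0 h)
    have e : lin g h - lin g' h = (g h - s) - (g' h - s) := by
      rw [lin_apply, lin_apply]; ring
    rw [e]
    exact Ideal.sub_mem _ (hc h s hs) (hc' h s hs)

include hLF1 hRoot hp hπI hθI hπ hnzd in
/-- **LF2.** Every `p`-torsion point modulo `p π` has a unique `p`-torsion lift congruent to it
modulo `π`. -/
theorem exists_unique_lift (g0 : WithConv (H →ₐ[R0] S ⧸ Ideal.span {(p : S) * π}))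
    (hg0 : g0 ^ p = 1) :
    ∃! g : WithConv (H →ₐ[R0] S), g ^ p = 1 ∧
      ∀ (h : H) (s : S), Ideal.Quotient.mk (Ideal.span {(p : S) * π}) s = g0 h →
        g h - s ∈ Ideal.span {π} := by
  obtain ⟨g, hg, hc⟩ := exists_lift hLF1 hRoot I p hp π θ hπI hθI hπ hnzd g0 hg0
  refine ⟨g, ⟨hg, hc⟩, ?_⟩
  rintro g' ⟨hg', hc'⟩
  exact lift_unique hLF1 I p hp π θ hπI hθI hπ hnzd g0 g' g hg' hg hc' hc

end Main

/-- **The row A2 of `S56/Flat/AlgBricks`, verbatim.** -/
theorem lf2Statement_of (hLF1 : Flat.LF1Statement) (hRoot : Flat.RootStatement) :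
    Flat.LF2Statement := by
  intro p hpF R0 _ H _ _ _ _ _ S _ _ I _ π θ hπI hθI hπ hnzd g0 hg0
  exact exists_unique_lift hLF1 hRoot I p hpF.out π θ hπI hθI hπ hnzd g0 hg0

end Fermat.Agent.S56.LF.LiftProof
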