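import Mathlib

/-!
# S56, brick LF, row A3 (ring-level core): rigidity of `p`-torsion points and property (P)

Everything here is Mathlib-only and level-free.  `R0` is any commutative ring, `H` a commutative
`R0`-bialgebra, cocommutative; points are `WithConv (H →ₐ[R0] S)` (Mathlib's convolution monoid),
functionals are `WithConv (C →ₗ[R0] S)` (Mathlib's convolution ring).

* `one_add_mul_pow` : the binomial identity `(1 + π y)^p = 1 + p π (y + y t)`, `t ∈ (π, θ)`,
  when `π^(p-1) = p θ`.
* `eq_zero_of_one_add_mul_pow_eq_one` : (LF1) for a ring with a separated multiplicative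
  filtration.
* `ptIdeal` : the ideal of functionals with values in an ideal of `S`.
* `conv_eq_one_of_pow_eq_one` : (LF1) in the convolution ring.
* `algHom_eq_of_pow_eq_one` : (LF3) two `p`-torsion points congruent modulo `π` are equal.
* `exists_pow_dvd_natCast_of_ne_one` : (LF3a) a non-trivial `p`-torsion point with values in a
  rank-one valuation ring has a coordinate `x` with `x^(p-1) ∣ p`.
* `LiftStatement` : the conclusion of (LF2) as a `Prop`.
* `forall_mem_range_of_lift` : (LF4), property (P), ring-level form.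
-/

namespace Fermat.Agent.S56.LF.PropP

open WithConv Coalgebra

section Binomial

/-- Integer-polynomial form of the binomial identity for a prime exponent. -/
theorem exists_int_poly (p : ℕ) (hp : p.Prime) :
    ∃ A : Polynomial ℤ, (1 + Polynomial.X) ^ p =
      1 + (p : Polynomial ℤ) * Polynomial.X + (p : Polynomial ℤ) * Polynomial.X ^ 2 * A
        + Polynomial.X ^ p := by
  obtain ⟨r, hr⟩ := exists_add_pow_prime_eq hp (1 : Polynomial ℤ) Polynomial.X
  have hp0 : (p : ℤ) ≠ 0 := by exact_mod_cast hp.ne_zero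
  have hr2 : (1 + Polynomial.X : Polynomial ℤ) ^ p =
      1 + Polynomial.X ^ p + (p : Polynomial ℤ) * (Polynomial.X * r) := by
    rw [hr]; ring
  have hc : (Polynomial.X * r).coeff 1 = r.coeff 0 := by
    simp
  have hx : (Polynomial.X ^ p : Polynomial ℤ).coeff 1 = 0 := by
    rw [Polynomial.coeff_X_pow, if_neg (Ne.symm hp.ne_one)]
  have h11 : (1 : Polynomial ℤ).coeff 1 = 0 := by
    rw [Polynomial.coeff_one, if_neg one_ne_zero]
  have h1 : r.coeff 0 = 1 := by
    have h := congrArg (fun q : Polynomial ℤ => q.coeff 1) hr2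
    simp only [Polynomial.coeff_one_add_X_pow, Nat.choose_one_right, Polynomial.coeff_add,
      Polynomial.coeff_natCast_mul, hc, hx, h11] at h
    have h' : (p : ℤ) * (r.coeff 0 - 1) = 0 := by linear_combination (-1 : ℤ) * h
    have := (mul_eq_zero.mp h').resolve_left hp0
    linarith
  have hdvd : Polynomial.X ∣ r - 1 := by
    rw [Polynomial.X_dvd_iff]
    simp [h1]
  obtain ⟨A, hA⟩ := hdvd
  refine ⟨A, ?_⟩
  have hr' : r = 1 + Polynomial.X * A := by linear_combination hA
  rw [hr2, hr']
  ring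

/-- The binomial identity: if `π ^ (p - 1) = p * θ` then `(1 + π y) ^ p = 1 + p π (y + y t)` with
`t` in the ideal `(π, θ)`. -/
theorem one_add_mul_pow {B : Type*} [CommRing B] {p : ℕ} (hp : p.Prime) (π θ : B)
    (h : π ^ (p - 1) = p * θ) (y : B) :
    ∃ t ∈ Ideal.span ({π, θ} : Set B), (1 + π * y) ^ p = 1 + p * π * (y + y * t) := by
  obtain ⟨A, hA⟩ := exists_int_poly p hp
  have hA' := congrArg (Polynomial.eval₂ (Int.castRingHom B) (π * y)) hA
  simp only [Polynomial.eval₂_add, Polynomial.eval₂_mul, Polynomial.eval₂_pow, Polynomial.eval₂_X,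
    Polynomial.eval₂_one, Polynomial.eval₂_natCast] at hA'
  refine ⟨π * (y * Polynomial.eval₂ (Int.castRingHom B) (π * y) A) + θ * y ^ (p - 1), ?_, ?_⟩
  · exact Ideal.add_mem _ (Ideal.mul_mem_right _ _ (Ideal.subset_span (by simp)))
      (Ideal.mul_mem_right _ _ (Ideal.subset_span (by simp)))
  · have hpp : π ^ p = p * θ * π := by
      conv_lhs => rw [← Nat.sub_add_cancel hp.one_le, pow_succ, h]
    have hyp : y ^ p = y ^ (p - 1) * y := by
      conv_lhs => rw [← Nat.sub_add_cancel hp.one_le, pow_succ]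
    rw [hA', mul_pow π y p, hpp, hyp]
    ring

/-- (LF1), filtered form: in a commutative ring with a separated filtration `P` by ideals with
`P n * P 1 ⊆ P (n+1)`, `π θ ∈ P 1`, `π^(p-1) = p θ` and `p π` a non-zero-divisor, the equation
`(1 + π y)^p = 1` forces `y = 0`. -/
theorem eq_zero_of_one_add_mul_pow_eq_one {B : Type*} [CommRing B] {p : ℕ} (hp : p.Prime)
    (P : ℕ → Ideal B) (hmul : ∀ n x t, x ∈ P n → t ∈ P 1 → x * t ∈ P (n + 1))
    (hsep : ∀ x : B, (∀ n, x ∈ P (n + 1)) → x = 0)
    (π θ : B) (hπ : π ∈ P 1) (hθ : θ ∈ P 1) (h : π ^ (p - 1) = p * θ)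
    (hreg : ∀ x : B, (p : B) * π * x = 0 → x = 0)
    (y : B) (hy : (1 + π * y) ^ p = 1) : y = 0 := by
  obtain ⟨t, ht, he⟩ := one_add_mul_pow hp π θ h y
  have ht1 : t ∈ P 1 := by
    refine (Ideal.span_le.mpr ?_) ht
    intro x hx
    simp only [Set.mem_insert_iff, Set.mem_singleton_iff] at hx
    rcases hx with rfl | rfl <;> assumption
  have hy0 : y + y * t = 0 := hreg _ (by rw [he] at hy; linear_combination hy)
  have hyt : y = -(y * t) := by linear_combination hy0
  apply hsep
  intro n
  induction n with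
  | zero => rw [hyt]; exact (P _).neg_mem ((P _).mul_mem_left _ ht1)
  | succ n ih => rw [hyt]; exact (P _).neg_mem (hmul _ _ _ ih ht1)

end Binomial

section Conv

variable {R0 : Type*} [CommRing R0] {C : Type*} [AddCommMonoid C] [Module R0 C] [Coalgebra R0 C]
  {S : Type*} [CommRing S] [Algebra R0 S]

/-- The ideal of the convolution ring of functionals with values in the ideal `I`. -/
def ptIdeal (I : Ideal S) : Ideal (WithConv (C →ₗ[R0] S)) where
  carrier := {f | ∀ c, f c ∈ I}
  add_mem' := fun {f g} hf hg c => by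
    have : (f + g) c = f c + g c := rfl
    rw [this]; exact I.add_mem (hf c) (hg c)
  zero_mem' := fun c => by
    have : (0 : WithConv (C →ₗ[R0] S)) c = 0 := rfl
    rw [this]; exact I.zero_mem
  smul_mem' := fun g f hf c => by
    rw [smul_eq_mul, (ℛ R0 c).convMul_apply]
    exact I.sum_mem fun i _ => I.mul_mem_left _ (hf _)

theorem mem_ptIdeal {I : Ideal S} {f : WithConv (C →ₗ[R0] S)} :
    f ∈ ptIdeal I ↔ ∀ c, f c ∈ I := Iff.rfl

theorem mul_mem_ptIdeal {I I' : Ideal S} {f g : WithConv (C →ₗ[R0] S)}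
    (hf : f ∈ ptIdeal I) (hg : g ∈ ptIdeal I') : f * g ∈ ptIdeal (I * I') := fun c => by
  rw [(ℛ R0 c).convMul_apply]
  exact Ideal.sum_mem _ fun i _ => Ideal.mul_mem_mul (hf _) (hg _)

theorem algebraMap_mul_apply (s : S) (f : WithConv (C →ₗ[R0] S)) (c : C) :
    (algebraMap S (WithConv (C →ₗ[R0] S)) s * f) c = s * f c := by
  rw [← Algebra.smul_def]; rfl

theorem algebraMap_mem_ptIdeal {I : Ideal S} {s : S} (hs : s ∈ I) :
    algebraMap S (WithConv (C →ₗ[R0] S)) s ∈ ptIdeal I := fun c => by
  rw [LinearMap.convAlgebraMap_apply, smul_eq_mul]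
  exact I.mul_mem_right _ hs

/-- A functional with values in `π S`, `π` a non-zero-divisor, is `π` times a functional. -/
theorem exists_eq_algebraMap_mul (π : S) (hπ : ∀ s : S, π * s = 0 → s = 0)
    (f : WithConv (C →ₗ[R0] S)) (hf : f ∈ ptIdeal (Ideal.span {π})) :
    ∃ g : WithConv (C →ₗ[R0] S), f = algebraMap S (WithConv (C →ₗ[R0] S)) π * g := by
  have hex : ∀ c, ∃ s, π * s = f c := fun c => by
    obtain ⟨s, hs⟩ := Ideal.mem_span_singleton'.mp (hf c)
    exact ⟨s, by rw [mul_comm]; exact hs⟩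
  choose g hg using hex
  have hinj : ∀ a b : S, π * a = π * b → a = b := fun a b h =>
    sub_eq_zero.mp (hπ _ (by rw [mul_sub, h, sub_self]))
  let G : C →ₗ[R0] S :=
    { toFun := g
      map_add' := fun x y => hinj _ _ (by
        rw [hg, mul_add, hg, hg]; exact map_add f.ofConv x y)
      map_smul' := fun r x => hinj _ _ (by
        rw [hg, RingHom.id_apply, mul_smul_comm, hg]; exact map_smul f.ofConv r x) }
  refine ⟨toConv G, WithConv.ext (LinearMap.ext fun c => ?_)⟩
  exact (hg c).symm.trans (algebraMap_mul_apply π (toConv G) c).symm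

variable [IsCocomm R0 C]

/-- (LF1) in the convolution ring: a `p`-torsion functional congruent to `1` modulo `π` is `1`. -/
theorem conv_eq_one_of_pow_eq_one {p : ℕ} (hp : p.Prime) (J : Ideal S)
    (hsep : ∀ s : S, (∀ n, s ∈ J ^ (n + 1)) → s = 0) (π θ : S) (hπ : π ∈ J) (hθ : θ ∈ J)
    (hπθ : π ^ (p - 1) = p * θ) (hreg : ∀ s : S, (p : S) * π * s = 0 → s = 0)
    (u : WithConv (C →ₗ[R0] S)) (hu : u ^ p = 1)
    (hcong : u - 1 ∈ ptIdeal (Ideal.span {π})) : u = 1 := by
  have hπreg : ∀ s : S, π * s = 0 → s = 0 := fun s hs =>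
    hreg s (by rw [mul_assoc, hs, mul_zero])
  obtain ⟨y, hy⟩ := exists_eq_algebraMap_mul π hπreg (u - 1) hcong
  have hy0 : y = 0 := by
    refine eq_zero_of_one_add_mul_pow_eq_one (B := WithConv (C →ₗ[R0] S)) hp
      (fun n => ptIdeal (J ^ n)) ?_ ?_
      (algebraMap S _ π) (algebraMap S _ θ) ?_ ?_ ?_ ?_ y ?_
    · intro n x t hx ht
      have h2 : x * t ∈ ptIdeal (R0 := R0) (C := C) (J ^ n * J ^ 1) := mul_mem_ptIdeal hx ht
      rw [pow_one, ← pow_succ] at h2
      exact h2
    · intro x hx
      exact WithConv.ext (LinearMap.ext fun c => hsep _ fun n => hx n c)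
    · exact algebraMap_mem_ptIdeal (I := J ^ 1) (by rw [pow_one]; exact hπ)
    · exact algebraMap_mem_ptIdeal (I := J ^ 1) (by rw [pow_one]; exact hθ)
    · rw [← map_pow, hπθ, map_mul, map_natCast]
    · intro x hx
      rw [← map_natCast (algebraMap S (WithConv (C →ₗ[R0] S))) p, ← map_mul] at hx
      refine WithConv.ext (LinearMap.ext fun c => hreg _ ?_)
      exact (algebraMap_mul_apply ((p : S) * π) x c).symm.trans (by rw [hx]; rfl)
    · rw [← hy, add_sub_cancel, hu]
  rw [hy0, mul_zero] at hy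
  exact sub_eq_zero.mp hy

end Conv

section Points

variable {R0 : Type*} [CommRing R0] {H : Type*} [CommRing H] [Bialgebra R0 H]

/-- The underlying functional of a point. -/
def lin {A : Type*} [CommRing A] [Algebra R0 A] (f : WithConv (H →ₐ[R0] A)) :
    WithConv (H →ₗ[R0] A) := toConv f.ofConv.toLinearMap

theorem lin_apply {A : Type*} [CommRing A] [Algebra R0 A] (f : WithConv (H →ₐ[R0] A)) (h : H) :
    lin f h = f h := rfl

theorem lin_one {A : Type*} [CommRing A] [Algebra R0 A] :
    lin (1 : WithConv (H →ₐ[R0] A)) = 1 := rfl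

theorem lin_mul {A : Type*} [CommRing A] [Algebra R0 A] (f g : WithConv (H →ₐ[R0] A)) :
    lin (f * g) = lin f * lin g := rfl

theorem lin_pow {A : Type*} [CommRing A] [Algebra R0 A] (f : WithConv (H →ₐ[R0] A)) (n : ℕ) :
    lin (f ^ n) = lin f ^ n := AlgHom.toLinearMap_convPow f n

theorem lin_injective {A : Type*} [CommRing A] [Algebra R0 A] :
    Function.Injective (lin : WithConv (H →ₐ[R0] A) → WithConv (H →ₗ[R0] A)) := fun _ _ h =>
  WithConv.ext (AlgHom.toLinearMap_injective (congrArg ofConv h))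

/-- Push-forward of points along an algebra hom. -/
def push {A A' : Type*} [CommRing A] [CommRing A'] [Algebra R0 A] [Algebra R0 A']
    (φ : A →ₐ[R0] A') (f : WithConv (H →ₐ[R0] A)) : WithConv (H →ₐ[R0] A') :=
  toConv (φ.comp f.ofConv)

theorem push_apply {A A' : Type*} [CommRing A] [CommRing A'] [Algebra R0 A] [Algebra R0 A']
    (φ : A →ₐ[R0] A') (f : WithConv (H →ₐ[R0] A)) (h : H) : push φ f h = φ (f h) := rfl

theorem push_one {A A' : Type*} [CommRing A] [CommRing A'] [Algebra R0 A] [Algebra R0 A']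
    (φ : A →ₐ[R0] A') : push φ (1 : WithConv (H →ₐ[R0] A)) = 1 := by
  apply WithConv.ext
  apply AlgHom.ext
  intro h
  show φ (algebraMap R0 A (counit h)) = algebraMap R0 A' (counit h)
  exact φ.commutes _

theorem push_mul {A A' : Type*} [CommRing A] [CommRing A'] [Algebra R0 A] [Algebra R0 A']
    (φ : A →ₐ[R0] A') (f g : WithConv (H →ₐ[R0] A)) : push φ (f * g) = push φ f * push φ g := by
  unfold push
  rw [AlgHom.comp_convMul_distrib, toConv_ofConv]

theorem push_pow {A A' : Type*} [CommRing A] [CommRing A'] [Algebra R0 A] [Algebra R0 A']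
    (φ : A →ₐ[R0] A') (f : WithConv (H →ₐ[R0] A)) (n : ℕ) : push φ (f ^ n) = push φ f ^ n := by
  induction n with
  | zero => rw [pow_zero, pow_zero, push_one]
  | succ n ih => rw [pow_succ, pow_succ, push_mul, ih]

theorem push_injective {A A' : Type*} [CommRing A] [CommRing A'] [Algebra R0 A] [Algebra R0 A']
    (φ : A →ₐ[R0] A') (hφ : Function.Injective φ) :
    Function.Injective (push φ : WithConv (H →ₐ[R0] A) → WithConv (H →ₐ[R0] A')) := fun f g h =>
  WithConv.ext (AlgHom.ext fun x => hφ (by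
    have := congrArg (fun k : WithConv (H →ₐ[R0] A') => k x) h
    exact this))

variable [IsCocomm R0 H] {S : Type*} [CommRing S] [Algebra R0 S]

/-- (LF3) Two `p`-torsion points congruent modulo `π` are equal. -/
theorem algHom_eq_of_pow_eq_one {p : ℕ} (hp : p.Prime) (J : Ideal S)
    (hsep : ∀ s : S, (∀ n, s ∈ J ^ (n + 1)) → s = 0) (π θ : S) (hπ : π ∈ J) (hθ : θ ∈ J)
    (hπθ : π ^ (p - 1) = p * θ) (hreg : ∀ s : S, (p : S) * π * s = 0 → s = 0)
    (f g : WithConv (H →ₐ[R0] S)) (hf : f ^ p = 1) (hg : g ^ p = 1)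
    (hcong : ∀ h, f h - g h ∈ Ideal.span {π}) : f = g := by
  have hFp : lin f ^ p = 1 := by rw [← lin_pow, hf, lin_one]
  have hGp : lin g ^ p = 1 := by rw [← lin_pow, hg, lin_one]
  have hGG : lin g * lin g ^ (p - 1) = 1 := by
    rw [← pow_succ', Nat.sub_add_cancel hp.one_le, hGp]
  have hu : (lin f * lin g ^ (p - 1)) ^ p = 1 := by
    rw [mul_pow, hFp, one_mul, ← pow_mul, mul_comm, pow_mul, hGp, one_pow]
  have hcg : lin f * lin g ^ (p - 1) - 1 ∈ ptIdeal (R0 := R0) (C := H) (Ideal.span {π}) := by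
    have h3 : lin f * lin g ^ (p - 1) - 1 = (lin f - lin g) * lin g ^ (p - 1) := by
      rw [sub_mul, hGG]
    rw [h3]
    exact Ideal.mul_mem_right _ _ (fun h => hcong h)
  have h1 := conv_eq_one_of_pow_eq_one hp J hsep π θ hπ hθ hπθ hreg _ hu hcg
  apply lin_injective
  calc lin f = lin f * (lin g * lin g ^ (p - 1)) := by rw [hGG, mul_one]
    _ = (lin f * lin g ^ (p - 1)) * lin g := by ring
    _ = lin g := by rw [h1, one_mul]

/-- In a valuation ring, a finite non-empty family has an element dividing all the others. -/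
theorem exists_dvd_all {ι O : Type*} [CommRing O] [IsDomain O] [ValuationRing O] (x : ι → O)
    (s : Finset ι) (hs : s.Nonempty) : ∃ i ∈ s, ∀ j ∈ s, x i ∣ x j := by
  classical
  induction s using Finset.induction_on with
  | empty => exact absurd hs (by simp)
  | insert a s ha ih =>
    rcases s.eq_empty_or_nonempty with rfl | hne
    · exact ⟨a, by simp, fun j hj => by
        rw [Finset.mem_insert] at hj
        rcases hj with rfl | hj
        · exact dvd_rfl
        · exact absurd hj (by simp)⟩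
    · obtain ⟨i, hi, hij⟩ := ih hne
      rcases ValuationRing.dvd_total (x a) (x i) with h | h
      · exact ⟨a, Finset.mem_insert_self _ _, fun j hj => by
          rcases Finset.mem_insert.mp hj with rfl | hj
          · exact dvd_rfl
          · exact h.trans (hij j hj)⟩
      · exact ⟨i, Finset.mem_insert_of_mem hi, fun j hj => by
          rcases Finset.mem_insert.mp hj with rfl | hj
          · exact h
          · exact hij j hj⟩

/-- (LF3a) A non-trivial `p`-torsion point with values in a rank-one valuation ring `O` of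
characteristic zero has a coordinate `x = f h - ε h` with `x ^ (p - 1) ∣ p`
(i.e. `v(x) ≤ v(p)/(p-1)`). -/
theorem exists_pow_dvd_natCast_of_ne_one {O : Type*} [CommRing O] [IsDomain O] [ValuationRing O]
    [Algebra R0 O] [Module.Finite R0 H] {p : ℕ} (hp : p.Prime) (hp0 : (p : O) ≠ 0)
    (hrank : ∀ x : O, ¬ IsUnit x → ∀ y : O, (∀ n, x ^ n ∣ y) → y = 0)
    (f : WithConv (H →ₐ[R0] O)) (hf : f ^ p = 1) (hne : f ≠ 1) :
    ∃ h : H, (f h - algebraMap R0 O (counit h)) ^ (p - 1) ∣ (p : O) := by
  by_contra hcon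
  push Not at hcon
  apply hne
  obtain ⟨s, hs⟩ := (Module.Finite.fg_top : (⊤ : Submodule R0 H).FG)
  -- the difference functional
  let D : H →ₗ[R0] O := f.ofConv.toLinearMap - (1 : WithConv (H →ₐ[R0] O)).ofConv.toLinearMap
  have hD : ∀ h, D h = f h - algebraMap R0 O (counit h) := fun h => rfl
  have key : ∀ π : O, (∀ h ∈ s, π ∣ D h) → ∀ h, D h ∈ Ideal.span {π} := by
    intro π hπ h
    have hle : Submodule.span R0 (s : Set H) ≤
        Submodule.comap D ((Ideal.span {π}).restrictScalars R0) :=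
      Submodule.span_le.mpr fun h hh => by
        show D h ∈ Ideal.span {π}
        exact Ideal.mem_span_singleton.mpr (hπ h hh)
    exact hle (by rw [hs]; trivial)
  rcases s.eq_empty_or_nonempty with hse | hsne
  · -- `H` is spanned by the empty set: every point is trivial
    have h0 : ∀ h, D h ∈ Ideal.span {(0 : O)} := key 0 (fun h hh => by rw [hse] at hh; simp at hh)
    apply WithConv.ext
    apply AlgHom.ext
    intro h
    have := h0 h
    rw [Ideal.span_singleton_eq_bot.mpr rfl, Ideal.mem_bot, hD, sub_eq_zero] at this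
    exact this
  obtain ⟨i, hi, hij⟩ := exists_dvd_all (fun h => D h) s hsne
  have hall : ∀ h, D h ∈ Ideal.span {D i} := key (D i) hij
  by_cases hπ0 : D i = 0
  · apply WithConv.ext
    apply AlgHom.ext
    intro h
    have := hall h
    rw [hπ0, Ideal.span_singleton_eq_bot.mpr rfl, Ideal.mem_bot, hD, sub_eq_zero] at this
    exact this
  -- `p ∣ π^(p-1)` since `π^(p-1) ∤ p`
  have hndvd : ¬ D i ^ (p - 1) ∣ (p : O) := by rw [hD]; exact hcon i
  obtain ⟨θ, hθ⟩ : (p : O) ∣ D i ^ (p - 1) :=
    (ValuationRing.dvd_total (D i ^ (p - 1)) (p : O)).resolve_left hndvd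
  have hθu : ¬ IsUnit θ := fun hu => hndvd (by
    obtain ⟨u, rfl⟩ := hu
    exact ⟨((u⁻¹ : Oˣ) : O), by rw [hθ, mul_assoc, Units.mul_inv, mul_one]⟩)
  have hπu : ¬ IsUnit (D i) := fun hu => hndvd ((hu.pow (p - 1)).dvd)
  -- a non-unit `z` dividing both `π` and `θ`
  obtain ⟨z, hzu, hzπ, hzθ⟩ : ∃ z : O, ¬ IsUnit z ∧ z ∣ D i ∧ z ∣ θ := by
    rcases ValuationRing.dvd_total (D i) θ with h | h
    · exact ⟨D i, hπu, dvd_rfl, h⟩
    · exact ⟨θ, hθu, h, dvd_rfl⟩
  refine algHom_eq_of_pow_eq_one hp (Ideal.span {z}) ?_ (D i) θ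
    (Ideal.mem_span_singleton.mpr hzπ) (Ideal.mem_span_singleton.mpr hzθ) hθ ?_ f 1 hf (one_pow p)
    (fun h => hall h)
  · intro y hy
    refine hrank z hzu y fun n => ?_
    rcases n with _ | n
    · simp
    · have := hy n
      rw [Ideal.span_singleton_pow, Ideal.mem_span_singleton] at this
      exact this
  · intro y hy
    rcases mul_eq_zero.mp hy with h | h
    · rcases mul_eq_zero.mp h with h | h
      · exact absurd h hp0
      · exact absurd h hπ0
    · exact h

/-- (LF3b, ring form) A `p`-torsion point (`p` odd) with values in a `p`-adically separated,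
`p`-torsion-free ring which is congruent to `1` modulo `p` is `1`. -/
theorem algHom_eq_one_of_forall_mem_span_natCast {p : ℕ} (hp : p.Prime) (hp2 : p ≠ 2)
    (hsep : ∀ s : S, (∀ n, s ∈ Ideal.span {(p : S)} ^ (n + 1)) → s = 0)
    (hreg : ∀ s : S, (p : S) * s = 0 → s = 0)
    (f : WithConv (H →ₐ[R0] S)) (hf : f ^ p = 1)
    (hcong : ∀ h, f h - algebraMap R0 S (counit h) ∈ Ideal.span {(p : S)}) : f = 1 := by
  have h3 : 3 ≤ p := by have := hp.two_le; omega
  refine algHom_eq_of_pow_eq_one hp (Ideal.span {(p : S)}) hsep (p : S) ((p : S) ^ (p - 2))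
    (Ideal.subset_span rfl) ?_ ?_ ?_ f 1 hf (one_pow p) hcong
  · have h4 : (p : S) ^ (p - 2) = (p : S) ^ (p - 3) * p := by
      rw [← pow_succ]; congr 1; omega
    rw [h4]; exact Ideal.mul_mem_left _ _ (Ideal.subset_span rfl)
  · rw [← pow_succ']; congr 1; omega
  · intro s hs; exact hreg s (hreg _ (by rw [← mul_assoc]; exact hs))

end Points

section PropertyP

variable {R0 : Type*} [CommRing R0] {H : Type*} [CommRing H] [Bialgebra R0 H] [IsCocomm R0 H]
  {S : Type*} [CommRing S] [Algebra R0 S]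

/-- The conclusion of (LF2) for `S` and `π`, as a statement: every `p`-torsion point of `H` with
values in `S ⧸ (p π)` lifts to a `p`-torsion point with values in `S`, congruent to it modulo
`π`. -/
def LiftStatement (R0 H S : Type*) [CommRing R0] [CommRing H] [Bialgebra R0 H]
    [CommRing S] [Algebra R0 S] (p : ℕ) (π : S) : Prop :=
  ∀ g₀ : WithConv (H →ₐ[R0] S ⧸ Ideal.span {(p : S) * π}), g₀ ^ p = 1 →
    ∃ g : WithConv (H →ₐ[R0] S), g ^ p = 1 ∧
      ∀ h, Ideal.Quotient.mk (Ideal.span {(p : S) * π}) (g h) - g₀ h ∈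
        Ideal.span {Ideal.Quotient.mk (Ideal.span {(p : S) * π}) π}

theorem mul_pow_sub_mem {B : Type*} [CommRing B] (𝔮 : Ideal B) {a b g : B} (ha : a - g ∈ 𝔮)
    (hb : b - g ∈ 𝔮) (n : ℕ) : a * b ^ n - g * g ^ n ∈ 𝔮 := by
  have h1 : a * b ^ n - g * g ^ n = (a - g) * b ^ n + g * (b ^ n - g ^ n) := by ring
  rw [h1]
  obtain ⟨c, hc⟩ := sub_dvd_pow_sub_pow b g n
  exact 𝔮.add_mem (𝔮.mul_mem_right _ ha)
    (𝔮.mul_mem_left _ (by rw [hc]; exact 𝔮.mul_mem_right _ hb))

/-- (LF4) Property (P), ring-level form.  `O` is a rank-one valuation ring of characteristic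
zero containing all coordinates of all points (`hall`), the points form a finite group killed by
`p`, `S` is a second subring of the ambient ring `Om` with a proper ideal `J ∋ π, θ`,
`π^(p-1) = p θ`, `p π` a non-zero-divisor, and (LF2) holds for `(S, π)`.  If there is an `R0`-algebra hom
`ψ : O → S ⧸ (p π)`, then all coordinates of all points lie in `S`. -/
theorem forall_mem_range_of_lift [Module.Finite R0 H] {p : ℕ} (hp : p.Prime)
    {O : Type*} [CommRing O] [IsDomain O] [ValuationRing O] [Algebra R0 O]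
    {Om : Type*} [CommRing Om] [Algebra R0 Om]
    (incl : O →ₐ[R0] Om) (hincl : Function.Injective incl)
    (ι : S →ₐ[R0] Om) (hι : Function.Injective ι)
    [Finite (H →ₐ[R0] Om)]
    (hall : ∀ (f : H →ₐ[R0] Om) (h : H), f h ∈ Set.range incl)
    (htors : ∀ f : WithConv (H →ₐ[R0] Om), f ^ p = 1)
    (hp0 : (p : O) ≠ 0)
    (hrank : ∀ x : O, ¬ IsUnit x → ∀ y : O, (∀ n, x ^ n ∣ y) → y = 0)
    (J : Ideal S) (hJ : J ≠ ⊤) (π θ : S) (hπ : π ∈ J) (hθ : θ ∈ J)
    (hπθ : π ^ (p - 1) = p * θ) (hreg : ∀ s : S, (p : S) * π * s = 0 → s = 0)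
    (ψ : O →ₐ[R0] S ⧸ Ideal.span {(p : S) * π})
    (hLift : LiftStatement R0 H S p π) :
    ∀ (f : H →ₐ[R0] Om) (h : H), f h ∈ Set.range ι := by
  classical
  have : Finite (WithConv (H →ₐ[R0] Om)) :=
    Finite.of_equiv _ (WithConv.equiv (H →ₐ[R0] Om)).symm
  -- every point factors through `O`
  have hfac : ∀ f : WithConv (H →ₐ[R0] Om), ∃ fO : WithConv (H →ₐ[R0] O), push incl fO = f := by
    intro f
    let e := AlgEquiv.ofInjective incl hincl
    let f' : H →ₐ[R0] incl.range :=
      f.ofConv.codRestrict incl.range (fun h => (AlgHom.mem_range incl).mpr (hall f.ofConv h))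
    refine ⟨toConv (e.symm.toAlgHom.comp f'), WithConv.ext (AlgHom.ext fun h => ?_)⟩
    show incl (e.symm (f' h)) = f.ofConv h
    have h1 : ((e (e.symm (f' h)) : incl.range) : Om) = incl (e.symm (f' h)) :=
      AlgEquiv.ofInjective_apply incl hincl _
    rw [← h1, AlgEquiv.apply_symm_apply]
    rfl
  choose fO hfO using hfac
  have hfOp : ∀ f, fO f ^ p = 1 := fun f =>
    push_injective incl hincl (by rw [push_pow, hfO, htors, push_one])
  -- the lifts
  have hg0 : ∀ f, push ψ (fO f) ^ p = 1 := fun f => by rw [← push_pow, hfOp, push_one]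
  choose Γ hΓp hΓ using fun f => hLift (push ψ (fO f)) (hg0 f)
  have hΦinj : Function.Injective
      (fun f : WithConv (H →ₐ[R0] Om) => (push ι (Γ f) : WithConv (H →ₐ[R0] Om))) := by
    intro f f' hff
    have hΓeq : Γ f = Γ f' := push_injective ι hι hff
    have hd : fO f * fO f' ^ (p - 1) = 1 := by
      by_contra hne
      have hdp : (fO f * fO f' ^ (p - 1)) ^ p = 1 := by
        rw [mul_pow, hfOp, one_mul, ← pow_mul, mul_comm, pow_mul, hfOp, one_pow]
      obtain ⟨h, c, hc⟩ := exists_pow_dvd_natCast_of_ne_one hp hp0 hrank _ hdp hne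
      -- congruences in the convolution ring over the quotient
      have hgm : lin (push (Ideal.Quotient.mkₐ R0 (Ideal.span {(p : S) * π})) (Γ f)) ^ p = 1 := by
        rw [← lin_pow, ← push_pow, hΓp, push_one, lin_one]
      have hgg : lin (push (Ideal.Quotient.mkₐ R0 (Ideal.span {(p : S) * π})) (Γ f)) *
          lin (push (Ideal.Quotient.mkₐ R0 (Ideal.span {(p : S) * π})) (Γ f)) ^ (p - 1) = 1 := by
        rw [← pow_succ', Nat.sub_add_cancel hp.one_le, hgm]
      have ha : lin (push ψ (fO f)) -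
          lin (push (Ideal.Quotient.mkₐ R0 (Ideal.span {(p : S) * π})) (Γ f)) ∈
          ptIdeal (R0 := R0) (C := H)
            (Ideal.span {Ideal.Quotient.mk (Ideal.span {(p : S) * π}) π}) := by
        intro h'
        have h2 := (Ideal.span {Ideal.Quotient.mk (Ideal.span {(p : S) * π}) π}).neg_mem
          (hΓ f h')
        rw [neg_sub] at h2
        exact h2
      have hb : lin (push ψ (fO f')) -
          lin (push (Ideal.Quotient.mkₐ R0 (Ideal.span {(p : S) * π})) (Γ f)) ∈
          ptIdeal (R0 := R0) (C := H)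
            (Ideal.span {Ideal.Quotient.mk (Ideal.span {(p : S) * π}) π}) := by
        intro h'
        have h2 := (Ideal.span {Ideal.Quotient.mk (Ideal.span {(p : S) * π}) π}).neg_mem
          (hΓ f' h')
        rw [neg_sub, ← hΓeq] at h2
        exact h2
      have hab := mul_pow_sub_mem _ ha hb (p - 1)
      rw [hgg] at hab
      have hpd : lin (push ψ (fO f * fO f' ^ (p - 1))) =
          lin (push ψ (fO f)) * lin (push ψ (fO f')) ^ (p - 1) := by
        rw [push_mul, push_pow, lin_mul, lin_pow]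
      rw [← hpd] at hab
      have hx := hab h
      have hx' : ψ ((fO f * fO f' ^ (p - 1)) h - algebraMap R0 O (counit h)) ∈
          Ideal.span {Ideal.Quotient.mk (Ideal.span {(p : S) * π}) π} := by
        rw [map_sub, AlgHom.commutes]
        exact hx
      obtain ⟨w, hw⟩ := Ideal.mem_span_singleton'.mp hx'
      have hψp := congrArg ψ hc
      rw [map_natCast, map_mul, map_pow, ← hw, mul_pow, ← map_pow, hπθ] at hψp
      obtain ⟨s, hs⟩ := Ideal.Quotient.mk_surjective (w ^ (p - 1) * ψ c)
      have h4 : Ideal.Quotient.mk (Ideal.span {(p : S) * π}) ((p : S) - s * ((p : S) * θ)) = 0 := by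
        rw [map_sub, map_mul, hs, map_natCast, hψp]; ring
      rw [Ideal.Quotient.eq_zero_iff_mem] at h4
      obtain ⟨t, ht⟩ := Ideal.mem_span_singleton'.mp h4
      have h5 : (p : S) * π * (1 - s * θ - t * π) = 0 := by linear_combination (-π) * ht
      have h6 := hreg _ h5
      apply hJ
      rw [Ideal.eq_top_iff_one]
      have h7 : (1 : S) = s * θ + t * π := by linear_combination h6
      rw [h7]
      exact J.add_mem (J.mul_mem_left _ hθ) (J.mul_mem_left _ hπ)
    have h8 : fO f = fO f' := by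
      calc fO f = fO f * (fO f' ^ (p - 1) * fO f') := by
            rw [← pow_succ, Nat.sub_add_cancel hp.one_le, hfOp, mul_one]
        _ = (fO f * fO f' ^ (p - 1)) * fO f' := by rw [mul_assoc]
        _ = fO f' := by rw [hd, one_mul]
    exact (hfO f).symm.trans ((congrArg (push incl) h8).trans (hfO f'))
  have hΦsurj := Finite.injective_iff_surjective.mp hΦinj
  intro f h
  obtain ⟨f', hf'⟩ := hΦsurj (toConv f)
  exact ⟨Γ f' h, congrArg (fun k : WithConv (H →ₐ[R0] Om) => k h) hf'⟩

end PropertyP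

end Fermat.Agent.S56.LF.PropP
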