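/-
S56 / brick LF, row A1 (helper168's S56_LF_design.md, sec. A): LF1 (rigidity) and ROOT,
closing the rows `LF1Statement` and `RootStatement` of `S56/Flat/AlgBricks` verbatim.
Mathlib only (plus the statement file).

* `exists_one_add_X_pow`  : `(1 + X)^p = 1 + X^p + p * X * (1 + X * g)` in `ℤ[X]`.
* `one_add_mul_pow`       : if `π^(p-1) = p * θ` then
                            `(1 + π y)^p = 1 + p π (y + θ y^p + π (y^2 Q(y)))` for one `Q : R[X]`.
* `eq_zero_of_one_add_pow_eq_one` (LF1): `x ∈ (π)`, `(1 + x)^p = 1` ⟹ `x = 0`.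
* `exists_one_add_mul_pow_eq` (ROOT): in an `I`-adically complete ring with `π, θ ∈ I`,
                            every `1 + p π c` is `(1 + π Y)^p`.
* `lf1Statement : Flat.LF1Statement`, `rootStatement : Flat.RootStatement`.
-/
import Mathlib
import Fermat.Agent.S56.Flat.AlgBricks

set_option autoImplicit false

namespace Fermat.Agent.S56.LF.RootTwin

open Polynomial

/-- The universal identity `(1 + X)^p = 1 + X^p + p X (1 + X g)` over `ℤ`. -/
theorem exists_one_add_X_pow (p : ℕ) (hp : p.Prime) :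
    ∃ g : ℤ[X], ((1 : ℤ[X]) + X) ^ p = 1 + X ^ p + (p : ℤ[X]) * X * (1 + X * g) := by
  obtain ⟨r, hr⟩ := exists_add_pow_prime_eq hp (1 : ℤ[X]) X
  have hp1 : 1 ≠ p := hp.one_lt.ne
  have h1 : r.coeff 0 = 1 := by
    have h := congrArg (fun f : ℤ[X] => f.coeff 1) hr
    have e : ((p : ℤ[X]) * 1 * X * r) = X * ((p : ℤ[X]) * r) := by ring
    simp only [one_pow, e, coeff_one_add_X_pow, Nat.choose_one_right, coeff_add, coeff_one,
      coeff_X_pow, coeff_X_mul, coeff_natCast_mul] at h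
    have hp0 : (p : ℤ) ≠ 0 := by exact_mod_cast hp.ne_zero
    have h' : (p : ℤ) * 1 = (p : ℤ) * r.coeff 0 := by
      simpa [hp1] using h
    exact (mul_left_cancel₀ hp0 h').symm
  have h2 : (X : ℤ[X]) ∣ r - 1 := by
    rw [X_dvd_iff]
    simp [h1]
  obtain ⟨g, hg⟩ := h2
  refine ⟨g, ?_⟩
  have hr' : r = 1 + X * g := by rw [← hg]; ring
  rw [hr, hr']
  ring

/-- If `π^(p-1) = p θ`, then `(1 + π y)^p = 1 + p π (y + θ y^p + π (y^2 Q(y)))`. -/
theorem one_add_mul_pow {R : Type*} [CommRing R] (p : ℕ) (hp : p.Prime) (π θ : R)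
    (hπ : π ^ (p - 1) = (p : R) * θ) :
    ∃ Q : R[X], ∀ y : R,
      (1 + π * y) ^ p = 1 + (p : R) * π * (y + θ * y ^ p + π * (y ^ 2 * Q.eval y)) := by
  obtain ⟨g, hg⟩ := exists_one_add_X_pow p hp
  refine ⟨(g.map (Int.castRingHom R)).comp (C π * X), fun y => ?_⟩
  have h := congrArg (fun f : ℤ[X] => (f.map (Int.castRingHom R)).eval (π * y)) hg
  simp only [Polynomial.map_add, Polynomial.map_mul, Polynomial.map_pow, Polynomial.map_one,
    Polynomial.map_X, Polynomial.map_natCast, eval_add, eval_mul, eval_pow, eval_one, eval_X,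
    eval_natCast] at h
  have hpp : π ^ p = (p : R) * θ * π := by
    have e : π ^ p = π ^ (p - 1) * π := by
      rw [← pow_succ, Nat.sub_add_cancel hp.one_le]
    rw [e, hπ]
  rw [eval_comp, eval_mul, eval_C, eval_X, h, mul_pow, hpp]
  ring

/-- **LF1 (rigidity).** -/
theorem eq_zero_of_one_add_pow_eq_one {R : Type*} [CommRing R] (p : ℕ) (hp : p.Prime) (π θ : R)
    (hπ : π ^ (p - 1) = (p : R) * θ)
    (hunit : ∀ a b : R, IsUnit (1 + π * a + θ * b))
    (htors : ∀ y : R, (p : R) * π * y = 0 → y = 0)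
    {x : R} (hx : x ∈ Ideal.span {π}) (h : (1 + x) ^ p = 1) : x = 0 := by
  obtain ⟨Q, hQ⟩ := one_add_mul_pow p hp π θ hπ
  obtain ⟨y, rfl⟩ := Ideal.mem_span_singleton'.mp hx
  have h1 := hQ y
  rw [mul_comm π y, h] at h1
  have hyp : y ^ p = y * y ^ (p - 1) := by
    rw [← pow_succ', Nat.sub_add_cancel hp.one_le]
  have h2 : (p : R) * π * (y * (1 + π * (y * Q.eval y) + θ * y ^ (p - 1))) = 0 := by
    have h3 : (p : R) * π * (y + θ * y ^ p + π * (y ^ 2 * Q.eval y)) = 0 := by
      linear_combination -h1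
    rw [hyp] at h3
    linear_combination h3
  have h3 := htors _ h2
  have h4 : y = 0 := ((hunit (y * Q.eval y) (y ^ (p - 1))).mul_left_eq_zero).mp h3
  rw [h4, zero_mul]

/-- **ROOT.** In an `I`-adically complete ring with `π, θ ∈ I` and `π^(p-1) = p θ`, every
`1 + p π c` is a `p`-th power of some `1 + π Y`. -/
theorem exists_one_add_mul_pow_eq {R : Type*} [CommRing R] (I : Ideal R) [IsAdicComplete I R]
    (p : ℕ) (hp : p.Prime) (π θ : R) (hπI : π ∈ I) (hθI : θ ∈ I)
    (hπ : π ^ (p - 1) = (p : R) * θ) (c : R) :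
    ∃ Y : R, (1 + π * Y) ^ p = 1 + (p : R) * π * c := by
  obtain ⟨Q, hQ⟩ := one_add_mul_pow p hp π θ hπ
  -- the contraction `T Y = c - θ Y^p - π Y^2 Q(Y)`
  have hdiff : ∀ a b : R, ∃ t ∈ I,
      (θ * a ^ p + π * (a ^ 2 * Q.eval a)) - (θ * b ^ p + π * (b ^ 2 * Q.eval b)) =
        (a - b) * t := by
    intro a b
    obtain ⟨s1, hs1⟩ := sub_dvd_eval_sub a b (X ^ p : R[X])
    obtain ⟨s2, hs2⟩ := sub_dvd_eval_sub a b (X ^ 2 * Q : R[X])
    simp only [eval_mul, eval_pow, eval_X] at hs1 hs2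
    refine ⟨θ * s1 + π * s2, I.add_mem (I.mul_mem_right _ hθI) (I.mul_mem_right _ hπI), ?_⟩
    linear_combination θ * hs1 + π * hs2
  let T : R → R := fun y => c - (θ * y ^ p + π * (y ^ 2 * Q.eval y))
  let Ys : ℕ → R := fun n => T^[n] c
  have hTdiff : ∀ a b : R, ∀ n : ℕ, a - b ∈ I ^ n → T a - T b ∈ I ^ (n + 1) := by
    intro a b n hab
    obtain ⟨t, ht, hh⟩ := hdiff a b
    have e : T a - T b = -((a - b) * t) := by
      simp only [T]
      linear_combination -hh
    rw [e, pow_succ]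
    exact neg_mem (Ideal.mul_mem_mul hab ht)
  have hsucc : ∀ n, Ys (n + 1) = T (Ys n) := fun n => Function.iterate_succ_apply' T n c
  have hstep : ∀ n, Ys (n + 1) - Ys n ∈ I ^ n := by
    intro n
    induction n with
    | zero => simp
    | succ n ih =>
      have h2 := hTdiff (Ys (n + 1)) (Ys n) n ih
      rw [← hsucc (n + 1), ← hsucc n] at h2
      exact h2
  have hsmod : ∀ (n : ℕ) (a b : R), a ≡ b [SMOD (I ^ n • ⊤ : Submodule R R)] ↔ a - b ∈ I ^ n := by
    intro n a b
    rw [SModEq.sub_mem, smul_eq_mul, Ideal.mul_top]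
  have hcauchy : AdicCompletion.IsAdicCauchy I R Ys := by
    rw [AdicCompletion.isAdicCauchy_iff]
    intro n
    rw [hsmod]
    have := hstep n
    rw [← neg_sub]
    exact neg_mem this
  obtain ⟨L, hL⟩ := IsPrecomplete.prec (inferInstance : IsPrecomplete I R) (f := Ys) hcauchy
  have hL' : ∀ n, Ys n - L ∈ I ^ n := fun n => (hsmod n _ _).mp (hL n)
  have hfix : L - T L = 0 := by
    refine IsHausdorff.haus (inferInstance : IsHausdorff I R) _ (fun n => ?_)
    rw [hsmod, sub_zero]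
    have e : L - T L = -(Ys (n + 1) - L) + (T (Ys n) - T L) := by
      rw [hsucc n]; ring
    rw [e]
    refine add_mem (neg_mem (Ideal.pow_le_pow_right (Nat.le_succ n) (hL' (n + 1)))) ?_
    exact Ideal.pow_le_pow_right (Nat.le_succ n) (hTdiff _ _ n (hL' n))
  refine ⟨L, ?_⟩
  rw [hQ L]
  have e : L + θ * L ^ p + π * (L ^ 2 * Q.eval L) = c := by
    simp only [T] at hfix
    linear_combination hfix
  rw [e]

/-- **Row A1 (LF1) of `S56/Flat/AlgBricks`, verbatim.** -/
theorem lf1Statement : Flat.LF1Statement := by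
  intro p hpF R _ π θ hπ hunit htors y hy
  have hx : π * y ∈ Ideal.span {π} := Ideal.mul_mem_right _ _ (Ideal.subset_span rfl)
  have h0 := eq_zero_of_one_add_pow_eq_one p hpF.out π θ hπ hunit htors hx hy
  exact htors y (by rw [mul_assoc, h0, mul_zero])

/-- **Row A1 (ROOT) of `S56/Flat/AlgBricks`, verbatim.** -/
theorem rootStatement : Flat.RootStatement := by
  intro p hpF R _ I _ π θ hπI hθI hπ c
  exact exists_one_add_mul_pow_eq I p hpF.out π θ hπI hθI hπ c

end Fermat.Agent.S56.LF.RootTwin
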