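/-
S56 / brick LF: glue between the rows A1 (`LF/RootTwin`), A2 (`LF/LiftProof`) and A3 (`LF/PropP`).

* `lf2Statement : Flat.LF2Statement` — the row A2 of `S56/Flat/AlgBricks`, unconditional.
* `liftStatement_of`, `liftStatement` — the hypothesis `PropP.LiftStatement` of (LF4)
  (`PropP.forall_mem_range_of_lift`) for an `I`-adically complete `S`.
* `exists_lift`, `lift_unique` — the two halves of (LF2) without the `Prop`-level hypotheses.
-/
import Mathlib
import Fermat.Agent.S56.Flat.AlgBricks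
import Fermat.Agent.S56.LF.RootTwin
import Fermat.Agent.S56.LF.LiftProof
import Fermat.Agent.S56.LF.PropP

set_option autoImplicit false

namespace Fermat.Agent.S56.LF.LiftGlue

open Fermat.Agent.S56

/-- **Row A2 (LF2) of `S56/Flat/AlgBricks`, unconditional.** -/
theorem lf2Statement : Flat.LF2Statement :=
  LiftProof.lf2Statement_of RootTwin.lf1Statement RootTwin.rootStatement

section

variable {R0 : Type} [CommRing R0] {H : Type} [CommRing H] [Bialgebra R0 H]
  [Coalgebra.IsCocomm R0 H] [Module.Free R0 H] [Module.Finite R0 H]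
  {S : Type} [CommRing S] [Algebra R0 S] (I : Ideal S) [IsAdicComplete I S]
  (p : ℕ) (hp : p.Prime) (π θ : S) (hπI : π ∈ I) (hθI : θ ∈ I) (hπ : π ^ (p - 1) = (p : S) * θ)
  (hnzd : ∀ s : S, (p : S) * π * s = 0 → s = 0)

include hp hπI hθI hπ hnzd in
/-- (LF2), existence, with no open hypothesis. -/
theorem exists_lift (g0 : WithConv (H →ₐ[R0] S ⧸ Ideal.span {(p : S) * π})) (hg0 : g0 ^ p = 1) :
    ∃ g : WithConv (H →ₐ[R0] S), g ^ p = 1 ∧
      ∀ (h : H) (s : S), Ideal.Quotient.mk (Ideal.span {(p : S) * π}) s = g0 h →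
        g h - s ∈ Ideal.span {π} :=
  LiftProof.exists_lift RootTwin.lf1Statement RootTwin.rootStatement I p hp π θ hπI hθI hπ hnzd
    g0 hg0

include hp hπI hθI hπ hnzd in
/-- (LF2), uniqueness, with no open hypothesis. -/
theorem lift_unique (g0 : WithConv (H →ₐ[R0] S ⧸ Ideal.span {(p : S) * π}))
    (g g' : WithConv (H →ₐ[R0] S)) (hg : g ^ p = 1) (hg' : g' ^ p = 1)
    (hc : ∀ (h : H) (s : S), Ideal.Quotient.mk (Ideal.span {(p : S) * π}) s = g0 h →
      g h - s ∈ Ideal.span {π})
    (hc' : ∀ (h : H) (s : S), Ideal.Quotient.mk (Ideal.span {(p : S) * π}) s = g0 h →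
      g' h - s ∈ Ideal.span {π}) : g = g' :=
  LiftProof.lift_unique RootTwin.lf1Statement I p hp π θ hπI hθI hπ hnzd g0 g g' hg hg' hc hc'

include hp hπI hθI hπ hnzd in
/-- The (LF2) hypothesis `PropP.LiftStatement` of (LF4), from the lifting theorem
(`Prop`-level inputs kept as hypotheses). -/
theorem liftStatement_of (hLF1 : Flat.LF1Statement) (hRoot : Flat.RootStatement) :
    PropP.LiftStatement R0 H S p π := by
  intro g0 hg0
  obtain ⟨g, hg, hc⟩ := LiftProof.exists_lift hLF1 hRoot I p hp π θ hπI hθI hπ hnzd g0 hg0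
  refine ⟨g, hg, fun h => ?_⟩
  obtain ⟨s, hs⟩ := Ideal.Quotient.mk_surjective (g0 h)
  obtain ⟨t, ht⟩ := Ideal.mem_span_singleton'.mp (hc h s hs)
  rw [← hs, ← map_sub, ← ht, map_mul]
  exact Ideal.mul_mem_left _ _ (Ideal.subset_span rfl)

include hp hπI hθI hπ hnzd in
/-- The (LF2) hypothesis `PropP.LiftStatement` of (LF4) for an `I`-adically complete `S`. -/
theorem liftStatement : PropP.LiftStatement R0 H S p π :=
  liftStatement_of I p hp π θ hπI hθI hπ hnzd RootTwin.lf1Statement RootTwin.rootStatement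

end

end Fermat.Agent.S56.LF.LiftGlue
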