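/-
S56 / brick LF, row A3 (helper15): property (P) in the local vocabulary.

`H` a commutative cocommutative bialgebra, finite free over `ℤ_(p) = GaloisRep.ratLocalizedAt p`,
all of whose `ℚ̄_p`-points are killed by `p`.  `L'` an intermediate field of `ℚ̄_p / ℚ_p`
containing all coordinates `g h` of all points.

* `coord_mem_of_ringHom` : (LF4) if `E'` is a finite extension of `ℚ_p`, `π ∈ 𝒪[E']` is non-zero
  with `‖π‖ ^ (p - 1) < ‖p‖` (i.e. `v(π) > v(p)/(p-1)`) and there is ANY ring homomorphism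
  `𝒪[L'] → 𝒪[E'] ⧸ (p π)`, then all coordinates of all points lie in `E'`.
* `propP_of_points`, `propP_coordField` : the same with conclusion `L' ≤ E'` when `L'` is generated
  by the coordinates (`Flat.Coord.coordField p H`): this is the body of `LevelBound.PropP L'`.
* `exists_norm_le_of_ne_one` : (LF3a) a non-trivial `p`-torsion point has a coordinate `x = f h - ε h`
  with `‖p‖ ≤ ‖x‖ ^ (p - 1)`.
* `ringHom_ext`, `algHomOfRingHom` : ring homomorphisms out of `ℤ_(p)` are unique, so every ring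
  homomorphism between `ℤ_(p)`-algebras is an algebra homomorphism.

The ring-level content is `LF/PropP.lean` (`forall_mem_range_of_lift`) and the lifting theorem
`LF/LiftGlue.lean` (`liftStatement`); this file only instantiates them.
-/
import Mathlib
import Fermat.Agent.CFT.Local.PadicExt
import Fermat.Agent.S56.Flat.Coord
import Fermat.Agent.S56.LF.LiftGlue

set_option autoImplicit false

noncomputable section

namespace Fermat.Agent.S56.LF.PropPLocal

open scoped NNReal NormedField Valued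
open IsLocalRing GaloisRep WithConv
open Fermat.Agent.CFT.Local.NormedLocal Fermat.Agent.CFT.Local.PadicExt
open Fermat.Agent.S56.Flat

variable (p : ℕ) [Fact p.Prime]

set_option quotPrecheck false in
local notation "R0" => ↥(ratLocalizedAt p)
local notation "Qpb" => PadicAlgCl p

section RingHoms

omit [Fact p.Prime] in
/-- Two ring homomorphisms out of `ℤ_(p)` agree. -/
theorem ringHom_ext {T : Type*} [CommRing T] (f g : R0 →+* T) : f = g := by
  have hnat : ∀ n : ℕ, f (n : R0) = g (n : R0) := fun n => by rw [map_natCast, map_natCast]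
  have hint : ∀ n : ℤ, f (n : R0) = g (n : R0) := fun n => by rw [map_intCast, map_intCast]
  ext r
  have hinv : (((r : ℚ).den : ℚ)⁻¹) ∈ ratLocalizedAt p := by
    show ((((r : ℚ).den : ℚ))⁻¹).den.Coprime p
    rw [Rat.inv_natCast_den_of_pos (r : ℚ).den_pos]
    exact r.2
  have hden0 : ((r : ℚ).den : ℚ) ≠ 0 := Nat.cast_ne_zero.mpr (r : ℚ).den_nz
  have h1 : ((r : ℚ).den : R0) * (⟨_, hinv⟩ : R0) = 1 := Subtype.ext (by
    show (((r : ℚ).den : R0) : ℚ) * ((r : ℚ).den : ℚ)⁻¹ = 1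
    rw [Subring.coe_natCast, mul_inv_cancel₀ hden0])
  have h2 : r = ((r : ℚ).num : R0) * (⟨_, hinv⟩ : R0) := Subtype.ext (by
    show (r : ℚ) = (((r : ℚ).num : R0) : ℚ) * ((r : ℚ).den : ℚ)⁻¹
    rw [Subring.coe_intCast, ← div_eq_mul_inv, Rat.num_div_den])
  have hfc : f (⟨_, hinv⟩ : R0) = g (⟨_, hinv⟩ : R0) := by
    have e1 : f ((r : ℚ).den : R0) * f (⟨_, hinv⟩ : R0) = 1 := by rw [← map_mul, h1, map_one]
    have e2 : g ((r : ℚ).den : R0) * g (⟨_, hinv⟩ : R0) = 1 := by rw [← map_mul, h1, map_one]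
    calc f (⟨_, hinv⟩ : R0) = f (⟨_, hinv⟩ : R0) * (g ((r : ℚ).den : R0) * g (⟨_, hinv⟩ : R0)) := by
          rw [e2, mul_one]
      _ = (f ((r : ℚ).den : R0) * f (⟨_, hinv⟩ : R0)) * g (⟨_, hinv⟩ : R0) := by
          rw [← hnat]; ring
      _ = g (⟨_, hinv⟩ : R0) := by rw [e1, one_mul]
  rw [h2, map_mul, map_mul, hint, hfc]

/-- Every ring homomorphism between `ℤ_(p)`-algebras is an algebra homomorphism. -/
def algHomOfRingHom {A B : Type*} [CommRing A] [CommRing B] [Algebra R0 A] [Algebra R0 B]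
    (f : A →+* B) : A →ₐ[R0] B :=
  { f with
    commutes' := fun r =>
      DFunLike.congr_fun (ringHom_ext p (f.comp (algebraMap R0 A)) (algebraMap R0 B)) r }

omit [Fact p.Prime] in
theorem algHomOfRingHom_apply {A B : Type*} [CommRing A] [CommRing B] [Algebra R0 A]
    [Algebra R0 B] (f : A →+* B) (a : A) : algHomOfRingHom p f a = f a := rfl

end RingHoms

section Integers

/-- Rank one: in the integers of an ultrametric normed field, an element divisible by all powers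
of a non-unit is zero. -/
theorem eq_zero_of_forall_pow_dvd {K : Type*} [NontriviallyNormedField K] [IsUltrametricDist K]
    (x : 𝒪[K]) (hx : ¬ IsUnit x) (y : 𝒪[K]) (h : ∀ n : ℕ, x ^ n ∣ y) : y = 0 := by
  have hx1 : ‖(x : K)‖ < 1 :=
    lt_of_le_of_ne (Valued.integer.norm_le_one x)
      (fun h1 => hx (Valued.integer.isUnit_iff_norm_eq_one.mpr h1))
  by_contra hy
  have hy0 : 0 < ‖(y : K)‖ := norm_pos_iff.mpr (fun h0 => hy (Subtype.ext h0))
  obtain ⟨n, hn⟩ := exists_pow_lt_of_lt_one hy0 hx1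
  obtain ⟨c, hc⟩ := h n
  have hle : ‖(y : K)‖ ≤ ‖(x : K)‖ ^ n := by
    rw [hc]
    push_cast
    rw [norm_mul, norm_pow]
    exact mul_le_of_le_one_right (by positivity) (Valued.integer.norm_le_one c)
  linarith

variable (E : IntermediateField ℚ_[p] (PadicAlgCl p))

/-- Elements of `ℤ_(p)` have norm at most one in every intermediate field. -/
theorem norm_algebraMap_le_one (r : R0) : ‖algebraMap ℚ_[p] E (((r : ℚ)) : ℚ_[p])‖ ≤ 1 := by
  rw [norm_algebraMap']
  apply Padic.norm_rat_le_one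
  have hc : (r : ℚ).den.Coprime p := r.2
  exact ((Nat.Prime.coprime_iff_not_dvd (Fact.out : p.Prime)).mp hc.symm)

/-- The structure map `ℤ_(p) → 𝒪[E]`. -/
def toInteger : R0 →+* 𝒪[E] :=
  (((algebraMap ℚ_[p] E).comp (Rat.castHom ℚ_[p])).comp (ratLocalizedAt p).subtype).codRestrict
    𝒪[E] (fun r => (Valued.integer.mem_iff).mpr (norm_algebraMap_le_one p E r))

end Integers

section Main

variable (H : Type) [CommRing H] [Bialgebra (ratLocalizedAt p) H]
  [Coalgebra.IsCocomm (ratLocalizedAt p) H] [Module.Free (ratLocalizedAt p) H]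
  [Module.Finite (ratLocalizedAt p) H]

/-- **(LF4), local form.**  All coordinates of all points lie in `E'` as soon as there is a ring
homomorphism `𝒪[L'] → 𝒪[E'] ⧸ (p π)` with `v(π) > v(p)/(p-1)`. -/
theorem coord_mem_of_ringHom (htors : ∀ f : WithConv (H →ₐ[R0] Qpb), f ^ p = 1)
    (L' : IntermediateField ℚ_[p] Qpb) (hL : ∀ (g : H →ₐ[R0] Qpb) (h : H), g h ∈ L')
    (E' : IntermediateField ℚ_[p] Qpb) [FiniteDimensional ℚ_[p] E'] (π : 𝒪[E']) (hπ0 : π ≠ 0)
    (hπ : ‖(π : E')‖ ^ (p - 1) < ‖(p : E')‖)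
    (ψ : 𝒪[L'] →+* 𝒪[E'] ⧸ Ideal.span {(p : 𝒪[E']) * π}) :
    ∀ (g : H →ₐ[R0] Qpb) (h : H), g h ∈ E' := by
  have hp : p.Prime := Fact.out
  let algL : Algebra R0 𝒪[L'] := (toInteger p L').toAlgebra
  let algE : Algebra R0 𝒪[E'] := (toInteger p E').toAlgebra
  let inclL : 𝒪[L'] →ₐ[R0] Qpb := algHomOfRingHom p ((algebraMap L' Qpb).comp (𝒪[L']).subtype)
  let inclE : 𝒪[E'] →ₐ[R0] Qpb := algHomOfRingHom p ((algebraMap E' Qpb).comp (𝒪[E']).subtype)
  have hinclL : Function.Injective inclL := fun x y hxy => Subtype.ext (Subtype.ext hxy)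
  have hinclE : Function.Injective inclE := fun x y hxy => Subtype.ext (Subtype.ext hxy)
  have : Finite (H →ₐ[R0] Qpb) := Adapter.finite_algHom R0 H Qpb
  have hall : ∀ (f : H →ₐ[R0] Qpb) (h : H), f h ∈ Set.range inclL := fun f h =>
    ⟨⟨⟨f h, hL f h⟩, (Valued.integer.mem_iff).mpr (Coord.norm_point_le_one p H f h)⟩, rfl⟩
  have : CharZero L' := charZero_of_injective_algebraMap (algebraMap ℚ_[p] L').injective
  have : CharZero E' := charZero_of_injective_algebraMap (algebraMap ℚ_[p] E').injective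
  have hp0 : ((p : ℕ) : 𝒪[L']) ≠ 0 := fun h0 => by
    have h1 : ((p : ℕ) : L') = 0 := by
      have h2 := congrArg (Subtype.val) h0
      simpa using h2
    exact hp.ne_zero (Nat.cast_eq_zero.mp h1)
  have hpE : ((p : ℕ) : E') ≠ 0 := Nat.cast_ne_zero.mpr hp.ne_zero
  have hpS : ((p : ℕ) : 𝒪[E']) ≠ 0 := fun h0 => by
    have h2 := congrArg (Subtype.val) h0
    exact hpE (by simpa using h2)
  -- `π` and `θ := π ^ (p - 1) / p` lie in the maximal ideal
  have hp1 : ‖((p : ℕ) : E')‖ ≤ 1 := IsUltrametricDist.norm_natCast_le_one E' p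
  have hπ1 : ‖(π : E')‖ ≠ 1 := fun h1 => by
    rw [h1, one_pow] at hπ
    linarith
  have hπJ : π ∈ 𝓂[E'] := by
    rw [IsLocalRing.mem_maximalIdeal, mem_nonunits_iff, Valued.integer.isUnit_iff_norm_eq_one]
    exact hπ1
  have hθ0 : ‖(π : E') ^ (p - 1) / ((p : ℕ) : E')‖ < 1 := by
    rw [norm_div, norm_pow, div_lt_one (norm_pos_iff.mpr hpE)]
    exact hπ
  let θ : 𝒪[E'] := ⟨(π : E') ^ (p - 1) / ((p : ℕ) : E'), (Valued.integer.mem_iff).mpr hθ0.le⟩
  have hθJ : θ ∈ 𝓂[E'] := by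
    rw [IsLocalRing.mem_maximalIdeal, mem_nonunits_iff, Valued.integer.isUnit_iff_norm_eq_one]
    exact hθ0.ne
  have hπθ : π ^ (p - 1) = ((p : ℕ) : 𝒪[E']) * θ := Subtype.ext (by
    show (π : E') ^ (p - 1) = (((p : ℕ) : 𝒪[E']) : E') * ((π : E') ^ (p - 1) / ((p : ℕ) : E'))
    rw [Subring.coe_natCast, mul_div_cancel₀ _ hpE])
  have hreg : ∀ s : 𝒪[E'], ((p : ℕ) : 𝒪[E']) * π * s = 0 → s = 0 := fun s hs =>
    (mul_eq_zero.mp hs).resolve_left (mul_ne_zero hpS hπ0)
  have hLift : PropP.LiftStatement R0 H 𝒪[E'] p π :=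
    LiftGlue.liftStatement (𝓂[E']) p hp π θ hπJ hθJ hπθ hreg
  have key := PropP.forall_mem_range_of_lift hp inclL hinclL inclE hinclE hall htors hp0
    (fun x hx y hy => eq_zero_of_forall_pow_dvd x hx y hy) (𝓂[E'])
    (Ideal.IsMaximal.ne_top (IsLocalRing.maximalIdeal.isMaximal _)) π θ hπJ hθJ hπθ hreg
    (algHomOfRingHom p ψ) hLift
  intro g h
  obtain ⟨s, hs⟩ := key g h
  rw [← hs]
  exact (s : E').2

/-- **Property (P) for a field generated by the coordinates of the points** (the body of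
`LevelBound.PropP L'`). -/
theorem propP_of_points (htors : ∀ f : WithConv (H →ₐ[R0] Qpb), f ^ p = 1)
    (L' : IntermediateField ℚ_[p] Qpb) (hL : ∀ (g : H →ₐ[R0] Qpb) (h : H), g h ∈ L')
    (hgen : ∀ E : IntermediateField ℚ_[p] Qpb, (∀ (g : H →ₐ[R0] Qpb) (h : H), g h ∈ E) → L' ≤ E) :
    ∀ (E' : IntermediateField ℚ_[p] Qpb) [FiniteDimensional ℚ_[p] E'] (π : 𝒪[E']), π ≠ 0 →
      ‖(π : E')‖ ^ (p - 1) < ‖(p : E')‖ →
      (𝒪[L'] →+* 𝒪[E'] ⧸ Ideal.span {(p : 𝒪[E']) * π}) → L' ≤ E' :=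
  fun E' _ π hπ0 hπ ψ => hgen E' (coord_mem_of_ringHom p H htors L' hL E' π hπ0 hπ ψ)

/-- **Property (P) for the coordinate field** `Flat.Coord.coordField p H`. -/
theorem propP_coordField (htors : ∀ f : WithConv (H →ₐ[R0] Qpb), f ^ p = 1) :
    ∀ (E' : IntermediateField ℚ_[p] Qpb) [FiniteDimensional ℚ_[p] E'] (π : 𝒪[E']), π ≠ 0 →
      ‖(π : E')‖ ^ (p - 1) < ‖(p : E')‖ →
      (𝒪[Coord.coordField p H] →+* 𝒪[E'] ⧸ Ideal.span {(p : 𝒪[E']) * π}) →
      Coord.coordField p H ≤ E' :=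
  propP_of_points p H htors _ (Coord.coord_mem p H) (fun _ hE => Coord.coordField_le p H hE)

omit [Module.Free (ratLocalizedAt p) H] in
/-- **(LF3a), norm form.**  A non-trivial `p`-torsion point has a coordinate `x = f h - ε h` with
`‖p‖ ≤ ‖x‖ ^ (p - 1)` (i.e. `v(x) ≤ v(p)/(p-1)`). -/
theorem exists_norm_le_of_ne_one (f : WithConv (H →ₐ[R0] Qpb)) (hf : f ^ p = 1) (hne : f ≠ 1) :
    ∃ h : H, ‖((p : ℕ) : Qpb)‖ ≤
      ‖f h - algebraMap R0 Qpb (Coalgebra.counit h)‖ ^ (p - 1) := by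
  have hp : p.Prime := Fact.out
  let T : IntermediateField ℚ_[p] Qpb := ⊤
  let algT : Algebra R0 𝒪[T] := (toInteger p T).toAlgebra
  let incl : 𝒪[T] →ₐ[R0] Qpb := algHomOfRingHom p ((algebraMap T Qpb).comp (𝒪[T]).subtype)
  have hincl : Function.Injective incl := fun x y hxy => Subtype.ext (Subtype.ext hxy)
  let f0 : H →+* 𝒪[T] :=
    { toFun := fun h => ⟨⟨f.ofConv h, IntermediateField.mem_top⟩,
        (Valued.integer.mem_iff).mpr (Coord.norm_point_le_one p H f.ofConv h)⟩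
      map_one' := Subtype.ext (Subtype.ext (map_one f.ofConv))
      map_mul' := fun a b => Subtype.ext (Subtype.ext (map_mul f.ofConv a b))
      map_zero' := Subtype.ext (Subtype.ext (map_zero f.ofConv))
      map_add' := fun a b => Subtype.ext (Subtype.ext (map_add f.ofConv a b)) }
  let fO : WithConv (H →ₐ[R0] 𝒪[T]) := toConv (algHomOfRingHom p f0)
  have hpush : PropP.push incl fO = f := WithConv.ext (AlgHom.ext fun h => rfl)
  have hfO : fO ^ p = 1 := PropP.push_injective incl hincl (by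
    rw [PropP.push_pow, hpush, hf, PropP.push_one])
  have hneO : fO ≠ 1 := fun h1 => hne (by rw [← hpush, h1, PropP.push_one])
  have : CharZero T := charZero_of_injective_algebraMap (algebraMap ℚ_[p] T).injective
  have hp0 : ((p : ℕ) : 𝒪[T]) ≠ 0 := fun h0 => by
    have h1 : ((p : ℕ) : T) = 0 := by
      have h2 := congrArg (Subtype.val) h0
      simpa using h2
    exact hp.ne_zero (Nat.cast_eq_zero.mp h1)
  obtain ⟨h, c, hc⟩ := PropP.exists_pow_dvd_natCast_of_ne_one hp hp0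
    (fun x hx y hy => eq_zero_of_forall_pow_dvd x hx y hy) fO hfO hneO
  refine ⟨h, ?_⟩
  have e1 : incl ((p : ℕ) : 𝒪[T]) = ((p : ℕ) : Qpb) := map_natCast incl p
  have e2 : incl (fO h - algebraMap R0 𝒪[T] (Coalgebra.counit h)) =
      f h - algebraMap R0 Qpb (Coalgebra.counit h) := by
    rw [map_sub, AlgHom.commutes]
    rfl
  have e3 : ‖incl c‖ ≤ 1 := Valued.integer.norm_le_one c
  calc ‖((p : ℕ) : Qpb)‖ = ‖incl ((p : ℕ) : 𝒪[T])‖ := by rw [e1]
    _ = ‖incl ((fO h - algebraMap R0 𝒪[T] (Coalgebra.counit h)) ^ (p - 1) * c)‖ := by rw [hc]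
    _ = ‖f h - algebraMap R0 Qpb (Coalgebra.counit h)‖ ^ (p - 1) * ‖incl c‖ := by
        rw [map_mul, map_pow, e2, norm_mul, norm_pow]
    _ ≤ ‖f h - algebraMap R0 Qpb (Coalgebra.counit h)‖ ^ (p - 1) :=
        mul_le_of_le_one_right (by positivity) e3

omit [Coalgebra.IsCocomm (ratLocalizedAt p) H] [Module.Free (ratLocalizedAt p) H]
  [Module.Finite (ratLocalizedAt p) H] in
/-- The points are killed by `p` as soon as they are, additively, a group killed by `p`
(the shape of `Flat.FlatLocal`). -/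
theorem pow_eq_one_of_equiv {X : Type*} [AddCommGroup X] (e : WithConv (H →ₐ[R0] Qpb) ≃ X)
    (hadd : ∀ f g : WithConv (H →ₐ[R0] Qpb), e (f * g) = e f + e g)
    (hX : ∀ x : X, p • x = 0) : ∀ f : WithConv (H →ₐ[R0] Qpb), f ^ p = 1 := by
  have h1 : e 1 = 0 := by
    have h := hadd 1 1
    rw [mul_one] at h
    exact left_eq_add.mp h
  have hpow : ∀ (f : WithConv (H →ₐ[R0] Qpb)) (n : ℕ), e (f ^ n) = n • e f := by
    intro f n
    induction n with
    | zero => rw [pow_zero, zero_smul, h1]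
    | succ n ih => rw [pow_succ, hadd, ih, succ_nsmul]
  intro f
  apply e.injective
  rw [hpow, hX, h1]

/-- **Property (P) for the coordinate field of a `Flat.FlatLocal` datum** whose group of points
is killed by `p`. -/
theorem propP_coordField_of_equiv {X : Type*} [AddCommGroup X]
    (e : WithConv (H →ₐ[R0] Qpb) ≃ X)
    (hadd : ∀ f g : WithConv (H →ₐ[R0] Qpb), e (f * g) = e f + e g)
    (hX : ∀ x : X, p • x = 0) :
    ∀ (E' : IntermediateField ℚ_[p] Qpb) [FiniteDimensional ℚ_[p] E'] (π : 𝒪[E']), π ≠ 0 →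
      ‖(π : E')‖ ^ (p - 1) < ‖(p : E')‖ →
      (𝒪[Coord.coordField p H] →+* 𝒪[E'] ⧸ Ideal.span {(p : 𝒪[E']) * π}) →
      Coord.coordField p H ≤ E' :=
  propP_coordField p H (pow_eq_one_of_equiv p H e hadd hX)

end Main

end Fermat.Agent.S56.LF.PropPLocal
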