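/-
S56 / brick LF (helper15): the junction A3 ∘ B2.

* `propP_coordField` : row A3 in the vocabulary of row B2: the coordinate field of a finite free
  cocommutative bialgebra over `ℤ_(p)` with `p`-torsion points has Fontaine's property (P)
  (`LevelBound.PropP`), from `PropPLocal.propP_coordField`.
* `levelStatement_of` : `FlatKummer.LevelStatement` (the only open input of `LF/FlatKummer.lean`)
  from the exit `LevelBound.LevelBoundStatement` of row B2 (LF5).
-/
import Mathlib
import Fermat.Agent.S56.LF.PropPLocal
import Fermat.Agent.S56.LF.LevelBound.Statement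
import Fermat.Agent.S56.LF.FlatKummer

set_option autoImplicit false

namespace Fermat.Agent.S56.LF.LevelGlue

open GaloisRep WithConv Fermat.Agent.S56.Flat

/-- **Row A3 in the vocabulary of row B2**: property (P) for the coordinate field. -/
theorem propP_coordField (p : ℕ) [Fact p.Prime] (H : Type) [CommRing H]
    [Bialgebra (ratLocalizedAt p) H] [Coalgebra.IsCocomm (ratLocalizedAt p) H]
    [Module.Free (ratLocalizedAt p) H] [Module.Finite (ratLocalizedAt p) H]
    (htors : ∀ f : WithConv (H →ₐ[ratLocalizedAt p] PadicAlgCl p), f ^ p = 1) :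
    LevelBound.PropP (Coord.coordField p H) :=
  PropPLocal.propP_coordField p H htors

/-- **A3 ∘ B2**: the exit of LF4 + LF5 from the level bound (LF5). -/
theorem levelStatement_of
    (hLB : ∀ (p : ℕ) [Fact p.Prime], LevelBound.LevelBoundStatement p) :
    FlatKummer.LevelStatement := by
  intro p _ hp2 H _ _ _ _ _ htors K _ ζ hζ hζK u θ hu hu0 hθ hθu
  have := Coord.finiteDimensional_coordField p H
  exact hLB p hp2 K (Coord.coordField p H) (propP_coordField p H htors) hζ hζK hu hu0 hθ hθu

end Fermat.Agent.S56.LF.LevelGlue
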