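/-
S56 / brick LF (helper15): the serial chain A1 → A2 → A3 → B2 closed up to the main statement of
LF5.

* `levelBound_of_main` : `LevelBound.MainStatement p → LevelBound.LevelBoundStatement p`
  (re-export of `LevelBound.ReduceTwin.levelBound_of_main`);
* `levelStatement_of_main` : `FlatKummer.LevelStatement` (the only open input of
  `LF/FlatKummer.lean`: flat ⟹ Kummer-bounded) from `LevelBound.MainStatement p` for all `p`.
-/
import Mathlib
import Fermat.Agent.S56.LF.LevelGlue
import Fermat.Agent.S56.LF.LevelBound.ReduceTwin

set_option autoImplicit false

namespace Fermat.Agent.S56.LF.LevelExit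

/-- **A3 ∘ B2 (reduction step)**: the exit of LF4 + LF5 from the main statement of LF5. -/
theorem levelStatement_of_main
    (hMain : ∀ (p : ℕ) [Fact p.Prime], LevelBound.MainStatement p) :
    FlatKummer.LevelStatement :=
  LevelGlue.levelStatement_of
    (fun p _ => LevelBound.ReduceTwin.levelBound_of_main (hMain p))

end Fermat.Agent.S56.LF.LevelExit
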