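/-
S56, brick LF, row C7 = LF9 (the case p = 3 of the reducible shape (R)): abstract core.

Mathlib only.  No local field, no Hopf algebra, no cohomology group.

What flatness of a lift gives (LF3b + LF3q of the design, transported along the additive
equivariant identification of the points with the lift) is recorded as the Prop `QuotRigid`:
a subgroup `E0` such that the inertia group `I` acts trivially modulo `E0`, and such that an
element `x` of `E0` whose `I`-translates stay in the coset `x + N` of an `I`-stable subgroup `N`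
lies in `N`.

Two exits, in the matrix vocabulary of the three-step argument (shape (R),
`r σ = !![χ1 σ, b σ; 0, χ2 σ]`, lift with cocycle `c`, presented by two additive maps
`ι` (the part `ε V`) and `s` (a section of the reduction)):

* `gamma_eq_zero`: if the quotient character `χ2` is unramified and the sub character `χ1`
  is ramified, then the lower left entry of `c` vanishes on every normal subgroup `N` on which
  both characters are trivial.
* `exists_split_of_unram_sub`: if the sub character `χ1` is unramified and `χ2` is ramified,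
  then `b` is a coboundary, i.e. the residual representation is split (so the two characters
  may be swapped: `conj_swap`, `exists_conj_swap`).
-/
import Mathlib

set_option autoImplicit false

namespace Fermat.Agent.S56.LF.PThree

open Matrix

section QuotRigidDef

variable {Gam : Type*} [Group Gam] {V : Type*} [AddCommGroup V]

/-- Quotient rigidity of an additive group with an action, relative to a subgroup `I`
(the inertia group): there is a subgroup `E0` modulo which `I` acts trivially, and for every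
`I`-stable subgroup `N`, an element `x ∈ E0` with `τ x - x ∈ N` for all `τ ∈ I` lies in `N`. -/
def QuotRigid (act : Gam → V → V) (I : Subgroup Gam) : Prop :=
  ∃ E0 : AddSubgroup V, (∀ σ ∈ I, ∀ v, act σ v - v ∈ E0) ∧
    ∀ N : AddSubgroup V, (∀ τ ∈ I, ∀ n ∈ N, act τ n ∈ N) →
      ∀ x ∈ E0, (∀ τ ∈ I, act τ x - x ∈ N) → x ∈ N

/-- Quotient rigidity is transported along an equivariant additive equivalence. -/
theorem QuotRigid.of_equiv {V' : Type*} [AddCommGroup V'] {act : Gam → V → V}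
    {act' : Gam → V' → V'} {I : Subgroup Gam} (h : QuotRigid act I) (e : V ≃+ V')
    (he : ∀ σ v, e (act σ v) = act' σ (e v)) : QuotRigid act' I := by
  obtain ⟨E0, h1, h2⟩ := h
  have he' : ∀ σ v', e.symm (act' σ v') = act σ (e.symm v') := by
    intro σ v'
    apply e.injective
    rw [he, e.apply_symm_apply, e.apply_symm_apply]
  refine ⟨E0.map e.toAddMonoidHom, ?_, ?_⟩
  · intro σ hσ v'
    refine ⟨act σ (e.symm v') - e.symm v', h1 σ hσ _, ?_⟩
    simp [he]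
  · intro N hN x hx hxN
    obtain ⟨y, hy, rfl⟩ := hx
    have hy' : y ∈ N.comap e.toAddMonoidHom := by
      refine h2 (N.comap e.toAddMonoidHom) ?_ y hy ?_
      · intro τ hτ n hn
        have := hN τ hτ _ hn
        simpa [he] using this
      · intro τ hτ
        have := hxN τ hτ
        simpa [he] using this
    exact hy'

/-- In a quotient-rigid module, an element of `E0` fixed by `I` is zero
(`N = 0` in the definition). -/
theorem QuotRigid.exists_fixed_eq_zero {act : Gam → V → V} {I : Subgroup Gam}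
    (h : QuotRigid act I) (h0 : ∀ τ ∈ I, act τ 0 = 0) :
    ∃ E0 : AddSubgroup V, (∀ σ ∈ I, ∀ v, act σ v - v ∈ E0) ∧
      ∀ x ∈ E0, (∀ τ ∈ I, act τ x = x) → x = 0 := by
  obtain ⟨E0, h1, h2⟩ := h
  refine ⟨E0, h1, ?_⟩
  intro x hx hfix
  have : x ∈ (⊥ : AddSubgroup V) := by
    refine h2 ⊥ ?_ x hx ?_
    · intro τ hτ n hn
      rw [AddSubgroup.mem_bot] at hn ⊢
      rw [hn]
      exact h0 τ hτ
    · intro τ hτ
      rw [hfix τ hτ, sub_self]
      exact AddSubgroup.zero_mem _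
  simpa using this

end QuotRigidDef

section Core

variable {Gam : Type*} [Group Gam] {V : Type*} [AddCommGroup V] {k : Type*} [Field k]

/-- The upper triangular matrix `!![χ1 σ, b σ; 0, χ2 σ]` of shape (R). -/
def rmat (χ1 χ2 : Gam →* kˣ) (b : Gam → k) (σ : Gam) : Matrix (Fin 2) (Fin 2) k :=
  !![(χ1 σ : k), b σ; 0, (χ2 σ : k)]

theorem rmat_mulVec (χ1 χ2 : Gam →* kˣ) (b : Gam → k) (σ : Gam) (u v : k) :
    rmat χ1 χ2 b σ *ᵥ ![u, v] = ![(χ1 σ : k) * u + b σ * v, (χ2 σ : k) * v] := by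
  ext i
  fin_cases i <;> simp [rmat, Matrix.mulVec, dotProduct, Fin.sum_univ_two]

/-- The `(1,0)` entry of `r σ * X * (r σ)⁻¹` for `r σ` of shape (R). -/
theorem rmat_conj_one_zero (χ1 χ2 : Gam →* kˣ) (b : Gam → k) (σ : Gam)
    (X : Matrix (Fin 2) (Fin 2) k) :
    (rmat χ1 χ2 b σ * X * (rmat χ1 χ2 b σ)⁻¹) 1 0 = (χ2 σ : k) / (χ1 σ : k) * X 1 0 := by
  have h1 : (χ1 σ : k) ≠ 0 := (χ1 σ).ne_zero
  have h2 : (χ2 σ : k) ≠ 0 := (χ2 σ).ne_zero
  have hdet : (rmat χ1 χ2 b σ).det = (χ1 σ : k) * (χ2 σ : k) := by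
    simp [rmat, Matrix.det_fin_two]
  have hinv : (rmat χ1 χ2 b σ)⁻¹ =
      !![((χ1 σ : k))⁻¹, -(b σ) / ((χ1 σ : k) * (χ2 σ : k)); 0, ((χ2 σ : k))⁻¹] := by
    apply Matrix.inv_eq_right_inv
    ext i j
    fin_cases i <;> fin_cases j <;>
      simp [rmat, Matrix.mul_apply, Fin.sum_univ_two] <;> field_simp <;> ring
  rw [hinv, Matrix.mul_apply, Fin.sum_univ_two, Matrix.mul_apply, Matrix.mul_apply,
    Fin.sum_univ_two, Fin.sum_univ_two]
  simp only [rmat, Matrix.of_apply, Matrix.cons_val', Matrix.cons_val_zero, Matrix.cons_val_one,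
    Matrix.cons_val_fin_one]
  field_simp
  ring

/-- **LF9 (ii).**  Shape (R) with unramified quotient character `χ2` and ramified sub
character `χ1`; a quotient-rigid lift with cocycle `c`.  Then the lower left entry of `c`
vanishes on every normal subgroup `N` on which both characters are trivial. -/
theorem gamma_eq_zero (act : Gam → V → V) (I N : Subgroup Gam) [I.Normal] [N.Normal]
    (hQ : QuotRigid act I)
    (χ1 χ2 : Gam →* kˣ) (b : Gam → k) (c : Gam → Matrix (Fin 2) (Fin 2) k)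
    (ι s : (Fin 2 → k) →+ V) (hιinj : Function.Injective ι)
    (hι : ∀ σ w, act σ (ι w) = ι (rmat χ1 χ2 b σ *ᵥ w))
    (hs : ∀ σ w, act σ (s w) = s (rmat χ1 χ2 b σ *ᵥ w) + ι ((c σ * rmat χ1 χ2 b σ) *ᵥ w))
    (hc : ∀ σ τ, c (σ * τ) 1 0 = c σ 1 0 + (χ2 σ : k) / (χ1 σ : k) * c τ 1 0)
    (hN1 : ∀ g ∈ N, χ1 g = 1) (hN2 : ∀ g ∈ N, χ2 g = 1)
    (hI2 : ∀ τ ∈ I, χ2 τ = 1) (hram : ∃ τ ∈ I, χ1 τ ≠ 1) :
    ∀ g ∈ N, c g 1 0 = 0 := by
  obtain ⟨E0, hE1, hE2⟩ := hQ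
  -- Step 1: `γ` vanishes on `I ⊓ N`.
  have hstep1 : ∀ σ ∈ I, σ ∈ N → c σ 1 0 = 0 := by
    intro σ hσI hσN
    have hχ1 : (χ1 σ : k) = 1 := by rw [hN1 σ hσN]; rfl
    have hχ2 : (χ2 σ : k) = 1 := by rw [hN2 σ hσN]; rfl
    -- the element `x = act σ (s e1) - s e1 = ι (c σ e1)`
    have hre1 : rmat χ1 χ2 b σ *ᵥ ![1, 0] = ![1, 0] := by
      rw [rmat_mulVec]; simp [hχ1]
    have hx : act σ (s ![1, 0]) - s ![1, 0] = ι ![c σ 0 0, c σ 1 0] := by
      rw [hs, hre1, add_sub_cancel_left, ← Matrix.mulVec_mulVec, hre1]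
      congr 1
      ext i
      fin_cases i <;> simp [Matrix.mulVec, dotProduct, Fin.sum_univ_two]
    -- the subgroup `ι ℓ`
    let Nl : AddSubgroup V :=
      { carrier := {v | ∃ a : k, v = ι ![a, 0]}
        zero_mem' := ⟨0, by
          have : (![0, 0] : Fin 2 → k) = 0 := by ext i; fin_cases i <;> simp
          rw [this, map_zero]⟩
        add_mem' := by
          rintro _ _ ⟨a, rfl⟩ ⟨a', rfl⟩
          refine ⟨a + a', ?_⟩
          rw [← map_add]
          congr 1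
          ext i; fin_cases i <;> simp
        neg_mem' := by
          rintro _ ⟨a, rfl⟩
          refine ⟨-a, ?_⟩
          rw [← map_neg]
          congr 1
          ext i; fin_cases i <;> simp }
    have hNl_stable : ∀ τ ∈ I, ∀ n ∈ Nl, act τ n ∈ Nl := by
      rintro τ - _ ⟨a, rfl⟩
      refine ⟨(χ1 τ : k) * a, ?_⟩
      rw [hι, rmat_mulVec]
      simp
    have hmem : ι ![c σ 0 0, c σ 1 0] ∈ Nl := by
      refine hE2 Nl hNl_stable _ ?_ ?_
      · rw [← hx]; exact hE1 σ hσI _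
      · intro τ hτ
        have hτ2 : (χ2 τ : k) = 1 := by rw [hI2 τ hτ]; rfl
        refine ⟨(χ1 τ : k) * c σ 0 0 + b τ * c σ 1 0 - c σ 0 0, ?_⟩
        rw [hι, rmat_mulVec, ← map_sub]
        congr 1
        ext i; fin_cases i <;> simp [hτ2]
    obtain ⟨a, ha⟩ := hmem
    have := congrFun (hιinj ha) 1
    simpa using this
  -- Step 2: conjugation by a ramified element of `I`.
  have hc1 : c 1 1 0 = 0 := by
    have := hc 1 1
    simp at this
    exact this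
  obtain ⟨τ, hτI, hτ1⟩ := hram
  intro g hg
  have hχ1g : (χ1 g : k) = 1 := by rw [hN1 g hg]; rfl
  have hχ2g : (χ2 g : k) = 1 := by rw [hN2 g hg]; rfl
  have hτ2 : (χ2 τ : k) = 1 := by rw [hI2 τ hτI]; rfl
  have hτ0 : (χ1 τ : k) ≠ 0 := (χ1 τ).ne_zero
  -- `γ (τ g τ⁻¹) = χ τ * γ g`
  have hinv : c τ 1 0 + (χ2 τ : k) / (χ1 τ : k) * c τ⁻¹ 1 0 = 0 := by
    have := hc τ τ⁻¹
    rw [mul_inv_cancel, hc1] at this
    exact this.symm
  have hconj : c (τ * g * τ⁻¹) 1 0 = (χ2 τ : k) / (χ1 τ : k) * c g 1 0 := by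
    rw [mul_assoc, hc τ (g * τ⁻¹), hc g τ⁻¹, hχ1g, hχ2g]
    have : (χ2 τ : k) / (χ1 τ : k) * (c g 1 0 + 1 / 1 * c τ⁻¹ 1 0) =
        (χ2 τ : k) / (χ1 τ : k) * c g 1 0 + (χ2 τ : k) / (χ1 τ : k) * c τ⁻¹ 1 0 := by ring
    rw [this]
    linear_combination hinv
  -- `τ g τ⁻¹ = (τ g τ⁻¹ g⁻¹) g` with the commutator in `I ⊓ N`
  have hcommI : τ * g * τ⁻¹ * g⁻¹ ∈ I := by
    have h1 : g * τ⁻¹ * g⁻¹ ∈ I := Subgroup.Normal.conj_mem inferInstance _ (I.inv_mem hτI) g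
    have h2 := I.mul_mem hτI h1
    have e : τ * (g * τ⁻¹ * g⁻¹) = τ * g * τ⁻¹ * g⁻¹ := by group
    rwa [e] at h2
  have hcommN : τ * g * τ⁻¹ * g⁻¹ ∈ N := by
    have h1 : τ * g * τ⁻¹ ∈ N := Subgroup.Normal.conj_mem inferInstance _ hg τ
    exact N.mul_mem h1 (N.inv_mem hg)
  have hcomm0 := hstep1 _ hcommI hcommN
  have hχ1comm : (χ1 (τ * g * τ⁻¹ * g⁻¹) : k) = 1 := by rw [hN1 _ hcommN]; rfl
  have hχ2comm : (χ2 (τ * g * τ⁻¹ * g⁻¹) : k) = 1 := by rw [hN2 _ hcommN]; rfl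
  have hconj' : c (τ * g * τ⁻¹) 1 0 = c g 1 0 := by
    have e : τ * g * τ⁻¹ = (τ * g * τ⁻¹ * g⁻¹) * g := by group
    rw [e, hc, hcomm0, hχ1comm, hχ2comm]
    simp
  rw [hconj', hτ2] at hconj
  -- `(1 / χ1 τ - 1) * γ g = 0`
  have hne : (1 : k) / (χ1 τ : k) - 1 ≠ 0 := by
    intro h
    apply hτ1
    have h' : (χ1 τ : k) = 1 := by
      field_simp at h
      linear_combination -h
    exact Units.ext h'
  have hz : ((1 : k) / (χ1 τ : k) - 1) * c g 1 0 = 0 := by linear_combination -hconj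
  rcases mul_eq_zero.mp hz with h | h
  · exact absurd h hne
  · exact h

/-- `gamma_eq_zero` with the matrix cocycle identity of the three-step file
(`c (σ * τ) = c σ + r σ * c τ * (r σ)⁻¹`, `r σ = !![χ1 σ, b σ; 0, χ2 σ]`). -/
theorem gamma_eq_zero_of_cocycle (act : Gam → V → V) (I N : Subgroup Gam) [I.Normal] [N.Normal]
    (hQ : QuotRigid act I)
    (χ1 χ2 : Gam →* kˣ) (b : Gam → k) (r c : Gam → Matrix (Fin 2) (Fin 2) k)
    (hr : ∀ σ, r σ = !![(χ1 σ : k), b σ; 0, (χ2 σ : k)])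
    (hcoc : ∀ σ τ, c (σ * τ) = c σ + r σ * c τ * (r σ)⁻¹)
    (ι s : (Fin 2 → k) →+ V) (hιinj : Function.Injective ι)
    (hι : ∀ σ w, act σ (ι w) = ι (r σ *ᵥ w))
    (hs : ∀ σ w, act σ (s w) = s (r σ *ᵥ w) + ι ((c σ * r σ) *ᵥ w))
    (hN1 : ∀ g ∈ N, χ1 g = 1) (hN2 : ∀ g ∈ N, χ2 g = 1)
    (hI2 : ∀ τ ∈ I, χ2 τ = 1) (hram : ∃ τ ∈ I, χ1 τ ≠ 1) :
    ∀ g ∈ N, c g 1 0 = 0 := by
  have hr' : ∀ σ, r σ = rmat χ1 χ2 b σ := fun σ => hr σ
  refine gamma_eq_zero act I N hQ χ1 χ2 b c ι s hιinj ?_ ?_ ?_ hN1 hN2 hI2 hram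
  · intro σ w; rw [hι, hr']
  · intro σ w; rw [hs, hr']
  · intro σ τ
    rw [hcoc, Matrix.add_apply, hr', rmat_conj_one_zero]

/-- The exit in the form consumed by the three-step argument: the restriction of the lower
left entry to `N` is the zero function (`Hgam := ⊥`). -/
theorem gamma_restrict_mem_bot (act : Gam → V → V) (I N : Subgroup Gam) [I.Normal] [N.Normal]
    (hQ : QuotRigid act I)
    (χ1 χ2 : Gam →* kˣ) (b : Gam → k) (r c : Gam → Matrix (Fin 2) (Fin 2) k)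
    (hr : ∀ σ, r σ = !![(χ1 σ : k), b σ; 0, (χ2 σ : k)])
    (hcoc : ∀ σ τ, c (σ * τ) = c σ + r σ * c τ * (r σ)⁻¹)
    (ι s : (Fin 2 → k) →+ V) (hιinj : Function.Injective ι)
    (hι : ∀ σ w, act σ (ι w) = ι (r σ *ᵥ w))
    (hs : ∀ σ w, act σ (s w) = s (r σ *ᵥ w) + ι ((c σ * r σ) *ᵥ w))
    (hN1 : ∀ g ∈ N, χ1 g = 1) (hN2 : ∀ g ∈ N, χ2 g = 1)
    (hI2 : ∀ τ ∈ I, χ2 τ = 1) (hram : ∃ τ ∈ I, χ1 τ ≠ 1) :
    (fun g : N => c (g : Gam) 1 0) ∈ (⊥ : Submodule k (N → k)) := by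
  rw [Submodule.mem_bot]
  funext g
  exact gamma_eq_zero_of_cocycle act I N hQ χ1 χ2 b r c hr hcoc ι s hιinj hι hs hN1 hN2 hI2 hram
    g g.2

/-- **LF9 (i).**  Shape (R) with unramified sub character `χ1` and ramified quotient
character `χ2`; quotient rigidity of ONE lift (only its part `ι` is used).  Then `b` is a
coboundary: the residual representation is split. -/
theorem exists_split_of_unram_sub (act : Gam → V → V) (I : Subgroup Gam) [I.Normal]
    (hQ : QuotRigid act I)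
    (χ1 χ2 : Gam →* kˣ) (b : Gam → k)
    (hb : ∀ σ τ, b (σ * τ) = (χ1 σ : k) * b τ + b σ * (χ2 τ : k))
    (ι : (Fin 2 → k) →+ V) (hιinj : Function.Injective ι)
    (hι : ∀ σ w, act σ (ι w) = ι (rmat χ1 χ2 b σ *ᵥ w))
    (hI1 : ∀ τ ∈ I, χ1 τ = 1) (hram : ∃ τ ∈ I, χ2 τ ≠ 1) :
    ∃ x : k, ∀ σ, b σ = x * ((χ2 σ : k) - (χ1 σ : k)) := by
  have h0 : ∀ τ ∈ I, act τ 0 = 0 := by
    intro τ _
    have := hι τ 0
    rwa [map_zero, Matrix.mulVec_zero, map_zero] at this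
  obtain ⟨E0, hE1, hE2⟩ := hQ.exists_fixed_eq_zero h0
  obtain ⟨σ0, hσ0I, hσ0⟩ := hram
  have hm : (χ2 σ0 : k) - 1 ≠ 0 := by
    intro h
    apply hσ0
    exact Units.ext (by simpa using sub_eq_zero.mp h)
  have hσ01 : (χ1 σ0 : k) = 1 := by rw [hI1 σ0 hσ0I]; rfl
  -- elements of `E0` produced by `I`
  have hprod : ∀ τ ∈ I, ∀ v : k, ι ![b τ * v, ((χ2 τ : k) - 1) * v] ∈ E0 := by
    intro τ hτ v
    have := hE1 τ hτ (ι ![0, v])
    rw [hι, rmat_mulVec, ← map_sub] at this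
    have e : (![(χ1 τ : k) * 0 + b τ * v, (χ2 τ : k) * v] - ![0, v] : Fin 2 → k) =
        ![b τ * v, ((χ2 τ : k) - 1) * v] := by
      ext i; fin_cases i <;> simp [sub_mul]
    rwa [e] at this
  refine ⟨b σ0 / ((χ2 σ0 : k) - 1), ?_⟩
  -- Step A: on `I`
  have hA : ∀ τ ∈ I, b τ = b σ0 / ((χ2 σ0 : k) - 1) * ((χ2 τ : k) - 1) := by
    intro τ hτ
    have h1 := hprod τ hτ 1
    have h2 := hprod σ0 hσ0I (((χ2 τ : k) - 1) / ((χ2 σ0 : k) - 1))
    have hd := E0.sub_mem h1 h2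
    rw [← map_sub] at hd
    have e : (![b τ * 1, ((χ2 τ : k) - 1) * 1] -
        ![b σ0 * (((χ2 τ : k) - 1) / ((χ2 σ0 : k) - 1)),
          ((χ2 σ0 : k) - 1) * (((χ2 τ : k) - 1) / ((χ2 σ0 : k) - 1))] : Fin 2 → k) =
        ![b τ - b σ0 / ((χ2 σ0 : k) - 1) * ((χ2 τ : k) - 1), 0] := by
      ext i
      fin_cases i
      · simp; field_simp
      · simp; field_simp; ring
    rw [e] at hd
    have hfix : ∀ τ' ∈ I, act τ' (ι ![b τ - b σ0 / ((χ2 σ0 : k) - 1) * ((χ2 τ : k) - 1), 0]) =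
        ι ![b τ - b σ0 / ((χ2 σ0 : k) - 1) * ((χ2 τ : k) - 1), 0] := by
      intro τ' hτ'
      have h1' : (χ1 τ' : k) = 1 := by rw [hI1 τ' hτ']; rfl
      rw [hι, rmat_mulVec]
      congr 1
      ext i; fin_cases i <;> simp [h1']
    have hz := hE2 _ hd hfix
    have hz' : (![b τ - b σ0 / ((χ2 σ0 : k) - 1) * ((χ2 τ : k) - 1), 0] : Fin 2 → k) = 0 := by
      apply hιinj
      rw [hz, map_zero]
    have := congrFun hz' 0
    simp at this
    linear_combination this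
  -- Step B: everywhere, by normality of `I`
  intro σ
  have hσ'I : σ⁻¹ * σ0 * σ ∈ I := by
    have := Subgroup.Normal.conj_mem (inferInstance : I.Normal) _ hσ0I σ⁻¹
    simpa using this
  have hbσ' := hA _ hσ'I
  have hχ2σ' : (χ2 (σ⁻¹ * σ0 * σ) : k) = (χ2 σ0 : k) := by
    have : χ2 (σ⁻¹ * σ0 * σ) = χ2 σ0 := by
      rw [map_mul, map_mul, map_inv, mul_comm ((χ2 σ)⁻¹), mul_assoc, inv_mul_cancel, mul_one]
    rw [this]
  have hχ1σ' : (χ1 (σ⁻¹ * σ0 * σ) : k) = 1 := by rw [hI1 _ hσ'I]; rfl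
  rw [hχ2σ'] at hbσ'
  have hbσ'' : b (σ⁻¹ * σ0 * σ) = b σ0 := by
    rw [hbσ']; field_simp
  have e1 := hb σ (σ⁻¹ * σ0 * σ)
  have e2 := hb σ0 σ
  have eg : σ * (σ⁻¹ * σ0 * σ) = σ0 * σ := by group
  rw [eg, e2, hσ01, hbσ'', hχ2σ'] at e1
  field_simp
  linear_combination -e1

/-- Matrix form of the splitting: conjugation by `!![0, 1; 1, -x]` swaps the two characters
and kills `b`. -/
theorem conj_swap (χ1 χ2 : Gam →* kˣ) (b : Gam → k) (x : k)
    (hx : ∀ σ, b σ = x * ((χ2 σ : k) - (χ1 σ : k))) (σ : Gam) :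
    !![0, 1; 1, -x] * !![(χ1 σ : k), b σ; 0, (χ2 σ : k)] =
      !![(χ2 σ : k), 0; 0, (χ1 σ : k)] * !![0, 1; 1, -x] := by
  rw [hx σ]
  ext i j
  fin_cases i <;> fin_cases j <;> simp [Matrix.mul_apply, Fin.sum_univ_two] <;> ring

/-- The swap as ONE conjugation in `GL (Fin 2) k`: `g * r σ * g⁻¹ = !![χ2 σ, 0; 0, χ1 σ]`. -/
theorem exists_conj_swap (χ1 χ2 : Gam →* kˣ) (b : Gam → k) (x : k)
    (hx : ∀ σ, b σ = x * ((χ2 σ : k) - (χ1 σ : k))) :
    ∃ g : GL (Fin 2) k, ∀ σ,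
      (g : Matrix (Fin 2) (Fin 2) k) * !![(χ1 σ : k), b σ; 0, (χ2 σ : k)] *
        ((g⁻¹ : GL (Fin 2) k) : Matrix (Fin 2) (Fin 2) k) = !![(χ2 σ : k), 0; 0, (χ1 σ : k)] := by
  have hdet : (!![0, 1; 1, -x] : Matrix (Fin 2) (Fin 2) k).det ≠ 0 := by
    simp [Matrix.det_fin_two]
  obtain ⟨g, hg⟩ : ∃ g : GL (Fin 2) k, (g : Matrix (Fin 2) (Fin 2) k) = !![0, 1; 1, -x] :=
    ⟨Matrix.GeneralLinearGroup.mkOfDetNeZero _ hdet, rfl⟩
  refine ⟨g, fun σ => ?_⟩
  have h := conj_swap χ1 χ2 b x hx σ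
  rw [← hg] at h
  rw [h, mul_assoc, ← Matrix.GeneralLinearGroup.coe_mul, mul_inv_cancel]
  simp

/-- On a "cyclic" inertia image (both characters are powers of their values at one element
`τ0`, with the same exponent), two characters with square one which differ somewhere on `I`:
one of them is trivial on `I`.  (The case `p = 3`: `χ i ^ (p - 1) = 1` on inertia.) -/
theorem unram_or_unram (I : Subgroup Gam) (χ1 χ2 : Gam →* kˣ) (τ0 : Gam)
    (hgen : ∀ t ∈ I, ∃ n : ℕ, χ1 t = χ1 τ0 ^ n ∧ χ2 t = χ2 τ0 ^ n)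
    (hsq1 : χ1 τ0 ^ 2 = 1) (hsq2 : χ2 τ0 ^ 2 = 1)
    (hne : ∃ t ∈ I, χ1 t ≠ χ2 t) :
    (∀ t ∈ I, χ1 t = 1) ∨ (∀ t ∈ I, χ2 t = 1) := by
  by_cases h1 : χ1 τ0 = 1
  · left
    intro t ht
    obtain ⟨n, hn, -⟩ := hgen t ht
    rw [hn, h1, one_pow]
  by_cases h2 : χ2 τ0 = 1
  · right
    intro t ht
    obtain ⟨n, -, hn⟩ := hgen t ht
    rw [hn, h2, one_pow]
  exfalso
  -- both values are the unique element of order two of `kˣ`
  have key : ∀ u : kˣ, u ^ 2 = 1 → u ≠ 1 → u = -1 := by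
    intro u hu hu1
    have hu' : ((u : k) - 1) * ((u : k) + 1) = 0 := by
      have : ((u ^ 2 : kˣ) : k) = 1 := by rw [hu]; rfl
      push_cast at this
      linear_combination this
    rcases mul_eq_zero.mp hu' with h | h
    · exact absurd (Units.ext (by simpa using sub_eq_zero.mp h)) hu1
    · exact Units.ext (by simpa using eq_neg_of_add_eq_zero_left h)
  obtain ⟨t, ht, hne'⟩ := hne
  obtain ⟨n, hn1, hn2⟩ := hgen t ht
  apply hne'
  rw [hn1, hn2, key _ hsq1 h1, key _ hsq2 h2]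

end Core


end Fermat.Agent.S56.LF.PThree
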