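import Mathlib
import Fermat.Agent.S56.LF.PThree
import Fermat.Agent.S56.Flat.Defs

/-!
# S56, brick LF, row C7 (class invariance): rigidity and flatness of a lift to the dual numbers
depend only on the class of the derivation, and are invariant under conjugation

(helper94; sent by mention of helper104, the C7 owner.)

A lift of `r` to the dual numbers is `r + ε d`; it acts on the pairs `(v, w)` (for `v + ε w`)
by `(v, w) ↦ (r v, r w + d v)`.  This is `actD r d` for an arbitrary index type and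
`Flat.liftAct r d` for the local Galois group (`liftAct_eq_actD : Flat.liftAct r d = actD r d`
holds by `rfl`).

Generic part (any type `Gam`, any field `k`):

* `quotRigid_of_equiv_on` : `PThree.QuotRigid` is transported by an additive bijection which is
  equivariant on `I` only.
* `innerEquiv`, `innerEquiv_actD`, `quotRigid_inner`, `quotRigid_inner_iff` : the inner change
  `d ↦ d + (Y * r - r * Y)` of the derivation.
* `conjEquiv`, `conjEquiv_actD`, `quotRigid_conj`, `quotRigid_conj_iff`, `quotRigid_conj_GL`,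
  `quotRigid_conj_GL_iff` : the conjugation `(r, d) ↦ (g * r * g', g * d * g')`.

Local part (`Flat.Gp p`, `Flat.liftAct`, `Flat.FlatLocal`, `Flat.Inn`):

* `flatLocal_of_equiv` : `Flat.FlatLocal` is transported by an equivariant additive bijection.
* `flatLocal_inner`, `flatLocal_of_sub_mem_inn`, `flatLocal_iff_of_sub_mem_inn` : flatness of
  `r + ε d` depends only on the class of `d` modulo `Flat.Inn r`.
* `flatLocal_conj`, `flatLocal_conj_GL`, `flatLocal_conj_GL_iff` : flatness is invariant under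
  conjugation.
* `quotRigid_liftAct_inner`, `quotRigid_liftAct_of_sub_mem_inn`, `quotRigid_liftAct_conj`,
  `quotRigid_liftAct_conj_GL` : the same for `PThree.QuotRigid (Flat.liftAct r d) I`.
-/

set_option autoImplicit false

open Matrix

namespace Fermat.Agent.S56.LF.PThreeClass

/-! ### Generic part -/

section Transport

variable {Gam : Type*} [Group Gam]

/-- `PThree.QuotRigid` is transported by an additive bijection which is equivariant on `I`. -/
theorem quotRigid_of_equiv_on {X Y : Type*} [AddCommGroup X] [AddCommGroup Y]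
    {I : Subgroup Gam} {act : Gam → X → X} {act' : Gam → Y → Y} (h : PThree.QuotRigid act I)
    (e : X ≃+ Y) (he : ∀ t ∈ I, ∀ x, e (act t x) = act' t (e x)) : PThree.QuotRigid act' I := by
  obtain ⟨X0, hE0, hQR⟩ := h
  refine ⟨X0.map (e : X →+ Y), fun t ht y => ?_, fun N hN y hy hyN => ?_⟩
  · refine ⟨act t (e.symm y) - e.symm y, hE0 t ht _, ?_⟩
    simp only [AddMonoidHom.coe_coe, map_sub, he t ht, AddEquiv.apply_symm_apply]
  · obtain ⟨x, hx, rfl⟩ := hy
    have hx' : x ∈ N.comap (e : X →+ Y) := by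
      refine hQR (N.comap (e : X →+ Y)) (fun t ht n hn => ?_) x hx (fun t ht => ?_)
      · simp only [AddSubgroup.mem_comap, AddMonoidHom.coe_coe] at hn ⊢
        rw [he t ht]
        exact hN t ht _ hn
      · simp only [AddSubgroup.mem_comap, AddMonoidHom.coe_coe, map_sub]
        rw [he t ht]
        exact hyN t ht
    exact hx'

end Transport

section Generic

variable {k : Type*} [Field k] {Gam : Type*}

/-- The action of the lift `r + ε d` on `v + ε w`: `(v, w) ↦ (r v, r w + d v)`. -/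
def actD (r d : Gam → Matrix (Fin 2) (Fin 2) k) (s : Gam) :
    (Fin 2 → k) × (Fin 2 → k) → (Fin 2 → k) × (Fin 2 → k) :=
  fun vw => ((r s).mulVec vw.1, (r s).mulVec vw.2 + (d s).mulVec vw.1)

/-- The additive automorphism `(v, w) ↦ (v, w + Y v)` of `k² × k²`. -/
def innerEquiv (Y : Matrix (Fin 2) (Fin 2) k) :
    (Fin 2 → k) × (Fin 2 → k) ≃+ (Fin 2 → k) × (Fin 2 → k) where
  toFun x := (x.1, x.2 + Y.mulVec x.1)
  invFun x := (x.1, x.2 - Y.mulVec x.1)
  left_inv x := Prod.ext rfl (add_sub_cancel_right _ _)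
  right_inv x := Prod.ext rfl (sub_add_cancel _ _)
  map_add' x y := by
    refine Prod.ext rfl ?_
    show x.2 + y.2 + Y.mulVec (x.1 + y.1) = x.2 + Y.mulVec x.1 + (y.2 + Y.mulVec y.1)
    rw [Matrix.mulVec_add]
    abel

/-- `innerEquiv Y` intertwines `r + ε d` and `r + ε (d + (Y r - r Y))`. -/
theorem innerEquiv_actD (r d : Gam → Matrix (Fin 2) (Fin 2) k) (Y : Matrix (Fin 2) (Fin 2) k)
    (t : Gam) (x : (Fin 2 → k) × (Fin 2 → k)) :
    innerEquiv Y (actD r d t x) =
      actD r (fun s => d s + (Y * r s - r s * Y)) t (innerEquiv Y x) := by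
  refine Prod.ext rfl ?_
  show (r t).mulVec x.2 + (d t).mulVec x.1 + Y.mulVec ((r t).mulVec x.1) =
    (r t).mulVec (x.2 + Y.mulVec x.1) + (d t + (Y * r t - r t * Y)).mulVec x.1
  rw [Matrix.mulVec_add, Matrix.add_mulVec, Matrix.sub_mulVec, Matrix.mulVec_mulVec,
    Matrix.mulVec_mulVec]
  abel

/-- The additive automorphism `(v, w) ↦ (g v, g w)` of `k² × k²`. -/
def conjEquiv (g g' : Matrix (Fin 2) (Fin 2) k) (h1 : g' * g = 1) (h2 : g * g' = 1) :
    (Fin 2 → k) × (Fin 2 → k) ≃+ (Fin 2 → k) × (Fin 2 → k) where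
  toFun x := (g.mulVec x.1, g.mulVec x.2)
  invFun x := (g'.mulVec x.1, g'.mulVec x.2)
  left_inv x := by
    simp only [Matrix.mulVec_mulVec, h1, Matrix.one_mulVec]
  right_inv x := by
    simp only [Matrix.mulVec_mulVec, h2, Matrix.one_mulVec]
  map_add' x y := by
    simp only [Prod.fst_add, Prod.snd_add, Matrix.mulVec_add, Prod.mk_add_mk]

/-- `conjEquiv g g'` intertwines `r + ε d` and `g r g' + ε g d g'`. -/
theorem conjEquiv_actD (r d : Gam → Matrix (Fin 2) (Fin 2) k) (g g' : Matrix (Fin 2) (Fin 2) k)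
    (h1 : g' * g = 1) (h2 : g * g' = 1) (t : Gam) (x : (Fin 2 → k) × (Fin 2 → k)) :
    conjEquiv g g' h1 h2 (actD r d t x) =
      actD (fun s => g * r s * g') (fun s => g * d s * g') t (conjEquiv g g' h1 h2 x) := by
  have e1 : ∀ (A : Matrix (Fin 2) (Fin 2) k) (v : Fin 2 → k),
      (g * A * g').mulVec (g.mulVec v) = g.mulVec (A.mulVec v) := by
    intro A v
    rw [Matrix.mulVec_mulVec, Matrix.mul_assoc, Matrix.mul_assoc, h1, Matrix.mul_one,
      ← Matrix.mulVec_mulVec]
  show ((g.mulVec ((r t).mulVec x.1), g.mulVec ((r t).mulVec x.2 + (d t).mulVec x.1)) :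
      (Fin 2 → k) × (Fin 2 → k)) =
    ((g * r t * g').mulVec (g.mulVec x.1),
      (g * r t * g').mulVec (g.mulVec x.2) + (g * d t * g').mulVec (g.mulVec x.1))
  rw [e1, e1, e1, Matrix.mulVec_add]

variable [Group Gam]

/-- **Rigidity is a property of the class.**  `PThree.QuotRigid` of `r + ε d` gives
`PThree.QuotRigid` of `r + ε (d + (Y r - r Y))`. -/
theorem quotRigid_inner {I : Subgroup Gam} {r d : Gam → Matrix (Fin 2) (Fin 2) k}
    (h : PThree.QuotRigid (actD r d) I) (Y : Matrix (Fin 2) (Fin 2) k) :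
    PThree.QuotRigid (actD r (fun s => d s + (Y * r s - r s * Y))) I :=
  quotRigid_of_equiv_on h (innerEquiv Y) (fun t _ x => innerEquiv_actD r d Y t x)

theorem quotRigid_inner_iff {I : Subgroup Gam} {r d : Gam → Matrix (Fin 2) (Fin 2) k}
    (Y : Matrix (Fin 2) (Fin 2) k) :
    PThree.QuotRigid (actD r (fun s => d s + (Y * r s - r s * Y))) I ↔
      PThree.QuotRigid (actD r d) I := by
  refine ⟨fun h => ?_, fun h => quotRigid_inner h Y⟩
  have h' := quotRigid_inner h (-Y)
  have e : (fun s => d s + (Y * r s - r s * Y) + (-Y * r s - r s * -Y)) = d := by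
    funext s
    rw [Matrix.neg_mul, Matrix.mul_neg]
    abel
  rwa [e] at h'

/-- **Rigidity is invariant under conjugation.** -/
theorem quotRigid_conj {I : Subgroup Gam} {r d : Gam → Matrix (Fin 2) (Fin 2) k}
    (h : PThree.QuotRigid (actD r d) I) (g g' : Matrix (Fin 2) (Fin 2) k) (h1 : g' * g = 1)
    (h2 : g * g' = 1) :
    PThree.QuotRigid (actD (fun s => g * r s * g') (fun s => g * d s * g')) I :=
  quotRigid_of_equiv_on h (conjEquiv g g' h1 h2) (fun t _ x => conjEquiv_actD r d g g' h1 h2 t x)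

theorem quotRigid_conj_iff {I : Subgroup Gam} {r d : Gam → Matrix (Fin 2) (Fin 2) k}
    (g g' : Matrix (Fin 2) (Fin 2) k) (h1 : g' * g = 1) (h2 : g * g' = 1) :
    PThree.QuotRigid (actD (fun s => g * r s * g') (fun s => g * d s * g')) I ↔
      PThree.QuotRigid (actD r d) I := by
  refine ⟨fun h => ?_, fun h => quotRigid_conj h g g' h1 h2⟩
  have h' := quotRigid_conj h g' g h2 h1
  have e : ∀ A : Matrix (Fin 2) (Fin 2) k, g' * (g * A * g') * g = A := by
    intro A
    calc g' * (g * A * g') * g = (g' * g) * A * (g' * g) := by simp only [Matrix.mul_assoc]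
      _ = A := by rw [h1, Matrix.one_mul, Matrix.mul_one]
  simp only [e] at h'
  exact h'

/-- Conjugation by an element of `GL (Fin 2) k` (the spelling of `Shape.mat_conjBy`). -/
theorem quotRigid_conj_GL {I : Subgroup Gam} {r d : Gam → Matrix (Fin 2) (Fin 2) k}
    (h : PThree.QuotRigid (actD r d) I) (g : GL (Fin 2) k) :
    PThree.QuotRigid
      (actD (fun s => (g : Matrix (Fin 2) (Fin 2) k) * r s *
          ((g⁻¹ : GL (Fin 2) k) : Matrix (Fin 2) (Fin 2) k))
        (fun s => (g : Matrix (Fin 2) (Fin 2) k) * d s *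
          ((g⁻¹ : GL (Fin 2) k) : Matrix (Fin 2) (Fin 2) k))) I :=
  quotRigid_conj h _ _
    (by rw [← Matrix.GeneralLinearGroup.coe_mul, inv_mul_cancel]; rfl)
    (by rw [← Matrix.GeneralLinearGroup.coe_mul, mul_inv_cancel]; rfl)

theorem quotRigid_conj_GL_iff {I : Subgroup Gam} {r d : Gam → Matrix (Fin 2) (Fin 2) k}
    (g : GL (Fin 2) k) :
    PThree.QuotRigid
      (actD (fun s => (g : Matrix (Fin 2) (Fin 2) k) * r s *
          ((g⁻¹ : GL (Fin 2) k) : Matrix (Fin 2) (Fin 2) k))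
        (fun s => (g : Matrix (Fin 2) (Fin 2) k) * d s *
          ((g⁻¹ : GL (Fin 2) k) : Matrix (Fin 2) (Fin 2) k))) I ↔
      PThree.QuotRigid (actD r d) I :=
  quotRigid_conj_iff _ _
    (by rw [← Matrix.GeneralLinearGroup.coe_mul, inv_mul_cancel]; rfl)
    (by rw [← Matrix.GeneralLinearGroup.coe_mul, mul_inv_cancel]; rfl)

end Generic

/-! ### Local part: `Flat.liftAct`, `Flat.FlatLocal`, `Flat.Inn` -/

section Local

variable {p : ℕ} [Fact p.Prime]

/-- `Flat.FlatLocal` is transported by an equivariant additive bijection. -/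
theorem flatLocal_of_equiv {X Y : Type} [AddCommGroup X] [AddCommGroup Y]
    {act : Flat.Gp p → X → X} {act' : Flat.Gp p → Y → Y} (h : Flat.FlatLocal p X act)
    (E : X ≃+ Y) (hE : ∀ τ x, E (act τ x) = act' τ (E x)) : Flat.FlatLocal p Y act' := by
  obtain ⟨H, i1, i2, hfin, hfree, hcocomm, e, hmul, hgal⟩ := h
  refine ⟨H, i1, i2, hfin, hfree, hcocomm, e.trans E.toEquiv, fun f g => ?_, fun τ f g hfg => ?_⟩
  · show E (e (f * g)) = E (e f) + E (e g)
    rw [hmul, map_add]
  · show E (e g) = act' τ (E (e f))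
    rw [hgal τ f g hfg, hE]

variable {k : Type} [Field k]

/-- `Flat.liftAct` is `actD` for the local Galois group. -/
theorem liftAct_eq_actD (r d : Flat.Gp p → Matrix (Fin 2) (Fin 2) k) :
    Flat.liftAct r d = actD r d := rfl

/-- Two derivations which differ by an element of `Flat.Inn r`, in the `fun` spelling. -/
theorem eq_add_inner_of_sub_mem_inn {r d d' : Flat.Gp p → Matrix (Fin 2) (Fin 2) k}
    (h : d' - d ∈ Flat.Inn (p := p) r) :
    ∃ Y : Matrix (Fin 2) (Fin 2) k, d' = fun s => d s + (Y * r s - r s * Y) := by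
  obtain ⟨Y, hY⟩ := h
  refine ⟨Y, ?_⟩
  funext s
  rw [← hY s, Pi.sub_apply]
  abel

/-- **Flatness is a property of the class**, `fun` spelling. -/
theorem flatLocal_inner {r d : Flat.Gp p → Matrix (Fin 2) (Fin 2) k}
    (h : Flat.FlatLocal p ((Fin 2 → k) × (Fin 2 → k)) (Flat.liftAct r d))
    (Y : Matrix (Fin 2) (Fin 2) k) :
    Flat.FlatLocal p ((Fin 2 → k) × (Fin 2 → k))
      (Flat.liftAct r (fun s => d s + (Y * r s - r s * Y))) :=
  flatLocal_of_equiv h (innerEquiv Y) (fun t x => innerEquiv_actD r d Y t x)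

/-- **Flatness is a property of the class** modulo `Flat.Inn r`. -/
theorem flatLocal_of_sub_mem_inn {r d d' : Flat.Gp p → Matrix (Fin 2) (Fin 2) k}
    (hdd : d' - d ∈ Flat.Inn (p := p) r)
    (h : Flat.FlatLocal p ((Fin 2 → k) × (Fin 2 → k)) (Flat.liftAct r d)) :
    Flat.FlatLocal p ((Fin 2 → k) × (Fin 2 → k)) (Flat.liftAct r d') := by
  obtain ⟨Y, rfl⟩ := eq_add_inner_of_sub_mem_inn hdd
  exact flatLocal_inner h Y

theorem flatLocal_iff_of_sub_mem_inn {r d d' : Flat.Gp p → Matrix (Fin 2) (Fin 2) k}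
    (hdd : d' - d ∈ Flat.Inn (p := p) r) :
    Flat.FlatLocal p ((Fin 2 → k) × (Fin 2 → k)) (Flat.liftAct r d') ↔
      Flat.FlatLocal p ((Fin 2 → k) × (Fin 2 → k)) (Flat.liftAct r d) := by
  refine ⟨flatLocal_of_sub_mem_inn ?_, flatLocal_of_sub_mem_inn hdd⟩
  have e : d - d' = -(d' - d) := by abel
  rw [e]
  exact (Flat.Inn (p := p) r).neg_mem hdd

/-- **Flatness is invariant under conjugation.** -/
theorem flatLocal_conj {r d : Flat.Gp p → Matrix (Fin 2) (Fin 2) k}
    (h : Flat.FlatLocal p ((Fin 2 → k) × (Fin 2 → k)) (Flat.liftAct r d))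
    (g g' : Matrix (Fin 2) (Fin 2) k) (h1 : g' * g = 1) (h2 : g * g' = 1) :
    Flat.FlatLocal p ((Fin 2 → k) × (Fin 2 → k))
      (Flat.liftAct (fun s => g * r s * g') (fun s => g * d s * g')) :=
  flatLocal_of_equiv h (conjEquiv g g' h1 h2) (fun t x => conjEquiv_actD r d g g' h1 h2 t x)

/-- Conjugation by an element of `GL (Fin 2) k` (the spelling of `Shape.mat_conjBy`). -/
theorem flatLocal_conj_GL {r d : Flat.Gp p → Matrix (Fin 2) (Fin 2) k}
    (h : Flat.FlatLocal p ((Fin 2 → k) × (Fin 2 → k)) (Flat.liftAct r d)) (g : GL (Fin 2) k) :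
    Flat.FlatLocal p ((Fin 2 → k) × (Fin 2 → k))
      (Flat.liftAct (fun s => (g : Matrix (Fin 2) (Fin 2) k) * r s *
          ((g⁻¹ : GL (Fin 2) k) : Matrix (Fin 2) (Fin 2) k))
        (fun s => (g : Matrix (Fin 2) (Fin 2) k) * d s *
          ((g⁻¹ : GL (Fin 2) k) : Matrix (Fin 2) (Fin 2) k))) :=
  flatLocal_conj h _ _
    (by rw [← Matrix.GeneralLinearGroup.coe_mul, inv_mul_cancel]; rfl)
    (by rw [← Matrix.GeneralLinearGroup.coe_mul, mul_inv_cancel]; rfl)

theorem flatLocal_conj_GL_iff {r d : Flat.Gp p → Matrix (Fin 2) (Fin 2) k} (g : GL (Fin 2) k) :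
    Flat.FlatLocal p ((Fin 2 → k) × (Fin 2 → k))
      (Flat.liftAct (fun s => (g : Matrix (Fin 2) (Fin 2) k) * r s *
          ((g⁻¹ : GL (Fin 2) k) : Matrix (Fin 2) (Fin 2) k))
        (fun s => (g : Matrix (Fin 2) (Fin 2) k) * d s *
          ((g⁻¹ : GL (Fin 2) k) : Matrix (Fin 2) (Fin 2) k))) ↔
      Flat.FlatLocal p ((Fin 2 → k) × (Fin 2 → k)) (Flat.liftAct r d) := by
  refine ⟨fun h => ?_, fun h => flatLocal_conj_GL h g⟩
  have h' := flatLocal_conj_GL h g⁻¹
  have e : ∀ A : Matrix (Fin 2) (Fin 2) k,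
      ((g⁻¹ : GL (Fin 2) k) : Matrix (Fin 2) (Fin 2) k) *
        ((g : Matrix (Fin 2) (Fin 2) k) * A *
          ((g⁻¹ : GL (Fin 2) k) : Matrix (Fin 2) (Fin 2) k)) *
        (((g⁻¹)⁻¹ : GL (Fin 2) k) : Matrix (Fin 2) (Fin 2) k) = A := by
    intro A
    have e1 : ((g⁻¹ : GL (Fin 2) k) : Matrix (Fin 2) (Fin 2) k) *
        (g : Matrix (Fin 2) (Fin 2) k) = 1 := by
      rw [← Matrix.GeneralLinearGroup.coe_mul, inv_mul_cancel]; rfl
    rw [inv_inv]
    calc ((g⁻¹ : GL (Fin 2) k) : Matrix (Fin 2) (Fin 2) k) *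
          ((g : Matrix (Fin 2) (Fin 2) k) * A *
            ((g⁻¹ : GL (Fin 2) k) : Matrix (Fin 2) (Fin 2) k)) * (g : Matrix (Fin 2) (Fin 2) k)
        = (((g⁻¹ : GL (Fin 2) k) : Matrix (Fin 2) (Fin 2) k) * (g : Matrix (Fin 2) (Fin 2) k)) *
            A * (((g⁻¹ : GL (Fin 2) k) : Matrix (Fin 2) (Fin 2) k) *
              (g : Matrix (Fin 2) (Fin 2) k)) := by
          simp only [Matrix.mul_assoc]
      _ = A := by rw [e1, Matrix.one_mul, Matrix.mul_one]
  simp only [e] at h'
  exact h'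

/-- **Rigidity of `Flat.liftAct` is a property of the class**, `fun` spelling. -/
theorem quotRigid_liftAct_inner {I : Subgroup (Flat.Gp p)}
    {r d : Flat.Gp p → Matrix (Fin 2) (Fin 2) k}
    (h : PThree.QuotRigid (Flat.liftAct r d) I) (Y : Matrix (Fin 2) (Fin 2) k) :
    PThree.QuotRigid (Flat.liftAct r (fun s => d s + (Y * r s - r s * Y))) I :=
  quotRigid_inner (r := r) (d := d) h Y

/-- **Rigidity of `Flat.liftAct` is a property of the class** modulo `Flat.Inn r`. -/
theorem quotRigid_liftAct_of_sub_mem_inn {I : Subgroup (Flat.Gp p)}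
    {r d d' : Flat.Gp p → Matrix (Fin 2) (Fin 2) k} (hdd : d' - d ∈ Flat.Inn (p := p) r)
    (h : PThree.QuotRigid (Flat.liftAct r d) I) : PThree.QuotRigid (Flat.liftAct r d') I := by
  obtain ⟨Y, rfl⟩ := eq_add_inner_of_sub_mem_inn hdd
  exact quotRigid_liftAct_inner h Y

/-- **Rigidity of `Flat.liftAct` is invariant under conjugation.** -/
theorem quotRigid_liftAct_conj {I : Subgroup (Flat.Gp p)}
    {r d : Flat.Gp p → Matrix (Fin 2) (Fin 2) k}
    (h : PThree.QuotRigid (Flat.liftAct r d) I) (g g' : Matrix (Fin 2) (Fin 2) k)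
    (h1 : g' * g = 1) (h2 : g * g' = 1) :
    PThree.QuotRigid (Flat.liftAct (fun s => g * r s * g') (fun s => g * d s * g')) I :=
  quotRigid_conj (r := r) (d := d) h g g' h1 h2

/-- Conjugation by an element of `GL (Fin 2) k` (the spelling of `Shape.mat_conjBy`). -/
theorem quotRigid_liftAct_conj_GL {I : Subgroup (Flat.Gp p)}
    {r d : Flat.Gp p → Matrix (Fin 2) (Fin 2) k}
    (h : PThree.QuotRigid (Flat.liftAct r d) I) (g : GL (Fin 2) k) :
    PThree.QuotRigid
      (Flat.liftAct (fun s => (g : Matrix (Fin 2) (Fin 2) k) * r s *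
          ((g⁻¹ : GL (Fin 2) k) : Matrix (Fin 2) (Fin 2) k))
        (fun s => (g : Matrix (Fin 2) (Fin 2) k) * d s *
          ((g⁻¹ : GL (Fin 2) k) : Matrix (Fin 2) (Fin 2) k))) I :=
  quotRigid_conj_GL (r := r) (d := d) h g

end Local

end Fermat.Agent.S56.LF.PThreeClass
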