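import Mathlib
import Fermat.Agent.CFT.Local.UnramPadicAbs

/-!
# S56 / LF / InertiaUr  (row B3 = UR of the flat-local-bound design)

The inertia subgroup of `Gal(ℚ̄_p/ℚ_p)` and the ring of inertia-fixed integers.

`inertia p` is the fixing subgroup of the maximal unramified extension, i.e. of all the
`ur p n = unram ⊥ n = ℚ_p(ζ_{p^n-1})` (`n > 0`).

* `mem_inertia_iff_root` : `τ` is in the inertia group iff it fixes every root of unity of order
  prime to `p`;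
* `mem_inertia_iff_norm` : iff it acts trivially on the residue field, `‖τ x - x‖ < 1` for all
  integral `x` (Teichmüller representatives, `exists_root_norm_sub_lt`);
* `normal_inertia` : the inertia group is normal;
* `exists_mem_ur_of_fixed` : an element fixed by the inertia group lies in some `ur p n`
  (infinite Galois theory);
* `exists_eq_mul_of_fixed` : an inertia-fixed element of norm `< 1` is `p` times an inertia-fixed
  integral element (`p` is a uniformizer of every `ur p n`);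
* `exists_norm_eq_zpow_of_fixed` : the value group of the inertia-fixed field is `p ^ ℤ`;
* `fixedInt p` : the subring of inertia-fixed integral elements, with the same facts in
  membership form, stability under the whole Galois group, and units;
* `inf_fixingSubgroup_le_unram` : the inertia group of a finite `E` fixes `unram E n`.
-/

set_option autoImplicit false

namespace Fermat.Agent.S56.LF.InertiaUr

open scoped NNReal NormedField Valued IntermediateField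
open IsLocalRing Polynomial Fermat.Agent.CFT.Local Fermat.Agent.CFT.Local.NormedLocal
  Fermat.Agent.CFT.Local.PadicExt Fermat.Agent.CFT.Local.UnramPadic

variable (p : ℕ) [Fact p.Prime]

/-- The unramified extension of degree `n` of `ℚ_p` inside `ℚ̄_p`. -/
noncomputable abbrev ur (n : ℕ) : IntermediateField ℚ_[p] (PadicAlgCl p) :=
  unram (⊥ : IntermediateField ℚ_[p] (PadicAlgCl p)) n

/-- The inertia subgroup of `Gal(ℚ̄_p/ℚ_p)`: the fixing subgroup of the maximal unramified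
extension `⋃ n, ℚ_p(ζ_{p^n-1})`. -/
noncomputable def inertia : Subgroup (PadicAlgCl p ≃ₐ[ℚ_[p]] PadicAlgCl p) :=
  ⨅ n : ℕ, (ur p (n + 1)).fixingSubgroup

variable {p}

theorem mem_inertia_iff {τ : PadicAlgCl p ≃ₐ[ℚ_[p]] PadicAlgCl p} :
    τ ∈ inertia p ↔ ∀ n : ℕ, 0 < n → τ ∈ (ur p n).fixingSubgroup := by
  rw [inertia, Subgroup.mem_iInf]
  constructor
  · intro h n hn
    obtain ⟨k, rfl⟩ : ∃ k, n = k + 1 := ⟨n - 1, by omega⟩
    exact h k
  · intro h n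
    exact h (n + 1) (Nat.succ_pos n)

theorem inertia_le_fixingSubgroup_ur {n : ℕ} (hn : 0 < n) :
    inertia p ≤ (ur p n).fixingSubgroup :=
  fun _ hτ => mem_inertia_iff.mp hτ n hn

/-- `p ^ n - 1` is prime to `p` for `n > 0`. -/
lemma coprime_pow_sub_one {n : ℕ} (hn : 0 < n) : (p ^ n - 1).Coprime p := by
  have hp : p.Prime := Fact.out
  refine Nat.Coprime.symm ((Nat.Prime.coprime_iff_not_dvd hp).mpr fun h => ?_)
  have h1 : p ∣ p ^ n := dvd_pow_self p hn.ne'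
  have h2 : 1 ≤ p ^ n := Nat.one_le_pow _ _ hp.pos
  have h3 : p ∣ p ^ n - (p ^ n - 1) := Nat.dvd_sub h1 h
  have h4 : p ^ n - (p ^ n - 1) = 1 := by omega
  rw [h4] at h3
  exact hp.one_lt.ne' (Nat.dvd_one.mp h3)

lemma ne_zero_of_coprime {m : ℕ} (hm : m.Coprime p) : m ≠ 0 := by
  rintro rfl
  rw [Nat.coprime_zero_left] at hm
  exact (Fact.out : p.Prime).ne_one hm

/-- The inertia group fixes the roots of unity of order prime to `p`. -/
theorem apply_root_of_mem_inertia {τ : PadicAlgCl p ≃ₐ[ℚ_[p]] PadicAlgCl p}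
    (hτ : τ ∈ inertia p) {m : ℕ} (hm : m.Coprime p) {ζ : PadicAlgCl p} (hζ : ζ ^ m = 1) :
    τ ζ = ζ := by
  obtain ⟨n, hn, c, hc⟩ := exists_dvd_card_pow_sub_one
    (⊥ : IntermediateField ℚ_[p] (PadicAlgCl p)) (ne_zero_of_coprime hm) hm
  have hmem : ζ ∈ ur p n :=
    mem_unram_of_pow_eq_one _ hn (by rw [hc, pow_mul, hζ, one_pow])
  exact (IntermediateField.mem_fixingSubgroup_iff _ τ).mp (mem_inertia_iff.mp hτ n hn) ζ hmem

theorem mem_inertia_of_root {τ : PadicAlgCl p ≃ₐ[ℚ_[p]] PadicAlgCl p}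
    (h : ∀ (m : ℕ) (ζ : PadicAlgCl p), m.Coprime p → ζ ^ m = 1 → τ ζ = ζ) : τ ∈ inertia p := by
  rw [mem_inertia_iff]
  intro n hn
  rw [mem_fixingSubgroup_unram_iff]
  refine ⟨by rw [IntermediateField.fixingSubgroup_bot]; exact Subgroup.mem_top τ, ?_⟩
  have hζ := isPrimitiveRoot_zeta (⊥ : IntermediateField ℚ_[p] (PadicAlgCl p)) hn
  rw [card_residueField_bot] at hζ
  exact h (p ^ n - 1) _ (coprime_pow_sub_one hn) hζ.pow_eq_one

/-- **Inertia = the automorphisms fixing all roots of unity of order prime to `p`.** -/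
theorem mem_inertia_iff_root {τ : PadicAlgCl p ≃ₐ[ℚ_[p]] PadicAlgCl p} :
    τ ∈ inertia p ↔ ∀ (m : ℕ) (ζ : PadicAlgCl p), m.Coprime p → ζ ^ m = 1 → τ ζ = ζ :=
  ⟨fun hτ _ _ hm hζ => apply_root_of_mem_inertia hτ hm hζ, mem_inertia_of_root⟩

/-- The inertia group is normal in `Gal(ℚ̄_p/ℚ_p)`. -/
instance normal_inertia : (inertia p).Normal := by
  refine ⟨fun τ hτ σ => mem_inertia_of_root (fun m ζ hm hζ => ?_)⟩
  have h1 : (σ⁻¹ ζ) ^ m = 1 := by rw [← map_pow, hζ, map_one]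
  have h2 := apply_root_of_mem_inertia hτ hm h1
  rw [AlgEquiv.mul_apply, AlgEquiv.mul_apply, h2, ← AlgEquiv.mul_apply, mul_inv_cancel,
    AlgEquiv.one_apply]

/-- **Teichmüller representatives.** Every integral element `x` of `ℚ̄_p` is congruent, modulo
the maximal ideal, to `0` or to a root of unity of order prime to `p` lying in `ℚ_p(x)`. -/
theorem exists_root_norm_sub_lt {x : PadicAlgCl p} (hx : ‖x‖ ≤ 1) :
    ∃ (m : ℕ) (ζ : PadicAlgCl p), m.Coprime p ∧ ζ ∈ ℚ_[p]⟮x⟯ ∧ (ζ = 0 ∨ ζ ^ m = 1) ∧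
      ‖x - ζ‖ < 1 := by
  let M : IntermediateField ℚ_[p] (PadicAlgCl p) := ℚ_[p]⟮x⟯
  have hfin : FiniteDimensional ℚ_[p] M :=
    IntermediateField.adjoin.finiteDimensional (Algebra.IsIntegral.isIntegral x)
  let x' : M := ⟨x, IntermediateField.mem_adjoin_simple_self _ _⟩
  have hx' : x' ∈ 𝒪[M] := Valued.integer.mem_iff.mpr hx
  let xO : 𝒪[M] := ⟨x', hx'⟩
  let _ := Fintype.ofFinite 𝓀[M]
  have hQ1 : 1 < Nat.card 𝓀[M] := Unramified.one_lt_card_residueField (K := M)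
  have hQf : Nat.card 𝓀[M] = p ^ (𝓂[M]).inertiaDeg 𝒪[ℚ_[p]] := card_residueField_eq_prime_pow M
  have hf0 : 0 < (𝓂[M]).inertiaDeg 𝒪[ℚ_[p]] := by
    rcases Nat.eq_zero_or_pos ((𝓂[M]).inertiaDeg 𝒪[ℚ_[p]]) with h | h
    · rw [h, pow_zero] at hQf; omega
    · exact h
  have hmonic : (X ^ Nat.card 𝓀[M] - X : 𝒪[M][X]).Monic :=
    monic_X_pow_sub (by rw [degree_X]; exact_mod_cast hQ1)
  have hpow : ∀ y : 𝓀[M], y ^ Nat.card 𝓀[M] = y := by
    intro y
    rw [Nat.card_eq_fintype_card]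
    exact FiniteField.pow_card y
  have hcast : ((Nat.card 𝓀[M] : ℕ) : 𝓀[M]) = 0 := by
    rw [Nat.card_eq_fintype_card]; exact Nat.cast_card_eq_zero _
  have heval : (X ^ Nat.card 𝓀[M] - X : 𝒪[M][X]).eval xO ∈ 𝓂[M] := by
    rw [← IsLocalRing.residue_eq_zero_iff]
    simp only [eval_sub, eval_pow, eval_X, map_sub, map_pow]
    rw [hpow, sub_self]
  have hder : IsUnit ((X ^ Nat.card 𝓀[M] - X : 𝒪[M][X]).derivative.eval xO) := by
    rw [← IsLocalRing.notMem_maximalIdeal, ← IsLocalRing.residue_eq_zero_iff]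
    simp only [derivative_X_pow, derivative_X, eval_sub, eval_mul, eval_pow,
      eval_X, eval_one, map_sub, map_mul, map_pow, map_one, map_natCast, eval_natCast]
    rw [hcast, zero_mul, zero_sub]
    exact neg_ne_zero.mpr one_ne_zero
  obtain ⟨ζO, hroot, hmem⟩ := HenselianLocalRing.is_henselian _ hmonic xO heval hder
  have hζQ : ζO ^ Nat.card 𝓀[M] = ζO := by
    have := hroot
    rw [IsRoot.def, eval_sub, eval_pow, eval_X, sub_eq_zero] at this
    exact this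
  have hres : IsLocalRing.residue 𝒪[M] xO = IsLocalRing.residue 𝒪[M] ζO := by
    rw [← sub_eq_zero, ← map_sub, IsLocalRing.residue_eq_zero_iff, ← neg_sub]
    exact neg_mem hmem
  have hlt : ‖(xO : M) - (ζO : M)‖ < 1 := (Unramified.residue_eq_iff_norm_sub_lt_one xO ζO).mp hres
  refine ⟨Nat.card 𝓀[M] - 1, ((ζO : M) : PadicAlgCl p), ?_, (ζO : M).2, ?_, hlt⟩
  · rw [hQf]
    exact coprime_pow_sub_one hf0
  · have h1 : (((ζO : M) : PadicAlgCl p)) ^ Nat.card 𝓀[M] = ((ζO : M) : PadicAlgCl p) :=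
      congrArg (fun z : 𝒪[M] => ((z : M) : PadicAlgCl p)) hζQ
    by_cases h0 : ((ζO : M) : PadicAlgCl p) = 0
    · exact Or.inl h0
    · right
      have h2 : ((ζO : M) : PadicAlgCl p) * ((ζO : M) : PadicAlgCl p) ^ (Nat.card 𝓀[M] - 1) =
          ((ζO : M) : PadicAlgCl p) * 1 := by
        rw [← pow_succ', mul_one, Nat.sub_add_cancel hQ1.le]
        exact h1
      exact mul_left_cancel₀ h0 h2

/-- The inertia group acts trivially on the residue field of `ℚ̄_p`. -/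
theorem norm_map_sub_lt_of_mem_inertia {τ : PadicAlgCl p ≃ₐ[ℚ_[p]] PadicAlgCl p}
    (hτ : τ ∈ inertia p) {x : PadicAlgCl p} (hx : ‖x‖ ≤ 1) : ‖τ x - x‖ < 1 := by
  obtain ⟨m, ζ, hm, -, hζ, hlt⟩ := exists_root_norm_sub_lt hx
  have hτζ : τ ζ = ζ := by
    rcases hζ with rfl | hζ
    · exact map_zero τ
    · exact apply_root_of_mem_inertia hτ hm hζ
  have h1 : τ x - x = τ (x - ζ) + -(x - ζ) := by rw [map_sub, hτζ]; ring
  have h2 : ‖τ (x - ζ)‖ = ‖x - ζ‖ := norm_algEquiv p τ _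
  rw [h1]
  refine lt_of_le_of_lt (IsUltrametricDist.norm_add_le_max _ _) ?_
  rw [norm_neg, h2, max_self]
  exact hlt

theorem mem_inertia_of_norm {τ : PadicAlgCl p ≃ₐ[ℚ_[p]] PadicAlgCl p}
    (h : ∀ x : PadicAlgCl p, ‖x‖ ≤ 1 → ‖τ x - x‖ < 1) : τ ∈ inertia p := by
  rw [mem_inertia_iff]
  intro n hn
  rw [mem_fixingSubgroup_unram_iff]
  refine ⟨by rw [IntermediateField.fixingSubgroup_bot]; exact Subgroup.mem_top τ, ?_⟩
  have hζ := isPrimitiveRoot_zeta (⊥ : IntermediateField ℚ_[p] (PadicAlgCl p)) hn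
  rw [card_residueField_bot] at hζ
  have hm : p ^ n - 1 ≠ 0 := ne_zero_of_coprime (coprime_pow_sub_one hn)
  have : NeZero (p ^ n - 1) := ⟨hm⟩
  obtain ⟨a, -, ha⟩ := hζ.eq_pow_of_pow_eq_one
    (ξ := τ (zeta (⊥ : IntermediateField ℚ_[p] (PadicAlgCl p)) n))
    (by rw [← map_pow, hζ.pow_eq_one, map_one])
  have hζ' : IsPrimitiveRoot (zeta (⊥ : IntermediateField ℚ_[p] (PadicAlgCl p)) n)
      (Nat.card 𝓀[ℚ_[p]] ^ n - 1) := by
    rw [card_residueField_padicBase]; exact hζ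
  have hnorm : ‖zeta (⊥ : IntermediateField ℚ_[p] (PadicAlgCl p)) n ^ a -
      zeta (⊥ : IntermediateField ℚ_[p] (PadicAlgCl p)) n ^ 1‖ < 1 := by
    rw [ha, pow_one]
    exact h _ (Unramified.norm_root_eq_one hm hζ.pow_eq_one).le
  have h2 := Unramified.pow_eq_pow_of_norm_lt (K := ℚ_[p]) hn hζ' hnorm
  rw [← ha, h2, pow_one]

/-- **Inertia = the automorphisms acting trivially on the residue field.** -/
theorem mem_inertia_iff_norm {τ : PadicAlgCl p ≃ₐ[ℚ_[p]] PadicAlgCl p} :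
    τ ∈ inertia p ↔ ∀ x : PadicAlgCl p, ‖x‖ ≤ 1 → ‖τ x - x‖ < 1 :=
  ⟨fun hτ _ hx => norm_map_sub_lt_of_mem_inertia hτ hx, mem_inertia_of_norm⟩

/-! ### The fixed field of the inertia group -/

theorem fixingSubgroup_iSup_ur :
    (⨆ n : ℕ, ur p (n + 1)).fixingSubgroup = inertia p := by
  refine eq_of_forall_le_iff (fun H => ?_)
  rw [← IntermediateField.le_iff_le, iSup_le_iff, inertia, le_iInf_iff]
  exact forall_congr' (fun n => IntermediateField.le_iff_le H (ur p (n + 1)))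

theorem directed_ur : Directed (· ≤ ·) (fun n : ℕ => ur p (n + 1)) := by
  intro a b
  have hk : (a + 1) * (b + 1) - 1 + 1 = (a + 1) * (b + 1) :=
    Nat.sub_add_cancel (Nat.mul_pos (Nat.succ_pos a) (Nat.succ_pos b))
  refine ⟨(a + 1) * (b + 1) - 1, ?_, ?_⟩
  · show ur p (a + 1) ≤ ur p ((a + 1) * (b + 1) - 1 + 1)
    rw [hk]
    exact unram_le_of_dvd _ (Dvd.intro _ rfl) (Nat.mul_pos (Nat.succ_pos a) (Nat.succ_pos b))
  · show ur p (b + 1) ≤ ur p ((a + 1) * (b + 1) - 1 + 1)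
    rw [hk]
    exact unram_le_of_dvd _ (Dvd.intro_left _ rfl) (Nat.mul_pos (Nat.succ_pos a) (Nat.succ_pos b))

/-- An element fixed by the inertia group lies in a finite unramified extension of `ℚ_p`. -/
theorem exists_mem_ur_of_fixed {a : PadicAlgCl p} (ha : ∀ τ ∈ inertia p, τ a = a) :
    ∃ n : ℕ, 0 < n ∧ a ∈ ur p n := by
  have : IsGalois ℚ_[p] (PadicAlgCl p) := IsAlgClosure.isGalois ℚ_[p] (PadicAlgCl p)
  have h1 : a ∈ IntermediateField.fixedField (inertia p) :=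
    (IntermediateField.mem_fixedField_iff _ a).mpr ha
  rw [← fixingSubgroup_iSup_ur, InfiniteGalois.fixedField_fixingSubgroup] at h1
  have h2 : a ∈ ((⨆ n : ℕ, ur p (n + 1) : IntermediateField ℚ_[p] (PadicAlgCl p)) :
      Set (PadicAlgCl p)) := h1
  rw [IntermediateField.coe_iSup_of_directed directed_ur] at h2
  obtain ⟨n, hn⟩ := Set.mem_iUnion.mp h2
  exact ⟨n + 1, Nat.succ_pos n, hn⟩

theorem fixed_of_mem_ur {n : ℕ} (hn : 0 < n) {a : PadicAlgCl p} (ha : a ∈ ur p n)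
    {τ : PadicAlgCl p ≃ₐ[ℚ_[p]] PadicAlgCl p} (hτ : τ ∈ inertia p) : τ a = a :=
  (IntermediateField.mem_fixingSubgroup_iff _ τ).mp (mem_inertia_iff.mp hτ n hn) a ha

/-! ### `p` is a uniformizer of the unramified extensions -/

variable (p) in
lemma irreducible_natCast_base : Irreducible ((p : ℕ) : 𝒪[ℚ_[p]]) := by
  have h0 : (𝒪[ℚ_[p]] : Subring ℚ_[p]) = PadicInt.subring p := by
    ext x
    rw [Valued.integer.mem_iff]
    change _ ↔ ‖x‖ ≤ 1
    rfl
  let e0 : 𝒪[ℚ_[p]] ≃+* ℤ_[p] := RingEquiv.subringCongr h0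
  have h := map_maximalIdeal_of_surjective e0.symm.toRingHom e0.symm.surjective
  rw [PadicInt.maximalIdeal_eq_span_p, Ideal.map_span, Set.image_singleton] at h
  have h2 : e0.symm.toRingHom ((p : ℕ) : ℤ_[p]) = ((p : ℕ) : 𝒪[ℚ_[p]]) := map_natCast e0.symm p
  rw [h2] at h
  exact (IsDiscreteValuationRing.irreducible_iff_uniformizer _).2 h.symm

variable (p) in
lemma irreducible_natCast_bot :
    Irreducible ((p : ℕ) : 𝒪[(⊥ : IntermediateField ℚ_[p] (PadicAlgCl p))]) := by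
  have he : (𝓂[(⊥ : IntermediateField ℚ_[p] (PadicAlgCl p))]).ramificationIdx 𝒪[ℚ_[p]] = 1 := by
    have h1 := ramificationIdx_mul_inertiaDeg_abs (⊥ : IntermediateField ℚ_[p] (PadicAlgCl p))
    rw [IntermediateField.finrank_bot] at h1
    exact Nat.eq_one_of_mul_eq_one_right h1
  have h := Unramified.irreducible_algebraMap_of_ramificationIdx_eq_one he
    (irreducible_natCast_base p)
  rwa [map_natCast] at h

variable (p) in
lemma irreducible_natCast_ur {n : ℕ} (hn : 0 < n) : Irreducible ((p : ℕ) : 𝒪[ur p n]) := by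
  have h := irreducible_algebraMap_unram (⊥ : IntermediateField ℚ_[p] (PadicAlgCl p)) hn
    (irreducible_natCast_bot p)
  rwa [map_natCast] at h

/-- **An inertia-fixed element of norm `< 1` is divisible by `p`** in the inertia-fixed
integers. -/
theorem exists_eq_mul_of_fixed {a : PadicAlgCl p} (ha : ∀ τ ∈ inertia p, τ a = a)
    (hlt : ‖a‖ < 1) :
    ∃ b : PadicAlgCl p, ‖b‖ ≤ 1 ∧ (∀ τ ∈ inertia p, τ b = b) ∧ a = (p : PadicAlgCl p) * b := by
  obtain ⟨n, hn, han⟩ := exists_mem_ur_of_fixed ha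
  let a' : ur p n := ⟨a, han⟩
  have ha' : a' ∈ 𝒪[ur p n] := Valued.integer.mem_iff.mpr hlt.le
  let aO : 𝒪[ur p n] := ⟨a', ha'⟩
  have hmem : aO ∈ 𝓂[ur p n] := by
    rw [IsLocalRing.mem_maximalIdeal, mem_nonunits_iff, Valued.integer.isUnit_iff_norm_eq_one]
    exact hlt.ne
  have hirr : Irreducible ((p : ℕ) : 𝒪[ur p n]) := irreducible_natCast_ur p hn
  have hmax : 𝓂[ur p n] = Ideal.span {((p : ℕ) : 𝒪[ur p n])} := hirr.maximalIdeal_eq
  rw [hmax, Ideal.mem_span_singleton'] at hmem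
  obtain ⟨bO, hb⟩ := hmem
  refine ⟨((bO : ur p n) : PadicAlgCl p), Valued.integer.mem_iff.mp bO.2,
    fun τ hτ => fixed_of_mem_ur hn (bO : ur p n).2 hτ, ?_⟩
  have h1 : ((bO : ur p n) : PadicAlgCl p) * ((p : ℕ) : PadicAlgCl p) = a :=
    congrArg (fun z : 𝒪[ur p n] => ((z : ur p n) : PadicAlgCl p)) hb
  rw [mul_comm] at h1
  exact h1.symm

/-- The value group of the inertia-fixed field is `p ^ ℤ`. -/
theorem exists_norm_eq_zpow_of_fixed {a : PadicAlgCl p} (ha : ∀ τ ∈ inertia p, τ a = a)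
    (h0 : a ≠ 0) : ∃ k : ℤ, ‖a‖ = (p : ℝ) ^ k := by
  obtain ⟨n, hn, han⟩ := exists_mem_ur_of_fixed ha
  have h0' : (⟨a, han⟩ : ur p n) ≠ 0 := fun h => h0 (congrArg Subtype.val h)
  have hirr : Irreducible ((p : ℕ) : 𝒪[ur p n]) := irreducible_natCast_ur p hn
  obtain ⟨k, hk⟩ := exists_norm_eq_zpow hirr h0'
  have h1 : ‖(((p : ℕ) : 𝒪[ur p n]) : ur p n)‖ = (p : ℝ)⁻¹ :=
    (congrArg norm (rfl : (((p : ℕ) : 𝒪[ur p n]) : ur p n) = ((p : ℕ) : ur p n))).trans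
      (norm_natCast_self p (ur p n))
  have h2 : ‖a‖ = ‖(⟨a, han⟩ : ur p n)‖ := rfl
  refine ⟨-k, ?_⟩
  rw [h2, hk, h1, inv_zpow, zpow_neg]

/-! ### The ring of inertia-fixed integers -/

variable (p) in
/-- The ring of inertia-fixed integral elements of `ℚ̄_p` (the integers of the maximal
unramified extension of `ℚ_p`). -/
noncomputable def fixedInt : Subring (PadicAlgCl p) where
  carrier := {a | ‖a‖ ≤ 1 ∧ ∀ τ ∈ inertia p, τ a = a}
  mul_mem' := by
    rintro a b ⟨ha, ha'⟩ ⟨hb, hb'⟩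
    exact ⟨by rw [norm_mul]; exact mul_le_one₀ ha (norm_nonneg _) hb,
      fun τ hτ => by rw [map_mul, ha' τ hτ, hb' τ hτ]⟩
  one_mem' := ⟨by rw [norm_one], fun τ _ => map_one τ⟩
  add_mem' := by
    rintro a b ⟨ha, ha'⟩ ⟨hb, hb'⟩
    exact ⟨(IsUltrametricDist.norm_add_le_max a b).trans (max_le ha hb),
      fun τ hτ => by rw [map_add, ha' τ hτ, hb' τ hτ]⟩
  zero_mem' := ⟨by rw [norm_zero]; exact zero_le_one, fun τ _ => map_zero τ⟩
  neg_mem' := by
    rintro a ⟨ha, ha'⟩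
    exact ⟨by rw [norm_neg]; exact ha, fun τ hτ => by rw [map_neg, ha' τ hτ]⟩

theorem mem_fixedInt_iff {a : PadicAlgCl p} :
    a ∈ fixedInt p ↔ ‖a‖ ≤ 1 ∧ ∀ τ ∈ inertia p, τ a = a := Iff.rfl

theorem mem_fixedInt_of_mem_ur {n : ℕ} (hn : 0 < n) {a : PadicAlgCl p} (ha : a ∈ ur p n)
    (h1 : ‖a‖ ≤ 1) : a ∈ fixedInt p :=
  ⟨h1, fun _ hτ => fixed_of_mem_ur hn ha hτ⟩

/-- `𝓂 ∩ O = p O` for the ring `O` of inertia-fixed integers. -/
theorem exists_eq_mul_of_mem_fixedInt {a : PadicAlgCl p} (ha : a ∈ fixedInt p) (hlt : ‖a‖ < 1) :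
    ∃ b ∈ fixedInt p, a = (p : PadicAlgCl p) * b := by
  obtain ⟨b, hb1, hb2, hb3⟩ := exists_eq_mul_of_fixed ha.2 hlt
  exact ⟨b, ⟨hb1, hb2⟩, hb3⟩

variable (p) in
lemma norm_natCast_prime : ‖((p : ℕ) : PadicAlgCl p)‖ = (p : ℝ)⁻¹ := by
  have h1 : ‖((p : ℕ) : PadicAlgCl p)‖ = ‖((p : ℕ) : ℚ_[p])‖ := by
    rw [← map_natCast (algebraMap ℚ_[p] (PadicAlgCl p)) p, norm_algebraMap']
  rw [h1, Padic.norm_p]

variable (p) in
lemma norm_natCast_prime_lt_one : ‖((p : ℕ) : PadicAlgCl p)‖ < 1 := by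
  rw [norm_natCast_prime]
  exact inv_lt_one_of_one_lt₀ (by exact_mod_cast (Fact.out : p.Prime).one_lt)

theorem norm_lt_one_iff_of_mem_fixedInt {a : PadicAlgCl p} (ha : a ∈ fixedInt p) :
    ‖a‖ < 1 ↔ ∃ b ∈ fixedInt p, a = (p : PadicAlgCl p) * b := by
  refine ⟨exists_eq_mul_of_mem_fixedInt ha, ?_⟩
  rintro ⟨b, hb, rfl⟩
  have hp : ‖((p : ℕ) : PadicAlgCl p)‖ < 1 := norm_natCast_prime_lt_one p
  rw [norm_mul]
  calc ‖((p : ℕ) : PadicAlgCl p)‖ * ‖b‖ ≤ ‖((p : ℕ) : PadicAlgCl p)‖ * 1 :=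
        mul_le_mul_of_nonneg_left hb.1 (norm_nonneg _)
    _ < 1 := by rw [mul_one]; exact hp

/-- The ring of inertia-fixed integers is stable under the whole Galois group. -/
theorem map_mem_fixedInt (σ : PadicAlgCl p ≃ₐ[ℚ_[p]] PadicAlgCl p) {a : PadicAlgCl p}
    (ha : a ∈ fixedInt p) : σ a ∈ fixedInt p := by
  refine ⟨by rw [norm_algEquiv p σ a]; exact ha.1, fun τ hτ => ?_⟩
  have h1 : σ⁻¹ * τ * σ ∈ inertia p := by
    have := normal_inertia.conj_mem τ hτ σ⁻¹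
    rwa [inv_inv] at this
  have h2 := ha.2 _ h1
  rw [AlgEquiv.mul_apply, AlgEquiv.mul_apply] at h2
  have h3 := congrArg σ h2
  rwa [← AlgEquiv.mul_apply, mul_inv_cancel, AlgEquiv.one_apply] at h3

/-- The units of the ring of inertia-fixed integers are its elements of norm `1`. -/
theorem inv_mem_fixedInt {a : PadicAlgCl p} (ha : a ∈ fixedInt p) (h1 : ‖a‖ = 1) :
    a⁻¹ ∈ fixedInt p :=
  ⟨by rw [norm_inv, h1, inv_one], fun τ hτ => by rw [map_inv₀, ha.2 τ hτ]⟩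

theorem natCast_mem_fixedInt (n : ℕ) : (n : PadicAlgCl p) ∈ fixedInt p := natCast_mem _ n

/-- Teichmüller representatives in the ring of inertia-fixed integers: every integral element is
congruent modulo the maximal ideal to an inertia-fixed integer. -/
theorem exists_mem_fixedInt_norm_sub_lt {x : PadicAlgCl p} (hx : ‖x‖ ≤ 1) :
    ∃ ζ ∈ fixedInt p, ζ ∈ ℚ_[p]⟮x⟯ ∧ ‖x - ζ‖ < 1 := by
  obtain ⟨m, ζ, hm, hmem, hζ, hlt⟩ := exists_root_norm_sub_lt hx
  refine ⟨ζ, ?_, hmem, hlt⟩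
  rcases hζ with rfl | hζ
  · exact zero_mem _
  · exact ⟨(Unramified.norm_root_eq_one (ne_zero_of_coprime hm) hζ).le,
      fun τ hτ => apply_root_of_mem_inertia hτ hm hζ⟩

/-- Saturation: if `p * b` is inertia-fixed then so is `b`. -/
theorem fixed_of_mul_fixed {b : PadicAlgCl p}
    (h : ∀ τ ∈ inertia p, τ ((p : PadicAlgCl p) * b) = (p : PadicAlgCl p) * b) :
    ∀ τ ∈ inertia p, τ b = b := by
  intro τ hτ
  have h1 := h τ hτ
  rw [map_mul, map_natCast] at h1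
  exact mul_left_cancel₀ (Nat.cast_ne_zero.mpr (Fact.out : p.Prime).ne_zero) h1

theorem mem_fixedInt_of_mul_mem {b : PadicAlgCl p} (hb : ‖b‖ ≤ 1)
    (h : (p : PadicAlgCl p) * b ∈ fixedInt p) : b ∈ fixedInt p :=
  ⟨hb, fixed_of_mul_fixed h.2⟩

/-- An element of `ℚ̄_p` of norm at most `‖p‖ ^ n` for all `n` is zero. -/
theorem eq_zero_of_forall_norm_le {a : PadicAlgCl p}
    (h : ∀ n : ℕ, ‖a‖ ≤ ‖((p : ℕ) : PadicAlgCl p)‖ ^ n) : a = 0 := by
  by_contra h0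
  have hpos : 0 < ‖a‖ := norm_pos_iff.mpr h0
  obtain ⟨n, hn⟩ := exists_pow_lt_of_lt_one hpos (norm_natCast_prime_lt_one p)
  exact absurd (h n) (not_le.mpr hn)

/-- `p`-adic separatedness of the integers of `ℚ̄_p` (in particular of `fixedInt p`). -/
theorem eq_zero_of_forall_exists_pow_mul {a : PadicAlgCl p}
    (h : ∀ n : ℕ, ∃ b : PadicAlgCl p, ‖b‖ ≤ 1 ∧ a = (p : PadicAlgCl p) ^ n * b) : a = 0 := by
  refine eq_zero_of_forall_norm_le (fun n => ?_)
  obtain ⟨b, hb, rfl⟩ := h n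
  rw [norm_mul, norm_pow]
  exact mul_le_of_le_one_right (pow_nonneg (norm_nonneg _) n) hb

/-! ### The norm form consumed by `LF/FlatRigid.flatRigid` -/

variable (p) in
/-- Row B3 in the norm form (`hUr` of `LF/FlatRigid.flatRigid`): an element of norm `< 1` fixed
by every automorphism acting trivially on the residue field is `p` times such an element of
norm `≤ 1`. -/
theorem exists_eq_mul_of_norm_fixed : ∀ a : PadicAlgCl p,
    (∀ τ : PadicAlgCl p ≃ₐ[ℚ_[p]] PadicAlgCl p,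
      (∀ x : PadicAlgCl p, ‖x‖ ≤ 1 → ‖τ x - x‖ < 1) → τ a = a) → ‖a‖ < 1 →
    ∃ b : PadicAlgCl p, ‖b‖ ≤ 1 ∧
      (∀ τ : PadicAlgCl p ≃ₐ[ℚ_[p]] PadicAlgCl p,
        (∀ x : PadicAlgCl p, ‖x‖ ≤ 1 → ‖τ x - x‖ < 1) → τ b = b) ∧
      a = (p : PadicAlgCl p) * b := by
  intro a ha hlt
  obtain ⟨b, hb1, hb2, hb3⟩ :=
    exists_eq_mul_of_fixed (fun τ hτ => ha τ (mem_inertia_iff_norm.mp hτ)) hlt
  exact ⟨b, hb1, fun τ hτ => hb2 τ (mem_inertia_of_norm hτ), hb3⟩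

variable (p) in
/-- The same for the roots-of-unity form of inertia. -/
theorem exists_eq_mul_of_root_fixed : ∀ a : PadicAlgCl p,
    (∀ τ : PadicAlgCl p ≃ₐ[ℚ_[p]] PadicAlgCl p,
      (∀ (m : ℕ) (ζ : PadicAlgCl p), m.Coprime p → ζ ^ m = 1 → τ ζ = ζ) → τ a = a) → ‖a‖ < 1 →
    ∃ b : PadicAlgCl p, ‖b‖ ≤ 1 ∧
      (∀ τ : PadicAlgCl p ≃ₐ[ℚ_[p]] PadicAlgCl p,
        (∀ (m : ℕ) (ζ : PadicAlgCl p), m.Coprime p → ζ ^ m = 1 → τ ζ = ζ) → τ b = b) ∧
      a = (p : PadicAlgCl p) * b := by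
  intro a ha hlt
  obtain ⟨b, hb1, hb2, hb3⟩ :=
    exists_eq_mul_of_fixed (fun τ hτ => ha τ (mem_inertia_iff_root.mp hτ)) hlt
  exact ⟨b, hb1, fun τ hτ => hb2 τ (mem_inertia_of_root hτ), hb3⟩

/-! ### Inertia of a finite extension -/

/-- The inertia group of a finite extension `E` of `ℚ_p` fixes the unramified extensions of
`E`. -/
theorem inf_fixingSubgroup_le_unram (E : IntermediateField ℚ_[p] (PadicAlgCl p))
    [FiniteDimensional ℚ_[p] E] {n : ℕ} (hn : 0 < n) :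
    inertia p ⊓ E.fixingSubgroup ≤ (unram E n).fixingSubgroup := by
  intro τ hτ
  rw [mem_fixingSubgroup_unram_iff]
  refine ⟨hτ.2, apply_root_of_mem_inertia hτ.1 ?_ (isPrimitiveRoot_zeta E hn).pow_eq_one⟩
  have hQ1 : 1 < Nat.card 𝓀[E] := Unramified.one_lt_card_residueField (K := E)
  have hQf : Nat.card 𝓀[E] = p ^ (𝓂[E]).inertiaDeg 𝒪[ℚ_[p]] := card_residueField_eq_prime_pow E
  have hf0 : 0 < (𝓂[E]).inertiaDeg 𝒪[ℚ_[p]] := by
    rcases Nat.eq_zero_or_pos ((𝓂[E]).inertiaDeg 𝒪[ℚ_[p]]) with h | h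
    · rw [h, pow_zero] at hQf; omega
    · exact h
  rw [hQf, ← pow_mul]
  exact coprime_pow_sub_one (Nat.mul_pos hf0 hn)

end Fermat.Agent.S56.LF.InertiaUr
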