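import Mathlib
import Fermat.Agent.S56.LF.InertiaUr

/-!
# S56 / LF, row LG (twin of LGKey): automorphisms fixing the tame roots of unity of a finite field

`M` a finite extension of `ℚ_p` inside `ℚ̄_p = PadicAlgCl p`, and `ρ ∈ Gal(ℚ̄_p/ℚ_p)` fixing every
root of unity of order prime to `p` lying in `M`.  Then `ρ` agrees on `M` with an element of the
absolute inertia group (`lgKey`, the body of `Flat.LGKeyStatement`).

Proof.  (a) `ρ` fixes every inertia-fixed element `x` of `M` (`apply_eq_of_fixed`): for `x`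
integral, `x = ζ₀ + p x₁` with `ζ₀ ∈ ℚ_p(x)` a Teichmüller representative and `x₁ ∈ M` again
integral and inertia-fixed, so `ρ x - x = p (ρ x₁ - x₁)`; iterating, `ρ x - x` is divisible by
every power of `p`.  (b) `H := inertia ⊔ Fix M` is an open, hence closed, subgroup, so it is the
fixing subgroup of its fixed field, which consists of inertia-fixed elements of `M`; hence
`ρ ∈ H = inertia · Fix M`.
-/

set_option autoImplicit false

namespace Fermat.Agent.S56.LF.LGKeyTwin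

open scoped IntermediateField Pointwise
open Fermat.Agent.CFT.Local Fermat.Agent.CFT.Local.NormedLocal
  Fermat.Agent.CFT.Local.PadicExt Fermat.Agent.CFT.Local.UnramPadic
open Fermat.Agent.S56.LF.InertiaUr

variable {p : ℕ} [Fact p.Prime]

/-- One step of the `p`-adic expansion: for `x ∈ M` integral and inertia-fixed,
`ρ x - x = p (ρ y - y)` with `y ∈ M` integral and inertia-fixed. -/
lemma exists_step (M : IntermediateField ℚ_[p] (PadicAlgCl p))
    (ρ : PadicAlgCl p ≃ₐ[ℚ_[p]] PadicAlgCl p)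
    (hρ : ∀ ξ ∈ M, ∀ n : ℕ, n.Coprime p → ξ ^ n = 1 → ρ ξ = ξ)
    {x : PadicAlgCl p} (hxM : x ∈ M) (hx : x ∈ fixedInt p) :
    ∃ y : PadicAlgCl p, y ∈ M ∧ y ∈ fixedInt p ∧
      ρ x - x = (p : PadicAlgCl p) * (ρ y - y) := by
  obtain ⟨m, ζ, hm, hζmem, hζ, hlt⟩ := exists_root_norm_sub_lt hx.1
  have hle : ℚ_[p]⟮x⟯ ≤ M := IntermediateField.adjoin_simple_le_iff.mpr hxM
  have hζM : ζ ∈ M := hle hζmem
  have hρζ : ρ ζ = ζ := by
    rcases hζ with rfl | hζ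
    · exact map_zero ρ
    · exact hρ ζ hζM m hm hζ
  have hζfix : ζ ∈ fixedInt p := by
    rcases hζ with rfl | hζ
    · exact zero_mem _
    · exact ⟨(Unramified.norm_root_eq_one (ne_zero_of_coprime hm) hζ).le,
        fun τ hτ => apply_root_of_mem_inertia hτ hm hζ⟩
  have hdiff : x - ζ ∈ fixedInt p := sub_mem hx hζfix
  obtain ⟨b, hb, hbe⟩ := exists_eq_mul_of_mem_fixedInt hdiff hlt
  have hp0 : (p : PadicAlgCl p) ≠ 0 := Nat.cast_ne_zero.mpr (Fact.out : p.Prime).ne_zero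
  have hbM : b ∈ M := by
    have h1 : b = (x - ζ) * (p : PadicAlgCl p)⁻¹ := by
      rw [hbe, mul_comm, inv_mul_cancel_left₀ hp0]
    rw [h1]
    exact mul_mem (sub_mem hxM hζM) (inv_mem (natCast_mem M p))
  refine ⟨b, hbM, hb, ?_⟩
  have h2 : x = ζ + (p : PadicAlgCl p) * b := by rw [← hbe]; ring
  calc ρ x - x = ρ (ζ + (p : PadicAlgCl p) * b) - (ζ + (p : PadicAlgCl p) * b) := by rw [← h2]
    _ = (p : PadicAlgCl p) * (ρ b - b) := by
      rw [map_add, map_mul, map_natCast, hρζ]; ring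

/-- `n` steps of the `p`-adic expansion. -/
lemma exists_iter (M : IntermediateField ℚ_[p] (PadicAlgCl p))
    (ρ : PadicAlgCl p ≃ₐ[ℚ_[p]] PadicAlgCl p)
    (hρ : ∀ ξ ∈ M, ∀ n : ℕ, n.Coprime p → ξ ^ n = 1 → ρ ξ = ξ) (n : ℕ) :
    ∀ {x : PadicAlgCl p}, x ∈ M → x ∈ fixedInt p →
      ∃ y : PadicAlgCl p, y ∈ M ∧ y ∈ fixedInt p ∧
        ρ x - x = (p : PadicAlgCl p) ^ n * (ρ y - y) := by
  induction n with
  | zero =>
    intro x hxM hx
    exact ⟨x, hxM, hx, by rw [pow_zero, one_mul]⟩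
  | succ n ih =>
    intro x hxM hx
    obtain ⟨y, hyM, hy, he⟩ := exists_step M ρ hρ hxM hx
    obtain ⟨z, hzM, hz, he'⟩ := ih hyM hy
    exact ⟨z, hzM, hz, by rw [he, he']; ring⟩

/-- `ρ` fixes the integral inertia-fixed elements of `M`. -/
lemma apply_eq_of_mem_fixedInt (M : IntermediateField ℚ_[p] (PadicAlgCl p))
    (ρ : PadicAlgCl p ≃ₐ[ℚ_[p]] PadicAlgCl p)
    (hρ : ∀ ξ ∈ M, ∀ n : ℕ, n.Coprime p → ξ ^ n = 1 → ρ ξ = ξ)
    {x : PadicAlgCl p} (hxM : x ∈ M) (hx : x ∈ fixedInt p) : ρ x = x := by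
  have h0 : ρ x - x = 0 := by
    refine eq_zero_of_forall_exists_pow_mul (fun n => ?_)
    obtain ⟨y, -, hy, he⟩ := exists_iter M ρ hρ n hxM hx
    refine ⟨ρ y - y, ?_, he⟩
    have h1 : ‖ρ y‖ = ‖y‖ := norm_algEquiv p ρ y
    have h2 : ρ y - y = ρ y + -y := sub_eq_add_neg _ _
    rw [h2]
    refine (IsUltrametricDist.norm_add_le_max _ _).trans (max_le ?_ ?_)
    · rw [h1]; exact hy.1
    · rw [norm_neg]; exact hy.1
  exact sub_eq_zero.mp h0

/-- **`ρ` fixes `M ∩ ℚ_p^ur`**: every inertia-fixed element of `M` is fixed by `ρ`. -/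
theorem apply_eq_of_fixed (M : IntermediateField ℚ_[p] (PadicAlgCl p))
    (ρ : PadicAlgCl p ≃ₐ[ℚ_[p]] PadicAlgCl p)
    (hρ : ∀ ξ ∈ M, ∀ n : ℕ, n.Coprime p → ξ ^ n = 1 → ρ ξ = ξ)
    {x : PadicAlgCl p} (hxM : x ∈ M) (hx : ∀ τ ∈ inertia p, τ x = x) : ρ x = x := by
  rcases le_or_gt ‖x‖ 1 with h | h
  · exact apply_eq_of_mem_fixedInt M ρ hρ hxM ⟨h, hx⟩
  · have hinv : x⁻¹ ∈ fixedInt p :=
      ⟨by rw [norm_inv]; exact (inv_lt_one_of_one_lt₀ h).le,
        fun τ hτ => by rw [map_inv₀, hx τ hτ]⟩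
    have h1 := apply_eq_of_mem_fixedInt M ρ hρ (inv_mem hxM) hinv
    rw [map_inv₀] at h1
    exact inv_injective h1

/-- **LG-key** (the body of `Flat.LGKeyStatement`): an element fixing the roots of unity of
order prime to `p` of a finite `M` agrees on `M` with an inertial element. -/
theorem lgKey (p : ℕ) [Fact p.Prime] (M : IntermediateField ℚ_[p] (PadicAlgCl p))
    [FiniteDimensional ℚ_[p] M] (ρ : PadicAlgCl p ≃ₐ[ℚ_[p]] PadicAlgCl p)
    (hρ : ∀ ξ ∈ M, ∀ n : ℕ, n.Coprime p → ξ ^ n = 1 → ρ ξ = ξ) :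
    ∃ τ : PadicAlgCl p ≃ₐ[ℚ_[p]] PadicAlgCl p,
      (∀ x : PadicAlgCl p, ‖x‖ ≤ 1 → ‖τ x - x‖ < 1) ∧ ∀ x ∈ M, ρ x = τ x := by
  have hgal : IsGalois ℚ_[p] (PadicAlgCl p) := IsAlgClosure.isGalois ℚ_[p] (PadicAlgCl p)
  have hopen : IsOpen ((inertia p ⊔ M.fixingSubgroup :
      Subgroup (PadicAlgCl p ≃ₐ[ℚ_[p]] PadicAlgCl p)) :
      Set (PadicAlgCl p ≃ₐ[ℚ_[p]] PadicAlgCl p)) :=
    Subgroup.isOpen_mono (le_sup_right : M.fixingSubgroup ≤ inertia p ⊔ M.fixingSubgroup)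
      (IntermediateField.fixingSubgroup_isOpen M)
  have hclosed : IsClosed ((inertia p ⊔ M.fixingSubgroup :
      Subgroup (PadicAlgCl p ≃ₐ[ℚ_[p]] PadicAlgCl p)) :
      Set (PadicAlgCl p ≃ₐ[ℚ_[p]] PadicAlgCl p)) :=
    Subgroup.isClosed_of_isOpen _ hopen
  have hfix : (IntermediateField.fixedField (inertia p ⊔ M.fixingSubgroup)).fixingSubgroup =
      inertia p ⊔ M.fixingSubgroup :=
    InfiniteGalois.fixingSubgroup_fixedField
      (⟨inertia p ⊔ M.fixingSubgroup, hclosed⟩ :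
        ClosedSubgroup (PadicAlgCl p ≃ₐ[ℚ_[p]] PadicAlgCl p))
  have hρH : ρ ∈ inertia p ⊔ M.fixingSubgroup := by
    rw [← hfix, IntermediateField.mem_fixingSubgroup_iff]
    intro x hx
    have hx' : ∀ σ ∈ inertia p ⊔ M.fixingSubgroup, σ x = x :=
      (IntermediateField.mem_fixedField_iff _ x).mp hx
    have hxM : x ∈ M := by
      have h1 : x ∈ IntermediateField.fixedField M.fixingSubgroup :=
        (IntermediateField.mem_fixedField_iff _ x).mpr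
          (fun σ hσ => hx' σ (Subgroup.mem_sup_right hσ))
      rwa [InfiniteGalois.fixedField_fixingSubgroup] at h1
    exact apply_eq_of_fixed M ρ hρ hxM (fun τ hτ => hx' τ (Subgroup.mem_sup_left hτ))
  have hmul : ((inertia p ⊔ M.fixingSubgroup :
      Subgroup (PadicAlgCl p ≃ₐ[ℚ_[p]] PadicAlgCl p)) :
      Set (PadicAlgCl p ≃ₐ[ℚ_[p]] PadicAlgCl p)) =
      (inertia p : Set (PadicAlgCl p ≃ₐ[ℚ_[p]] PadicAlgCl p)) *
        (M.fixingSubgroup : Set (PadicAlgCl p ≃ₐ[ℚ_[p]] PadicAlgCl p)) :=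
    Subgroup.normal_mul (inertia p) M.fixingSubgroup
  have hρ' : ρ ∈ (inertia p : Set (PadicAlgCl p ≃ₐ[ℚ_[p]] PadicAlgCl p)) *
      (M.fixingSubgroup : Set (PadicAlgCl p ≃ₐ[ℚ_[p]] PadicAlgCl p)) := by
    rw [← hmul]; exact hρH
  obtain ⟨τ, hτ, h, hh, rfl⟩ := Set.mem_mul.mp hρ'
  refine ⟨τ, mem_inertia_iff_norm.mp hτ, fun x hx => ?_⟩
  rw [AlgEquiv.mul_apply, (IntermediateField.mem_fixingSubgroup_iff _ h).mp hh x hx]

end Fermat.Agent.S56.LF.LGKeyTwin
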