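import Mathlib
import Fermat.Agent.S56.Flat.LocalBricks
import Fermat.Agent.S56.LF.LGKeyTwin

/-!
# S56 / LF, row LG: `Flat.LGKeyStatement` is proved

The one-line closer of the row Prop `Flat.LGKeyStatement` of `Flat/LocalBricks.lean` from
`LGKeyTwin.lgKey`.
-/

set_option autoImplicit false

namespace Fermat.Agent.S56.LF.LGKeyTwinExit

open Fermat.Agent.S56

/-- **LG-key**: the row Prop of `Flat/LocalBricks.lean`. -/
theorem lgKeyStatement : Flat.LGKeyStatement :=
  fun p _ M _ ρ h => LGKeyTwin.lgKey p M ρ h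

end Fermat.Agent.S56.LF.LGKeyTwinExit
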