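import Mathlib

/-!
# S56 / LF, row C5 (LF7): the shape of a two-dimensional mod `p` representation of a local
Galois group — abstract group core

`k` is a field of characteristic `p` (`p` odd), `Γ` any group, `r : Γ →* GL (Fin 2) k`,
`I W : Subgroup Γ` two normal subgroups ("inertia" and "wild inertia") and `φ : Γ` (a
"Frobenius").  Under the six hypotheses bundled in `Hyp`

* `wild`  : every `r w`, `w ∈ W`, is killed by a power of `p`;
* `comm`  : commutators of elements of `I` lie in `W`;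
* `gen`   : every `r σ` is `r (φ ^ n * ι)` with `ι ∈ I`;
* `frob`  : `(τ ^ p)⁻¹ * (φ * τ * φ⁻¹) ∈ W` for `τ ∈ I`;
* `split` : every characteristic polynomial splits over `k`;
* `ram`   : some `τ ∈ I` has `det (r τ) ^ ((p - 1) / 2) ≠ 1`;

the theorem `shape` says that after ONE conjugation `g` the representation is either

* `ShapeR` : upper triangular, with diagonal characters that differ on `I` and are killed by
  `p - 1` on `I`; or
* `ShapeI` : trivial on `W`, diagonal on `I` with two different diagonal entries somewhere on `I`,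
  antidiagonal at `φ`, every `r σ` diagonal or antidiagonal, and the two diagonal entries of
  `r τ`, `τ ∈ I`, are `p`-th powers of each other.

No structure theory of tame extensions is used: only the six hypotheses.
-/

set_option autoImplicit false

namespace Fermat.Agent.S56.LF.Shape

open Matrix Polynomial

variable {k : Type*} [Field k]

/-! ### `2 × 2` matrices -/

section Mat

lemma mul00 (A B : Matrix (Fin 2) (Fin 2) k) :
    (A * B) 0 0 = A 0 0 * B 0 0 + A 0 1 * B 1 0 := by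
  simp [Matrix.mul_apply, Fin.sum_univ_two]

lemma mul01 (A B : Matrix (Fin 2) (Fin 2) k) :
    (A * B) 0 1 = A 0 0 * B 0 1 + A 0 1 * B 1 1 := by
  simp [Matrix.mul_apply, Fin.sum_univ_two]

lemma mul10 (A B : Matrix (Fin 2) (Fin 2) k) :
    (A * B) 1 0 = A 1 0 * B 0 0 + A 1 1 * B 1 0 := by
  simp [Matrix.mul_apply, Fin.sum_univ_two]

lemma mul11 (A B : Matrix (Fin 2) (Fin 2) k) :
    (A * B) 1 1 = A 1 0 * B 0 1 + A 1 1 * B 1 1 := by
  simp [Matrix.mul_apply, Fin.sum_univ_two]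

omit [Field k] in
lemma ext2 {A B : Matrix (Fin 2) (Fin 2) k} (h00 : A 0 0 = B 0 0) (h01 : A 0 1 = B 0 1)
    (h10 : A 1 0 = B 1 0) (h11 : A 1 1 = B 1 1) : A = B := by
  ext i j
  fin_cases i <;> fin_cases j
  exacts [h00, h01, h10, h11]

/-- Diagonal `2 × 2` matrices. -/
def IsDiag (A : Matrix (Fin 2) (Fin 2) k) : Prop := A 0 1 = 0 ∧ A 1 0 = 0

/-- Antidiagonal `2 × 2` matrices. -/
def IsAnti (A : Matrix (Fin 2) (Fin 2) k) : Prop := A 0 0 = 0 ∧ A 1 1 = 0

lemma IsDiag.mul {A B : Matrix (Fin 2) (Fin 2) k} (hA : IsDiag A) (hB : IsDiag B) :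
    IsDiag (A * B) := by
  refine ⟨?_, ?_⟩
  · rw [mul01, hA.1, hB.1]; ring
  · rw [mul10, hA.2, hB.2]; ring

lemma isDiag_one : IsDiag (1 : Matrix (Fin 2) (Fin 2) k) := by
  constructor <;> simp

lemma IsDiag.pow {A : Matrix (Fin 2) (Fin 2) k} (hA : IsDiag A) (n : ℕ) :
    IsDiag (A ^ n) ∧ (A ^ n) 0 0 = A 0 0 ^ n ∧ (A ^ n) 1 1 = A 1 1 ^ n := by
  induction n with
  | zero => exact ⟨by simpa using isDiag_one, by simp, by simp⟩
  | succ n ih =>
    obtain ⟨h1, h2, h3⟩ := ih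
    refine ⟨?_, ?_, ?_⟩
    · rw [pow_succ]; exact h1.mul hA
    · rw [pow_succ, mul00, h2, h1.1]; ring
    · rw [pow_succ, mul11, h3, h1.2]; ring

lemma IsAnti.mul_anti {A B : Matrix (Fin 2) (Fin 2) k} (hA : IsAnti A) (hB : IsAnti B) :
    IsDiag (A * B) := by
  refine ⟨?_, ?_⟩
  · rw [mul01, hA.1, hB.2]; ring
  · rw [mul10, hA.2, hB.1]; ring

lemma IsAnti.mul_diag {A B : Matrix (Fin 2) (Fin 2) k} (hA : IsAnti A) (hB : IsDiag B) :
    IsAnti (A * B) := by
  refine ⟨?_, ?_⟩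
  · rw [mul00, hA.1, hB.2]; ring
  · rw [mul11, hA.2, hB.1]; ring

lemma IsDiag.mul_anti {A B : Matrix (Fin 2) (Fin 2) k} (hA : IsDiag A) (hB : IsAnti B) :
    IsAnti (A * B) := by
  refine ⟨?_, ?_⟩
  · rw [mul00, hA.1, hB.1]; ring
  · rw [mul11, hA.2, hB.2]; ring

/-- Every non-zero vector is the first column of an invertible matrix: conjugation by its
inverse puts every matrix having this vector as an eigenvector in upper triangular form. -/
lemma exists_conj_col {v : Fin 2 → k} (hv : v ≠ 0) :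
    ∃ g : GL (Fin 2) k, ∀ (x : Matrix (Fin 2) (Fin 2) k) (c : k), x *ᵥ v = c • v →
      ((g : Matrix (Fin 2) (Fin 2) k) * x * ((g⁻¹ : GL (Fin 2) k) : Matrix (Fin 2) (Fin 2) k)) 0 0
          = c ∧
      ((g : Matrix (Fin 2) (Fin 2) k) * x * ((g⁻¹ : GL (Fin 2) k) : Matrix (Fin 2) (Fin 2) k)) 1 0
          = 0 := by
  have key : ∀ (x : Matrix (Fin 2) (Fin 2) k) (c : k), x *ᵥ v = c • v →
      x 0 0 * v 0 + x 0 1 * v 1 = c * v 0 ∧ x 1 0 * v 0 + x 1 1 * v 1 = c * v 1 := by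
    intro x c h
    have h0 := congrFun h 0
    have h1 := congrFun h 1
    simp [Matrix.mulVec, dotProduct, Fin.sum_univ_two] at h0 h1
    exact ⟨h0, h1⟩
  by_cases h0 : v 0 = 0
  · have h1 : v 1 ≠ 0 := by
      intro h1
      apply hv
      funext i
      fin_cases i
      exacts [h0, h1]
    let Q : Matrix (Fin 2) (Fin 2) k := !![0, (v 1)⁻¹; 1, 0]
    let P : Matrix (Fin 2) (Fin 2) k := !![0, 1; v 1, 0]
    have hQP : Q * P = 1 := by
      apply ext2 <;> simp [Q, P, mul00, mul01, mul10, mul11, h1]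
    have hPQ : P * Q = 1 := by
      apply ext2 <;> simp [Q, P, mul00, mul01, mul10, mul11, h1]
    refine ⟨⟨Q, P, hQP, hPQ⟩, fun x c h => ?_⟩
    obtain ⟨e0, e1⟩ := key x c h
    rw [h0] at e0 e1
    change (Q * x * P) 0 0 = c ∧ (Q * x * P) 1 0 = 0
    constructor
    · rw [mul00, mul00, mul01]
      simp only [Q, P, Matrix.of_apply, Matrix.cons_val_zero, Matrix.cons_val_one,
        Matrix.cons_val', Matrix.cons_val_fin_one]
      field_simp
      linear_combination e1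
    · rw [mul10, mul10, mul11]
      simp only [Q, P, Matrix.of_apply, Matrix.cons_val_zero, Matrix.cons_val_one,
        Matrix.cons_val', Matrix.cons_val_fin_one]
      linear_combination e0
  · let Q : Matrix (Fin 2) (Fin 2) k := !![(v 0)⁻¹, 0; -(v 1) * (v 0)⁻¹, 1]
    let P : Matrix (Fin 2) (Fin 2) k := !![v 0, 0; v 1, 1]
    have hQP : Q * P = 1 := by
      apply ext2 <;> simp [Q, P, mul00, mul01, mul10, mul11, h0]
    have hPQ : P * Q = 1 := by
      apply ext2 <;> simp [Q, P, mul00, mul01, mul10, mul11, h0]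
    refine ⟨⟨Q, P, hQP, hPQ⟩, fun x c h => ?_⟩
    obtain ⟨e0, e1⟩ := key x c h
    change (Q * x * P) 0 0 = c ∧ (Q * x * P) 1 0 = 0
    constructor
    · rw [mul00, mul00, mul01]
      simp only [Q, P, Matrix.of_apply, Matrix.cons_val_zero, Matrix.cons_val_one,
        Matrix.cons_val', Matrix.cons_val_fin_one]
      field_simp
      linear_combination e0
    · rw [mul10, mul10, mul11]
      simp only [Q, P, Matrix.of_apply, Matrix.cons_val_zero, Matrix.cons_val_one,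
        Matrix.cons_val', Matrix.cons_val_fin_one]
      field_simp
      linear_combination v 0 * e1 - v 1 * e0

/-- A root of the characteristic polynomial has an eigenvector. -/
lemma exists_eigenvector (x : Matrix (Fin 2) (Fin 2) k) {a b : k}
    (h : x.charpoly = (X - C a) * (X - C b)) : ∃ v : Fin 2 → k, v ≠ 0 ∧ x *ᵥ v = a • v := by
  have h0 : (Matrix.scalar (Fin 2) a - x).det = 0 := by
    rw [← Matrix.eval_charpoly, h]
    simp
  obtain ⟨v, hv0, hv⟩ := Matrix.exists_mulVec_eq_zero_iff.mpr h0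
  refine ⟨v, hv0, ?_⟩
  rw [Matrix.sub_mulVec, sub_eq_zero] at hv
  rw [← hv]
  ext i
  fin_cases i <;> simp [Matrix.mulVec, dotProduct, Fin.sum_univ_two, Matrix.scalar_apply]

end Mat

/-! ### `p`-power torsion in characteristic `p` -/

section Unip

variable (p : ℕ) [Fact p.Prime] [CharP k p]

include p in
lemma eq_one_of_pow_char_pow {x : k} {n : ℕ} (hx : x ^ (p ^ n) = 1) : x = 1 := by
  have h : (x - 1) ^ (p ^ n) = 0 := by
    rw [sub_pow_char_pow, hx, one_pow, sub_self]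
  exact sub_eq_zero.mp (pow_eq_zero_iff (pow_ne_zero _ (Fact.out : p.Prime).ne_zero) |>.mp h)

include p in
lemma nilpotent_of_pow_char_pow {x : Matrix (Fin 2) (Fin 2) k} {n : ℕ} (hx : x ^ (p ^ n) = 1) :
    (x - 1) ^ (p ^ n) = 0 := by
  rw [sub_pow_char_pow_of_commute p n (Commute.one_right x), hx, one_pow, sub_self]

include p in
lemma trace_of_pow_char_pow {x : Matrix (Fin 2) (Fin 2) k} {n : ℕ} (hx : x ^ (p ^ n) = 1) :
    x 0 0 + x 1 1 = 2 := by
  have h2 : IsNilpotent (x - 1) := ⟨_, nilpotent_of_pow_char_pow p hx⟩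
  have h3 := (Matrix.isNilpotent_trace_of_isNilpotent h2).eq_zero
  rw [Matrix.trace_fin_two] at h3
  simp only [Matrix.sub_apply, Matrix.one_apply_eq] at h3
  linear_combination h3

include p in
lemma exists_fixed_of_pow_char_pow {x : Matrix (Fin 2) (Fin 2) k} {n : ℕ}
    (hx : x ^ (p ^ n) = 1) : ∃ v : Fin 2 → k, v ≠ 0 ∧ x *ᵥ v = (1 : k) • v := by
  have h := nilpotent_of_pow_char_pow p hx
  have hdet : (x - 1).det = 0 := by
    have h' := congrArg Matrix.det h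
    rw [Matrix.det_pow, Matrix.det_zero] at h'
    exact (pow_eq_zero_iff (pow_ne_zero _ (Fact.out : p.Prime).ne_zero)).mp h'
  obtain ⟨v, hv0, hv⟩ := Matrix.exists_mulVec_eq_zero_iff.mpr hdet
  refine ⟨v, hv0, ?_⟩
  rw [Matrix.sub_mulVec, Matrix.one_mulVec, sub_eq_zero] at hv
  rw [hv, one_smul]

end Unip

/-! ### Representations -/

variable {Γ : Type*} [Group Γ]

/-- The matrix of `ρ σ`. -/
abbrev mat (ρ : Γ →* GL (Fin 2) k) (σ : Γ) : Matrix (Fin 2) (Fin 2) k :=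
  ((ρ σ : GL (Fin 2) k) : Matrix (Fin 2) (Fin 2) k)

/-- The conjugate representation `σ ↦ g * ρ σ * g⁻¹`. -/
def conjBy (g : GL (Fin 2) k) (ρ : Γ →* GL (Fin 2) k) : Γ →* GL (Fin 2) k :=
  (MulAut.conj g).toMonoidHom.comp ρ

@[simp] lemma conjBy_apply (g : GL (Fin 2) k) (ρ : Γ →* GL (Fin 2) k) (σ : Γ) :
    conjBy g ρ σ = g * ρ σ * g⁻¹ := rfl

lemma conjBy_conjBy (g h : GL (Fin 2) k) (ρ : Γ →* GL (Fin 2) k) :
    conjBy g (conjBy h ρ) = conjBy (g * h) ρ := by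
  ext1 σ
  simp only [conjBy_apply, _root_.mul_inv_rev, mul_assoc]

lemma mat_conjBy (g : GL (Fin 2) k) (ρ : Γ →* GL (Fin 2) k) (σ : Γ) :
    mat (conjBy g ρ) σ = (g : Matrix (Fin 2) (Fin 2) k) * mat ρ σ *
      ((g⁻¹ : GL (Fin 2) k) : Matrix (Fin 2) (Fin 2) k) := by
  simp [mat]

lemma mat_mul (ρ : Γ →* GL (Fin 2) k) (σ τ : Γ) : mat ρ (σ * τ) = mat ρ σ * mat ρ τ := by
  simp [mat]

lemma mat_one (ρ : Γ →* GL (Fin 2) k) : mat ρ 1 = 1 := by
  simp [mat]

lemma mat_pow (ρ : Γ →* GL (Fin 2) k) (σ : Γ) (n : ℕ) : mat ρ (σ ^ n) = mat ρ σ ^ n := by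
  simp [mat]

lemma mat_det_ne_zero (ρ : Γ →* GL (Fin 2) k) (σ : Γ) : (mat ρ σ).det ≠ 0 :=
  ((Matrix.isUnit_iff_isUnit_det _).mp (ρ σ).isUnit).ne_zero

lemma mat_eq_one_iff (ρ : Γ →* GL (Fin 2) k) (σ : Γ) : mat ρ σ = 1 ↔ ρ σ = 1 := by
  constructor
  · intro h
    exact Units.ext h
  · intro h
    simp [mat, h]

/-- The hypotheses: `I` = inertia, `W` = wild inertia, `φ` = a Frobenius, as seen by `ρ`. -/
structure Hyp (p : ℕ) (ρ : Γ →* GL (Fin 2) k) (I W : Subgroup Γ) (φ : Γ) : Prop where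
  wild : ∀ w ∈ W, ∃ n : ℕ, ρ w ^ (p ^ n) = 1
  comm : ∀ σ ∈ I, ∀ τ ∈ I, σ * τ * σ⁻¹ * τ⁻¹ ∈ W
  gen : ∀ σ : Γ, ∃ n : ℕ, ∃ ι ∈ I, ρ σ = ρ (φ ^ n * ι)
  frob : ∀ τ ∈ I, (τ ^ p)⁻¹ * (φ * τ * φ⁻¹) ∈ W
  split : ∀ σ : Γ, ∃ a b : k, (mat ρ σ).charpoly = (X - C a) * (X - C b)
  ram : ∃ τ ∈ I, (mat ρ τ).det ^ ((p - 1) / 2) ≠ 1

lemma Hyp.conj {p : ℕ} {ρ : Γ →* GL (Fin 2) k} {I W : Subgroup Γ} {φ : Γ}
    (h : Hyp p ρ I W φ) (g : GL (Fin 2) k) : Hyp p (conjBy g ρ) I W φ where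
  wild w hw := by
    obtain ⟨n, hn⟩ := h.wild w hw
    refine ⟨n, ?_⟩
    rw [conjBy_apply, conj_pow, hn, mul_one, mul_inv_cancel]
  comm := h.comm
  gen σ := by
    obtain ⟨n, ι, hι, e⟩ := h.gen σ
    exact ⟨n, ι, hι, by rw [conjBy_apply, conjBy_apply, e]⟩
  frob := h.frob
  split σ := by
    obtain ⟨a, b, e⟩ := h.split σ
    exact ⟨a, b, by rw [mat_conjBy, Matrix.coe_units_inv, Matrix.charpoly_units_conj, e]⟩
  ram := by
    obtain ⟨τ, hτ, e⟩ := h.ram
    exact ⟨τ, hτ, by rwa [mat_conjBy, Matrix.det_units_conj]⟩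

/-- Upper triangular representations. -/
def IsUpper (ρ : Γ →* GL (Fin 2) k) : Prop := ∀ σ, mat ρ σ 1 0 = 0

/-- Shape (R): upper triangular, the two diagonal characters differ on `I` and are killed by
`p - 1` on `I`. -/
def ShapeR (p : ℕ) (ρ : Γ →* GL (Fin 2) k) (I : Subgroup Γ) : Prop :=
  IsUpper ρ ∧ (∃ τ ∈ I, mat ρ τ 0 0 ≠ mat ρ τ 1 1) ∧
    ∀ τ ∈ I, mat ρ τ 0 0 ^ (p - 1) = 1 ∧ mat ρ τ 1 1 ^ (p - 1) = 1

/-- Shape (I): tame, diagonal on `I` with two different characters, `φ` antidiagonal. -/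
def ShapeI (p : ℕ) (ρ : Γ →* GL (Fin 2) k) (I W : Subgroup Γ) (φ : Γ) : Prop :=
  (∀ w ∈ W, ρ w = 1) ∧ (∀ ι ∈ I, IsDiag (mat ρ ι)) ∧ IsAnti (mat ρ φ) ∧
    (∀ σ, IsDiag (mat ρ σ) ∨ IsAnti (mat ρ σ)) ∧ (∃ τ ∈ I, mat ρ τ 0 0 ≠ mat ρ τ 1 1) ∧
    ∀ τ ∈ I, mat ρ τ 1 1 = mat ρ τ 0 0 ^ p ∧ mat ρ τ 0 0 = mat ρ τ 1 1 ^ p

section Upper

variable {ρ : Γ →* GL (Fin 2) k}

lemma IsUpper.diag_ne_zero (hu : IsUpper ρ) (σ : Γ) : mat ρ σ 0 0 ≠ 0 ∧ mat ρ σ 1 1 ≠ 0 := by
  have h := mat_det_ne_zero ρ σ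
  rw [Matrix.det_fin_two, hu σ, mul_zero, sub_zero] at h
  exact ⟨left_ne_zero_of_mul h, right_ne_zero_of_mul h⟩

/-- The upper left character of an upper triangular representation. -/
noncomputable def IsUpper.chi₁ (hu : IsUpper ρ) : Γ →* kˣ :=
  MonoidHom.mk' (fun σ => Units.mk0 (mat ρ σ 0 0) (hu.diag_ne_zero σ).1) (by
    intro σ τ
    apply Units.ext
    simp only [Units.val_mk0, Units.val_mul]
    rw [mat_mul, mul00, hu τ, mul_zero, add_zero])

/-- The lower right character of an upper triangular representation. -/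
noncomputable def IsUpper.chi₂ (hu : IsUpper ρ) : Γ →* kˣ :=
  MonoidHom.mk' (fun σ => Units.mk0 (mat ρ σ 1 1) (hu.diag_ne_zero σ).2) (by
    intro σ τ
    apply Units.ext
    simp only [Units.val_mk0, Units.val_mul]
    rw [mat_mul, mul11, hu σ, zero_mul, zero_add])

@[simp] lemma IsUpper.chi₁_apply (hu : IsUpper ρ) (σ : Γ) : (hu.chi₁ σ : k) = mat ρ σ 0 0 := rfl

@[simp] lemma IsUpper.chi₂_apply (hu : IsUpper ρ) (σ : Γ) : (hu.chi₂ σ : k) = mat ρ σ 1 1 := rfl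

lemma IsUpper.mat_eq (hu : IsUpper ρ) (σ : Γ) :
    mat ρ σ = !![(hu.chi₁ σ : k), mat ρ σ 0 1; 0, (hu.chi₂ σ : k)] := by
  apply ext2 <;> simp [hu σ]

end Upper

section Main

variable {p : ℕ} [Fact p.Prime] [CharP k p] {ρ : Γ →* GL (Fin 2) k} {I W : Subgroup Γ} {φ : Γ}

/-- A character `χ : Γ →* kˣ` which is killed by a power of `p` on `W` is killed by `p - 1`
on `I`. -/
lemma char_pow_eq_one (h : Hyp p ρ I W φ) (χ : Γ →* kˣ)
    (hχ : ∀ w ∈ W, ∃ n : ℕ, χ w ^ (p ^ n) = 1) {τ : Γ} (hτ : τ ∈ I) : χ τ ^ (p - 1) = 1 := by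
  have hp : p.Prime := Fact.out
  have h1 : χ ((τ ^ p)⁻¹ * (φ * τ * φ⁻¹)) = 1 := by
    obtain ⟨n, hn⟩ := hχ _ (h.frob τ hτ)
    apply Units.ext
    have hn' := congrArg Units.val hn
    rw [Units.val_pow_eq_pow_val, Units.val_one] at hn'
    rw [Units.val_one]
    exact eq_one_of_pow_char_pow p hn'
  have h2 : χ τ ^ p = χ τ := by
    have h3 : (χ τ ^ p)⁻¹ * χ τ = 1 := by
      have : χ ((τ ^ p)⁻¹ * (φ * τ * φ⁻¹)) = (χ τ ^ p)⁻¹ * χ τ := by
        simp only [map_mul, map_inv, map_pow]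
        rw [mul_comm (χ φ) (χ τ), mul_assoc (χ τ), mul_inv_cancel, mul_one]
      rw [← this, h1]
    exact (inv_mul_eq_one.mp h3)
  have h4 : χ τ ^ (p - 1) * χ τ = χ τ := by
    rw [← pow_succ, Nat.sub_add_cancel hp.one_le, h2]
  exact mul_eq_right.mp h4

include p in
/-- An upper triangular representation satisfying the hypotheses has shape (R). -/
lemma shapeR_of_isUpper (hp2 : p ≠ 2) (h : Hyp p ρ I W φ) (hu : IsUpper ρ) : ShapeR p ρ I := by
  have hp : p.Prime := Fact.out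
  have hW : ∀ (χ : Γ →* kˣ), (∀ σ, (χ σ : k) = mat ρ σ 0 0) ∨ (∀ σ, (χ σ : k) = mat ρ σ 1 1) →
      ∀ w ∈ W, ∃ n : ℕ, χ w ^ (p ^ n) = 1 := by
    intro χ hχ w hw
    obtain ⟨n, hn⟩ := h.wild w hw
    refine ⟨n, ?_⟩
    have hn' : mat ρ (w ^ (p ^ n)) = 1 := by
      rw [mat_eq_one_iff, map_pow, hn]
    rw [← map_pow]
    apply Units.ext
    rcases hχ with hχ | hχ
    · rw [hχ, hn']; simp
    · rw [hχ, hn']; simp
  have k1 : ∀ τ ∈ I, mat ρ τ 0 0 ^ (p - 1) = 1 := by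
    intro τ hτ
    have := char_pow_eq_one h hu.chi₁ (hW _ (Or.inl fun σ => rfl)) hτ
    have := congrArg Units.val this
    simpa using this
  have k2 : ∀ τ ∈ I, mat ρ τ 1 1 ^ (p - 1) = 1 := by
    intro τ hτ
    have := char_pow_eq_one h hu.chi₂ (hW _ (Or.inr fun σ => rfl)) hτ
    have := congrArg Units.val this
    simpa using this
  refine ⟨hu, ?_, fun τ hτ => ⟨k1 τ hτ, k2 τ hτ⟩⟩
  by_contra hne
  push Not at hne
  obtain ⟨τ, hτ, hram⟩ := h.ram
  apply hram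
  rw [Matrix.det_fin_two, hu τ, mul_zero, sub_zero, ← hne τ hτ, ← pow_two, ← pow_mul]
  have hodd : 2 * ((p - 1) / 2) = p - 1 := by
    rcases hp.eq_two_or_odd with h2 | h2
    · exact absurd h2 hp2
    · omega
  rw [hodd]
  exact k1 τ hτ

/-- Step 2: if some element of `W` acts as `!![1, a; 0, 1]` with `a ≠ 0`, the representation
is upper triangular. -/
lemma isUpper_of_wild [W.Normal] (h : Hyp p ρ I W φ) {w : Γ} (hw : w ∈ W) {a : k} (ha : a ≠ 0)
    (e00 : mat ρ w 0 0 = 1) (e01 : mat ρ w 0 1 = a) (e10 : mat ρ w 1 0 = 0)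
    (e11 : mat ρ w 1 1 = 1) : IsUpper ρ := by
  intro σ
  have hy : σ * w * σ⁻¹ ∈ W := Subgroup.Normal.conj_mem inferInstance w hw σ
  have htr : ∀ x ∈ W, mat ρ x 0 0 + mat ρ x 1 1 = 2 := by
    intro x hx
    obtain ⟨n, hn⟩ := h.wild x hx
    have hn' : mat ρ x ^ (p ^ n) = 1 := by
      rw [← mat_pow, mat_eq_one_iff, map_pow, hn]
    exact trace_of_pow_char_pow p hn'
  have t1 := htr _ hy
  have t2 := htr _ (W.mul_mem hw hy)
  rw [mat_mul, mul00, mul11, e00, e01, e10, e11] at t2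
  have y10 : mat ρ (σ * w * σ⁻¹) 1 0 = 0 := by
    have : a * mat ρ (σ * w * σ⁻¹) 1 0 = 0 := by linear_combination t2 - t1
    exact (mul_eq_zero.mp this).resolve_left ha
  have rel : mat ρ (σ * w * σ⁻¹) * mat ρ σ = mat ρ σ * mat ρ w := by
    rw [← mat_mul, ← mat_mul]
    congr 1
    group
  have r10 := congrFun (congrFun rel 1) 0
  have r11 := congrFun (congrFun rel 1) 1
  rw [mul10, mul10, y10, e00, e10] at r10
  rw [mul11, mul11, y10, e01, e11] at r11
  by_contra hC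
  have y11 : mat ρ (σ * w * σ⁻¹) 1 1 = 1 := by
    have : (mat ρ (σ * w * σ⁻¹) 1 1 - 1) * mat ρ σ 1 0 = 0 := by linear_combination r10
    have := (mul_eq_zero.mp this).resolve_right hC
    linear_combination this
  rw [y11] at r11
  have : mat ρ σ 1 0 * a = 0 := by linear_combination -r11
  exact hC ((mul_eq_zero.mp this).resolve_right ha)

omit [Fact p.Prime] [CharP k p] in
/-- Commutativity of `ρ` on `I` when `ρ` is trivial on `W`. -/
lemma commute_of_tame (h : Hyp p ρ I W φ) (hW : ∀ w ∈ W, ρ w = 1) {σ τ : Γ} (hσ : σ ∈ I)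
    (hτ : τ ∈ I) : mat ρ σ * mat ρ τ = mat ρ τ * mat ρ σ := by
  have h1 := hW _ (h.comm σ hσ τ hτ)
  have h2 : ρ σ * ρ τ = ρ τ * ρ σ := by
    have : ρ (σ * τ * σ⁻¹ * τ⁻¹) * (ρ τ * ρ σ) = ρ σ * ρ τ := by
      rw [← map_mul, ← map_mul, ← map_mul]
      congr 1
      group
    rw [← this, h1, one_mul]
  have := congrArg (fun g : GL (Fin 2) k => (g : Matrix (Fin 2) (Fin 2) k)) h2
  simpa [mat] using this

omit [Fact p.Prime] [CharP k p] in
/-- Step 3, equal eigenvalues: a non-scalar upper triangular `ρ τ`, `τ ∈ I`, with equal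
diagonal entries forces `ρ` to be upper triangular. -/
lemma isUpper_of_jordan [I.Normal] (h : Hyp p ρ I W φ) (hW : ∀ w ∈ W, ρ w = 1) {τ : Γ}
    (hτ : τ ∈ I) {a c : k} (hc : c ≠ 0) (e00 : mat ρ τ 0 0 = a) (e01 : mat ρ τ 0 1 = c)
    (e10 : mat ρ τ 1 0 = 0) (e11 : mat ρ τ 1 1 = a) : IsUpper ρ := by
  intro σ
  have hy : σ * τ * σ⁻¹ ∈ I := Subgroup.Normal.conj_mem inferInstance τ hτ σ
  have hcomm := commute_of_tame h hW hy hτ
  have c00 := congrFun (congrFun hcomm 0) 0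
  rw [mul00, mul00, e00, e01, e10] at c00
  have y10 : mat ρ (σ * τ * σ⁻¹) 1 0 = 0 := by
    have : c * mat ρ (σ * τ * σ⁻¹) 1 0 = 0 := by linear_combination -c00
    exact (mul_eq_zero.mp this).resolve_left hc
  have rel : mat ρ (σ * τ * σ⁻¹) * mat ρ σ = mat ρ σ * mat ρ τ := by
    rw [← mat_mul, ← mat_mul]
    congr 1
    group
  have r10 := congrFun (congrFun rel 1) 0
  have r11 := congrFun (congrFun rel 1) 1
  rw [mul10, mul10, y10, e00, e10] at r10
  rw [mul11, mul11, y10, e01, e11] at r11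
  by_contra hC
  have y11 : mat ρ (σ * τ * σ⁻¹) 1 1 = a := by
    have : (mat ρ (σ * τ * σ⁻¹) 1 1 - a) * mat ρ σ 1 0 = 0 := by linear_combination r10
    have := (mul_eq_zero.mp this).resolve_right hC
    linear_combination this
  rw [y11] at r11
  have : mat ρ σ 1 0 * c = 0 := by linear_combination -r11
  exact hC ((mul_eq_zero.mp this).resolve_right hc)

omit [Fact p.Prime] [CharP k p] in
/-- Step 3, distinct eigenvalues: if `ρ τ = diag (a, d)` with `a ≠ d` for some `τ ∈ I`, then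
`ρ` is diagonal on `I` and every `ρ σ` is diagonal or antidiagonal. -/
lemma diag_or_anti [I.Normal] (h : Hyp p ρ I W φ) (hW : ∀ w ∈ W, ρ w = 1) {τ : Γ}
    (hτ : τ ∈ I) {a d : k} (had : a ≠ d) (e00 : mat ρ τ 0 0 = a) (e01 : mat ρ τ 0 1 = 0)
    (e10 : mat ρ τ 1 0 = 0) (e11 : mat ρ τ 1 1 = d) :
    (∀ ι ∈ I, IsDiag (mat ρ ι)) ∧ ∀ σ, IsDiag (mat ρ σ) ∨ IsAnti (mat ρ σ) := by
  have had' : a - d ≠ 0 := sub_ne_zero.mpr had
  have hI : ∀ ι ∈ I, IsDiag (mat ρ ι) := by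
    intro ι hι
    have hcomm := commute_of_tame h hW hι hτ
    have c01 := congrFun (congrFun hcomm 0) 1
    have c10 := congrFun (congrFun hcomm 1) 0
    rw [mul01, mul01, e00, e01, e11] at c01
    rw [mul10, mul10, e00, e10, e11] at c10
    constructor
    · have : (a - d) * mat ρ ι 0 1 = 0 := by linear_combination -c01
      exact (mul_eq_zero.mp this).resolve_left had'
    · have : (a - d) * mat ρ ι 1 0 = 0 := by linear_combination c10
      exact (mul_eq_zero.mp this).resolve_left had'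
  refine ⟨hI, fun σ => ?_⟩
  have hy : σ * τ * σ⁻¹ ∈ I := Subgroup.Normal.conj_mem inferInstance τ hτ σ
  obtain ⟨y01, y10⟩ := hI _ hy
  have rel : mat ρ (σ * τ * σ⁻¹) * mat ρ σ = mat ρ σ * mat ρ τ := by
    rw [← mat_mul, ← mat_mul]
    congr 1
    group
  have r00 := congrFun (congrFun rel 0) 0
  have r01 := congrFun (congrFun rel 0) 1
  have r10 := congrFun (congrFun rel 1) 0
  have r11 := congrFun (congrFun rel 1) 1
  rw [mul00, mul00, y01, e00, e10] at r00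
  rw [mul01, mul01, y01, e01, e11] at r01
  rw [mul10, mul10, y10, e00, e10] at r10
  rw [mul11, mul11, y10, e01, e11] at r11
  have hdet := mat_det_ne_zero ρ σ
  rw [Matrix.det_fin_two] at hdet
  by_cases hA : mat ρ σ 0 0 = 0
  · right
    refine ⟨hA, ?_⟩
    rw [hA, zero_mul, zero_sub, neg_ne_zero] at hdet
    have hB := left_ne_zero_of_mul hdet
    have hC := right_ne_zero_of_mul hdet
    have y0 : mat ρ (σ * τ * σ⁻¹) 0 0 = d := by
      have : (mat ρ (σ * τ * σ⁻¹) 0 0 - d) * mat ρ σ 0 1 = 0 := by linear_combination r01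
      have := (mul_eq_zero.mp this).resolve_right hB
      linear_combination this
    have y1 : mat ρ (σ * τ * σ⁻¹) 1 1 = a := by
      have : (mat ρ (σ * τ * σ⁻¹) 1 1 - a) * mat ρ σ 1 0 = 0 := by linear_combination r10
      have := (mul_eq_zero.mp this).resolve_right hC
      linear_combination this
    rw [y1] at r11
    have : (a - d) * mat ρ σ 1 1 = 0 := by linear_combination r11
    exact (mul_eq_zero.mp this).resolve_left had'
  · left
    have y0 : mat ρ (σ * τ * σ⁻¹) 0 0 = a := by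
      have : (mat ρ (σ * τ * σ⁻¹) 0 0 - a) * mat ρ σ 0 0 = 0 := by linear_combination r00
      have := (mul_eq_zero.mp this).resolve_right hA
      linear_combination this
    rw [y0] at r01
    have hB : mat ρ σ 0 1 = 0 := by
      have : (a - d) * mat ρ σ 0 1 = 0 := by linear_combination r01
      exact (mul_eq_zero.mp this).resolve_left had'
    rw [hB, zero_mul, sub_zero] at hdet
    have hD := right_ne_zero_of_mul hdet
    have y1 : mat ρ (σ * τ * σ⁻¹) 1 1 = d := by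
      have : (mat ρ (σ * τ * σ⁻¹) 1 1 - d) * mat ρ σ 1 1 = 0 := by linear_combination r11
      have := (mul_eq_zero.mp this).resolve_right hD
      linear_combination this
    rw [y1] at r10
    have hC : mat ρ σ 1 0 = 0 := by
      have : (a - d) * mat ρ σ 1 0 = 0 := by linear_combination -r10
      exact (mul_eq_zero.mp this).resolve_left had'
    exact ⟨hB, hC⟩

omit [Fact p.Prime] [CharP k p] in
/-- Upper triangular on `I` and at `φ` implies upper triangular. -/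
lemma isUpper_of_gen (h : Hyp p ρ I W φ) (hφ : mat ρ φ 1 0 = 0) (hI : ∀ ι ∈ I, mat ρ ι 1 0 = 0) :
    IsUpper ρ := by
  have hpow : ∀ n : ℕ, mat ρ (φ ^ n) 1 0 = 0 := by
    intro n
    induction n with
    | zero => simp [mat]
    | succ n ih => rw [pow_succ, mat_mul, mul10, ih, hφ]; ring
  intro σ
  obtain ⟨n, ι, hι, e⟩ := h.gen σ
  have : mat ρ σ = mat ρ (φ ^ n * ι) := by rw [mat, e]
  rw [this, mat_mul, mul10, hpow n, hI ι hι]; ring

omit [Fact p.Prime] [CharP k p] in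
/-- Diagonal on `I` and at `φ` implies diagonal. -/
lemma isDiag_of_gen (h : Hyp p ρ I W φ) (hφ : IsDiag (mat ρ φ)) (hI : ∀ ι ∈ I, IsDiag (mat ρ ι)) :
    ∀ σ, IsDiag (mat ρ σ) := by
  intro σ
  obtain ⟨n, ι, hι, e⟩ := h.gen σ
  have : mat ρ σ = mat ρ (φ ^ n * ι) := by rw [mat, e]
  rw [this, mat_mul, mat_pow]
  exact (hφ.pow n).1.mul (hI ι hι)

omit [Fact p.Prime] [CharP k p] in
/-- The Frobenius relation in shape (I). -/
lemma frob_rel (h : Hyp p ρ I W φ) (hW : ∀ w ∈ W, ρ w = 1) (hI : ∀ ι ∈ I, IsDiag (mat ρ ι))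
    (hφ : IsAnti (mat ρ φ)) {τ : Γ} (hτ : τ ∈ I) :
    mat ρ τ 1 1 = mat ρ τ 0 0 ^ p ∧ mat ρ τ 0 0 = mat ρ τ 1 1 ^ p := by
  have h1 := hW _ (h.frob τ hτ)
  have h2 : ρ φ * ρ τ = ρ τ ^ p * ρ φ := by
    have : ρ (τ ^ p) * ρ ((τ ^ p)⁻¹ * (φ * τ * φ⁻¹)) * ρ φ = ρ φ * ρ τ := by
      rw [← map_mul, ← map_mul, ← map_mul]
      congr 1
      group
    rw [← this, h1, mul_one, map_pow]
  have h3 : mat ρ φ * mat ρ τ = mat ρ τ ^ p * mat ρ φ := by
    have := congrArg (fun g : GL (Fin 2) k => (g : Matrix (Fin 2) (Fin 2) k)) h2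
    simpa [mat] using this
  obtain ⟨hd, p00, p11⟩ := (hI τ hτ).pow p
  have r01 := congrFun (congrFun h3 0) 1
  have r10 := congrFun (congrFun h3 1) 0
  rw [mul01, mul01, hφ.1, hφ.2, p00, (hI τ hτ).1] at r01
  rw [mul10, mul10, hφ.1, hφ.2, p11, (hI τ hτ).2] at r10
  have hdet := mat_det_ne_zero ρ φ
  rw [Matrix.det_fin_two, hφ.1, zero_mul, zero_sub, neg_ne_zero] at hdet
  have hu := left_ne_zero_of_mul hdet
  have hv := right_ne_zero_of_mul hdet
  constructor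
  · have : (mat ρ τ 1 1 - mat ρ τ 0 0 ^ p) * mat ρ φ 0 1 = 0 := by linear_combination r01
    have := (mul_eq_zero.mp this).resolve_right hu
    linear_combination this
  · have : (mat ρ τ 0 0 - mat ρ τ 1 1 ^ p) * mat ρ φ 1 0 = 0 := by linear_combination r10
    have := (mul_eq_zero.mp this).resolve_right hv
    linear_combination this

/-- Shapes are transported along conjugation. -/
lemma exists_of_conj {P : (Γ →* GL (Fin 2) k) → Prop} (g : GL (Fin 2) k)
    (H : ∃ g' : GL (Fin 2) k, P (conjBy g' (conjBy g ρ))) : ∃ g'' : GL (Fin 2) k, P (conjBy g'' ρ) := by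
  obtain ⟨g', hg'⟩ := H
  exact ⟨g' * g, by rwa [← conjBy_conjBy]⟩

/-- **Shape of `ρ`** (LF7).  Under the hypotheses `Hyp`, after one conjugation `ρ` has shape
(R) or shape (I). -/
theorem shape (hp2 : p ≠ 2) [I.Normal] [W.Normal] (h : Hyp p ρ I W φ) :
    ∃ g : GL (Fin 2) k, ShapeR p (conjBy g ρ) I ∨ ShapeI p (conjBy g ρ) I W φ := by
  by_cases hW : ∀ w ∈ W, ρ w = 1
  · -- tame case
    by_cases hsc : ∀ ι ∈ I, ∃ c : k, mat ρ ι = c • (1 : Matrix (Fin 2) (Fin 2) k)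
    · -- `ρ` is scalar on `I`: an eigenvector of `ρ φ` spans a stable line
      obtain ⟨a, b, hab⟩ := h.split φ
      obtain ⟨v, hv0, hv⟩ := exists_eigenvector (mat ρ φ) hab
      obtain ⟨g, hg⟩ := exists_conj_col hv0
      refine ⟨g, Or.inl (shapeR_of_isUpper hp2 (h.conj g) (isUpper_of_gen (h.conj g) ?_ ?_))⟩
      · rw [mat_conjBy]
        exact (hg _ _ hv).2
      · intro ι hι
        obtain ⟨c, hc⟩ := hsc ι hι
        rw [mat_conjBy, hc]
        simp [Matrix.one_apply_ne]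
    · push Not at hsc
      obtain ⟨τ, hτ, hns⟩ := hsc
      obtain ⟨a, b, hab⟩ := h.split τ
      obtain ⟨v, hv0, hv⟩ := exists_eigenvector (mat ρ τ) hab
      obtain ⟨g₁, hg₁⟩ := exists_conj_col hv0
      have e00 : mat (conjBy g₁ ρ) τ 0 0 = a := by rw [mat_conjBy]; exact (hg₁ _ _ hv).1
      have e10 : mat (conjBy g₁ ρ) τ 1 0 = 0 := by rw [mat_conjBy]; exact (hg₁ _ _ hv).2
      have h₁ := h.conj g₁
      have hW₁ : ∀ w ∈ W, conjBy g₁ ρ w = 1 := by
        intro w hw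
        rw [conjBy_apply, hW w hw, mul_one, mul_inv_cancel]
      refine exists_of_conj (P := fun ρ' => ShapeR p ρ' I ∨ ShapeI p ρ' I W φ) g₁ ?_
      by_cases had : a = mat (conjBy g₁ ρ) τ 1 1
      · -- equal eigenvalues: Jordan block
        have hc : mat (conjBy g₁ ρ) τ 0 1 ≠ 0 := by
          intro hc
          apply hns a
          have e : mat (conjBy g₁ ρ) τ = a • (1 : Matrix (Fin 2) (Fin 2) k) := by
            apply ext2 <;> simp [e00, e10, hc, ← had]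
          have e' : mat ρ τ = ((g₁⁻¹ : GL (Fin 2) k) : Matrix (Fin 2) (Fin 2) k) *
              mat (conjBy g₁ ρ) τ * (g₁ : Matrix (Fin 2) (Fin 2) k) := by
            rw [mat_conjBy]
            simp [mul_assoc]
          rw [e', e]
          simp
        refine ⟨1, Or.inl (shapeR_of_isUpper hp2 (h₁.conj 1) ?_)⟩
        have hu := isUpper_of_jordan h₁ hW₁ hτ hc e00 rfl e10 had.symm
        intro σ
        rw [mat_conjBy]
        simpa using hu σ
      · -- distinct eigenvalues: diagonalise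
        set c := mat (conjBy g₁ ρ) τ 0 1 with hc
        set d := mat (conjBy g₁ ρ) τ 1 1 with hd
        have hda : d - a ≠ 0 := sub_ne_zero.mpr (Ne.symm had)
        let Q : Matrix (Fin 2) (Fin 2) k := !![1, -c * (d - a)⁻¹; 0, (d - a)⁻¹]
        let P : Matrix (Fin 2) (Fin 2) k := !![1, c; 0, d - a]
        have hQP : Q * P = 1 := by
          apply ext2 <;> simp [Q, P, mul00, mul01, mul10, mul11, hda]
        have hPQ : P * Q = 1 := by
          apply ext2 <;> simp [Q, P, mul00, mul01, mul10, mul11, hda]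
        let g₂ : GL (Fin 2) k := ⟨Q, P, hQP, hPQ⟩
        have hmat : mat (conjBy g₂ (conjBy g₁ ρ)) τ = Q * mat (conjBy g₁ ρ) τ * P := by
          rw [mat_conjBy]
          rfl
        have f00 : mat (conjBy g₂ (conjBy g₁ ρ)) τ 0 0 = a := by
          rw [hmat, mul00, mul00, mul01, e00, e10]
          simp [Q, P]
        have f01 : mat (conjBy g₂ (conjBy g₁ ρ)) τ 0 1 = 0 := by
          rw [hmat, mul01, mul00, mul01, e00, e10, ← hc, ← hd]
          simp only [Q, P, Matrix.of_apply, Matrix.cons_val_zero, Matrix.cons_val_one,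
            Matrix.cons_val', Matrix.cons_val_fin_one]
          field_simp
          ring
        have f10 : mat (conjBy g₂ (conjBy g₁ ρ)) τ 1 0 = 0 := by
          rw [hmat, mul10, mul10, mul11, e00, e10]
          simp [Q, P]
        have f11 : mat (conjBy g₂ (conjBy g₁ ρ)) τ 1 1 = d := by
          rw [hmat, mul11, mul10, mul11, e00, e10, ← hc, ← hd]
          simp only [Q, P, Matrix.of_apply, Matrix.cons_val_zero, Matrix.cons_val_one,
            Matrix.cons_val', Matrix.cons_val_fin_one]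
          field_simp
          ring
        have h₂ := h₁.conj g₂
        have hW₂ : ∀ w ∈ W, conjBy g₂ (conjBy g₁ ρ) w = 1 := by
          intro w hw
          rw [conjBy_apply, hW₁ w hw, mul_one, mul_inv_cancel]
        obtain ⟨hI, hall⟩ := diag_or_anti h₂ hW₂ hτ had f00 f01 f10 f11
        refine ⟨g₂, ?_⟩
        rcases hall φ with hφ | hφ
        · left
          refine shapeR_of_isUpper hp2 h₂ fun σ => (isDiag_of_gen h₂ hφ hI σ).2
        · right
          refine ⟨hW₂, hI, hφ, hall, ⟨τ, hτ, ?_⟩, fun τ' hτ' => frob_rel h₂ hW₂ hI hφ hτ'⟩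
          rw [f00, f11]
          exact had
  · -- some element of `W` acts non-trivially: it is unipotent, and its fixed line is stable
    push Not at hW
    obtain ⟨w, hw, hw1⟩ := hW
    obtain ⟨n, hn⟩ := h.wild w hw
    have hn' : mat ρ w ^ (p ^ n) = 1 := by
      rw [← mat_pow, mat_eq_one_iff, map_pow, hn]
    obtain ⟨v, hv0, hv⟩ := exists_fixed_of_pow_char_pow p hn'
    obtain ⟨g, hg⟩ := exists_conj_col hv0
    have e00 : mat (conjBy g ρ) w 0 0 = 1 := by rw [mat_conjBy]; exact (hg _ _ hv).1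
    have e10 : mat (conjBy g ρ) w 1 0 = 0 := by rw [mat_conjBy]; exact (hg _ _ hv).2
    have h₁ := h.conj g
    have e11 : mat (conjBy g ρ) w 1 1 = 1 := by
      obtain ⟨n₁, hn₁⟩ := h₁.wild w hw
      have hn₁' : mat (conjBy g ρ) w ^ (p ^ n₁) = 1 := by
        rw [← mat_pow, mat_eq_one_iff, map_pow, hn₁]
      have := trace_of_pow_char_pow p hn₁'
      rw [e00] at this
      linear_combination this
    have ha : mat (conjBy g ρ) w 0 1 ≠ 0 := by
      intro ha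
      apply hw1
      have e : conjBy g ρ w = 1 := by
        rw [← mat_eq_one_iff]
        apply ext2 <;> simp [e00, e10, e11, ha]
      rw [conjBy_apply] at e
      have : ρ w = g⁻¹ * (g * ρ w * g⁻¹) * g := by group
      rw [this, e]
      group
    exact ⟨g, Or.inl (shapeR_of_isUpper hp2 h₁ (isUpper_of_wild h₁ hw ha e00 rfl e10 e11))⟩

end Main

/-! ### Consumer API -/

section API

variable {p : ℕ} {ρ : Γ →* GL (Fin 2) k} {I W : Subgroup Γ} {φ : Γ}

/-- Shape (R) with the two diagonal characters as homomorphisms. -/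
theorem ShapeR.exists_chars (h : ShapeR p ρ I) :
    ∃ (χ₁ χ₂ : Γ →* kˣ) (b : Γ → k),
      (∀ σ, mat ρ σ = !![(χ₁ σ : k), b σ; 0, (χ₂ σ : k)]) ∧ (∃ τ ∈ I, χ₁ τ ≠ χ₂ τ) ∧
      ∀ τ ∈ I, χ₁ τ ^ (p - 1) = 1 ∧ χ₂ τ ^ (p - 1) = 1 := by
  obtain ⟨hu, ⟨τ, hτ, hne⟩, hpow⟩ := h
  refine ⟨hu.chi₁, hu.chi₂, fun σ => mat ρ σ 0 1, hu.mat_eq, ⟨τ, hτ, ?_⟩, fun τ' hτ' => ⟨?_, ?_⟩⟩
  · intro e
    exact hne (congrArg Units.val e)
  · apply Units.ext
    simpa using (hpow τ' hτ').1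
  · apply Units.ext
    simpa using (hpow τ' hτ').2

/-- The subgroup of the elements acting diagonally. -/
def diagSub (ρ : Γ →* GL (Fin 2) k) : Subgroup Γ where
  carrier := {σ | IsDiag (mat ρ σ)}
  mul_mem' {σ τ} hσ hτ := by
    change IsDiag (mat ρ (σ * τ))
    rw [mat_mul]
    exact IsDiag.mul hσ hτ
  one_mem' := by
    change IsDiag (mat ρ 1)
    rw [mat_one]
    exact isDiag_one
  inv_mem' {σ} hσ := by
    change IsDiag (mat ρ σ⁻¹)
    have hσ' : IsDiag (mat ρ σ) := hσ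
    have e : mat ρ σ⁻¹ * mat ρ σ = 1 := by
      rw [← mat_mul, inv_mul_cancel, mat_one]
    have hdet := mat_det_ne_zero ρ σ
    rw [Matrix.det_fin_two, hσ'.1, zero_mul, sub_zero] at hdet
    have e01 := congrFun (congrFun e 0) 1
    have e10 := congrFun (congrFun e 1) 0
    rw [mul01, hσ'.1, mul_zero, zero_add, Matrix.one_apply_ne (by decide)] at e01
    rw [mul10, hσ'.2, mul_zero, add_zero, Matrix.one_apply_ne (by decide)] at e10
    exact ⟨(mul_eq_zero.mp e01).resolve_right (right_ne_zero_of_mul hdet),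
      (mul_eq_zero.mp e10).resolve_right (left_ne_zero_of_mul hdet)⟩

lemma mem_diagSub {σ : Γ} : σ ∈ diagSub ρ ↔ IsDiag (mat ρ σ) := Iff.rfl

lemma diagSub_diag_ne_zero (σ : diagSub ρ) : mat ρ σ 0 0 ≠ 0 ∧ mat ρ σ 1 1 ≠ 0 := by
  have hdet := mat_det_ne_zero ρ (σ : Γ)
  have hσ : IsDiag (mat ρ σ) := σ.2
  rw [Matrix.det_fin_two, hσ.1, zero_mul, sub_zero] at hdet
  exact ⟨left_ne_zero_of_mul hdet, right_ne_zero_of_mul hdet⟩

/-- The upper left character of `diagSub ρ`. -/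
noncomputable def psi₁ (ρ : Γ →* GL (Fin 2) k) : diagSub ρ →* kˣ :=
  MonoidHom.mk' (fun σ => Units.mk0 (mat ρ σ 0 0) (diagSub_diag_ne_zero σ).1) (by
    intro σ τ
    apply Units.ext
    have hτ : IsDiag (mat ρ τ) := τ.2
    simp only [Units.val_mk0, Units.val_mul, Subgroup.coe_mul]
    rw [mat_mul, mul00, hτ.2, mul_zero, add_zero])

/-- The lower right character of `diagSub ρ`. -/
noncomputable def psi₂ (ρ : Γ →* GL (Fin 2) k) : diagSub ρ →* kˣ :=
  MonoidHom.mk' (fun σ => Units.mk0 (mat ρ σ 1 1) (diagSub_diag_ne_zero σ).2) (by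
    intro σ τ
    apply Units.ext
    have hσ : IsDiag (mat ρ σ) := σ.2
    simp only [Units.val_mk0, Units.val_mul, Subgroup.coe_mul]
    rw [mat_mul, mul11, hσ.2, zero_mul, zero_add])

@[simp] lemma psi₁_apply (σ : diagSub ρ) : (psi₁ ρ σ : k) = mat ρ σ 0 0 := rfl

@[simp] lemma psi₂_apply (σ : diagSub ρ) : (psi₂ ρ σ : k) = mat ρ σ 1 1 := rfl

lemma mat_eq_of_mem_diagSub (σ : diagSub ρ) :
    mat ρ σ = !![(psi₁ ρ σ : k), 0; 0, (psi₂ ρ σ : k)] := by
  have hσ : IsDiag (mat ρ σ) := σ.2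
  apply ext2 <;> simp [hσ.1, hσ.2]

/-- Shape (I) in subgroup form: `Γ₀ := diagSub ρ` has index two, contains `I`, does not contain
`φ`; `ρ` is `ψ₁ ⊕ ψ₂` on `Γ₀`, the two characters differ on `I`, and conjugation by `φ` swaps
them. -/
theorem ShapeI.diagSub_spec (h : ShapeI p ρ I W φ) :
    I ≤ diagSub ρ ∧ φ ∉ diagSub ρ ∧ (∀ σ, σ ∈ diagSub ρ ∨ φ * σ ∈ diagSub ρ) ∧
      (∀ σ, σ ∈ diagSub ρ → φ * σ * φ⁻¹ ∈ diagSub ρ) ∧
      (∃ τ, ∃ hτ : τ ∈ diagSub ρ, τ ∈ I ∧ psi₁ ρ ⟨τ, hτ⟩ ≠ psi₂ ρ ⟨τ, hτ⟩) ∧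
      (∀ σ (hσ : σ ∈ diagSub ρ) (hσ' : φ * σ * φ⁻¹ ∈ diagSub ρ),
        psi₁ ρ ⟨φ * σ * φ⁻¹, hσ'⟩ = psi₂ ρ ⟨σ, hσ⟩ ∧ psi₂ ρ ⟨φ * σ * φ⁻¹, hσ'⟩ = psi₁ ρ ⟨σ, hσ⟩) := by
  obtain ⟨-, hI, hφ, hall, ⟨τ, hτ, hne⟩, -⟩ := h
  have hdetφ := mat_det_ne_zero ρ φ
  rw [Matrix.det_fin_two, hφ.1, zero_mul, zero_sub, neg_ne_zero] at hdetφ
  have hu := left_ne_zero_of_mul hdetφ
  have hv := right_ne_zero_of_mul hdetφ
  have hconj : ∀ σ, IsDiag (mat ρ σ) → IsDiag (mat ρ (φ * σ * φ⁻¹)) ∧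
      mat ρ (φ * σ * φ⁻¹) 0 0 = mat ρ σ 1 1 ∧ mat ρ (φ * σ * φ⁻¹) 1 1 = mat ρ σ 0 0 := by
    intro σ hσ
    have rel : mat ρ (φ * σ * φ⁻¹) * mat ρ φ = mat ρ φ * mat ρ σ := by
      rw [← mat_mul, ← mat_mul]
      congr 1
      group
    have r00 := congrFun (congrFun rel 0) 0
    have r01 := congrFun (congrFun rel 0) 1
    have r10 := congrFun (congrFun rel 1) 0
    have r11 := congrFun (congrFun rel 1) 1
    rw [mul00, mul00, hφ.1, hσ.2] at r00
    rw [mul01, mul01, hφ.1, hφ.2, hσ.1] at r01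
    rw [mul10, mul10, hφ.1, hφ.2, hσ.2] at r10
    rw [mul11, mul11, hφ.2, hσ.1] at r11
    refine ⟨⟨?_, ?_⟩, ?_, ?_⟩
    · have : mat ρ (φ * σ * φ⁻¹) 0 1 * mat ρ φ 1 0 = 0 := by linear_combination r00
      exact (mul_eq_zero.mp this).resolve_right hv
    · have : mat ρ (φ * σ * φ⁻¹) 1 0 * mat ρ φ 0 1 = 0 := by linear_combination r11
      exact (mul_eq_zero.mp this).resolve_right hu
    · have : (mat ρ (φ * σ * φ⁻¹) 0 0 - mat ρ σ 1 1) * mat ρ φ 0 1 = 0 := by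
        linear_combination r01
      have := (mul_eq_zero.mp this).resolve_right hu
      linear_combination this
    · have : (mat ρ (φ * σ * φ⁻¹) 1 1 - mat ρ σ 0 0) * mat ρ φ 1 0 = 0 := by
        linear_combination r10
      have := (mul_eq_zero.mp this).resolve_right hv
      linear_combination this
  refine ⟨fun ι hι => hI ι hι, ?_, ?_, fun σ hσ => (hconj σ hσ).1, ⟨τ, hI τ hτ, hτ, ?_⟩, ?_⟩
  · intro hd
    have hd' : IsDiag (mat ρ φ) := hd
    exact hu hd'.1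
  · intro σ
    rcases hall σ with hσ | hσ
    · exact Or.inl hσ
    · right
      change IsDiag (mat ρ (φ * σ))
      rw [mat_mul]
      exact hφ.mul_anti hσ
  · intro e
    exact hne (congrArg Units.val e)
  · intro σ hσ hσ'
    obtain ⟨-, e0, e1⟩ := hconj σ hσ
    exact ⟨Units.ext e0, Units.ext e1⟩

end API

end Fermat.Agent.S56.LF.Shape
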