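import Mathlib
import Fermat.Agent.S56.LF.Shape

/-!
# S56 / LF, row C5 (LF7): the shape theorem without the ramification hypothesis

`Shape.shape` needs `ram` (`det ρ` is not a square on inertia) because its reducible branch
also says that the two diagonal characters differ on `I`.  The statement-level row
`ShapeStatement` only asks for a stable line, so here is the same theorem without `ram`:

* `HypL p ρ I W φ` : the five hypotheses `wild`, `comm`, `gen`, `frob`, `split` of `Shape.Hyp`;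
* `shapeL` : after one conjugation `ρ` is upper triangular or has shape (I) (`Shape.ShapeI`).

The proofs are those of `Shape.lean`, which never use `ram` outside `shapeR_of_isUpper`.
-/

set_option autoImplicit false

namespace Fermat.Agent.S56.LF.Shape.Line

open Matrix Polynomial

variable {k : Type*} [Field k] {Γ : Type*} [Group Γ]

/-- The hypotheses of the shape theorem, without `ram`. -/
structure HypL (p : ℕ) (ρ : Γ →* GL (Fin 2) k) (I W : Subgroup Γ) (φ : Γ) : Prop where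
  wild : ∀ w ∈ W, ∃ n : ℕ, ρ w ^ (p ^ n) = 1
  comm : ∀ σ ∈ I, ∀ τ ∈ I, σ * τ * σ⁻¹ * τ⁻¹ ∈ W
  gen : ∀ σ : Γ, ∃ n : ℕ, ∃ ι ∈ I, ρ σ = ρ (φ ^ n * ι)
  frob : ∀ τ ∈ I, (τ ^ p)⁻¹ * (φ * τ * φ⁻¹) ∈ W
  split : ∀ σ : Γ, ∃ a b : k, (mat ρ σ).charpoly = (X - C a) * (X - C b)

lemma HypL.conj {p : ℕ} {ρ : Γ →* GL (Fin 2) k} {I W : Subgroup Γ} {φ : Γ}
    (h : HypL p ρ I W φ) (g : GL (Fin 2) k) : HypL p (conjBy g ρ) I W φ where
  wild w hw := by
    obtain ⟨n, hn⟩ := h.wild w hw
    refine ⟨n, ?_⟩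
    rw [conjBy_apply, conj_pow, hn, mul_one, mul_inv_cancel]
  comm := h.comm
  gen σ := by
    obtain ⟨n, ι, hι, e⟩ := h.gen σ
    exact ⟨n, ι, hι, by rw [conjBy_apply, conjBy_apply, e]⟩
  frob := h.frob
  split σ := by
    obtain ⟨a, b, e⟩ := h.split σ
    exact ⟨a, b, by rw [mat_conjBy, Matrix.coe_units_inv, Matrix.charpoly_units_conj, e]⟩

/-- `Shape.Hyp` gives `HypL`. -/
lemma HypL.of_hyp {p : ℕ} {ρ : Γ →* GL (Fin 2) k} {I W : Subgroup Γ} {φ : Γ}
    (h : Hyp p ρ I W φ) : HypL p ρ I W φ :=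
  ⟨h.wild, h.comm, h.gen, h.frob, h.split⟩

section Main

variable {p : ℕ} [Fact p.Prime] [CharP k p] {ρ : Γ →* GL (Fin 2) k} {I W : Subgroup Γ} {φ : Γ}

/-- Step 2: if some element of `W` acts as `!![1, a; 0, 1]` with `a ≠ 0`, the representation
is upper triangular. -/
lemma isUpper_of_wildL [W.Normal] (h : HypL p ρ I W φ) {w : Γ} (hw : w ∈ W) {a : k} (ha : a ≠ 0)
    (e00 : mat ρ w 0 0 = 1) (e01 : mat ρ w 0 1 = a) (e10 : mat ρ w 1 0 = 0)
    (e11 : mat ρ w 1 1 = 1) : IsUpper ρ := by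
  intro σ
  have hy : σ * w * σ⁻¹ ∈ W := Subgroup.Normal.conj_mem inferInstance w hw σ
  have htr : ∀ x ∈ W, mat ρ x 0 0 + mat ρ x 1 1 = 2 := by
    intro x hx
    obtain ⟨n, hn⟩ := h.wild x hx
    have hn' : mat ρ x ^ (p ^ n) = 1 := by
      rw [← mat_pow, mat_eq_one_iff, map_pow, hn]
    exact trace_of_pow_char_pow p hn'
  have t1 := htr _ hy
  have t2 := htr _ (W.mul_mem hw hy)
  rw [mat_mul, mul00, mul11, e00, e01, e10, e11] at t2
  have y10 : mat ρ (σ * w * σ⁻¹) 1 0 = 0 := by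
    have : a * mat ρ (σ * w * σ⁻¹) 1 0 = 0 := by linear_combination t2 - t1
    exact (mul_eq_zero.mp this).resolve_left ha
  have rel : mat ρ (σ * w * σ⁻¹) * mat ρ σ = mat ρ σ * mat ρ w := by
    rw [← mat_mul, ← mat_mul]
    congr 1
    group
  have r10 := congrFun (congrFun rel 1) 0
  have r11 := congrFun (congrFun rel 1) 1
  rw [mul10, mul10, y10, e00, e10] at r10
  rw [mul11, mul11, y10, e01, e11] at r11
  by_contra hC
  have y11 : mat ρ (σ * w * σ⁻¹) 1 1 = 1 := by
    have : (mat ρ (σ * w * σ⁻¹) 1 1 - 1) * mat ρ σ 1 0 = 0 := by linear_combination r10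
    have := (mul_eq_zero.mp this).resolve_right hC
    linear_combination this
  rw [y11] at r11
  have : mat ρ σ 1 0 * a = 0 := by linear_combination -r11
  exact hC ((mul_eq_zero.mp this).resolve_right ha)

omit [Fact p.Prime] [CharP k p] in
/-- Commutativity of `ρ` on `I` when `ρ` is trivial on `W`. -/
lemma commute_of_tameL (h : HypL p ρ I W φ) (hW : ∀ w ∈ W, ρ w = 1) {σ τ : Γ} (hσ : σ ∈ I)
    (hτ : τ ∈ I) : mat ρ σ * mat ρ τ = mat ρ τ * mat ρ σ := by
  have h1 := hW _ (h.comm σ hσ τ hτ)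
  have h2 : ρ σ * ρ τ = ρ τ * ρ σ := by
    have : ρ (σ * τ * σ⁻¹ * τ⁻¹) * (ρ τ * ρ σ) = ρ σ * ρ τ := by
      rw [← map_mul, ← map_mul, ← map_mul]
      congr 1
      group
    rw [← this, h1, one_mul]
  have := congrArg (fun g : GL (Fin 2) k => (g : Matrix (Fin 2) (Fin 2) k)) h2
  simpa [mat] using this

omit [Fact p.Prime] [CharP k p] in
/-- Step 3, equal eigenvalues: a non-scalar upper triangular `ρ τ`, `τ ∈ I`, with equal
diagonal entries forces `ρ` to be upper triangular. -/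
lemma isUpper_of_jordanL [I.Normal] (h : HypL p ρ I W φ) (hW : ∀ w ∈ W, ρ w = 1) {τ : Γ}
    (hτ : τ ∈ I) {a c : k} (hc : c ≠ 0) (e00 : mat ρ τ 0 0 = a) (e01 : mat ρ τ 0 1 = c)
    (e10 : mat ρ τ 1 0 = 0) (e11 : mat ρ τ 1 1 = a) : IsUpper ρ := by
  intro σ
  have hy : σ * τ * σ⁻¹ ∈ I := Subgroup.Normal.conj_mem inferInstance τ hτ σ
  have hcomm := commute_of_tameL h hW hy hτ
  have c00 := congrFun (congrFun hcomm 0) 0
  rw [mul00, mul00, e00, e01, e10] at c00
  have y10 : mat ρ (σ * τ * σ⁻¹) 1 0 = 0 := by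
    have : c * mat ρ (σ * τ * σ⁻¹) 1 0 = 0 := by linear_combination -c00
    exact (mul_eq_zero.mp this).resolve_left hc
  have rel : mat ρ (σ * τ * σ⁻¹) * mat ρ σ = mat ρ σ * mat ρ τ := by
    rw [← mat_mul, ← mat_mul]
    congr 1
    group
  have r10 := congrFun (congrFun rel 1) 0
  have r11 := congrFun (congrFun rel 1) 1
  rw [mul10, mul10, y10, e00, e10] at r10
  rw [mul11, mul11, y10, e01, e11] at r11
  by_contra hC
  have y11 : mat ρ (σ * τ * σ⁻¹) 1 1 = a := by
    have : (mat ρ (σ * τ * σ⁻¹) 1 1 - a) * mat ρ σ 1 0 = 0 := by linear_combination r10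
    have := (mul_eq_zero.mp this).resolve_right hC
    linear_combination this
  rw [y11] at r11
  have : mat ρ σ 1 0 * c = 0 := by linear_combination -r11
  exact hC ((mul_eq_zero.mp this).resolve_right hc)

omit [Fact p.Prime] [CharP k p] in
/-- Step 3, distinct eigenvalues: if `ρ τ = diag (a, d)` with `a ≠ d` for some `τ ∈ I`, then
`ρ` is diagonal on `I` and every `ρ σ` is diagonal or antidiagonal. -/
lemma diag_or_antiL [I.Normal] (h : HypL p ρ I W φ) (hW : ∀ w ∈ W, ρ w = 1) {τ : Γ}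
    (hτ : τ ∈ I) {a d : k} (had : a ≠ d) (e00 : mat ρ τ 0 0 = a) (e01 : mat ρ τ 0 1 = 0)
    (e10 : mat ρ τ 1 0 = 0) (e11 : mat ρ τ 1 1 = d) :
    (∀ ι ∈ I, IsDiag (mat ρ ι)) ∧ ∀ σ, IsDiag (mat ρ σ) ∨ IsAnti (mat ρ σ) := by
  have had' : a - d ≠ 0 := sub_ne_zero.mpr had
  have hI : ∀ ι ∈ I, IsDiag (mat ρ ι) := by
    intro ι hι
    have hcomm := commute_of_tameL h hW hι hτ
    have c01 := congrFun (congrFun hcomm 0) 1
    have c10 := congrFun (congrFun hcomm 1) 0
    rw [mul01, mul01, e00, e01, e11] at c01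
    rw [mul10, mul10, e00, e10, e11] at c10
    constructor
    · have : (a - d) * mat ρ ι 0 1 = 0 := by linear_combination -c01
      exact (mul_eq_zero.mp this).resolve_left had'
    · have : (a - d) * mat ρ ι 1 0 = 0 := by linear_combination c10
      exact (mul_eq_zero.mp this).resolve_left had'
  refine ⟨hI, fun σ => ?_⟩
  have hy : σ * τ * σ⁻¹ ∈ I := Subgroup.Normal.conj_mem inferInstance τ hτ σ
  obtain ⟨y01, y10⟩ := hI _ hy
  have rel : mat ρ (σ * τ * σ⁻¹) * mat ρ σ = mat ρ σ * mat ρ τ := by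
    rw [← mat_mul, ← mat_mul]
    congr 1
    group
  have r00 := congrFun (congrFun rel 0) 0
  have r01 := congrFun (congrFun rel 0) 1
  have r10 := congrFun (congrFun rel 1) 0
  have r11 := congrFun (congrFun rel 1) 1
  rw [mul00, mul00, y01, e00, e10] at r00
  rw [mul01, mul01, y01, e01, e11] at r01
  rw [mul10, mul10, y10, e00, e10] at r10
  rw [mul11, mul11, y10, e01, e11] at r11
  have hdet := mat_det_ne_zero ρ σ
  rw [Matrix.det_fin_two] at hdet
  by_cases hA : mat ρ σ 0 0 = 0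
  · right
    refine ⟨hA, ?_⟩
    rw [hA, zero_mul, zero_sub, neg_ne_zero] at hdet
    have hB := left_ne_zero_of_mul hdet
    have hC := right_ne_zero_of_mul hdet
    have y0 : mat ρ (σ * τ * σ⁻¹) 0 0 = d := by
      have : (mat ρ (σ * τ * σ⁻¹) 0 0 - d) * mat ρ σ 0 1 = 0 := by linear_combination r01
      have := (mul_eq_zero.mp this).resolve_right hB
      linear_combination this
    have y1 : mat ρ (σ * τ * σ⁻¹) 1 1 = a := by
      have : (mat ρ (σ * τ * σ⁻¹) 1 1 - a) * mat ρ σ 1 0 = 0 := by linear_combination r10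
      have := (mul_eq_zero.mp this).resolve_right hC
      linear_combination this
    rw [y1] at r11
    have : (a - d) * mat ρ σ 1 1 = 0 := by linear_combination r11
    exact (mul_eq_zero.mp this).resolve_left had'
  · left
    have y0 : mat ρ (σ * τ * σ⁻¹) 0 0 = a := by
      have : (mat ρ (σ * τ * σ⁻¹) 0 0 - a) * mat ρ σ 0 0 = 0 := by linear_combination r00
      have := (mul_eq_zero.mp this).resolve_right hA
      linear_combination this
    rw [y0] at r01
    have hB : mat ρ σ 0 1 = 0 := by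
      have : (a - d) * mat ρ σ 0 1 = 0 := by linear_combination r01
      exact (mul_eq_zero.mp this).resolve_left had'
    rw [hB, zero_mul, sub_zero] at hdet
    have hD := right_ne_zero_of_mul hdet
    have y1 : mat ρ (σ * τ * σ⁻¹) 1 1 = d := by
      have : (mat ρ (σ * τ * σ⁻¹) 1 1 - d) * mat ρ σ 1 1 = 0 := by linear_combination r11
      have := (mul_eq_zero.mp this).resolve_right hD
      linear_combination this
    rw [y1] at r10
    have hC : mat ρ σ 1 0 = 0 := by
      have : (a - d) * mat ρ σ 1 0 = 0 := by linear_combination -r10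
      exact (mul_eq_zero.mp this).resolve_left had'
    exact ⟨hB, hC⟩

omit [Fact p.Prime] [CharP k p] in
/-- Upper triangular on `I` and at `φ` implies upper triangular. -/
lemma isUpper_of_genL (h : HypL p ρ I W φ) (hφ : mat ρ φ 1 0 = 0) (hI : ∀ ι ∈ I, mat ρ ι 1 0 = 0) :
    IsUpper ρ := by
  have hpow : ∀ n : ℕ, mat ρ (φ ^ n) 1 0 = 0 := by
    intro n
    induction n with
    | zero => simp [mat]
    | succ n ih => rw [pow_succ, mat_mul, mul10, ih, hφ]; ring
  intro σ
  obtain ⟨n, ι, hι, e⟩ := h.gen σ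
  have : mat ρ σ = mat ρ (φ ^ n * ι) := by rw [mat, e]
  rw [this, mat_mul, mul10, hpow n, hI ι hι]; ring

omit [Fact p.Prime] [CharP k p] in
/-- Diagonal on `I` and at `φ` implies diagonal. -/
lemma isDiag_of_genL (h : HypL p ρ I W φ) (hφ : IsDiag (mat ρ φ)) (hI : ∀ ι ∈ I, IsDiag (mat ρ ι)) :
    ∀ σ, IsDiag (mat ρ σ) := by
  intro σ
  obtain ⟨n, ι, hι, e⟩ := h.gen σ
  have : mat ρ σ = mat ρ (φ ^ n * ι) := by rw [mat, e]
  rw [this, mat_mul, mat_pow]
  exact (hφ.pow n).1.mul (hI ι hι)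

omit [Fact p.Prime] [CharP k p] in
/-- The Frobenius relation in shape (I). -/
lemma frob_relL (h : HypL p ρ I W φ) (hW : ∀ w ∈ W, ρ w = 1) (hI : ∀ ι ∈ I, IsDiag (mat ρ ι))
    (hφ : IsAnti (mat ρ φ)) {τ : Γ} (hτ : τ ∈ I) :
    mat ρ τ 1 1 = mat ρ τ 0 0 ^ p ∧ mat ρ τ 0 0 = mat ρ τ 1 1 ^ p := by
  have h1 := hW _ (h.frob τ hτ)
  have h2 : ρ φ * ρ τ = ρ τ ^ p * ρ φ := by
    have : ρ (τ ^ p) * ρ ((τ ^ p)⁻¹ * (φ * τ * φ⁻¹)) * ρ φ = ρ φ * ρ τ := by
      rw [← map_mul, ← map_mul, ← map_mul]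
      congr 1
      group
    rw [← this, h1, mul_one, map_pow]
  have h3 : mat ρ φ * mat ρ τ = mat ρ τ ^ p * mat ρ φ := by
    have := congrArg (fun g : GL (Fin 2) k => (g : Matrix (Fin 2) (Fin 2) k)) h2
    simpa [mat] using this
  obtain ⟨hd, p00, p11⟩ := (hI τ hτ).pow p
  have r01 := congrFun (congrFun h3 0) 1
  have r10 := congrFun (congrFun h3 1) 0
  rw [mul01, mul01, hφ.1, hφ.2, p00, (hI τ hτ).1] at r01
  rw [mul10, mul10, hφ.1, hφ.2, p11, (hI τ hτ).2] at r10
  have hdet := mat_det_ne_zero ρ φ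
  rw [Matrix.det_fin_two, hφ.1, zero_mul, zero_sub, neg_ne_zero] at hdet
  have hu := left_ne_zero_of_mul hdet
  have hv := right_ne_zero_of_mul hdet
  constructor
  · have : (mat ρ τ 1 1 - mat ρ τ 0 0 ^ p) * mat ρ φ 0 1 = 0 := by linear_combination r01
    have := (mul_eq_zero.mp this).resolve_right hu
    linear_combination this
  · have : (mat ρ τ 0 0 - mat ρ τ 1 1 ^ p) * mat ρ φ 1 0 = 0 := by linear_combination r10
    have := (mul_eq_zero.mp this).resolve_right hv
    linear_combination this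

/-- **Shape of `ρ`, without `ram`.**  Under the hypotheses `HypL`, after one conjugation `ρ` is
upper triangular or has shape (I). -/
theorem shapeL [I.Normal] [W.Normal] (h : HypL p ρ I W φ) :
    ∃ g : GL (Fin 2) k, IsUpper (conjBy g ρ) ∨ ShapeI p (conjBy g ρ) I W φ := by
  by_cases hW : ∀ w ∈ W, ρ w = 1
  · -- tame case
    by_cases hsc : ∀ ι ∈ I, ∃ c : k, mat ρ ι = c • (1 : Matrix (Fin 2) (Fin 2) k)
    · -- `ρ` is scalar on `I`: an eigenvector of `ρ φ` spans a stable line
      obtain ⟨a, b, hab⟩ := h.split φ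
      obtain ⟨v, hv0, hv⟩ := exists_eigenvector (mat ρ φ) hab
      obtain ⟨g, hg⟩ := exists_conj_col hv0
      refine ⟨g, Or.inl (isUpper_of_genL (h.conj g) ?_ ?_)⟩
      · rw [mat_conjBy]
        exact (hg _ _ hv).2
      · intro ι hι
        obtain ⟨c, hc⟩ := hsc ι hι
        rw [mat_conjBy, hc]
        simp [Matrix.one_apply_ne]
    · push Not at hsc
      obtain ⟨τ, hτ, hns⟩ := hsc
      obtain ⟨a, b, hab⟩ := h.split τ
      obtain ⟨v, hv0, hv⟩ := exists_eigenvector (mat ρ τ) hab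
      obtain ⟨g₁, hg₁⟩ := exists_conj_col hv0
      have e00 : mat (conjBy g₁ ρ) τ 0 0 = a := by rw [mat_conjBy]; exact (hg₁ _ _ hv).1
      have e10 : mat (conjBy g₁ ρ) τ 1 0 = 0 := by rw [mat_conjBy]; exact (hg₁ _ _ hv).2
      have h₁ := h.conj g₁
      have hW₁ : ∀ w ∈ W, conjBy g₁ ρ w = 1 := by
        intro w hw
        rw [conjBy_apply, hW w hw, mul_one, mul_inv_cancel]
      refine exists_of_conj (P := fun ρ' => IsUpper ρ' ∨ ShapeI p ρ' I W φ) g₁ ?_
      by_cases had : a = mat (conjBy g₁ ρ) τ 1 1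
      · -- equal eigenvalues: Jordan block
        have hc : mat (conjBy g₁ ρ) τ 0 1 ≠ 0 := by
          intro hc
          apply hns a
          have e : mat (conjBy g₁ ρ) τ = a • (1 : Matrix (Fin 2) (Fin 2) k) := by
            apply ext2 <;> simp [e00, e10, hc, ← had]
          have e' : mat ρ τ = ((g₁⁻¹ : GL (Fin 2) k) : Matrix (Fin 2) (Fin 2) k) *
              mat (conjBy g₁ ρ) τ * (g₁ : Matrix (Fin 2) (Fin 2) k) := by
            rw [mat_conjBy]
            simp [mul_assoc]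
          rw [e', e]
          simp
        refine ⟨1, Or.inl ?_⟩
        have hu := isUpper_of_jordanL h₁ hW₁ hτ hc e00 rfl e10 had.symm
        intro σ
        rw [mat_conjBy]
        simpa using hu σ
      · -- distinct eigenvalues: diagonalise
        set c := mat (conjBy g₁ ρ) τ 0 1 with hc
        set d := mat (conjBy g₁ ρ) τ 1 1 with hd
        have hda : d - a ≠ 0 := sub_ne_zero.mpr (Ne.symm had)
        let Q : Matrix (Fin 2) (Fin 2) k := !![1, -c * (d - a)⁻¹; 0, (d - a)⁻¹]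
        let P : Matrix (Fin 2) (Fin 2) k := !![1, c; 0, d - a]
        have hQP : Q * P = 1 := by
          apply ext2 <;> simp [Q, P, mul00, mul01, mul10, mul11, hda]
        have hPQ : P * Q = 1 := by
          apply ext2 <;> simp [Q, P, mul00, mul01, mul10, mul11, hda]
        let g₂ : GL (Fin 2) k := ⟨Q, P, hQP, hPQ⟩
        have hmat : mat (conjBy g₂ (conjBy g₁ ρ)) τ = Q * mat (conjBy g₁ ρ) τ * P := by
          rw [mat_conjBy]
          rfl
        have f00 : mat (conjBy g₂ (conjBy g₁ ρ)) τ 0 0 = a := by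
          rw [hmat, mul00, mul00, mul01, e00, e10]
          simp [Q, P]
        have f01 : mat (conjBy g₂ (conjBy g₁ ρ)) τ 0 1 = 0 := by
          rw [hmat, mul01, mul00, mul01, e00, e10, ← hc, ← hd]
          simp only [Q, P, Matrix.of_apply, Matrix.cons_val_zero, Matrix.cons_val_one,
            Matrix.cons_val', Matrix.cons_val_fin_one]
          field_simp
          ring
        have f10 : mat (conjBy g₂ (conjBy g₁ ρ)) τ 1 0 = 0 := by
          rw [hmat, mul10, mul10, mul11, e00, e10]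
          simp [Q, P]
        have f11 : mat (conjBy g₂ (conjBy g₁ ρ)) τ 1 1 = d := by
          rw [hmat, mul11, mul10, mul11, e00, e10, ← hc, ← hd]
          simp only [Q, P, Matrix.of_apply, Matrix.cons_val_zero, Matrix.cons_val_one,
            Matrix.cons_val', Matrix.cons_val_fin_one]
          field_simp
          ring
        have h₂ := h₁.conj g₂
        have hW₂ : ∀ w ∈ W, conjBy g₂ (conjBy g₁ ρ) w = 1 := by
          intro w hw
          rw [conjBy_apply, hW₁ w hw, mul_one, mul_inv_cancel]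
        obtain ⟨hI, hall⟩ := diag_or_antiL h₂ hW₂ hτ had f00 f01 f10 f11
        refine ⟨g₂, ?_⟩
        rcases hall φ with hφ | hφ
        · left
          exact fun σ => (isDiag_of_genL h₂ hφ hI σ).2
        · right
          refine ⟨hW₂, hI, hφ, hall, ⟨τ, hτ, ?_⟩, fun τ' hτ' => frob_relL h₂ hW₂ hI hφ hτ'⟩
          rw [f00, f11]
          exact had
  · -- some element of `W` acts non-trivially: it is unipotent, and its fixed line is stable
    push Not at hW
    obtain ⟨w, hw, hw1⟩ := hW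
    obtain ⟨n, hn⟩ := h.wild w hw
    have hn' : mat ρ w ^ (p ^ n) = 1 := by
      rw [← mat_pow, mat_eq_one_iff, map_pow, hn]
    obtain ⟨v, hv0, hv⟩ := exists_fixed_of_pow_char_pow p hn'
    obtain ⟨g, hg⟩ := exists_conj_col hv0
    have e00 : mat (conjBy g ρ) w 0 0 = 1 := by rw [mat_conjBy]; exact (hg _ _ hv).1
    have e10 : mat (conjBy g ρ) w 1 0 = 0 := by rw [mat_conjBy]; exact (hg _ _ hv).2
    have h₁ := h.conj g
    have e11 : mat (conjBy g ρ) w 1 1 = 1 := by
      obtain ⟨n₁, hn₁⟩ := h₁.wild w hw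
      have hn₁' : mat (conjBy g ρ) w ^ (p ^ n₁) = 1 := by
        rw [← mat_pow, mat_eq_one_iff, map_pow, hn₁]
      have := trace_of_pow_char_pow p hn₁'
      rw [e00] at this
      linear_combination this
    have ha : mat (conjBy g ρ) w 0 1 ≠ 0 := by
      intro ha
      apply hw1
      have e : conjBy g ρ w = 1 := by
        rw [← mat_eq_one_iff]
        apply ext2 <;> simp [e00, e10, e11, ha]
      rw [conjBy_apply] at e
      have : ρ w = g⁻¹ * (g * ρ w * g⁻¹) * g := by group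
      rw [this, e]
      group
    exact ⟨g, Or.inl (isUpper_of_wildL h₁ hw ha e00 rfl e10 e11)⟩

end Main

end Fermat.Agent.S56.LF.Shape.Line
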