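import Mathlib
import Fermat.Agent.CFT.Local.UnramPadicAbs
import Fermat.Agent.S56.LF.Shape

/-!
# S56 / LF, row C5 (LF7): inertia and wild inertia at a finite level, by norms

`L` is a finite normal extension of `ℚ_p` inside `ℚ̄_p = PadicAlgCl p`, and
`Gal(ℚ̄_p/ℚ_p)` is `PadicAlgCl p ≃ₐ[ℚ_[p]] PadicAlgCl p`.

* `inertiaAt L` : the automorphisms acting trivially on the residue field of `L`
  (`‖σ x - x‖ < 1` for the integral `x ∈ L`);
* `wildAt L` : the automorphisms with `‖σ x - x‖ < ‖x‖` for all `x ∈ L`, `x ≠ 0`.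

Both are normal subgroups containing the fixing subgroup of `L`, and

* `exists_pow_mem_fixingSubgroup_of_mem_wildAt` : `wildAt L` is a `p`-group modulo `Fix L`;
* `commutator_mem_wildAt` : commutators of elements of `inertiaAt L` lie in `wildAt L`;
* `exists_frobenius` : there is a Frobenius `s` (`‖s x - x ^ p‖ < 1` on the integers of `L`)
  such that every `σ` is `s ^ j * ι` with `ι ∈ inertiaAt L`;
* `frob_conj_mem_wildAt` : `(τ ^ p)⁻¹ * (s * τ * s⁻¹) ∈ wildAt L` for `τ ∈ inertiaAt L`.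

These are exactly the hypotheses `Shape.Hyp` of the abstract shape theorem
(`Fermat.Agent.S56.LF.Shape.shape`); `hyp_of_level` and `shape_of_level` assemble them for a
representation `r` which is trivial on `Fix L`.  No lifting of inertia elements from `L` to
`ℚ̄_p` is needed, because everything is asked at the level `L` only.
-/

set_option autoImplicit false

namespace Fermat.Agent.S56.LF.WildFin

open scoped NNReal NormedField Valued IntermediateField
open IsLocalRing Polynomial Fermat.Agent.CFT.Local Fermat.Agent.CFT.Local.NormedLocal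
  Fermat.Agent.CFT.Local.PadicExt Fermat.Agent.CFT.Local.UnramPadic

variable {p : ℕ} [Fact p.Prime]

/-! ### Norm lemmas in `PadicAlgCl p` -/

section Norm

lemma norm_map (σ : PadicAlgCl p ≃ₐ[ℚ_[p]] PadicAlgCl p) (x : PadicAlgCl p) : ‖σ x‖ = ‖x‖ :=
  norm_algEquiv p σ x

lemma norm_sub_lt_of {a b c : PadicAlgCl p} {C : ℝ} (h1 : ‖a - b‖ < C) (h2 : ‖b - c‖ < C) :
    ‖a - c‖ < C := by
  have : a - c = (a - b) + (b - c) := by ring
  rw [this]
  exact lt_of_le_of_lt (IsUltrametricDist.norm_add_le_max _ _) (max_lt h1 h2)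

/-- Congruent integral elements have congruent powers. -/
lemma norm_pow_sub_pow_lt {x y : PadicAlgCl p} (hx : ‖x‖ ≤ 1) (hy : ‖y‖ ≤ 1) (h : ‖x - y‖ < 1)
    (n : ℕ) : ‖x ^ n - y ^ n‖ < 1 := by
  induction n with
  | zero => simp
  | succ n ih =>
    have e : x ^ (n + 1) - y ^ (n + 1) = (x ^ n - y ^ n) * x + y ^ n * (x - y) := by ring
    rw [e]
    refine lt_of_le_of_lt (IsUltrametricDist.norm_add_le_max _ _) (max_lt ?_ ?_)
    · rw [norm_mul]
      exact lt_of_le_of_lt (mul_le_of_le_one_right (norm_nonneg _) hx) ih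
    · rw [norm_mul, norm_pow]
      exact lt_of_le_of_lt (mul_le_of_le_one_left (norm_nonneg _) (pow_le_one₀ (norm_nonneg _) hy)) h

lemma norm_natCast_of_not_dvd {m : ℕ} (hm : ¬ p ∣ m) : ‖(m : PadicAlgCl p)‖ = 1 := by
  have h : ‖(m : PadicAlgCl p)‖ = ‖(m : ℚ_[p])‖ := by
    rw [← map_natCast (algebraMap ℚ_[p] (PadicAlgCl p)) m, norm_algebraMap']
  rw [h, Padic.norm_natCast_eq_one_iff]
  exact (Nat.Prime.coprime_iff_not_dvd (Fact.out : p.Prime)).mpr hm

end Norm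

/-! ### The two subgroups -/

section Subgroups

variable (L : IntermediateField ℚ_[p] (PadicAlgCl p)) [Normal ℚ_[p] L]

lemma map_mem (σ : PadicAlgCl p ≃ₐ[ℚ_[p]] PadicAlgCl p) {x : PadicAlgCl p} (hx : x ∈ L) :
    σ x ∈ L := by
  have h := AlgEquiv.restrictNormalHom_apply L σ ⟨x, hx⟩
  rw [← h]
  exact SetLike.coe_mem _

/-- Inertia at the level `L`: the automorphisms acting trivially on the residue field of `L`. -/
def inertiaAt : Subgroup (PadicAlgCl p ≃ₐ[ℚ_[p]] PadicAlgCl p) where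
  carrier := {σ | ∀ x ∈ L, ‖x‖ ≤ 1 → ‖σ x - x‖ < 1}
  mul_mem' {σ τ} hσ hτ := by
    intro x hx hx1
    rw [AlgEquiv.mul_apply]
    exact norm_sub_lt_of (hσ (τ x) (map_mem L τ hx) (by rw [norm_map]; exact hx1)) (hτ x hx hx1)
  one_mem' := by
    intro x _ _
    simp
  inv_mem' {σ} hσ := by
    intro x hx hx1
    have hy : σ⁻¹ x ∈ L := map_mem L σ⁻¹ hx
    have h := hσ (σ⁻¹ x) hy (by rw [norm_map]; exact hx1)
    have e : σ (σ⁻¹ x) = x := by
      rw [← AlgEquiv.mul_apply, mul_inv_cancel, AlgEquiv.one_apply]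
    rw [e, norm_sub_rev] at h
    exact h

/-- Wild inertia at the level `L`. -/
def wildAt : Subgroup (PadicAlgCl p ≃ₐ[ℚ_[p]] PadicAlgCl p) where
  carrier := {σ | ∀ x ∈ L, x ≠ 0 → ‖σ x - x‖ < ‖x‖}
  mul_mem' {σ τ} hσ hτ := by
    intro x hx hx0
    rw [AlgEquiv.mul_apply]
    have h0 : τ x ≠ 0 := by simpa using hx0
    have h1 := hσ (τ x) (map_mem L τ hx) h0
    rw [norm_map] at h1
    exact norm_sub_lt_of h1 (hτ x hx hx0)
  one_mem' := by
    intro x _ hx0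
    simpa using hx0
  inv_mem' {σ} hσ := by
    intro x hx hx0
    have hy : σ⁻¹ x ∈ L := map_mem L σ⁻¹ hx
    have hy0 : σ⁻¹ x ≠ 0 := by simpa using hx0
    have h := hσ (σ⁻¹ x) hy hy0
    have e : σ (σ⁻¹ x) = x := by
      rw [← AlgEquiv.mul_apply, mul_inv_cancel, AlgEquiv.one_apply]
    rw [e, norm_sub_rev, norm_map] at h
    exact h

variable {L}

lemma mem_inertiaAt {σ : PadicAlgCl p ≃ₐ[ℚ_[p]] PadicAlgCl p} :
    σ ∈ inertiaAt L ↔ ∀ x ∈ L, ‖x‖ ≤ 1 → ‖σ x - x‖ < 1 := Iff.rfl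

lemma mem_wildAt {σ : PadicAlgCl p ≃ₐ[ℚ_[p]] PadicAlgCl p} :
    σ ∈ wildAt L ↔ ∀ x ∈ L, x ≠ 0 → ‖σ x - x‖ < ‖x‖ := Iff.rfl

variable (L)

lemma fixingSubgroup_le_wildAt : L.fixingSubgroup ≤ wildAt L := by
  intro σ hσ x hx hx0
  rw [(IntermediateField.mem_fixingSubgroup_iff L σ).mp hσ x hx, sub_self, norm_zero]
  exact norm_pos_iff.mpr hx0

lemma wildAt_le_inertiaAt : wildAt L ≤ inertiaAt L := by
  intro σ hσ x hx hx1
  by_cases hx0 : x = 0
  · simp [hx0]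
  · exact lt_of_lt_of_le (hσ x hx hx0) hx1

instance normal_inertiaAt : (inertiaAt L).Normal := by
  constructor
  intro σ hσ g x hx hx1
  have hy : g⁻¹ x ∈ L := map_mem L g⁻¹ hx
  have h := hσ (g⁻¹ x) hy (by rw [norm_map]; exact hx1)
  have e : (g * σ * g⁻¹) x - x = g (σ (g⁻¹ x) - g⁻¹ x) := by
    rw [map_sub, AlgEquiv.mul_apply, AlgEquiv.mul_apply, ← AlgEquiv.mul_apply g g⁻¹,
      mul_inv_cancel, AlgEquiv.one_apply]
  rw [e, norm_map]
  exact h

instance normal_wildAt : (wildAt L).Normal := by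
  constructor
  intro σ hσ g x hx hx0
  have hy : g⁻¹ x ∈ L := map_mem L g⁻¹ hx
  have hy0 : g⁻¹ x ≠ 0 := by simpa using hx0
  have h := hσ (g⁻¹ x) hy hy0
  have e : (g * σ * g⁻¹) x - x = g (σ (g⁻¹ x) - g⁻¹ x) := by
    rw [map_sub, AlgEquiv.mul_apply, AlgEquiv.mul_apply, ← AlgEquiv.mul_apply g g⁻¹,
      mul_inv_cancel, AlgEquiv.one_apply]
  rw [e, norm_map]
  rw [norm_map] at h
  exact h

/-- Commutators of inertia elements are wild: the tame character is a homomorphism. -/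
theorem commutator_mem_wildAt {σ τ : PadicAlgCl p ≃ₐ[ℚ_[p]] PadicAlgCl p}
    (hσ : σ ∈ inertiaAt L) (hτ : τ ∈ inertiaAt L) : σ * τ * σ⁻¹ * τ⁻¹ ∈ wildAt L := by
  intro x hx hx0
  set y := σ⁻¹ (τ⁻¹ x) with hy
  have hyL : y ∈ L := map_mem L σ⁻¹ (map_mem L τ⁻¹ hx)
  have hy0 : y ≠ 0 := by simpa [hy] using hx0
  have hyn : ‖y‖ = ‖x‖ := by rw [hy, norm_map, norm_map]
  have e1 : (σ * τ * σ⁻¹ * τ⁻¹) x = σ (τ y) := by
    simp only [AlgEquiv.mul_apply, hy]
  have e2 : x = τ (σ y) := by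
    rw [hy, ← AlgEquiv.mul_apply σ σ⁻¹, mul_inv_cancel, AlgEquiv.one_apply,
      ← AlgEquiv.mul_apply τ τ⁻¹, mul_inv_cancel, AlgEquiv.one_apply]
  set a := σ y / y with ha
  set b := τ y / y with hb
  have haL : a ∈ L := L.div_mem (map_mem L σ hyL) hyL
  have hbL : b ∈ L := L.div_mem (map_mem L τ hyL) hyL
  have han : ‖a‖ = 1 := by rw [ha, norm_div, norm_map, div_self (norm_ne_zero_iff.mpr hy0)]
  have hbn : ‖b‖ = 1 := by rw [hb, norm_div, norm_map, div_self (norm_ne_zero_iff.mpr hy0)]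
  have hσy : σ y = a * y := by rw [ha, div_mul_cancel₀ _ hy0]
  have hτy : τ y = b * y := by rw [hb, div_mul_cancel₀ _ hy0]
  have key : σ (τ y) - τ (σ y) = ((σ b - b) * a - (τ a - a) * b) * y := by
    rw [hτy, hσy, map_mul, map_mul, hσy, hτy]
    ring
  have h1 : ‖(σ b - b) * a‖ < 1 := by
    rw [norm_mul, han, mul_one]
    exact hσ b hbL hbn.le
  have h2 : ‖(τ a - a) * b‖ < 1 := by
    rw [norm_mul, hbn, mul_one]
    exact hτ a haL han.le
  have h3 : ‖(σ b - b) * a - (τ a - a) * b‖ < 1 := by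
    rw [sub_eq_add_neg]
    refine lt_of_le_of_lt (IsUltrametricDist.norm_add_le_max _ _) (max_lt h1 ?_)
    rw [norm_neg]
    exact h2
  have e3 : σ (τ y) - x = σ (τ y) - τ (σ y) := by rw [← e2]
  rw [e1, e3, key, norm_mul, hyn]
  exact mul_lt_of_lt_one_left (norm_pos_iff.mpr hx0) h3

/-- The powers of an inertia element act on `x` by the powers of the tame character. -/
lemma norm_pow_apply_sub_lt {τ : PadicAlgCl p ≃ₐ[ℚ_[p]] PadicAlgCl p} (hτ : τ ∈ inertiaAt L)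
    {x : PadicAlgCl p} (hx : x ∈ L) (hx0 : x ≠ 0) (n : ℕ) :
    ‖(τ ^ n) x - (τ x / x) ^ n * x‖ < ‖x‖ := by
  set b := τ x / x with hb
  have hbL : b ∈ L := L.div_mem (map_mem L τ hx) hx
  have hbn : ‖b‖ = 1 := by rw [hb, norm_div, norm_map, div_self (norm_ne_zero_iff.mpr hx0)]
  have hτx : τ x = b * x := by rw [hb, div_mul_cancel₀ _ hx0]
  induction n with
  | zero => simpa using hx0
  | succ n ih =>
    have e : (τ ^ (n + 1)) x - b ^ (n + 1) * x =
        τ ((τ ^ n) x - b ^ n * x) + ((τ b) ^ n - b ^ n) * (b * x) := by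
      rw [pow_succ', AlgEquiv.mul_apply, map_sub, map_mul, map_pow, hτx]
      ring
    rw [e]
    refine lt_of_le_of_lt (IsUltrametricDist.norm_add_le_max _ _) (max_lt ?_ ?_)
    · rw [norm_map]
      exact ih
    · rw [norm_mul, norm_mul, hbn, one_mul]
      have h1 : ‖τ b ^ n - b ^ n‖ < 1 :=
        norm_pow_sub_pow_lt (by rw [norm_map]; exact hbn.le) hbn.le (hτ b hbL hbn.le) n
      exact mul_lt_of_lt_one_left (norm_pos_iff.mpr hx0) h1

/-- **Frobenius acts on tame inertia by the `p`-th power.** -/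
theorem frob_conj_mem_wildAt {s τ : PadicAlgCl p ≃ₐ[ℚ_[p]] PadicAlgCl p}
    (hs : ∀ x ∈ L, ‖x‖ ≤ 1 → ‖s x - x ^ p‖ < 1) (hτ : τ ∈ inertiaAt L) :
    (τ ^ p)⁻¹ * (s * τ * s⁻¹) ∈ wildAt L := by
  intro x hx hx0
  have hxpos : 0 < ‖x‖ := norm_pos_iff.mpr hx0
  set y := s⁻¹ x with hy
  have hyL : y ∈ L := map_mem L s⁻¹ hx
  have hy0 : y ≠ 0 := by simpa [hy] using hx0
  have hyn : ‖y‖ = ‖x‖ := by rw [hy, norm_map]
  have hsy : s y = x := by
    rw [hy, ← AlgEquiv.mul_apply, mul_inv_cancel, AlgEquiv.one_apply]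
  set a := τ y / y with ha
  have haL : a ∈ L := L.div_mem (map_mem L τ hyL) hyL
  have han : ‖a‖ = 1 := by rw [ha, norm_div, norm_map, div_self (norm_ne_zero_iff.mpr hy0)]
  have hτy : τ y = a * y := by rw [ha, div_mul_cancel₀ _ hy0]
  set b := τ x / x with hb
  have hbn : ‖b‖ = 1 := by rw [hb, norm_div, norm_map, div_self (norm_ne_zero_iff.mpr hx0)]
  -- `a ≡ b`
  set u := x / y with hu
  have huL : u ∈ L := L.div_mem hx hyL
  have hun : ‖u‖ = 1 := by rw [hu, norm_div, hyn, div_self (norm_ne_zero_iff.mpr hx0)]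
  have hu0 : u ≠ 0 := by
    intro h
    rw [h, norm_zero] at hun
    exact zero_ne_one hun
  have hxu : x = u * y := by rw [hu, div_mul_cancel₀ _ hy0]
  have hab : ‖b - a‖ < 1 := by
    have e : b - a = (τ u - u) / u * a := by
      rw [hb]
      nth_rewrite 1 [hxu]
      rw [map_mul, hτy, hxu]
      field_simp
    rw [e, norm_mul, norm_div, han, hun, div_one, mul_one]
    exact hτ u huL hun.le
  -- the three congruences
  have h1 : ‖s a - a ^ p‖ < 1 := hs a haL han.le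
  have h2 : ‖a ^ p - b ^ p‖ < 1 := by
    rw [norm_sub_rev]
    exact norm_pow_sub_pow_lt hbn.le han.le hab p
  have h3 : ‖(τ ^ p) x - b ^ p * x‖ < ‖x‖ := norm_pow_apply_sub_lt L hτ hx hx0 p
  have e1 : ((τ ^ p)⁻¹ * (s * τ * s⁻¹)) x - x = (τ ^ p)⁻¹ (s (τ y) - (τ ^ p) x) := by
    rw [map_sub, ← AlgEquiv.mul_apply (τ ^ p)⁻¹ (τ ^ p), inv_mul_cancel, AlgEquiv.one_apply]
    simp only [AlgEquiv.mul_apply, hy]
  have e2 : s (τ y) - (τ ^ p) x = ((s a - a ^ p) + (a ^ p - b ^ p)) * x - ((τ ^ p) x - b ^ p * x) := by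
    rw [hτy, map_mul, hsy]
    ring
  rw [e1, norm_map, e2, sub_eq_add_neg]
  refine lt_of_le_of_lt (IsUltrametricDist.norm_add_le_max _ _) (max_lt ?_ ?_)
  · rw [norm_mul]
    refine mul_lt_of_lt_one_left hxpos ?_
    exact lt_of_le_of_lt (IsUltrametricDist.norm_add_le_max _ _) (max_lt h1 h2)
  · rw [norm_neg]
    exact h3

variable [FiniteDimensional ℚ_[p] L]

/-- **`wildAt L` is a `p`-group modulo the fixing subgroup of `L`.** -/
theorem exists_pow_mem_fixingSubgroup_of_mem_wildAt {w : PadicAlgCl p ≃ₐ[ℚ_[p]] PadicAlgCl p}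
    (hw : w ∈ wildAt L) : ∃ a : ℕ, w ^ (p ^ a) ∈ L.fixingSubgroup := by
  have hp : p.Prime := Fact.out
  -- a power of `w` fixes `L`
  let R := AlgEquiv.restrictNormalHom (F := ℚ_[p]) (K₁ := PadicAlgCl p) L
  have hfin : IsOfFinOrder (R w) := isOfFinOrder_of_finite _
  have hN : 0 < orderOf (R w) := hfin.orderOf_pos
  have hfix : ∀ x ∈ L, (w ^ orderOf (R w)) x = x := by
    intro x hx
    have h1 : R (w ^ orderOf (R w)) = 1 := by rw [map_pow, pow_orderOf_eq_one]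
    have h2 := AlgEquiv.restrictNormalHom_apply L (w ^ orderOf (R w)) ⟨x, hx⟩
    rw [← h2]
    change ((R (w ^ orderOf (R w)) ⟨x, hx⟩ : L) : PadicAlgCl p) = x
    rw [h1]
    rfl
  obtain ⟨a, m, hm, hNm⟩ := Nat.exists_eq_pow_mul_and_not_dvd hN.ne' p hp.ne_one
  refine ⟨a, ?_⟩
  set w' := w ^ (p ^ a) with hw'
  have hw'W : w' ∈ wildAt L := Subgroup.pow_mem _ hw _
  have hw'm : ∀ x ∈ L, (w' ^ m) x = x := by
    intro x hx
    rw [hw', ← pow_mul, ← hNm]
    exact hfix x hx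
  have hm0 : m ≠ 0 := by
    rintro rfl
    exact hm (dvd_zero p)
  rw [IntermediateField.mem_fixingSubgroup_iff]
  intro x hx
  by_contra hne
  set u := w' x - x with hu
  have hu0 : u ≠ 0 := sub_ne_zero.mpr hne
  have huL : u ∈ L := L.sub_mem (map_mem L w' hx) hx
  have hsum : ∑ i ∈ Finset.range m, (w' ^ i) u = 0 := by
    have e : ∀ i, (w' ^ i) u = (w' ^ (i + 1)) x - (w' ^ i) x := by
      intro i
      rw [hu, map_sub, pow_succ, AlgEquiv.mul_apply]
    simp only [e]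
    rw [Finset.sum_range_sub (fun i => (w' ^ i) x), hw'm x hx, pow_zero, AlgEquiv.one_apply,
      sub_self]
  have hmu : (m : PadicAlgCl p) * u = ∑ i ∈ Finset.range m, (u - (w' ^ i) u) := by
    rw [Finset.sum_sub_distrib, hsum, sub_zero, Finset.sum_const, Finset.card_range,
      nsmul_eq_mul]
  have hlt : ‖∑ i ∈ Finset.range m, (u - (w' ^ i) u)‖ < ‖u‖ := by
    obtain ⟨i, -, hi⟩ := IsUltrametricDist.exists_norm_finsetSum_le_of_nonempty
      (Finset.nonempty_range_iff.mpr hm0) (fun i => u - (w' ^ i) u)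
    refine lt_of_le_of_lt hi ?_
    rw [norm_sub_rev]
    exact (Subgroup.pow_mem _ hw'W i) u huL hu0
  rw [← hmu, norm_mul, norm_natCast_of_not_dvd hm, one_mul] at hlt
  exact lt_irrefl _ hlt

omit [Normal ℚ_[p] L] in
/-- **Teichmüller representatives in `L`.** -/
theorem exists_teichmuller {x : PadicAlgCl p} (hx : x ∈ L) (hx1 : ‖x‖ ≤ 1) :
    ∃ ζ ∈ L, ζ ^ Nat.card 𝓀[L] = ζ ∧ ‖x - ζ‖ < 1 := by
  let x' : L := ⟨x, hx⟩
  have hx' : x' ∈ 𝒪[L] := Valued.integer.mem_iff.mpr hx1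
  let xO : 𝒪[L] := ⟨x', hx'⟩
  let _ := Fintype.ofFinite 𝓀[L]
  have hQ1 : 1 < Nat.card 𝓀[L] := Unramified.one_lt_card_residueField (K := L)
  have hmonic : (X ^ Nat.card 𝓀[L] - X : 𝒪[L][X]).Monic :=
    monic_X_pow_sub (by rw [degree_X]; exact_mod_cast hQ1)
  have hpow : ∀ y : 𝓀[L], y ^ Nat.card 𝓀[L] = y := by
    intro y
    rw [Nat.card_eq_fintype_card]
    exact FiniteField.pow_card y
  have hcast : ((Nat.card 𝓀[L] : ℕ) : 𝓀[L]) = 0 := by
    rw [Nat.card_eq_fintype_card]; exact Nat.cast_card_eq_zero _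
  have heval : (X ^ Nat.card 𝓀[L] - X : 𝒪[L][X]).eval xO ∈ 𝓂[L] := by
    rw [← IsLocalRing.residue_eq_zero_iff]
    simp only [eval_sub, eval_pow, eval_X, map_sub, map_pow]
    rw [hpow, sub_self]
  have hder : IsUnit ((X ^ Nat.card 𝓀[L] - X : 𝒪[L][X]).derivative.eval xO) := by
    rw [← IsLocalRing.notMem_maximalIdeal, ← IsLocalRing.residue_eq_zero_iff]
    simp only [derivative_X_pow, derivative_X, eval_sub, eval_mul, eval_pow,
      eval_X, eval_one, map_sub, map_mul, map_pow, map_one, map_natCast, eval_natCast]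
    rw [hcast, zero_mul, zero_sub]
    exact neg_ne_zero.mpr one_ne_zero
  obtain ⟨ζO, hroot, hmem⟩ := HenselianLocalRing.is_henselian _ hmonic xO heval hder
  have hζQ : ζO ^ Nat.card 𝓀[L] = ζO := by
    have := hroot
    rw [IsRoot.def, eval_sub, eval_pow, eval_X, sub_eq_zero] at this
    exact this
  have hres : IsLocalRing.residue 𝒪[L] xO = IsLocalRing.residue 𝒪[L] ζO := by
    rw [← sub_eq_zero, ← map_sub, IsLocalRing.residue_eq_zero_iff, ← neg_sub]
    exact neg_mem hmem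
  have hlt : ‖(xO : L) - (ζO : L)‖ < 1 := (Unramified.residue_eq_iff_norm_sub_lt_one xO ζO).mp hres
  refine ⟨((ζO : L) : PadicAlgCl p), (ζO : L).2, ?_, hlt⟩
  exact congrArg (fun z : 𝒪[L] => ((z : L) : PadicAlgCl p)) hζQ

/-- **Frobenius and inertia generate.**  There is `s` with `s x ≡ x ^ p` on the integers of `L`
such that every `σ` is `s ^ j * ι` with `ι ∈ inertiaAt L`. -/
theorem exists_frobenius :
    ∃ s : PadicAlgCl p ≃ₐ[ℚ_[p]] PadicAlgCl p,
      (∀ x ∈ L, ‖x‖ ≤ 1 → ‖s x - x ^ p‖ < 1) ∧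
      ∀ σ : PadicAlgCl p ≃ₐ[ℚ_[p]] PadicAlgCl p, ∃ j : ℕ, (s ^ j)⁻¹ * σ ∈ inertiaAt L := by
  have hQf : Nat.card 𝓀[L] = p ^ (𝓂[L]).inertiaDeg 𝒪[ℚ_[p]] := card_residueField_eq_prime_pow L
  have hQ1 : 1 < Nat.card 𝓀[L] := Unramified.one_lt_card_residueField (K := L)
  have hf0 : 0 < (𝓂[L]).inertiaDeg 𝒪[ℚ_[p]] := by
    rcases Nat.eq_zero_or_pos ((𝓂[L]).inertiaDeg 𝒪[ℚ_[p]]) with h | h
    · rw [h, pow_zero] at hQf; omega
    · exact h
  obtain ⟨s, hs, hgen⟩ := exists_frobenius_padic (q := p) hf0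
  -- Teichmüller representatives are `0` or roots of unity of order dividing `p ^ f - 1`
  have hroot : ∀ ζ : PadicAlgCl p, ζ ^ Nat.card 𝓀[L] = ζ → ζ ≠ 0 →
      ζ ^ (p ^ (𝓂[L]).inertiaDeg 𝒪[ℚ_[p]] - 1) = 1 := by
    intro ζ hζ h0
    rw [← hQf]
    have h2 : ζ * ζ ^ (Nat.card 𝓀[L] - 1) = ζ * 1 := by
      rw [← pow_succ', mul_one, Nat.sub_add_cancel hQ1.le]
      exact hζ
    exact mul_left_cancel₀ h0 h2
  refine ⟨s, ?_, ?_⟩
  · intro x hx hx1
    obtain ⟨ζ, hζL, hζ, hlt⟩ := exists_teichmuller L hx hx1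
    have hsζ : s ζ = ζ ^ p := by
      by_cases h0 : ζ = 0
      · rw [h0, map_zero, zero_pow (Fact.out : p.Prime).ne_zero]
      · exact hs ζ (hroot ζ hζ h0)
    have hζ1 : ‖ζ‖ ≤ 1 := by
      have e : ζ = x + -(x - ζ) := by ring
      rw [e]
      refine le_trans (IsUltrametricDist.norm_add_le_max _ _) (max_le hx1 ?_)
      rw [norm_neg]
      exact hlt.le
    have e : s x - x ^ p = s (x - ζ) + (ζ ^ p - x ^ p) := by
      rw [map_sub, hsζ]
      ring
    rw [e]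
    refine lt_of_le_of_lt (IsUltrametricDist.norm_add_le_max _ _) (max_lt ?_ ?_)
    · rw [norm_map]
      exact hlt
    · exact norm_pow_sub_pow_lt hζ1 hx1 (by rw [norm_sub_rev]; exact hlt) p
  · intro σ
    obtain ⟨j, -, hj⟩ := hgen σ
    refine ⟨j, ?_⟩
    intro x hx hx1
    obtain ⟨ζ, hζL, hζ, hlt⟩ := exists_teichmuller L hx hx1
    have hιζ : ((s ^ j)⁻¹ * σ) ζ = ζ := by
      by_cases h0 : ζ = 0
      · rw [h0, map_zero]
      · rw [AlgEquiv.mul_apply, hj ζ (hroot ζ hζ h0), ← AlgEquiv.mul_apply, inv_mul_cancel,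
          AlgEquiv.one_apply]
    have e : ((s ^ j)⁻¹ * σ) x - x = ((s ^ j)⁻¹ * σ) (x - ζ) + -(x - ζ) := by
      rw [map_sub, hιζ]
      ring
    rw [e]
    refine lt_of_le_of_lt (IsUltrametricDist.norm_add_le_max _ _) (max_lt ?_ ?_)
    · rw [norm_map]
      exact hlt
    · rw [norm_neg]
      exact hlt

/-! ### The hypotheses of the shape theorem at the level `L` -/

open Fermat.Agent.S56.LF.Shape in
/-- The hypotheses `Shape.Hyp` hold at the level `L` for every representation `r` which is trivial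
on the fixing subgroup of `L`, has split characteristic polynomials and is ramified in the sense
`ram` (= `det r` is the mod `p` cyclotomic character). -/
theorem hyp_of_level {k : Type*} [Field k]
    (r : (PadicAlgCl p ≃ₐ[ℚ_[p]] PadicAlgCl p) →* GL (Fin 2) k)
    (hL : ∀ σ ∈ L.fixingSubgroup, r σ = 1)
    (hsplit : ∀ σ, ∃ a b : k, (mat r σ).charpoly = (X - C a) * (X - C b))
    (hram : ∃ τ ∈ inertiaAt L, (mat r τ).det ^ ((p - 1) / 2) ≠ 1) :
    ∃ s : PadicAlgCl p ≃ₐ[ℚ_[p]] PadicAlgCl p,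
      (∀ x ∈ L, ‖x‖ ≤ 1 → ‖s x - x ^ p‖ < 1) ∧ Hyp p r (inertiaAt L) (wildAt L) s := by
  obtain ⟨s, hs, hgen⟩ := exists_frobenius L
  refine ⟨s, hs, ?_⟩
  refine
    { wild := ?_
      comm := fun σ hσ τ hτ => commutator_mem_wildAt L hσ hτ
      gen := ?_
      frob := fun τ hτ => frob_conj_mem_wildAt L hs hτ
      split := hsplit
      ram := hram }
  · intro w hw
    obtain ⟨a, ha⟩ := exists_pow_mem_fixingSubgroup_of_mem_wildAt L hw
    exact ⟨a, by rw [← map_pow]; exact hL _ ha⟩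
  · intro σ
    obtain ⟨j, hj⟩ := hgen σ
    refine ⟨j, (s ^ j)⁻¹ * σ, hj, ?_⟩
    rw [mul_inv_cancel_left]

open Fermat.Agent.S56.LF.Shape in
/-- **Shape of a two-dimensional mod `p` representation of `Gal(ℚ̄_p/ℚ_p)` of level `L`.** -/
theorem shape_of_level {k : Type*} [Field k] [CharP k p] (hp2 : p ≠ 2)
    (r : (PadicAlgCl p ≃ₐ[ℚ_[p]] PadicAlgCl p) →* GL (Fin 2) k)
    (hL : ∀ σ ∈ L.fixingSubgroup, r σ = 1)
    (hsplit : ∀ σ, ∃ a b : k, (mat r σ).charpoly = (X - C a) * (X - C b))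
    (hram : ∃ τ ∈ inertiaAt L, (mat r τ).det ^ ((p - 1) / 2) ≠ 1) :
    ∃ (s : PadicAlgCl p ≃ₐ[ℚ_[p]] PadicAlgCl p) (g : GL (Fin 2) k),
      (∀ x ∈ L, ‖x‖ ≤ 1 → ‖s x - x ^ p‖ < 1) ∧
      (∀ σ, ∃ j : ℕ, (s ^ j)⁻¹ * σ ∈ inertiaAt L) ∧
      (ShapeR p (conjBy g r) (inertiaAt L) ∨ ShapeI p (conjBy g r) (inertiaAt L) (wildAt L) s) := by
  obtain ⟨s, hs, hgen⟩ := exists_frobenius L
  have h : Hyp p r (inertiaAt L) (wildAt L) s :=
    { wild := by
        intro w hw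
        obtain ⟨a, ha⟩ := exists_pow_mem_fixingSubgroup_of_mem_wildAt L hw
        exact ⟨a, by rw [← map_pow]; exact hL _ ha⟩
      comm := fun σ hσ τ hτ => commutator_mem_wildAt L hσ hτ
      gen := by
        intro σ
        obtain ⟨j, hj⟩ := hgen σ
        exact ⟨j, (s ^ j)⁻¹ * σ, hj, by rw [mul_inv_cancel_left]⟩
      frob := fun τ hτ => frob_conj_mem_wildAt L hs hτ
      split := hsplit
      ram := hram }
  obtain ⟨g, hg⟩ := shape hp2 h
  exact ⟨s, g, hs, hgen, hg⟩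

end Subgroups

end Fermat.Agent.S56.LF.WildFin
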