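import Mathlib
import Fermat.Agent.S56.LF.WildFin
import Fermat.Agent.S56.LF.ShapeLine

/-!
# S56 / LF, row C5 (LF7): the shape of a two-dimensional mod `p` representation of `Gal(ℚ̄_p/ℚ_p)`

Vocabulary of `Flat/Defs.lean` (`Gp p = PadicAlgCl p ≃ₐ[ℚ_[p]] PadicAlgCl p`, matrix valued
homomorphisms, finite level through an intermediate field, split characteristic polynomials).

* `shape_at_level` (unconditional): for a finite normal `L ⊇ unram ⊥ 2` and `r` trivial on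
  `Fix L` with split characteristic polynomials, after one conjugation `r` is upper triangular,
  or diagonal on `Fix (unram ⊥ 2)`, antidiagonal outside, with an element of `inertiaAt L`
  having two distinct diagonal entries.
* `shape_of_key` : the literal of the statement-level row `ShapeStatement` (the inertial element
  is inertial on all of `ℚ̄_p`), from the literal of `LGKeyStatement` ("an element fixing the
  roots of unity of order prime to `p` of a finite `M` agrees on `M` with an inertial element").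
-/

set_option autoImplicit false

namespace Fermat.Agent.S56.LF.ShapeInst

open scoped NNReal NormedField Valued IntermediateField
open IsLocalRing Polynomial Fermat.Agent.CFT.Local Fermat.Agent.CFT.Local.NormedLocal
  Fermat.Agent.CFT.Local.PadicExt Fermat.Agent.CFT.Local.UnramPadic
open Fermat.Agent.S56.LF.WildFin Fermat.Agent.S56.LF.Shape Fermat.Agent.S56.LF.Shape.Line

variable {p : ℕ} [Fact p.Prime]

/-! ### Roots of unity of order prime to `p` -/

lemma norm_eq_one_of_pow_eq_one {m : ℕ} (hm0 : m ≠ 0) {ξ : PadicAlgCl p} (hξ : ξ ^ m = 1) :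
    ‖ξ‖ = 1 := by
  have h : ‖ξ‖ ^ m = 1 := by rw [← norm_pow, hξ, norm_one]
  exact (pow_eq_one_iff_of_nonneg (norm_nonneg _) hm0).mp h

/-- Roots of unity of order prime to `p` are distinct modulo the maximal ideal. -/
lemma eq_of_norm_sub_lt_one {m : ℕ} (hm : ¬ p ∣ m) {ξ ξ' : PadicAlgCl p} (hξ : ξ ^ m = 1)
    (hξ' : ξ' ^ m = 1) (h : ‖ξ' - ξ‖ < 1) : ξ' = ξ := by
  have hm0 : m ≠ 0 := by
    rintro rfl
    exact hm (dvd_zero p)
  have hξn : ‖ξ‖ = 1 := norm_eq_one_of_pow_eq_one hm0 hξ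
  have hξ0 : ξ ≠ 0 := by
    intro h0
    rw [h0, norm_zero] at hξn
    exact zero_ne_one hξn
  set η := ξ' / ξ with hη
  have hηm : η ^ m = 1 := by rw [hη, div_pow, hξ, hξ', div_one]
  have hηn : ‖η‖ = 1 := norm_eq_one_of_pow_eq_one hm0 hηm
  have hlt : ‖η - 1‖ < 1 := by
    have e : η - 1 = (ξ' - ξ) / ξ := by
      rw [hη]
      field_simp
    rw [e, norm_div, hξn, div_one]
    exact h
  suffices hη1 : η = 1 by
    rw [hη] at hη1
    exact (div_eq_one_iff_eq hξ0).mp hη1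
  by_contra hne
  have hsum : ∑ i ∈ Finset.range m, η ^ i = 0 := by
    have h1 := mul_geom_sum η m
    rw [hηm, sub_self] at h1
    exact (mul_eq_zero.mp h1).resolve_left (sub_ne_zero.mpr hne)
  have hm' : (m : PadicAlgCl p) = -∑ i ∈ Finset.range m, (η ^ i - 1) := by
    rw [Finset.sum_sub_distrib, hsum, Finset.sum_const, Finset.card_range, nsmul_eq_mul, mul_one]
    ring
  have hlt' : ‖∑ i ∈ Finset.range m, (η ^ i - 1)‖ < 1 := by
    obtain ⟨i, -, hi⟩ := IsUltrametricDist.exists_norm_finsetSum_le_of_nonempty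
      (Finset.nonempty_range_iff.mpr hm0) (fun i => η ^ i - 1)
    refine lt_of_le_of_lt hi ?_
    have h2 := norm_pow_sub_pow_lt (x := η) (y := 1) hηn.le norm_one.le hlt i
    rwa [one_pow] at h2
  have h3 := norm_natCast_of_not_dvd (p := p) hm
  rw [hm', norm_neg] at h3
  exact absurd h3 hlt'.ne

section Level

variable (L : IntermediateField ℚ_[p] (PadicAlgCl p)) [Normal ℚ_[p] L]

/-- Inertia at the level `L` fixes the roots of unity of `L` of order prime to `p`. -/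
lemma inertiaAt_apply_root {ι : PadicAlgCl p ≃ₐ[ℚ_[p]] PadicAlgCl p} (hι : ι ∈ inertiaAt L)
    {m : ℕ} (hm : ¬ p ∣ m) {ξ : PadicAlgCl p} (hξL : ξ ∈ L) (hξ : ξ ^ m = 1) : ι ξ = ξ := by
  have hm0 : m ≠ 0 := by
    rintro rfl
    exact hm (dvd_zero p)
  exact eq_of_norm_sub_lt_one hm hξ (by rw [← map_pow, hξ, map_one])
    (hι ξ hξL (norm_eq_one_of_pow_eq_one hm0 hξ).le)

omit [Normal ℚ_[p] L] in
/-- A Frobenius at the level `L` raises the roots of unity of `L` of order prime to `p` to the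
`p`-th power. -/
lemma frob_apply_root {s : PadicAlgCl p ≃ₐ[ℚ_[p]] PadicAlgCl p}
    (hs : ∀ x ∈ L, ‖x‖ ≤ 1 → ‖s x - x ^ p‖ < 1)
    {m : ℕ} (hm : ¬ p ∣ m) {ξ : PadicAlgCl p} (hξL : ξ ∈ L) (hξ : ξ ^ m = 1) : s ξ = ξ ^ p := by
  have hm0 : m ≠ 0 := by
    rintro rfl
    exact hm (dvd_zero p)
  exact eq_of_norm_sub_lt_one hm (by rw [← pow_mul, mul_comm, pow_mul, hξ, one_pow])
    (by rw [← map_pow, hξ, map_one]) (hs ξ hξL (norm_eq_one_of_pow_eq_one hm0 hξ).le)

variable [FiniteDimensional ℚ_[p] L]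

/-- **Shape at a finite level, unconditionally.**  `L ⊇ unram ⊥ 2` finite normal, `r` trivial on
`Fix L` with split characteristic polynomials: after one conjugation `r` is upper triangular,
or it is diagonal on `Fix (unram ⊥ 2)`, antidiagonal outside, and some element of `inertiaAt L`
has two distinct diagonal entries. -/
theorem shape_at_level
    (hF0 : unram (⊥ : IntermediateField ℚ_[p] (PadicAlgCl p)) 2 ≤ L)
    {k : Type*} [Field k] [CharP k p]
    (r : (PadicAlgCl p ≃ₐ[ℚ_[p]] PadicAlgCl p) →* GL (Fin 2) k)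
    (hL : ∀ σ ∈ L.fixingSubgroup, r σ = 1)
    (hsplit : ∀ σ, ∃ a b : k, (mat r σ).charpoly = (X - C a) * (X - C b)) :
    ∃ g : GL (Fin 2) k, IsUpper (conjBy g r) ∨
      ((∀ σ ∈ (unram (⊥ : IntermediateField ℚ_[p] (PadicAlgCl p)) 2).fixingSubgroup,
          IsDiag (mat (conjBy g r) σ)) ∧
        (∀ σ, σ ∉ (unram (⊥ : IntermediateField ℚ_[p] (PadicAlgCl p)) 2).fixingSubgroup →
          IsAnti (mat (conjBy g r) σ)) ∧
        ∃ τ ∈ inertiaAt L, mat (conjBy g r) τ 0 0 ≠ mat (conjBy g r) τ 1 1) := by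
  have hp : p.Prime := Fact.out
  obtain ⟨s, hs, hgen⟩ := exists_frobenius L
  have h : HypL p r (inertiaAt L) (wildAt L) s :=
    { wild := by
        intro w hw
        obtain ⟨a, ha⟩ := exists_pow_mem_fixingSubgroup_of_mem_wildAt L hw
        exact ⟨a, by rw [← map_pow]; exact hL _ ha⟩
      comm := fun σ hσ τ hτ => commutator_mem_wildAt L hσ hτ
      gen := by
        intro σ
        obtain ⟨j, hj⟩ := hgen σ
        exact ⟨j, (s ^ j)⁻¹ * σ, hj, by rw [mul_inv_cancel_left]⟩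
      frob := fun τ hτ => frob_conj_mem_wildAt L hs hτ
      split := hsplit }
  obtain ⟨g, hg⟩ := shapeL h
  refine ⟨g, hg.imp id ?_⟩
  rintro ⟨-, hI, hφ, -, hne, -⟩
  -- the root of unity generating `unram ⊥ 2`
  have hζ : IsPrimitiveRoot (zeta (⊥ : IntermediateField ℚ_[p] (PadicAlgCl p)) 2) (p ^ 2 - 1) := by
    have h1 := isPrimitiveRoot_zeta (⊥ : IntermediateField ℚ_[p] (PadicAlgCl p)) (n := 2)
      (by norm_num)
    rwa [card_residueField_bot] at h1
  have hζL : zeta (⊥ : IntermediateField ℚ_[p] (PadicAlgCl p)) 2 ∈ L := hF0 (zeta_mem_unram _ 2)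
  have hm : ¬ p ∣ p ^ 2 - 1 := by
    intro hd
    have h2 : 1 ≤ p ^ 2 := Nat.one_le_pow _ _ hp.pos
    have h3 : p ∣ 1 := (Nat.dvd_add_right hd).mp (by
      rw [Nat.sub_add_cancel h2]
      exact dvd_pow_self p (by norm_num))
    exact hp.one_lt.ne' (Nat.dvd_one.mp h3)
  have hbot : ∀ σ : PadicAlgCl p ≃ₐ[ℚ_[p]] PadicAlgCl p,
      σ ∈ (⊥ : IntermediateField ℚ_[p] (PadicAlgCl p)).fixingSubgroup := by
    intro σ
    rw [IntermediateField.fixingSubgroup_bot]
    exact Subgroup.mem_top σ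
  -- inertia fixes `unram ⊥ 2`
  have hIF : ∀ ι ∈ inertiaAt L,
      ι ∈ (unram (⊥ : IntermediateField ℚ_[p] (PadicAlgCl p)) 2).fixingSubgroup := by
    intro ι hι
    rw [mem_fixingSubgroup_unram_iff]
    exact ⟨hbot ι, inertiaAt_apply_root L hι hm hζL hζ.pow_eq_one⟩
  -- the Frobenius has order two on `unram ⊥ 2`
  have hsζ := frob_apply_root L hs hm hζL hζ.pow_eq_one
  have hiff : ∀ j : ℕ,
      s ^ j ∈ (unram (⊥ : IntermediateField ℚ_[p] (PadicAlgCl p)) 2).fixingSubgroup ↔ 2 ∣ j :=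
    fun j => frobenius_pow_mem_iff _ (by norm_num) (hbot s)
      (by rw [card_residueField_bot]; exact hsζ) j
  -- the matrices of the powers of `s`
  have hA2 : IsDiag (mat (conjBy g r) s * mat (conjBy g r) s) := hφ.mul_anti hφ
  have heven : ∀ m : ℕ, IsDiag (mat (conjBy g r) (s ^ (2 * m))) := by
    intro m
    rw [mat_pow, pow_mul, pow_two]
    exact (hA2.pow m).1
  have hodd : ∀ m : ℕ, IsAnti (mat (conjBy g r) (s ^ (2 * m + 1))) := by
    intro m
    rw [pow_succ, mat_mul]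
    exact (heven m).mul_anti hφ
  refine ⟨fun σ hσ => ?_, fun σ hσ => ?_, hne⟩
  · obtain ⟨j, hj⟩ := hgen σ
    have e : σ = s ^ j * ((s ^ j)⁻¹ * σ) := by rw [mul_inv_cancel_left]
    have hsj : s ^ j ∈ (unram (⊥ : IntermediateField ℚ_[p] (PadicAlgCl p)) 2).fixingSubgroup := by
      have e' : s ^ j = σ * ((s ^ j)⁻¹ * σ)⁻¹ := by group
      rw [e']
      exact Subgroup.mul_mem _ hσ (Subgroup.inv_mem _ (hIF _ hj))
    obtain ⟨m, hm2⟩ := (hiff j).mp hsj
    rw [e, mat_mul, hm2]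
    rw [hm2] at hj
    exact (heven m).mul (hI _ hj)
  · obtain ⟨j, hj⟩ := hgen σ
    have e : σ = s ^ j * ((s ^ j)⁻¹ * σ) := by rw [mul_inv_cancel_left]
    have hsj : ¬ 2 ∣ j := by
      intro hd
      apply hσ
      rw [e]
      exact Subgroup.mul_mem _ ((hiff j).mpr hd) (hIF _ hj)
    obtain ⟨m, hm2⟩ : ∃ m, j = 2 * m + 1 := ⟨j / 2, by omega⟩
    rw [e, mat_mul, hm2]
    rw [hm2] at hj
    exact (hodd m).mul_diag (hI _ hj)

end Level

/-- **Shape (the literal of the statement-level row `ShapeStatement`), from the LG key fact.**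
`hkey` is the literal of `LGKeyStatement` at `p`: an element fixing the roots of unity of order
prime to `p` of a finite `M` agrees on `M` with an element which is inertial on `ℚ̄_p`. -/
theorem shape_of_key
    (hkey : ∀ (M : IntermediateField ℚ_[p] (PadicAlgCl p)) [FiniteDimensional ℚ_[p] M]
      (ρ : PadicAlgCl p ≃ₐ[ℚ_[p]] PadicAlgCl p),
      (∀ ξ ∈ M, ∀ n : ℕ, n.Coprime p → ξ ^ n = 1 → ρ ξ = ξ) →
      ∃ τ : PadicAlgCl p ≃ₐ[ℚ_[p]] PadicAlgCl p,
        (∀ x : PadicAlgCl p, ‖x‖ ≤ 1 → ‖τ x - x‖ < 1) ∧ ∀ x ∈ M, ρ x = τ x)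
    (k : Type) [Field k] [CharP k p]
    (r : (PadicAlgCl p ≃ₐ[ℚ_[p]] PadicAlgCl p) →* Matrix (Fin 2) (Fin 2) k)
    (hlev : ∃ L : IntermediateField ℚ_[p] (PadicAlgCl p), FiniteDimensional ℚ_[p] L ∧
      ∀ τ : PadicAlgCl p ≃ₐ[ℚ_[p]] PadicAlgCl p, (∀ x ∈ L, τ x = x) → r τ = 1)
    (hsplit : ∀ τ : PadicAlgCl p ≃ₐ[ℚ_[p]] PadicAlgCl p,
      ∃ α β : k, (r τ).charpoly = (X - C α) * (X - C β)) :
    (∃ P Q : Matrix (Fin 2) (Fin 2) k, P * Q = 1 ∧
      ∀ σ : PadicAlgCl p ≃ₐ[ℚ_[p]] PadicAlgCl p, (P * r σ * Q) 1 0 = 0) ∨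
    (∃ P Q : Matrix (Fin 2) (Fin 2) k, P * Q = 1 ∧
      (∀ σ ∈ (unram (⊥ : IntermediateField ℚ_[p] (PadicAlgCl p)) 2).fixingSubgroup,
        (P * r σ * Q) 1 0 = 0 ∧ (P * r σ * Q) 0 1 = 0) ∧
      (∀ σ : PadicAlgCl p ≃ₐ[ℚ_[p]] PadicAlgCl p,
        σ ∉ (unram (⊥ : IntermediateField ℚ_[p] (PadicAlgCl p)) 2).fixingSubgroup →
        (P * r σ * Q) 0 0 = 0 ∧ (P * r σ * Q) 1 1 = 0) ∧
      ∃ τ : PadicAlgCl p ≃ₐ[ℚ_[p]] PadicAlgCl p,
        (∀ x : PadicAlgCl p, ‖x‖ ≤ 1 → ‖τ x - x‖ < 1) ∧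
        (P * r τ * Q) 0 0 ≠ (P * r τ * Q) 1 1) := by
  have hp : p.Prime := Fact.out
  obtain ⟨L₀, hfin, hL₀⟩ := hlev
  let L : IntermediateField ℚ_[p] (PadicAlgCl p) :=
    IntermediateField.normalClosure ℚ_[p]
      ↥(L₀ ⊔ unram (⊥ : IntermediateField ℚ_[p] (PadicAlgCl p)) 2) (PadicAlgCl p)
  have hle : L₀ ⊔ unram (⊥ : IntermediateField ℚ_[p] (PadicAlgCl p)) 2 ≤ L :=
    IntermediateField.le_normalClosure _
  have : FiniteDimensional ℚ_[p] ↥(L₀ ⊔ unram (⊥ : IntermediateField ℚ_[p] (PadicAlgCl p)) 2) :=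
    IntermediateField.finiteDimensional_sup L₀ _
  have : FiniteDimensional ℚ_[p] L := normalClosure.is_finiteDimensional ℚ_[p] _ _
  have : Normal ℚ_[p] L := normalClosure.normal ℚ_[p] _ _
  let r' : (PadicAlgCl p ≃ₐ[ℚ_[p]] PadicAlgCl p) →* GL (Fin 2) k := r.toHomUnits
  have hfix : ∀ σ ∈ L.fixingSubgroup, r σ = 1 := by
    intro σ hσ
    apply hL₀
    intro x hx
    exact (IntermediateField.mem_fixingSubgroup_iff L σ).mp hσ x (hle (le_sup_left (b :=
      unram (⊥ : IntermediateField ℚ_[p] (PadicAlgCl p)) 2) hx))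
  have hL : ∀ σ ∈ L.fixingSubgroup, r' σ = 1 := by
    intro σ hσ
    apply Units.ext
    exact hfix σ hσ
  obtain ⟨g, hg⟩ := shape_at_level L (le_trans le_sup_right hle) r' hL (fun σ => hsplit σ)
  have hPQ : (g : Matrix (Fin 2) (Fin 2) k) *
      ((g⁻¹ : GL (Fin 2) k) : Matrix (Fin 2) (Fin 2) k) = 1 := Units.mul_inv g
  have hmat : ∀ σ, mat (conjBy g r') σ = (g : Matrix (Fin 2) (Fin 2) k) * r σ *
      ((g⁻¹ : GL (Fin 2) k) : Matrix (Fin 2) (Fin 2) k) := fun σ => mat_conjBy g r' σ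
  rcases hg with hu | ⟨hd, ha, τ₀, hτ₀, hne⟩
  · left
    refine ⟨(g : Matrix (Fin 2) (Fin 2) k), ((g⁻¹ : GL (Fin 2) k) : Matrix (Fin 2) (Fin 2) k),
      hPQ, fun σ => ?_⟩
    rw [← hmat]
    exact hu σ
  · right
    refine ⟨(g : Matrix (Fin 2) (Fin 2) k), ((g⁻¹ : GL (Fin 2) k) : Matrix (Fin 2) (Fin 2) k),
      hPQ, fun σ hσ => ?_, fun σ hσ => ?_, ?_⟩
    · rw [← hmat]
      exact ⟨(hd σ hσ).2, (hd σ hσ).1⟩
    · rw [← hmat]
      exact ha σ hσ
    · obtain ⟨τ, hτ, hτL⟩ := hkey L τ₀ (fun ξ hξ n hn hξn =>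
        inertiaAt_apply_root L hτ₀ ((Nat.Prime.coprime_iff_not_dvd hp).mp hn.symm) hξ hξn)
      refine ⟨τ, hτ, ?_⟩
      have hrτ : r τ = r τ₀ := by
        have h1 : r (τ₀⁻¹ * τ) = 1 := by
          apply hfix
          rw [IntermediateField.mem_fixingSubgroup_iff]
          intro x hx
          rw [AlgEquiv.mul_apply, ← hτL x hx, ← AlgEquiv.mul_apply, inv_mul_cancel,
            AlgEquiv.one_apply]
        have h2 : r τ = r τ₀ * r (τ₀⁻¹ * τ) := by rw [← map_mul, mul_inv_cancel_left]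
        rw [h2, h1, mul_one]
      rw [hrτ, ← hmat]
      exact hne

end Fermat.Agent.S56.LF.ShapeInst
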