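import Mathlib
import Fermat.Agent.S56.Flat.LocalBricks
import Fermat.Agent.S56.LF.ShapeInst

/-!
# S56 / LF, row C5: the closer of `Flat.ShapeStatement`

`Flat.ShapeStatement` (statement-level row of `Flat/LocalBricks.lean`) follows from
`Flat.LGKeyStatement` by `ShapeInst.shape_of_key`.
-/

set_option autoImplicit false

namespace Fermat.Agent.S56.LF.ShapeClose

open Fermat.Agent.S56.Flat

/-- **`Flat.ShapeStatement` from `Flat.LGKeyStatement`.** -/
theorem shapeStatement_of_lgKey (h : LGKeyStatement) : ShapeStatement :=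
  fun p _ _ k _ _ r hlev hsplit =>
    Fermat.Agent.S56.LF.ShapeInst.shape_of_key (fun M _ ρ h' => h p M ρ h') k r hlev hsplit

end Fermat.Agent.S56.LF.ShapeClose
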