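import Mathlib
import Fermat.Agent.S56.LF.ShapeClose
import Fermat.Agent.S56.LF.LGKeyTwinExit

/-!
# S56 / LF, row C5: `Flat.ShapeStatement`, unconditionally

`ShapeClose.shapeStatement_of_lgKey` applied to `LGKeyTwinExit.lgKeyStatement`.
-/

set_option autoImplicit false

namespace Fermat.Agent.S56.LF.ShapeFinal

/-- **`Flat.ShapeStatement`.**  A two-dimensional representation of `Gal(ℚ̄_p/ℚ_p)` of finite level
with split characteristic polynomials has a stable line, or is diagonal on the fixing subgroup
of the unramified quadratic field and antidiagonal outside, with an inertial element having two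
distinct diagonal entries. -/
theorem shapeStatement : Fermat.Agent.S56.Flat.ShapeStatement :=
  Fermat.Agent.S56.LF.ShapeClose.shapeStatement_of_lgKey
    Fermat.Agent.S56.LF.LGKeyTwinExit.lgKeyStatement

end Fermat.Agent.S56.LF.ShapeFinal
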