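import Mathlib

/-!
# S56, brick LF, row A4: quotient rigidity (LF3q), ring level

Mathlib only.  `H` is a commutative, cocommutative Hopf algebra over `R0`, free as an `R0`-module
(in the application `R0 = ℤ_(p)` and `H` is the finite flat Hopf algebra of the frozen
`IsFlatAt`).  `S` is a domain of characteristic zero which is `p`-adically separated (the ring of
integers `𝒪[L']` of a finite extension of `ℚ_p` containing all coordinates of the points), with
a family `act` of injective `R0`-algebra endomorphisms (the inertia group), and `m` an ideal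
(the maximal ideal) whose `act`-fixed elements are `p` times `act`-fixed elements
(`m ∩ O = p O` for the ring of integers `O` of the inertia field).

`mem_of_quot_fixed` (LF3q): if `N` is a finite set of points `H →ₐ[R0] S`, closed under
convolution, containing `1` and stable under `act`, and `x` is a point with `x ^ p = 1`,
`x ≡ 1 mod m`, and `act i ∘ x ∈ x * N` for all `i`, then `x ∈ N`.

`eq_one_of_fixed` (LF3b, the case `N = {1}`): an `act`-fixed point of order `p` which is
trivial modulo `m` is trivial.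

Proof (helper168's design, sec. A of `S56_LF_design.md`; reviewed in reports #6450/#6517):
translation operators `L y` on `S ⊗[R0] H` (`L z ∘ L y = L (y * z)`), the additive group `Inv`
of elements fixed by all `hat (act i)` and all `L n` (`n ∈ N`), `D := L x - 1` maps `Inv` into
`p ^ k • Inv` for every `k` (binomial expansion of `(1 + D) ^ p = 1`), hence `L x = 1` on `Inv`;
the coefficients of `∏_{n ∈ N} (X - L n (1 ⊗ h0))` lie in `Inv`, so evaluating at `x` and at `1`
gives `x h0 ∈ {n h0 : n ∈ N}` for every `h0`, and a finite family of additive maps into a domain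
of characteristic zero whose kernels cover the source contains the zero map.
-/

set_option autoImplicit false
set_option linter.unusedSectionVars false


open TensorProduct WithConv

namespace Fermat.Agent.S56.LF.QuotRigid

variable {R0 H S : Type*} [CommRing R0] [CommRing H] [HopfAlgebra R0 H]
  [CommRing S] [Algebra R0 S]

/-- `h ↦ ∑ y h₁ ⊗ h₂`. -/
noncomputable def lam (y : WithConv (H →ₐ[R0] S)) : H →ₐ[R0] S ⊗[R0] H :=
  (Algebra.TensorProduct.map y.ofConv (AlgHom.id R0 H)).comp (Bialgebra.comulAlgHom R0 H)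

/-- The translation operator `L_y` on `S ⊗ H`. -/
noncomputable def L (y : WithConv (H →ₐ[R0] S)) : S ⊗[R0] H →ₐ[S] S ⊗[R0] H :=
  Algebra.TensorProduct.lift (Algebra.ofId S (S ⊗[R0] H)) (lam y) (fun _ _ => Commute.all _ _)

/-- Evaluation at the point `y`. -/
noncomputable def ev (y : WithConv (H →ₐ[R0] S)) : S ⊗[R0] H →ₐ[S] S :=
  Algebra.TensorProduct.lift (AlgHom.id S S) y.ofConv (fun _ _ => Commute.all _ _)

/-- The coefficientwise action of an endomorphism of `S`. -/
noncomputable def hat (τ : S →ₐ[R0] S) : S ⊗[R0] H →ₐ[R0] S ⊗[R0] H :=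
  Algebra.TensorProduct.map τ (AlgHom.id R0 H)

@[simp] lemma L_tmul (y : WithConv (H →ₐ[R0] S)) (s : S) (h : H) :
    L y (s ⊗ₜ[R0] h) = s • lam y h := by
  rw [L, Algebra.TensorProduct.lift_tmul, Algebra.ofId_apply, Algebra.smul_def]

@[simp] lemma ev_tmul (y : WithConv (H →ₐ[R0] S)) (s : S) (h : H) :
    ev y (s ⊗ₜ[R0] h) = s * y h := by
  rw [ev, Algebra.TensorProduct.lift_tmul]; rfl

@[simp] lemma hat_tmul (τ : S →ₐ[R0] S) (s : S) (h : H) :
    hat τ (s ⊗ₜ[R0] h) = τ s ⊗ₜ[R0] h := by
  rw [hat, Algebra.TensorProduct.map_tmul]; rfl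

/-- the linear map `a ⊗ b ↦ y a ⊗ b` -/
noncomputable def Psi (y : WithConv (H →ₐ[R0] S)) : H ⊗[R0] H →ₗ[R0] S ⊗[R0] H :=
  TensorProduct.map y.ofConv.toLinearMap LinearMap.id

@[simp] lemma Psi_tmul (y : WithConv (H →ₐ[R0] S)) (a b : H) :
    Psi y (a ⊗ₜ[R0] b) = y a ⊗ₜ[R0] b := rfl

lemma lam_apply (y : WithConv (H →ₐ[R0] S)) (h : H) :
    lam y h = Psi y (Coalgebra.comul h) := by
  rfl

/-- `ev y ∘ L z = ev (z * y)`. -/
lemma ev_lam (y z : WithConv (H →ₐ[R0] S)) (h : H) : ev y (lam z h) = (z * y) h := by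
  rw [AlgHom.convMul_apply, lam_apply]
  generalize Coalgebra.comul (R := R0) h = t
  induction t using TensorProduct.induction_on with
  | zero => simp
  | tmul a b => simp
  | add a b ha hb => simp only [map_add, ha, hb]

lemma ev_L (y z : WithConv (H →ₐ[R0] S)) (a : S ⊗[R0] H) : ev y (L z a) = ev (z * y) a := by
  induction a using TensorProduct.induction_on with
  | zero => simp
  | tmul s h => simp [ev_lam]
  | add a b ha hb => simp only [map_add, ha, hb]

/-- the linear map `a ⊗ (b ⊗ c) ↦ (y a * z b) ⊗ c` -/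
noncomputable def Gmap (y z : WithConv (H →ₐ[R0] S)) :
    H ⊗[R0] (H ⊗[R0] H) →ₗ[R0] S ⊗[R0] H :=
  (TensorProduct.map (LinearMap.mul' R0 S) LinearMap.id) ∘ₗ
    (TensorProduct.assoc R0 S S H).symm.toLinearMap ∘ₗ
      (TensorProduct.map y.ofConv.toLinearMap (Psi z))

@[simp] lemma Gmap_tmul (y z : WithConv (H →ₐ[R0] S)) (a b c : H) :
    Gmap y z (a ⊗ₜ[R0] (b ⊗ₜ[R0] c)) = (y a * z b) ⊗ₜ[R0] c := by
  simp [Gmap]

lemma Gmap_tmul' (y z : WithConv (H →ₐ[R0] S)) (a : H) (t : H ⊗[R0] H) :
    Gmap y z (a ⊗ₜ[R0] t) = y a • Psi z t := by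
  induction t using TensorProduct.induction_on with
  | zero => simp
  | tmul b c => simp [TensorProduct.smul_tmul']
  | add s t hs ht => simp only [TensorProduct.tmul_add, map_add, hs, ht, smul_add]

lemma L_Psi (y z : WithConv (H →ₐ[R0] S)) (t : H ⊗[R0] H) :
    L z (Psi y t) = Gmap y z (Coalgebra.comul.lTensor H t) := by
  induction t using TensorProduct.induction_on with
  | zero => simp
  | tmul a b => simp [Gmap_tmul', lam_apply]
  | add s t hs ht => simp only [map_add, hs, ht]

lemma Psi_mul (y z : WithConv (H →ₐ[R0] S)) (t : H ⊗[R0] H) :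
    Psi (y * z) t =
      Gmap y z (TensorProduct.assoc R0 H H H (Coalgebra.comul.rTensor H t)) := by
  induction t using TensorProduct.induction_on with
  | zero => simp
  | tmul a b =>
    simp only [Psi_tmul, LinearMap.rTensor_tmul]
    rw [AlgHom.convMul_apply]
    generalize Coalgebra.comul (R := R0) a = w
    induction w using TensorProduct.induction_on with
    | zero => simp
    | tmul a' a'' => simp
    | add s t hs ht => simp only [map_add, TensorProduct.add_tmul, hs, ht]
  | add s t hs ht => simp only [map_add, hs, ht]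

/-- `L z ∘ L y = L (y * z)` on generators. -/
lemma L_lam (y z : WithConv (H →ₐ[R0] S)) (h : H) : L z (lam y h) = lam (y * z) h := by
  rw [lam_apply, lam_apply, L_Psi, Psi_mul, Coalgebra.coassoc_apply]

lemma L_L (y z : WithConv (H →ₐ[R0] S)) (a : S ⊗[R0] H) : L z (L y a) = L (y * z) a := by
  induction a using TensorProduct.induction_on with
  | zero => simp
  | tmul s h => simp [L_lam]
  | add a b ha hb => simp only [map_add, ha, hb]

lemma lam_one (h : H) : lam (1 : WithConv (H →ₐ[R0] S)) h = 1 ⊗ₜ[R0] h := by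
  rw [lam_apply]
  have key : ∀ t : H ⊗[R0] H, Psi (1 : WithConv (H →ₐ[R0] S)) t =
      TensorProduct.map (Algebra.linearMap R0 S) LinearMap.id (Coalgebra.counit.rTensor H t) := by
    intro t
    induction t using TensorProduct.induction_on with
    | zero => simp
    | tmul a b => simp
    | add s t hs ht => simp only [map_add, hs, ht]
  rw [key, Coalgebra.rTensor_counit_comul]
  simp

lemma L_one (a : S ⊗[R0] H) : L (1 : WithConv (H →ₐ[R0] S)) a = a := by
  induction a using TensorProduct.induction_on with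
  | zero => simp
  | tmul s h => simp [lam_one, TensorProduct.smul_tmul']
  | add a b ha hb => simp only [map_add, ha, hb]

lemma hat_smul (τ : S →ₐ[R0] S) (s : S) (a : S ⊗[R0] H) :
    hat τ (s • a) = τ s • hat τ a := by
  induction a using TensorProduct.induction_on with
  | zero => simp
  | tmul s' h => simp [TensorProduct.smul_tmul']
  | add a b ha hb => simp only [smul_add, map_add, ha, hb]

lemma hat_lam (τ : S →ₐ[R0] S) (y : WithConv (H →ₐ[R0] S)) (h : H) :
    hat τ (lam y h) = lam (toConv (τ.comp y.ofConv)) h := by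
  rw [lam_apply, lam_apply]
  generalize Coalgebra.comul (R := R0) h = t
  induction t using TensorProduct.induction_on with
  | zero => simp
  | tmul a b => simp
  | add s t hs ht => simp only [map_add, hs, ht]

lemma hat_L (τ : S →ₐ[R0] S) (y : WithConv (H →ₐ[R0] S)) (a : S ⊗[R0] H) :
    hat τ (L y a) = L (toConv (τ.comp y.ofConv)) (hat τ a) := by
  induction a using TensorProduct.induction_on with
  | zero => simp
  | tmul s h => simp [hat_smul, hat_lam]
  | add a b ha hb => simp only [map_add, ha, hb]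


/-! ### Coordinates -/

section coords

variable [Module.Free R0 H]

/-- The `S`-basis `1 ⊗ b_i` of `S ⊗ H`. -/
noncomputable def bas : Module.Basis (Module.Free.ChooseBasisIndex R0 H) S (S ⊗[R0] H) :=
  Algebra.TensorProduct.basis S (Module.Free.chooseBasis R0 H)

lemma repr_hat (τ : S →ₐ[R0] S) (a : S ⊗[R0] H) (i : Module.Free.ChooseBasisIndex R0 H) :
    (bas (R0 := R0) (H := H) (S := S)).repr (hat τ a) i = τ ((bas (R0 := R0)).repr a i) := by
  induction a using TensorProduct.induction_on with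
  | zero => simp
  | tmul s h => simp [bas, Algebra.TensorProduct.basis_repr_tmul]
  | add a b ha hb => simp only [map_add, Finsupp.add_apply, ha, hb]

lemma hat_eq_iff (τ : S →ₐ[R0] S) (a : S ⊗[R0] H) :
    hat τ a = a ↔ ∀ i, τ ((bas (R0 := R0)).repr a i) = (bas (R0 := R0)).repr a i := by
  constructor
  · intro h i
    rw [← repr_hat, h]
  · intro h
    apply (bas (R0 := R0) (H := H) (S := S)).repr.injective
    ext i
    rw [repr_hat, h]

lemma repr_mem_of_mem_smul (m : Ideal S) (a : S ⊗[R0] H)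
    (ha : a ∈ m • (⊤ : Submodule S (S ⊗[R0] H))) (i : Module.Free.ChooseBasisIndex R0 H) :
    (bas (R0 := R0)).repr a i ∈ m := by
  refine Submodule.smul_induction_on (p := fun a => (bas (R0 := R0)).repr a i ∈ m) ha ?_ ?_
  · intro r hr n _
    simp only [map_smul, Finsupp.smul_apply, smul_eq_mul]
    exact Ideal.mul_mem_right _ _ hr
  · intro x y hx hy
    simp only [map_add, Finsupp.add_apply]
    exact Ideal.add_mem _ hx hy

lemma smul_cancel [IsDomain S] {c : S} (hc : c ≠ 0) {a a' : S ⊗[R0] H} (h : c • a = c • a') :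
    a = a' := by
  apply (bas (R0 := R0) (H := H) (S := S)).repr.injective
  ext i
  have h1 := congrArg (fun z => (bas (R0 := R0)).repr z i) h
  simp only [map_smul, Finsupp.smul_apply, smul_eq_mul] at h1
  exact mul_left_cancel₀ hc h1

end coords


/-! ### `L x - 1` has values in `m • (S ⊗ H)` for `x ∈ E⁰` -/

lemma Psi_sub_mem (m : Ideal S) (x : WithConv (H →ₐ[R0] S))
    (hx0 : ∀ h : H, x h - algebraMap R0 S (Coalgebra.counit h) ∈ m) (t : H ⊗[R0] H) :
    Psi x t - Psi (1 : WithConv (H →ₐ[R0] S)) t ∈ m • (⊤ : Submodule S (S ⊗[R0] H)) := by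
  induction t using TensorProduct.induction_on with
  | zero => simp
  | tmul a b =>
    have h : Psi x (a ⊗ₜ[R0] b) - Psi (1 : WithConv (H →ₐ[R0] S)) (a ⊗ₜ[R0] b)
        = (x a - algebraMap R0 S (Coalgebra.counit a)) • ((1 : S) ⊗ₜ[R0] b) := by
      simp [TensorProduct.smul_tmul', TensorProduct.sub_tmul]
    rw [h]
    exact Submodule.smul_mem_smul (hx0 a) trivial
  | add s t hs ht =>
    have h : Psi x (s + t) - Psi (1 : WithConv (H →ₐ[R0] S)) (s + t)
        = (Psi x s - Psi 1 s) + (Psi x t - Psi 1 t) := by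
      simp only [map_add]; abel
    rw [h]; exact Submodule.add_mem _ hs ht

lemma L_sub_mem (m : Ideal S) (x : WithConv (H →ₐ[R0] S))
    (hx0 : ∀ h : H, x h - algebraMap R0 S (Coalgebra.counit h) ∈ m) (a : S ⊗[R0] H) :
    L x a - a ∈ m • (⊤ : Submodule S (S ⊗[R0] H)) := by
  induction a using TensorProduct.induction_on with
  | zero => simp
  | tmul s h =>
    have e : L x (s ⊗ₜ[R0] h) - s ⊗ₜ[R0] h =
        s • (Psi x (Coalgebra.comul (R := R0) h) - Psi 1 (Coalgebra.comul (R := R0) h)) := by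
      rw [L_tmul, smul_sub, ← lam_apply, ← lam_apply, lam_one, TensorProduct.smul_tmul',
        smul_eq_mul, mul_one]
    rw [e]
    exact Submodule.smul_mem _ _ (Psi_sub_mem m x hx0 _)
  | add a b ha hb =>
    have e : L x (a + b) - (a + b) = (L x a - a) + (L x b - b) := by
      simp only [map_add]; abel
    rw [e]; exact Submodule.add_mem _ ha hb

/-! ### The invariants and the main argument -/

section main

variable [Coalgebra.IsCocomm R0 H] [Module.Free R0 H] [IsDomain S] [CharZero S]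

variable {ι : Type*} (act : ι → S →ₐ[R0] S) (N : Finset (WithConv (H →ₐ[R0] S)))

lemma L_comm (y z : WithConv (H →ₐ[R0] S)) (a : S ⊗[R0] H) : L y (L z a) = L z (L y a) := by
  rw [L_L, L_L, mul_comm]

/-- `H''`: the elements fixed by all `act i` (coefficientwise) and by all `L n`, `n ∈ N`. -/
def Inv : AddSubgroup (S ⊗[R0] H) where
  carrier := {a | (∀ i, hat (act i) a = a) ∧ ∀ n ∈ N, L n a = a}
  zero_mem' := ⟨fun i => map_zero _, fun n _ => map_zero _⟩
  add_mem' := by
    rintro a b ⟨ha1, ha2⟩ ⟨hb1, hb2⟩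
    exact ⟨fun i => by rw [map_add, ha1, hb1], fun n hn => by rw [map_add, ha2 n hn, hb2 n hn]⟩
  neg_mem' := by
    rintro a ⟨ha1, ha2⟩
    exact ⟨fun i => by rw [map_neg, ha1], fun n hn => by rw [map_neg, ha2 n hn]⟩

lemma mem_Inv {a : S ⊗[R0] H} :
    a ∈ Inv act N ↔ (∀ i, hat (act i) a = a) ∧ ∀ n ∈ N, L n a = a := Iff.rfl

variable {act N}

lemma exists_smul_eq {p : ℕ} (hp : p.Prime) (m : Ideal S)
    (hmO : ∀ a ∈ m, (∀ i, act i a = a) → ∃ b : S, (∀ i, act i b = b) ∧ a = p * b)
    (x : WithConv (H →ₐ[R0] S))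
    (hx0 : ∀ h : H, x h - algebraMap R0 S (Coalgebra.counit h) ∈ m)
    (hxN : ∀ i, ∃ n ∈ N, toConv ((act i).comp x.ofConv) = x * n)
    {a : S ⊗[R0] H} (ha : a ∈ Inv act N) :
    ∃ a' ∈ Inv act N, L x a - a = (p : S) • a' := by
  classical
  have hp0 : (p : S) ≠ 0 := Nat.cast_ne_zero.mpr hp.ne_zero
  obtain ⟨b, hb⟩ : ∃ b, b = L x a - a := ⟨_, rfl⟩
  have hbfix : ∀ i, hat (act i) b = b := by
    intro i
    obtain ⟨n, hn, hτ⟩ := hxN i
    rw [hb, map_sub, hat_L, hτ, ha.1 i, ← L_L, L_comm, ha.2 n hn]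
  have hbN : ∀ n ∈ N, L n b = b := by
    intro n hn
    rw [hb, map_sub, L_comm, ha.2 n hn]
  have hbm : b ∈ m • (⊤ : Submodule S (S ⊗[R0] H)) := hb ▸ L_sub_mem m x hx0 a
  let g : S → S := fun c =>
    if h : ∃ d : S, (∀ i, act i d = d) ∧ c = p * d then h.choose else 0
  have hg0 : g 0 = 0 := by
    have h : ∃ d : S, (∀ i, act i d = d) ∧ (0 : S) = p * d := ⟨0, fun i => map_zero _, by simp⟩
    simp only [g, dif_pos h]
    have h2 := h.choose_spec.2
    rcases mul_eq_zero.mp h2.symm with h0 | h0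
    · exact absurd h0 hp0
    · exact h0
  have hg : ∀ i, (∀ j, act j (g ((bas (R0 := R0)).repr b i)) = g ((bas (R0 := R0)).repr b i)) ∧
      (bas (R0 := R0)).repr b i = p * g ((bas (R0 := R0)).repr b i) := by
    intro i
    have h := hmO _ (repr_mem_of_mem_smul m b hbm i)
      (fun j => (hat_eq_iff (act j) b).mp (hbfix j) i)
    simp only [g, dif_pos h]
    exact h.choose_spec
  obtain ⟨a', ha'⟩ : ∃ a', a' = (bas (R0 := R0) (H := H) (S := S)).repr.symm
      (((bas (R0 := R0)).repr b).mapRange g hg0) := ⟨_, rfl⟩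
  have hrepr : ∀ i, (bas (R0 := R0)).repr a' i = g ((bas (R0 := R0)).repr b i) := by
    intro i; simp [ha']
  have hpa' : (p : S) • a' = b := by
    apply (bas (R0 := R0) (H := H) (S := S)).repr.injective
    ext i
    rw [map_smul, Finsupp.smul_apply, hrepr, smul_eq_mul, ← (hg i).2]
  refine ⟨a', ⟨?_, ?_⟩, by rw [hpa', hb]⟩
  · intro i
    rw [hat_eq_iff]
    intro j
    rw [hrepr]; exact (hg j).1 i
  · intro n hn
    apply smul_cancel (R0 := R0) hp0
    rw [← map_smul, hpa', hbN n hn]


/-- `p^k • H''`. -/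
def Mk (act : ι → S →ₐ[R0] S) (N : Finset (WithConv (H →ₐ[R0] S))) (p k : ℕ) :
    AddSubgroup (S ⊗[R0] H) :=
  (Inv act N).map (DistribSMul.toAddMonoidHom (S ⊗[R0] H) ((p : S) ^ k))

lemma mem_Mk {p k : ℕ} {b : S ⊗[R0] H} :
    b ∈ Mk act N p k ↔ ∃ a' ∈ Inv act N, (p : S) ^ k • a' = b := by
  simp [Mk, AddSubgroup.mem_map]

lemma Mk_zero (p : ℕ) : Mk act N p 0 = Inv act N := by
  ext b; simp [mem_Mk]

lemma Mk_anti (p : ℕ) {j j' : ℕ} (h : j ≤ j') : Mk act N p j' ≤ Mk act N p j := by
  intro b hb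
  obtain ⟨a', ha', rfl⟩ := mem_Mk.mp hb
  obtain ⟨e, rfl⟩ := Nat.exists_eq_add_of_le h
  refine mem_Mk.mpr ⟨(p ^ e) • a', AddSubgroup.nsmul_mem _ ha' _, ?_⟩
  rw [pow_add, mul_smul, ← Nat.cast_smul_eq_nsmul S (p ^ e) a', Nat.cast_pow]

lemma psmul_mem_Mk {p j : ℕ} {y : S ⊗[R0] H} (hy : y ∈ Mk act N p j) :
    (p : S) • y ∈ Mk act N p (j + 1) := by
  obtain ⟨a', ha', rfl⟩ := mem_Mk.mp hy
  exact mem_Mk.mpr ⟨a', ha', by rw [pow_succ, mul_smul, smul_comm]⟩

lemma step {p : ℕ} (hp : p.Prime) (hp2 : p ≠ 2) (x : WithConv (H →ₐ[R0] S)) (hxp : x ^ p = 1)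
    {k : ℕ} (hk : 1 ≤ k) (hPk : ∀ a ∈ Inv act N, L x a - a ∈ Mk act N p k) :
    ∀ a ∈ Inv act N, L x a - a ∈ Mk act N p (k + 1) := by
  have hp0 : (p : S) ≠ 0 := Nat.cast_ne_zero.mpr hp.ne_zero
  obtain ⟨T, hT⟩ : ∃ T : Module.End S (S ⊗[R0] H), T = (L x).toLinearMap := ⟨_, rfl⟩
  have hTapp : ∀ a, T a = L x a := fun a => by rw [hT]; rfl
  have hTpow : ∀ j a, (T ^ j) a = L (x ^ j) a := by
    intro j
    induction j with
    | zero => intro a; simp [L_one]
    | succ j ih =>
      intro a
      rw [pow_succ, Module.End.mul_apply, ih, hTapp, L_L, ← pow_succ']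
  have hTp : T ^ p = 1 := by
    refine LinearMap.ext fun a => ?_
    rw [hTpow, hxp, L_one]; rfl
  obtain ⟨D, hD⟩ : ∃ D : Module.End S (S ⊗[R0] H), D = T - 1 := ⟨_, rfl⟩
  have hDapp : ∀ a, D a = L x a - a := fun a => by rw [hD, LinearMap.sub_apply, hTapp]; rfl
  have hDM : ∀ j, ∀ b ∈ Mk act N p j, D b ∈ Mk act N p (j + k) := by
    intro j b hb
    obtain ⟨a', ha', rfl⟩ := mem_Mk.mp hb
    obtain ⟨a'', ha'', h⟩ := mem_Mk.mp (hPk a' ha')
    rw [map_smul, hDapp, ← h, smul_smul, ← pow_add]
    exact mem_Mk.mpr ⟨a'', ha'', rfl⟩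
  have hDpow : ∀ j, ∀ a ∈ Inv act N, (D ^ j) a ∈ Mk act N p (j * k) := by
    intro j
    induction j with
    | zero => intro a ha; simpa [Mk_zero] using ha
    | succ j ih =>
      intro a ha
      rw [pow_succ', Module.End.mul_apply, Nat.succ_mul]
      exact hDM _ _ (ih a ha)
  have hbin : ∀ a, a = ∑ j ∈ Finset.range (p + 1), (p.choose j) • (D ^ j) a := by
    intro a
    have h1 := (Commute.one_right D).add_pow p
    have h2 : D + 1 = T := by rw [hD]; exact sub_add_cancel T 1
    rw [h2, hTp] at h1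
    have h3 := congrArg (fun f : Module.End S (S ⊗[R0] H) => f a) h1
    simp only [one_pow, mul_one, Module.End.one_apply, LinearMap.sum_apply] at h3
    refine h3.trans (Finset.sum_congr rfl fun j _ => ?_)
    rw [Module.End.mul_apply, Module.End.natCast_apply, map_nsmul]
  intro a ha
  obtain ⟨q, rfl⟩ : ∃ q, p = q + 2 := ⟨p - 2, by have := hp.two_le; omega⟩
  have h4 := hbin a
  rw [Finset.sum_range_succ', Finset.sum_range_succ'] at h4
  simp only [Nat.choose_zero_right, pow_zero, Module.End.one_apply, one_smul, zero_add,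
    Nat.choose_one_right, pow_one] at h4
  have h5 : ((q + 2 : ℕ) : S) • D a =
      - ∑ j ∈ Finset.range (q + 1), ((q + 2).choose (j + 2)) • (D ^ (j + 2)) a := by
    rw [Nat.cast_smul_eq_nsmul S]
    have h6 : ∑ j ∈ Finset.range (q + 1), ((q + 2).choose (j + 2)) • (D ^ (j + 2)) a
        + (q + 2) • D a = 0 := by
      have h7 := h4
      rw [add_comm] at h7
      exact (add_eq_left.mp h7.symm)
    rw [eq_neg_iff_add_eq_zero, add_comm]; exact h6
  have h8 : ((q + 2 : ℕ) : S) • D a ∈ Mk act N (q + 2) (2 * k + 1) := by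
    rw [h5]
    refine AddSubgroup.neg_mem _ (AddSubgroup.sum_mem _ fun j hj => ?_)
    have hj' : j < q + 1 := Finset.mem_range.mp hj
    have hy : (D ^ (j + 2)) a ∈ Mk act N (q + 2) ((j + 2) * k) := hDpow _ a ha
    rcases Nat.lt_or_ge j q with hlt | hge
    · have hdvd : (q + 2) ∣ (q + 2).choose (j + 2) :=
        hp.dvd_choose_self (by omega) (by omega)
      obtain ⟨c, hc⟩ := hdvd
      rw [hc, mul_smul, ← Nat.cast_smul_eq_nsmul S (q + 2)]
      have hy2 : c • (D ^ (j + 2)) a ∈ Mk act N (q + 2) (2 * k) :=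
        AddSubgroup.nsmul_mem _ (Mk_anti _ (Nat.mul_le_mul_right k (by omega)) hy) _
      exact psmul_mem_Mk hy2
    · have hjq : j = q := by omega
      subst hjq
      rw [Nat.choose_self, one_smul]
      have hq1 : 1 ≤ j := by omega
      have hle : 2 * k + 1 ≤ (j + 2) * k :=
        le_trans (by omega : 2 * k + 1 ≤ 3 * k) (Nat.mul_le_mul_right k (by omega))
      exact Mk_anti _ hle hy
  obtain ⟨a'', ha'', h9⟩ := mem_Mk.mp h8
  have h10 : D a = ((q + 2 : ℕ) : S) ^ (2 * k) • a'' := by
    apply smul_cancel (R0 := R0) hp0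
    rw [← h9, pow_succ, mul_smul, smul_comm]
  rw [← hDapp, h10]
  exact Mk_anti _ (by omega) (mem_Mk.mpr ⟨a'', ha'', rfl⟩)

lemma fixed {p : ℕ} (hp : p.Prime) (hp2 : p ≠ 2)
    (hsep : ∀ a : S, (∀ k : ℕ, (p : S) ^ k ∣ a) → a = 0) (m : Ideal S)
    (hmO : ∀ a ∈ m, (∀ i, act i a = a) → ∃ b : S, (∀ i, act i b = b) ∧ a = p * b)
    (x : WithConv (H →ₐ[R0] S)) (hxp : x ^ p = 1)
    (hx0 : ∀ h : H, x h - algebraMap R0 S (Coalgebra.counit h) ∈ m)
    (hxN : ∀ i, ∃ n ∈ N, toConv ((act i).comp x.ofConv) = x * n) :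
    ∀ a ∈ Inv act N, L x a = a := by
  have hall : ∀ k, ∀ a ∈ Inv act N, L x a - a ∈ Mk act N p (k + 1) := by
    intro k
    induction k with
    | zero =>
      intro a ha
      obtain ⟨a', ha', h⟩ := exists_smul_eq hp m hmO x hx0 hxN ha
      exact mem_Mk.mpr ⟨a', ha', by rw [h, pow_one]⟩
    | succ k ih => exact step hp hp2 x hxp (by omega) ih
  intro a ha
  rw [← sub_eq_zero]
  apply (bas (R0 := R0) (H := H) (S := S)).repr.injective
  ext i
  rw [map_zero, Finsupp.zero_apply]
  apply hsep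
  intro k
  obtain ⟨a', -, h⟩ := mem_Mk.mp (Mk_anti p (Nat.le_succ k) (hall k a ha))
  rw [← h, map_smul, Finsupp.smul_apply, smul_eq_mul]
  exact Dvd.intro _ rfl


/-- The convolution inverse `f ∘ antipode` (Mathlib's `AlgHom.convGroup` asks for a bialgebra
structure on the target, which `S` does not have). -/
lemma conv_inv_mul (f : WithConv (H →ₐ[R0] S)) :
    toConv (f.ofConv.comp (HopfAlgebra.antipodeAlgHom R0 H)) * f = 1 := by
  have H' : (Algebra.TensorProduct.lmul' R0).comp (Algebra.TensorProduct.map f.ofConv f.ofConv) =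
      f.ofConv.comp (Algebra.TensorProduct.lmul' R0) := by ext <;> simp
  trans toConv <| ((Algebra.TensorProduct.lmul' R0).comp
      (Algebra.TensorProduct.map f.ofConv f.ofConv)).comp
    ((Algebra.TensorProduct.map (HopfAlgebra.antipodeAlgHom R0 H) (.id _ _)).comp
      (Bialgebra.comulAlgHom R0 H))
  · rw [AlgHom.comp_assoc, ← AlgHom.comp_assoc (Algebra.TensorProduct.map f.ofConv f.ofConv),
      ← Algebra.TensorProduct.map_comp]; rfl
  rw [H', AlgHom.comp_assoc, WithConv.ext_iff, ← AlgHom.toLinearMap_injective.eq_iff]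
  change f.ofConv.toLinearMap.comp
      (toConv (HopfAlgebra.antipode R0 (A := H)) * toConv LinearMap.id).ofConv =
    ofConv (1 : WithConv <| H →ₗ[R0] S)
  rw [LinearMap.antipode_mul_id]
  ext
  simp

lemma conv_mul_right_cancel {a b c : WithConv (H →ₐ[R0] S)} (h : a * c = b * c) : a = b := by
  have hc : c * toConv (c.ofConv.comp (HopfAlgebra.antipodeAlgHom R0 H)) = 1 := by
    rw [mul_comm]; exact conv_inv_mul c
  calc a = a * (c * toConv (c.ofConv.comp (HopfAlgebra.antipodeAlgHom R0 H))) := by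
        rw [hc, mul_one]
    _ = b * (c * toConv (c.ofConv.comp (HopfAlgebra.antipodeAlgHom R0 H))) := by
        rw [← mul_assoc, h, mul_assoc]
    _ = b := by rw [hc, mul_one]

lemma prod_comp_self {α β : Type*} [CommMonoid β] [DecidableEq α] (N : Finset α) (f : α → α)
    (hf : ∀ n ∈ N, f n ∈ N) (hinj : Set.InjOn f N) (g : α → β) :
    ∏ n ∈ N, g (f n) = ∏ n ∈ N, g n := by
  have himg : N.image f = N :=
    Finset.eq_of_subset_of_card_le (Finset.image_subset_iff.mpr hf)
      (by rw [Finset.card_image_of_injOn hinj])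
  conv_rhs => rw [← himg]
  rw [Finset.prod_image (fun a ha b hb h => hinj ha hb h)]

lemma exists_eq_apply (hact : ∀ i, Function.Injective (act i))
    (h1N : 1 ∈ N) (hmulN : ∀ a ∈ N, ∀ b ∈ N, a * b ∈ N)
    (hactN : ∀ i, ∀ n ∈ N, toConv ((act i).comp n.ofConv) ∈ N)
    (x : WithConv (H →ₐ[R0] S)) (hfix : ∀ a ∈ Inv act N, L x a = a) (h0 : H) :
    ∃ n ∈ N, x h0 - n h0 = 0 := by
  classical
  obtain ⟨P, hP⟩ : ∃ P : Polynomial (S ⊗[R0] H),
      P = ∏ n ∈ N, (Polynomial.X - Polynomial.C (lam n h0)) := ⟨_, rfl⟩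
  have hP1 : ∀ i, P.map (hat (act i)).toRingHom = P := by
    intro i
    rw [hP, Polynomial.map_prod]
    simp only [Polynomial.map_sub, Polynomial.map_X, Polynomial.map_C, AlgHom.toRingHom_eq_coe,
      RingHom.coe_coe, hat_lam]
    refine prod_comp_self N (fun n => toConv ((act i).comp n.ofConv)) (hactN i) ?_
      (fun n => Polynomial.X - Polynomial.C (lam n h0))
    intro n _ n' _ h
    apply WithConv.ofConv_injective
    refine AlgHom.ext fun c => hact i ?_
    have h2 := congrArg (fun z : WithConv (H →ₐ[R0] S) => z.ofConv c) h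
    simpa using h2
  have hP2 : ∀ n' ∈ N, P.map (L n').toRingHom = P := by
    intro n' hn'
    rw [hP, Polynomial.map_prod]
    simp only [Polynomial.map_sub, Polynomial.map_X, Polynomial.map_C, AlgHom.toRingHom_eq_coe,
      RingHom.coe_coe, L_lam]
    refine prod_comp_self N (fun n => n * n') (fun n hn => hmulN n hn n' hn') ?_
      (fun n => Polynomial.X - Polynomial.C (lam n h0))
    intro n _ n'' _ h
    exact conv_mul_right_cancel h
  have hcoeff : ∀ j, P.coeff j ∈ Inv act N := by
    intro j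
    refine ⟨fun i => ?_, fun n' hn' => ?_⟩
    · have h := congrArg (fun Q : Polynomial (S ⊗[R0] H) => Q.coeff j) (hP1 i)
      simpa [Polynomial.coeff_map] using h
    · have h := congrArg (fun Q : Polynomial (S ⊗[R0] H) => Q.coeff j) (hP2 n' hn')
      simpa [Polynomial.coeff_map] using h
  have hmap : P.map (ev x).toRingHom = P.map (ev (1 : WithConv (H →ₐ[R0] S))).toRingHom := by
    ext j
    simp only [Polynomial.coeff_map, AlgHom.toRingHom_eq_coe, RingHom.coe_coe]
    calc ev x (P.coeff j) = ev (x * 1) (P.coeff j) := by rw [mul_one]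
      _ = ev 1 (L x (P.coeff j)) := (ev_L 1 x _).symm
      _ = ev 1 (P.coeff j) := by rw [hfix _ (hcoeff j)]
  have hev : ∀ y : WithConv (H →ₐ[R0] S), P.map (ev y).toRingHom =
      ∏ n ∈ N, (Polynomial.X - Polynomial.C ((n * y) h0)) := by
    intro y
    rw [hP, Polynomial.map_prod]
    simp only [Polynomial.map_sub, Polynomial.map_X, Polynomial.map_C, AlgHom.toRingHom_eq_coe,
      RingHom.coe_coe, ev_lam]
  have h := congrArg (Polynomial.eval (x h0)) hmap
  rw [hev, hev, Polynomial.eval_prod, Polynomial.eval_prod] at h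
  simp only [Polynomial.eval_sub, Polynomial.eval_X, Polynomial.eval_C, mul_one] at h
  have hz : ∏ n ∈ N, (x h0 - (n * x) h0) = 0 :=
    Finset.prod_eq_zero h1N (by rw [one_mul, sub_self])
  rw [hz] at h
  exact Finset.prod_eq_zero_iff.mp h.symm

end main

/-- A finite family of additive maps into a domain of characteristic zero such that every
vector is killed by one of them contains the zero map. -/
lemma exists_eq_zero_of_forall_exists {α V T : Type*} [AddCommGroup V] [CommRing T] [IsDomain T]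
    [CharZero T] (N : Finset α) (φ : α → V →+ T) (h : ∀ v, ∃ n ∈ N, φ n v = 0) :
    ∃ n ∈ N, ∀ v, φ n v = 0 := by
  classical
  induction N using Finset.induction_on with
  | empty => obtain ⟨n, hn, -⟩ := h 0; simp at hn
  | insert n0 N' hn0 ih =>
    by_contra hcon
    push Not at hcon
    obtain ⟨v, hv⟩ := hcon n0 (Finset.mem_insert_self _ _)
    have h' : ¬ ∀ u, ∃ n ∈ N', φ n u = 0 := by
      intro h'
      obtain ⟨n, hn, hz⟩ := ih h'
      obtain ⟨w, hw⟩ := hcon n (Finset.mem_insert_of_mem hn)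
      exact hw (hz w)
    push Not at h'
    obtain ⟨u, hu⟩ := h'
    choose f hf using fun r : ℕ => h (r • u + v)
    obtain ⟨r, hr, r', hr', hne, heq⟩ :=
      Finset.exists_ne_map_eq_of_card_lt_of_maps_to
        (s := Finset.range ((insert n0 N').card + 1)) (t := insert n0 N') (f := f)
        (by simp) (fun r _ => (hf r).1)
    have h1 := (hf r).2
    have h2 := (hf r').2
    rw [← heq] at h2
    rw [map_add, map_nsmul, nsmul_eq_mul] at h1 h2
    have h3 : ((r : T) - (r' : T)) * φ (f r) u = 0 := by linear_combination h1 - h2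
    have h4 : φ (f r) u = 0 :=
      (mul_eq_zero.mp h3).resolve_left (sub_ne_zero.mpr (Nat.cast_injective.ne hne))
    rcases Finset.mem_insert.mp (hf r).1 with h5 | h5
    · rw [h5] at h1 h4
      rw [h4, mul_zero, zero_add] at h1
      exact hv h1
    · exact hu _ h5 h4

/-- **LF3q (quotient rigidity)**, ring-level form.  `S` is a domain of characteristic zero,
`p`-adically separated, with a family `act` of injective `R0`-algebra endomorphisms (the inertia
group acting on `𝒪[L']`); `m` is an ideal whose `act`-fixed elements are divisible by `p` in the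
fixed ring (`m ∩ O ⊆ p O`).  `N` is a finite set of points of `H` in `S`, closed under
convolution and stable under `act`.  If a point `x` of order `p` reduces to the unit modulo `m`
and is fixed by `act` modulo `N`, then `x ∈ N`. -/
theorem mem_of_quot_fixed {p : ℕ} (hp : p.Prime) (hp2 : p ≠ 2)
    [Coalgebra.IsCocomm R0 H] [Module.Free R0 H] [IsDomain S] [CharZero S]
    (hsep : ∀ a : S, (∀ k : ℕ, (p : S) ^ k ∣ a) → a = 0)
    {ι : Type*} (act : ι → S →ₐ[R0] S) (hact : ∀ i, Function.Injective (act i))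
    (m : Ideal S)
    (hmO : ∀ a ∈ m, (∀ i, act i a = a) → ∃ b : S, (∀ i, act i b = b) ∧ a = p * b)
    (N : Finset (WithConv (H →ₐ[R0] S))) (h1N : 1 ∈ N)
    (hmulN : ∀ a ∈ N, ∀ b ∈ N, a * b ∈ N)
    (hactN : ∀ i, ∀ n ∈ N, toConv ((act i).comp n.ofConv) ∈ N)
    (x : WithConv (H →ₐ[R0] S)) (hxp : x ^ p = 1)
    (hx0 : ∀ h : H, x h - algebraMap R0 S (Coalgebra.counit h) ∈ m)
    (hxN : ∀ i, ∃ n ∈ N, toConv ((act i).comp x.ofConv) = x * n) : x ∈ N := by
  have hfix := fixed hp hp2 hsep m hmO x hxp hx0 hxN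
  have hpt := exists_eq_apply hact h1N hmulN hactN x hfix
  obtain ⟨n, hn, hz⟩ := exists_eq_zero_of_forall_exists N
    (fun n => (x.ofConv.toLinearMap - n.ofConv.toLinearMap).toAddMonoidHom) hpt
  have hxn : x = n := by
    apply WithConv.ofConv_injective
    exact AlgHom.ext fun c => sub_eq_zero.mp (hz c)
  rw [hxn]; exact hn

/-- **LF3b** (the case `N = {1}`): a point of order `p` that reduces to the unit modulo `m`
and is fixed by `act` is trivial. -/
theorem eq_one_of_fixed {p : ℕ} (hp : p.Prime) (hp2 : p ≠ 2)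
    [Coalgebra.IsCocomm R0 H] [Module.Free R0 H] [IsDomain S] [CharZero S]
    (hsep : ∀ a : S, (∀ k : ℕ, (p : S) ^ k ∣ a) → a = 0)
    {ι : Type*} (act : ι → S →ₐ[R0] S) (hact : ∀ i, Function.Injective (act i))
    (m : Ideal S)
    (hmO : ∀ a ∈ m, (∀ i, act i a = a) → ∃ b : S, (∀ i, act i b = b) ∧ a = p * b)
    (x : WithConv (H →ₐ[R0] S)) (hxp : x ^ p = 1)
    (hx0 : ∀ h : H, x h - algebraMap R0 S (Coalgebra.counit h) ∈ m)
    (hxfix : ∀ i, toConv ((act i).comp x.ofConv) = x) : x = 1 := by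
  classical
  have h := mem_of_quot_fixed hp hp2 hsep act hact m hmO {1} (Finset.mem_singleton_self _)
    (by
      intro a ha b hb
      rw [Finset.mem_singleton] at ha hb ⊢
      rw [ha, hb, mul_one])
    (by
      intro i n hn
      rw [Finset.mem_singleton] at hn ⊢
      rw [hn]
      apply WithConv.ofConv_injective
      refine AlgHom.ext fun c => ?_
      simp)
    x hxp hx0 (fun i => ⟨1, Finset.mem_singleton_self _, by rw [mul_one, hxfix i]⟩)
  exact Finset.mem_singleton.mp h



end Fermat.Agent.S56.LF.QuotRigid
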