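import Mathlib
import Fermat.Prelude.Def_GaloisRep_Flat
import Fermat.Agent.S56.Flat.AlgBricks

/-!
# S56, brick LF, row C7 (junction): flat points are quotient-rigid under inertia

`Ω = PadicAlgCl p`, `Gp = Ω ≃ₐ[ℚ_[p]] Ω`, `R0 = ℤ_(p)` (`GaloisRep.ratLocalizedAt p`).

Let `H` be a finite free cocommutative Hopf algebra over `R0` and `e` an additive,
`Gp`-equivariant bijection from its points in `Ω` onto a finite group `X` killed by `p` (the three
clauses of `FlatLocal`).  Let `I ≤ Gp` be a subgroup acting trivially on the residue field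
(`hI1`) and such that an `I`-fixed element of norm `< 1` is `p` times an `I`-fixed element of
norm `≤ 1` (`hI2`); both hold for the inertia subgroup.  Then `X` has a subgroup `E0` containing
every `σ v - v` (`σ ∈ I`) such that for every `I`-stable subgroup `N`, an element `x ∈ E0` with
`τ x - x ∈ N` for all `τ ∈ I` lies in `N`.

The proof transports the ring-level statement `Flat.LF3qStatement` (row A4), taken as a
hypothesis, to the closed unit ball of `Ω`.
-/

set_option autoImplicit false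

namespace Fermat.Agent.S56.LF.QuotRigidFlat

open WithConv

section Generic

variable {R H A B : Type*} [CommRing R] [CommRing H] [Bialgebra R H]
  [CommRing A] [Algebra R A] [CommRing B] [Algebra R B]

/-- Change of coefficients on the points of a bialgebra, as a monoid homomorphism. -/
noncomputable def mapPts (φ : A →ₐ[R] B) : WithConv (H →ₐ[R] A) →* WithConv (H →ₐ[R] B) where
  toFun f := toConv (φ.comp f.ofConv)
  map_one' := by
    apply WithConv.ofConv_injective
    ext h
    simp [AlgHom.convOne_def]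
  map_mul' f g := by
    apply WithConv.ofConv_injective
    simp [AlgHom.comp_convMul_distrib]

@[simp] lemma mapPts_apply (φ : A →ₐ[R] B) (f : WithConv (H →ₐ[R] A)) (h : H) :
    (mapPts φ f).ofConv h = φ (f.ofConv h) := rfl

lemma mapPts_injective (φ : A →ₐ[R] B) (hφ : Function.Injective φ) :
    Function.Injective (mapPts (H := H) φ) := by
  intro f g hfg
  apply WithConv.ofConv_injective
  ext h
  apply hφ
  have := congrArg (fun k : WithConv (H →ₐ[R] B) => k.ofConv h) hfg
  simpa using this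

end Generic

section Norm

variable {K : Type*} [NormedField K] [IsUltrametricDist K]

/-- A root of a monic polynomial with coefficients of norm `≤ 1` has norm `≤ 1`. -/
lemma norm_le_one_of_monic_root (P : Polynomial K) (hP : P.Monic)
    (hc : ∀ i, ‖P.coeff i‖ ≤ 1) (x : K) (hx : P.eval x = 0) : ‖x‖ ≤ 1 := by
  by_contra hlt
  rw [not_le] at hlt
  set n := P.natDegree with hn
  have h1 : P.eval x = x ^ n + ∑ i ∈ Finset.range n, P.coeff i * x ^ i := by
    rw [Polynomial.eval_eq_sum_range, Finset.sum_range_succ, ← hn, add_comm]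
    congr 1
    rw [hn, hP.coeff_natDegree, one_mul]
  rw [hx] at h1
  have h2 : x ^ n = -∑ i ∈ Finset.range n, P.coeff i * x ^ i := by
    rw [eq_neg_iff_add_eq_zero]; exact h1.symm
  have hn0 : n ≠ 0 := by
    intro h0
    rw [h0] at h2
    simp at h2
  have h3 : ‖∑ i ∈ Finset.range n, P.coeff i * x ^ i‖ ≤ ‖x‖ ^ (n - 1) := by
    apply IsUltrametricDist.norm_sum_le_of_forall_le_of_nonneg (by positivity)
    intro i hi
    rw [norm_mul, norm_pow]
    have hi' : i ≤ n - 1 := by
      have := Finset.mem_range.mp hi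
      omega
    calc ‖P.coeff i‖ * ‖x‖ ^ i ≤ 1 * ‖x‖ ^ (n - 1) :=
          mul_le_mul (hc i) (pow_le_pow_right₀ hlt.le hi') (by positivity) zero_le_one
      _ = ‖x‖ ^ (n - 1) := one_mul _
  have h4 : ‖x‖ ^ n ≤ ‖x‖ ^ (n - 1) := by
    rw [← norm_pow, h2, norm_neg]; exact h3
  have h5 : ‖x‖ ^ (n - 1) < ‖x‖ ^ n := pow_lt_pow_right₀ hlt (by omega)
  exact absurd h4 (not_le.mpr h5)

end Norm

section Padic

variable (p : ℕ) [Fact p.Prime]

local notation "Ω" => PadicAlgCl p
local notation "Gp" => (PadicAlgCl p ≃ₐ[ℚ_[p]] PadicAlgCl p)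
local notation "R0" => (GaloisRep.ratLocalizedAt p)

lemma algebraMap_R0_eq (r : R0) : algebraMap R0 Ω r = ((r : ℚ) : Ω) := by
  change algebraMap ℚ Ω (r : ℚ) = _
  simp

lemma norm_ratCast_eq (q : ℚ) : ‖(q : Ω)‖ = ‖(q : ℚ_[p])‖ := by
  rw [← norm_algebraMap' Ω (q : ℚ_[p]), map_ratCast]

lemma norm_algebraMap_R0_le_one (r : R0) : ‖algebraMap R0 Ω r‖ ≤ 1 := by
  rw [algebraMap_R0_eq, norm_ratCast_eq]
  apply Padic.norm_rat_le_one
  have hr : (r : ℚ).den.Coprime p := r.2
  intro hdvd
  have h1 : p ∣ Nat.gcd (r : ℚ).den p := Nat.dvd_gcd hdvd dvd_rfl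
  rw [hr] at h1
  exact (Fact.out : p.Prime).one_lt.ne' (Nat.dvd_one.mp h1)

lemma norm_natCast_p : ‖(p : Ω)‖ = (p : ℝ)⁻¹ := by
  have h2 : ‖algebraMap ℚ_[p] Ω (p : ℚ_[p])‖ = ‖(p : ℚ_[p])‖ := norm_algebraMap' Ω (p : ℚ_[p])
  rw [map_natCast] at h2
  rw [h2, Padic.norm_p]

lemma norm_gal (τ : Gp) (x : Ω) : ‖τ x‖ = ‖x‖ := by
  rw [NormedAlgebra.norm_eq_spectralNorm ℚ_[p], NormedAlgebra.norm_eq_spectralNorm ℚ_[p],
    spectralNorm, spectralNorm, minpoly.algEquiv_eq τ]

/-- The closed unit ball of `PadicAlgCl p`, as a `ℤ_(p)`-subalgebra. -/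
noncomputable def intAlg : Subalgebra R0 Ω where
  carrier := {a | ‖a‖ ≤ 1}
  mul_mem' {a b} ha hb := by
    change ‖a * b‖ ≤ 1
    rw [norm_mul]
    exact mul_le_one₀ ha (norm_nonneg _) hb
  one_mem' := by simp
  add_mem' {a b} ha hb := (IsUltrametricDist.norm_add_le_max a b).trans (max_le ha hb)
  zero_mem' := by simp
  algebraMap_mem' r := norm_algebraMap_R0_le_one p r

lemma mem_intAlg {a : Ω} : a ∈ intAlg p ↔ ‖a‖ ≤ 1 := Iff.rfl

/-- Elements of `Ω` integral over `ℤ_(p)` have norm `≤ 1`. -/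
lemma norm_le_one_of_isIntegral {x : Ω} (hx : IsIntegral R0 x) : ‖x‖ ≤ 1 := by
  obtain ⟨P, hP, hPx⟩ := hx
  apply norm_le_one_of_monic_root (P.map (algebraMap R0 Ω)) (hP.map _)
  · intro i
    rw [Polynomial.coeff_map]
    exact norm_algebraMap_R0_le_one p _
  · rw [Polynomial.eval_map]; exact hPx

/-- A Galois automorphism as a `ℤ_(p)`-algebra endomorphism of `Ω`. -/
noncomputable def galR0 (τ : Gp) : Ω →ₐ[R0] Ω :=
  { (τ : Ω →+* Ω) with
    commutes' := fun r => by
      change τ (algebraMap R0 Ω r) = algebraMap R0 Ω r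
      rw [algebraMap_R0_eq, map_ratCast] }

@[simp] lemma galR0_apply (τ : Gp) (x : Ω) : galR0 p τ x = τ x := rfl

/-- The action of a subgroup of the Galois group on the closed unit ball. -/
noncomputable instance actInt (I : Subgroup Gp) : MulSemiringAction ↥I ↥(intAlg p) where
  smul τ a := ⟨(τ : Gp) (a : Ω), by
    have := a.2
    rw [mem_intAlg] at this ⊢
    rwa [norm_gal]⟩
  one_smul a := Subtype.ext rfl
  mul_smul τ τ' a := Subtype.ext rfl
  smul_zero τ := Subtype.ext (map_zero (τ : Gp))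
  smul_add τ a b := Subtype.ext (map_add (τ : Gp) (a : Ω) (b : Ω))
  smul_one τ := Subtype.ext (map_one (τ : Gp))
  smul_mul τ a b := Subtype.ext (map_mul (τ : Gp) (a : Ω) (b : Ω))

lemma coe_smul_int (I : Subgroup Gp) (τ : ↥I) (a : ↥(intAlg p)) :
    ((τ • a : ↥(intAlg p)) : Ω) = (τ : Gp) (a : Ω) := rfl

instance smulComm_int (I : Subgroup Gp) : SMulCommClass ↥I R0 ↥(intAlg p) where
  smul_comm τ r a := by
    apply Subtype.ext
    change (τ : Gp) (r • (a : Ω)) = r • (τ : Gp) (a : Ω)
    rw [Algebra.smul_def, Algebra.smul_def, map_mul, algebraMap_R0_eq, map_ratCast]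

/-- The open unit ball, as an ideal of the closed unit ball. -/
noncomputable def maxId : Ideal ↥(intAlg p) where
  carrier := {a | ‖(a : Ω)‖ < 1}
  add_mem' {a b} ha hb :=
    lt_of_le_of_lt (IsUltrametricDist.norm_add_le_max (a : Ω) (b : Ω)) (max_lt ha hb)
  zero_mem' := by simp
  smul_mem' c a ha := by
    change ‖((c * a : ↥(intAlg p)) : Ω)‖ < 1
    rw [MulMemClass.coe_mul, norm_mul]
    have hc : ‖(c : Ω)‖ ≤ 1 := c.2
    calc ‖(c : Ω)‖ * ‖(a : Ω)‖ ≤ 1 * ‖(a : Ω)‖ :=
          mul_le_mul_of_nonneg_right hc (norm_nonneg _)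
      _ < 1 := by rw [one_mul]; exact ha

lemma mem_maxId {a : ↥(intAlg p)} : a ∈ maxId p ↔ ‖(a : Ω)‖ < 1 := Iff.rfl

/-- The residue ring of the closed unit ball.  (A `def`: instance search never has to look
inside the quotient.) -/
def Res : Type := ↥(intAlg p) ⧸ maxId p

noncomputable instance instCommRingRes : CommRing (Res p) :=
  Ideal.Quotient.commRing (maxId p)

noncomputable instance instAlgebraRes : Algebra R0 (Res p) :=
  Ideal.Quotient.algebra R0

/-- Reduction modulo the open unit ball. -/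
noncomputable def resMap : ↥(intAlg p) →ₐ[R0] Res p :=
  Ideal.Quotient.mkₐ R0 (maxId p)

lemma resMap_eq_iff {a b : ↥(intAlg p)} :
    resMap p a = resMap p b ↔ ‖(a : Ω) - (b : Ω)‖ < 1 := by
  change Ideal.Quotient.mk (maxId p) a = Ideal.Quotient.mk (maxId p) b ↔ _
  rw [Ideal.Quotient.eq, mem_maxId]
  rfl


/-- **Junction for row C7.**  The points of a finite free cocommutative Hopf algebra over `ℤ_(p)`
in `PadicAlgCl p`, transported to a finite group `X` killed by `p`, are quotient-rigid under any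
subgroup `I` of the Galois group that acts trivially on the residue field and whose fixed
elements of norm `< 1` are divisible by `p` among fixed elements of norm `≤ 1`. -/
theorem quotRigid_of_points (hp2 : p ≠ 2) (hLF3q : Flat.LF3qStatement)
    (I : Subgroup Gp)
    (hI1 : ∀ τ ∈ I, ∀ a : Ω, ‖a‖ ≤ 1 → ‖τ a - a‖ < 1)
    (hI2 : ∀ a : Ω, (∀ τ ∈ I, τ a = a) → ‖a‖ < 1 →
      ∃ b : Ω, ‖b‖ ≤ 1 ∧ (∀ τ ∈ I, τ b = b) ∧ a = (p : Ω) * b)
    {H : Type} [CommRing H] [HopfAlgebra R0 H] [Module.Finite R0 H] [Module.Free R0 H]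
    [Coalgebra.IsCocomm R0 H]
    {X : Type} [AddCommGroup X] [Finite X] (act : Gp → X → X) (hpX : ∀ x : X, p • x = 0)
    (e : WithConv (H →ₐ[R0] Ω) ≃ X) (he : ∀ f g, e (f * g) = e f + e g)
    (hact : ∀ (τ : Gp) (f g : WithConv (H →ₐ[R0] Ω)),
      (∀ h : H, g.ofConv h = τ (f.ofConv h)) → e g = act τ (e f)) :
    ∃ E0 : AddSubgroup X, (∀ σ ∈ I, ∀ v, act σ v - v ∈ E0) ∧
      ∀ N : AddSubgroup X, (∀ τ ∈ I, ∀ n ∈ N, act τ n ∈ N) →
        ∀ x ∈ E0, (∀ τ ∈ I, act τ x - x ∈ N) → x ∈ N := by
  classical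
  -- basic facts about `e`
  have he1 : e 1 = 0 := by
    have := he 1 1
    rw [mul_one] at this
    exact (add_eq_left.mp this.symm)
  have hepow : ∀ (f : WithConv (H →ₐ[R0] Ω)) (n : ℕ), e (f ^ n) = n • e f := by
    intro f n
    induction n with
    | zero => simp [he1]
    | succ n ih => rw [pow_succ, he, ih, succ_nsmul]
  have hsymm_add : ∀ y z : X, e.symm (y + z) = e.symm y * e.symm z := by
    intro y z
    apply e.injective
    rw [he]; simp
  have hsymm_zero : e.symm 0 = 1 := by
    apply e.injective; rw [he1]; simp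
  -- integrality of points
  have hint : ∀ (f : WithConv (H →ₐ[R0] Ω)) (h : H), f.ofConv h ∈ intAlg p := by
    intro f h
    have h1 : IsIntegral R0 h := Algebra.IsIntegral.isIntegral h
    exact norm_le_one_of_isIntegral p (h1.map f.ofConv)
  -- the comparison `G(A) → G(Ω)` and its inverse
  let J : WithConv (H →ₐ[R0] ↥(intAlg p)) →* WithConv (H →ₐ[R0] Ω) := mapPts (intAlg p).val
  have hJinj : Function.Injective J := mapPts_injective _ Subtype.val_injective
  let cor : WithConv (H →ₐ[R0] Ω) → WithConv (H →ₐ[R0] ↥(intAlg p)) :=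
    fun f => toConv (f.ofConv.codRestrict (intAlg p) (hint f))
  have hJcor : ∀ f, J (cor f) = f := by
    intro f
    apply WithConv.ofConv_injective
    ext h
    rfl
  have hcorJ : ∀ g, cor (J g) = g := fun g => hJinj (hJcor _)
  have hcor_mul : ∀ f g, cor (f * g) = cor f * cor g := by
    intro f g
    apply hJinj
    rw [map_mul, hJcor, hJcor, hJcor]
  have hcor_one : cor 1 = 1 := by
    apply hJinj
    rw [map_one, hJcor]
  have hcor_apply : ∀ (f : WithConv (H →ₐ[R0] Ω)) (h : H),
      (((cor f).ofConv h : ↥(intAlg p)) : Ω) = f.ofConv h := fun f h => rfl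
  -- the Galois action on points
  let gal : Gp → WithConv (H →ₐ[R0] Ω) → WithConv (H →ₐ[R0] Ω) :=
    fun τ f => toConv ((galR0 p τ).comp f.ofConv)
  have hgal : ∀ τ f, e (gal τ f) = act τ (e f) := fun τ f => hact τ f (gal τ f) (fun h => rfl)
  -- reduction modulo the open unit ball
  let red : WithConv (H →ₐ[R0] ↥(intAlg p)) →* WithConv (H →ₐ[R0] Res p) :=
    mapPts (resMap p)
  let ψ : X → WithConv (H →ₐ[R0] Res p) := fun y => red (cor (e.symm y))
  have hψ0 : ψ 0 = 1 := by
    change red (cor (e.symm 0)) = 1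
    rw [hsymm_zero, hcor_one, map_one]
  have hψadd : ∀ y z, ψ (y + z) = ψ y * ψ z := by
    intro y z
    change red (cor (e.symm (y + z))) = red (cor (e.symm y)) * red (cor (e.symm z))
    rw [hsymm_add, hcor_mul, map_mul]
  have hψnsmul : ∀ (n : ℕ) (y : X), ψ (n • y) = ψ y ^ n := by
    intro n y
    induction n with
    | zero => rw [zero_nsmul, hψ0, pow_zero]
    | succ n ih => rw [succ_nsmul, hψadd, ih, pow_succ]
  have hψred : ∀ (y z : X), (∀ h : H, ‖(e.symm y).ofConv h - (e.symm z).ofConv h‖ < 1) →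
      ψ y = ψ z := by
    intro y z hyz
    apply WithConv.ofConv_injective
    ext h
    change resMap p ((cor (e.symm y)).ofConv h) = resMap p ((cor (e.symm z)).ofConv h)
    rw [resMap_eq_iff]
    exact hyz h
  have hp0 : 0 < p := (Fact.out : p.Prime).pos
  refine ⟨{ carrier := {y | ψ y = 1}
            zero_mem' := hψ0
            add_mem' := fun {y z} hy hz => by
              change ψ (y + z) = 1
              rw [hψadd, show ψ y = 1 from hy, show ψ z = 1 from hz, mul_one]
            neg_mem' := fun {y} hy => by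
              change ψ (-y) = 1
              have h1 : -y = (p - 1) • y := by
                rw [eq_comm, ← add_eq_zero_iff_eq_neg, ← succ_nsmul, Nat.sub_add_cancel hp0]
                exact hpX y
              rw [h1, hψnsmul, show ψ y = 1 from hy, one_pow] }, ?_, ?_⟩
  · -- inertia acts trivially modulo `E0`
    intro σ hσ v
    change ψ (act σ v - v) = 1
    have h1 : ψ (act σ v) = ψ v := by
      apply hψred
      intro h
      have h2 : e.symm (act σ v) = gal σ (e.symm v) := by
        apply e.injective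
        rw [hgal]; simp
      rw [h2]
      exact hI1 σ hσ _ (hint _ h)
    have h3 : ψ (act σ v - v) * ψ v = ψ v := by
      rw [← hψadd, sub_add_cancel, h1]
    have h4 : ψ v * ψ (-v) = 1 := by
      rw [← hψadd, add_neg_cancel, hψ0]
    calc ψ (act σ v - v) = ψ (act σ v - v) * (ψ v * ψ (-v)) := by rw [h4, mul_one]
      _ = ψ v * ψ (-v) := by rw [← mul_assoc, h3]
      _ = 1 := h4
  · -- quotient rigidity, from `LF3qStatement` on the closed unit ball
    intro N hN x hx hxN
    have hx1 : ψ x = 1 := hx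
    have : CharZero ↥(intAlg p) := (intAlg p).val.toRingHom.charZero
    have hsep : ∀ a : ↥(intAlg p), (∀ n : ℕ, (p : ↥(intAlg p)) ^ n ∣ a) → a = 0 := by
      intro a ha
      apply Subtype.ext
      change (a : Ω) = 0
      rw [← norm_eq_zero]
      have hle : ∀ n : ℕ, ‖(a : Ω)‖ ≤ ((p : ℝ)⁻¹) ^ n := by
        intro n
        obtain ⟨b, hb⟩ := ha n
        have hab : (a : Ω) = (p : Ω) ^ n * (b : Ω) := by
          have := congrArg Subtype.val hb
          simpa using this
        rw [hab, norm_mul, norm_pow, norm_natCast_p]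
        have hb1 : ‖(b : Ω)‖ ≤ 1 := b.2
        calc ((p : ℝ)⁻¹) ^ n * ‖(b : Ω)‖ ≤ ((p : ℝ)⁻¹) ^ n * 1 :=
              mul_le_mul_of_nonneg_left hb1 (by positivity)
          _ = ((p : ℝ)⁻¹) ^ n := mul_one _
      have hp1 : (p : ℝ)⁻¹ < 1 :=
        inv_lt_one_of_one_lt₀ (by exact_mod_cast (Fact.out : p.Prime).one_lt)
      have hlim := tendsto_pow_atTop_nhds_zero_of_lt_one (by positivity) hp1
      exact le_antisymm (ge_of_tendsto' hlim hle) (norm_nonneg _)
    have hmO : ∀ a ∈ maxId p, (∀ τ : ↥I, τ • a = a) →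
        ∃ b : ↥(intAlg p), (∀ τ : ↥I, τ • b = b) ∧ a = (p : ↥(intAlg p)) * b := by
      intro a ha hfix
      obtain ⟨b, hb1, hbfix, hab⟩ :=
        hI2 (a : Ω) (fun τ hτ => congrArg Subtype.val (hfix ⟨τ, hτ⟩)) ha
      refine ⟨⟨b, hb1⟩, fun τ => Subtype.ext (hbfix τ τ.2), Subtype.ext ?_⟩
      simpa using hab
    let N' : Submonoid (WithConv (H →ₐ[R0] ↥(intAlg p))) :=
      { carrier := {g | e (J g) ∈ N}
        one_mem' := by
          change e (J 1) ∈ N
          rw [map_one, he1]; exact N.zero_mem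
        mul_mem' := fun {a b} ha hb => by
          change e (J (a * b)) ∈ N
          rw [map_mul, he]; exact N.add_mem ha hb }
    have : Finite (WithConv (H →ₐ[R0] ↥(intAlg p))) :=
      Finite.of_injective (fun g => e (J g)) (e.injective.comp hJinj)
    have : Finite ↥N' := Subtype.finite
    have hJx' : J (cor (e.symm x)) = e.symm x := hJcor _
    have hxp : cor (e.symm x) ^ p = 1 := by
      apply hJinj
      rw [map_pow, map_one, hJx']
      apply e.injective
      rw [hepow, he1, Equiv.apply_symm_apply]; exact hpX x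
    have hx0 : ∀ h : H, (cor (e.symm x)).ofConv h -
        algebraMap R0 ↥(intAlg p) (Coalgebra.counit h) ∈ maxId p := by
      intro h
      have h1 := congrArg (fun k : WithConv (H →ₐ[R0] Res p) => k.ofConv h) hx1
      change resMap p ((cor (e.symm x)).ofConv h) =
        algebraMap R0 (Res p) (Coalgebra.counit h) at h1
      rw [← AlgHom.commutes (resMap p)] at h1
      rw [mem_maxId]
      exact (resMap_eq_iff p).mp h1
    have hΓN : ∀ τ : ↥I, ∀ n ∈ N', ∃ n' ∈ N', ∀ h : H, n'.ofConv h = τ • n.ofConv h := by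
      intro τ n hn
      refine ⟨cor (gal (τ : Gp) (J n)), ?_, fun h => Subtype.ext rfl⟩
      change e (J (cor (gal (τ : Gp) (J n)))) ∈ N
      rw [hJcor, hgal]
      exact hN τ τ.2 _ hn
    have hΓx : ∀ τ : ↥I, ∃ n ∈ N', ∀ h : H,
        τ • (cor (e.symm x)).ofConv h = (cor (e.symm x) * n).ofConv h := by
      intro τ
      refine ⟨cor (e.symm (act (τ : Gp) x - x)), ?_, fun h => ?_⟩
      · change e (J (cor (e.symm (act (τ : Gp) x - x)))) ∈ N
        rw [hJcor, Equiv.apply_symm_apply]
        exact hxN τ τ.2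
      · have h1 : J (cor (e.symm x) * cor (e.symm (act (τ : Gp) x - x))) =
            gal (τ : Gp) (e.symm x) := by
          apply e.injective
          rw [map_mul, he, hJcor, hJcor, hgal]
          simp
        have h2 := congrArg (fun k : WithConv (H →ₐ[R0] Ω) => k.ofConv h) h1
        exact Subtype.ext h2.symm
    have hmem : cor (e.symm x) ∈ N' :=
      hLF3q p hp2 R0 H ↥(intAlg p) ↥I (maxId p) hsep hmO N' (cor (e.symm x)) hxp hx0 hΓN hΓx
    have hfin : e (J (cor (e.symm x))) ∈ N := hmem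
    rwa [hJx', Equiv.apply_symm_apply] at hfin

end Padic

end Fermat.Agent.S56.LF.QuotRigidFlat
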