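import Mathlib
import Fermat.Agent.S56.Flat.Defs
import Fermat.Agent.S56.Flat.QuotRigid
import Fermat.Agent.S56.LF.PThree
import Fermat.Agent.S56.LF.QuotRigidFlat

/-!
# S56, brick LF, row C7 (junction, instance): `FlatLocal ⇒ QuotRigid`

The junction `QuotRigidFlat.quotRigid_of_points` with its two open inputs plugged in:

* `Flat.LF3qStatement` is the theorem `Flat.QuotRigid.lf3qStatement` (row A4);
* the points are those of `Flat.FlatLocal` (`Flat/Defs.lean`).

The conclusion is `PThree.QuotRigid act I`, the input of the abstract core of row C7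
(`LF/PThree.lean`).  The subgroup `I` is any subgroup of `Gal(ℚ̄_p/ℚ_p)` acting trivially on the
residue field (`hI1`) whose fixed elements of norm `< 1` are `p` times fixed elements of norm
`≤ 1` (`hI2`): the two facts of row B3 for the inertia subgroup.
-/

set_option autoImplicit false

namespace Fermat.Agent.S56.LF.QuotRigidInst

open Fermat.Agent.S56

variable (p : ℕ) [Fact p.Prime]

/-- **`FlatLocal ⇒ QuotRigid`.**  A finite group killed by `p` which is flat (the points of a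
finite free cocommutative Hopf algebra over `ℤ_(p)`) is quotient-rigid under `I`. -/
theorem quotRigid_of_flatLocal (hp2 : p ≠ 2) (I : Subgroup (Flat.Gp p))
    (hI1 : ∀ τ ∈ I, ∀ a : PadicAlgCl p, ‖a‖ ≤ 1 → ‖τ a - a‖ < 1)
    (hI2 : ∀ a : PadicAlgCl p, (∀ τ ∈ I, τ a = a) → ‖a‖ < 1 →
      ∃ b : PadicAlgCl p, ‖b‖ ≤ 1 ∧ (∀ τ ∈ I, τ b = b) ∧ a = (p : PadicAlgCl p) * b)
    {X : Type} [AddCommGroup X] [Finite X] (act : Flat.Gp p → X → X)
    (hpX : ∀ x : X, p • x = 0) (hflat : Flat.FlatLocal p X act) :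
    PThree.QuotRigid act I := by
  obtain ⟨H, _, _, _, _, _, e, he, hact⟩ := hflat
  exact QuotRigidFlat.quotRigid_of_points p hp2 Flat.QuotRigid.lf3qStatement I hI1 hI2 act hpX
    e he hact

/-- The case of a lift `r + ε d` to the dual numbers of a finite field of characteristic `p`:
the carrier `k² × k²` is finite and killed by `p`. -/
theorem quotRigid_liftAct (hp2 : p ≠ 2) (I : Subgroup (Flat.Gp p))
    (hI1 : ∀ τ ∈ I, ∀ a : PadicAlgCl p, ‖a‖ ≤ 1 → ‖τ a - a‖ < 1)
    (hI2 : ∀ a : PadicAlgCl p, (∀ τ ∈ I, τ a = a) → ‖a‖ < 1 →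
      ∃ b : PadicAlgCl p, ‖b‖ ≤ 1 ∧ (∀ τ ∈ I, τ b = b) ∧ a = (p : PadicAlgCl p) * b)
    {k : Type} [Field k] [Finite k] [CharP k p]
    (r d : Flat.Gp p → Matrix (Fin 2) (Fin 2) k)
    (hflat : Flat.FlatLocal p ((Fin 2 → k) × (Fin 2 → k)) (Flat.liftAct r d)) :
    PThree.QuotRigid (Flat.liftAct r d) I := by
  refine quotRigid_of_flatLocal p hp2 I hI1 hI2 (Flat.liftAct r d) ?_ hflat
  intro x
  ext i
  · simp [nsmul_eq_mul]
  · simp [nsmul_eq_mul]

end Fermat.Agent.S56.LF.QuotRigidInst
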