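import Mathlib
import Fermat.Agent.S56.Flat.Defs
import Fermat.Agent.S56.Flat.Adapter
import Fermat.Agent.S56.LF.QuotRigidInst

/-!
# S56, brick LF: flat rigidity in Galois-module form (LF3b + LF3q for the inertial elements)

`inertial p` is the subgroup of `Gal(ℚ̄_p/ℚ_p)` of the elements acting trivially on the residue
field (`‖τ x - x‖ < 1` for `‖x‖ ≤ 1`); it is normal.

`flatRigid`: a flat `X` killed by `p` has a `Gal`-stable subgroup `X0` containing `(τ - 1) X` for
every inertial `τ`, such that an element `x ∈ X0` with `(τ - 1) x ∈ N'` for all inertial `τ`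
lies in `N'`, for every inertia-stable subgroup `N'`.  The only input left open is the fact of
row B3 that an inertia-fixed element of norm `< 1` is `p` times an inertia-fixed element of norm
`≤ 1` (hypothesis `hUr`).  No finiteness hypothesis on `X`: it follows from flatness.
-/

set_option autoImplicit false

namespace Fermat.Agent.S56.LF.FlatRigid

open Fermat.Agent.S56 WithConv

variable (p : ℕ) [Fact p.Prime]

/-- The elements of `Gal(ℚ̄_p/ℚ_p)` acting trivially on the residue field. -/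
def inertial : Subgroup (Flat.Gp p) where
  carrier := {τ | ∀ x : PadicAlgCl p, ‖x‖ ≤ 1 → ‖τ x - x‖ < 1}
  mul_mem' {σ τ} hσ hτ := by
    intro x hx
    have h1 : ‖τ x‖ ≤ 1 := by rw [QuotRigidFlat.norm_gal]; exact hx
    have h2 : (σ * τ) x - x = (σ (τ x) - τ x) + (τ x - x) := by
      rw [AlgEquiv.mul_apply]; ring
    rw [h2]
    exact lt_of_le_of_lt (IsUltrametricDist.norm_add_le_max _ _) (max_lt (hσ _ h1) (hτ x hx))
  one_mem' := by
    intro x _
    simp
  inv_mem' {τ} hτ := by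
    intro x hx
    have h1 : ‖τ⁻¹ x‖ ≤ 1 := by rw [QuotRigidFlat.norm_gal]; exact hx
    have h2 : ‖τ (τ⁻¹ x) - τ⁻¹ x‖ < 1 := hτ _ h1
    have h3 : τ (τ⁻¹ x) = x := by
      rw [← AlgEquiv.mul_apply, mul_inv_cancel, AlgEquiv.one_apply]
    rw [h3, ← norm_neg, neg_sub] at h2
    exact h2

lemma mem_inertial {τ : Flat.Gp p} :
    τ ∈ inertial p ↔ ∀ x : PadicAlgCl p, ‖x‖ ≤ 1 → ‖τ x - x‖ < 1 := Iff.rfl

lemma conj_mem_inertial (σ : Flat.Gp p) {τ : Flat.Gp p} (hτ : τ ∈ inertial p) :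
    σ * τ * σ⁻¹ ∈ inertial p := by
  intro x hx
  have h1 : ‖σ⁻¹ x‖ ≤ 1 := by rw [QuotRigidFlat.norm_gal]; exact hx
  have h2 : (σ * τ * σ⁻¹) x - x = σ (τ (σ⁻¹ x) - σ⁻¹ x) := by
    have h3 : σ (σ⁻¹ x) = x := by
      rw [← AlgEquiv.mul_apply, mul_inv_cancel, AlgEquiv.one_apply]
    rw [map_sub, h3, AlgEquiv.mul_apply, AlgEquiv.mul_apply]
  rw [h2, QuotRigidFlat.norm_gal]
  exact hτ _ h1

instance normal_inertial : (inertial p).Normal :=
  ⟨fun _ hτ σ => conj_mem_inertial p σ hτ⟩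

/-- **Flat rigidity.**  The literal of the row Prop `FlatRigidStatement` (LF3b + LF3q in
Galois-module form), with the inertial elements spelled out by the norm, from the one fact of
row B3 about inertia-fixed elements. -/
theorem flatRigid (hp2 : p ≠ 2)
    (hUr : ∀ a : PadicAlgCl p,
      (∀ τ : Flat.Gp p, (∀ x : PadicAlgCl p, ‖x‖ ≤ 1 → ‖τ x - x‖ < 1) → τ a = a) → ‖a‖ < 1 →
      ∃ b : PadicAlgCl p, ‖b‖ ≤ 1 ∧
        (∀ τ : Flat.Gp p, (∀ x : PadicAlgCl p, ‖x‖ ≤ 1 → ‖τ x - x‖ < 1) → τ b = b) ∧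
        a = (p : PadicAlgCl p) * b)
    (X : Type) [AddCommGroup X] (act : Flat.Gp p → X → X) (hpX : ∀ x : X, p • x = 0)
    (hflat : Flat.FlatLocal p X act) :
    ∃ X0 : AddSubgroup X,
      (∀ σ : Flat.Gp p, ∀ x ∈ X0, act σ x ∈ X0) ∧
      (∀ τ : Flat.Gp p, (∀ x : PadicAlgCl p, ‖x‖ ≤ 1 → ‖τ x - x‖ < 1) →
        ∀ x : X, act τ x - x ∈ X0) ∧
      ∀ N' : AddSubgroup X,
        (∀ τ : Flat.Gp p, (∀ x : PadicAlgCl p, ‖x‖ ≤ 1 → ‖τ x - x‖ < 1) →
          ∀ n ∈ N', act τ n ∈ N') →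
        ∀ x ∈ X0,
          (∀ τ : Flat.Gp p, (∀ x : PadicAlgCl p, ‖x‖ ≤ 1 → ‖τ x - x‖ < 1) →
            act τ x - x ∈ N') → x ∈ N' := by
  classical
  -- the action is an action by additive maps, and `X` is finite
  have hfacts : Finite X ∧ (∀ σ τ x, act (σ * τ) x = act σ (act τ x)) ∧
      (∀ σ x y, act σ (x + y) = act σ x + act σ y) := by
    obtain ⟨H, _, _, _, _, _, e, he, hact⟩ := hflat
    let gal : Flat.Gp p → WithConv (H →ₐ[GaloisRep.ratLocalizedAt p] PadicAlgCl p) →*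
        WithConv (H →ₐ[GaloisRep.ratLocalizedAt p] PadicAlgCl p) :=
      fun τ => QuotRigidFlat.mapPts (QuotRigidFlat.galR0 p τ)
    have hgal : ∀ τ f, e (gal τ f) = act τ (e f) := fun τ f => hact τ f (gal τ f) (fun h => rfl)
    have hact' : ∀ τ x, act τ x = e (gal τ (e.symm x)) := by
      intro τ x
      rw [hgal, Equiv.apply_symm_apply]
    refine ⟨Finite.of_equiv _ e, ?_, ?_⟩
    · intro σ τ x
      rw [hact' (σ * τ), hact' σ, hact' τ, Equiv.symm_apply_apply]
      rfl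
    · intro σ x y
      rw [hact' σ, hact' σ x, hact' σ y, ← he, ← map_mul]
      congr 2
      apply e.injective
      rw [he]; simp
  obtain ⟨hfin, hmul, hadd⟩ := hfacts
  have hzero : ∀ σ, act σ 0 = 0 := by
    intro σ
    have := hadd σ 0 0
    rw [add_zero] at this
    exact add_eq_left.mp this.symm
  have hneg : ∀ σ x, act σ (-x) = -act σ x := by
    intro σ x
    have := hadd σ x (-x)
    rw [add_neg_cancel, hzero] at this
    exact (neg_eq_of_add_eq_zero_right this.symm).symm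
  have hsub : ∀ σ x y, act σ (x - y) = act σ x - act σ y := by
    intro σ x y
    rw [sub_eq_add_neg, hadd, hneg, ← sub_eq_add_neg]
  obtain ⟨E0, hE1, hE2⟩ := QuotRigidInst.quotRigid_of_flatLocal p hp2 (inertial p)
    (fun τ hτ => hτ) hUr act hpX hflat
  let gen : Set X := {y | ∃ τ ∈ inertial p, ∃ x : X, y = act τ x - x}
  have hgenE0 : AddSubgroup.closure gen ≤ E0 := by
    rw [AddSubgroup.closure_le]
    rintro y ⟨τ, hτ, x, rfl⟩
    exact hE1 τ hτ x
  refine ⟨AddSubgroup.closure gen, ?_, ?_, ?_⟩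
  · intro σ x hx
    induction hx using AddSubgroup.closure_induction with
    | mem y hy =>
      obtain ⟨τ, hτ, x, rfl⟩ := hy
      apply AddSubgroup.subset_closure
      refine ⟨σ * τ * σ⁻¹, conj_mem_inertial p σ hτ, act σ x, ?_⟩
      rw [hsub, ← hmul, ← hmul, inv_mul_cancel_right]
    | zero => rw [hzero]; exact AddSubgroup.zero_mem _
    | add y z _ _ hy hz => rw [hadd]; exact AddSubgroup.add_mem _ hy hz
    | neg y _ hy => rw [hneg]; exact AddSubgroup.neg_mem _ hy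
  · intro τ hτ x
    exact AddSubgroup.subset_closure ⟨τ, hτ, x, rfl⟩
  · intro N' hN' x hx hxN'
    exact hE2 N' hN' x (hgenE0 hx) hxN'

end Fermat.Agent.S56.LF.FlatRigid
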