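import Mathlib

/-!
# S56, brick LF, row C6 = LF8: the three-step argument on cocycles (abstract form)

`Γ` a group, `k` a field, `r : Γ →* GL (Fin 2) k`.  Cocycles are plain functions
`c : Γ → Matrix (Fin 2) (Fin 2) k` with trace `0` and
`c (σ * τ) = c σ + r σ * c τ * (r σ)⁻¹`  (`Z1 r`); coboundaries are `σ ↦ r σ * X * (r σ)⁻¹ - X`
with `tr X = 0` (`B1 r`).  No cohomology groups, no local fields: the arithmetic enters only
through three `k`-subspaces `Hγ Hα Hβ` of functions on a subgroup `N` (in the application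
`N = G_K` and the subspaces are the spaces `𝓗(χ₂/χ₁)`, `𝓗(1)`, `𝓗(χ₁/χ₂)` of Kummer type).

* `finrank_triangular` (shape (R)): `r` upper triangular with diagonal characters trivial on `N`
  and different somewhere.  If every cocycle of the subspace `C ⊔ B1 r` which is not a
  coboundary has its (normalised) entries on `N` in `Hγ`, `Hα`, `Hβ`, then
  `dim C / (C ∩ B¹) + [b|N ≠ 0] ≤ dim Hγ + dim Hα + dim Hβ`.
* `finrank_induced` (shape (I)): `r` diagonal on a subgroup `Γ₀` of index `2`, antidiagonal at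
  `F ∉ Γ₀`, trivial on `N ≤ Γ₀`; then `dim C / (C ∩ B¹) ≤ dim Hγ` as soon as the functions of
  `Hα` are invariant under conjugation by `F`.
* `finrank_triangular_le_one_add_commutant`: with `dim Hα ≤ 1`, `dim Hγ + dim Hβ ≤ 1` the bound
  of shape (R) reads `dim C / (C ∩ B¹) ≤ 1 + dim {X | tr X = 0, X commutes with r}`.
* `add_eq_zero_of_index`, `twisted_coboundary_of_index` (and the `_of_relIndex` forms on a
  subgroup `Γ₀`): the two "`|Γ / N|` is prime to `p`" inputs of both theorems.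
* `one_le_finrank_commutant_of_split`: `b|N = 0` gives a non-zero traceless matrix commuting
  with `r`.
* change of basis: `conjRep P r`, `conjFun P`, `conjFun_mem_Z1`, `conjFun_mem_B1_iff`,
  `quotConjEquiv` (the quotient `C / (C ∩ B¹)` is unchanged), `finrank_commutant_conjRep`.
-/

set_option autoImplicit false

namespace Fermat.Agent.S56.LF.ThreeStep

open Matrix Module

variable {Γ : Type*} [Group Γ] {k : Type*} [Field k]

/-! ### Generalities -/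

/-- The adjoint action of `r σ` on `2 × 2` matrices. -/
def ad (r : Γ →* GL (Fin 2) k) (σ : Γ) (X : Matrix (Fin 2) (Fin 2) k) :
    Matrix (Fin 2) (Fin 2) k :=
  (r σ : Matrix (Fin 2) (Fin 2) k) * X * ((r σ)⁻¹ : GL (Fin 2) k)

theorem ad_mul_self (r : Γ →* GL (Fin 2) k) (σ : Γ) (X : Matrix (Fin 2) (Fin 2) k) :
    ad r σ X * (r σ : Matrix (Fin 2) (Fin 2) k) = (r σ : Matrix (Fin 2) (Fin 2) k) * X := by
  unfold ad
  rw [Matrix.mul_assoc, Units.inv_mul, Matrix.mul_one]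

theorem ad_add (r : Γ →* GL (Fin 2) k) (σ : Γ) (X Y : Matrix (Fin 2) (Fin 2) k) :
    ad r σ (X + Y) = ad r σ X + ad r σ Y := by
  simp only [ad, Matrix.mul_add, Matrix.add_mul]

theorem ad_sub (r : Γ →* GL (Fin 2) k) (σ : Γ) (X Y : Matrix (Fin 2) (Fin 2) k) :
    ad r σ (X - Y) = ad r σ X - ad r σ Y := by
  simp only [ad, Matrix.mul_sub, Matrix.sub_mul]

theorem ad_smul (r : Γ →* GL (Fin 2) k) (σ : Γ) (a : k) (X : Matrix (Fin 2) (Fin 2) k) :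
    ad r σ (a • X) = a • ad r σ X := by
  simp only [ad, Matrix.mul_smul, Matrix.smul_mul]

theorem ad_zero (r : Γ →* GL (Fin 2) k) (σ : Γ) : ad r σ 0 = 0 := by
  simp [ad]

theorem ad_mul (r : Γ →* GL (Fin 2) k) (σ τ : Γ) (X : Matrix (Fin 2) (Fin 2) k) :
    ad r (σ * τ) X = ad r σ (ad r τ X) := by
  simp only [ad, map_mul, _root_.mul_inv_rev, Units.val_mul, Matrix.mul_assoc]

theorem ad_one (r : Γ →* GL (Fin 2) k) (X : Matrix (Fin 2) (Fin 2) k) : ad r 1 X = X := by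
  simp [ad]

theorem trace_ad (r : Γ →* GL (Fin 2) k) (σ : Γ) (X : Matrix (Fin 2) (Fin 2) k) :
    (ad r σ X).trace = X.trace :=
  Matrix.trace_units_conj (r σ) X

/-- The traceless `2 × 2` matrices. -/
def sl2 (k : Type*) [Field k] : Submodule k (Matrix (Fin 2) (Fin 2) k) where
  carrier := {X | X.trace = 0}
  add_mem' := by
    intro X Y hX hY
    show (X + Y).trace = 0
    have hX' : X.trace = 0 := hX
    have hY' : Y.trace = 0 := hY
    rw [Matrix.trace_add, hX', hY', add_zero]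
  zero_mem' := Matrix.trace_zero (Fin 2) k
  smul_mem' := by
    intro a X hX
    show (a • X).trace = 0
    have hX' : X.trace = 0 := hX
    rw [Matrix.trace_smul, hX', smul_zero]

theorem mem_sl2 {X : Matrix (Fin 2) (Fin 2) k} : X ∈ sl2 k ↔ X.trace = 0 := Iff.rfl

/-- The cocycles of `Γ` in the traceless matrices (conjugation action through `r`). -/
def Z1 (r : Γ →* GL (Fin 2) k) : Submodule k (Γ → Matrix (Fin 2) (Fin 2) k) where
  carrier := {c | (∀ σ, (c σ).trace = 0) ∧ ∀ σ τ, c (σ * τ) = c σ + ad r σ (c τ)}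
  add_mem' := by
    rintro c c' ⟨h1, h2⟩ ⟨h1', h2'⟩
    refine ⟨fun σ => ?_, fun σ τ => ?_⟩
    · rw [Pi.add_apply, Matrix.trace_add, h1 σ, h1' σ, add_zero]
    · simp only [Pi.add_apply, h2 σ τ, h2' σ τ, ad_add]
      abel
  zero_mem' := ⟨fun σ => by simp, fun σ τ => by simp [ad_zero]⟩
  smul_mem' := by
    rintro a c ⟨h1, h2⟩
    refine ⟨fun σ => ?_, fun σ τ => ?_⟩
    · rw [Pi.smul_apply, Matrix.trace_smul, h1 σ, smul_zero]
    · simp only [Pi.smul_apply, h2 σ τ, ad_smul, smul_add]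

theorem mem_Z1 {r : Γ →* GL (Fin 2) k} {c : Γ → Matrix (Fin 2) (Fin 2) k} :
    c ∈ Z1 r ↔ (∀ σ, (c σ).trace = 0) ∧ ∀ σ τ, c (σ * τ) = c σ + ad r σ (c τ) := Iff.rfl

/-- The coboundary of a matrix. -/
def cob (r : Γ →* GL (Fin 2) k) :
    Matrix (Fin 2) (Fin 2) k →ₗ[k] (Γ → Matrix (Fin 2) (Fin 2) k) where
  toFun X := fun σ => ad r σ X - X
  map_add' X Y := by
    funext σ
    simp only [Pi.add_apply, ad_add]
    abel
  map_smul' a X := by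
    funext σ
    simp only [Pi.smul_apply, ad_smul, smul_sub, RingHom.id_apply]

theorem cob_apply (r : Γ →* GL (Fin 2) k) (X : Matrix (Fin 2) (Fin 2) k) (σ : Γ) :
    cob r X σ = ad r σ X - X := rfl

/-- The coboundaries. -/
def B1 (r : Γ →* GL (Fin 2) k) : Submodule k (Γ → Matrix (Fin 2) (Fin 2) k) :=
  (sl2 k).map (cob r)

theorem mem_B1 {r : Γ →* GL (Fin 2) k} {c : Γ → Matrix (Fin 2) (Fin 2) k} :
    c ∈ B1 r ↔ ∃ X : Matrix (Fin 2) (Fin 2) k, X.trace = 0 ∧ cob r X = c := Iff.rfl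

theorem cob_mem_B1 (r : Γ →* GL (Fin 2) k) {X : Matrix (Fin 2) (Fin 2) k} (hX : X.trace = 0) :
    cob r X ∈ B1 r :=
  ⟨X, hX, rfl⟩

theorem cob_mem_Z1 (r : Γ →* GL (Fin 2) k) {X : Matrix (Fin 2) (Fin 2) k} (hX : X.trace = 0) :
    cob r X ∈ Z1 r := by
  refine ⟨fun σ => ?_, fun σ τ => ?_⟩
  · rw [cob_apply, Matrix.trace_sub, trace_ad, hX, sub_zero]
  · simp only [cob_apply, ad_mul, ad_sub]
    abel

theorem B1_le_Z1 (r : Γ →* GL (Fin 2) k) : B1 r ≤ Z1 r := by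
  rintro c ⟨X, hX, rfl⟩
  exact cob_mem_Z1 r hX

instance finite_B1 (r : Γ →* GL (Fin 2) k) : Module.Finite k ↥(B1 r) := by
  unfold B1
  infer_instance

/-- The traceless matrices commuting with `r`. -/
def commutant (r : Γ →* GL (Fin 2) k) : Submodule k (Matrix (Fin 2) (Fin 2) k) where
  carrier := {X | X.trace = 0 ∧
    ∀ σ, (r σ : Matrix (Fin 2) (Fin 2) k) * X = X * (r σ : Matrix (Fin 2) (Fin 2) k)}
  add_mem' := by
    rintro X Y ⟨hX, hX'⟩ ⟨hY, hY'⟩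
    refine ⟨?_, fun σ => ?_⟩
    · rw [Matrix.trace_add, hX, hY, add_zero]
    · rw [Matrix.mul_add, Matrix.add_mul, hX' σ, hY' σ]
  zero_mem' := ⟨Matrix.trace_zero (Fin 2) k, fun σ => by simp⟩
  smul_mem' := by
    rintro a X ⟨hX, hX'⟩
    refine ⟨?_, fun σ => ?_⟩
    · rw [Matrix.trace_smul, hX, smul_zero]
    · rw [Matrix.mul_smul, Matrix.smul_mul, hX' σ]

theorem mem_commutant {r : Γ →* GL (Fin 2) k} {X : Matrix (Fin 2) (Fin 2) k} :
    X ∈ commutant r ↔ X.trace = 0 ∧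
      ∀ σ, (r σ : Matrix (Fin 2) (Fin 2) k) * X = X * (r σ : Matrix (Fin 2) (Fin 2) k) :=
  Iff.rfl

/-- Restriction to `N` of the `(i, j)` entry of a function `Γ → M₂(k)`. -/
def entryN (N : Subgroup Γ) (i j : Fin 2) :
    (Γ → Matrix (Fin 2) (Fin 2) k) →ₗ[k] (N → k) where
  toFun c := fun g => c (g : Γ) i j
  map_add' c c' := by
    funext g
    simp
  map_smul' a c := by
    funext g
    simp

@[simp]
theorem entryN_apply (N : Subgroup Γ) (i j : Fin 2) (c : Γ → Matrix (Fin 2) (Fin 2) k) (g : N) :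
    entryN N i j c g = c (g : Γ) i j := rfl

/-- The dimension step: a subspace `W` whose image under `f` lies in a finite-dimensional `H`
and whose part in `ker f` is the finite-dimensional `W'`. -/
theorem dim_step {V A : Type*} [AddCommGroup V] [Module k V] [AddCommGroup A] [Module k A]
    (W W' : Submodule k V) (f : V →ₗ[k] A) (H : Submodule k A)
    (hW' : W ⊓ LinearMap.ker f = W') (hfinW' : Module.Finite k W') (hfinH : Module.Finite k H)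
    (hH : W.map f ≤ H) :
    Module.Finite k W ∧ finrank k W = finrank k W' + finrank k ↥(W.map f) ∧
      finrank k ↥(W.map f) ≤ finrank k H := by
  classical
  subst hW'
  let g : W →ₗ[k] A := f.comp W.subtype
  have hrange : LinearMap.range g = W.map f := by
    rw [LinearMap.range_comp, Submodule.range_subtype]
  have hker : LinearMap.ker g = (W ⊓ LinearMap.ker f).comap W.subtype := by
    ext x
    simp [g]
  have e : ↥(LinearMap.ker g) ≃ₗ[k] ↥(W ⊓ LinearMap.ker f) := by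
    rw [hker]
    exact Submodule.comapSubtypeEquivOfLe inf_le_left
  have : Module.Finite k ↥(LinearMap.ker g) := Module.Finite.equiv e.symm
  have : Module.Finite k ↥(W.map f) := Submodule.finiteDimensional_of_le hH
  have : Module.Finite k ↥(LinearMap.range g) := by
    rw [hrange]
    infer_instance
  have : Module.Finite k (↥W ⧸ LinearMap.ker g) := Module.Finite.equiv g.quotKerEquivRange.symm
  have : Module.Finite k ↥W := Module.Finite.of_submodule_quotient (LinearMap.ker g)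
  refine ⟨inferInstance, ?_, Submodule.finrank_mono hH⟩
  have h1 := g.finrank_range_add_finrank_ker
  rw [← h1, LinearEquiv.finrank_eq e, hrange, add_comm]

/-- Field arithmetic behind the entry formulas of the adjoint action of an upper triangular
matrix. -/
theorem entries_aux (a b d x00 x01 x10 x11 y00 y01 y10 y11 : k) (ha : a ≠ 0) (hd : d ≠ 0)
    (h00 : y00 * a = a * x00 + b * x10) (h01 : y00 * b + y01 * d = a * x01 + b * x11)
    (h10 : y10 * a = d * x10) (h11 : y10 * b + y11 * d = d * x11) :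
    y10 = d / a * x10 ∧ y00 = x00 + b / a * x10 ∧ y11 = x11 - b / a * x10 ∧
      y01 = a / d * x01 + b / d * (x11 - x00) - b ^ 2 / (a * d) * x10 := by
  have had : a * d ≠ 0 := mul_ne_zero ha hd
  refine ⟨?_, ?_, ?_, ?_⟩
  · apply mul_right_cancel₀ ha
    have e : d / a * x10 * a = d * x10 := by field_simp
    rw [e]
    exact h10
  · apply mul_right_cancel₀ ha
    have e : (x00 + b / a * x10) * a = a * x00 + b * x10 := by field_simp
    rw [e]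
    exact h00
  · apply mul_right_cancel₀ had
    have e : (x11 - b / a * x10) * (a * d) = a * d * x11 - b * d * x10 := by
      field_simp
    rw [e]
    linear_combination a * h11 - b * h10
  · apply mul_right_cancel₀ had
    have e : (a / d * x01 + b / d * (x11 - x00) - b ^ 2 / (a * d) * x10) * (a * d) =
        a ^ 2 * x01 + a * b * (x11 - x00) - b ^ 2 * x10 := by
      field_simp
    rw [e]
    linear_combination a * h01 - b * h00

/-! ### Pointwise entry formulas -/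

section Pointwise

variable (r : Γ →* GL (Fin 2) k)

local notation "𝔞(" σ ")" => (Units.val (r σ) : Matrix (Fin 2) (Fin 2) k) 0 0
local notation "𝔟(" σ ")" => (Units.val (r σ) : Matrix (Fin 2) (Fin 2) k) 0 1
local notation "𝔠(" σ ")" => (Units.val (r σ) : Matrix (Fin 2) (Fin 2) k) 1 0
local notation "𝔡(" σ ")" => (Units.val (r σ) : Matrix (Fin 2) (Fin 2) k) 1 1

theorem ra_mul_rd_ne_zero_of {σ : Γ} (hσ : 𝔠(σ) = 0) : 𝔞(σ) * 𝔡(σ) ≠ 0 := by
  have h := (Matrix.isUnit_iff_isUnit_det _).mp (r σ).isUnit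
  rw [Matrix.det_fin_two, hσ, mul_zero, sub_zero] at h
  exact h.ne_zero

theorem ra_ne_zero_of {σ : Γ} (hσ : 𝔠(σ) = 0) : 𝔞(σ) ≠ 0 :=
  left_ne_zero_of_mul (ra_mul_rd_ne_zero_of r hσ)

theorem rd_ne_zero_of {σ : Γ} (hσ : 𝔠(σ) = 0) : 𝔡(σ) ≠ 0 :=
  right_ne_zero_of_mul (ra_mul_rd_ne_zero_of r hσ)

/-- Entries of the adjoint action of an upper triangular `r σ`. -/
theorem ad_entries_of {σ : Γ} (hσ : 𝔠(σ) = 0) (X : Matrix (Fin 2) (Fin 2) k) :
    ad r σ X 1 0 = 𝔡(σ) / 𝔞(σ) * X 1 0 ∧ ad r σ X 0 0 = X 0 0 + 𝔟(σ) / 𝔞(σ) * X 1 0 ∧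
      ad r σ X 1 1 = X 1 1 - 𝔟(σ) / 𝔞(σ) * X 1 0 ∧
      ad r σ X 0 1 = 𝔞(σ) / 𝔡(σ) * X 0 1 + 𝔟(σ) / 𝔡(σ) * (X 1 1 - X 0 0)
        - 𝔟(σ) ^ 2 / (𝔞(σ) * 𝔡(σ)) * X 1 0 := by
  have h := ad_mul_self r σ X
  have h00 := congrFun (congrFun h 0) 0
  have h01 := congrFun (congrFun h 0) 1
  have h10 := congrFun (congrFun h 1) 0
  have h11 := congrFun (congrFun h 1) 1
  simp only [Matrix.mul_apply, Fin.sum_univ_two, hσ, mul_zero, add_zero, zero_mul, zero_add]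
    at h00 h01 h10 h11
  exact entries_aux _ _ _ _ _ _ _ _ _ _ _ (ra_ne_zero_of r hσ) (rd_ne_zero_of r hσ) h00 h01 h10 h11

/-- Entries of the adjoint action of a diagonal `r σ`. -/
theorem ad_entries_diag {σ : Γ} (hσ : 𝔠(σ) = 0) (hσ' : 𝔟(σ) = 0)
    (X : Matrix (Fin 2) (Fin 2) k) :
    ad r σ X 1 0 = 𝔡(σ) / 𝔞(σ) * X 1 0 ∧ ad r σ X 0 0 = X 0 0 ∧ ad r σ X 1 1 = X 1 1 ∧
      ad r σ X 0 1 = 𝔞(σ) / 𝔡(σ) * X 0 1 := by
  obtain ⟨h1, h2, h3, h4⟩ := ad_entries_of r hσ X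
  refine ⟨h1, ?_, ?_, ?_⟩
  · rw [h2, hσ']; simp
  · rw [h3, hσ']; simp
  · rw [h4, hσ']; simp

/-- Entries of the adjoint action of an antidiagonal `r F`. -/
theorem ad_entries_anti {F : Γ} (hF0 : 𝔞(F) = 0) (hF1 : 𝔡(F) = 0)
    (X : Matrix (Fin 2) (Fin 2) k) :
    ad r F X 0 0 = X 1 1 ∧ ad r F X 1 1 = X 0 0 ∧ ad r F X 0 1 = 𝔟(F) / 𝔠(F) * X 1 0 ∧
      ad r F X 1 0 = 𝔠(F) / 𝔟(F) * X 0 1 := by
  have hdet := (Matrix.isUnit_iff_isUnit_det _).mp (r F).isUnit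
  rw [Matrix.det_fin_two, hF0, zero_mul, zero_sub] at hdet
  have hne : 𝔟(F) * 𝔠(F) ≠ 0 := neg_ne_zero.mp hdet.ne_zero
  have hb : 𝔟(F) ≠ 0 := left_ne_zero_of_mul hne
  have hc : 𝔠(F) ≠ 0 := right_ne_zero_of_mul hne
  have h := ad_mul_self r F X
  have h00 := congrFun (congrFun h 0) 0
  have h01 := congrFun (congrFun h 0) 1
  have h10 := congrFun (congrFun h 1) 0
  have h11 := congrFun (congrFun h 1) 1
  simp only [Matrix.mul_apply, Fin.sum_univ_two, hF0, hF1, mul_zero, add_zero, zero_mul, zero_add]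
    at h00 h01 h10 h11
  refine ⟨?_, ?_, ?_, ?_⟩
  · exact mul_right_cancel₀ hb (h01.trans (mul_comm _ _))
  · exact mul_right_cancel₀ hc (h10.trans (mul_comm _ _))
  · apply mul_right_cancel₀ hc
    have e : 𝔟(F) / 𝔠(F) * X 1 0 * 𝔠(F) = 𝔟(F) * X 1 0 := by field_simp
    rw [e]
    exact h00
  · apply mul_right_cancel₀ hb
    have e : 𝔠(F) / 𝔟(F) * X 0 1 * 𝔟(F) = 𝔠(F) * X 0 1 := by field_simp
    rw [e]
    exact h11

/-- `r g = 1` entrywise gives the trivial adjoint action. -/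
theorem ad_of_one {g : Γ} (h00 : 𝔞(g) = 1) (h01 : 𝔟(g) = 0) (h10 : 𝔠(g) = 0) (h11 : 𝔡(g) = 1)
    (X : Matrix (Fin 2) (Fin 2) k) : ad r g X = X := by
  have h1 : r g = 1 := by
    apply Units.ext
    ext i j
    fin_cases i <;> fin_cases j
    · simpa using h00
    · simpa using h01
    · simpa using h10
    · simpa using h11
  unfold ad
  rw [h1]
  simp

theorem Z1_one {c : Γ → Matrix (Fin 2) (Fin 2) k} (hc : c ∈ Z1 r) : c 1 = 0 := by
  have h := hc.2 1 1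
  rw [mul_one, ad_one] at h
  exact left_eq_add.mp h

theorem Z1_apply_11 {c : Γ → Matrix (Fin 2) (Fin 2) k} (hc : c ∈ Z1 r) (σ : Γ) :
    c σ 1 1 = -c σ 0 0 := by
  have h := hc.1 σ
  rw [Matrix.trace_fin_two] at h
  exact eq_neg_of_add_eq_zero_right h

end Pointwise

/-! ### The normalisation -/

/-- `E₁₀`. -/
def E10 (k : Type*) [Field k] : Matrix (Fin 2) (Fin 2) k := !![0, 0; 1, 0]

/-- `E₀₁`. -/
def E01 (k : Type*) [Field k] : Matrix (Fin 2) (Fin 2) k := !![0, 1; 0, 0]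

theorem trace_E10 : (E10 k).trace = 0 := by simp [E10, Matrix.trace_fin_two]

theorem trace_E01 : (E01 k).trace = 0 := by simp [E01, Matrix.trace_fin_two]

theorem trace_smul_E10 (x : k) : (x • E10 k).trace = 0 := by
  rw [Matrix.trace_smul, trace_E10, smul_zero]

theorem trace_smul_E01 (x : k) : (x • E01 k).trace = 0 := by
  rw [Matrix.trace_smul, trace_E01, smul_zero]

/-- The scalar `x(c)` with `γ_c = (χ₂/χ₁ - 1) x(c)`, read off at `σ0`. -/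
def xiMap (r : Γ →* GL (Fin 2) k) (σ0 : Γ) : (Γ → Matrix (Fin 2) (Fin 2) k) →ₗ[k] k where
  toFun c := c σ0 1 0 * ((r σ0 : Matrix (Fin 2) (Fin 2) k) 1 1 /
    (r σ0 : Matrix (Fin 2) (Fin 2) k) 0 0 - 1)⁻¹
  map_add' c c' := by simp [add_mul]
  map_smul' a c := by simp [mul_assoc]

theorem xiMap_apply (r : Γ →* GL (Fin 2) k) (σ0 : Γ) (c : Γ → Matrix (Fin 2) (Fin 2) k) :
    xiMap r σ0 c = c σ0 1 0 * ((r σ0 : Matrix (Fin 2) (Fin 2) k) 1 1 /
      (r σ0 : Matrix (Fin 2) (Fin 2) k) 0 0 - 1)⁻¹ := rfl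

/-- The normalisation `c ↦ c - ∂(x(c) E₁₀)`. -/
def nuMap (r : Γ →* GL (Fin 2) k) (σ0 : Γ) :
    (Γ → Matrix (Fin 2) (Fin 2) k) →ₗ[k] (Γ → Matrix (Fin 2) (Fin 2) k) where
  toFun c := c - cob r (xiMap r σ0 c • E10 k)
  map_add' c c' := by
    simp only [map_add, add_smul]
    abel
  map_smul' a c := by
    simp only [map_smul, smul_eq_mul, RingHom.id_apply, mul_smul, smul_sub]

theorem nuMap_apply (r : Γ →* GL (Fin 2) k) (σ0 : Γ) (c : Γ → Matrix (Fin 2) (Fin 2) k) :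
    nuMap r σ0 c = c - cob r (xiMap r σ0 c • E10 k) := rfl

theorem nuMap_mem_B1_iff (r : Γ →* GL (Fin 2) k) (σ0 : Γ) (c : Γ → Matrix (Fin 2) (Fin 2) k) :
    nuMap r σ0 c ∈ B1 r ↔ c ∈ B1 r :=
  Submodule.sub_mem_iff_left _ (cob_mem_B1 r (trace_smul_E10 _))

/-! ### Upper triangular representations -/

section Upper

variable (r : Γ →* GL (Fin 2) k)

local notation "𝔞(" σ ")" => (Units.val (r σ) : Matrix (Fin 2) (Fin 2) k) 0 0
local notation "𝔟(" σ ")" => (Units.val (r σ) : Matrix (Fin 2) (Fin 2) k) 0 1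
local notation "𝔡(" σ ")" => (Units.val (r σ) : Matrix (Fin 2) (Fin 2) k) 1 1

variable (hr : ∀ σ, (r σ : Matrix (Fin 2) (Fin 2) k) 1 0 = 0)
include hr

theorem ra_ne_zero (σ : Γ) : 𝔞(σ) ≠ 0 := ra_ne_zero_of r (hr σ)

theorem rd_ne_zero (σ : Γ) : 𝔡(σ) ≠ 0 := rd_ne_zero_of r (hr σ)

theorem ra_mul (σ τ : Γ) : 𝔞(σ * τ) = 𝔞(σ) * 𝔞(τ) := by
  rw [map_mul, Units.val_mul, Matrix.mul_apply, Fin.sum_univ_two, hr τ, mul_zero, add_zero]

theorem rd_mul (σ τ : Γ) : 𝔡(σ * τ) = 𝔡(σ) * 𝔡(τ) := by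
  rw [map_mul, Units.val_mul, Matrix.mul_apply, Fin.sum_univ_two, hr σ, zero_mul, zero_add]

omit hr in
theorem rb_mul (σ τ : Γ) : 𝔟(σ * τ) = 𝔞(σ) * 𝔟(τ) + 𝔟(σ) * 𝔡(τ) := by
  rw [map_mul, Units.val_mul, Matrix.mul_apply, Fin.sum_univ_two]

theorem cob_apply_10 (σ : Γ) (X : Matrix (Fin 2) (Fin 2) k) :
    cob r X σ 1 0 = (𝔡(σ) / 𝔞(σ) - 1) * X 1 0 := by
  rw [cob_apply, Matrix.sub_apply, (ad_entries_of r (hr σ) X).1]
  ring

theorem cob_apply_00 (σ : Γ) (X : Matrix (Fin 2) (Fin 2) k) :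
    cob r X σ 0 0 = 𝔟(σ) / 𝔞(σ) * X 1 0 := by
  rw [cob_apply, Matrix.sub_apply, (ad_entries_of r (hr σ) X).2.1]
  ring

theorem cob_apply_11 (σ : Γ) (X : Matrix (Fin 2) (Fin 2) k) :
    cob r X σ 1 1 = -(𝔟(σ) / 𝔞(σ) * X 1 0) := by
  rw [cob_apply, Matrix.sub_apply, (ad_entries_of r (hr σ) X).2.2.1]
  ring

theorem cob_apply_01 (σ : Γ) (X : Matrix (Fin 2) (Fin 2) k) :
    cob r X σ 0 1 = (𝔞(σ) / 𝔡(σ) - 1) * X 0 1 + 𝔟(σ) / 𝔡(σ) * (X 1 1 - X 0 0)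
      - 𝔟(σ) ^ 2 / (𝔞(σ) * 𝔡(σ)) * X 1 0 := by
  rw [cob_apply, Matrix.sub_apply, (ad_entries_of r (hr σ) X).2.2.2]
  ring

theorem Z1_apply_10 {c : Γ → Matrix (Fin 2) (Fin 2) k} (hc : c ∈ Z1 r) (σ τ : Γ) :
    c (σ * τ) 1 0 = c σ 1 0 + 𝔡(σ) / 𝔞(σ) * c τ 1 0 := by
  rw [hc.2 σ τ, Matrix.add_apply, (ad_entries_of r (hr σ) _).1]

theorem Z1_apply_00 {c : Γ → Matrix (Fin 2) (Fin 2) k} (hc : c ∈ Z1 r) (σ τ : Γ) :
    c (σ * τ) 0 0 = c σ 0 0 + (c τ 0 0 + 𝔟(σ) / 𝔞(σ) * c τ 1 0) := by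
  rw [hc.2 σ τ, Matrix.add_apply, (ad_entries_of r (hr σ) _).2.1]

theorem Z1_apply_01 {c : Γ → Matrix (Fin 2) (Fin 2) k} (hc : c ∈ Z1 r) (σ τ : Γ) :
    c (σ * τ) 0 1 = c σ 0 1 + (𝔞(σ) / 𝔡(σ) * c τ 0 1 + 𝔟(σ) / 𝔡(σ) * (c τ 1 1 - c τ 0 0)
      - 𝔟(σ) ^ 2 / (𝔞(σ) * 𝔡(σ)) * c τ 1 0) := by
  rw [hc.2 σ τ, Matrix.add_apply, (ad_entries_of r (hr σ) _).2.2.2]

theorem nuMap_apply_10 {σ0 : Γ} (hχ0 : 𝔡(σ0) / 𝔞(σ0) - 1 ≠ 0)
    {c : Γ → Matrix (Fin 2) (Fin 2) k} {x : k}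
    (hx : ∀ σ, c σ 1 0 = (𝔡(σ) / 𝔞(σ) - 1) * x) (σ : Γ) : nuMap r σ0 c σ 1 0 = 0 := by
  have hxi : xiMap r σ0 c = x := by
    rw [xiMap_apply, hx σ0, mul_comm, ← mul_assoc, inv_mul_cancel₀ hχ0, one_mul]
  rw [nuMap_apply, Pi.sub_apply, Matrix.sub_apply, cob_apply_10 r hr, hxi, hx σ]
  simp [E10]

end Upper

/-! ### Shape (R): the three steps -/

section Triangular

variable (r : Γ →* GL (Fin 2) k) (N : Subgroup Γ) (σ0 : Γ)
  (C : Submodule k (Γ → Matrix (Fin 2) (Fin 2) k))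

local notation "𝔞(" σ ")" => (Units.val (r σ) : Matrix (Fin 2) (Fin 2) k) 0 0
local notation "𝔟(" σ ")" => (Units.val (r σ) : Matrix (Fin 2) (Fin 2) k) 0 1
local notation "𝔡(" σ ")" => (Units.val (r σ) : Matrix (Fin 2) (Fin 2) k) 1 1

local notation "gγ" => entryN (k := k) N 1 0
local notation "aα" => LinearMap.comp (entryN (k := k) N 0 0) (nuMap r σ0)
local notation "bβ" => LinearMap.comp (entryN (k := k) N 0 1) (nuMap r σ0)
local notation "K₁" => (C ⊓ LinearMap.ker gγ)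
local notation "K₂" => (K₁ ⊓ LinearMap.ker aα)
local notation "K₃" => (K₂ ⊓ LinearMap.ker bβ)

/-- The three-step argument with a fixed `σ0` separating the diagonal characters and a subspace
`C` of cocycles containing the coboundaries. -/
theorem finrank_triangular_aux
    (hr : ∀ σ, (r σ : Matrix (Fin 2) (Fin 2) k) 1 0 = 0)
    (hN0 : ∀ g ∈ N, 𝔞(g) = 1) (hN1 : ∀ g ∈ N, 𝔡(g) = 1)
    (hχ0 : 𝔡(σ0) / 𝔞(σ0) - 1 ≠ 0) (h2 : (2 : k) ≠ 0)
    (hΔ0 : ∀ f : Γ → k, (∀ σ τ, f (σ * τ) = f σ + f τ) → (∀ g ∈ N, f g = 0) → ∀ σ, f σ = 0)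
    (hΔγ : ∀ f : Γ → k, (∀ σ τ, f (σ * τ) = f σ + 𝔡(σ) / 𝔞(σ) * f τ) → (∀ g ∈ N, f g = 0) →
      ∃ x : k, ∀ σ, f σ = (𝔡(σ) / 𝔞(σ) - 1) * x)
    (hΔβ : ∀ f : Γ → k, (∀ σ τ, f (σ * τ) = f σ + 𝔞(σ) / 𝔡(σ) * f τ) → (∀ g ∈ N, f g = 0) →
      ∃ y : k, ∀ σ, f σ = (𝔞(σ) / 𝔡(σ) - 1) * y)
    (Hγ Hα Hβ : Submodule k (N → k)) [Module.Finite k Hγ] [Module.Finite k Hα]
    [Module.Finite k Hβ]
    (hC : C ≤ Z1 r) (hB : B1 r ≤ C)
    (Fγ : ∀ c ∈ C, c ∉ B1 r → (fun g : N => c g 1 0) ∈ Hγ)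
    (Fα : ∀ c ∈ C, c ∉ B1 r → (∀ σ, c σ 1 0 = 0) → (fun g : N => c g 0 0) ∈ Hα)
    (Fβ : ∀ c ∈ C, c ∉ B1 r → (∀ σ, c σ 1 0 = 0) → (∀ σ, c σ 0 0 = 0) →
      (fun g : N => c g 0 1) ∈ Hβ)
    (hb : (fun g : N => 𝔟((g : Γ))) ∈ Hβ) :
    Module.Finite k C ∧
    finrank k (↥C ⧸ (B1 r).comap C.subtype) ≤ finrank k Hγ + finrank k Hα + finrank k Hβ ∧
    ((∃ g : N, 𝔟((g : Γ)) ≠ 0) →
      finrank k (↥C ⧸ (B1 r).comap C.subtype) + 1 ≤
        finrank k Hγ + finrank k Hα + finrank k Hβ) := by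
  classical
  -- normalisation facts
  have hnuC : ∀ c ∈ C, nuMap r σ0 c ∈ C := fun c hc =>
    C.sub_mem hc (hB (cob_mem_B1 r (trace_smul_E10 _)))
  have key10 : ∀ c ∈ C, (∀ g : N, c g 1 0 = 0) → ∀ σ, nuMap r σ0 c σ 1 0 = 0 := by
    intro c hc hcN σ
    obtain ⟨x, hx⟩ := hΔγ (fun σ => c σ 1 0) (fun σ τ => Z1_apply_10 r hr (hC hc) σ τ)
      (fun g hg => hcN ⟨g, hg⟩)
    exact nuMap_apply_10 r hr hχ0 hx σ
  have key00 : ∀ c ∈ C, (∀ g : N, c g 1 0 = 0) → (∀ g : N, nuMap r σ0 c g 0 0 = 0) →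
      ∀ σ, nuMap r σ0 c σ 0 0 = 0 := by
    intro c hc hcN hcA σ
    have hZ := hC (hnuC c hc)
    have h10 := key10 c hc hcN
    refine hΔ0 (fun σ => nuMap r σ0 c σ 0 0) (fun σ τ => ?_) (fun g hg => hcA ⟨g, hg⟩) σ
    show nuMap r σ0 c (σ * τ) 0 0 = nuMap r σ0 c σ 0 0 + nuMap r σ0 c τ 0 0
    rw [Z1_apply_00 r hr hZ σ τ, h10 τ, mul_zero, add_zero]
  -- (1) the γ-map
  have h1 : C.map gγ ≤ Hγ := by
    rintro _ ⟨c, hc, rfl⟩
    by_cases hcB : c ∈ B1 r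
    · obtain ⟨X, -, rfl⟩ := hcB
      have h0 : gγ (cob r X) = 0 := by
        funext g
        rw [entryN_apply, cob_apply_10 r hr, hN0 g g.2, hN1 g g.2]
        simp
      rw [h0]
      exact Hγ.zero_mem
    · exact Fγ c hc hcB
  -- (2) the α-map
  have h2' : (K₁).map aα ≤ Hα := by
    rintro _ ⟨c, ⟨hc, hcN⟩, rfl⟩
    have hcN' : ∀ g : N, c g 1 0 = 0 := fun g => congrFun (LinearMap.mem_ker.mp hcN) g
    have h10 := key10 c hc hcN'
    by_cases hcB : nuMap r σ0 c ∈ B1 r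
    · obtain ⟨X, -, hX⟩ := hcB
      have hX10 : X 1 0 = 0 := by
        have h := h10 σ0
        rw [← hX, cob_apply_10 r hr] at h
        exact (mul_eq_zero.mp h).resolve_left hχ0
      have h0 : aα c = 0 := by
        funext g
        rw [LinearMap.comp_apply, entryN_apply, ← hX, cob_apply_00 r hr, hX10, mul_zero]
        rfl
      rw [h0]
      exact Hα.zero_mem
    · exact Fα _ (hnuC c hc) hcB h10
  -- (3) the β-map
  have h3 : (K₂).map bβ ≤ Hβ := by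
    rintro _ ⟨c, ⟨⟨hc, hcN⟩, hcA⟩, rfl⟩
    have hcN' : ∀ g : N, c g 1 0 = 0 := fun g => congrFun (LinearMap.mem_ker.mp hcN) g
    have hcA' : ∀ g : N, nuMap r σ0 c g 0 0 = 0 :=
      fun g => congrFun (LinearMap.mem_ker.mp hcA) g
    have h10 := key10 c hc hcN'
    have h00 := key00 c hc hcN' hcA'
    by_cases hcB : nuMap r σ0 c ∈ B1 r
    · obtain ⟨X, -, hX⟩ := hcB
      have hX10 : X 1 0 = 0 := by
        have h := h10 σ0
        rw [← hX, cob_apply_10 r hr] at h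
        exact (mul_eq_zero.mp h).resolve_left hχ0
      have h0 : bβ c = (X 1 1 - X 0 0) • (fun g : N => 𝔟((g : Γ))) := by
        funext g
        rw [LinearMap.comp_apply, entryN_apply, ← hX, cob_apply_01 r hr, hX10, hN0 g g.2,
          hN1 g g.2]
        simp only [Pi.smul_apply, smul_eq_mul, div_one, sub_self, zero_mul, zero_add, mul_zero,
          sub_zero]
        ring
      rw [h0]
      exact Hβ.smul_mem _ hb
    · exact Fβ _ (hnuC c hc) hcB h10 h00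
  -- (4) the kernel of the β-map consists of coboundaries
  have h4 : K₃ ≤ B1 r := by
    rintro c ⟨⟨⟨hc, hcN⟩, hcA⟩, hcBt⟩
    have hcN' : ∀ g : N, c g 1 0 = 0 := fun g => congrFun (LinearMap.mem_ker.mp hcN) g
    have hcA' : ∀ g : N, nuMap r σ0 c g 0 0 = 0 :=
      fun g => congrFun (LinearMap.mem_ker.mp hcA) g
    have hcB' : ∀ g : N, nuMap r σ0 c g 0 1 = 0 :=
      fun g => congrFun (LinearMap.mem_ker.mp hcBt) g
    have h10 := key10 c hc hcN'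
    have h00 := key00 c hc hcN' hcA'
    have hZ := hC (hnuC c hc)
    have h11 : ∀ σ, nuMap r σ0 c σ 1 1 = 0 := fun σ => by
      rw [Z1_apply_11 r hZ σ, h00 σ, neg_zero]
    obtain ⟨y, hy⟩ := hΔβ (fun σ => nuMap r σ0 c σ 0 1) (fun σ τ => by
      show nuMap r σ0 c (σ * τ) 0 1 = nuMap r σ0 c σ 0 1 + 𝔞(σ) / 𝔡(σ) * nuMap r σ0 c τ 0 1
      rw [Z1_apply_01 r hr hZ σ τ, h10 τ, h00 τ, h11 τ]
      ring) (fun g hg => hcB' ⟨g, hg⟩)
    have hy' : ∀ σ, nuMap r σ0 c σ 0 1 = (𝔞(σ) / 𝔡(σ) - 1) * y := hy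
    have heq : nuMap r σ0 c = cob r (y • E01 k) := by
      funext σ
      ext i j
      fin_cases i <;> fin_cases j
      · show nuMap r σ0 c σ 0 0 = cob r (y • E01 k) σ 0 0
        rw [h00 σ, cob_apply_00 r hr]
        simp [E01]
      · show nuMap r σ0 c σ 0 1 = cob r (y • E01 k) σ 0 1
        rw [hy' σ, cob_apply_01 r hr]
        simp [E01]
      · show nuMap r σ0 c σ 1 0 = cob r (y • E01 k) σ 1 0
        rw [h10 σ, cob_apply_10 r hr]
        simp [E01]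
      · show nuMap r σ0 c σ 1 1 = cob r (y • E01 k) σ 1 1
        rw [h11 σ, cob_apply_11 r hr]
        simp [E01]
    rw [← nuMap_mem_B1_iff r σ0 c, heq]
    exact cob_mem_B1 r (trace_smul_E01 _)
  -- (5) `b|N` is the image of a coboundary
  have h5 : (fun g : N => 𝔟((g : Γ))) ∈ (B1 r ⊓ K₂).map bβ := by
    obtain ⟨D, hD, hD10, hDd⟩ : ∃ D : Matrix (Fin 2) (Fin 2) k,
        D.trace = 0 ∧ D 1 0 = 0 ∧ D 1 1 - D 0 0 = 1 := by
      refine ⟨!![-(2⁻¹), 0; 0, 2⁻¹], by simp [Matrix.trace_fin_two], by simp, ?_⟩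
      have e : (!![-(2⁻¹), 0; 0, 2⁻¹] : Matrix (Fin 2) (Fin 2) k) 1 1 -
          (!![-(2⁻¹), 0; 0, 2⁻¹] : Matrix (Fin 2) (Fin 2) k) 0 0 = 2⁻¹ + 2⁻¹ := by simp
      rw [e, ← two_mul, mul_inv_cancel₀ h2]
    have hc0B : cob r D ∈ B1 r := cob_mem_B1 r hD
    have hc0C : cob r D ∈ C := hB hc0B
    have h10 : ∀ σ, cob r D σ 1 0 = 0 := fun σ => by rw [cob_apply_10 r hr, hD10, mul_zero]
    have hxi : xiMap r σ0 (cob r D) = 0 := by rw [xiMap_apply, h10 σ0, zero_mul]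
    have hnu : nuMap r σ0 (cob r D) = cob r D := by
      rw [nuMap_apply, hxi, zero_smul, map_zero, sub_zero]
    refine Submodule.mem_map.mpr ⟨cob r D, Submodule.mem_inf.mpr ⟨hc0B, Submodule.mem_inf.mpr
      ⟨Submodule.mem_inf.mpr ⟨hc0C, ?_⟩, ?_⟩⟩, ?_⟩
    · rw [LinearMap.mem_ker]
      funext g
      exact h10 g
    · rw [LinearMap.mem_ker]
      funext g
      rw [LinearMap.comp_apply, hnu, entryN_apply, cob_apply_00 r hr, hD10, mul_zero]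
      rfl
    · funext g
      rw [LinearMap.comp_apply, hnu, entryN_apply, cob_apply_01 r hr, hD10, hDd, hN0 g g.2,
        hN1 g g.2]
      simp
  -- the dimension count
  have hfinB : Module.Finite k ↥(B1 r) := inferInstance
  have hfinK3 : Module.Finite k ↥K₃ := Submodule.finiteDimensional_of_le h4
  obtain ⟨hfinK2, eK2, lK2⟩ := dim_step K₂ K₃ bβ Hβ rfl hfinK3 inferInstance h3
  obtain ⟨hfinK1, eK1, lK1⟩ := dim_step K₁ K₂ aα Hα rfl hfinK2 inferInstance h2'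
  obtain ⟨hfinC, eC, lC⟩ := dim_step C K₁ gγ Hγ rfl hfinK1 inferInstance h1
  have hB2 : (B1 r ⊓ K₂) ⊓ LinearMap.ker bβ = K₃ :=
    le_antisymm (inf_le_inf_right _ inf_le_right) (le_inf (le_inf h4 inf_le_left) inf_le_right)
  obtain ⟨hfinB2, eB2, -⟩ := dim_step (B1 r ⊓ K₂) K₃ bβ Hβ hB2 hfinK3 inferInstance
    ((Submodule.map_mono inf_le_right).trans h3)
  have hB2le : finrank k ↥(B1 r ⊓ K₂) ≤ finrank k ↥(B1 r) := Submodule.finrank_mono inf_le_left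
  have hq := (Submodule.comap C.subtype (B1 r)).finrank_quotient_add_finrank
  have hBeq : finrank k ↥(Submodule.comap C.subtype (B1 r)) = finrank k ↥(B1 r) :=
    (Submodule.comapSubtypeEquivOfLe hB).finrank_eq
  refine ⟨hfinC, by omega, fun hbne => ?_⟩
  have hpos : 1 ≤ finrank k ↥((B1 r ⊓ K₂).map bβ) := by
    rw [Submodule.one_le_finrank_iff]
    intro hbot
    rw [hbot] at h5
    obtain ⟨g, hg⟩ := hbne
    exact hg (congrFun ((Submodule.mem_bot k).mp h5) g)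
  omega

/-- Second isomorphism theorem in the form used here. -/
noncomputable def quotSupEquiv {V : Type*} [AddCommGroup V] [Module k V] (p p' : Submodule k V) :
    (↥p ⧸ p'.comap p.subtype) ≃ₗ[k] (↥(p ⊔ p') ⧸ p'.comap (p ⊔ p').subtype) :=
  (Submodule.quotEquivOfEq _ _ (by rw [Submodule.comap_subtype_self, top_inf_eq])).trans
    (LinearMap.quotientInfEquivSupQuotient p p')

omit σ0 in
/-- **The three-step argument, shape (R).**  `r` is upper triangular, its diagonal characters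
are trivial on `N` and differ somewhere; `C` is a subspace of cocycles.  If every cocycle of
`C ⊔ B1 r` which is not a coboundary has its lower left entry on `N` in `Hγ`, its upper left
entry on `N` in `Hα` once the lower left entry vanishes identically, and its upper right entry
on `N` in `Hβ` once both vanish identically, then
`dim C / (C ∩ B¹) + [b|N ≠ 0] ≤ dim Hγ + dim Hα + dim Hβ`. -/
theorem finrank_triangular
    (hr : ∀ σ, (r σ : Matrix (Fin 2) (Fin 2) k) 1 0 = 0)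
    (hN0 : ∀ g ∈ N, 𝔞(g) = 1) (hN1 : ∀ g ∈ N, 𝔡(g) = 1)
    (hne : ∃ σ, 𝔞(σ) ≠ 𝔡(σ)) (h2 : (2 : k) ≠ 0)
    (hΔ0 : ∀ f : Γ → k, (∀ σ τ, f (σ * τ) = f σ + f τ) → (∀ g ∈ N, f g = 0) → ∀ σ, f σ = 0)
    (hΔγ : ∀ f : Γ → k, (∀ σ τ, f (σ * τ) = f σ + 𝔡(σ) / 𝔞(σ) * f τ) → (∀ g ∈ N, f g = 0) →
      ∃ x : k, ∀ σ, f σ = (𝔡(σ) / 𝔞(σ) - 1) * x)
    (hΔβ : ∀ f : Γ → k, (∀ σ τ, f (σ * τ) = f σ + 𝔞(σ) / 𝔡(σ) * f τ) → (∀ g ∈ N, f g = 0) →
      ∃ y : k, ∀ σ, f σ = (𝔞(σ) / 𝔡(σ) - 1) * y)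
    (Hγ Hα Hβ : Submodule k (N → k)) [Module.Finite k Hγ] [Module.Finite k Hα]
    [Module.Finite k Hβ]
    (hC : C ≤ Z1 r)
    (Fγ : ∀ c ∈ C ⊔ B1 r, c ∉ B1 r → (fun g : N => c g 1 0) ∈ Hγ)
    (Fα : ∀ c ∈ C ⊔ B1 r, c ∉ B1 r → (∀ σ, c σ 1 0 = 0) → (fun g : N => c g 0 0) ∈ Hα)
    (Fβ : ∀ c ∈ C ⊔ B1 r, c ∉ B1 r → (∀ σ, c σ 1 0 = 0) → (∀ σ, c σ 0 0 = 0) →
      (fun g : N => c g 0 1) ∈ Hβ)
    (hb : (fun g : N => 𝔟((g : Γ))) ∈ Hβ) :
    Module.Finite k (↥C ⧸ (B1 r).comap C.subtype) ∧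
    finrank k (↥C ⧸ (B1 r).comap C.subtype) ≤ finrank k Hγ + finrank k Hα + finrank k Hβ ∧
    ((∃ g : N, 𝔟((g : Γ)) ≠ 0) →
      finrank k (↥C ⧸ (B1 r).comap C.subtype) + 1 ≤
        finrank k Hγ + finrank k Hα + finrank k Hβ) := by
  obtain ⟨σ0, hσ0⟩ := hne
  have hχ0 : 𝔡(σ0) / 𝔞(σ0) - 1 ≠ 0 := by
    intro h
    apply hσ0
    have h1 : 𝔡(σ0) / 𝔞(σ0) = 1 := sub_eq_zero.mp h
    rw [div_eq_one_iff_eq (ra_ne_zero r hr σ0)] at h1
    exact h1.symm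
  obtain ⟨hfin, h1, h2'⟩ := finrank_triangular_aux r N σ0 (C ⊔ B1 r) hr hN0 hN1 hχ0 h2 hΔ0 hΔγ
    hΔβ Hγ Hα Hβ (sup_le hC (B1_le_Z1 r)) le_sup_right Fγ Fα Fβ hb
  have e := quotSupEquiv C (B1 r)
  have hfin' : Module.Finite k (↥(C ⊔ B1 r) ⧸ (B1 r).comap (C ⊔ B1 r).subtype) := inferInstance
  refine ⟨Module.Finite.equiv e.symm, ?_, fun hbne => ?_⟩
  · rw [e.finrank_eq]
    exact h1
  · rw [e.finrank_eq]
    exact h2' hbne

end Triangular

/-! ### The two inputs "`|Γ / N|` is prime to the characteristic" -/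

/-- An additive function on `Γ` vanishing on a normal subgroup of index invertible in `k`
vanishes. -/
theorem add_eq_zero_of_index (N : Subgroup Γ) [N.Normal] (hn : (N.index : k) ≠ 0)
    (f : Γ → k) (hf : ∀ σ τ, f (σ * τ) = f σ + f τ) (hN : ∀ g ∈ N, f g = 0) (σ : Γ) :
    f σ = 0 := by
  have h1 : f 1 = 0 := by
    have h := hf 1 1
    rw [mul_one] at h
    exact left_eq_add.mp h
  have hpow : ∀ n : ℕ, f (σ ^ n) = n * f σ := by
    intro n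
    induction n with
    | zero => rw [pow_zero, h1, Nat.cast_zero, zero_mul]
    | succ n ih =>
      rw [pow_succ, hf, ih, Nat.cast_succ]
      ring
  have h0 : f (σ ^ N.index) = 0 := hN _ (N.pow_index_mem σ)
  rw [hpow] at h0
  exact (mul_eq_zero.mp h0).resolve_left hn

/-- A twisted cocycle `f (σ τ) = f σ + χ σ * f τ` vanishing on a normal subgroup of index
invertible in `k` is a coboundary. -/
theorem twisted_coboundary_of_index (N : Subgroup Γ) [N.Normal] (hn : (N.index : k) ≠ 0)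
    (χ f : Γ → k) (hf : ∀ σ τ, f (σ * τ) = f σ + χ σ * f τ) (hN : ∀ g ∈ N, f g = 0) :
    ∃ x : k, ∀ σ, f σ = (χ σ - 1) * x := by
  classical
  have hidx : N.index ≠ 0 := fun h => hn (by rw [h, Nat.cast_zero])
  have : N.FiniteIndex := ⟨hidx⟩
  let _ : Fintype (Γ ⧸ N) := Subgroup.fintypeQuotientOfFiniteIndex
  have hout : ∀ σ : Γ, f ((σ : Γ ⧸ N)).out = f σ := by
    intro σ
    obtain ⟨h, hh⟩ := QuotientGroup.mk_out_eq_mul N σ
    rw [hh, hf, hN _ h.2, mul_zero, add_zero]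
  have hsum : ∀ σ : Γ, ∑ q : Γ ⧸ N, f q.out = ∑ q : Γ ⧸ N, (f σ + χ σ * f q.out) := by
    intro σ
    rw [← Fintype.sum_equiv (Equiv.mulLeft (σ : Γ ⧸ N)) (fun q => f (((σ : Γ ⧸ N) * q).out))
      (fun q => f q.out) (fun q => rfl)]
    refine Finset.sum_congr rfl fun q _ => ?_
    have hq : ((σ : Γ ⧸ N) * q) = ((σ * q.out : Γ) : Γ ⧸ N) := by
      rw [QuotientGroup.mk_mul, QuotientGroup.out_eq']
    rw [hq, hout, hf]
  have hcard : (Fintype.card (Γ ⧸ N) : k) = (N.index : k) := by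
    rw [Subgroup.index_eq_card, Nat.card_eq_fintype_card]
  refine ⟨-(∑ q : Γ ⧸ N, f q.out) * (N.index : k)⁻¹, fun σ => ?_⟩
  have h := hsum σ
  rw [Finset.sum_add_distrib, Finset.sum_const, Finset.card_univ, ← Finset.mul_sum,
    nsmul_eq_mul, hcard] at h
  have hn' : (N.index : k) * f σ = ∑ q : Γ ⧸ N, f q.out - χ σ * ∑ q : Γ ⧸ N, f q.out := by
    linear_combination (-1 : k) * h
  calc f σ = (N.index : k)⁻¹ * ((N.index : k) * f σ) := by rw [inv_mul_cancel_left₀ hn]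
    _ = (χ σ - 1) * (-(∑ q : Γ ⧸ N, f q.out) * (N.index : k)⁻¹) := by
      rw [hn']
      ring

/-- Relative form: an additive function on `Γ₀` vanishing on `N`. -/
theorem add_eq_zero_of_relIndex (Γ₀ N : Subgroup Γ) [N.Normal] (hn : (N.relIndex Γ₀ : k) ≠ 0)
    (f : Γ → k) (hf : ∀ σ ∈ Γ₀, ∀ τ ∈ Γ₀, f (σ * τ) = f σ + f τ) (hN : ∀ g ∈ N, f g = 0) :
    ∀ σ ∈ Γ₀, f σ = 0 := by
  intro σ hσ
  exact add_eq_zero_of_index (N.subgroupOf Γ₀) hn (fun x : Γ₀ => f x)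
    (fun x y => hf x x.2 y y.2) (fun g hg => hN _ (Subgroup.mem_subgroupOf.mp hg)) ⟨σ, hσ⟩

/-- Relative form: a twisted cocycle on `Γ₀` vanishing on `N`. -/
theorem twisted_coboundary_of_relIndex (Γ₀ N : Subgroup Γ) [N.Normal]
    (hn : (N.relIndex Γ₀ : k) ≠ 0) (χ f : Γ → k)
    (hf : ∀ σ ∈ Γ₀, ∀ τ ∈ Γ₀, f (σ * τ) = f σ + χ σ * f τ) (hN : ∀ g ∈ N, f g = 0) :
    ∃ x : k, ∀ σ ∈ Γ₀, f σ = (χ σ - 1) * x := by
  obtain ⟨x, hx⟩ := twisted_coboundary_of_index (N.subgroupOf Γ₀) hn (fun y : Γ₀ => χ y)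
    (fun y : Γ₀ => f y) (fun y z => hf y y.2 z z.2)
    (fun g hg => hN _ (Subgroup.mem_subgroupOf.mp hg))
  exact ⟨x, fun σ hσ => hx ⟨σ, hσ⟩⟩

/-! ### The commutant in the split case, and the bound `1 + h⁰` -/

section Commutant

variable (r : Γ →* GL (Fin 2) k) (N : Subgroup Γ)
  (C : Submodule k (Γ → Matrix (Fin 2) (Fin 2) k))

local notation "𝔞(" σ ")" => (Units.val (r σ) : Matrix (Fin 2) (Fin 2) k) 0 0
local notation "𝔟(" σ ")" => (Units.val (r σ) : Matrix (Fin 2) (Fin 2) k) 0 1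
local notation "𝔡(" σ ")" => (Units.val (r σ) : Matrix (Fin 2) (Fin 2) k) 1 1

/-- If the extension function `b` vanishes on `N`, then `r` is split and a non-zero traceless
matrix commutes with it. -/
theorem one_le_finrank_commutant_of_split
    (hr : ∀ σ, (r σ : Matrix (Fin 2) (Fin 2) k) 1 0 = 0)
    (hΔβ : ∀ f : Γ → k, (∀ σ τ, f (σ * τ) = f σ + 𝔞(σ) / 𝔡(σ) * f τ) → (∀ g ∈ N, f g = 0) →
      ∃ y : k, ∀ σ, f σ = (𝔞(σ) / 𝔡(σ) - 1) * y)
    (hb0 : ∀ g ∈ N, 𝔟(g) = 0) : 1 ≤ finrank k ↥(commutant r) := by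
  obtain ⟨y, hy⟩ := hΔβ (fun σ => 𝔟(σ) / 𝔡(σ)) (fun σ τ => by
    show 𝔟(σ * τ) / 𝔡(σ * τ) = 𝔟(σ) / 𝔡(σ) + 𝔞(σ) / 𝔡(σ) * (𝔟(τ) / 𝔡(τ))
    have hd := rd_ne_zero r hr σ
    have hd' := rd_ne_zero r hr τ
    rw [rb_mul, rd_mul r hr]
    field_simp
    ring) (fun g hg => by
    show 𝔟(g) / 𝔡(g) = 0
    rw [hb0 g hg, zero_div])
  have hy' : ∀ σ, 𝔟(σ) = (𝔞(σ) - 𝔡(σ)) * y := by
    intro σ
    have hd := rd_ne_zero r hr σ
    have h : 𝔟(σ) / 𝔡(σ) = (𝔞(σ) / 𝔡(σ) - 1) * y := hy σ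
    have e : (𝔞(σ) / 𝔡(σ) - 1) * y * 𝔡(σ) = (𝔞(σ) - 𝔡(σ)) * y := by field_simp
    rw [← e, ← h, div_mul_cancel₀ _ hd]
  have hmem : (!![1, 2 * y; 0, -1] : Matrix (Fin 2) (Fin 2) k) ∈ commutant r := by
    refine ⟨by simp [Matrix.trace_fin_two], fun σ => ?_⟩
    ext i j
    fin_cases i <;> fin_cases j
    · show ((r σ : Matrix (Fin 2) (Fin 2) k) * !![1, 2 * y; 0, -1]) 0 0 =
        (!![1, 2 * y; 0, -1] * (r σ : Matrix (Fin 2) (Fin 2) k)) 0 0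
      simp [Matrix.mul_apply, Fin.sum_univ_two, hr σ]
    · show ((r σ : Matrix (Fin 2) (Fin 2) k) * !![1, 2 * y; 0, -1]) 0 1 =
        (!![1, 2 * y; 0, -1] * (r σ : Matrix (Fin 2) (Fin 2) k)) 0 1
      simp only [Matrix.mul_apply, Fin.sum_univ_two, Matrix.of_apply, Matrix.cons_val_zero,
        Matrix.cons_val_one, Matrix.cons_val', Matrix.cons_val_fin_one]
      linear_combination (-2 : k) * hy' σ
    · show ((r σ : Matrix (Fin 2) (Fin 2) k) * !![1, 2 * y; 0, -1]) 1 0 =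
        (!![1, 2 * y; 0, -1] * (r σ : Matrix (Fin 2) (Fin 2) k)) 1 0
      simp [Matrix.mul_apply, Fin.sum_univ_two, hr σ]
    · show ((r σ : Matrix (Fin 2) (Fin 2) k) * !![1, 2 * y; 0, -1]) 1 1 =
        (!![1, 2 * y; 0, -1] * (r σ : Matrix (Fin 2) (Fin 2) k)) 1 1
      simp [Matrix.mul_apply, Fin.sum_univ_two, hr σ]
  rw [Submodule.one_le_finrank_iff]
  intro hbot
  rw [hbot] at hmem
  have h0 : (!![1, 2 * y; 0, -1] : Matrix (Fin 2) (Fin 2) k) = 0 := (Submodule.mem_bot k).mp hmem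
  have h00 : (1 : k) = 0 := by simpa using congrFun (congrFun h0 0) 0
  exact one_ne_zero h00

/-- **Shape (R), final form**: with `dim Hα ≤ 1` and `dim Hγ + dim Hβ ≤ 1` the three-step
bound reads `dim C / (C ∩ B¹) ≤ 1 + dim (ad⁰)^Γ`. -/
theorem finrank_triangular_le_one_add_commutant
    (hr : ∀ σ, (r σ : Matrix (Fin 2) (Fin 2) k) 1 0 = 0)
    (hN0 : ∀ g ∈ N, 𝔞(g) = 1) (hN1 : ∀ g ∈ N, 𝔡(g) = 1)
    (hne : ∃ σ, 𝔞(σ) ≠ 𝔡(σ)) (h2 : (2 : k) ≠ 0)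
    (hΔ0 : ∀ f : Γ → k, (∀ σ τ, f (σ * τ) = f σ + f τ) → (∀ g ∈ N, f g = 0) → ∀ σ, f σ = 0)
    (hΔγ : ∀ f : Γ → k, (∀ σ τ, f (σ * τ) = f σ + 𝔡(σ) / 𝔞(σ) * f τ) → (∀ g ∈ N, f g = 0) →
      ∃ x : k, ∀ σ, f σ = (𝔡(σ) / 𝔞(σ) - 1) * x)
    (hΔβ : ∀ f : Γ → k, (∀ σ τ, f (σ * τ) = f σ + 𝔞(σ) / 𝔡(σ) * f τ) → (∀ g ∈ N, f g = 0) →
      ∃ y : k, ∀ σ, f σ = (𝔞(σ) / 𝔡(σ) - 1) * y)
    (Hγ Hα Hβ : Submodule k (N → k)) [Module.Finite k Hγ] [Module.Finite k Hα]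
    [Module.Finite k Hβ]
    (hC : C ≤ Z1 r)
    (Fγ : ∀ c ∈ C ⊔ B1 r, c ∉ B1 r → (fun g : N => c g 1 0) ∈ Hγ)
    (Fα : ∀ c ∈ C ⊔ B1 r, c ∉ B1 r → (∀ σ, c σ 1 0 = 0) → (fun g : N => c g 0 0) ∈ Hα)
    (Fβ : ∀ c ∈ C ⊔ B1 r, c ∉ B1 r → (∀ σ, c σ 1 0 = 0) → (∀ σ, c σ 0 0 = 0) →
      (fun g : N => c g 0 1) ∈ Hβ)
    (hb : (fun g : N => 𝔟((g : Γ))) ∈ Hβ)
    (hα1 : finrank k Hα ≤ 1) (hγβ : finrank k Hγ + finrank k Hβ ≤ 1) :
    Module.Finite k (↥C ⧸ (B1 r).comap C.subtype) ∧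
      finrank k (↥C ⧸ (B1 r).comap C.subtype) ≤ 1 + finrank k ↥(commutant r) := by
  classical
  obtain ⟨hfin, h1, h2'⟩ := finrank_triangular r N C hr hN0 hN1 hne h2 hΔ0 hΔγ hΔβ Hγ Hα Hβ hC
    Fγ Fα Fβ hb
  refine ⟨hfin, ?_⟩
  by_cases hb0 : ∃ g : N, 𝔟((g : Γ)) ≠ 0
  · have h := h2' hb0
    omega
  · have hb0' : ∀ g ∈ N, 𝔟(g) = 0 := fun g hg => by
      by_contra h
      exact hb0 ⟨⟨g, hg⟩, h⟩
    have h := one_le_finrank_commutant_of_split r N hr hΔβ hb0'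
    omega

end Commutant

/-! ### Shape (I): induced from an index two subgroup -/

section Induced

variable (r : Γ →* GL (Fin 2) k) (Γ₀ N : Subgroup Γ) (F : Γ)
  (C : Submodule k (Γ → Matrix (Fin 2) (Fin 2) k))

local notation "𝔞(" σ ")" => (Units.val (r σ) : Matrix (Fin 2) (Fin 2) k) 0 0
local notation "𝔟(" σ ")" => (Units.val (r σ) : Matrix (Fin 2) (Fin 2) k) 0 1
local notation "𝔠(" σ ")" => (Units.val (r σ) : Matrix (Fin 2) (Fin 2) k) 1 0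
local notation "𝔡(" σ ")" => (Units.val (r σ) : Matrix (Fin 2) (Fin 2) k) 1 1

omit Γ₀ N C in
theorem anti_ne_zero (hF0 : 𝔞(F) = 0) : 𝔟(F) ≠ 0 ∧ 𝔠(F) ≠ 0 := by
  have hdet := (Matrix.isUnit_iff_isUnit_det _).mp (r F).isUnit
  rw [Matrix.det_fin_two, hF0, zero_mul, zero_sub] at hdet
  have hne : 𝔟(F) * 𝔠(F) ≠ 0 := neg_ne_zero.mp hdet.ne_zero
  exact ⟨left_ne_zero_of_mul hne, right_ne_zero_of_mul hne⟩

/-- **The three-step argument, shape (I).**  `r` is diagonal on `Γ₀` (of index two, `F ∉ Γ₀`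
represents the other coset), antidiagonal at `F`, trivial on `N ≤ Γ₀`, and the two diagonal
characters differ somewhere on `Γ₀`.  If the non-coboundary cocycles of `C` have their lower
left entry on `N` in `Hγ` and their upper left entry on `N` in `Hα`, and the functions of `Hα`
are invariant under conjugation by `F`, then `dim C / (C ∩ B¹) ≤ dim Hγ`. -/
theorem finrank_induced
    (hdiag0 : ∀ σ ∈ Γ₀, 𝔟(σ) = 0) (hdiag1 : ∀ σ ∈ Γ₀, 𝔠(σ) = 0)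
    (hF0 : 𝔞(F) = 0) (hF1 : 𝔡(F) = 0) (hNΓ : N ≤ Γ₀)
    (hN0 : ∀ g ∈ N, 𝔞(g) = 1) (hN1 : ∀ g ∈ N, 𝔡(g) = 1)
    (hFN : ∀ g ∈ N, F * g * F⁻¹ ∈ N)
    (hidx : ∀ σ, σ ∈ Γ₀ ∨ F⁻¹ * σ ∈ Γ₀) (hnorm : ∀ σ ∈ Γ₀, F⁻¹ * σ * F ∈ Γ₀)
    (hne : ∃ σ ∈ Γ₀, 𝔞(σ) ≠ 𝔡(σ)) (h2 : (2 : k) ≠ 0)
    (hΔ0 : ∀ f : Γ → k, (∀ σ ∈ Γ₀, ∀ τ ∈ Γ₀, f (σ * τ) = f σ + f τ) → (∀ g ∈ N, f g = 0) →
      ∀ σ ∈ Γ₀, f σ = 0)
    (hΔγ : ∀ f : Γ → k, (∀ σ ∈ Γ₀, ∀ τ ∈ Γ₀, f (σ * τ) = f σ + 𝔡(σ) / 𝔞(σ) * f τ) →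
      (∀ g ∈ N, f g = 0) → ∃ x : k, ∀ σ ∈ Γ₀, f σ = (𝔡(σ) / 𝔞(σ) - 1) * x)
    (hΔβ : ∀ f : Γ → k, (∀ σ ∈ Γ₀, ∀ τ ∈ Γ₀, f (σ * τ) = f σ + 𝔞(σ) / 𝔡(σ) * f τ) →
      (∀ g ∈ N, f g = 0) → ∃ y : k, ∀ σ ∈ Γ₀, f σ = (𝔞(σ) / 𝔡(σ) - 1) * y)
    (Hγ Hα : Submodule k (N → k)) [Module.Finite k Hγ]
    (hC : C ≤ Z1 r)
    (Fγ : ∀ c ∈ C, c ∉ B1 r → (fun g : N => c g 1 0) ∈ Hγ)
    (Fα : ∀ c ∈ C, c ∉ B1 r → (fun g : N => c g 0 0) ∈ Hα)
    (hαF : ∀ φ ∈ Hα, ∀ g : N, φ ⟨F * g * F⁻¹, hFN g g.2⟩ = φ g) :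
    Module.Finite k (↥C ⧸ (B1 r).comap C.subtype) ∧
      finrank k (↥C ⧸ (B1 r).comap C.subtype) ≤ finrank k Hγ := by
  classical
  obtain ⟨hbF, hcF⟩ := anti_ne_zero r F hF0
  have hadN : ∀ g ∈ N, ∀ X, ad r g X = X := fun g hg X =>
    ad_of_one r (hN0 g hg) (hdiag0 g (hNΓ hg)) (hdiag1 g (hNΓ hg)) (hN1 g hg) X
  have hcobN : ∀ X, ∀ g ∈ N, cob r X g = 0 := fun X g hg => by
    rw [cob_apply, hadN g hg, sub_self]
  have hd : ∀ σ ∈ Γ₀, ∀ X, ad r σ X 1 0 = 𝔡(σ) / 𝔞(σ) * X 1 0 ∧ ad r σ X 0 0 = X 0 0 ∧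
      ad r σ X 1 1 = X 1 1 ∧ ad r σ X 0 1 = 𝔞(σ) / 𝔡(σ) * X 0 1 :=
    fun σ hσ X => ad_entries_diag r (hdiag1 σ hσ) (hdiag0 σ hσ) X
  -- the main claim: a cocycle of `C` whose lower left entry vanishes on `N` is a coboundary
  have hmain : ∀ c ∈ C, (∀ g : N, c g 1 0 = 0) → c ∈ B1 r := by
    intro c hc hγN
    by_contra hcB
    have hZ : c ∈ Z1 r := hC hc
    have hα := Fα c hc hcB
    have hconj : ∀ g ∈ N, c (F * g * F⁻¹) = ad r F (c g) := by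
      intro g hg
      have e1 : c (F * g * F⁻¹) = c F + ad r F (c g) + ad r F (c F⁻¹) := by
        rw [hZ.2 (F * g) F⁻¹, hZ.2 F g, ad_mul, hadN g hg]
      have e2 : c F + ad r F (c F⁻¹) = 0 := by
        have h := hZ.2 F F⁻¹
        rw [mul_inv_cancel, Z1_one r hZ] at h
        exact h.symm
      rw [e1, add_right_comm, e2, zero_add]
    have hβN : ∀ g ∈ N, c g 0 1 = 0 := by
      intro g hg
      have h := congrFun (congrFun (hconj g hg) 1) 0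
      have h0 : c (F * g * F⁻¹) 1 0 = 0 := hγN ⟨F * g * F⁻¹, hFN g hg⟩
      rw [h0, (ad_entries_anti r hF0 hF1 (c g)).2.2.2] at h
      exact (mul_eq_zero.mp h.symm).resolve_left (div_ne_zero hcF hbF)
    have hαN : ∀ g ∈ N, c g 0 0 = 0 := by
      intro g hg
      have h := congrFun (congrFun (hconj g hg) 0) 0
      rw [(ad_entries_anti r hF0 hF1 (c g)).1, Z1_apply_11 r hZ g] at h
      have h' : c (F * g * F⁻¹) 0 0 = c g 0 0 := hαF _ hα ⟨g, hg⟩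
      have h2c : (2 : k) * c g 0 0 = 0 := by linear_combination h - h'
      exact (mul_eq_zero.mp h2c).resolve_left h2
    obtain ⟨x, hx⟩ := hΔγ (fun σ => c σ 1 0) (fun σ hσ τ _ => by
      show c (σ * τ) 1 0 = c σ 1 0 + 𝔡(σ) / 𝔞(σ) * c τ 1 0
      rw [hZ.2 σ τ, Matrix.add_apply, (hd σ hσ _).1]) (fun g hg => hγN ⟨g, hg⟩)
    obtain ⟨y, hy⟩ := hΔβ (fun σ => c σ 0 1) (fun σ hσ τ _ => by
      show c (σ * τ) 0 1 = c σ 0 1 + 𝔞(σ) / 𝔡(σ) * c τ 0 1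
      rw [hZ.2 σ τ, Matrix.add_apply, (hd σ hσ _).2.2.2]) (fun g hg => hβN g hg)
    have hα0 : ∀ σ ∈ Γ₀, c σ 0 0 = 0 := hΔ0 (fun σ => c σ 0 0) (fun σ hσ τ _ => by
      show c (σ * τ) 0 0 = c σ 0 0 + c τ 0 0
      rw [hZ.2 σ τ, Matrix.add_apply, (hd σ hσ _).2.1]) (fun g hg => hαN g hg)
    have hx' : ∀ σ ∈ Γ₀, c σ 1 0 = (𝔡(σ) / 𝔞(σ) - 1) * x := hx
    have hy' : ∀ σ ∈ Γ₀, c σ 0 1 = (𝔞(σ) / 𝔡(σ) - 1) * y := hy
    obtain ⟨X, hXtr, hX01, hX10⟩ : ∃ X : Matrix (Fin 2) (Fin 2) k,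
        X.trace = 0 ∧ X 0 1 = y ∧ X 1 0 = x :=
      ⟨!![0, y; x, 0], by simp [Matrix.trace_fin_two], by simp, by simp⟩
    obtain ⟨c2, hc2⟩ : ∃ c2, c2 = c - cob r X := ⟨_, rfl⟩
    have hc2Z : c2 ∈ Z1 r := by
      rw [hc2]
      exact (Z1 r).sub_mem hZ (cob_mem_Z1 r hXtr)
    have hc2Γ : ∀ σ ∈ Γ₀, c2 σ = 0 := by
      intro σ hσ
      obtain ⟨e10, e00, e11, e01⟩ := hd σ hσ X
      rw [hc2]
      ext i j
      fin_cases i <;> fin_cases j
      · show c σ 0 0 - (ad r σ X 0 0 - X 0 0) = 0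
        rw [hα0 σ hσ, e00]
        ring
      · show c σ 0 1 - (ad r σ X 0 1 - X 0 1) = 0
        rw [hy' σ hσ, e01, hX01]
        ring
      · show c σ 1 0 - (ad r σ X 1 0 - X 1 0) = 0
        rw [hx' σ hσ, e10, hX10]
        ring
      · show c σ 1 1 - (ad r σ X 1 1 - X 1 1) = 0
        rw [Z1_apply_11 r hZ σ, hα0 σ hσ, e11]
        ring
    have hYinv : ∀ σ ∈ Γ₀, ad r σ (c2 F) = c2 F := by
      intro σ hσ
      have h1 : c2 (σ * F) = ad r σ (c2 F) := by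
        rw [hc2Z.2 σ F, hc2Γ σ hσ, zero_add]
      have h2' : c2 (F * (F⁻¹ * σ * F)) = c2 F := by
        rw [hc2Z.2 F (F⁻¹ * σ * F), hc2Γ _ (hnorm σ hσ), ad_zero, add_zero]
      have e : F * (F⁻¹ * σ * F) = σ * F := by group
      rw [e] at h2'
      rw [← h1, h2']
    obtain ⟨σ1, hσ1, hσ1ne⟩ := hne
    have ha1 := ra_ne_zero_of r (hdiag1 σ1 hσ1)
    have hd1 := rd_ne_zero_of r (hdiag1 σ1 hσ1)
    have hY10 : c2 F 1 0 = 0 := by
      have h := congrFun (congrFun (hYinv σ1 hσ1) 1) 0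
      rw [(hd σ1 hσ1 _).1] at h
      have h' : (𝔡(σ1) / 𝔞(σ1) - 1) * c2 F 1 0 = 0 := by linear_combination h
      refine (mul_eq_zero.mp h').resolve_left ?_
      intro h0
      apply hσ1ne
      have h1 : 𝔡(σ1) / 𝔞(σ1) = 1 := sub_eq_zero.mp h0
      rw [div_eq_one_iff_eq ha1] at h1
      exact h1.symm
    have hY01 : c2 F 0 1 = 0 := by
      have h := congrFun (congrFun (hYinv σ1 hσ1) 0) 1
      rw [(hd σ1 hσ1 _).2.2.2] at h
      have h' : (𝔞(σ1) / 𝔡(σ1) - 1) * c2 F 0 1 = 0 := by linear_combination h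
      refine (mul_eq_zero.mp h').resolve_left ?_
      intro h0
      apply hσ1ne
      have h1 : 𝔞(σ1) / 𝔡(σ1) = 1 := sub_eq_zero.mp h0
      rw [div_eq_one_iff_eq hd1] at h1
      exact h1
    have hY11 : c2 F 1 1 = -c2 F 0 0 := Z1_apply_11 r hc2Z F
    have ht : c2 F 0 0 / 2 + c2 F 0 0 / 2 = c2 F 0 0 := by
      rw [← add_div, ← two_mul, mul_div_cancel_left₀ _ h2]
    obtain ⟨Z, hZtr, hZ00, hZ01, hZ10, hZ11⟩ : ∃ Z : Matrix (Fin 2) (Fin 2) k,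
        Z.trace = 0 ∧ Z 0 0 = -(c2 F 0 0 / 2) ∧ Z 0 1 = 0 ∧ Z 1 0 = 0 ∧ Z 1 1 = c2 F 0 0 / 2 :=
      ⟨!![-(c2 F 0 0 / 2), 0; 0, c2 F 0 0 / 2], by simp [Matrix.trace_fin_two], by simp, by simp,
        by simp, by simp⟩
    have hc3Z : c2 - cob r Z ∈ Z1 r := (Z1 r).sub_mem hc2Z (cob_mem_Z1 r hZtr)
    have hc3Γ : ∀ σ ∈ Γ₀, (c2 - cob r Z) σ = 0 := by
      intro σ hσ
      obtain ⟨e10, e00, e11, e01⟩ := hd σ hσ Z
      have h0 : cob r Z σ = 0 := by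
        ext i j
        fin_cases i <;> fin_cases j
        · show ad r σ Z 0 0 - Z 0 0 = 0
          rw [e00, sub_self]
        · show ad r σ Z 0 1 - Z 0 1 = 0
          rw [e01, hZ01, mul_zero, sub_zero]
        · show ad r σ Z 1 0 - Z 1 0 = 0
          rw [e10, hZ10, mul_zero, sub_zero]
        · show ad r σ Z 1 1 - Z 1 1 = 0
          rw [e11, sub_self]
      rw [Pi.sub_apply, hc2Γ σ hσ, h0, sub_zero]
    have hc3F : (c2 - cob r Z) F = 0 := by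
      obtain ⟨e00, e11, e01, e10⟩ := ad_entries_anti r hF0 hF1 Z
      ext i j
      fin_cases i <;> fin_cases j
      · show c2 F 0 0 - (ad r F Z 0 0 - Z 0 0) = 0
        rw [e00, hZ11, hZ00]
        linear_combination (-1 : k) * ht
      · show c2 F 0 1 - (ad r F Z 0 1 - Z 0 1) = 0
        rw [hY01, e01, hZ10, hZ01]
        ring
      · show c2 F 1 0 - (ad r F Z 1 0 - Z 1 0) = 0
        rw [hY10, e10, hZ01, hZ10]
        ring
      · show c2 F 1 1 - (ad r F Z 1 1 - Z 1 1) = 0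
        rw [hY11, e11, hZ00, hZ11]
        linear_combination ht
    have hc3 : ∀ σ, (c2 - cob r Z) σ = 0 := by
      intro σ
      rcases hidx σ with hσ | hσ
      · exact hc3Γ σ hσ
      · have e : σ = F * (F⁻¹ * σ) := by group
        rw [e, hc3Z.2 F (F⁻¹ * σ), hc3F, hc3Γ _ hσ, ad_zero, add_zero]
    apply hcB
    have hceq : c = cob r (X + Z) := by
      funext σ
      have h : c σ - cob r X σ - cob r Z σ = 0 := by
        have h' := hc3 σ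
        rw [hc2] at h'
        exact h'
      rw [sub_sub] at h
      rw [map_add]
      exact sub_eq_zero.mp h
    rw [hceq]
    exact cob_mem_B1 r (by rw [Matrix.trace_add, hXtr, hZtr, add_zero])
  -- assembly
  have hker : (B1 r).comap C.subtype =
      LinearMap.ker ((entryN (k := k) N 1 0).comp C.subtype) := by
    ext c
    rw [Submodule.mem_comap, LinearMap.mem_ker, LinearMap.comp_apply, Submodule.subtype_apply]
    constructor
    · rintro ⟨X, -, hX⟩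
      funext g
      rw [entryN_apply, ← hX, hcobN X g g.2]
      rfl
    · intro h
      exact hmain c c.2 (fun g => congrFun h g)
  rw [hker]
  have hrange : LinearMap.range ((entryN (k := k) N 1 0).comp C.subtype) ≤ Hγ := by
    rintro _ ⟨c, rfl⟩
    by_cases hcB : (c : Γ → Matrix (Fin 2) (Fin 2) k) ∈ B1 r
    · obtain ⟨X, -, hX⟩ := hcB
      have h0 : ((entryN (k := k) N 1 0).comp C.subtype) c = 0 := by
        funext g
        rw [LinearMap.comp_apply, Submodule.subtype_apply, entryN_apply, ← hX, hcobN X g g.2]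
        rfl
      rw [h0]
      exact Hγ.zero_mem
    · exact Fγ c c.2 hcB
  have hfin : Module.Finite k ↥(LinearMap.range ((entryN (k := k) N 1 0).comp C.subtype)) :=
    Submodule.finiteDimensional_of_le hrange
  have e := ((entryN (k := k) N 1 0).comp C.subtype).quotKerEquivRange
  exact ⟨Module.Finite.equiv e.symm, e.finrank_eq.trans_le (Submodule.finrank_mono hrange)⟩

end Induced

/-! ### Change of basis -/

section Conj

/-- Conjugation by `P` on matrices. -/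
def cj (P : GL (Fin 2) k) (X : Matrix (Fin 2) (Fin 2) k) : Matrix (Fin 2) (Fin 2) k :=
  (P : Matrix (Fin 2) (Fin 2) k) * X * ((P⁻¹ : GL (Fin 2) k) : Matrix (Fin 2) (Fin 2) k)

theorem ad_eq_cj (r : Γ →* GL (Fin 2) k) (σ : Γ) (X : Matrix (Fin 2) (Fin 2) k) :
    ad r σ X = cj (r σ) X := rfl

theorem cj_add (P : GL (Fin 2) k) (X Y : Matrix (Fin 2) (Fin 2) k) :
    cj P (X + Y) = cj P X + cj P Y := by
  simp only [cj, Matrix.mul_add, Matrix.add_mul]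

theorem cj_sub (P : GL (Fin 2) k) (X Y : Matrix (Fin 2) (Fin 2) k) :
    cj P (X - Y) = cj P X - cj P Y := by
  simp only [cj, Matrix.mul_sub, Matrix.sub_mul]

theorem cj_smul (P : GL (Fin 2) k) (a : k) (X : Matrix (Fin 2) (Fin 2) k) :
    cj P (a • X) = a • cj P X := by
  simp only [cj, Matrix.mul_smul, Matrix.smul_mul]

theorem cj_mul (P Q : GL (Fin 2) k) (X : Matrix (Fin 2) (Fin 2) k) :
    cj (P * Q) X = cj P (cj Q X) := by
  simp only [cj, _root_.mul_inv_rev, Units.val_mul, Matrix.mul_assoc]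

theorem cj_one (X : Matrix (Fin 2) (Fin 2) k) : cj (1 : GL (Fin 2) k) X = X := by
  simp [cj]

theorem trace_cj (P : GL (Fin 2) k) (X : Matrix (Fin 2) (Fin 2) k) :
    (cj P X).trace = X.trace :=
  Matrix.trace_units_conj P X

/-- Conjugation by `P` as a linear equivalence of `M₂(k)`. -/
def cjL (P : GL (Fin 2) k) : Matrix (Fin 2) (Fin 2) k ≃ₗ[k] Matrix (Fin 2) (Fin 2) k where
  toFun X := cj P X
  invFun X := cj P⁻¹ X
  map_add' X Y := cj_add P X Y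
  map_smul' a X := cj_smul P a X
  left_inv X := by simp only [← cj_mul, inv_mul_cancel, cj_one]
  right_inv X := by simp only [← cj_mul, mul_inv_cancel, cj_one]

theorem cjL_apply (P : GL (Fin 2) k) (X : Matrix (Fin 2) (Fin 2) k) : cjL P X = cj P X := rfl

/-- The conjugate representation `σ ↦ P * r σ * P⁻¹`. -/
def conjRep (P : GL (Fin 2) k) (r : Γ →* GL (Fin 2) k) : Γ →* GL (Fin 2) k where
  toFun σ := P * r σ * P⁻¹
  map_one' := by simp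
  map_mul' σ τ := by simp [mul_assoc]

theorem conjRep_apply (P : GL (Fin 2) k) (r : Γ →* GL (Fin 2) k) (σ : Γ) :
    conjRep P r σ = P * r σ * P⁻¹ := rfl

theorem conjRep_inv_conjRep (P : GL (Fin 2) k) (r : Γ →* GL (Fin 2) k) :
    conjRep P⁻¹ (conjRep P r) = r := by
  ext1 σ
  simp [conjRep_apply, mul_assoc]

theorem ad_conjRep (P : GL (Fin 2) k) (r : Γ →* GL (Fin 2) k) (σ : Γ)
    (X : Matrix (Fin 2) (Fin 2) k) : ad (conjRep P r) σ (cj P X) = cj P (ad r σ X) := by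
  rw [ad_eq_cj, ad_eq_cj, conjRep_apply, ← cj_mul, ← cj_mul, inv_mul_cancel_right]

/-- Conjugation by `P` on functions `Γ → M₂(k)`. -/
def conjFun (P : GL (Fin 2) k) :
    (Γ → Matrix (Fin 2) (Fin 2) k) ≃ₗ[k] (Γ → Matrix (Fin 2) (Fin 2) k) where
  toFun c := fun σ => cj P (c σ)
  invFun c := fun σ => cj P⁻¹ (c σ)
  map_add' c c' := by
    funext σ
    simp only [Pi.add_apply, cj_add]
  map_smul' a c := by
    funext σ
    simp only [Pi.smul_apply, cj_smul, RingHom.id_apply]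
  left_inv c := by
    funext σ
    simp only [← cj_mul, inv_mul_cancel, cj_one]
  right_inv c := by
    funext σ
    simp only [← cj_mul, mul_inv_cancel, cj_one]

omit [Group Γ] in
theorem conjFun_apply (P : GL (Fin 2) k) (c : Γ → Matrix (Fin 2) (Fin 2) k) (σ : Γ) :
    conjFun P c σ = cj P (c σ) := rfl

theorem conjFun_cob (P : GL (Fin 2) k) (r : Γ →* GL (Fin 2) k) (X : Matrix (Fin 2) (Fin 2) k) :
    conjFun P (cob r X) = cob (conjRep P r) (cj P X) := by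
  funext σ
  rw [conjFun_apply, cob_apply, cob_apply, cj_sub, ad_conjRep]

theorem conjFun_mem_Z1 (P : GL (Fin 2) k) (r : Γ →* GL (Fin 2) k)
    {c : Γ → Matrix (Fin 2) (Fin 2) k} (hc : c ∈ Z1 r) : conjFun P c ∈ Z1 (conjRep P r) := by
  refine ⟨fun σ => ?_, fun σ τ => ?_⟩
  · rw [conjFun_apply, trace_cj, hc.1 σ]
  · rw [conjFun_apply, conjFun_apply, conjFun_apply, hc.2 σ τ, cj_add, ad_conjRep]

theorem conjFun_mem_B1_iff (P : GL (Fin 2) k) (r : Γ →* GL (Fin 2) k)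
    (c : Γ → Matrix (Fin 2) (Fin 2) k) : conjFun P c ∈ B1 (conjRep P r) ↔ c ∈ B1 r := by
  constructor
  · rintro ⟨Y, hY, hYc⟩
    have hY' : Y.trace = 0 := hY
    refine ⟨cj P⁻¹ Y, ?_, ?_⟩
    · show (cj P⁻¹ Y).trace = 0
      rw [trace_cj, hY']
    · apply (conjFun P).injective
      rw [conjFun_cob, ← cj_mul, mul_inv_cancel, cj_one]
      exact hYc
  · rintro ⟨X, hX, rfl⟩
    have hX' : X.trace = 0 := hX
    rw [conjFun_cob]
    exact cob_mem_B1 _ (by rw [trace_cj, hX'])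

/-- The quotient `C / (C ∩ B¹)` is unchanged by a change of basis. -/
noncomputable def quotConjEquiv (P : GL (Fin 2) k) (r : Γ →* GL (Fin 2) k)
    (C : Submodule k (Γ → Matrix (Fin 2) (Fin 2) k)) :
    (↥C ⧸ (B1 r).comap C.subtype) ≃ₗ[k]
      (↥(C.map (conjFun (Γ := Γ) P).toLinearMap) ⧸
        (B1 (conjRep P r)).comap (C.map (conjFun (Γ := Γ) P).toLinearMap).subtype) :=
  Submodule.Quotient.equiv _ _ ((conjFun P).submoduleMap C) (by
    ext ⟨c', hc'⟩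
    constructor
    · rintro ⟨c, hc, hcc'⟩
      have h1 : conjFun P (c : Γ → Matrix (Fin 2) (Fin 2) k) = c' := congrArg Subtype.val hcc'
      show c' ∈ B1 (conjRep P r)
      rw [← h1]
      exact (conjFun_mem_B1_iff P r c).mpr hc
    · intro h
      obtain ⟨c, hcC, rfl⟩ := hc'
      exact ⟨⟨c, hcC⟩, (conjFun_mem_B1_iff P r c).mp h, rfl⟩)

theorem cj_mem_commutant (P : GL (Fin 2) k) (r : Γ →* GL (Fin 2) k)
    {X : Matrix (Fin 2) (Fin 2) k} (hX : X ∈ commutant r) : cj P X ∈ commutant (conjRep P r) := by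
  refine ⟨by rw [trace_cj, hX.1], fun σ => ?_⟩
  have h := hX.2 σ
  simp only [conjRep_apply, cj, Units.val_mul, Matrix.mul_assoc, Units.inv_mul_cancel_left]
  rw [← Matrix.mul_assoc (r σ : Matrix (Fin 2) (Fin 2) k) X, h, Matrix.mul_assoc]

theorem commutant_conjRep (P : GL (Fin 2) k) (r : Γ →* GL (Fin 2) k) :
    commutant (conjRep P r) =
      (commutant r).map (cjL P : Matrix (Fin 2) (Fin 2) k →ₗ[k] Matrix (Fin 2) (Fin 2) k) := by
  ext Y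
  constructor
  · intro hY
    refine ⟨cj P⁻¹ Y, ?_, ?_⟩
    · have h := cj_mem_commutant P⁻¹ (conjRep P r) hY
      rw [conjRep_inv_conjRep] at h
      exact h
    · show cj P (cj P⁻¹ Y) = Y
      rw [← cj_mul, mul_inv_cancel, cj_one]
  · rintro ⟨X, hX, rfl⟩
    exact cj_mem_commutant P r hX

/-- The dimension of the commutant is unchanged by a change of basis. -/
theorem finrank_commutant_conjRep (P : GL (Fin 2) k) (r : Γ →* GL (Fin 2) k) :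
    finrank k ↥(commutant (conjRep P r)) = finrank k ↥(commutant r) := by
  rw [commutant_conjRep]
  exact LinearEquiv.finrank_map_eq (cjL P) (commutant r)

end Conj

end Fermat.Agent.S56.LF.ThreeStep
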