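import Mathlib
import Fermat.Agent.S56.Flat.Defs
import Fermat.Agent.S56.LF.ThreeStep

/-!
# S56, brick LF: the dictionary derivations ↔ cocycles, and the `Δ`-inputs

Glue between the vocabulary of `Flat/Defs.lean` (derivations `d` with
`d (σ τ) = d σ * r τ + r σ * d τ`, `Inn`, `Comm0`, `r : Gal →* M₂(k)`) and the abstract three-step
argument of `LF/ThreeStep.lean` (cocycles `c = d r⁻¹`, `Z1`, `B1`, `commutant`,
`r : Γ →* GL₂(k)`).

* `rGL`, `toCoc`, `toCoc_mem_Z1`, `symm_toCoc_derivation`, `symm_toCoc_trace`,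
  `mem_inn_iff_toCoc_mem_B1`, `map_inn`, `comm0_eq`, `quotEquiv`, `finrank_quot_eq` :
  the dictionary.
* `add_eq_zero_of_pow`, `twisted_coboundary_of_pow`, and their relative forms
  `add_eq_zero_of_pow_on`, `twisted_coboundary_of_pow_on` : the `Δ`-inputs of the three-step
  argument from an exponent clause `σ ^ n0 ∈ N`, `n0` invertible in `k`.
* `twisted_conj`, `twisted_conj_on` : conjugation formula for twisted cocycles.
-/

set_option autoImplicit false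

noncomputable section

namespace Fermat.Agent.S56.LF.CocDict

open Matrix Module Fermat.Agent.S56.Flat
open Fermat.Agent.S56.LF.ThreeStep

/-! ### Generic linear algebra -/

section Quot

variable {k V : Type*} [Field k] [AddCommGroup V] [Module k V]

/-- A linear automorphism `e` mapping `I ∩ W` onto `J ∩ e W` identifies `W / (W ∩ I)` with
`e W / (e W ∩ J)`. -/
def quotMapEquiv (e : V ≃ₗ[k] V) (W I J : Submodule k V) (h : ∀ x ∈ W, x ∈ I ↔ e x ∈ J) :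
    (↥W ⧸ I.comap W.subtype) ≃ₗ[k]
      (↥(W.map (e : V →ₗ[k] V)) ⧸ J.comap (W.map (e : V →ₗ[k] V)).subtype) :=
  Submodule.Quotient.equiv _ _ (e.submoduleMap W) (by
    ext y
    constructor
    · rintro ⟨x, hx, rfl⟩
      exact (h x x.2).mp hx
    · intro hy
      obtain ⟨x, hxW, hxy⟩ := y.2
      refine ⟨⟨x, hxW⟩, (h x hxW).mpr ?_, Subtype.ext hxy⟩
      have hy' : (y : V) ∈ J := hy
      rw [← hxy] at hy'
      exact hy')

end Quot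

/-! ### The `Δ`-inputs from an exponent clause -/

section Delta

variable {Γ : Type*} [Group Γ] {k : Type*} [Field k]

/-- An additive function vanishing on `N` vanishes as soon as `σ ^ n0 ∈ N` for all `σ`, with
`n0` invertible in `k`. -/
theorem add_eq_zero_of_pow (N : Subgroup Γ) (n0 : ℕ) (hn0 : (n0 : k) ≠ 0)
    (hpow : ∀ σ : Γ, σ ^ n0 ∈ N) (f : Γ → k) (hf : ∀ σ τ, f (σ * τ) = f σ + f τ)
    (hN : ∀ g ∈ N, f g = 0) (σ : Γ) : f σ = 0 := by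
  have h1 : f 1 = 0 := by
    have h := hf 1 1
    rw [mul_one] at h
    exact left_eq_add.mp h
  have hp : ∀ n : ℕ, f (σ ^ n) = n * f σ := by
    intro n
    induction n with
    | zero => rw [pow_zero, h1, Nat.cast_zero, zero_mul]
    | succ n ih =>
      rw [pow_succ, hf, ih, Nat.cast_succ]
      ring
  have h0 : f (σ ^ n0) = 0 := hN _ (hpow σ)
  rw [hp] at h0
  exact (mul_eq_zero.mp h0).resolve_left hn0

/-- A twisted cocycle `f (σ τ) = f σ + χ σ * f τ` vanishing on `N` is a coboundary, as soon as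
`χ` is multiplicative, trivial on `N`, and `σ ^ n0 ∈ N` for all `σ` with `n0` invertible. -/
theorem twisted_coboundary_of_pow (N : Subgroup Γ) (n0 : ℕ) (hn0 : (n0 : k) ≠ 0)
    (hpow : ∀ σ : Γ, σ ^ n0 ∈ N) (χ f : Γ → k) (hχ : ∀ σ τ, χ (σ * τ) = χ σ * χ τ)
    (hχN : ∀ g ∈ N, χ g = 1) (hf : ∀ σ τ, f (σ * τ) = f σ + χ σ * f τ)
    (hN : ∀ g ∈ N, f g = 0) : ∃ x : k, ∀ σ, f σ = (χ σ - 1) * x := by
  have hχ1 : χ 1 = 1 := hχN 1 N.one_mem
  have hf1 : f 1 = 0 := by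
    have h := hf 1 1
    rw [mul_one, hχ1, one_mul] at h
    exact left_eq_add.mp h
  -- `f` is additive on powers of an element of `ker χ`
  have hker : ∀ κ : Γ, χ κ = 1 → f κ = 0 := by
    intro κ hκ
    have hχp : ∀ n : ℕ, χ (κ ^ n) = 1 := by
      intro n
      induction n with
      | zero => rw [pow_zero, hχ1]
      | succ n ih => rw [pow_succ, hχ, ih, hκ, one_mul]
    have hp : ∀ n : ℕ, f (κ ^ n) = n * f κ := by
      intro n
      induction n with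
      | zero => rw [pow_zero, hf1, Nat.cast_zero, zero_mul]
      | succ n ih =>
        rw [pow_succ, hf, ih, hχp, Nat.cast_succ]
        ring
    have h0 : f (κ ^ n0) = 0 := hN _ (hpow κ)
    rw [hp] at h0
    exact (mul_eq_zero.mp h0).resolve_left hn0
  by_cases hall : ∀ σ, χ σ = 1
  · exact ⟨0, fun σ => by rw [hker σ (hall σ), mul_zero]⟩
  · obtain ⟨σ0, hσ0⟩ := not_forall.mp hall
    have hne : χ σ0 - 1 ≠ 0 := sub_ne_zero.mpr hσ0
    refine ⟨f σ0 / (χ σ0 - 1), fun σ => ?_⟩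
    have hinv : ∀ τ : Γ, χ τ * χ τ⁻¹ = 1 := fun τ => by rw [← hχ, mul_inv_cancel, hχ1]
    have hκχ : χ (σ * σ0 * σ⁻¹ * σ0⁻¹) = 1 := by
      rw [hχ, hχ, hχ]
      calc χ σ * χ σ0 * χ σ⁻¹ * χ σ0⁻¹ = (χ σ * χ σ⁻¹) * (χ σ0 * χ σ0⁻¹) := by ring
        _ = 1 := by rw [hinv, hinv, one_mul]
    have hκ := hker _ hκχ
    have hcomm : σ * σ0 = (σ * σ0 * σ⁻¹ * σ0⁻¹) * (σ0 * σ) := by group
    have h1 : f (σ * σ0) = f (σ0 * σ) := by
      conv_lhs => rw [hcomm]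
      rw [hf, hκ, hκχ, one_mul, zero_add]
    rw [hf σ σ0, hf σ0 σ] at h1
    have h2 : f σ * (χ σ0 - 1) = (χ σ - 1) * f σ0 := by linear_combination -h1
    rw [mul_div_assoc', ← h2, mul_div_assoc, div_self hne, mul_one]

/-- Conjugation formula for a twisted cocycle at an element of `ker χ`. -/
theorem twisted_conj (χ f : Γ → k) (hχ : ∀ σ τ, χ (σ * τ) = χ σ * χ τ) (hχ1 : χ 1 = 1)
    (hf : ∀ σ τ, f (σ * τ) = f σ + χ σ * f τ) (σ g : Γ) (hg : χ g = 1) :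
    f (σ * g * σ⁻¹) = χ σ * f g := by
  have hf1 : f 1 = 0 := by
    have h := hf 1 1
    rw [mul_one, hχ1, one_mul] at h
    exact left_eq_add.mp h
  have h0 : f σ + χ σ * f σ⁻¹ = 0 := by rw [← hf, mul_inv_cancel, hf1]
  rw [hf (σ * g) σ⁻¹, hf σ g, hχ, hg, mul_one]
  linear_combination h0

/-- Relative form of `add_eq_zero_of_pow`: everything on a subgroup `Γ₀`. -/
theorem add_eq_zero_of_pow_on (Γ₀ N : Subgroup Γ) (n0 : ℕ) (hn0 : (n0 : k) ≠ 0)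
    (hpow : ∀ σ ∈ Γ₀, σ ^ n0 ∈ N) (f : Γ → k)
    (hf : ∀ σ ∈ Γ₀, ∀ τ ∈ Γ₀, f (σ * τ) = f σ + f τ)
    (hN : ∀ g ∈ N, f g = 0) : ∀ σ ∈ Γ₀, f σ = 0 := by
  intro σ hσ
  have h1 : f 1 = 0 := by
    have h := hf 1 Γ₀.one_mem 1 Γ₀.one_mem
    rw [mul_one] at h
    exact left_eq_add.mp h
  have hp : ∀ n : ℕ, f (σ ^ n) = n * f σ := by
    intro n
    induction n with
    | zero => rw [pow_zero, h1, Nat.cast_zero, zero_mul]
    | succ n ih =>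
      rw [pow_succ, hf _ (Γ₀.pow_mem hσ n) _ hσ, ih, Nat.cast_succ]
      ring
  have h0 : f (σ ^ n0) = 0 := hN _ (hpow σ hσ)
  rw [hp] at h0
  exact (mul_eq_zero.mp h0).resolve_left hn0

/-- Relative form of `twisted_coboundary_of_pow`: everything on a subgroup `Γ₀`. -/
theorem twisted_coboundary_of_pow_on (Γ₀ N : Subgroup Γ) (n0 : ℕ) (hn0 : (n0 : k) ≠ 0)
    (hpow : ∀ σ ∈ Γ₀, σ ^ n0 ∈ N) (χ f : Γ → k)
    (hχ : ∀ σ ∈ Γ₀, ∀ τ ∈ Γ₀, χ (σ * τ) = χ σ * χ τ)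
    (hχN : ∀ g ∈ N, χ g = 1)
    (hf : ∀ σ ∈ Γ₀, ∀ τ ∈ Γ₀, f (σ * τ) = f σ + χ σ * f τ)
    (hN : ∀ g ∈ N, f g = 0) : ∃ x : k, ∀ σ ∈ Γ₀, f σ = (χ σ - 1) * x := by
  have hχ1 : χ 1 = 1 := hχN 1 N.one_mem
  have hf1 : f 1 = 0 := by
    have h := hf 1 Γ₀.one_mem 1 Γ₀.one_mem
    rw [mul_one, hχ1, one_mul] at h
    exact left_eq_add.mp h
  have hker : ∀ κ ∈ Γ₀, χ κ = 1 → f κ = 0 := by
    intro κ hκΓ hκ
    have hχp : ∀ n : ℕ, χ (κ ^ n) = 1 := by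
      intro n
      induction n with
      | zero => rw [pow_zero, hχ1]
      | succ n ih => rw [pow_succ, hχ _ (Γ₀.pow_mem hκΓ n) _ hκΓ, ih, hκ, one_mul]
    have hp : ∀ n : ℕ, f (κ ^ n) = n * f κ := by
      intro n
      induction n with
      | zero => rw [pow_zero, hf1, Nat.cast_zero, zero_mul]
      | succ n ih =>
        rw [pow_succ, hf _ (Γ₀.pow_mem hκΓ n) _ hκΓ, ih, hχp, Nat.cast_succ]
        ring
    have h0 : f (κ ^ n0) = 0 := hN _ (hpow κ hκΓ)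
    rw [hp] at h0
    exact (mul_eq_zero.mp h0).resolve_left hn0
  by_cases hall : ∀ σ ∈ Γ₀, χ σ = 1
  · exact ⟨0, fun σ hσ => by rw [hker σ hσ (hall σ hσ), mul_zero]⟩
  · have hex : ∃ σ0 ∈ Γ₀, χ σ0 ≠ 1 := by
      by_contra hcon
      exact hall fun σ hσ => by
        by_contra h
        exact hcon ⟨σ, hσ, h⟩
    obtain ⟨σ0, hσ0Γ, hσ0⟩ := hex
    have hne : χ σ0 - 1 ≠ 0 := sub_ne_zero.mpr hσ0
    refine ⟨f σ0 / (χ σ0 - 1), fun σ hσ => ?_⟩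
    have hinv : ∀ τ ∈ Γ₀, χ τ * χ τ⁻¹ = 1 := fun τ hτ => by
      rw [← hχ τ hτ τ⁻¹ (Γ₀.inv_mem hτ), mul_inv_cancel, hχ1]
    have hm1 : σ * σ0 ∈ Γ₀ := Γ₀.mul_mem hσ hσ0Γ
    have hm2 : σ * σ0 * σ⁻¹ ∈ Γ₀ := Γ₀.mul_mem hm1 (Γ₀.inv_mem hσ)
    have hκΓ : σ * σ0 * σ⁻¹ * σ0⁻¹ ∈ Γ₀ := Γ₀.mul_mem hm2 (Γ₀.inv_mem hσ0Γ)
    have hκχ : χ (σ * σ0 * σ⁻¹ * σ0⁻¹) = 1 := by
      rw [hχ _ hm2 _ (Γ₀.inv_mem hσ0Γ), hχ _ hm1 _ (Γ₀.inv_mem hσ), hχ _ hσ _ hσ0Γ]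
      calc χ σ * χ σ0 * χ σ⁻¹ * χ σ0⁻¹ = (χ σ * χ σ⁻¹) * (χ σ0 * χ σ0⁻¹) := by ring
        _ = 1 := by rw [hinv σ hσ, hinv σ0 hσ0Γ, one_mul]
    have hκ := hker _ hκΓ hκχ
    have hcomm : σ * σ0 = (σ * σ0 * σ⁻¹ * σ0⁻¹) * (σ0 * σ) := by group
    have h1 : f (σ * σ0) = f (σ0 * σ) := by
      conv_lhs => rw [hcomm]
      rw [hf _ hκΓ _ (Γ₀.mul_mem hσ0Γ hσ), hκ, hκχ, one_mul, zero_add]
    rw [hf σ hσ σ0 hσ0Γ, hf σ0 hσ0Γ σ hσ] at h1
    have h2 : f σ * (χ σ0 - 1) = (χ σ - 1) * f σ0 := by linear_combination -h1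
    rw [mul_div_assoc', ← h2, mul_div_assoc, div_self hne, mul_one]

/-- Relative form of `twisted_conj`. -/
theorem twisted_conj_on (Γ₀ : Subgroup Γ) (χ f : Γ → k)
    (hχ : ∀ σ ∈ Γ₀, ∀ τ ∈ Γ₀, χ (σ * τ) = χ σ * χ τ) (hχ1 : χ 1 = 1)
    (hf : ∀ σ ∈ Γ₀, ∀ τ ∈ Γ₀, f (σ * τ) = f σ + χ σ * f τ) (σ g : Γ) (hσ : σ ∈ Γ₀)
    (hgΓ : g ∈ Γ₀) (hg : χ g = 1) : f (σ * g * σ⁻¹) = χ σ * f g := by
  have hf1 : f 1 = 0 := by
    have h := hf 1 Γ₀.one_mem 1 Γ₀.one_mem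
    rw [mul_one, hχ1, one_mul] at h
    exact left_eq_add.mp h
  have h0 : f σ + χ σ * f σ⁻¹ = 0 := by
    rw [← hf σ hσ σ⁻¹ (Γ₀.inv_mem hσ), mul_inv_cancel, hf1]
  rw [hf (σ * g) (Γ₀.mul_mem hσ hgΓ) σ⁻¹ (Γ₀.inv_mem hσ), hf σ hσ g hgΓ, hχ σ hσ g hgΓ, hg,
    mul_one]
  linear_combination h0

end Delta

/-! ### The dictionary derivations ↔ cocycles -/

section Dict

variable {p : ℕ} [Fact p.Prime] {k : Type} [Field k]
  (r : Gp p →* Matrix (Fin 2) (Fin 2) k)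

/-- `r` as a homomorphism to `GL₂(k)`. -/
def rGL : Gp p →* GL (Fin 2) k := r.toHomUnits

theorem coe_rGL (σ : Gp p) : ((rGL r σ : GL (Fin 2) k) : Matrix (Fin 2) (Fin 2) k) = r σ := rfl

theorem coe_rGL_inv (σ : Gp p) :
    (((rGL r σ)⁻¹ : GL (Fin 2) k) : Matrix (Fin 2) (Fin 2) k) = r σ⁻¹ := by
  rw [← map_inv]
  rfl

theorem r_mul_r_inv (σ : Gp p) : r σ * r σ⁻¹ = 1 := by
  rw [← map_mul, mul_inv_cancel, map_one]

theorem r_inv_mul_r (σ : Gp p) : r σ⁻¹ * r σ = 1 := by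
  rw [← map_mul, inv_mul_cancel, map_one]

theorem ad_rGL (σ : Gp p) (X : Matrix (Fin 2) (Fin 2) k) :
    ad (rGL r) σ X = r σ * X * r σ⁻¹ := by
  unfold ad
  rw [coe_rGL, coe_rGL_inv]

/-- Derivation `d` ↦ cocycle `σ ↦ d σ * (r σ)⁻¹`. -/
def toCoc : (Gp p → Matrix (Fin 2) (Fin 2) k) ≃ₗ[k] (Gp p → Matrix (Fin 2) (Fin 2) k) where
  toFun d := fun σ => d σ * r σ⁻¹
  invFun c := fun σ => c σ * r σ
  left_inv d := by
    funext σ
    show d σ * r σ⁻¹ * r σ = d σ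
    rw [Matrix.mul_assoc, r_inv_mul_r, Matrix.mul_one]
  right_inv c := by
    funext σ
    show c σ * r σ * r σ⁻¹ = c σ
    rw [Matrix.mul_assoc, r_mul_r_inv, Matrix.mul_one]
  map_add' d d' := by
    funext σ
    show (d σ + d' σ) * r σ⁻¹ = d σ * r σ⁻¹ + d' σ * r σ⁻¹
    rw [Matrix.add_mul]
  map_smul' a d := by
    funext σ
    show (a • d σ) * r σ⁻¹ = a • (d σ * r σ⁻¹)
    rw [Matrix.smul_mul]

theorem toCoc_apply (d : Gp p → Matrix (Fin 2) (Fin 2) k) (σ : Gp p) :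
    toCoc r d σ = d σ * r σ⁻¹ := rfl

theorem toCoc_symm_apply (c : Gp p → Matrix (Fin 2) (Fin 2) k) (σ : Gp p) :
    (toCoc r).symm c σ = c σ * r σ := rfl

/-- A trace-zero derivation gives a cocycle. -/
theorem toCoc_mem_Z1 {d : Gp p → Matrix (Fin 2) (Fin 2) k}
    (hd : ∀ σ τ : Gp p, d (σ * τ) = d σ * r τ + r σ * d τ)
    (htr : ∀ σ : Gp p, (d σ * r σ⁻¹).trace = 0) : toCoc r d ∈ Z1 (rGL r) := by
  refine ⟨htr, fun σ τ => ?_⟩
  rw [ad_rGL, toCoc_apply, toCoc_apply, toCoc_apply, hd, _root_.mul_inv_rev, map_mul,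
    Matrix.add_mul]
  congr 1
  · rw [Matrix.mul_assoc, ← Matrix.mul_assoc (r τ), r_mul_r_inv, Matrix.one_mul]
  · simp only [Matrix.mul_assoc]

/-- The derivation of a cocycle. -/
theorem symm_toCoc_derivation {c : Gp p → Matrix (Fin 2) (Fin 2) k} (hc : c ∈ Z1 (rGL r))
    (σ τ : Gp p) :
    (toCoc r).symm c (σ * τ) = (toCoc r).symm c σ * r τ + r σ * (toCoc r).symm c τ := by
  rw [toCoc_symm_apply, toCoc_symm_apply, toCoc_symm_apply, hc.2 σ τ, ad_rGL, map_mul,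
    Matrix.add_mul]
  congr 1
  · rw [Matrix.mul_assoc]
  · rw [Matrix.mul_assoc (r σ * c τ), ← Matrix.mul_assoc (r σ⁻¹), r_inv_mul_r, Matrix.one_mul,
      Matrix.mul_assoc]

/-- Inner derivations correspond to coboundaries (characteristic `≠ 2`). -/
theorem mem_inn_iff_toCoc_mem_B1 (h2 : (2 : k) ≠ 0) (d : Gp p → Matrix (Fin 2) (Fin 2) k) :
    d ∈ Inn (p := p) r ↔ toCoc r d ∈ B1 (rGL r) := by
  constructor
  · rintro ⟨X, hX⟩
    refine ⟨-X + (X.trace / 2) • (1 : Matrix (Fin 2) (Fin 2) k), ?_, ?_⟩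
    · show (-X + (X.trace / 2) • (1 : Matrix (Fin 2) (Fin 2) k)).trace = 0
      rw [Matrix.trace_add, Matrix.trace_neg, Matrix.trace_smul, Matrix.trace_one,
        Fintype.card_fin, smul_eq_mul]
      have h22 : ((2 : ℕ) : k) = 2 := by norm_cast
      rw [h22, div_mul_cancel₀ _ h2, neg_add_cancel]
    · funext σ
      rw [cob_apply, ad_rGL, toCoc_apply, hX σ]
      simp only [Matrix.mul_add, Matrix.add_mul, Matrix.mul_neg, Matrix.neg_mul, Matrix.mul_smul,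
        Matrix.smul_mul, Matrix.mul_one, Matrix.sub_mul, r_mul_r_inv]
      rw [Matrix.mul_assoc X, r_mul_r_inv, Matrix.mul_one]
      abel
  · rintro ⟨Y, -, hY⟩
    refine ⟨-Y, fun σ => ?_⟩
    have h := congrFun hY σ
    rw [cob_apply, ad_rGL, toCoc_apply] at h
    have h' : d σ = (r σ * Y * r σ⁻¹ - Y) * r σ := by
      rw [h, Matrix.mul_assoc, r_inv_mul_r, Matrix.mul_one]
    rw [h', Matrix.sub_mul, Matrix.mul_assoc, r_inv_mul_r, Matrix.mul_one]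
    simp only [Matrix.neg_mul, Matrix.mul_neg]
    abel

/-- `Comm0 r` is the commutant of `rGL r`. -/
theorem comm0_eq_commutant : Comm0 (p := p) r = commutant (rGL r) :=
  Submodule.ext fun _ => Iff.rfl

/-- Same statement, short name. -/
theorem comm0_eq : Comm0 (p := p) r = commutant (rGL r) := comm0_eq_commutant r

/-- The cocycle of the derivation of `c` is `c`. -/
theorem symm_toCoc_mul_inv (c : Gp p → Matrix (Fin 2) (Fin 2) k) (σ : Gp p) :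
    (toCoc r).symm c σ * r σ⁻¹ = c σ := by
  rw [toCoc_symm_apply, Matrix.mul_assoc, r_mul_r_inv, Matrix.mul_one]

/-- The trace clause for the derivation of a cocycle. -/
theorem symm_toCoc_trace {c : Gp p → Matrix (Fin 2) (Fin 2) k} (hc : c ∈ Z1 (rGL r))
    (σ : Gp p) : ((toCoc r).symm c σ * r σ⁻¹).trace = 0 := by
  rw [symm_toCoc_mul_inv]
  exact hc.1 σ

/-- `Inn r` corresponds to `B1 (rGL r)` (characteristic `≠ 2`). -/
theorem map_inn (h2 : (2 : k) ≠ 0) :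
    (Inn (p := p) r).map ((toCoc r : _ ≃ₗ[k] _) : _ →ₗ[k] _) = B1 (rGL r) := by
  ext c
  constructor
  · rintro ⟨d, hd, rfl⟩
    exact (mem_inn_iff_toCoc_mem_B1 r h2 d).mp hd
  · intro hc
    refine ⟨(toCoc r).symm c, ?_, ?_⟩
    · show (toCoc r).symm c ∈ Inn (p := p) r
      rw [mem_inn_iff_toCoc_mem_B1 r h2, LinearEquiv.apply_symm_apply]
      exact hc
    · show toCoc r ((toCoc r).symm c) = c
      exact LinearEquiv.apply_symm_apply _ c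

/-- The quotient `Cs / (Cs ∩ Inn)` is its cocycle form. -/
def quotEquiv (h2 : (2 : k) ≠ 0) (Cs : Submodule k (Gp p → Matrix (Fin 2) (Fin 2) k)) :
    (↥Cs ⧸ (Inn (p := p) r).comap Cs.subtype) ≃ₗ[k]
      (↥(Cs.map ((toCoc r : _ ≃ₗ[k] _) : _ →ₗ[k] _)) ⧸
        (B1 (rGL r)).comap (Cs.map ((toCoc r : _ ≃ₗ[k] _) : _ →ₗ[k] _)).subtype) :=
  quotMapEquiv (toCoc r) Cs (Inn (p := p) r) (B1 (rGL r))
    (fun d _ => mem_inn_iff_toCoc_mem_B1 r h2 d)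

/-- The quotient `Cs / (Cs ∩ Inn)` and its cocycle form have the same dimension. -/
theorem finrank_quot_eq (h2 : (2 : k) ≠ 0)
    (Cs : Submodule k (Gp p → Matrix (Fin 2) (Fin 2) k)) :
    finrank k (↥Cs ⧸ (Inn (p := p) r).comap Cs.subtype) =
      finrank k (↥(Cs.map ((toCoc r : _ ≃ₗ[k] _) : _ →ₗ[k] _)) ⧸
        (B1 (rGL r)).comap (Cs.map ((toCoc r : _ ≃ₗ[k] _) : _ →ₗ[k] _)).subtype) :=
  (quotMapEquiv (toCoc r) Cs (Inn (p := p) r) (B1 (rGL r))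
    (fun d _ => mem_inn_iff_toCoc_mem_B1 r h2 d)).finrank_eq

end Dict

end Fermat.Agent.S56.LF.CocDict
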