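import Mathlib
import Fermat.Agent.S56.Flat.Defs
import Fermat.Agent.S56.LF.FlatKummer
import Fermat.Agent.S56.LF.ThreeStep
import Fermat.Agent.S56.LF.CocDict

/-!
# S56, brick LF: the triangular case of LF-top, up to the two counts

Assembly file on top of the dictionary `LF/CocDict.lean` (derivations of `Flat/Defs.lean` ↔
cocycles of `LF/ThreeStep.lean`), the abstract three-step argument and the flat ⇒ Kummer
junction `LF/FlatKummer.lean`.

* `twisted_mem_HSpace`, `twisted_mem_HSpace_on` : a twisted cocycle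
  `f (σ τ) = f σ + χ σ * f τ` (on `Gal(ℚ̄_p/ℚ_p)`, resp. on `G_{F0}`) which vanishes where a flat
  lift `r + ε d` acts trivially restricts to an element of `HSpace p k F0 K ζ _ χ`
  (from `FlatKummer.mem_HSpace_of_flat`).
* `lfTop_triangular_of` : the bound of `LFTopStatement` for an upper triangular `r`, given a
  field `K` killing the diagonal characters, a space `Hγ` receiving the lower left entries of
  the flat classes, and the two count inequalities.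
* `lfTop_triangular` : the case `Hγ = HSpace p k ⊥ K ζ _ (χ₂/χ₁)`.
-/

set_option autoImplicit false

noncomputable section

namespace Fermat.Agent.S56.LF.TopTri

open Matrix Module Fermat.Agent.S56.Flat Fermat.Agent.S56.LF.FlatKummer
open Fermat.Agent.S56.LF.ThreeStep Fermat.Agent.S56.LF.CocDict

/-! ### The flat producers -/

section Producers

variable {p : ℕ} [Fact p.Prime] {k : Type} [Field k]
  (r : Gp p →* Matrix (Fin 2) (Fin 2) k)

/-- If `r + ε d` acts trivially at `g` then `r g = 1`. -/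
theorem r_eq_one_of_liftAct (d : Gp p → Matrix (Fin 2) (Fin 2) k) (g : Gp p)
    (h : ∀ x : (Fin 2 → k) × (Fin 2 → k), liftAct r d g x = x) : r g = 1 := by
  ext i j
  have h1 := congrArg Prod.fst (h (Pi.single j 1, 0))
  have h2 := congrFun h1 i
  simpa [liftAct, Matrix.mulVec_single_one, Matrix.one_apply, Pi.single_apply, eq_comm] using h2

/-- **Twisted cocycles of a flat lift are Kummer-bounded.**  `f (σ τ) = f σ + χ σ * f τ` on the
whole Galois group, `χ` multiplicative and trivial on `G_K`, `f` vanishing at the elements of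
`G_K` where the flat lift `r + ε d` acts trivially: then `f|G_K ∈ HSpace p k ⊥ K ζ _ χ`. -/
theorem twisted_mem_HSpace (hLev : LevelStatement) (hp2 : p ≠ 2) [CharP k p]
    (d : Gp p → Matrix (Fin 2) (Fin 2) k)
    (hflat : FlatLocal p ((Fin 2 → k) × (Fin 2 → k)) (liftAct r d))
    (K : IntermediateField ℚ_[p] (PadicAlgCl p)) [FiniteDimensional ℚ_[p] K]
    (ζ : PadicAlgCl p) (hζ : IsPrimitiveRoot ζ p) (hζK : ζ ∈ K)
    (χ f : Gp p → k) (hχ : ∀ σ τ, χ (σ * τ) = χ σ * χ τ)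
    (hχK : ∀ g ∈ K.fixingSubgroup, χ g = 1)
    (hf : ∀ σ τ, f (σ * τ) = f σ + χ σ * f τ)
    (hker : ∀ g ∈ K.fixingSubgroup, (∀ x, liftAct r d g x = x) → f g = 0) :
    (fun g : K.fixingSubgroup => f (g : Gp p)) ∈
      HSpace p k (⊥ : IntermediateField ℚ_[p] (PadicAlgCl p)) K ζ hζ.pow_eq_one χ := by
  have hχ1 : χ 1 = 1 := hχK 1 (one_mem _)
  refine mem_HSpace_of_flat hLev hp2 (liftAct r d) (fun x => ?_) hflat ⊥ K ζ hζ hζK χ _
    (fun g h => ?_) (fun σ _ g g' hgg' => ?_) (fun g hg => hker g g.2 hg)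
  · rw [← Nat.cast_smul_eq_nsmul k p x, CharP.cast_eq_zero k p, zero_smul]
  · show f ((g : Gp p) * (h : Gp p)) = f (g : Gp p) + f (h : Gp p)
    rw [hf, hχK g g.2, one_mul]
  · show f (g' : Gp p) = χ σ * f (g : Gp p)
    rw [hgg', twisted_conj χ f hχ hχ1 hf σ g (hχK g g.2)]

/-- Relative form of `twisted_mem_HSpace`: `χ` and `f` are only multiplicative / a twisted
cocycle on `G_{F0}`, for a field `F0 ≤ K` (in the form `G_K ≤ G_{F0}`). -/
theorem twisted_mem_HSpace_on (hLev : LevelStatement) (hp2 : p ≠ 2) [CharP k p]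
    (d : Gp p → Matrix (Fin 2) (Fin 2) k)
    (hflat : FlatLocal p ((Fin 2 → k) × (Fin 2 → k)) (liftAct r d))
    (F0 K : IntermediateField ℚ_[p] (PadicAlgCl p)) [FiniteDimensional ℚ_[p] K]
    (hKF : ∀ g ∈ K.fixingSubgroup, g ∈ F0.fixingSubgroup)
    (ζ : PadicAlgCl p) (hζ : IsPrimitiveRoot ζ p) (hζK : ζ ∈ K)
    (χ f : Gp p → k)
    (hχ : ∀ σ ∈ F0.fixingSubgroup, ∀ τ ∈ F0.fixingSubgroup, χ (σ * τ) = χ σ * χ τ)
    (hχK : ∀ g ∈ K.fixingSubgroup, χ g = 1)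
    (hf : ∀ σ ∈ F0.fixingSubgroup, ∀ τ ∈ F0.fixingSubgroup, f (σ * τ) = f σ + χ σ * f τ)
    (hker : ∀ g ∈ K.fixingSubgroup, (∀ x, liftAct r d g x = x) → f g = 0) :
    (fun g : K.fixingSubgroup => f (g : Gp p)) ∈ HSpace p k F0 K ζ hζ.pow_eq_one χ := by
  have hχ1 : χ 1 = 1 := hχK 1 (one_mem _)
  refine mem_HSpace_of_flat hLev hp2 (liftAct r d) (fun x => ?_) hflat F0 K ζ hζ hζK χ _
    (fun g h => ?_) (fun σ hσ g g' hgg' => ?_) (fun g hg => hker g g.2 hg)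
  · rw [← Nat.cast_smul_eq_nsmul k p x, CharP.cast_eq_zero k p, zero_smul]
  · show f ((g : Gp p) * (h : Gp p)) = f (g : Gp p) + f (h : Gp p)
    rw [hf _ (hKF g g.2) _ (hKF h h.2), hχK g g.2, one_mul]
  · show f (g' : Gp p) = χ σ * f (g : Gp p)
    rw [hgg', twisted_conj_on F0.fixingSubgroup χ f hχ hχ1 hf σ g hσ (hKF g g.2) (hχK g g.2)]

end Producers

/-! ### The triangular case -/

section Triangular

variable {p : ℕ} [Fact p.Prime] {k : Type} [Field k]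

/-- **LF-top for an upper triangular `r`, up to the two counts, general `Hγ`.**  The three
`Cs`-clauses are those of `LFTopStatement`; `K ∋ ζ_p` is a finite extension of `ℚ_p` on whose
Galois group the diagonal characters of `r` are trivial, with `σ ^ n0 ∈ G_K` for all `σ` and
`n0` prime to `p`; `Hγ` is a finite-dimensional space containing the lower left entries (on
`G_K`) of the cocycles `d r⁻¹` of all trace-zero derivations `d` with flat lift; the spaces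
`Hα = HSpace p k ⊥ K ζ _ 1` and `Hβ = HSpace p k ⊥ K ζ _ (χ₁/χ₂)` are finite-dimensional with
`dim Hα ≤ 1` and `dim Hγ + dim Hβ ≤ 1`. -/
theorem lfTop_triangular_of (hLev : LevelStatement) (hp2 : p ≠ 2) [CharP k p]
    (r : Gp p →* Matrix (Fin 2) (Fin 2) k) (hr10 : ∀ σ, r σ 1 0 = 0)
    (Cs : Submodule k (Gp p → Matrix (Fin 2) (Fin 2) k))
    (hder : ∀ d ∈ Cs, ∀ σ τ : Gp p, d (σ * τ) = d σ * r τ + r σ * d τ)
    (htr : ∀ d ∈ Cs, ∀ σ : Gp p, (d σ * r σ⁻¹).trace = 0)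
    (hflat : ∀ d ∈ Cs, d ∉ Inn (p := p) r →
      FlatLocal p ((Fin 2 → k) × (Fin 2 → k)) (liftAct r d))
    (K : IntermediateField ℚ_[p] (PadicAlgCl p)) [FiniteDimensional ℚ_[p] K]
    (ζ : PadicAlgCl p) (hζ : IsPrimitiveRoot ζ p) (hζK : ζ ∈ K)
    (hK0 : ∀ g ∈ K.fixingSubgroup, r g 0 0 = 1) (hK1 : ∀ g ∈ K.fixingSubgroup, r g 1 1 = 1)
    (hne : ∃ σ, r σ 0 0 ≠ r σ 1 1)
    (n0 : ℕ) (hn0 : (n0 : k) ≠ 0) (hpow : ∀ σ : Gp p, σ ^ n0 ∈ K.fixingSubgroup)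
    (Hγ : Submodule k (↥K.fixingSubgroup → k)) [Module.Finite k Hγ]
    (hFγ : ∀ d : Gp p → Matrix (Fin 2) (Fin 2) k,
      (∀ σ τ : Gp p, d (σ * τ) = d σ * r τ + r σ * d τ) →
      (∀ σ : Gp p, (d σ * r σ⁻¹).trace = 0) →
      FlatLocal p ((Fin 2 → k) × (Fin 2 → k)) (liftAct r d) →
      (fun g : ↥K.fixingSubgroup => (d (g : Gp p) * r (g : Gp p)⁻¹) 1 0) ∈ Hγ)
    [Module.Finite k (HSpace p k (⊥ : IntermediateField ℚ_[p] (PadicAlgCl p)) K ζ
      hζ.pow_eq_one (fun _ => (1 : k)))]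
    [Module.Finite k (HSpace p k (⊥ : IntermediateField ℚ_[p] (PadicAlgCl p)) K ζ
      hζ.pow_eq_one (fun σ => r σ 0 0 / r σ 1 1))]
    (hα1 : finrank k (HSpace p k (⊥ : IntermediateField ℚ_[p] (PadicAlgCl p)) K ζ
      hζ.pow_eq_one (fun _ => (1 : k))) ≤ 1)
    (hγβ : finrank k Hγ +
      finrank k (HSpace p k (⊥ : IntermediateField ℚ_[p] (PadicAlgCl p)) K ζ
        hζ.pow_eq_one (fun σ => r σ 0 0 / r σ 1 1)) ≤ 1) :
    finrank k (↥Cs ⧸ (Inn (p := p) r).comap Cs.subtype) ≤ 1 + finrank k (Comm0 (p := p) r) := by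
  classical
  have h2 : (2 : k) ≠ 0 := by
    intro h
    have h' : ((2 : ℕ) : k) = 0 := by exact_mod_cast h
    have hdvd := (CharP.cast_eq_zero_iff k p 2).mp h'
    have hp : p.Prime := Fact.out
    exact hp2 ((Nat.prime_dvd_prime_iff_eq hp Nat.prime_two).mp hdvd)
  by_cases hnon : ∃ d ∈ Cs, d ∉ Inn (p := p) r
  swap
  · -- every element of `Cs` is inner: the quotient is trivial
    have hnon' : ∀ d ∈ Cs, d ∈ Inn (p := p) r := fun d hd => by
      by_contra h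
      exact hnon ⟨d, hd, h⟩
    have htop : (Inn (p := p) r).comap Cs.subtype = ⊤ := by
      rw [eq_top_iff]
      intro x _
      exact hnon' x x.2
    have hsub : Subsingleton (↥Cs ⧸ (Inn (p := p) r).comap Cs.subtype) := by
      rw [htop]
      infer_instance
    rw [finrank_zero_of_subsingleton]
    exact Nat.zero_le _
  obtain ⟨d0, hd0, hd0inn⟩ := hnon
  -- notation
  set R : Gp p →* GL (Fin 2) k := rGL r with hR
  have hr : ∀ σ, (R σ : Matrix (Fin 2) (Fin 2) k) 1 0 = 0 := hr10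
  set C : Submodule k (Gp p → Matrix (Fin 2) (Fin 2) k) :=
    Cs.map ((toCoc r : _ ≃ₗ[k] _) : _ →ₗ[k] _) with hC
  have hCZ : C ≤ Z1 R := by
    rintro _ ⟨d, hd, rfl⟩
    exact toCoc_mem_Z1 r (hder d hd) (htr d hd)
  -- the two characters
  let χγ : Gp p → k := fun σ => r σ 1 1 / r σ 0 0
  let χβ : Gp p → k := fun σ => r σ 0 0 / r σ 1 1
  have ha_ne : ∀ σ, r σ 0 0 ≠ 0 := fun σ => ra_ne_zero R hr σ
  have hd_ne : ∀ σ, r σ 1 1 ≠ 0 := fun σ => rd_ne_zero R hr σ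
  have ha_mul : ∀ σ τ, r (σ * τ) 0 0 = r σ 0 0 * r τ 0 0 := fun σ τ => ra_mul R hr σ τ
  have hd_mul : ∀ σ τ, r (σ * τ) 1 1 = r σ 1 1 * r τ 1 1 := fun σ τ => rd_mul R hr σ τ
  have hχγ : ∀ σ τ, χγ (σ * τ) = χγ σ * χγ τ := by
    intro σ τ
    show r (σ * τ) 1 1 / r (σ * τ) 0 0 = r σ 1 1 / r σ 0 0 * (r τ 1 1 / r τ 0 0)
    rw [ha_mul, hd_mul, mul_div_mul_comm]
  have hχβ : ∀ σ τ, χβ (σ * τ) = χβ σ * χβ τ := by
    intro σ τ
    show r (σ * τ) 0 0 / r (σ * τ) 1 1 = r σ 0 0 / r σ 1 1 * (r τ 0 0 / r τ 1 1)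
    rw [ha_mul, hd_mul, mul_div_mul_comm]
  have hχγN : ∀ g ∈ K.fixingSubgroup, χγ g = 1 := fun g hg => by
    show r g 1 1 / r g 0 0 = 1
    rw [hK0 g hg, hK1 g hg, div_one]
  have hχβN : ∀ g ∈ K.fixingSubgroup, χβ g = 1 := fun g hg => by
    show r g 0 0 / r g 1 1 = 1
    rw [hK0 g hg, hK1 g hg, div_one]
  have hone : ∀ σ τ : Gp p, (fun _ : Gp p => (1 : k)) (σ * τ) =
      (fun _ : Gp p => (1 : k)) σ * (fun _ : Gp p => (1 : k)) τ := fun _ _ => (one_mul 1).symm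
  -- flatness for the cocycles of `C ⊔ B1` which are not coboundaries
  have hflatC : ∀ c ∈ C ⊔ B1 R, c ∉ B1 R →
      FlatLocal p ((Fin 2 → k) × (Fin 2 → k)) (liftAct r ((toCoc r).symm c)) := by
    intro c hc hcB
    obtain ⟨c1, hc1, c2, hc2, rfl⟩ := Submodule.mem_sup.mp hc
    obtain ⟨d1, hd1, rfl⟩ := hc1
    have hd1inn : d1 ∉ Inn (p := p) r := by
      intro h
      exact hcB ((B1 R).add_mem ((mem_inn_iff_toCoc_mem_B1 r h2 d1).mp h) hc2)
    refine flatLocal_liftAct_of_sub_mem_inn r d1 _ ?_ (hflat d1 hd1 hd1inn)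
    have e : (toCoc r).symm ((toCoc r : _ →ₗ[k] _) d1 + c2) - d1 = (toCoc r).symm c2 := by
      rw [map_add]
      show (toCoc r).symm (toCoc r d1) + (toCoc r).symm c2 - d1 = (toCoc r).symm c2
      rw [LinearEquiv.symm_apply_apply]
      abel
    rw [e, mem_inn_iff_toCoc_mem_B1 r h2, LinearEquiv.apply_symm_apply]
    exact hc2
  -- vanishing where the flat lift acts trivially
  have hkerC : ∀ (c : Gp p → Matrix (Fin 2) (Fin 2) k) (g : Gp p),
      (∀ x, liftAct r ((toCoc r).symm c) g x = x) → c g = 0 := by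
    intro c g hg
    have h1 := d_eq_zero_of_liftAct r ((toCoc r).symm c) g hg
    have h3 : c g = (toCoc r).symm c g * r g⁻¹ := by
      rw [toCoc_symm_apply, Matrix.mul_assoc, r_mul_r_inv, Matrix.mul_one]
    rw [h3, h1, Matrix.zero_mul]
  -- the three memberships
  have Fγ : ∀ c ∈ C ⊔ B1 R, c ∉ B1 R → (fun g : K.fixingSubgroup => c g 1 0) ∈ Hγ := by
    intro c hc hcB
    have hcZ : c ∈ Z1 R := (sup_le hCZ (B1_le_Z1 R)) hc
    have hmem := hFγ ((toCoc r).symm c) (symm_toCoc_derivation r hcZ) (symm_toCoc_trace r hcZ)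
      (hflatC c hc hcB)
    have e : (fun g : K.fixingSubgroup => c g 1 0) =
        fun g : K.fixingSubgroup => ((toCoc r).symm c (g : Gp p) * r (g : Gp p)⁻¹) 1 0 := by
      funext g
      rw [symm_toCoc_mul_inv]
    rw [e]
    exact hmem
  have Fα : ∀ c ∈ C ⊔ B1 R, c ∉ B1 R → (∀ σ, c σ 1 0 = 0) →
      (fun g : K.fixingSubgroup => c g 0 0) ∈
      HSpace p k (⊥ : IntermediateField ℚ_[p] (PadicAlgCl p)) K ζ hζ.pow_eq_one
        (fun _ => (1 : k)) := by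
    intro c hc hcB h10
    have hcZ : c ∈ Z1 R := (sup_le hCZ (B1_le_Z1 R)) hc
    exact twisted_mem_HSpace r hLev hp2 _ (hflatC c hc hcB) K ζ hζ hζK (fun _ => (1 : k))
      (fun σ => c σ 0 0) hone (fun _ _ => rfl)
      (fun σ τ => by
        show c (σ * τ) 0 0 = c σ 0 0 + 1 * c τ 0 0
        rw [Z1_apply_00 R hr hcZ σ τ, h10 τ, mul_zero, add_zero, one_mul])
      (fun g _ hg => by rw [hkerC c g hg]; rfl)
  have Fβ : ∀ c ∈ C ⊔ B1 R, c ∉ B1 R → (∀ σ, c σ 1 0 = 0) → (∀ σ, c σ 0 0 = 0) →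
      (fun g : K.fixingSubgroup => c g 0 1) ∈
      HSpace p k (⊥ : IntermediateField ℚ_[p] (PadicAlgCl p)) K ζ hζ.pow_eq_one χβ := by
    intro c hc hcB h10 h00
    have hcZ : c ∈ Z1 R := (sup_le hCZ (B1_le_Z1 R)) hc
    have h11 : ∀ σ, c σ 1 1 = 0 := fun σ => by rw [Z1_apply_11 R hcZ σ, h00 σ, neg_zero]
    exact twisted_mem_HSpace r hLev hp2 _ (hflatC c hc hcB) K ζ hζ hζK χβ (fun σ => c σ 0 1)
      hχβ hχβN
      (fun σ τ => by
        show c (σ * τ) 0 1 = c σ 0 1 + r σ 0 0 / r σ 1 1 * c τ 0 1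
        rw [Z1_apply_01 R hr hcZ σ τ, h10 τ, h00 τ, h11 τ]
        show c σ 0 1 + (r σ 0 0 / r σ 1 1 * c τ 0 1 + r σ 0 1 / r σ 1 1 * (0 - 0) -
          r σ 0 1 ^ 2 / (r σ 0 0 * r σ 1 1) * 0) = c σ 0 1 + r σ 0 0 / r σ 1 1 * c τ 0 1
        ring)
      (fun g _ hg => by rw [hkerC c g hg]; rfl)
  -- the extension function `b`
  have hb : (fun g : K.fixingSubgroup => r (g : Gp p) 0 1) ∈
      HSpace p k (⊥ : IntermediateField ℚ_[p] (PadicAlgCl p)) K ζ hζ.pow_eq_one χβ := by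
    have hmem := twisted_mem_HSpace r hLev hp2 d0 (hflat d0 hd0 hd0inn) K ζ hζ hζK χβ
      (fun σ => r σ 0 1 / r σ 1 1) hχβ hχβN
      (fun σ τ => by
        show r (σ * τ) 0 1 / r (σ * τ) 1 1 =
          r σ 0 1 / r σ 1 1 + r σ 0 0 / r σ 1 1 * (r τ 0 1 / r τ 1 1)
        have e1 : r (σ * τ) 0 1 = r σ 0 0 * r τ 0 1 + r σ 0 1 * r τ 1 1 := rb_mul R σ τ
        have hd := hd_ne σ
        have hd' := hd_ne τ
        rw [e1, hd_mul]
        field_simp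
        ring)
      (fun g _ hg => by
        show r g 0 1 / r g 1 1 = 0
        rw [r_eq_one_of_liftAct r d0 g hg]
        simp)
    have e : (fun g : K.fixingSubgroup => r (g : Gp p) 0 1) =
        fun g : K.fixingSubgroup => (fun σ => r σ 0 1 / r σ 1 1) (g : Gp p) := by
      funext g
      show r (g : Gp p) 0 1 = r (g : Gp p) 0 1 / r (g : Gp p) 1 1
      rw [hK1 g g.2, div_one]
    rw [e]
    exact hmem
  -- the `Δ`-inputs
  have hΔ0 : ∀ f : Gp p → k, (∀ σ τ, f (σ * τ) = f σ + f τ) →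
      (∀ g ∈ K.fixingSubgroup, f g = 0) → ∀ σ, f σ = 0 := fun f hf hfN σ =>
    add_eq_zero_of_pow K.fixingSubgroup n0 hn0 hpow f hf hfN σ
  have hΔγ : ∀ f : Gp p → k,
      (∀ σ τ, f (σ * τ) = f σ + (R σ : Matrix (Fin 2) (Fin 2) k) 1 1 /
        (R σ : Matrix (Fin 2) (Fin 2) k) 0 0 * f τ) → (∀ g ∈ K.fixingSubgroup, f g = 0) →
      ∃ x : k, ∀ σ, f σ = ((R σ : Matrix (Fin 2) (Fin 2) k) 1 1 /
        (R σ : Matrix (Fin 2) (Fin 2) k) 0 0 - 1) * x := fun f hf hfN =>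
    twisted_coboundary_of_pow K.fixingSubgroup n0 hn0 hpow χγ f hχγ hχγN hf hfN
  have hΔβ : ∀ f : Gp p → k,
      (∀ σ τ, f (σ * τ) = f σ + (R σ : Matrix (Fin 2) (Fin 2) k) 0 0 /
        (R σ : Matrix (Fin 2) (Fin 2) k) 1 1 * f τ) → (∀ g ∈ K.fixingSubgroup, f g = 0) →
      ∃ y : k, ∀ σ, f σ = ((R σ : Matrix (Fin 2) (Fin 2) k) 0 0 /
        (R σ : Matrix (Fin 2) (Fin 2) k) 1 1 - 1) * y := fun f hf hfN =>
    twisted_coboundary_of_pow K.fixingSubgroup n0 hn0 hpow χβ f hχβ hχβN hf hfN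
  -- the three-step argument
  obtain ⟨-, hfin⟩ := finrank_triangular_le_one_add_commutant R K.fixingSubgroup C hr hK0 hK1
    hne h2 hΔ0 hΔγ hΔβ
    Hγ
    (HSpace p k (⊥ : IntermediateField ℚ_[p] (PadicAlgCl p)) K ζ hζ.pow_eq_one
      (fun _ => (1 : k)))
    (HSpace p k (⊥ : IntermediateField ℚ_[p] (PadicAlgCl p)) K ζ hζ.pow_eq_one χβ)
    hCZ Fγ Fα Fβ hb hα1 hγβ
  rw [finrank_quot_eq r h2 Cs, comm0_eq_commutant r]
  exact hfin

/-- **LF-top for an upper triangular `r`, up to the two counts.**  The case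
`Hγ = HSpace p k ⊥ K ζ _ (χ₂/χ₁)` of `lfTop_triangular_of`: the three spaces
`HSpace p k ⊥ K ζ _ χ` for `χ = χ₂/χ₁, 1, χ₁/χ₂` are finite-dimensional, the middle one of
dimension `≤ 1` and the two others of total dimension `≤ 1`. -/
theorem lfTop_triangular (hLev : LevelStatement) (hp2 : p ≠ 2) [CharP k p]
    (r : Gp p →* Matrix (Fin 2) (Fin 2) k) (hr10 : ∀ σ, r σ 1 0 = 0)
    (Cs : Submodule k (Gp p → Matrix (Fin 2) (Fin 2) k))
    (hder : ∀ d ∈ Cs, ∀ σ τ : Gp p, d (σ * τ) = d σ * r τ + r σ * d τ)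
    (htr : ∀ d ∈ Cs, ∀ σ : Gp p, (d σ * r σ⁻¹).trace = 0)
    (hflat : ∀ d ∈ Cs, d ∉ Inn (p := p) r →
      FlatLocal p ((Fin 2 → k) × (Fin 2 → k)) (liftAct r d))
    (K : IntermediateField ℚ_[p] (PadicAlgCl p)) [FiniteDimensional ℚ_[p] K]
    (ζ : PadicAlgCl p) (hζ : IsPrimitiveRoot ζ p) (hζK : ζ ∈ K)
    (hK0 : ∀ g ∈ K.fixingSubgroup, r g 0 0 = 1) (hK1 : ∀ g ∈ K.fixingSubgroup, r g 1 1 = 1)
    (hne : ∃ σ, r σ 0 0 ≠ r σ 1 1)
    (n0 : ℕ) (hn0 : (n0 : k) ≠ 0) (hpow : ∀ σ : Gp p, σ ^ n0 ∈ K.fixingSubgroup)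
    [Module.Finite k (HSpace p k (⊥ : IntermediateField ℚ_[p] (PadicAlgCl p)) K ζ
      hζ.pow_eq_one (fun σ => r σ 1 1 / r σ 0 0))]
    [Module.Finite k (HSpace p k (⊥ : IntermediateField ℚ_[p] (PadicAlgCl p)) K ζ
      hζ.pow_eq_one (fun _ => (1 : k)))]
    [Module.Finite k (HSpace p k (⊥ : IntermediateField ℚ_[p] (PadicAlgCl p)) K ζ
      hζ.pow_eq_one (fun σ => r σ 0 0 / r σ 1 1))]
    (hα1 : finrank k (HSpace p k (⊥ : IntermediateField ℚ_[p] (PadicAlgCl p)) K ζ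
      hζ.pow_eq_one (fun _ => (1 : k))) ≤ 1)
    (hγβ : finrank k (HSpace p k (⊥ : IntermediateField ℚ_[p] (PadicAlgCl p)) K ζ
        hζ.pow_eq_one (fun σ => r σ 1 1 / r σ 0 0)) +
      finrank k (HSpace p k (⊥ : IntermediateField ℚ_[p] (PadicAlgCl p)) K ζ
        hζ.pow_eq_one (fun σ => r σ 0 0 / r σ 1 1)) ≤ 1) :
    finrank k (↥Cs ⧸ (Inn (p := p) r).comap Cs.subtype) ≤ 1 + finrank k (Comm0 (p := p) r) := by
  have hr : ∀ σ, ((rGL r σ : GL (Fin 2) k) : Matrix (Fin 2) (Fin 2) k) 1 0 = 0 := hr10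
  have ha_mul : ∀ σ τ, r (σ * τ) 0 0 = r σ 0 0 * r τ 0 0 := fun σ τ => ra_mul (rGL r) hr σ τ
  have hd_mul : ∀ σ τ, r (σ * τ) 1 1 = r σ 1 1 * r τ 1 1 := fun σ τ => rd_mul (rGL r) hr σ τ
  refine lfTop_triangular_of hLev hp2 r hr10 Cs hder htr hflat K ζ hζ hζK hK0 hK1 hne n0 hn0 hpow
    (HSpace p k (⊥ : IntermediateField ℚ_[p] (PadicAlgCl p)) K ζ hζ.pow_eq_one
      (fun σ => r σ 1 1 / r σ 0 0)) (fun d hd htrd hfl => ?_) hα1 hγβ
  have hcZ : toCoc r d ∈ Z1 (rGL r) := toCoc_mem_Z1 r hd htrd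
  exact twisted_mem_HSpace r hLev hp2 d hfl K ζ hζ hζK (fun σ => r σ 1 1 / r σ 0 0)
    (fun σ => toCoc r d σ 1 0)
    (fun σ τ => by
      show r (σ * τ) 1 1 / r (σ * τ) 0 0 = r σ 1 1 / r σ 0 0 * (r τ 1 1 / r τ 0 0)
      rw [ha_mul, hd_mul, mul_div_mul_comm])
    (fun g hg => by
      show r g 1 1 / r g 0 0 = 1
      rw [hK0 g hg, hK1 g hg, div_one])
    (fun σ τ => Z1_apply_10 (rGL r) hr hcZ σ τ)
    (fun g _ hg => by
      show (d g * r g⁻¹) 1 0 = 0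
      rw [d_eq_zero_of_liftAct r d g hg, Matrix.zero_mul]
      rfl)

end Triangular

end Fermat.Agent.S56.LF.TopTri
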