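import Mathlib
import Fermat.Agent.CFT.Local.UnramPadicAbs
import Fermat.Agent.S56.Flat.LocalBricks
import Fermat.Agent.S56.Flat.CntFin
import Fermat.Agent.S56.Flat.ShapeArith

/-!
# S56, brick LF, case (R): the count wiring (`LRStatement` + `CntFinStatement` ⟹ the three counts)

(helper260.)  For an upper triangular `r : Gal(ℚ̄_p/ℚ_p) → GL₂(k)` of finite level with cyclotomic
determinant, the tame field `K` of `Flat.LRStatement` and `Flat.CntFinStatement` at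
`(Fb, F0, K) = (⊥, ⊥, K)`, `ϖ = ζ - 1`, `e0 = a = a' = 1`, `z = g0`, `ξ = det r / χ` give

* the diagonal characters of `r` are trivial on `G_K` and on inertial elements fixing `ζ`,
  and differ at the tame generator `τ0`;
* `HSpace p k ⊥ K ζ _ χ` is finite-dimensional of dimension `≤ 1` for `χ = 1`, `χ = χ₂/χ₁`,
  `χ = χ₁/χ₂`; it is `0` for `χ₂/χ₁` unless `χ₁(τ0)² = 1`, for `χ₁/χ₂` unless `χ₂(τ0)² = 1`;
* for `p ≠ 3` the dimensions for `χ₂/χ₁` and `χ₁/χ₂` add up to at most `1`.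

These are the `K`-side hypotheses of the three-step argument for `r` upper triangular.
-/

set_option autoImplicit false

open scoped NNReal NormedField Valued
open IsLocalRing
open Fermat.Agent.CFT.Local.NormedLocal Fermat.Agent.CFT.Local.PadicExt
open Fermat.Agent.CFT.Local.UnramPadic
open Fermat.Agent.S56.Flat

namespace Fermat.Agent.S56.LF.TriCount

/-! ### Upper triangular homomorphisms -/

section Tri

variable {Γ : Type*} [Group Γ] {k : Type*} [Field k]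
  (r : Γ →* Matrix (Fin 2) (Fin 2) k) (hr10 : ∀ σ, r σ 1 0 = 0)

include hr10

theorem r00_mul (σ τ : Γ) : r (σ * τ) 0 0 = r σ 0 0 * r τ 0 0 := by
  rw [map_mul, Matrix.mul_apply, Fin.sum_univ_two, hr10 τ, mul_zero, add_zero]

theorem r11_mul (σ τ : Γ) : r (σ * τ) 1 1 = r σ 1 1 * r τ 1 1 := by
  rw [map_mul, Matrix.mul_apply, Fin.sum_univ_two, hr10 σ, zero_mul, zero_add]

theorem r00_ne_zero (σ : Γ) : r σ 0 0 ≠ 0 := by
  intro h
  have h1 := r00_mul r hr10 σ σ⁻¹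
  rw [mul_inv_cancel, map_one, Matrix.one_apply_eq, h, zero_mul] at h1
  exact one_ne_zero h1

theorem r11_ne_zero (σ : Γ) : r σ 1 1 ≠ 0 := by
  intro h
  have h1 := r11_mul r hr10 σ σ⁻¹
  rw [mul_inv_cancel, map_one, Matrix.one_apply_eq, h, zero_mul] at h1
  exact one_ne_zero h1

theorem det_eq (σ : Γ) : (r σ).det = r σ 0 0 * r σ 1 1 := by
  rw [Matrix.det_fin_two, hr10 σ, mul_zero, sub_zero]

/-- The upper diagonal character of an upper triangular `r`. -/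
noncomputable def chiA : Γ →* kˣ where
  toFun σ := Units.mk0 (r σ 0 0) (r00_ne_zero r hr10 σ)
  map_one' := by
    apply Units.ext
    simp
  map_mul' σ τ := by
    apply Units.ext
    simp [r00_mul r hr10]

/-- The lower diagonal character of an upper triangular `r`. -/
noncomputable def chiD : Γ →* kˣ where
  toFun σ := Units.mk0 (r σ 1 1) (r11_ne_zero r hr10 σ)
  map_one' := by
    apply Units.ext
    simp
  map_mul' σ τ := by
    apply Units.ext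
    simp [r11_mul r hr10]

@[simp] theorem chiA_val (σ : Γ) : ((chiA r hr10 σ : kˣ) : k) = r σ 0 0 := rfl

@[simp] theorem chiD_val (σ : Γ) : ((chiD r hr10 σ : kˣ) : k) = r σ 1 1 := rfl

end Tri

/-! ### Inertial elements and roots of unity -/

section Local

variable {p : ℕ} [Fact p.Prime]

theorem isInertial_pow {τ : Gp p} (h : IsInertial p τ) (n : ℕ) : IsInertial p (τ ^ n) := by
  induction n with
  | zero =>
    intro x _
    simp
  | succ n ih =>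
    intro x hx
    have hτx : ‖τ x‖ ≤ 1 := by rw [norm_algEquiv]; exact hx
    have e : (τ ^ (n + 1)) x - x = ((τ ^ n) (τ x) - τ x) + (τ x - x) := by
      rw [pow_succ, AlgEquiv.mul_apply]
      ring
    rw [e]
    exact (IsUltrametricDist.norm_add_le_max _ _).trans_lt (max_lt (ih (τ x) hτx) (h x hx))

theorem pow_apply_root {τ : Gp p} {ζ : PadicAlgCl p} {g : ℕ} (h : τ ζ = ζ ^ g) (m : ℕ) :
    (τ ^ m) ζ = ζ ^ (g ^ m) := by
  induction m with
  | zero => simp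
  | succ m ih =>
    rw [pow_succ, AlgEquiv.mul_apply, h, map_pow, ih, ← pow_mul, pow_succ]

theorem pow_eq_pow_of_modEq {ζ : PadicAlgCl p} (hζ : ζ ^ p = 1) {a b : ℕ} (h : a ≡ b [MOD p]) :
    ζ ^ a = ζ ^ b := by
  rw [pow_eq_pow_mod a hζ, pow_eq_pow_mod b hζ, show a % p = b % p from h]

theorem map_root_of_pow_eq_one {τ : Gp p} {ζ : PadicAlgCl p} (hζ : IsPrimitiveRoot ζ p) {g : ℕ}
    (h : τ ζ = ζ ^ g) (μ : PadicAlgCl p) (hμ : μ ^ p = 1) : τ μ = μ ^ g := by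
  obtain ⟨i, -, rfl⟩ := hζ.eq_pow_of_pow_eq_one hμ
  rw [map_pow, h, ← pow_mul, ← pow_mul, mul_comm]

theorem norm_natCast_prime : ‖((p : ℕ) : PadicAlgCl p)‖ = (p : ℝ)⁻¹ := by
  have h : ((p : ℕ) : PadicAlgCl p) = algebraMap ℚ_[p] (PadicAlgCl p) (p : ℚ_[p]) := by
    rw [map_natCast]
  rw [h, norm_algebraMap', Padic.norm_p]

theorem norm_root_eq_one {ζ : PadicAlgCl p} (hζ : ζ ^ p = 1) : ‖ζ‖ = 1 := by
  have h : ‖ζ‖ ^ p = 1 := by rw [← norm_pow, hζ, norm_one]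
  exact (pow_eq_one_iff_of_nonneg (norm_nonneg ζ) (Fact.out : p.Prime).ne_zero).mp h

theorem norm_geom_le_one {ζ : PadicAlgCl p} (hζ : ζ ^ p = 1) (n : ℕ) :
    ‖∑ i ∈ Finset.range n, ζ ^ i‖ ≤ 1 := by
  apply IsUltrametricDist.norm_sum_le_of_forall_le_of_nonneg zero_le_one
  intro i _
  rw [norm_pow, norm_root_eq_one hζ, one_pow]

theorem norm_pow_sub_one_le {ζ : PadicAlgCl p} (hζ : ζ ^ p = 1) (n : ℕ) :
    ‖ζ ^ n - 1‖ ≤ ‖ζ - 1‖ := by
  rw [← mul_geom_sum, norm_mul]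
  exact mul_le_of_le_one_right (norm_nonneg _) (norm_geom_le_one hζ n)

/-- `τ (ζ - 1) ≡ g (ζ - 1)` modulo `(ζ - 1)²` when `τ ζ = ζ ^ g`. -/
theorem norm_map_sub_lt {τ : Gp p} {ζ : PadicAlgCl p} (hζ : ζ ^ p = 1) {g : ℕ} (h : τ ζ = ζ ^ g)
    (h0 : 0 < ‖ζ - 1‖) (h1 : ‖ζ - 1‖ < 1) :
    ‖τ (ζ - 1) - (g : PadicAlgCl p) * (ζ - 1)‖ < ‖ζ - 1‖ := by
  have e : τ (ζ - 1) - (g : PadicAlgCl p) * (ζ - 1) =
      (ζ - 1) * ∑ i ∈ Finset.range g, (ζ ^ i - 1) := by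
    have hs := mul_geom_sum ζ g
    have hsum : ∑ i ∈ Finset.range g, (ζ ^ i - 1) =
        ∑ i ∈ Finset.range g, ζ ^ i - (g : PadicAlgCl p) := by
      rw [Finset.sum_sub_distrib, Finset.sum_const, Finset.card_range, nsmul_eq_mul, mul_one]
    rw [map_sub, map_one, h, hsum]
    linear_combination (-1 : PadicAlgCl p) * hs
  rw [e, norm_mul]
  have h2 : ‖∑ i ∈ Finset.range g, (ζ ^ i - 1)‖ ≤ ‖ζ - 1‖ := by
    apply IsUltrametricDist.norm_sum_le_of_forall_le_of_nonneg (norm_nonneg _)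
    intro i _
    exact norm_pow_sub_one_le hζ i
  calc ‖ζ - 1‖ * ‖∑ i ∈ Finset.range g, (ζ ^ i - 1)‖ ≤ ‖ζ - 1‖ * ‖ζ - 1‖ :=
        mul_le_mul_of_nonneg_left h2 h0.le
    _ < ‖ζ - 1‖ * 1 := mul_lt_mul_of_pos_left h1 h0
    _ = ‖ζ - 1‖ := mul_one _

end Local

/-! ### The count -/

section Count

variable {p : ℕ} [Fact p.Prime] {k : Type} [Field k] [Finite k] [CharP k p]

theorem isInertial_inv {τ : Gp p} (h : IsInertial p τ) : IsInertial p τ⁻¹ := by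
  intro x hx
  have e : τ (τ⁻¹ x - x) = x - τ x := by
    rw [map_sub, ← AlgEquiv.mul_apply, mul_inv_cancel, AlgEquiv.one_apply]
  rw [← norm_algEquiv p τ, e, norm_sub_rev]
  exact h x hx

theorem isInertial_mul {σ τ : Gp p} (hσ : IsInertial p σ) (hτ : IsInertial p τ) :
    IsInertial p (σ * τ) := by
  intro x hx
  have hτx : ‖τ x‖ ≤ 1 := by rw [norm_algEquiv]; exact hx
  have e : (σ * τ) x - x = (σ (τ x) - τ x) + (τ x - x) := by
    rw [AlgEquiv.mul_apply]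
    ring
  rw [e]
  exact (IsUltrametricDist.norm_add_le_max _ _).trans_lt (max_lt (hσ (τ x) hτx) (hτ x hx))

omit [Finite k] in
/-- A ring homomorphism from the integers of `ℚ_p` (the bottom intermediate field) to `k`. -/
theorem exists_rho0 :
    Nonempty (𝒪[(⊥ : IntermediateField ℚ_[p] (PadicAlgCl p))] →+* k) := by
  have hcard : Nat.card 𝓀[(⊥ : IntermediateField ℚ_[p] (PadicAlgCl p))] = p :=
    card_residueField_bot
  have hfin : Finite 𝓀[(⊥ : IntermediateField ℚ_[p] (PadicAlgCl p))] :=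
    Nat.finite_of_card_ne_zero (by rw [hcard]; exact (Fact.out : p.Prime).ne_zero)
  let f : ZMod p →+* 𝓀[(⊥ : IntermediateField ℚ_[p] (PadicAlgCl p))] :=
    ZMod.castHom (dvd_refl p) 𝓀[(⊥ : IntermediateField ℚ_[p] (PadicAlgCl p))]
  have hf : Function.Bijective f :=
    (RingHom.injective f).bijective_of_nat_card_le (by rw [hcard, Nat.card_zmod])
  let e : ZMod p ≃+* 𝓀[(⊥ : IntermediateField ℚ_[p] (PadicAlgCl p))] := RingEquiv.ofBijective f hf
  exact ⟨(ZMod.castHom (dvd_refl p) k).comp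
    ((e.symm : 𝓀[(⊥ : IntermediateField ℚ_[p] (PadicAlgCl p))] →+* ZMod p).comp
      (IsLocalRing.residue 𝒪[(⊥ : IntermediateField ℚ_[p] (PadicAlgCl p))]))⟩

open Classical in
/-- `CntFinStatement` at `(Fb, F0, K) = (⊥, ⊥, K)`, `ϖ = ζ - 1`, `e0 = a = a' = 1`, `z = g0`. -/
theorem cnt_R (hCnt : CntFinStatement) (hp2 : p ≠ 2)
    (K : IntermediateField ℚ_[p] (PadicAlgCl p)) [FiniteDimensional ℚ_[p] K]
    (hKstab : ∀ σ : Gp p, ∀ x ∈ K, σ x ∈ K)
    (ζ : PadicAlgCl p) (hζ : IsPrimitiveRoot ζ p) (hζK : ζ ∈ K)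
    (huni : ∀ x ∈ K, ‖x‖ < 1 → ‖x‖ ≤ ‖ζ - 1‖)
    (hnorm : ‖ζ - 1‖ ^ (p - 1) = ‖(p : PadicAlgCl p)‖)
    (τ0 φ : Gp p) (g0 : ℕ) (hτ0 : IsInertial p τ0) (hτ0ζ : τ0 ζ = ζ ^ g0)
    (hφ : ∀ x ∈ K, ‖x‖ ≤ 1 → ‖φ x - x ^ p‖ < 1)
    (χ ξ : Gp p →* kˣ)
    (hξχ : ∀ (σ : Gp p) (n : ℕ), σ ζ = ζ ^ n → ((ξ σ : kˣ) : k) * ((χ σ : kˣ) : k) = n) :
    Module.Finite k (HSpace p k ⊥ K ζ hζ.pow_eq_one (fun σ => ((χ σ : kˣ) : k))) ∧
    Module.finrank k (HSpace p k ⊥ K ζ hζ.pow_eq_one (fun σ => ((χ σ : kˣ) : k))) ≤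
      (if ∀ σ : Gp p, χ σ = 1 then 1 else 0) +
        Nat.card {nj : ℕ × ℕ // 1 ≤ nj.1 ∧ nj.1 ≤ 1 ∧ ¬ p ∣ nj.1 ∧ nj.2 < 1 ∧
          (g0 : k) ^ ((p * 1 - nj.1) * p ^ nj.2) = ((ξ τ0 : kˣ) : k)} := by
  obtain ⟨ρ0⟩ := exists_rho0 (p := p) (k := k)
  have hp1 : ‖ζ - 1‖ < 1 := by
    by_contra hge
    rw [not_lt] at hge
    have h1 : (1 : ℝ) ≤ ‖ζ - 1‖ ^ (p - 1) := one_le_pow₀ hge
    rw [hnorm, norm_natCast_prime] at h1
    have hp1' : (1 : ℝ) < p := by exact_mod_cast (Fact.out : p.Prime).one_lt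
    exact absurd h1 (not_le.mpr (inv_lt_one_of_one_lt₀ hp1'))
  have hp0 : 0 < ‖ζ - 1‖ := by
    rw [norm_pos_iff, sub_ne_zero]
    exact hζ.ne_one (Fact.out : p.Prime).one_lt
  have hbot : ∀ σ : Gp p, σ ∈ (⊥ : IntermediateField ℚ_[p] (PadicAlgCl p)).fixingSubgroup := by
    intro σ
    rw [IntermediateField.fixingSubgroup_bot]
    exact Subgroup.mem_top σ
  have hz : ‖τ0 (ζ - 1) - (((g0 : 𝒪[(⊥ : IntermediateField ℚ_[p] (PadicAlgCl p))]) :
      (⊥ : IntermediateField ℚ_[p] (PadicAlgCl p))) : PadicAlgCl p) * (ζ - 1)‖ < ‖ζ - 1‖ := by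
    have h := norm_map_sub_lt hζ.pow_eq_one hτ0ζ hp0 hp1
    have e : (((g0 : 𝒪[(⊥ : IntermediateField ℚ_[p] (PadicAlgCl p))]) :
        (⊥ : IntermediateField ℚ_[p] (PadicAlgCl p))) : PadicAlgCl p) = (g0 : PadicAlgCl p) := by
      simp
    rw [e]
    exact h
  have key := hCnt p hp2 k ⊥ ⊥ K le_rfl bot_le (fun σ _ x hx => hKstab σ x hx) ζ hζ hζK 1 1 1
    (ζ - 1) (by rw [pow_one]; exact card_residueField_bot)
    (by rw [pow_one]; exact card_residueField_bot)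
    (K.sub_mem hζK K.one_mem) hp1 huni (by rw [one_mul]; exact hnorm)
    ρ0 (fun σ => χ σ) (fun σ => ξ σ)
    (fun σ _ τ _ => map_mul ξ σ τ)
    (fun σ _ n hn => hξχ σ n hn)
    τ0 φ (g0 : 𝒪[(⊥ : IntermediateField ℚ_[p] (PadicAlgCl p))]) (hbot τ0) (hbot φ)
    (fun x _ hx => hτ0 x hx)
    (fun x hxK hx => by rw [pow_one]; exact hφ x hxK hx)
    hz
  refine ⟨key.1, ?_⟩
  have h2 := key.2
  rw [map_natCast] at h2
  by_cases h : ∀ σ : Gp p, χ σ = 1
  · rw [if_pos h]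
    rw [if_pos (fun σ _ => h σ)] at h2
    exact h2
  · rw [if_neg h]
    rw [if_neg (fun h' => h (fun σ => h' σ (hbot σ)))] at h2
    exact h2

end Count

/-! ### The exit -/

section Exit

variable {p : ℕ} [Fact p.Prime] {k : Type} [Field k] [Finite k] [CharP k p]

/-- The `K`-side data of the three-step argument for an upper triangular `r`: the tame field `K`
(Galois-stable, of exponent `n0` prime to `p` over `ℚ_p`), the tame generator `τ0`
(`τ0 ζ = ζ ^ g0`, `g0` a primitive root modulo `p`), the behaviour of the diagonal characters of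
`r` on `G_K` and on inertia, and the three counts. -/
structure TriData (p : ℕ) [Fact p.Prime] (k : Type) [Field k]
    (r : Gp p →* Matrix (Fin 2) (Fin 2) k) (ζ : PadicAlgCl p) (hζ : ζ ^ p = 1)
    (K : IntermediateField ℚ_[p] (PadicAlgCl p)) (τ0 : Gp p) (g0 n0 : ℕ) : Prop where
  mem : ζ ∈ K
  stab : ∀ σ : Gp p, ∀ x ∈ K, σ x ∈ K
  n0_ne : (n0 : k) ≠ 0
  pow_mem : ∀ σ : Gp p, σ ^ n0 ∈ K.fixingSubgroup
  hK0 : ∀ g ∈ K.fixingSubgroup, r g 0 0 = 1
  hK1 : ∀ g ∈ K.fixingSubgroup, r g 1 1 = 1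
  inert : IsInertial p τ0
  map_zeta : τ0 ζ = ζ ^ g0
  order : orderOf (g0 : ZMod p) = p - 1
  det_tau : r τ0 0 0 * r τ0 1 1 = (g0 : k)
  pow0 : r τ0 0 0 ^ (p - 1) = 1
  pow1 : r τ0 1 1 ^ (p - 1) = 1
  ne : r τ0 0 0 ≠ r τ0 1 1
  inert_fix : ∀ τ : Gp p, IsInertial p τ → τ ζ = ζ → r τ 0 0 = 1 ∧ r τ 1 1 = 1
  inert_gen : ∀ τ : Gp p, IsInertial p τ →
    ∃ n : ℕ, r τ 0 0 = r τ0 0 0 ^ n ∧ r τ 1 1 = r τ0 1 1 ^ n
  alpha : ∀ χ : Gp p → k, (∀ σ, χ σ = 1) →
    Module.Finite k (HSpace p k ⊥ K ζ hζ χ) ∧ Module.finrank k (HSpace p k ⊥ K ζ hζ χ) ≤ 1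
  gamma : ∀ χ : Gp p → k, (∀ σ, χ σ * r σ 0 0 = r σ 1 1) →
    Module.Finite k (HSpace p k ⊥ K ζ hζ χ) ∧ Module.finrank k (HSpace p k ⊥ K ζ hζ χ) ≤ 1 ∧
      (r τ0 0 0 ^ 2 ≠ 1 → Module.finrank k (HSpace p k ⊥ K ζ hζ χ) = 0)
  beta : ∀ χ : Gp p → k, (∀ σ, χ σ * r σ 1 1 = r σ 0 0) →
    Module.Finite k (HSpace p k ⊥ K ζ hζ χ) ∧ Module.finrank k (HSpace p k ⊥ K ζ hζ χ) ≤ 1 ∧
      (r τ0 1 1 ^ 2 ≠ 1 → Module.finrank k (HSpace p k ⊥ K ζ hζ χ) = 0)
  gamma_beta : p ≠ 3 → ∀ χ χ' : Gp p → k, (∀ σ, χ σ * r σ 0 0 = r σ 1 1) →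
    (∀ σ, χ' σ * r σ 1 1 = r σ 0 0) →
    Module.finrank k (HSpace p k ⊥ K ζ hζ χ) + Module.finrank k (HSpace p k ⊥ K ζ hζ χ') ≤ 1

/-- **The count wiring of case (R).**  `LRStatement` and `CntFinStatement` give, for every upper
triangular `r` of finite level with cyclotomic determinant, the `K`-side data of the three-step
argument. -/
theorem tri_count (hLR : LRStatement) (hCnt : CntFinStatement) (hp2 : p ≠ 2)
    (r : Gp p →* Matrix (Fin 2) (Fin 2) k)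
    (hlev : ∃ L : IntermediateField ℚ_[p] (PadicAlgCl p), FiniteDimensional ℚ_[p] L ∧
      ∀ τ : Gp p, (∀ x ∈ L, τ x = x) → r τ = 1)
    (hdet : ∀ (τ : Gp p) (a : ℕ), (∀ μ : PadicAlgCl p, μ ^ p = 1 → τ μ = μ ^ a) →
      (r τ).det = (a : k))
    (hr10 : ∀ σ : Gp p, r σ 1 0 = 0)
    (ζ : PadicAlgCl p) (hζ : IsPrimitiveRoot ζ p) :
    ∃ (K : IntermediateField ℚ_[p] (PadicAlgCl p)) (_ : FiniteDimensional ℚ_[p] K)
      (τ0 : Gp p) (g0 n0 : ℕ), TriData p k r ζ hζ.pow_eq_one K τ0 g0 n0 := by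
  classical
  obtain ⟨K, hKfd, τ0, φ, g0, n0, hζK, hKstab, ⟨hn0pos, hn0p, hn0⟩, huni, hnorm, hτ0, hτ0ζ, hg0,
    hφ, hchar⟩ := hLR p hp2 k ζ hζ
  obtain ⟨L, hLfd, hL⟩ := hlev
  have hpp : p.Prime := Fact.out
  -- the diagonal characters
  set A : Gp p →* kˣ := chiA r hr10 with hA
  set D : Gp p →* kˣ := chiD r hr10 with hD
  have hAlev : ∃ L : IntermediateField ℚ_[p] (PadicAlgCl p),
      FiniteDimensional ℚ_[p] L ∧ ∀ σ : Gp p, (∀ x ∈ L, σ x = x) → A σ = 1 :=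
    ⟨L, hLfd, fun σ hσ => Units.ext (by rw [hA, chiA_val, hL σ hσ]; simp)⟩
  have hDlev : ∃ L : IntermediateField ℚ_[p] (PadicAlgCl p),
      FiniteDimensional ℚ_[p] L ∧ ∀ σ : Gp p, (∀ x ∈ L, σ x = x) → D σ = 1 :=
    ⟨L, hLfd, fun σ hσ => Units.ext (by rw [hD, chiD_val, hL σ hσ]; simp)⟩
  obtain ⟨hAK, hAI⟩ := hchar A hAlev
  obtain ⟨hDK, hDI⟩ := hchar D hDlev
  have hAval : ∀ σ, ((A σ : kˣ) : k) = r σ 0 0 := fun σ => rfl
  have hDval : ∀ σ, ((D σ : kˣ) : k) = r σ 1 1 := fun σ => rfl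
  -- the determinant
  have hdetn : ∀ (σ : Gp p) (n : ℕ), σ ζ = ζ ^ n → r σ 0 0 * r σ 1 1 = (n : k) := by
    intro σ n hn
    rw [← det_eq r hr10 σ]
    exact hdet σ n (map_root_of_pow_eq_one hζ hn)
  -- `g0` in `k`
  have hp3 : 3 ≤ p := by
    have h2 := hpp.two_le
    omega
  let ι : ZMod p →+* k := ZMod.castHom (dvd_refl p) k
  have hιg : ι (g0 : ZMod p) = (g0 : k) := map_natCast ι g0
  have hordk : orderOf (g0 : k) = p - 1 := by
    rw [← hιg, ← hg0]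
    exact orderOf_injective ι.toMonoidHom (RingHom.injective ι) _
  have hgpow : (g0 : k) ^ (p - 1) = 1 := by rw [← hordk]; exact pow_orderOf_eq_one _
  have hg1 : (g0 : k) ≠ 1 := by
    intro h
    rw [h, orderOf_one] at hordk
    omega
  have hg2 : p ≠ 3 → (g0 : k) ^ 2 ≠ 1 := by
    intro hp3' h
    have hdvd := orderOf_dvd_of_pow_eq_one h
    rw [hordk] at hdvd
    have := Nat.le_of_dvd (by norm_num) hdvd
    omega
  -- the characters at `τ0`
  have hτpow : IsInertial p (τ0 ^ (p - 1)) := isInertial_pow hτ0 (p - 1)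
  have hτpowζ : (τ0 ^ (p - 1)) ζ = ζ := by
    rw [pow_apply_root hτ0ζ]
    have h1 : ((g0 ^ (p - 1) : ℕ) : ZMod p) = ((1 : ℕ) : ZMod p) := by
      rw [Nat.cast_pow, Nat.cast_one, ← hg0]
      exact pow_orderOf_eq_one _
    have h2 : g0 ^ (p - 1) ≡ 1 [MOD p] := (ZMod.natCast_eq_natCast_iff _ _ _).mp h1
    rw [pow_eq_pow_of_modEq hζ.pow_eq_one h2, pow_one]
  have hA0 : r τ0 0 0 ^ (p - 1) = 1 := by
    have h := hAI _ hτpow hτpowζ
    rw [map_pow] at h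
    have h' := congrArg (Units.val) h
    rwa [Units.val_pow_eq_pow_val, Units.val_one, hAval] at h'
  have hD0 : r τ0 1 1 ^ (p - 1) = 1 := by
    have h := hDI _ hτpow hτpowζ
    rw [map_pow] at h
    have h' := congrArg (Units.val) h
    rwa [Units.val_pow_eq_pow_val, Units.val_one, hDval] at h'
  have hdet0 : r τ0 0 0 * r τ0 1 1 = (g0 : k) := hdetn τ0 g0 hτ0ζ
  have hne : r τ0 0 0 ≠ r τ0 1 1 := by
    intro h
    obtain ⟨m, hm⟩ : ∃ m, p - 1 = 2 * m := by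
      rcases hpp.eq_two_or_odd with h2 | h2
      · exact absurd h2 hp2
      · exact ⟨(p - 1) / 2, by omega⟩
    have h1 : (g0 : k) ^ m = 1 := by
      rw [← hdet0, ← h, ← pow_two, ← pow_mul, ← hm, hA0]
    have hdvd := orderOf_dvd_of_pow_eq_one h1
    rw [hordk] at hdvd
    have hm0 : 0 < m := by omega
    have := Nat.le_of_dvd hm0 hdvd
    omega
  -- all inertial elements
  have hgen : ∀ τ : Gp p, IsInertial p τ →
      ∃ n : ℕ, r τ 0 0 = r τ0 0 0 ^ n ∧ r τ 1 1 = r τ0 1 1 ^ n := by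
    intro τ hτ
    have hτζp : (τ ζ) ^ p = 1 := by rw [← map_pow, hζ.pow_eq_one, map_one]
    obtain ⟨i, -, hi⟩ := hζ.eq_pow_of_pow_eq_one hτζp
    have hi0 : ((i : ℕ) : ZMod p) ≠ 0 := by
      intro h0
      have hdvd : p ∣ i := (ZMod.natCast_eq_zero_iff i p).mp h0
      obtain ⟨c, rfl⟩ := hdvd
      rw [pow_mul, hζ.pow_eq_one, one_pow] at hi
      have h1 : ζ = 1 := by
        have := congrArg (⇑τ.symm) hi
        simpa using this.symm
      exact hζ.ne_one hpp.one_lt h1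
    have hg00 : ((g0 : ℕ) : ZMod p) ≠ 0 := by
      intro h0
      rw [h0] at hg0
      have : orderOf (0 : ZMod p) = 0 := by
        rw [orderOf_eq_zero_iff']
        intro n hn
        rw [zero_pow hn.ne']
        exact zero_ne_one
      omega
    let u : (ZMod p)ˣ := Units.mk0 _ hg00
    let v : (ZMod p)ˣ := Units.mk0 _ hi0
    have hu : orderOf u = p - 1 := by
      rw [← hg0, ← orderOf_units]
      rfl
    have htop : Subgroup.zpowers u = ⊤ := by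
      apply Subgroup.eq_top_of_card_eq
      rw [Nat.card_zpowers, hu, Nat.card_eq_fintype_card, ZMod.card_units]
    have hv : v ∈ Submonoid.powers u := by
      rw [mem_powers_iff_mem_zpowers, htop]
      exact Subgroup.mem_top v
    obtain ⟨n, hn⟩ := hv
    have hn' : ((g0 ^ n : ℕ) : ZMod p) = ((i : ℕ) : ZMod p) := by
      have := congrArg (Units.val) hn
      simpa [u, v] using this
    have hmod : g0 ^ n ≡ i [MOD p] := (ZMod.natCast_eq_natCast_iff _ _ _).mp hn'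
    have hτζ : τ ζ = (τ0 ^ n) ζ := by
      rw [pow_apply_root hτ0ζ, ← hi]
      exact pow_eq_pow_of_modEq hζ.pow_eq_one hmod.symm
    have hσI : IsInertial p ((τ0 ^ n)⁻¹ * τ) :=
      isInertial_mul (isInertial_inv (isInertial_pow hτ0 n)) hτ
    have hσζ : ((τ0 ^ n)⁻¹ * τ) ζ = ζ := by
      rw [AlgEquiv.mul_apply, hτζ, ← AlgEquiv.mul_apply, inv_mul_cancel, AlgEquiv.one_apply]
    have hτeq : τ = τ0 ^ n * ((τ0 ^ n)⁻¹ * τ) := by group
    refine ⟨n, ?_, ?_⟩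
    · have h := hAI _ hσI hσζ
      have h2 : A τ = A τ0 ^ n := by
        conv_lhs => rw [hτeq]
        rw [map_mul, h, mul_one, map_pow]
      have h3 := congrArg (Units.val) h2
      rwa [Units.val_pow_eq_pow_val, hAval, hAval] at h3
    · have h := hDI _ hσI hσζ
      have h2 : D τ = D τ0 ^ n := by
        conv_lhs => rw [hτeq]
        rw [map_mul, h, mul_one, map_pow]
      have h3 := congrArg (Units.val) h2
      rwa [Units.val_pow_eq_pow_val, hDval, hDval] at h3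
  -- the three instances of the count
  have cntα := cnt_R hCnt hp2 K hKstab ζ hζ hζK huni hnorm τ0 φ g0 hτ0 hτ0ζ hφ (1 : Gp p →* kˣ)
    (A * D) (by
      intro σ n hn
      rw [MonoidHom.mul_apply, MonoidHom.one_apply, Units.val_mul, Units.val_one, mul_one,
        hAval, hDval]
      exact hdetn σ n hn)
  have cntγ := cnt_R hCnt hp2 K hKstab ζ hζ hζK huni hnorm τ0 φ g0 hτ0 hτ0ζ hφ (D * A⁻¹)
    (A * A) (by
      intro σ n hn
      rw [MonoidHom.mul_apply, MonoidHom.mul_apply, MonoidHom.inv_apply, Units.val_mul,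
        Units.val_mul, Units.val_inv_eq_inv_val, hAval, hDval, ← hdetn σ n hn]
      field_simp [r00_ne_zero r hr10 σ])
  have cntβ := cnt_R hCnt hp2 K hKstab ζ hζ hζK huni hnorm τ0 φ g0 hτ0 hτ0ζ hφ (A * D⁻¹)
    (D * D) (by
      intro σ n hn
      rw [MonoidHom.mul_apply, MonoidHom.mul_apply, MonoidHom.inv_apply, Units.val_mul,
        Units.val_mul, Units.val_inv_eq_inv_val, hAval, hDval, ← hdetn σ n hn]
      field_simp [r11_ne_zero r hr10 σ])
  have hγne : ¬ ∀ σ : Gp p, (D * A⁻¹) σ = 1 := by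
    intro h
    have h1 := h τ0
    rw [MonoidHom.mul_apply, MonoidHom.inv_apply, mul_inv_eq_one] at h1
    have h2 := congrArg (Units.val) h1
    rw [hAval, hDval] at h2
    exact hne h2.symm
  have hβne : ¬ ∀ σ : Gp p, (A * D⁻¹) σ = 1 := by
    intro h
    have h1 := h τ0
    rw [MonoidHom.mul_apply, MonoidHom.inv_apply, mul_inv_eq_one] at h1
    have h2 := congrArg (Units.val) h1
    rw [hAval, hDval] at h2
    exact hne h2
  have hα1 : ∀ σ : Gp p, (1 : Gp p →* kˣ) σ = 1 := fun σ => rfl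
  rw [if_pos hα1] at cntα
  rw [if_neg hγne, zero_add] at cntγ
  rw [if_neg hβne, zero_add] at cntβ
  have hξα : (((A * D) τ0 : kˣ) : k) = (g0 : k) := by
    rw [MonoidHom.mul_apply, Units.val_mul, hAval, hDval, hdet0]
  have hξγ : (((A * A) τ0 : kˣ) : k) = r τ0 0 0 ^ 2 := by
    rw [MonoidHom.mul_apply, Units.val_mul, hAval, pow_two]
  have hξβ : (((D * D) τ0 : kˣ) : k) = r τ0 1 1 ^ 2 := by
    rw [MonoidHom.mul_apply, Units.val_mul, hDval, pow_two]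
  rw [hξα] at cntα
  rw [hξγ] at cntγ
  rw [hξβ] at cntβ
  -- the functions `χ`
  have hfunα : ∀ χ : Gp p → k, (∀ σ, χ σ = 1) →
      χ = fun σ => (((1 : Gp p →* kˣ) σ : kˣ) : k) := by
    intro χ hχ
    funext σ
    rw [hχ σ, MonoidHom.one_apply, Units.val_one]
  have hfunγ : ∀ χ : Gp p → k, (∀ σ, χ σ * r σ 0 0 = r σ 1 1) →
      χ = fun σ => (((D * A⁻¹) σ : kˣ) : k) := by
    intro χ hχ
    funext σ
    rw [MonoidHom.mul_apply, MonoidHom.inv_apply, Units.val_mul, Units.val_inv_eq_inv_val, hAval,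
      hDval, ← hχ σ, mul_assoc, mul_inv_cancel₀ (r00_ne_zero r hr10 σ), mul_one]
  have hfunβ : ∀ χ : Gp p → k, (∀ σ, χ σ * r σ 1 1 = r σ 0 0) →
      χ = fun σ => (((A * D⁻¹) σ : kˣ) : k) := by
    intro χ hχ
    funext σ
    rw [MonoidHom.mul_apply, MonoidHom.inv_apply, Units.val_mul, Units.val_inv_eq_inv_val, hAval,
      hDval, ← hχ σ, mul_assoc, mul_inv_cancel₀ (r11_ne_zero r hr10 σ), mul_one]
  refine ⟨K, hKfd, τ0, g0, n0, ?_⟩
  refine
    { mem := hζK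
      stab := hKstab
      n0_ne := fun h => hn0p ((CharP.cast_eq_zero_iff k p n0).mp h)
      pow_mem := hn0
      hK0 := fun g hg => by
        have h := congrArg (Units.val) (hAK g hg)
        rwa [hAval, Units.val_one] at h
      hK1 := fun g hg => by
        have h := congrArg (Units.val) (hDK g hg)
        rwa [hDval, Units.val_one] at h
      inert := hτ0
      map_zeta := hτ0ζ
      order := hg0
      det_tau := hdet0
      pow0 := hA0
      pow1 := hD0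
      ne := hne
      inert_fix := fun τ hτ hτζ => by
        have h1 := congrArg (Units.val) (hAI τ hτ hτζ)
        have h2 := congrArg (Units.val) (hDI τ hτ hτζ)
        rw [hAval, Units.val_one] at h1
        rw [hDval, Units.val_one] at h2
        exact ⟨h1, h2⟩
      inert_gen := hgen
      alpha := ?_
      gamma := ?_
      beta := ?_
      gamma_beta := ?_ }
  · intro χ hχ
    rw [hfunα χ hχ]
    refine ⟨cntα.1, cntα.2.trans ?_⟩
    rw [ShapeArith.natCard_R_eq_zero rfl rfl hgpow hg1]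
  · intro χ hχ
    rw [hfunγ χ hχ]
    refine ⟨cntγ.1, cntγ.2.trans (ShapeArith.natCard_R_le_one rfl rfl _ _), fun hsq => ?_⟩
    have h := cntγ.2
    rw [ShapeArith.natCard_R_eq_zero rfl rfl hgpow hsq] at h
    exact Nat.le_zero.mp h
  · intro χ hχ
    rw [hfunβ χ hχ]
    refine ⟨cntβ.1, cntβ.2.trans (ShapeArith.natCard_R_le_one rfl rfl _ _), fun hsq => ?_⟩
    have h := cntβ.2
    rw [ShapeArith.natCard_R_eq_zero rfl rfl hgpow hsq] at h
    exact Nat.le_zero.mp h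
  · intro hp3' χ χ' hχ hχ'
    rw [hfunγ χ hχ, hfunβ χ' hχ']
    refine (add_le_add cntγ.2 cntβ.2).trans ?_
    apply ShapeArith.natCard_R_add_le_one rfl rfl hgpow
    rw [← mul_pow, hdet0]
    exact hg2 hp3'

end Exit

end Fermat.Agent.S56.LF.TriCount
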