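import Mathlib
import Fermat.Agent.S56.Flat.Top
import Fermat.Agent.S56.LF.TopTri
import Fermat.Agent.S56.LF.TriCount
import Fermat.Agent.S56.LF.PThree
import Fermat.Agent.S56.LF.FlatRigid

/-!
# S56, brick LF: the triangular case `TRStatement` from the row Props

`tr_of : LRStatement → CntFinStatement → LevelStatement → FlatRigidStatement → TRStatement`.

* `p ≠ 3`: `TopTri.lfTop_triangular` with the `K`-side data of `TriCount.tri_count`
  (the two outer counts add up to at most one).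
* `lfBound_of_unram_quot` (any `p ≠ 2`): if the quotient character `χ₂` is unramified, the lower
  left entries of the flat classes vanish on `G_K` (`PThree.gamma_restrict_mem_bot`, flat
  rigidity), so `TopTri.lfTop_triangular_of` applies with `Hγ = ⊥`.
* `p = 3`: one of the two diagonal characters is unramified (`PThree.unram_or_unram`).  If it is
  the sub character and some class is flat, `r` is split (`PThree.exists_split_of_unram_sub`) and
  one conjugation swaps the two characters (`PThree.exists_conj_swap`, `Flat.lfBound_of_conj`).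
-/

set_option autoImplicit false

noncomputable section

namespace Fermat.Agent.S56.LF.TopRTwin

open Matrix Module Fermat.Agent.S56.Flat Fermat.Agent.S56.LF.FlatKummer
open Fermat.Agent.S56.LF.CocDict

variable {p : ℕ} [Fact p.Prime] {k : Type} [Field k]

/-- A primitive `p`-th root of unity in `ℚ̄_p`. -/
theorem exists_zeta (p : ℕ) [Fact p.Prime] : ∃ ζ : PadicAlgCl p, IsPrimitiveRoot ζ p := by
  have hp : p.Prime := Fact.out
  have : NeZero p := ⟨hp.ne_zero⟩
  have : NeZero ((p : ℕ) : PadicAlgCl p) := ⟨Nat.cast_ne_zero.mpr hp.ne_zero⟩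
  exact HasEnoughRootsOfUnity.exists_primitiveRoot (PadicAlgCl p) p

/-- Flat rigidity in the form consumed by `LF/PThree.lean`. -/
theorem quotRigid_of_statement (hFR : FlatRigidStatement) (hp2 : p ≠ 2) [CharP k p]
    (r d : Gp p → Matrix (Fin 2) (Fin 2) k)
    (hflat : FlatLocal p ((Fin 2 → k) × (Fin 2 → k)) (liftAct r d)) :
    PThree.QuotRigid (liftAct r d) (FlatRigid.inertial p) := by
  obtain ⟨X0, -, h2, h3⟩ := hFR p hp2 ((Fin 2 → k) × (Fin 2 → k)) (liftAct r d) (fun x => by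
    rw [← Nat.cast_smul_eq_nsmul k p x, CharP.cast_eq_zero k p, zero_smul]) hflat
  exact ⟨X0, fun σ hσ v => h2 σ hσ v, fun N hN x hx hxN =>
    h3 N (fun τ hτ n hn => hN τ hτ n hn) x hx (fun τ hτ => hxN τ hτ)⟩

/-- An upper triangular `r` in matrix notation, with the two diagonal characters. -/
theorem r_eq_of_tri (r : Gp p →* Matrix (Fin 2) (Fin 2) k) (hr10 : ∀ σ, r σ 1 0 = 0)
    (σ : Gp p) :
    r σ = !![((TriCount.chiA r hr10 σ : kˣ) : k), r σ 0 1;
      0, ((TriCount.chiD r hr10 σ : kˣ) : k)] := by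
  have h := Matrix.eta_fin_two (r σ)
  rw [hr10 σ] at h
  exact h

/-- The stabiliser of a `Gal`-stable field is normal. -/
theorem normal_fixingSubgroup (K : IntermediateField ℚ_[p] (PadicAlgCl p))
    (hstab : ∀ σ : Gp p, ∀ x ∈ K, σ x ∈ K) : (K.fixingSubgroup).Normal := by
  refine ⟨fun g hg σ => ?_⟩
  rw [IntermediateField.mem_fixingSubgroup_iff] at hg ⊢
  intro x hx
  have h1 : σ⁻¹ x ∈ K := hstab σ⁻¹ x hx
  show σ (g (σ⁻¹ x)) = x
  rw [hg _ h1]
  show (σ * σ⁻¹) x = x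
  rw [mul_inv_cancel]
  rfl

/-- **Unramified quotient character.**  `r` upper triangular with the hypotheses of LF-top and
`χ₂` unramified: the flat local bound holds (any `p ≠ 2`). -/
theorem lfBound_of_unram_quot (hLR : LRStatement) (hCnt : CntFinStatement)
    (hLev : LevelStatement) (hFR : FlatRigidStatement) (hp2 : p ≠ 2) [Finite k] [CharP k p]
    (r : Gp p →* Matrix (Fin 2) (Fin 2) k) (h : LFHyp p k r) (hr10 : ∀ σ, r σ 1 0 = 0)
    (hur : ∀ τ : Gp p, IsInertial p τ → r τ 1 1 = 1) : LFBound p k r := by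
  intro Cs hder htr hlev hflat
  obtain ⟨ζ, hζ⟩ := exists_zeta p
  obtain ⟨K, hKfd, τ0, g0, n0, T⟩ := TriCount.tri_count hLR hCnt hp2 r h.1 h.2.1 hr10 ζ hζ
  have := hKfd
  have hNn : (K.fixingSubgroup).Normal := normal_fixingSubgroup K T.stab
  have hram : r τ0 0 0 ≠ 1 := by
    have hne := T.ne
    rw [hur τ0 T.inert] at hne
    exact hne
  obtain ⟨hfinα, hα1⟩ := T.alpha (fun _ => (1 : k)) (fun _ => rfl)
  obtain ⟨hfinβ, hβ1, -⟩ := T.beta (fun σ => r σ 0 0 / r σ 1 1)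
    (fun σ => div_mul_cancel₀ _ (TriCount.r11_ne_zero r hr10 σ))
  have := hfinα
  have := hfinβ
  refine TopTri.lfTop_triangular_of hLev hp2 r hr10 Cs hder htr hflat K ζ hζ T.mem T.hK0 T.hK1
    ⟨τ0, T.ne⟩ n0 T.n0_ne T.pow_mem ⊥ (fun d hd htrd hfl => ?_) hα1 ?_
  · -- the lower left entry of a flat class vanishes on `G_K`
    have hQ := quotRigid_of_statement hFR hp2 (⇑r) d hfl
    have hcZ : toCoc r d ∈ ThreeStep.Z1 (rGL r) := toCoc_mem_Z1 r hd htrd
    have hcoc : ∀ σ τ : Gp p, (fun σ => d σ * r σ⁻¹) (σ * τ) =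
        (fun σ => d σ * r σ⁻¹) σ + r σ * (fun σ => d σ * r σ⁻¹) τ * (r σ)⁻¹ := by
      intro σ τ
      show toCoc r d (σ * τ) = toCoc r d σ + r σ * toCoc r d τ * (r σ)⁻¹
      rw [Matrix.inv_eq_right_inv (r_mul_r_inv r σ), ← ad_rGL]
      exact hcZ.2 σ τ
    have hι : ∀ (σ : Gp p) (w : Fin 2 → k),
        liftAct (⇑r) d σ (AddMonoidHom.inr (Fin 2 → k) (Fin 2 → k) w) =
          AddMonoidHom.inr (Fin 2 → k) (Fin 2 → k) (r σ *ᵥ w) := by
      intro σ w
      show ((r σ).mulVec 0, (r σ).mulVec w + (d σ).mulVec 0) = (0, (r σ).mulVec w)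
      rw [Matrix.mulVec_zero, Matrix.mulVec_zero, add_zero]
    have hs : ∀ (σ : Gp p) (w : Fin 2 → k),
        liftAct (⇑r) d σ (AddMonoidHom.inl (Fin 2 → k) (Fin 2 → k) w) =
          AddMonoidHom.inl (Fin 2 → k) (Fin 2 → k) (r σ *ᵥ w) +
            AddMonoidHom.inr (Fin 2 → k) (Fin 2 → k)
              (((fun σ => d σ * r σ⁻¹) σ * r σ) *ᵥ w) := by
      intro σ w
      have hc : (d σ * r σ⁻¹) * r σ = d σ := by
        rw [Matrix.mul_assoc, r_inv_mul_r, Matrix.mul_one]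
      show ((r σ).mulVec w, (r σ).mulVec 0 + (d σ).mulVec w) =
        ((r σ).mulVec w, (0 : Fin 2 → k)) + ((0 : Fin 2 → k), ((d σ * r σ⁻¹) * r σ).mulVec w)
      rw [hc, Matrix.mulVec_zero, zero_add, Prod.mk_add_mk, add_zero, zero_add]
    exact PThree.gamma_restrict_mem_bot (liftAct (⇑r) d) (FlatRigid.inertial p) K.fixingSubgroup
      hQ (TriCount.chiA r hr10) (TriCount.chiD r hr10) (fun σ => r σ 0 1) (fun σ => r σ)
      (fun σ => d σ * r σ⁻¹) (r_eq_of_tri r hr10) hcoc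
      (AddMonoidHom.inr (Fin 2 → k) (Fin 2 → k)) (AddMonoidHom.inl (Fin 2 → k) (Fin 2 → k))
      (fun a b hab => congrArg Prod.snd hab) hι hs
      (fun g hg => Units.ext (T.hK0 g hg)) (fun g hg => Units.ext (T.hK1 g hg))
      (fun τ hτ => Units.ext (hur τ hτ))
      ⟨τ0, T.inert, fun h1 => hram (congrArg Units.val h1)⟩
  · rw [finrank_bot, zero_add]
    exact hβ1

/-- **`TRStatement` from the row Props.** -/
theorem tr_of (hLR : LRStatement) (hCnt : CntFinStatement) (hLev : LevelStatement)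
    (hFR : FlatRigidStatement) : TRStatement := by
  intro p _ hp2 k _ _ _ r h hr10
  by_cases hp3 : p = 3
  swap
  · -- `p ≠ 3`: the two outer counts add up to at most one
    intro Cs hder htr hlev hflat
    obtain ⟨ζ, hζ⟩ := exists_zeta p
    obtain ⟨K, hKfd, τ0, g0, n0, T⟩ := TriCount.tri_count hLR hCnt hp2 r h.1 h.2.1 hr10 ζ hζ
    have := hKfd
    have hγ := T.gamma (fun σ => r σ 1 1 / r σ 0 0)
      (fun σ => div_mul_cancel₀ _ (TriCount.r00_ne_zero r hr10 σ))
    have hα := T.alpha (fun _ => (1 : k)) (fun _ => rfl)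
    have hβ := T.beta (fun σ => r σ 0 0 / r σ 1 1)
      (fun σ => div_mul_cancel₀ _ (TriCount.r11_ne_zero r hr10 σ))
    have := hγ.1
    have := hα.1
    have := hβ.1
    exact TopTri.lfTop_triangular hLev hp2 r hr10 Cs hder htr hflat K ζ hζ T.mem T.hK0 T.hK1
      ⟨τ0, T.ne⟩ n0 T.n0_ne T.pow_mem hα.2
      (T.gamma_beta hp3 (fun σ => r σ 1 1 / r σ 0 0) (fun σ => r σ 0 0 / r σ 1 1)
        (fun σ => div_mul_cancel₀ _ (TriCount.r00_ne_zero r hr10 σ))
        (fun σ => div_mul_cancel₀ _ (TriCount.r11_ne_zero r hr10 σ)))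
  -- `p = 3`
  obtain ⟨ζ, hζ⟩ := exists_zeta p
  obtain ⟨K, hKfd, τ0, g0, n0, T⟩ := TriCount.tri_count hLR hCnt hp2 r h.1 h.2.1 hr10 ζ hζ
  have e2 : p - 1 = 2 := by omega
  have hsq0 : r τ0 0 0 ^ 2 = 1 := by
    have h0 := T.pow0
    rw [e2] at h0
    exact h0
  have hsq1 : r τ0 1 1 ^ 2 = 1 := by
    have h1 := T.pow1
    rw [e2] at h1
    exact h1
  have hgen : ∀ t ∈ FlatRigid.inertial p, ∃ n : ℕ,
      TriCount.chiA r hr10 t = TriCount.chiA r hr10 τ0 ^ n ∧
        TriCount.chiD r hr10 t = TriCount.chiD r hr10 τ0 ^ n := by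
    intro t ht
    obtain ⟨n, h0, h1⟩ := T.inert_gen t ht
    refine ⟨n, Units.ext ?_, Units.ext ?_⟩
    · rw [Units.val_pow_eq_pow_val]
      exact h0
    · rw [Units.val_pow_eq_pow_val]
      exact h1
  have hsqA : TriCount.chiA r hr10 τ0 ^ 2 = 1 := by
    apply Units.ext
    rw [Units.val_pow_eq_pow_val]
    exact hsq0
  have hsqD : TriCount.chiD r hr10 τ0 ^ 2 = 1 := by
    apply Units.ext
    rw [Units.val_pow_eq_pow_val]
    exact hsq1
  rcases PThree.unram_or_unram (FlatRigid.inertial p) (TriCount.chiA r hr10)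
    (TriCount.chiD r hr10) τ0 hgen hsqA hsqD
    ⟨τ0, T.inert, fun h1 => T.ne (congrArg Units.val h1)⟩ with hA | hD
  swap
  · -- the quotient character is unramified
    exact lfBound_of_unram_quot hLR hCnt hLev hFR hp2 r h hr10
      (fun τ hτ => congrArg Units.val (hD τ hτ))
  -- the sub character is unramified
  intro Cs hder htr hlev hflat
  by_cases hnon : ∃ d ∈ Cs, d ∉ Inn (p := p) r
  swap
  · -- every element of `Cs` is inner: the quotient is trivial
    have hnon' : ∀ d ∈ Cs, d ∈ Inn (p := p) r := fun d hd => by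
      by_contra hcon
      exact hnon ⟨d, hd, hcon⟩
    have htop : (Inn (p := p) r).comap Cs.subtype = ⊤ := by
      rw [eq_top_iff]
      intro x _
      exact hnon' x x.2
    have hsub : Subsingleton (↥Cs ⧸ (Inn (p := p) r).comap Cs.subtype) := by
      rw [htop]
      infer_instance
    rw [finrank_zero_of_subsingleton]
    exact Nat.zero_le _
  obtain ⟨d0, hd0, hd0inn⟩ := hnon
  have hQ := quotRigid_of_statement hFR hp2 (⇑r) d0 (hflat d0 hd0 hd0inn)
  have hb : ∀ σ τ : Gp p, (fun σ => r σ 0 1) (σ * τ) =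
      ((TriCount.chiA r hr10 σ : kˣ) : k) * (fun σ => r σ 0 1) τ +
        (fun σ => r σ 0 1) σ * ((TriCount.chiD r hr10 τ : kˣ) : k) := by
    intro σ τ
    show r (σ * τ) 0 1 = r σ 0 0 * r τ 0 1 + r σ 0 1 * r τ 1 1
    rw [map_mul, Matrix.mul_apply, Fin.sum_univ_two]
  have hι : ∀ (σ : Gp p) (w : Fin 2 → k),
      liftAct (⇑r) d0 σ (AddMonoidHom.inr (Fin 2 → k) (Fin 2 → k) w) =
        AddMonoidHom.inr (Fin 2 → k) (Fin 2 → k)
          (PThree.rmat (TriCount.chiA r hr10) (TriCount.chiD r hr10) (fun σ => r σ 0 1) σ *ᵥ w) := by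
    intro σ w
    have hrm : PThree.rmat (TriCount.chiA r hr10) (TriCount.chiD r hr10) (fun σ => r σ 0 1) σ =
        r σ := (r_eq_of_tri r hr10 σ).symm
    rw [hrm]
    show ((r σ).mulVec 0, (r σ).mulVec w + (d0 σ).mulVec 0) = (0, (r σ).mulVec w)
    rw [Matrix.mulVec_zero, Matrix.mulVec_zero, add_zero]
  obtain ⟨x, hx⟩ := PThree.exists_split_of_unram_sub (liftAct (⇑r) d0) (FlatRigid.inertial p) hQ
    (TriCount.chiA r hr10) (TriCount.chiD r hr10) (fun σ => r σ 0 1) hb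
    (AddMonoidHom.inr (Fin 2 → k) (Fin 2 → k)) (fun a b hab => congrArg Prod.snd hab) hι hA
    ⟨τ0, T.inert, fun h1 =>
      T.ne ((congrArg Units.val (hA τ0 T.inert)).trans (congrArg Units.val h1).symm)⟩
  obtain ⟨g, hg⟩ := PThree.exists_conj_swap (TriCount.chiA r hr10) (TriCount.chiD r hr10)
    (fun σ => r σ 0 1) x hx
  have hPQ : (g : Matrix (Fin 2) (Fin 2) k) * ((g⁻¹ : GL (Fin 2) k) : Matrix (Fin 2) (Fin 2) k)
      = 1 := Units.mul_inv g
  have hr' : ∀ σ : Gp p, conjHom (g : Matrix (Fin 2) (Fin 2) k)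
      ((g⁻¹ : GL (Fin 2) k) : Matrix (Fin 2) (Fin 2) k) hPQ r σ =
        !![r σ 1 1, 0; 0, r σ 0 0] := by
    intro σ
    have e : (g : Matrix (Fin 2) (Fin 2) k) * r σ *
        ((g⁻¹ : GL (Fin 2) k) : Matrix (Fin 2) (Fin 2) k) =
        (g : Matrix (Fin 2) (Fin 2) k) *
          !![((TriCount.chiA r hr10 σ : kˣ) : k), r σ 0 1;
            0, ((TriCount.chiD r hr10 σ : kˣ) : k)] *
          ((g⁻¹ : GL (Fin 2) k) : Matrix (Fin 2) (Fin 2) k) :=
      congrArg (fun M => (g : Matrix (Fin 2) (Fin 2) k) * M *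
        ((g⁻¹ : GL (Fin 2) k) : Matrix (Fin 2) (Fin 2) k)) (r_eq_of_tri r hr10 σ)
    rw [conjHom_apply, e]
    exact hg σ
  have hup' : ∀ σ : Gp p, conjHom (g : Matrix (Fin 2) (Fin 2) k)
      ((g⁻¹ : GL (Fin 2) k) : Matrix (Fin 2) (Fin 2) k) hPQ r σ 1 0 = 0 := by
    intro σ
    rw [hr' σ]
    rfl
  have hur' : ∀ τ : Gp p, IsInertial p τ → conjHom (g : Matrix (Fin 2) (Fin 2) k)
      ((g⁻¹ : GL (Fin 2) k) : Matrix (Fin 2) (Fin 2) k) hPQ r τ 1 1 = 1 := by
    intro τ hτ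
    rw [hr' τ]
    show r τ 0 0 = 1
    exact congrArg Units.val (hA τ hτ)
  exact lfBound_of_conj _ _ hPQ r
    (lfBound_of_unram_quot hLR hCnt hLev hFR hp2 _ (lfHyp_conj _ _ hPQ r h) hup' hur')
    Cs hder htr hlev hflat

end Fermat.Agent.S56.LF.TopRTwin
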