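import Mathlib

/-!
# S56, brick LF, row C3 (Kummer twin, part 5): from cardinality bounds to `finrank` bounds

Glue between the shape of `CntAbsStatement` (a bound `T.card ≤ |k| ^ N` for finite families) and
the shape of `CntStatement` (`finrank_k (HSpace …) ≤ N`), over a finite field `k`.

* `finrank_le_of_finset_card_le` : if every finite subset of a `k`-vector space `V` has at most
  `|k| ^ N` elements, then `finrank k V ≤ N`.
* `finrank_submodule_le_of_finset_card_le` : the same for a submodule `W ≤ V`, with finite
  subsets of `V` contained in `W`.
* `finrank_submodule_le_of_injOn` : the same through a map `f : V → X` which is injective on `W`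
  and whose finite families of values have at most `|k| ^ N` elements.
-/

set_option autoImplicit false

namespace Fermat.Agent.S56.LF.CountFinrank

variable {k V : Type*} [Field k] [Finite k] [AddCommGroup V] [Module k V]

/-- If every finite subset of `V` has at most `|k| ^ N` elements, then `finrank k V ≤ N`. -/
theorem finrank_le_of_finset_card_le (N : ℕ) (h : ∀ S : Finset V, S.card ≤ Nat.card k ^ N) :
    Module.finrank k V ≤ N := by
  by_cases hfin : Module.Finite k V
  · have hV : Finite V := Module.finite_of_finite k
    have := Fintype.ofFinite V
    have h1 : Nat.card V = Nat.card k ^ Module.finrank k V := Module.natCard_eq_pow_finrank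
    have h2 : Nat.card V ≤ Nat.card k ^ N := by
      rw [Nat.card_eq_fintype_card, ← Finset.card_univ]
      exact h Finset.univ
    rw [h1] at h2
    exact (Nat.pow_le_pow_iff_right Finite.one_lt_card).mp h2
  · rw [Module.finrank_of_not_finite hfin]
    exact Nat.zero_le N

/-- If every finite subset of `V` contained in the submodule `W` has at most `|k| ^ N` elements,
then `finrank k W ≤ N`. -/
theorem finrank_submodule_le_of_finset_card_le (W : Submodule k V) (N : ℕ)
    (h : ∀ S : Finset V, (∀ v ∈ S, v ∈ W) → S.card ≤ Nat.card k ^ N) :
    Module.finrank k W ≤ N := by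
  refine finrank_le_of_finset_card_le N fun S => ?_
  have h1 := h (S.map ⟨Subtype.val, Subtype.val_injective⟩) (by
    intro v hv
    rw [Finset.mem_map] at hv
    obtain ⟨w, -, rfl⟩ := hv
    exact w.2)
  rwa [Finset.card_map] at h1

/-- If `f : V → X` is injective on the submodule `W` and every finite family of values of `f` on
`W` has at most `|k| ^ N` elements, then `finrank k W ≤ N`. -/
theorem finrank_submodule_le_of_injOn {X : Type*} (W : Submodule k V) (N : ℕ) (f : V → X)
    (hinj : ∀ v ∈ W, ∀ v' ∈ W, f v = f v' → v = v')
    (h : ∀ T : Finset X, (∀ t ∈ T, ∃ v ∈ W, f v = t) → T.card ≤ Nat.card k ^ N) :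
    Module.finrank k W ≤ N := by
  classical
  refine finrank_submodule_le_of_finset_card_le W N fun S hS => ?_
  have h1 := h (S.image f) (by
    intro t ht
    rw [Finset.mem_image] at ht
    obtain ⟨v, hv, rfl⟩ := ht
    exact ⟨v, hS v hv, rfl⟩)
  rwa [Finset.card_image_of_injOn (fun v hv v' hv' hvv' => hinj v (hS v hv) v' (hS v' hv') hvv')]
    at h1

end Fermat.Agent.S56.LF.CountFinrank
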