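import Fermat.Agent.S56.LF.KummerGen

/-!
# S56, brick LF, row C3 (Kummer twin, part 2): Kummer classes and the trace-form family

Same generic setting as `LF/KummerGen.lean`: `Ω / F` any field extension (Galois where marked),
`K ≤ Ω` an intermediate field, `ζ ∈ K`, `G_K = K.fixingSubgroup`.

* `IsKummerClass K ζ c u` : `u = θ ^ p` for some Kummer generator `θ` of the character `c`
  (so `u ∈ K`, `u ≠ 0`, and `u` is determined by `c` up to `p`-th powers of `Kˣ`).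
* `IsKummerClass.exists_eq_pow_mul` (well defined modulo `p`-th powers), `IsKummerClass.mul`
  (additive), `IsKummerClass.conj` (equivariant), `IsKummerClass.eq_of_eq_pow_mul` (injective).
* `trChar T φ x := fun g => T (x * φ g)` : the family of `ZMod p`-valued characters attached to a
  map `φ : Gal(Ω/F) → k` with values in a commutative ring `k` and an additive form
  `T : k →+ ZMod p` (the application is: `k` a finite field, `T` its trace to `𝔽_p`).
* `exists_isKummerClass_trChar`, `IsKummerClass.trChar_add`, `IsKummerClass.trChar_conj`,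
  `eq_of_trChar_class` : the class map `x ↦ [u_x]` exists, is additive, is equivariant
  (`s u_x` is a class of `(m * a) x` when `s ζ = ζ ^ m` and `φ (s⁻¹ g s) = a * φ g`), and `φ` is
  determined on `G_K` by its class map as soon as `T` is nondegenerate.
-/

set_option autoImplicit false

namespace Fermat.Agent.S56.LF.KummerClass

open Fermat.Agent.S56.LF.KummerGen

variable {F Ω : Type*} [Field F] [Field Ω] [Algebra F Ω]

/-- A primitive root of unity of `K` is a primitive root of unity of `Ω`. -/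
theorem coe_isPrimitiveRoot {p : ℕ} {K : IntermediateField F Ω} {ζ : K}
    (hζ : IsPrimitiveRoot ζ p) : IsPrimitiveRoot (ζ : Ω) p :=
  hζ.map_of_injective (f := K.val) K.val.injective

/-- `u` is a **Kummer class representative** of the character `c` on `G_K`: it is the `p`-th
power of a Kummer generator of `c`. -/
def IsKummerClass {p : ℕ} (K : IntermediateField F Ω) (ζ : K) (c : (Ω ≃ₐ[F] Ω) → ZMod p)
    (u : Ω) : Prop :=
  ∃ θ : Ω, IsKummerGen K ζ c θ ∧ θ ^ p = u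

/-- Every additive character of `G_K` of finite level has a Kummer class. -/
theorem exists_isKummerClass [IsGalois F Ω] {p : ℕ} [Fact p.Prime] (K : IntermediateField F Ω)
    [FiniteDimensional F K] (ζ : K) (hζ : IsPrimitiveRoot ζ p) (c : (Ω ≃ₐ[F] Ω) → ZMod p)
    (hadd : ∀ σ ∈ K.fixingSubgroup, ∀ τ ∈ K.fixingSubgroup, c (σ * τ) = c σ + c τ)
    (hlev : ∃ F' : IntermediateField F Ω, FiniteDimensional F F' ∧
      ∀ s ∈ F'.fixingSubgroup, s ∈ K.fixingSubgroup → c s = 0) :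
    ∃ u : Ω, IsKummerClass K ζ c u := by
  obtain ⟨θ, hθ⟩ := exists_isKummerGen K ζ hζ c hadd hlev
  exact ⟨θ ^ p, θ, hθ, rfl⟩

namespace IsKummerClass

variable {p : ℕ} {K : IntermediateField F Ω} {ζ : K} {c c' : (Ω ≃ₐ[F] Ω) → ZMod p}
  {u u' : Ω}

theorem mem (h : IsKummerClass K ζ c u) : u ∈ K := by
  obtain ⟨θ, hθ, rfl⟩ := h
  exact hθ.2.1

theorem ne_zero (h : IsKummerClass K ζ c u) : u ≠ 0 := by
  obtain ⟨θ, hθ, rfl⟩ := h
  exact pow_ne_zero p hθ.1

/-- Only the values of the character on `G_K` matter. -/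
theorem congr (h : IsKummerClass K ζ c u) (hc : ∀ σ ∈ K.fixingSubgroup, c σ = c' σ) :
    IsKummerClass K ζ c' u := by
  obtain ⟨θ, hθ, rfl⟩ := h
  exact ⟨θ, hθ.congr hc, rfl⟩

/-- The trivial character has class `1`. -/
theorem one : IsKummerClass K ζ (fun _ => (0 : ZMod p)) (1 : Ω) :=
  ⟨1, IsKummerGen.one, one_pow p⟩

/-- **Well defined modulo `p`-th powers**: two classes of characters which agree on `G_K`
differ by the `p`-th power of a nonzero element of `K`. -/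
theorem exists_eq_pow_mul [IsGalois F Ω] (h : IsKummerClass K ζ c u)
    (h' : IsKummerClass K ζ c' u') (hc : ∀ σ ∈ K.fixingSubgroup, c σ = c' σ) :
    ∃ w : Ω, w ∈ K ∧ w ≠ 0 ∧ u = w ^ p * u' := by
  obtain ⟨θ, hθ, rfl⟩ := h
  obtain ⟨θ', hθ', rfl⟩ := h'
  exact (hθ.congr hc).exists_pow_eq hθ'

/-- A class may be changed by the `p`-th power of a nonzero element of `K`. -/
theorem mul_pow_mem [NeZero p] (hζ : (ζ : Ω) ^ p = 1) (h : IsKummerClass K ζ c u) {w : Ω}
    (hw : w ∈ K) (hw0 : w ≠ 0) : IsKummerClass K ζ c (u * w ^ p) := by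
  obtain ⟨θ, hθ, rfl⟩ := h
  exact ⟨θ * w, hθ.mul_mem hζ hw hw0, _root_.mul_pow θ w p⟩

/-- **Additive**: the product of two classes is a class of the sum of the characters. -/
theorem mul [NeZero p] (hζ : (ζ : Ω) ^ p = 1) (h : IsKummerClass K ζ c u)
    (h' : IsKummerClass K ζ c' u') : IsKummerClass K ζ (fun σ => c σ + c' σ) (u * u') := by
  obtain ⟨θ, hθ, rfl⟩ := h
  obtain ⟨θ', hθ', rfl⟩ := h'
  exact ⟨θ * θ', hθ.mul hζ hθ', _root_.mul_pow θ θ' p⟩

/-- The inverse of a class is a class of the opposite character. -/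
theorem inv [NeZero p] (hζ : (ζ : Ω) ^ p = 1) (h : IsKummerClass K ζ c u) :
    IsKummerClass K ζ (fun σ => - c σ) u⁻¹ := by
  obtain ⟨θ, hθ, rfl⟩ := h
  exact ⟨θ⁻¹, hθ.inv hζ, inv_pow θ p⟩

/-- **Equivariant**: if `s ∈ Gal(Ω/F)` maps `K` into `K` and `s ζ = ζ ^ m`, then `s u` is a class
of `g ↦ m * c (s⁻¹ * g * s)`. -/
theorem conj [NeZero p] (hζ : (ζ : Ω) ^ p = 1) (h : IsKummerClass K ζ c u) (s : Ω ≃ₐ[F] Ω)
    (hsK : ∀ x ∈ K, s x ∈ K) (m : ℕ) (hsζ : s (ζ : Ω) = (ζ : Ω) ^ m) :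
    IsKummerClass K ζ (fun g => (m : ZMod p) * c (s⁻¹ * g * s)) (s u) := by
  obtain ⟨θ, hθ, rfl⟩ := h
  exact ⟨s θ, hθ.conj hζ s hsK m hsζ, (map_pow s θ p).symm⟩

/-- **Injective**: two characters whose classes differ by a `p`-th power of `K` agree on `G_K`. -/
theorem eq_of_eq_pow_mul [Fact p.Prime] (hζ : IsPrimitiveRoot (ζ : Ω) p)
    (h : IsKummerClass K ζ c u) (h' : IsKummerClass K ζ c' u') {w : Ω} (hw : w ∈ K)
    (huw : u = w ^ p * u') {σ : Ω ≃ₐ[F] Ω} (hσ : σ ∈ K.fixingSubgroup) : c σ = c' σ := by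
  have hp : p.Prime := Fact.out
  have : NeZero p := ⟨hp.ne_zero⟩
  obtain ⟨θ, hθ, rfl⟩ := h
  obtain ⟨θ', hθ', rfl⟩ := h'
  have h1 : IsKummerGen K ζ (fun σ => c σ + - c' σ) (θ * θ'⁻¹) :=
    hθ.mul hζ.pow_eq_one (hθ'.inv hζ.pow_eq_one)
  have h2 : (θ * θ'⁻¹) ^ p = w ^ p := by
    rw [_root_.mul_pow, huw, inv_pow, mul_assoc, mul_inv_cancel₀ (pow_ne_zero p hθ'.1), mul_one]
  have h3 : c σ + - c' σ = 0 := h1.eq_zero_of_pow_eq hζ hw h2 hσ
  exact eq_of_sub_eq_zero (by rw [sub_eq_add_neg]; exact h3)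

/-- The character vanishes on `G_K` as soon as its class is a `p`-th power of `K`. -/
theorem eq_zero_of_eq_pow [Fact p.Prime] (hζ : IsPrimitiveRoot (ζ : Ω) p)
    (h : IsKummerClass K ζ c u) {w : Ω} (hw : w ∈ K) (huw : u = w ^ p) {σ : Ω ≃ₐ[F] Ω}
    (hσ : σ ∈ K.fixingSubgroup) : c σ = 0 := by
  obtain ⟨θ, hθ, rfl⟩ := h
  exact hθ.eq_zero_of_pow_eq hζ hw huw hσ

end IsKummerClass

section Trace

variable {k : Type*} [CommRing k] {p : ℕ}

/-- The `ZMod p`-valued character `g ↦ T (x * φ g)` attached to `φ : Gal(Ω/F) → k`, an additive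
form `T : k →+ ZMod p` and `x : k`. -/
def trChar (T : k →+ ZMod p) (φ : (Ω ≃ₐ[F] Ω) → k) (x : k) : (Ω ≃ₐ[F] Ω) → ZMod p :=
  fun g => T (x * φ g)

theorem trChar_apply (T : k →+ ZMod p) (φ : (Ω ≃ₐ[F] Ω) → k) (x : k) (g : Ω ≃ₐ[F] Ω) :
    trChar T φ x g = T (x * φ g) := rfl

/-- `trChar T φ x` is additive on `G_K` when `φ` is. -/
theorem trChar_mul (T : k →+ ZMod p) (φ : (Ω ≃ₐ[F] Ω) → k) (x : k) (K : IntermediateField F Ω)
    (hadd : ∀ σ ∈ K.fixingSubgroup, ∀ τ ∈ K.fixingSubgroup, φ (σ * τ) = φ σ + φ τ) :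
    ∀ σ ∈ K.fixingSubgroup, ∀ τ ∈ K.fixingSubgroup,
      trChar T φ x (σ * τ) = trChar T φ x σ + trChar T φ x τ := by
  intro σ hσ τ hτ
  rw [trChar_apply, trChar_apply, trChar_apply, hadd σ hσ τ hτ, mul_add, map_add]

/-- `trChar T φ x` has finite level when `φ` has. -/
theorem trChar_level (T : k →+ ZMod p) (φ : (Ω ≃ₐ[F] Ω) → k) (x : k)
    (K : IntermediateField F Ω)
    (hlev : ∃ F' : IntermediateField F Ω, FiniteDimensional F F' ∧
      ∀ s ∈ F'.fixingSubgroup, s ∈ K.fixingSubgroup → φ s = 0) :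
    ∃ F' : IntermediateField F Ω, FiniteDimensional F F' ∧
      ∀ s ∈ F'.fixingSubgroup, s ∈ K.fixingSubgroup → trChar T φ x s = 0 := by
  obtain ⟨F', hF', h⟩ := hlev
  exact ⟨F', hF', fun s hs hsK => by rw [trChar_apply, h s hs hsK, mul_zero, map_zero]⟩

/-- **The class map exists**: every `trChar T φ x` has a Kummer class `u_x`. -/
theorem exists_isKummerClass_trChar [IsGalois F Ω] [Fact p.Prime] (K : IntermediateField F Ω)
    [FiniteDimensional F K] (ζ : K) (hζ : IsPrimitiveRoot ζ p) (T : k →+ ZMod p)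
    (φ : (Ω ≃ₐ[F] Ω) → k)
    (hadd : ∀ σ ∈ K.fixingSubgroup, ∀ τ ∈ K.fixingSubgroup, φ (σ * τ) = φ σ + φ τ)
    (hlev : ∃ F' : IntermediateField F Ω, FiniteDimensional F F' ∧
      ∀ s ∈ F'.fixingSubgroup, s ∈ K.fixingSubgroup → φ s = 0) (x : k) :
    ∃ u : Ω, IsKummerClass K ζ (trChar T φ x) u :=
  exists_isKummerClass K ζ hζ _ (trChar_mul T φ x K hadd) (trChar_level T φ x K hlev)

variable {K : IntermediateField F Ω} {ζ : K} {T : k →+ ZMod p} {φ φ' : (Ω ≃ₐ[F] Ω) → k}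

/-- **The class map is additive**: `u_x * u_y` is a class of `x + y`. -/
theorem IsKummerClass.trChar_add [NeZero p] (hζ : (ζ : Ω) ^ p = 1) {x y : k} {u u' : Ω}
    (h : IsKummerClass K ζ (trChar T φ x) u) (h' : IsKummerClass K ζ (trChar T φ y) u') :
    IsKummerClass K ζ (trChar T φ (x + y)) (u * u') :=
  (h.mul hζ h').congr fun σ _ => by
    rw [trChar_apply, trChar_apply, trChar_apply, add_mul, map_add]

/-- The class of `0` is `1`. -/
theorem IsKummerClass.trChar_zero : IsKummerClass K ζ (trChar T φ 0) (1 : Ω) :=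
  (IsKummerClass.one (ζ := ζ)).congr fun σ _ => by
    rw [trChar_apply, zero_mul, map_zero]

/-- **The class map is equivariant**: let `s ∈ Gal(Ω/F)` map `K` into `K`, with `s ζ = ζ ^ m` and
`φ (s⁻¹ * g * s) = a * φ g` on `G_K`.  Then `s u_x` is a class of `(m * a) * x`. -/
theorem IsKummerClass.trChar_conj [NeZero p] (hζ : (ζ : Ω) ^ p = 1) {x : k} {u : Ω}
    (h : IsKummerClass K ζ (trChar T φ x) u) (s : Ω ≃ₐ[F] Ω) (hsK : ∀ y ∈ K, s y ∈ K) (m : ℕ)
    (hsζ : s (ζ : Ω) = (ζ : Ω) ^ m) (a : k)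
    (hφ : ∀ g ∈ K.fixingSubgroup, φ (s⁻¹ * g * s) = a * φ g) :
    IsKummerClass K ζ (trChar T φ ((m : k) * a * x)) (s u) :=
  (h.conj hζ s hsK m hsζ).congr fun g hg => by
    have h1 : (m : k) * a * x * φ g = m • (x * (a * φ g)) := by
      rw [nsmul_eq_mul]; ring
    rw [trChar_apply, trChar_apply, hφ g hg, h1, map_nsmul, nsmul_eq_mul]

/-- **The class map determines `φ` on `G_K`**: if `T` is nondegenerate and the classes of
`trChar T φ x` and `trChar T φ' x` agree modulo `p`-th powers of `K` for every `x`, then `φ = φ'`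
on `G_K`. -/
theorem eq_of_trChar_class [Fact p.Prime] (hζ : IsPrimitiveRoot (ζ : Ω) p)
    (hT : ∀ y : k, (∀ x : k, T (x * y) = 0) → y = 0)
    (h : ∀ x : k, ∃ u u' w : Ω, IsKummerClass K ζ (trChar T φ x) u ∧
      IsKummerClass K ζ (trChar T φ' x) u' ∧ w ∈ K ∧ u = w ^ p * u')
    {σ : Ω ≃ₐ[F] Ω} (hσ : σ ∈ K.fixingSubgroup) : φ σ = φ' σ := by
  refine eq_of_sub_eq_zero (hT _ fun x => ?_)
  obtain ⟨u, u', w, hu, hu', hw, huw⟩ := h x
  have h1 : trChar T φ x σ = trChar T φ' x σ := hu.eq_of_eq_pow_mul hζ hu' hw huw hσ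
  rw [trChar_apply, trChar_apply] at h1
  rw [mul_sub, map_sub, h1, sub_self]

/-- **Kernel of the class map**: if `T` is nondegenerate and every class of `φ` is a `p`-th
power of `K`, then `φ = 0` on `G_K`. -/
theorem eq_zero_of_trChar_class [Fact p.Prime] (hζ : IsPrimitiveRoot (ζ : Ω) p)
    (hT : ∀ y : k, (∀ x : k, T (x * y) = 0) → y = 0)
    (h : ∀ x : k, ∃ u w : Ω, IsKummerClass K ζ (trChar T φ x) u ∧ w ∈ K ∧ u = w ^ p)
    {σ : Ω ≃ₐ[F] Ω} (hσ : σ ∈ K.fixingSubgroup) : φ σ = 0 := by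
  refine hT _ fun x => ?_
  obtain ⟨u, w, hu, hw, huw⟩ := h x
  have h1 : trChar T φ x σ = 0 := hu.eq_zero_of_eq_pow hζ hw huw hσ
  rw [trChar_apply] at h1
  exact h1

end Trace

end Fermat.Agent.S56.LF.KummerClass
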