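import Mathlib

/-!
# S56, brick LF, row C3 (Kummer twin, part 4): the trace form of a finite field

The form `T : k →+ ZMod p` consumed by `LF/KummerClass.lean` (`trChar`), for a finite field `k`
of characteristic `p`, without any `Algebra (ZMod p) k` instance in the statement.

* `exists_nondegenerate_form` : there is an additive `T : k →+ ZMod p` which is nondegenerate
  (`(∀ x, T (x * y) = 0) → y = 0`) and represents every additive form
  (`∀ ℓ : k →+ ZMod p, ∃ x, ∀ y, ℓ y = T (x * y)`).
-/

set_option autoImplicit false

namespace Fermat.Agent.S56.LF.TraceForm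

/-- A finite field `k` of characteristic `p` carries an additive form `T : k →+ 𝔽_p` (its trace)
which is nondegenerate and represents every additive form `ℓ : k →+ 𝔽_p` as `y ↦ T (x * y)`. -/
theorem exists_nondegenerate_form (p : ℕ) [Fact p.Prime] (k : Type*) [Field k] [Finite k]
    [CharP k p] :
    ∃ T : k →+ ZMod p, (∀ y : k, (∀ x : k, T (x * y) = 0) → y = 0) ∧
      ∀ ℓ : k →+ ZMod p, ∃ x : k, ∀ y : k, ℓ y = T (x * y) := by
  let _ : Algebra (ZMod p) k := ZMod.algebra k p
  have hnd := traceForm_nondegenerate (ZMod p) k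
  refine ⟨(Algebra.trace (ZMod p) k).toAddMonoidHom, fun y hy => hnd.1 y fun z => ?_,
    fun ℓ => ?_⟩
  · rw [Algebra.traceForm_apply, mul_comm]
    exact hy z
  · refine ⟨((Algebra.traceForm (ZMod p) k).toDual hnd).symm (ℓ.toZModLinearMap p),
      fun y => ?_⟩
    have h1 := LinearMap.BilinForm.apply_toDual_symm_apply (hB := hnd) (ℓ.toZModLinearMap p) y
    rw [Algebra.traceForm_apply] at h1
    exact h1.symm

end Fermat.Agent.S56.LF.TraceForm
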