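import Mathlib
import Fermat.Agent.S56.Flat.CntFin
import Fermat.Agent.S56.LF.KummerClass
import Fermat.Agent.S56.LF.TraceForm
import Fermat.Agent.S56.LF.CountFinrank

/-!
# S56, brick LF, row C3 (field half): `CntFinStatement` from the norm form of `CntAbsStatement`

`Flat.CntFinStatement` (the count of Kummer-bounded equivariant homomorphisms, finite form) is
reduced to ONE statement about finite families of functions `k → PadicAlgCl p`:

* `OKSeam` : the norm form of `Flat.CntAbsStatement` at `𝒪[K]` - binder for binder the statement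
  of `OKInst.card_le_of_cntAbs` (`LF/OKInst.lean`) without its first hypothesis.  A finite family
  `T` of functions `h : k → K` with `‖h x - 1‖ ≤ ‖p‖`, additive and `ξ`-equivariant modulo `p`-th
  powers of `K` and pairwise distinct modulo `p`-th powers, has at most `|k| ^ N` elements.
* `cntFin_of_seam : OKSeam → Flat.CntFinStatement`.

The proof is the Kummer dictionary of `LF/KummerClass.lean`: with `T₀ : k →+ 𝔽_p` the
nondegenerate trace form (`LF/TraceForm.lean`), an element `f` of `HSpace` gives the family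
`x ↦ u_f x := θ ^ p`, `θ` the Kummer generator of the character `g ↦ T₀ (x * f g)` provided by
the Kummer clause of `HSpace`.  The class map `x ↦ [u_f x]` is additive (`trChar_add`),
equivariant (`trChar_conj`) and determines `f` (`eq_of_trChar_class`); a finite subset `S` of
`HSpace` therefore gives the family `T := S.image u` of the same cardinality, and the bound
`|S| ≤ |k| ^ N` for all finite `S` gives finiteness and the `finrank` bound
(`LF/CountFinrank.lean`).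
-/

set_option autoImplicit false

open scoped NNReal NormedField Valued
open IsLocalRing Polynomial
open Fermat.Agent.CFT.Local.NormedLocal Fermat.Agent.CFT.Local.PadicExt
open Fermat.Agent.CFT.Local.UnramPadic

namespace Fermat.Agent.S56.LF.CntField

open Fermat.Agent.S56.Flat
open Fermat.Agent.S56.LF.KummerGen Fermat.Agent.S56.LF.KummerClass

open Classical in
/-- **The seam of row C3 (field half)**: the norm form of `Flat.CntAbsStatement` at `𝒪[K]`,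
`D := G_{Fb}`.  This is the statement of `OKInst.card_le_of_cntAbs` without its hypothesis
`Flat.CntAbsStatement`. -/
def OKSeam : Prop :=
  ∀ (p : ℕ) [Fact p.Prime] (_hp2 : p ≠ 2) (k : Type) [Field k] [Finite k] [CharP k p]
    (Fb F0 K : IntermediateField ℚ_[p] (PadicAlgCl p)) [FiniteDimensional ℚ_[p] Fb]
    [FiniteDimensional ℚ_[p] F0] [FiniteDimensional ℚ_[p] K]
    (_hbF : Fb ≤ F0) (_hFK : F0 ≤ K) (_hst : ∀ σ ∈ Fb.fixingSubgroup, ∀ x ∈ K, σ x ∈ K)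
    (ζ : PadicAlgCl p) (_hζ : IsPrimitiveRoot ζ p) (_hζK : ζ ∈ K) (a a' e0 : ℕ)
    (ϖ : PadicAlgCl p)
    (_ha : Nat.card 𝓀[Fb] = p ^ a) (_ha' : Nat.card 𝓀[F0] = p ^ a') (_hϖK : ϖ ∈ K)
    (_hϖ1 : ‖ϖ‖ < 1) (_hϖmax : ∀ x ∈ K, ‖x‖ < 1 → ‖x‖ ≤ ‖ϖ‖)
    (_he : ‖ϖ‖ ^ (e0 * (p - 1)) = ‖(p : PadicAlgCl p)‖) (ρ0 : 𝒪[F0] →+* k) (ξ : Gp p → kˣ)
    (_hξ : ∀ σ ∈ Fb.fixingSubgroup, ∀ τ ∈ Fb.fixingSubgroup, ξ (σ * τ) = ξ σ * ξ τ)
    (τ0 φ : Gp p) (z : 𝒪[F0]) (_hτ0 : τ0 ∈ Fb.fixingSubgroup) (_hφ : φ ∈ Fb.fixingSubgroup)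
    (_hτ0r : ∀ x ∈ K, ‖x‖ ≤ 1 → ‖τ0 x - x‖ < 1)
    (_hφr : ∀ x ∈ K, ‖x‖ ≤ 1 → ‖φ x - x ^ (p ^ a)‖ < 1)
    (_hτ0ϖ : ‖τ0 ϖ - ((z : F0) : PadicAlgCl p) * ϖ‖ < ‖ϖ‖)
    (T : Finset (k → PadicAlgCl p))
    (_hT : ∀ h ∈ T, (∀ x, h x ∈ K ∧ ‖h x - 1‖ ≤ ‖(p : PadicAlgCl p)‖) ∧
      (∀ x y, ∃ w ∈ K, h (x + y) = h x * h y * w ^ p) ∧
      (∀ σ ∈ Fb.fixingSubgroup, ∀ x, ∃ w ∈ K, h (((ξ σ : kˣ) : k) * x) = σ (h x) * w ^ p))
    (_hinj : ∀ h ∈ T, ∀ h' ∈ T, (∀ x, ∃ w ∈ K, h x = h' x * w ^ p) → h = h'),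
    T.card ≤ Nat.card k ^ ((if ∀ σ ∈ Fb.fixingSubgroup, ∀ n : ℕ, σ ζ = ζ ^ n →
        ((ξ σ : kˣ) : k) = n then 1 else 0) +
      Nat.card {nj : ℕ × ℕ // 1 ≤ nj.1 ∧ nj.1 ≤ e0 ∧ ¬ p ∣ nj.1 ∧ nj.2 < a' ∧
        ρ0 z ^ ((p * e0 - nj.1) * p ^ nj.2) = ((ξ τ0 : kˣ) : k)})

section Aux

variable {p : ℕ} [Fact p.Prime]

/-- `‖p‖ < 1` in `PadicAlgCl p`. -/
theorem norm_natCast_self_lt_one : ‖(p : PadicAlgCl p)‖ < 1 := by
  have h2 : ‖algebraMap ℚ_[p] (PadicAlgCl p) (p : ℚ_[p])‖ = ‖(p : ℚ_[p])‖ :=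
    norm_algebraMap' (PadicAlgCl p) (p : ℚ_[p])
  rw [map_natCast] at h2
  rw [h2]
  exact Padic.norm_p_lt_one

/-- An element whose `p`-th power is `≡ 1` modulo `p` is not zero. -/
theorem ne_zero_of_norm_pow_sub_one_le {θ : PadicAlgCl p}
    (h : ‖θ ^ p - 1‖ ≤ ‖(p : PadicAlgCl p)‖) : θ ≠ 0 := by
  rintro rfl
  have hp : p.Prime := Fact.out
  rw [zero_pow hp.ne_zero, zero_sub, norm_neg, norm_one] at h
  exact absurd (lt_of_le_of_lt h norm_natCast_self_lt_one) (lt_irrefl 1)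

/-- The image of a primitive `p`-th root of unity under an automorphism is a power of it. -/
theorem exists_map_eq_pow {ζ : PadicAlgCl p} (hζ : IsPrimitiveRoot ζ p) (σ : Gp p) :
    ∃ n : ℕ, σ ζ = ζ ^ n := by
  have hp : p.Prime := Fact.out
  have : NeZero p := ⟨hp.ne_zero⟩
  have h1 : (σ ζ) ^ p = 1 := by rw [← map_pow, hζ.pow_eq_one, map_one]
  obtain ⟨n, -, hn⟩ := hζ.eq_pow_of_pow_eq_one h1
  exact ⟨n, hn.symm⟩

/-- Conjugation by an automorphism which maps `K` into `K` preserves `G_K`. -/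
theorem conj_mem_fixingSubgroup {K : IntermediateField ℚ_[p] (PadicAlgCl p)} {σ : Gp p}
    (hσK : ∀ x ∈ K, σ x ∈ K) {g : Gp p} (hg : g ∈ K.fixingSubgroup) :
    σ⁻¹ * g * σ ∈ K.fixingSubgroup := by
  rw [IntermediateField.mem_fixingSubgroup_iff] at hg ⊢
  intro x hx
  rw [AlgEquiv.mul_apply, AlgEquiv.mul_apply, hg (σ x) (hσK x hx)]
  exact σ.symm_apply_apply x

end Aux

/-- From finite-subset bounds to finiteness and the `finrank` bound, over a finite field. -/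
theorem finite_and_finrank_le {k V : Type*} [Field k] [Finite k] [AddCommGroup V] [Module k V]
    (N : ℕ) (h : ∀ S : Finset V, S.card ≤ Nat.card k ^ N) :
    Module.Finite k V ∧ Module.finrank k V ≤ N := by
  have hfin : Finite V := by
    by_contra hV
    rw [not_finite_iff_infinite] at hV
    obtain ⟨S, hS⟩ := Infinite.exists_subset_card_eq V (Nat.card k ^ N + 1)
    have := h S
    omega
  exact ⟨Module.Finite.of_finite, CountFinrank.finrank_le_of_finset_card_le N h⟩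

/-- **Row C3, field half**: the norm form `OKSeam` of `CntAbsStatement` implies
`Flat.CntFinStatement`. -/
theorem cntFin_of_seam (hseam : OKSeam) : Flat.CntFinStatement := by
  intro p _ hp2 k _ _ _ Fb F0 K _ _ _ hbF hFK hst ζ hζ hζK a a' e0 ϖ ha ha' hϖK hϖ1 hϖmax he ρ0
    χ ξ hξ hξχ τ0 φ z hτ0 hφ hτ0r hφr hτ0ϖ
  classical
  have hp : p.Prime := Fact.out
  have : NeZero p := ⟨hp.ne_zero⟩
  obtain ⟨T₀, hT₀nd, -⟩ := TraceForm.exists_nondegenerate_form p k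
  -- the two `if` conditions agree
  have hiff : (∀ σ ∈ Fb.fixingSubgroup, ∀ n : ℕ, σ ζ = ζ ^ n → ((ξ σ : kˣ) : k) = n) ↔
      (∀ σ ∈ Fb.fixingSubgroup, χ σ = 1) := by
    constructor
    · intro h σ hσ
      obtain ⟨n, hn⟩ := exists_map_eq_pow hζ σ
      have h1 := hξχ σ hσ n hn
      rw [← h σ hσ n hn] at h1
      have h2 : ((ξ σ : kˣ) : k) * ((χ σ : kˣ) : k) = ((ξ σ : kˣ) : k) * 1 := by
        rw [h1, mul_one]
      exact Units.ext (mul_left_cancel₀ (ξ σ).ne_zero h2)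
    · intro h σ hσ n hn
      have h1 := hξχ σ hσ n hn
      rw [h σ hσ, Units.val_one, mul_one] at h1
      exact h1
  set N : ℕ := (if ∀ σ ∈ Fb.fixingSubgroup, χ σ = 1 then 1 else 0) +
    Nat.card {nj : ℕ × ℕ // 1 ≤ nj.1 ∧ nj.1 ≤ e0 ∧ ¬ p ∣ nj.1 ∧ nj.2 < a' ∧
      ρ0 z ^ ((p * e0 - nj.1) * p ^ nj.2) = ((ξ τ0 : kˣ) : k)} with hN
  have hNeq : (if ∀ σ ∈ Fb.fixingSubgroup, ∀ n : ℕ, σ ζ = ζ ^ n → ((ξ σ : kˣ) : k) = n
      then 1 else 0) +
    Nat.card {nj : ℕ × ℕ // 1 ≤ nj.1 ∧ nj.1 ≤ e0 ∧ ¬ p ∣ nj.1 ∧ nj.2 < a' ∧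
      ρ0 z ^ ((p * e0 - nj.1) * p ^ nj.2) = ((ξ τ0 : kˣ) : k)} = N := by
    rw [hN]
    by_cases hc : ∀ σ ∈ Fb.fixingSubgroup, χ σ = 1
    · rw [if_pos hc, if_pos (hiff.mpr hc)]
    · rw [if_neg hc, if_neg (fun h => hc (hiff.mp h))]
  refine finite_and_finrank_le N fun S => ?_
  -- the Kummer dictionary
  set ζK : K := ⟨ζ, hζK⟩ with hζKdef
  have hζpow : ((ζK : K) : PadicAlgCl p) ^ p = 1 := hζ.pow_eq_one
  -- extension by zero
  let ext : (K.fixingSubgroup → k) → Gp p → k := fun f g =>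
    if hg : g ∈ K.fixingSubgroup then f ⟨g, hg⟩ else 0
  have hext : ∀ (f : K.fixingSubgroup → k) (g : Gp p) (hg : g ∈ K.fixingSubgroup),
      ext f g = f ⟨g, hg⟩ := fun f g hg => dif_pos hg
  -- the generators
  have hex : ∀ (f : HSpace p k Fb K ζ hζ.pow_eq_one (fun σ => ((χ σ : kˣ) : k))) (x : k),
      ∃ θ : PadicAlgCl p, θ ^ p ∈ K ∧ ‖θ ^ p - 1‖ ≤ ‖(p : PadicAlgCl p)‖ ∧
        ∀ g : K.fixingSubgroup, (g : Gp p) θ =
          ζ ^ (T₀ (x * (f : K.fixingSubgroup → k) g)).val * θ := by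
    intro f x
    obtain ⟨θ, h1, h2, h3⟩ := f.2.2.2 (T₀.comp (AddMonoidHom.mulLeft x))
    exact ⟨θ, h1, h2, fun g => h3 g⟩
  choose θ hθK hθn hθg using hex
  have hcls : ∀ (f : HSpace p k Fb K ζ hζ.pow_eq_one (fun σ => ((χ σ : kˣ) : k))) (x : k),
      IsKummerClass K ζK (trChar T₀ (ext (f : K.fixingSubgroup → k)) x) (θ f x ^ p) := by
    intro f x
    refine ⟨θ f x, ⟨ne_zero_of_norm_pow_sub_one_le (hθn f x), hθK f x, fun σ hσ => ?_⟩, rfl⟩
    rw [trChar_apply, hext _ σ hσ]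
    exact hθg f x ⟨σ, hσ⟩
  -- the class map determines `f`
  have hkey : ∀ f f' : HSpace p k Fb K ζ hζ.pow_eq_one (fun σ => ((χ σ : kˣ) : k)),
      (∀ x, ∃ w ∈ K, θ f x ^ p = θ f' x ^ p * w ^ p) → f = f' := by
    intro f f' h
    refine Subtype.ext (funext fun g => ?_)
    have h1 : ext (f : K.fixingSubgroup → k) (g : Gp p) =
        ext (f' : K.fixingSubgroup → k) (g : Gp p) := by
      refine eq_of_trChar_class (K := K) (ζ := ζK) (T := T₀) hζ hT₀nd (fun x => ?_) g.2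
      obtain ⟨w, hwK, hw⟩ := h x
      exact ⟨_, _, w, hcls f x, hcls f' x, hwK, by rw [hw, mul_comm]⟩
    rw [hext _ _ g.2, hext _ _ g.2] at h1
    exact h1
  let u : HSpace p k Fb K ζ hζ.pow_eq_one (fun σ => ((χ σ : kˣ) : k)) → k → PadicAlgCl p :=
    fun f x => θ f x ^ p
  have hu_inj : Function.Injective u := by
    intro f f' hff'
    refine hkey f f' fun x => ⟨1, one_mem K, ?_⟩
    have h1 : θ f x ^ p = θ f' x ^ p := congrFun hff' x
    rw [h1, one_pow, mul_one]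
  have hbound := hseam p hp2 k Fb F0 K hbF hFK hst ζ hζ hζK a a' e0 ϖ ha ha' hϖK hϖ1 hϖmax he ρ0
    ξ hξ τ0 φ z hτ0 hφ hτ0r hφr hτ0ϖ (S.image u) ?_ ?_
  · rw [Finset.card_image_of_injective S hu_inj, hNeq] at hbound
    exact hbound
  · -- the three clauses
    intro h hh
    obtain ⟨f, -, rfl⟩ := Finset.mem_image.mp hh
    refine ⟨fun x => ⟨hθK f x, hθn f x⟩, fun x y => ?_, fun σ hσ x => ?_⟩
    · have h1 : IsKummerClass K ζK (trChar T₀ (ext (f : K.fixingSubgroup → k)) (x + y))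
          (θ f x ^ p * θ f y ^ p) := (hcls f x).trChar_add hζpow (hcls f y)
      obtain ⟨w, hwK, -, hw⟩ := (hcls f (x + y)).exists_eq_pow_mul h1 (fun _ _ => rfl)
      exact ⟨w, hwK, by change θ f (x + y) ^ p = θ f x ^ p * θ f y ^ p * w ^ p; rw [hw, mul_comm]⟩
    · obtain ⟨n, hn⟩ := exists_map_eq_pow hζ σ
      have hconj : ∀ g ∈ K.fixingSubgroup, ext (f : K.fixingSubgroup → k) (σ⁻¹ * g * σ) =
          (((χ σ)⁻¹ : kˣ) : k) * ext (f : K.fixingSubgroup → k) g := by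
        intro g hg
        have hg' : σ⁻¹ * g * σ ∈ K.fixingSubgroup := conj_mem_fixingSubgroup (hst σ hσ) hg
        have h1 : (f : K.fixingSubgroup → k) ⟨g, hg⟩ =
            ((χ σ : kˣ) : k) * (f : K.fixingSubgroup → k) ⟨σ⁻¹ * g * σ, hg'⟩ :=
          f.2.2.1 σ hσ ⟨σ⁻¹ * g * σ, hg'⟩ ⟨g, hg⟩ (by
            change g = σ * (σ⁻¹ * g * σ) * σ⁻¹
            group)
        rw [hext _ _ hg', hext _ _ hg, h1, ← mul_assoc, ← Units.val_mul, inv_mul_cancel,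
          Units.val_one, one_mul]
      have h1 : IsKummerClass K ζK
          (trChar T₀ (ext (f : K.fixingSubgroup → k)) ((n : k) * (((χ σ)⁻¹ : kˣ) : k) * x))
          (σ (θ f x ^ p)) :=
        (hcls f x).trChar_conj hζpow σ (hst σ hσ) n hn _ hconj
      have h2 : (n : k) * (((χ σ)⁻¹ : kˣ) : k) = ((ξ σ : kˣ) : k) := by
        rw [← hξχ σ hσ n hn, mul_assoc, ← Units.val_mul, mul_inv_cancel, Units.val_one, mul_one]
      rw [h2] at h1
      obtain ⟨w, hwK, -, hw⟩ :=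
        (hcls f (((ξ σ : kˣ) : k) * x)).exists_eq_pow_mul h1 (fun _ _ => rfl)
      exact ⟨w, hwK, by
        change θ f (((ξ σ : kˣ) : k) * x) ^ p = σ (θ f x ^ p) * w ^ p
        rw [hw, mul_comm]⟩
  · -- distinct modulo `p`-th powers
    intro h hh h' hh' hw
    obtain ⟨f, -, rfl⟩ := Finset.mem_image.mp hh
    obtain ⟨f', -, rfl⟩ := Finset.mem_image.mp hh'
    rw [hkey f f' hw]

end Fermat.Agent.S56.LF.CntField
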