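import Mathlib
import Fermat.Agent.S56.Flat.LocalBricks
import Fermat.Agent.CFT.Local.PadicExt
import Fermat.Agent.S56.LF.LevelBound.Tower
import Fermat.Agent.S56.LF.LevelBound.Norm

/-!
# S56 / LF row C3 (field half): the `𝒪[K]` instance of CNT-abs (helper245)

`Flat.CntAbsStatement` (proved in `Flat/CntAbsExit.lean`) is about an abstract complete DVR `O`
with a group `D` of ring automorphisms.  This file instantiates it at `O := 𝒪[K]`,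
`D := G_{Fb} = Fb.fixingSubgroup`, `F := 𝓀[F0]` for finite extensions `Fb ≤ F0 ≤ K` of `ℚ_p`
inside `ℚ̄_p` with `K` stable under `G_{Fb}`, and restates every hypothesis and the conclusion
through the norm of `PadicAlgCl p`, in the vocabulary of `Flat.CntFinStatement`.

Dictionary (all in `PadicAlgCl p`, `K : IntermediateField ℚ_[p] (PadicAlgCl p)`):

* `coeHom K : 𝒪[K] →+* PadicAlgCl p`, `coeU K : 𝒪[K]ˣ →* PadicAlgCl p` (injective), `mkO`, `mkU`;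
* `mem_maximalIdeal_iff`, `mem_span_singleton_iff`, `isUnit_iff` : ideals of `𝒪[K]` by the norm;
* `inclO h : 𝒪[E] →+* 𝒪[L]` (a local homomorphism), `resMap h : 𝓀[E] →+* 𝓀[L]`, `dvd_of_card`;
* `irreducible_mkO` : a norm-maximal element of norm `< 1` is a uniformiser of `𝒪[K]`;
* `natCast_eq_pow_mul` : `p = ϖ ^ n * unit` from `‖ϖ‖ ^ n = ‖p‖`;
* `isPrimitiveRoot_mkO` : `ζ ∈ K` primitive gives a primitive root of unity of `𝒪[K]`;
* `actFun`, `actOK hst : MulSemiringAction ↥Fb.fixingSubgroup 𝒪[K]` (use with `letI`);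
* `actFun_sub_mem_maximalIdeal`, `actFun_sub_pow_mem_maximalIdeal`, `mem_maximalIdeal_sq`;
* `isLocalHom_of_charP`, `resLift`, `resLift_residue` : `ρ0 : 𝒪[F0] →+* k` factors through `𝓀[F0]`;
* `liftU` : a family `k → PadicAlgCl p` with values of norm one in `K`, as a family `k → 𝒪[K]ˣ`.

Exit: `card_le_of_cntAbs`.
-/

set_option autoImplicit false

open scoped NNReal NormedField Valued
open IsLocalRing
open Fermat.Agent.CFT.Local.NormedLocal Fermat.Agent.CFT.Local.PadicExt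

namespace Fermat.Agent.S56.LF.OKInst

open Fermat.Agent.S56.Flat (Gp)

section Generic

variable {K : Type*} [NontriviallyNormedField K] [IsUltrametricDist K]

/-- The maximal ideal of `𝒪[K]` is the open unit ball. -/
theorem mem_maximalIdeal_iff_norm_lt (x : 𝒪[K]) : x ∈ 𝓂[K] ↔ ‖(x : K)‖ < 1 := by
  rw [IsLocalRing.mem_maximalIdeal, mem_nonunits_iff, Valued.integer.isUnit_iff_norm_eq_one]
  have h1 : ‖(x : K)‖ ≤ 1 := Valued.integer.mem_iff.mp x.2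
  constructor
  · intro h
    exact lt_of_le_of_ne h1 h
  · intro h
    exact h.ne

/-- Two integers of the same norm differ by a unit. -/
theorem exists_unit_of_norm_eq {x y : 𝒪[K]} (h : ‖(x : K)‖ = ‖(y : K)‖) :
    ∃ u : 𝒪[K]ˣ, x = y * u := by
  have h1 : Ideal.span {y} = Ideal.span {x} := by
    apply le_antisymm
    · rw [Ideal.span_singleton_le_iff_mem]
      exact LevelBound.mem_span_singleton_iff_norm_le.mpr h.ge
    · rw [Ideal.span_singleton_le_iff_mem]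
      exact LevelBound.mem_span_singleton_iff_norm_le.mpr h.le
  obtain ⟨u, hu⟩ := Ideal.span_singleton_eq_span_singleton.mp h1
  exact ⟨u, hu.symm⟩

/-- Transport of a bound `c ≤ m ^ ([P] + N)` along `P ↔ Q`. -/
theorem le_pow_if_congr {P Q : Prop} {dP : Decidable P} {dQ : Decidable Q} (h : P ↔ Q)
    {c m N : ℕ} (hk : c ≤ m ^ ((@ite ℕ P dP 1 0) + N)) : c ≤ m ^ ((@ite ℕ Q dQ 1 0) + N) := by
  by_cases hq : Q
  · have hp : P := h.mpr hq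
    rw [if_pos hq]
    rwa [if_pos hp] at hk
  · have hp : ¬ P := fun hp => hq (h.mp hp)
    rw [if_neg hq]
    rwa [if_neg hp] at hk

end Generic

section Padic

variable {p : ℕ} [Fact p.Prime]

/-! ### Norm of `p` -/

theorem norm_natCast_p : ‖(p : PadicAlgCl p)‖ = (p : ℝ)⁻¹ := by
  rw [← map_natCast (algebraMap ℚ_[p] (PadicAlgCl p)) p, norm_algebraMap']
  exact Padic.norm_p

theorem norm_natCast_p_lt_one : ‖(p : PadicAlgCl p)‖ < 1 := by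
  rw [norm_natCast_p]
  have hp : (1 : ℝ) < p := by exact_mod_cast (Fact.out : p.Prime).one_lt
  exact inv_lt_one_of_one_lt₀ hp

theorem norm_natCast_p_pos : 0 < ‖(p : PadicAlgCl p)‖ := by
  rw [norm_natCast_p]
  have hp : (0 : ℝ) < p := by exact_mod_cast (Fact.out : p.Prime).pos
  exact inv_pos.mpr hp

/-- `‖y - 1‖ ≤ ‖p‖` forces `‖y‖ = 1`. -/
theorem norm_eq_one_of_sub_one_le {y : PadicAlgCl p} (hy : ‖y - 1‖ ≤ ‖(p : PadicAlgCl p)‖) :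
    ‖y‖ = 1 := by
  have h1 : ‖y - 1‖ < 1 := lt_of_le_of_lt hy norm_natCast_p_lt_one
  have h2 := LevelBound.norm_one_add_eq_one h1
  rwa [add_sub_cancel] at h2

/-- A root of unity of order `p` has norm one. -/
theorem norm_eq_one_of_isPrimitiveRoot {ζ : PadicAlgCl p} (hζ : IsPrimitiveRoot ζ p) :
    ‖ζ‖ = 1 := by
  have h1 : ‖ζ‖ ^ p = 1 := by rw [← norm_pow, hζ.pow_eq_one, norm_one]
  exact (pow_eq_one_iff_of_nonneg (norm_nonneg ζ) (Fact.out : p.Prime).ne_zero).mp h1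

/-- If `u * w ^ p` has norm one with `‖u‖ = 1` then `‖w‖ = 1`. -/
theorem norm_eq_one_of_mul_pow {u w v : PadicAlgCl p} (hu : ‖u‖ = 1) (hv : ‖v‖ = 1)
    (h : v = u * w ^ p) : ‖w‖ = 1 := by
  have h4 : ‖w‖ ^ p = 1 := by
    have h5 := congrArg norm h
    rw [norm_mul, hu, hv, one_mul, norm_pow] at h5
    exact h5.symm
  exact (pow_eq_one_iff_of_nonneg (norm_nonneg w) (Fact.out : p.Prime).ne_zero).mp h4

/-! ### The coercions `𝒪[K] → ℚ̄_p`, `𝒪[K]ˣ → ℚ̄_p` -/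

/-- The coercion `𝒪[K] → ℚ̄_p` as a ring homomorphism. -/
noncomputable def coeHom (K : IntermediateField ℚ_[p] (PadicAlgCl p)) : 𝒪[K] →+* PadicAlgCl p :=
  (algebraMap K (PadicAlgCl p)).comp (Subring.subtype 𝒪[K])

theorem coeHom_apply (K : IntermediateField ℚ_[p] (PadicAlgCl p)) (x : 𝒪[K]) :
    coeHom K x = ((x : K) : PadicAlgCl p) := rfl

theorem coeHom_injective (K : IntermediateField ℚ_[p] (PadicAlgCl p)) :
    Function.Injective (coeHom K) := by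
  intro x y h
  exact Subtype.ext (Subtype.ext h)

theorem coeHom_mem (K : IntermediateField ℚ_[p] (PadicAlgCl p)) (x : 𝒪[K]) : coeHom K x ∈ K :=
  (x : K).2

theorem norm_coeHom_le_one (K : IntermediateField ℚ_[p] (PadicAlgCl p)) (x : 𝒪[K]) :
    ‖coeHom K x‖ ≤ 1 :=
  Valued.integer.mem_iff.mp x.2

theorem coeHom_natCast (K : IntermediateField ℚ_[p] (PadicAlgCl p)) (n : ℕ) :
    coeHom K (n : 𝒪[K]) = (n : PadicAlgCl p) :=
  map_natCast (coeHom K) n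

/-- An element of `K` of norm at most one, as an element of `𝒪[K]`. -/
def mkO (K : IntermediateField ℚ_[p] (PadicAlgCl p)) (x : PadicAlgCl p) (hxK : x ∈ K)
    (hx : ‖x‖ ≤ 1) : 𝒪[K] :=
  ⟨⟨x, hxK⟩, Valued.integer.mem_iff.mpr hx⟩

theorem coeHom_mkO (K : IntermediateField ℚ_[p] (PadicAlgCl p)) (x : PadicAlgCl p) (hxK : x ∈ K)
    (hx : ‖x‖ ≤ 1) : coeHom K (mkO K x hxK hx) = x := rfl

theorem mem_maximalIdeal_iff (K : IntermediateField ℚ_[p] (PadicAlgCl p)) (x : 𝒪[K]) :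
    x ∈ 𝓂[K] ↔ ‖coeHom K x‖ < 1 :=
  mem_maximalIdeal_iff_norm_lt x

theorem mem_span_singleton_iff (K : IntermediateField ℚ_[p] (PadicAlgCl p)) (x a : 𝒪[K]) :
    x ∈ Ideal.span {a} ↔ ‖coeHom K x‖ ≤ ‖coeHom K a‖ :=
  LevelBound.mem_span_singleton_iff_norm_le

theorem isUnit_iff (K : IntermediateField ℚ_[p] (PadicAlgCl p)) (x : 𝒪[K]) :
    IsUnit x ↔ ‖coeHom K x‖ = 1 :=
  Valued.integer.isUnit_iff_norm_eq_one

/-- The coercion `𝒪[K]ˣ → ℚ̄_p` as a monoid homomorphism. -/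
noncomputable def coeU (K : IntermediateField ℚ_[p] (PadicAlgCl p)) : 𝒪[K]ˣ →* PadicAlgCl p :=
  ((coeHom K : 𝒪[K] →+* PadicAlgCl p) : 𝒪[K] →* PadicAlgCl p).comp (Units.coeHom 𝒪[K])

theorem coeU_apply (K : IntermediateField ℚ_[p] (PadicAlgCl p)) (u : 𝒪[K]ˣ) :
    coeU K u = coeHom K (u : 𝒪[K]) := rfl

theorem coeU_injective (K : IntermediateField ℚ_[p] (PadicAlgCl p)) :
    Function.Injective (coeU K) := by
  intro u v h
  exact Units.ext (coeHom_injective K h)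

theorem coeU_mem (K : IntermediateField ℚ_[p] (PadicAlgCl p)) (u : 𝒪[K]ˣ) : coeU K u ∈ K :=
  coeHom_mem K (u : 𝒪[K])

theorem norm_coeU (K : IntermediateField ℚ_[p] (PadicAlgCl p)) (u : 𝒪[K]ˣ) : ‖coeU K u‖ = 1 :=
  Valued.integer.norm_coe_unit u

/-- An element of `K` of norm one, as a unit of `𝒪[K]`. -/
noncomputable def mkU (K : IntermediateField ℚ_[p] (PadicAlgCl p)) (y : PadicAlgCl p)
    (hyK : y ∈ K) (hy : ‖y‖ = 1) : 𝒪[K]ˣ :=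
  ((isUnit_iff K (mkO K y hyK hy.le)).mpr hy).unit

theorem coeU_mkU (K : IntermediateField ℚ_[p] (PadicAlgCl p)) (y : PadicAlgCl p)
    (hyK : y ∈ K) (hy : ‖y‖ = 1) : coeU K (mkU K y hyK hy) = y := rfl

open Classical in
/-- A map `k → ℚ̄_p`, read as a map `k → 𝒪[K]ˣ` (value `1` where the value is not a norm-one
element of `K`). -/
noncomputable def liftU (K : IntermediateField ℚ_[p] (PadicAlgCl p)) {k : Type*}
    (h : k → PadicAlgCl p) (x : k) : 𝒪[K]ˣ :=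
  if hx : h x ∈ K ∧ ‖h x‖ = 1 then mkU K (h x) hx.1 hx.2 else 1

theorem coeU_liftU (K : IntermediateField ℚ_[p] (PadicAlgCl p)) {k : Type*}
    (h : k → PadicAlgCl p) (x : k) (hx : h x ∈ K ∧ ‖h x‖ = 1) : coeU K (liftU K h x) = h x := by
  unfold liftU
  rw [dif_pos hx]
  rfl

/-! ### Inclusions and residue fields -/

/-- The inclusion `𝒪[E] → 𝒪[L]` for `E ≤ L`. -/
noncomputable def inclO {E L : IntermediateField ℚ_[p] (PadicAlgCl p)} (h : E ≤ L) :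
    𝒪[E] →+* 𝒪[L] where
  toFun x := mkO L (coeHom E x) (h (coeHom_mem E x)) (norm_coeHom_le_one E x)
  map_one' := rfl
  map_mul' _ _ := rfl
  map_zero' := rfl
  map_add' _ _ := rfl

theorem coeHom_inclO {E L : IntermediateField ℚ_[p] (PadicAlgCl p)} (h : E ≤ L) (x : 𝒪[E]) :
    coeHom L (inclO h x) = coeHom E x := rfl

instance isLocalHom_inclO {E L : IntermediateField ℚ_[p] (PadicAlgCl p)} (h : E ≤ L) :
    IsLocalHom (inclO h) := by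
  constructor
  intro x hx
  rw [isUnit_iff] at hx ⊢
  exact hx

/-- The map of residue fields induced by `E ≤ L`. -/
noncomputable def resMap {E L : IntermediateField ℚ_[p] (PadicAlgCl p)} (h : E ≤ L) :
    𝓀[E] →+* 𝓀[L] :=
  ResidueField.map (inclO h)

theorem resMap_residue {E L : IntermediateField ℚ_[p] (PadicAlgCl p)} (h : E ≤ L) (x : 𝒪[E]) :
    resMap h (residue 𝒪[E] x) = residue 𝒪[L] (inclO h x) :=
  ResidueField.map_residue (inclO h) x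

/-- Residue degrees are multiplicative: `|𝓀[E]| = p ^ a`, `|𝓀[L]| = p ^ a'`, `E ≤ L` give
`a ∣ a'`. -/
theorem dvd_of_card {E L : IntermediateField ℚ_[p] (PadicAlgCl p)} [FiniteDimensional ℚ_[p] E]
    [FiniteDimensional ℚ_[p] L] (h : E ≤ L) {a a' : ℕ} (ha : Nat.card 𝓀[E] = p ^ a)
    (ha' : Nat.card 𝓀[L] = p ^ a') : a ∣ a' := by
  let _ : Algebra 𝓀[E] 𝓀[L] := (resMap h).toAlgebra
  have hc : Nat.card 𝓀[L] = Nat.card 𝓀[E] ^ Module.finrank 𝓀[E] 𝓀[L] :=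
    Module.natCard_eq_pow_finrank (K := 𝓀[E]) (V := 𝓀[L])
  rw [ha, ha', ← pow_mul] at hc
  exact ⟨_, Nat.pow_right_injective (Fact.out : p.Prime).two_le hc⟩

/-! ### Uniformiser, `p`, roots of unity -/

/-- A norm-maximal element of norm `< 1` of `K` is a uniformiser of `𝒪[K]`. -/
theorem irreducible_mkO (K : IntermediateField ℚ_[p] (PadicAlgCl p)) [FiniteDimensional ℚ_[p] K]
    {ϖ : PadicAlgCl p} (hϖK : ϖ ∈ K) (hϖ1 : ‖ϖ‖ < 1)
    (hϖmax : ∀ x ∈ K, ‖x‖ < 1 → ‖x‖ ≤ ‖ϖ‖) : Irreducible (mkO K ϖ hϖK hϖ1.le) :=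
  LevelBound.Tower.irreducible_of_norm_max (x := mkO K ϖ hϖK hϖ1.le) hϖ1
    (fun y hy => hϖmax y.1 y.2 hy)

/-- `p = ϖ ^ n * unit` in `𝒪[K]` when `‖ϖ‖ ^ n = ‖p‖`. -/
theorem natCast_eq_pow_mul (K : IntermediateField ℚ_[p] (PadicAlgCl p)) {ϖ : PadicAlgCl p}
    (hϖK : ϖ ∈ K) (hϖ1 : ‖ϖ‖ ≤ 1) {n : ℕ} (he : ‖ϖ‖ ^ n = ‖(p : PadicAlgCl p)‖) :
    ∃ υ : 𝒪[K]ˣ, (p : 𝒪[K]) = mkO K ϖ hϖK hϖ1 ^ n * υ := by
  apply exists_unit_of_norm_eq
  show ‖coeHom K (p : 𝒪[K])‖ = ‖coeHom K (mkO K ϖ hϖK hϖ1 ^ n)‖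
  rw [map_pow, coeHom_mkO, norm_pow, he, coeHom_natCast]

/-- A primitive `p`-th root of unity of `ℚ̄_p` lying in `K` is one of `𝒪[K]`. -/
theorem isPrimitiveRoot_mkO (K : IntermediateField ℚ_[p] (PadicAlgCl p)) {ζ : PadicAlgCl p}
    (hζ : IsPrimitiveRoot ζ p) (hζK : ζ ∈ K) :
    IsPrimitiveRoot (mkO K ζ hζK (norm_eq_one_of_isPrimitiveRoot hζ).le) p :=
  IsPrimitiveRoot.of_map_of_injective (f := coeHom K) hζ (coeHom_injective K)

/-- An element of `K` of norm `< ‖ϖ‖` has norm `≤ ‖ϖ‖ ^ 2` (`ϖ` norm-maximal). -/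
theorem norm_le_sq_of_lt (K : IntermediateField ℚ_[p] (PadicAlgCl p)) {ϖ x : PadicAlgCl p}
    (hϖK : ϖ ∈ K) (hxK : x ∈ K) (hϖmax : ∀ y ∈ K, ‖y‖ < 1 → ‖y‖ ≤ ‖ϖ‖) (h : ‖x‖ < ‖ϖ‖) :
    ‖x‖ ≤ ‖ϖ‖ ^ 2 := by
  have hϖpos : 0 < ‖ϖ‖ := lt_of_le_of_lt (norm_nonneg x) h
  have hy : ‖x / ϖ‖ < 1 := by
    rw [norm_div, div_lt_one hϖpos]
    exact h
  have h2 := hϖmax (x / ϖ) (div_mem hxK hϖK) hy
  rw [norm_div, div_le_iff₀ hϖpos] at h2
  calc ‖x‖ ≤ ‖ϖ‖ * ‖ϖ‖ := h2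
    _ = ‖ϖ‖ ^ 2 := (sq _).symm

/-- Norm `< ‖ϖ‖` means membership in `𝔪 ^ 2`. -/
theorem mem_maximalIdeal_sq (K : IntermediateField ℚ_[p] (PadicAlgCl p))
    [FiniteDimensional ℚ_[p] K] {ϖ : PadicAlgCl p} (hϖK : ϖ ∈ K) (hϖ1 : ‖ϖ‖ < 1)
    (hϖmax : ∀ x ∈ K, ‖x‖ < 1 → ‖x‖ ≤ ‖ϖ‖) (x : 𝒪[K]) (h : ‖coeHom K x‖ < ‖ϖ‖) :
    x ∈ 𝓂[K] ^ 2 := by
  have hm : 𝓂[K] = Ideal.span {mkO K ϖ hϖK hϖ1.le} :=
    (irreducible_mkO K hϖK hϖ1 hϖmax).maximalIdeal_eq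
  have hm2 : 𝓂[K] ^ 2 = Ideal.span {mkO K ϖ hϖK hϖ1.le ^ 2} := by
    rw [hm]
    exact Ideal.span_singleton_pow _ 2
  have h2 : ‖coeHom K x‖ ≤ ‖coeHom K (mkO K ϖ hϖK hϖ1.le ^ 2)‖ := by
    rw [map_pow, coeHom_mkO, norm_pow]
    exact norm_le_sq_of_lt K hϖK (coeHom_mem K x) hϖmax h
  rw [hm2]
  exact (mem_span_singleton_iff K x _).mpr h2

/-! ### The action of `G_{Fb}` on `𝒪[K]` -/

/-- `σ ∈ G_{Fb}` acting on `𝒪[K]`, for `K` stable under `G_{Fb}`. -/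
noncomputable def actFun {Fb K : IntermediateField ℚ_[p] (PadicAlgCl p)}
    (hst : ∀ σ ∈ Fb.fixingSubgroup, ∀ x ∈ K, σ x ∈ K) (σ : ↥Fb.fixingSubgroup) (x : 𝒪[K]) :
    𝒪[K] :=
  mkO K ((σ : Gp p) (coeHom K x)) (hst σ.1 σ.2 _ (coeHom_mem K x))
    ((norm_algEquiv p σ.1 _).le.trans (norm_coeHom_le_one K x))

theorem coeHom_actFun {Fb K : IntermediateField ℚ_[p] (PadicAlgCl p)}
    (hst : ∀ σ ∈ Fb.fixingSubgroup, ∀ x ∈ K, σ x ∈ K) (σ : ↥Fb.fixingSubgroup) (x : 𝒪[K]) :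
    coeHom K (actFun hst σ x) = (σ : Gp p) (coeHom K x) := rfl

/-- The action of `G_{Fb}` on `𝒪[K]` by ring automorphisms.  Use with `letI`. -/
@[reducible] noncomputable def actOK {Fb K : IntermediateField ℚ_[p] (PadicAlgCl p)}
    (hst : ∀ σ ∈ Fb.fixingSubgroup, ∀ x ∈ K, σ x ∈ K) :
    MulSemiringAction ↥Fb.fixingSubgroup 𝒪[K] where
  smul := actFun hst
  one_smul _ := rfl
  mul_smul _ _ _ := rfl
  smul_zero σ := coeHom_injective K (map_zero (σ : Gp p))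
  smul_add σ _ _ := coeHom_injective K (map_add (σ : Gp p) _ _)
  smul_one σ := coeHom_injective K (map_one (σ : Gp p))
  smul_mul σ _ _ := coeHom_injective K (map_mul (σ : Gp p) _ _)

theorem smul_eq_actFun {Fb K : IntermediateField ℚ_[p] (PadicAlgCl p)}
    (hst : ∀ σ ∈ Fb.fixingSubgroup, ∀ x ∈ K, σ x ∈ K) (σ : ↥Fb.fixingSubgroup) (x : 𝒪[K]) :
    (letI := actOK hst; σ • x) = actFun hst σ x := rfl

/-- Norm form of "trivial on the residue field". -/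
theorem actFun_sub_mem_maximalIdeal {Fb K : IntermediateField ℚ_[p] (PadicAlgCl p)}
    (hst : ∀ σ ∈ Fb.fixingSubgroup, ∀ x ∈ K, σ x ∈ K) {τ0 : Gp p} (hτ0 : τ0 ∈ Fb.fixingSubgroup)
    (hτ0r : ∀ x ∈ K, ‖x‖ ≤ 1 → ‖τ0 x - x‖ < 1) (x : 𝒪[K]) :
    actFun hst ⟨τ0, hτ0⟩ x - x ∈ 𝓂[K] := by
  rw [mem_maximalIdeal_iff, map_sub]
  exact hτ0r _ (coeHom_mem K x) (norm_coeHom_le_one K x)

/-- Norm form of "the `n`-th power map on the residue field". -/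
theorem actFun_sub_pow_mem_maximalIdeal {Fb K : IntermediateField ℚ_[p] (PadicAlgCl p)}
    (hst : ∀ σ ∈ Fb.fixingSubgroup, ∀ x ∈ K, σ x ∈ K) {φ : Gp p} (hφ : φ ∈ Fb.fixingSubgroup)
    (n : ℕ) (hφr : ∀ x ∈ K, ‖x‖ ≤ 1 → ‖φ x - x ^ n‖ < 1) (x : 𝒪[K]) :
    actFun hst ⟨φ, hφ⟩ x - x ^ n ∈ 𝓂[K] := by
  rw [mem_maximalIdeal_iff, map_sub, map_pow]
  exact hφr _ (coeHom_mem K x) (norm_coeHom_le_one K x)

/-! ### `ρ0 : 𝒪[F0] →+* k` factors through the residue field -/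

/-- A ring homomorphism from `𝒪[F0]` to a field of characteristic `p` is local. -/
theorem isLocalHom_of_charP (F0 : IntermediateField ℚ_[p] (PadicAlgCl p))
    [FiniteDimensional ℚ_[p] F0] {k : Type*} [Field k] [CharP k p] (ρ0 : 𝒪[F0] →+* k) :
    IsLocalHom ρ0 := by
  have hp0 : (p : 𝒪[F0]) ≠ 0 := by
    intro h
    have h1 : ‖coeHom F0 (p : 𝒪[F0])‖ = 0 := by rw [h, map_zero, norm_zero]
    rw [coeHom_natCast] at h1
    exact norm_natCast_p_pos.ne' h1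
  have hpker : (p : 𝒪[F0]) ∈ RingHom.ker ρ0 := by
    rw [RingHom.mem_ker, map_natCast]
    exact CharP.cast_eq_zero k p
  have hne : RingHom.ker ρ0 ≠ ⊥ := by
    intro h
    rw [h, Ideal.mem_bot] at hpker
    exact hp0 hpker
  have hker : RingHom.ker ρ0 = 𝓂[F0] :=
    IsLocalRing.eq_maximalIdeal ((RingHom.ker_isPrime ρ0).isMaximal hne)
  constructor
  intro x hx
  by_contra hna
  have h1 : x ∈ 𝓂[F0] := (IsLocalRing.mem_maximalIdeal x).mpr (mem_nonunits_iff.mpr hna)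
  rw [← hker, RingHom.mem_ker] at h1
  exact hx.ne_zero h1

/-- `ρ0` on the residue field. -/
noncomputable def resLift (F0 : IntermediateField ℚ_[p] (PadicAlgCl p))
    [FiniteDimensional ℚ_[p] F0] {k : Type*} [Field k] [CharP k p] (ρ0 : 𝒪[F0] →+* k) :
    𝓀[F0] →+* k :=
  haveI := isLocalHom_of_charP F0 ρ0
  ResidueField.lift ρ0

theorem resLift_residue (F0 : IntermediateField ℚ_[p] (PadicAlgCl p))
    [FiniteDimensional ℚ_[p] F0] {k : Type*} [Field k] [CharP k p] (ρ0 : 𝒪[F0] →+* k)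
    (x : 𝒪[F0]) : resLift F0 ρ0 (residue 𝒪[F0] x) = ρ0 x := by
  have := isLocalHom_of_charP F0 ρ0
  exact ResidueField.lift_residue_apply ρ0 x

/-! ### The exit -/

open Classical in
/-- **CNT-abs at `O = 𝒪[K]`, `D = G_{Fb}`, `F = 𝓀[F0]`, in norm form.**  The hypotheses are those
of `Flat.CntFinStatement` (without `χ`); the family `T` consists of maps `h : k → K` with values
`≡ 1` modulo `p`, additive and `ξ`-equivariant modulo `p`-th powers of `K`, pairwise distinct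
modulo `p`-th powers of `K`. -/
theorem card_le_of_cntAbs (hAbs : Flat.CntAbsStatement) (p : ℕ) [Fact p.Prime] (hp2 : p ≠ 2)
    (k : Type) [Field k] [Finite k] [CharP k p]
    (Fb F0 K : IntermediateField ℚ_[p] (PadicAlgCl p)) [FiniteDimensional ℚ_[p] Fb]
    [FiniteDimensional ℚ_[p] F0] [FiniteDimensional ℚ_[p] K]
    (hbF : Fb ≤ F0) (hFK : F0 ≤ K) (hst : ∀ σ ∈ Fb.fixingSubgroup, ∀ x ∈ K, σ x ∈ K)
    (ζ : PadicAlgCl p) (hζ : IsPrimitiveRoot ζ p) (hζK : ζ ∈ K) (a a' e0 : ℕ) (ϖ : PadicAlgCl p)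
    (ha : Nat.card 𝓀[Fb] = p ^ a) (ha' : Nat.card 𝓀[F0] = p ^ a') (hϖK : ϖ ∈ K) (hϖ1 : ‖ϖ‖ < 1)
    (hϖmax : ∀ x ∈ K, ‖x‖ < 1 → ‖x‖ ≤ ‖ϖ‖)
    (he : ‖ϖ‖ ^ (e0 * (p - 1)) = ‖(p : PadicAlgCl p)‖) (ρ0 : 𝒪[F0] →+* k) (ξ : Gp p → kˣ)
    (hξ : ∀ σ ∈ Fb.fixingSubgroup, ∀ τ ∈ Fb.fixingSubgroup, ξ (σ * τ) = ξ σ * ξ τ)
    (τ0 φ : Gp p) (z : 𝒪[F0]) (hτ0 : τ0 ∈ Fb.fixingSubgroup) (hφ : φ ∈ Fb.fixingSubgroup)
    (hτ0r : ∀ x ∈ K, ‖x‖ ≤ 1 → ‖τ0 x - x‖ < 1)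
    (hφr : ∀ x ∈ K, ‖x‖ ≤ 1 → ‖φ x - x ^ (p ^ a)‖ < 1)
    (hτ0ϖ : ‖τ0 ϖ - ((z : F0) : PadicAlgCl p) * ϖ‖ < ‖ϖ‖)
    (T : Finset (k → PadicAlgCl p))
    (hT : ∀ h ∈ T, (∀ x, h x ∈ K ∧ ‖h x - 1‖ ≤ ‖(p : PadicAlgCl p)‖) ∧
      (∀ x y, ∃ w ∈ K, h (x + y) = h x * h y * w ^ p) ∧
      (∀ σ ∈ Fb.fixingSubgroup, ∀ x, ∃ w ∈ K, h (((ξ σ : kˣ) : k) * x) = σ (h x) * w ^ p))
    (hinj : ∀ h ∈ T, ∀ h' ∈ T, (∀ x, ∃ w ∈ K, h x = h' x * w ^ p) → h = h') :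
    T.card ≤ Nat.card k ^
      ((if ∀ σ ∈ Fb.fixingSubgroup, ∀ n : ℕ, σ ζ = ζ ^ n → ((ξ σ : kˣ) : k) = n then 1 else 0) +
        Nat.card {nj : ℕ × ℕ // 1 ≤ nj.1 ∧ nj.1 ≤ e0 ∧ ¬ p ∣ nj.1 ∧ nj.2 < a' ∧
          ρ0 z ^ ((p * e0 - nj.1) * p ^ nj.2) = ((ξ τ0 : kˣ) : k)}) := by
  let _ : MulSemiringAction ↥Fb.fixingSubgroup 𝒪[K] := actOK hst
  have hdvd : a ∣ a' := dvd_of_card hbF ha ha'
  have hirr : Irreducible (mkO K ϖ hϖK hϖ1.le) := irreducible_mkO K hϖK hϖ1 hϖmax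
  obtain ⟨υ, hυ⟩ := natCast_eq_pow_mul K hϖK hϖ1.le he
  have he0 : 0 < e0 := by
    rcases Nat.eq_zero_or_pos e0 with h | h
    · exfalso
      rw [h, zero_mul, pow_zero] at he
      exact norm_natCast_p_lt_one.ne he.symm
    · exact h
  have hζ' := isPrimitiveRoot_mkO K hζ hζK
  let ξ' : ↥Fb.fixingSubgroup →* kˣ :=
    MonoidHom.mk' (fun σ => ξ σ.1) (fun σ τ => hξ σ.1 σ.2 τ.1 τ.2)
  have hTn : ∀ h ∈ T, ∀ x, h x ∈ K ∧ ‖h x‖ = 1 := fun h hh x =>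
    ⟨((hT h hh).1 x).1, norm_eq_one_of_sub_one_le ((hT h hh).1 x).2⟩
  have hcoU : ∀ h ∈ T, ∀ x, coeU K (liftU K h x) = h x := fun h hh x =>
    coeU_liftU K h x (hTn h hh x)
  have hcard : (T.image (liftU K)).card = T.card := by
    apply Finset.card_image_of_injOn
    intro h hh h' hh' heq
    funext x
    have h5 := congrArg (coeU K) (congrFun heq x)
    rw [hcoU h (Finset.mem_coe.mp hh) x, hcoU h' (Finset.mem_coe.mp hh') x] at h5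
    exact h5
  have key := hAbs p hp2 𝒪[K] ↥Fb.fixingSubgroup k 𝓀[F0] a a' hdvd ha' (resLift F0 ρ0)
    (resMap hFK) (mkO K ϖ hϖK hϖ1.le) hirr e0 υ he0 hυ
    (mkO K ζ hζK (norm_eq_one_of_isPrimitiveRoot hζ).le) hζ' ξ' ⟨τ0, hτ0⟩ ⟨φ, hφ⟩
    (residue 𝒪[F0] z) (inclO hFK z)
    (fun x => actFun_sub_mem_maximalIdeal hst hτ0 hτ0r x)
    (fun x => actFun_sub_pow_mem_maximalIdeal hst hφ (p ^ a) hφr x)
    (resMap_residue hFK z).symm
    (mem_maximalIdeal_sq K hϖK hϖ1 hϖmax _ hτ0ϖ)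
    (T.image (liftU K)) ?_ ?_
  · rw [hcard, resLift_residue] at key
    refine le_pow_if_congr ?_ key
    constructor
    · intro H σ hσ n hn
      exact H ⟨σ, hσ⟩ n (coeHom_injective K (by rw [map_pow]; exact hn))
    · intro H σ n hn
      have h5 := congrArg (coeHom K) hn
      rw [map_pow] at h5
      exact H σ.1 σ.2 n h5
  · intro g hg
    obtain ⟨h, hhT, rfl⟩ := Finset.mem_image.mp hg
    obtain ⟨h1, h2, h3⟩ := hT h hhT
    refine ⟨fun x => ?_, fun x y => ?_, fun σ x => ?_⟩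
    · rw [mem_span_singleton_iff, map_sub, map_one, coeHom_natCast, ← coeU_apply, hcoU h hhT x]
      exact (h1 x).2
    · obtain ⟨w, hwK, hw⟩ := h2 x y
      have hw1 : ‖w‖ = 1 := by
        refine norm_eq_one_of_mul_pow (u := h x * h y) ?_ (hTn h hhT (x + y)).2 hw
        rw [norm_mul, (hTn h hhT x).2, (hTn h hhT y).2, one_mul]
      refine ⟨mkU K w hwK hw1, ?_⟩
      apply coeU_injective K
      rw [map_mul, map_mul, map_pow, hcoU h hhT (x + y), hcoU h hhT x, hcoU h hhT y, coeU_mkU]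
      exact hw
    · obtain ⟨w, hwK, hw⟩ := h3 σ.1 σ.2 x
      have hw1 : ‖w‖ = 1 := by
        refine norm_eq_one_of_mul_pow (u := σ.1 (h x)) ?_ (hTn h hhT _).2 hw
        rw [norm_algEquiv p σ.1, (hTn h hhT x).2]
      refine ⟨mkU K w hwK hw1, ?_⟩
      apply coeHom_injective K
      rw [map_mul, map_pow, ← coeU_apply, ← coeU_apply, coeU_mkU]
      have e1 : coeU K (liftU K h (((ξ' σ : kˣ) : k) * x)) = h (((ξ σ.1 : kˣ) : k) * x) :=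
        hcoU h hhT _
      have e2 : coeHom K (σ • ((liftU K h x : 𝒪[K]ˣ) : 𝒪[K])) = σ.1 (h x) := by
        rw [← hcoU h hhT x]
        rfl
      rw [e1, e2]
      exact hw
  · intro g hg g' hg' hgg
    obtain ⟨h, hhT, rfl⟩ := Finset.mem_image.mp hg
    obtain ⟨h', hhT', rfl⟩ := Finset.mem_image.mp hg'
    have hh : h = h' := hinj h hhT h' hhT' (fun x => by
      obtain ⟨w, hw⟩ := hgg x
      refine ⟨coeU K w, coeU_mem K w, ?_⟩
      have h5 := congrArg (coeU K) hw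
      rw [map_mul, map_pow, hcoU h hhT x, hcoU h' hhT' x] at h5
      exact h5)
    rw [hh]

end Padic

end Fermat.Agent.S56.LF.OKInst
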