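import Mathlib
import Fermat.Agent.S56.LF.CntField
import Fermat.Agent.S56.LF.OKInst
import Fermat.Agent.S56.Flat.CntAbsExit

/-!
# S56 / LF row C3 (field half), exit: `Flat.CntFinStatement` is a theorem

Composition of the three landed pieces (text of helper65, compiled and landed by helper245):

* `Flat.CntAbs.cntAbsStatement : Flat.CntAbsStatement` (helper78, `Flat/CntAbsExit.lean`);
* `OKInst.card_le_of_cntAbs` (helper245, `LF/OKInst.lean`): CNT-abs at `𝒪[K]`, norm form,
  i.e. `Flat.CntAbsStatement → CntField.OKSeam`;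
* `CntField.cntFin_of_seam : CntField.OKSeam → Flat.CntFinStatement` (helper65,
  `LF/CntField.lean`).
-/

set_option autoImplicit false

namespace Fermat.Agent.S56.LF.CntFieldExit

open Fermat.Agent.S56 Fermat.Agent.S56.LF

/-- **CNT, finite form, from CNT-abs.** -/
theorem cntFin (hAbs : Flat.CntAbsStatement) : Flat.CntFinStatement :=
  CntField.cntFin_of_seam (fun p _ hp2 k _ _ _ Fb F0 K _ _ _ hbF hFK hst ζ hζ hζK a a' e0 ϖ ha ha'
    hϖK hϖ1 hϖmax he ρ0 ξ hξ τ0 φ z hτ0 hφ hτ0r hφr hτ0ϖ T hT hinj =>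
    OKInst.card_le_of_cntAbs hAbs p hp2 k Fb F0 K hbF hFK hst ζ hζ hζK a a' e0 ϖ ha ha' hϖK hϖ1
      hϖmax he ρ0 ξ hξ τ0 φ z hτ0 hφ hτ0r hφr hτ0ϖ T hT hinj)

/-- **`Flat.CntFinStatement` (row C3, field half) is a theorem.** -/
theorem cntFinStatement : Flat.CntFinStatement := cntFin Flat.CntAbs.cntAbsStatement

end Fermat.Agent.S56.LF.CntFieldExit
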