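import Mathlib
import Fermat.Agent.S56.Flat.LocalBricks
import Fermat.Agent.S56.LF.FlatRigid
import Fermat.Agent.S56.LF.InertiaUr

/-!
# S56 / LF: `Flat.FlatRigidStatement` is proved

The closer of the row Prop `Flat.FlatRigidStatement` of `Flat/LocalBricks.lean`:
`FlatRigid.flatRigid` (flat points give the rigid subgroup `X0`) with its one open leaf `hUr`
discharged by `InertiaUr.exists_eq_mul_of_norm_fixed` (row B3).
-/

set_option autoImplicit false

namespace Fermat.Agent.S56.LF.FlatRigidExit

open Fermat.Agent.S56

/-- **FlatRigid**: the row Prop of `Flat/LocalBricks.lean`. -/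
theorem flatRigidStatement : Flat.FlatRigidStatement :=
  fun p _ hp2 X _ act hpX hflat =>
    FlatRigid.flatRigid p hp2 (InertiaUr.exists_eq_mul_of_norm_fixed p) X act hpX hflat

end Fermat.Agent.S56.LF.FlatRigidExit
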