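import Mathlib
import Fermat.Agent.S56.Flat.LocalBricks
import Fermat.Agent.S56.LF.LGKeyTwin

/-!
# S56 / LF, row LG (twin of LGFrob): Frobenius elements at a finite level

`E ≤ M` finite extensions of `ℚ_p` inside `ℚ̄_p = PadicAlgCl p`, `Q := Nat.card 𝓀[E]`.  There is
`s ∈ G_E` with `s x ≡ x ^ Q` on the integers of `M`, such that every `σ ∈ G_E` agrees on `M` with
`s ^ j * τ`, `τ ∈ G_E` inertial (`lgFrob`, the body of `Flat.LGFrobStatement`).

Proof.  `n := f(M/E)`, so that `Nat.card 𝓀[M] = Q ^ n`; every root of unity of order prime to `p`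
in `M` has order dividing `Q ^ n - 1` (`pow_card_pow_sub_one_eq_one`).  Take for `s` a Frobenius of
`E` at level `n` (`UnramPadic.exists_frobenius_roots`): it raises these roots to the `Q`-th power,
hence is `x ↦ x ^ Q` modulo the maximal ideal on `M` (Teichmüller representatives inside
`ℚ_p(x)`), and every `σ ∈ G_E` acts on them as some `s ^ j`; then `(s ^ j)⁻¹ * σ` fixes the tame
roots of unity of `M` and `LGKeyTwin.lgKey` applies.
-/

set_option autoImplicit false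

namespace Fermat.Agent.S56.LF.LGFrobTwin

open scoped NNReal NormedField Valued IntermediateField
open IsLocalRing Fermat.Agent.CFT.Local Fermat.Agent.CFT.Local.NormedLocal
  Fermat.Agent.CFT.Local.PadicExt Fermat.Agent.CFT.Local.UnramPadic
open Fermat.Agent.S56.LF.InertiaUr

variable {p : ℕ} [Fact p.Prime]

/-- Congruent integral elements have congruent powers. -/
lemma norm_pow_sub_pow_lt_one {x y : PadicAlgCl p} (hx : ‖x‖ ≤ 1) (hy : ‖y‖ ≤ 1)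
    (h : ‖x - y‖ < 1) (n : ℕ) : ‖x ^ n - y ^ n‖ < 1 := by
  induction n with
  | zero => simp
  | succ n ih =>
    have e : x ^ (n + 1) - y ^ (n + 1) = (x ^ n - y ^ n) * x + y ^ n * (x - y) := by ring
    rw [e]
    refine lt_of_le_of_lt (IsUltrametricDist.norm_add_le_max _ _) (max_lt ?_ ?_)
    · rw [norm_mul]
      calc ‖x ^ n - y ^ n‖ * ‖x‖ ≤ ‖x ^ n - y ^ n‖ * 1 :=
            mul_le_mul_of_nonneg_left hx (norm_nonneg _)
        _ < 1 := by rw [mul_one]; exact ih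
    · rw [norm_mul, norm_pow]
      calc ‖y‖ ^ n * ‖x - y‖ ≤ 1 * ‖x - y‖ :=
            mul_le_mul_of_nonneg_right (pow_le_one₀ (norm_nonneg _) hy) (norm_nonneg _)
        _ < 1 := by rw [one_mul]; exact h

/-- A root of unity of order prime to `p` which is congruent to `1` is `1`. -/
lemma eq_one_of_pow_eq_one_of_norm_sub_lt {m : ℕ} (hm : m.Coprime p) {η : PadicAlgCl p}
    (hη : η ^ m = 1) (h : ‖η - 1‖ < 1) : η = 1 := by
  have hm0 : m ≠ 0 := ne_zero_of_coprime hm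
  obtain ⟨n0, hn0, c, hc⟩ :=
    exists_dvd_card_pow_sub_one (⊥ : IntermediateField ℚ_[p] (PadicAlgCl p)) hm0 hm
  have hζ := isPrimitiveRoot_zeta (⊥ : IntermediateField ℚ_[p] (PadicAlgCl p)) hn0
  have hne0 := rootOrder_ne_zero (⊥ : IntermediateField ℚ_[p] (PadicAlgCl p)) hn0
  unfold rootOrder at hne0
  rw [card_residueField_bot] at hζ hc hne0
  have hζ' : IsPrimitiveRoot (zeta (⊥ : IntermediateField ℚ_[p] (PadicAlgCl p)) n0)
      (Nat.card 𝓀[ℚ_[p]] ^ n0 - 1) := by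
    rw [card_residueField_padicBase]; exact hζ
  have hη' : η ^ (p ^ n0 - 1) = 1 := by rw [hc, pow_mul, hη, one_pow]
  have hne : NeZero (p ^ n0 - 1) := ⟨hne0⟩
  obtain ⟨a, -, ha⟩ := hζ.eq_pow_of_pow_eq_one hη'
  rw [← ha] at h ⊢
  exact Unramified.pow_eq_one_of_norm_lt (K := ℚ_[p]) hn0 hζ' h

/-- The roots of unity of order prime to `p` in a finite `M` have order dividing
`Nat.card 𝓀[M] - 1`. -/
lemma pow_card_sub_one_eq_one (M : IntermediateField ℚ_[p] (PadicAlgCl p))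
    [FiniteDimensional ℚ_[p] M] {m : ℕ} (hm : m.Coprime p) {ξ : PadicAlgCl p} (hξM : ξ ∈ M)
    (hξ : ξ ^ m = 1) : ξ ^ (Nat.card 𝓀[M] - 1) = 1 := by
  have hm0 : m ≠ 0 := ne_zero_of_coprime hm
  have hξ1 : ‖ξ‖ = 1 := Unramified.norm_root_eq_one hm0 hξ
  let ξ' : M := ⟨ξ, hξM⟩
  have hξ' : ξ' ∈ 𝒪[M] := Valued.integer.mem_iff.mpr hξ1.le
  let ξO : 𝒪[M] := ⟨ξ', hξ'⟩
  let _ := Fintype.ofFinite 𝓀[M]
  have hunit : IsUnit ξO := Valued.integer.isUnit_iff_norm_eq_one.mpr hξ1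
  have hres0 : IsLocalRing.residue 𝒪[M] ξO ≠ 0 := by
    rw [Ne, IsLocalRing.residue_eq_zero_iff, IsLocalRing.mem_maximalIdeal, mem_nonunits_iff]
    exact not_not.mpr hunit
  have hpow : IsLocalRing.residue 𝒪[M] (ξO ^ (Nat.card 𝓀[M] - 1)) =
      IsLocalRing.residue 𝒪[M] 1 := by
    rw [map_pow, map_one, Nat.card_eq_fintype_card]
    exact FiniteField.pow_card_sub_one_eq_one _ hres0
  have hlt : ‖((ξO ^ (Nat.card 𝓀[M] - 1) : 𝒪[M]) : M) - ((1 : 𝒪[M]) : M)‖ < 1 :=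
    (Unramified.residue_eq_iff_norm_sub_lt_one _ _).mp hpow
  have hlt' : ‖ξ ^ (Nat.card 𝓀[M] - 1) - 1‖ < 1 := hlt
  exact eq_one_of_pow_eq_one_of_norm_sub_lt hm
    (by rw [← pow_mul, mul_comm, pow_mul, hξ, one_pow]) hlt'

/-- **LG-Frobenius** (the body of `Flat.LGFrobStatement`). -/
theorem lgFrob (p : ℕ) [Fact p.Prime] (E M : IntermediateField ℚ_[p] (PadicAlgCl p))
    [FiniteDimensional ℚ_[p] E] [FiniteDimensional ℚ_[p] M] (hEM : E ≤ M) :
    ∃ s : PadicAlgCl p ≃ₐ[ℚ_[p]] PadicAlgCl p, s ∈ E.fixingSubgroup ∧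
      (∀ x ∈ M, ‖x‖ ≤ 1 → ‖s x - x ^ Nat.card 𝓀[E]‖ < 1) ∧
      ∀ σ ∈ E.fixingSubgroup, ∃ (j : ℕ) (τ : PadicAlgCl p ≃ₐ[ℚ_[p]] PadicAlgCl p),
        (∀ x : PadicAlgCl p, ‖x‖ ≤ 1 → ‖τ x - x‖ < 1) ∧ τ ∈ E.fixingSubgroup ∧
        ∀ x ∈ M, σ x = (s ^ j) (τ x) := by
  let _ := normedAlgebraOfLE hEM
  have hn : 0 < (𝓂[M]).inertiaDeg 𝒪[E] := inertiaDeg_pos_of_le hEM
  have hcard : Nat.card 𝓀[M] = Nat.card 𝓀[E] ^ (𝓂[M]).inertiaDeg 𝒪[E] :=
    card_residueField_of_le hEM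
  have hQ1 : 1 < Nat.card 𝓀[E] := Unramified.one_lt_card_residueField (K := E)
  -- the tame roots of unity of `M` have order dividing `Q ^ n - 1`
  have hroot : ∀ ξ ∈ M, ∀ m : ℕ, m.Coprime p → ξ ^ m = 1 →
      ξ ^ (Nat.card 𝓀[E] ^ (𝓂[M]).inertiaDeg 𝒪[E] - 1) = 1 := by
    intro ξ hξM m hm hξ
    rw [← hcard]
    exact pow_card_sub_one_eq_one M hm hξM hξ
  obtain ⟨s, hsE, hs, hall⟩ := exists_frobenius_roots E hn
  refine ⟨s, hsE, ?_, ?_⟩
  · intro x hxM hx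
    obtain ⟨m, ζ, hm, hζmem, hζ, hlt⟩ := exists_root_norm_sub_lt hx
    have hle : ℚ_[p]⟮x⟯ ≤ M := IntermediateField.adjoin_simple_le_iff.mpr hxM
    have hζM : ζ ∈ M := hle hζmem
    have hζ1 : ‖ζ‖ ≤ 1 := by
      rcases hζ with rfl | hζ
      · rw [norm_zero]; exact zero_le_one
      · exact (Unramified.norm_root_eq_one (ne_zero_of_coprime hm) hζ).le
    have hsζ : s ζ = ζ ^ Nat.card 𝓀[E] := by
      rcases hζ with rfl | hζ
      · rw [map_zero, zero_pow (by omega)]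
      · exact hs ζ (hroot ζ hζM m hm hζ)
    have e : s x - x ^ Nat.card 𝓀[E] =
        s (x - ζ) + -(x ^ Nat.card 𝓀[E] - ζ ^ Nat.card 𝓀[E]) := by
      rw [map_sub, hsζ]; ring
    rw [e]
    refine lt_of_le_of_lt (IsUltrametricDist.norm_add_le_max _ _) (max_lt ?_ ?_)
    · rw [norm_algEquiv p s]; exact hlt
    · rw [norm_neg]; exact norm_pow_sub_pow_lt_one hx hζ1 hlt _
  · intro σ hσE
    obtain ⟨j, -, hj⟩ := hall σ hσE
    have hρ : ∀ ξ ∈ M, ∀ m : ℕ, m.Coprime p → ξ ^ m = 1 → ((s ^ j)⁻¹ * σ) ξ = ξ := by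
      intro ξ hξM m hm hξ
      rw [AlgEquiv.mul_apply, hj ξ (hroot ξ hξM m hm hξ)]
      exact (s ^ j).symm_apply_apply ξ
    obtain ⟨τ, hτ, hτM⟩ := LGKeyTwin.lgKey p M ((s ^ j)⁻¹ * σ) hρ
    have hsjE : (s ^ j)⁻¹ * σ ∈ E.fixingSubgroup :=
      Subgroup.mul_mem _ (Subgroup.inv_mem _ (Subgroup.pow_mem _ hsE j)) hσE
    refine ⟨j, τ, hτ, ?_, fun x hxM => ?_⟩
    · rw [IntermediateField.mem_fixingSubgroup_iff]
      intro e he
      rw [← hτM e (hEM he)]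
      exact (IntermediateField.mem_fixingSubgroup_iff _ _).mp hsjE e he
    · rw [← hτM x hxM, AlgEquiv.mul_apply]
      exact ((s ^ j).apply_symm_apply (σ x)).symm

/-- **LG-Frobenius**: the row Prop of `Flat/LocalBricks.lean`. -/
theorem lgFrobStatement : Fermat.Agent.S56.Flat.LGFrobStatement :=
  fun p _ E M _ _ hEM => by
    obtain ⟨s, hsE, hs, hall⟩ := lgFrob p E M hEM
    exact ⟨s, hsE, hs, fun σ hσ => by
      obtain ⟨j, τ, hτ, hτE, hτM⟩ := hall σ hσ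
      exact ⟨j, τ, hτ, hτE, hτM⟩⟩

end Fermat.Agent.S56.LF.LGFrobTwin
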