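import Mathlib
import Fermat.Agent.CFT.Local.UnramPadicAbs
import Fermat.Agent.S56.Flat.Defs
import Fermat.Agent.S56.LF.WildFin

/-!
# S56 / LF, row LG (local Galois basics): the tame character and `LGWild`

`M` is a finite normal extension of `ℚ_p` inside `ℚ̄_p = PadicAlgCl p`.

* `mem_wildAt_of_uniformizer` : an element of `inertiaAt M` which moves ONE uniformiser `ϖ` of
  `M` by less than `‖ϖ‖` is wild on `M`;
* `tame M : ↥(inertiaAt M) →* 𝓀[M]ˣ` : the tame character `τ ↦ res(τ ϖ / ϖ)` (for the chosen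
  uniformiser `unif M`), with `tame_eq_one_iff` (kernel `= wildAt M`) and
  `tame_eq_iff_uniformizer` (computation with any uniformiser);
* `exists_generator_mod_wild` : every subgroup `J ≤ inertiaAt M` is generated by one element
  modulo `wildAt M` (the range of the tame character is a subgroup of the cyclic group `𝓀[M]ˣ`);
* `inertial p` : the full inertia subgroup (trivial action on the residue field of `ℚ̄_p`);
* `lgWild` : the literal of the row Prop `LGWildStatement` (predicates unfolded).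
-/

set_option autoImplicit false

namespace Fermat.Agent.S56.LF.LGWild

open scoped NNReal NormedField Valued IntermediateField
open IsLocalRing Fermat.Agent.CFT.Local Fermat.Agent.CFT.Local.NormedLocal
  Fermat.Agent.CFT.Local.PadicExt Fermat.Agent.S56.LF.WildFin

variable {p : ℕ} [Fact p.Prime]

/-! ### Principal units of `ℚ̄_p` -/

section Principal

lemma norm_eq_one_of_sub_one_lt {v : PadicAlgCl p} (hv : ‖v - 1‖ < 1) : ‖v‖ = 1 := by
  have h1 : ‖v - 1‖ ≠ ‖(1 : PadicAlgCl p)‖ := by rw [norm_one]; exact hv.ne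
  have h2 := IsUltrametricDist.norm_add_eq_max_of_norm_ne_norm h1
  rw [sub_add_cancel, norm_one, max_eq_right hv.le] at h2
  exact h2

lemma norm_mul_sub_one_lt {v w : PadicAlgCl p} (hv : ‖v - 1‖ < 1) (hw : ‖w - 1‖ < 1) :
    ‖v * w - 1‖ < 1 := by
  have e : v * w - 1 = (v - 1) * w + (w - 1) := by ring
  rw [e]
  refine lt_of_le_of_lt (IsUltrametricDist.norm_add_le_max _ _) (max_lt ?_ hw)
  rw [norm_mul, norm_eq_one_of_sub_one_lt hw, mul_one]
  exact hv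

lemma norm_inv_sub_one_lt {v : PadicAlgCl p} (hv : ‖v - 1‖ < 1) : ‖v⁻¹ - 1‖ < 1 := by
  have h1 := norm_eq_one_of_sub_one_lt hv
  have h0 : v ≠ 0 := by
    intro h
    rw [h, norm_zero] at h1
    exact zero_ne_one h1
  have e : v⁻¹ - 1 = (1 - v) * v⁻¹ := by
    field_simp
  rw [e, norm_mul, norm_inv, h1, inv_one, mul_one, norm_sub_rev]
  exact hv

lemma norm_pow_sub_one_lt {v : PadicAlgCl p} (hv : ‖v - 1‖ < 1) (n : ℕ) : ‖v ^ n - 1‖ < 1 := by
  induction n with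
  | zero => simp
  | succ n ih =>
    rw [pow_succ]
    exact norm_mul_sub_one_lt ih hv

lemma norm_zpow_sub_one_lt {v : PadicAlgCl p} (hv : ‖v - 1‖ < 1) (n : ℤ) : ‖v ^ n - 1‖ < 1 := by
  obtain ⟨m, rfl | rfl⟩ := n.eq_nat_or_neg
  · rw [zpow_natCast]
    exact norm_pow_sub_one_lt hv m
  · rw [zpow_neg, zpow_natCast]
    exact norm_inv_sub_one_lt (norm_pow_sub_one_lt hv m)

/-- `‖a / b - 1‖ < 1` in terms of `‖a - b‖ < ‖b‖`. -/
lemma norm_div_sub_one_lt_iff {a b : PadicAlgCl p} (hb : b ≠ 0) :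
    ‖a / b - 1‖ < 1 ↔ ‖a - b‖ < ‖b‖ := by
  have e : a / b - 1 = (a - b) / b := by
    field_simp
  rw [e, norm_div, div_lt_one (norm_pos_iff.mpr hb)]

end Principal

/-! ### One uniformiser suffices -/

section Uniformizer

variable (M : IntermediateField ℚ_[p] (PadicAlgCl p)) [FiniteDimensional ℚ_[p] M]

/-- A chosen uniformiser of `M`, as an element of `ℚ̄_p`. -/
noncomputable def unif : PadicAlgCl p :=
  (((Classical.choose (IsDiscreteValuationRing.exists_irreducible 𝒪[M]) : 𝒪[M]) : M) :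
    PadicAlgCl p)

lemma unif_mem : unif M ∈ M :=
  ((Classical.choose (IsDiscreteValuationRing.exists_irreducible 𝒪[M]) : 𝒪[M]) : M).2

lemma unif_irreducible :
    Irreducible (Classical.choose (IsDiscreteValuationRing.exists_irreducible 𝒪[M]) : 𝒪[M]) :=
  Classical.choose_spec (IsDiscreteValuationRing.exists_irreducible 𝒪[M])

lemma norm_unif_lt_one : ‖unif M‖ < 1 := by
  have h := (unif_irreducible M).not_isUnit
  rw [Valued.integer.isUnit_iff_norm_eq_one] at h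
  have h1 : ‖(Classical.choose (IsDiscreteValuationRing.exists_irreducible 𝒪[M]) : 𝒪[M])‖ ≤ 1 :=
    Valued.integer.norm_le_one _
  exact lt_of_le_of_ne h1 h

lemma unif_ne_zero : unif M ≠ 0 := by
  intro h
  have h1 : (Classical.choose (IsDiscreteValuationRing.exists_irreducible 𝒪[M]) : 𝒪[M]) = 0 := by
    apply Subtype.ext
    apply Subtype.ext
    exact h
  exact (unif_irreducible M).ne_zero h1

/-- The value group of `M` is generated by the norm of the chosen uniformiser. -/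
lemma exists_norm_eq_zpow_unif {x : PadicAlgCl p} (hx : x ∈ M) (hx0 : x ≠ 0) :
    ∃ n : ℤ, ‖x‖ = ‖unif M‖ ^ n := by
  have h0 : (⟨x, hx⟩ : M) ≠ 0 := fun h => hx0 (congrArg Subtype.val h)
  obtain ⟨n, hn⟩ := exists_norm_eq_zpow (unif_irreducible M) h0
  exact ⟨n, hn⟩

/-- Any element of `M` of maximal norm `< 1` has the norm of the chosen uniformiser. -/
lemma norm_eq_norm_unif {ϖ : PadicAlgCl p} (hϖ : ϖ ∈ M) (h1 : ‖ϖ‖ < 1)
    (hmax : ∀ x ∈ M, ‖x‖ < 1 → ‖x‖ ≤ ‖ϖ‖) : ‖ϖ‖ = ‖unif M‖ := by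
  have hu1 := norm_unif_lt_one M
  have hu0 : 0 < ‖unif M‖ := norm_pos_iff.mpr (unif_ne_zero M)
  have hle : ‖unif M‖ ≤ ‖ϖ‖ := hmax _ (unif_mem M) hu1
  have hϖ0 : ϖ ≠ 0 := by
    intro h
    rw [h, norm_zero] at hle
    exact absurd hle (not_le.mpr hu0)
  obtain ⟨n, hn⟩ := exists_norm_eq_zpow_unif M hϖ hϖ0
  refine le_antisymm ?_ hle
  rw [hn]
  rcases le_or_gt n 0 with h | h
  · exfalso
    have h2 : 1 ≤ ‖unif M‖ ^ n := by
      obtain ⟨m, rfl⟩ : ∃ m : ℕ, n = -(m : ℤ) := ⟨(-n).toNat, by omega⟩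
      rw [zpow_neg, zpow_natCast]
      exact (one_le_inv₀ (pow_pos hu0 m)).mpr (pow_le_one₀ hu0.le hu1.le)
    rw [← hn] at h2
    exact absurd h1 (not_lt.mpr h2)
  · obtain ⟨m, rfl⟩ : ∃ m : ℕ, n = ((m + 1 : ℕ) : ℤ) := ⟨(n - 1).toNat, by omega⟩
    rw [zpow_natCast, pow_succ]
    exact mul_le_of_le_one_left hu0.le (pow_le_one₀ hu0.le hu1.le)

variable [Normal ℚ_[p] M]

omit [FiniteDimensional ℚ_[p] M] in
/-- An inertial element is a principal unit on the units of `M`. -/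
lemma norm_div_sub_one_lt_of_unit {τ : PadicAlgCl p ≃ₐ[ℚ_[p]] PadicAlgCl p}
    (hτ : τ ∈ inertiaAt M) {y : PadicAlgCl p} (hy : y ∈ M) (hy1 : ‖y‖ = 1) :
    ‖τ y / y - 1‖ < 1 := by
  have hy0 : y ≠ 0 := by
    intro h
    rw [h, norm_zero] at hy1
    exact zero_ne_one hy1
  rw [norm_div_sub_one_lt_iff hy0, hy1]
  exact hτ y hy hy1.le

/-- **The kernel of the tame character is wild inertia**: an element of `inertiaAt M` which moves
one uniformiser `ϖ` of `M` by less than `‖ϖ‖` lies in `wildAt M`. -/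
theorem mem_wildAt_of_uniformizer {ϖ : PadicAlgCl p} (hϖ : ϖ ∈ M) (h1 : ‖ϖ‖ < 1)
    (hmax : ∀ x ∈ M, ‖x‖ < 1 → ‖x‖ ≤ ‖ϖ‖) {τ : PadicAlgCl p ≃ₐ[ℚ_[p]] PadicAlgCl p}
    (hτ : τ ∈ inertiaAt M) (h : ‖τ ϖ - ϖ‖ < ‖ϖ‖) : τ ∈ wildAt M := by
  have hnorm := norm_eq_norm_unif M hϖ h1 hmax
  have hϖ0 : ϖ ≠ 0 := by
    intro h0
    rw [h0, norm_zero] at hnorm
    exact (norm_pos_iff.mpr (unif_ne_zero M)).ne hnorm
  have hP : ‖τ ϖ / ϖ - 1‖ < 1 := (norm_div_sub_one_lt_iff hϖ0).mpr h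
  intro x hx hx0
  obtain ⟨n, hn⟩ := exists_norm_eq_zpow_unif M hx hx0
  rw [← hnorm] at hn
  set y := x / ϖ ^ n with hy
  have hϖn0 : ϖ ^ n ≠ 0 := zpow_ne_zero n hϖ0
  have hyM : y ∈ M := M.div_mem hx (zpow_mem hϖ n)
  have hy1 : ‖y‖ = 1 := by
    rw [hy, norm_div, norm_zpow, hn, div_self]
    exact zpow_ne_zero n (norm_ne_zero_iff.mpr hϖ0)
  have hxy : x = y * ϖ ^ n := by rw [hy, div_mul_cancel₀ _ hϖn0]
  have hy0 : y ≠ 0 := by
    intro h0
    rw [h0, norm_zero] at hy1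
    exact zero_ne_one hy1
  have hτϖ0 : τ ϖ ≠ 0 := by simpa using hϖ0
  have e : τ x / x = (τ y / y) * (τ ϖ / ϖ) ^ n := by
    rw [hxy, map_mul, map_zpow₀, div_zpow]
    field_simp
  rw [← norm_div_sub_one_lt_iff hx0, e]
  exact norm_mul_sub_one_lt (norm_div_sub_one_lt_of_unit M hτ hyM hy1) (norm_zpow_sub_one_lt hP n)

end Uniformizer

/-! ### The residue map of `M`, as a total function on `ℚ̄_p` -/

section Res

variable (M : IntermediateField ℚ_[p] (PadicAlgCl p)) [FiniteDimensional ℚ_[p] M]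

open Classical in
/-- The residue class in `𝓀[M]` of an integral element of `M` (junk value `0` elsewhere). -/
noncomputable def resM (x : PadicAlgCl p) : 𝓀[M] :=
  if h : x ∈ M ∧ ‖x‖ ≤ 1 then
    IsLocalRing.residue 𝒪[M] ⟨⟨x, h.1⟩, Valued.integer.mem_iff.mpr h.2⟩
  else 0

variable {M}

lemma resM_eq {x : PadicAlgCl p} (hx : x ∈ M) (hx1 : ‖x‖ ≤ 1) :
    resM M x = IsLocalRing.residue 𝒪[M] ⟨⟨x, hx⟩, Valued.integer.mem_iff.mpr hx1⟩ := by
  rw [resM, dif_pos ⟨hx, hx1⟩]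

lemma resM_eq_iff {x y : PadicAlgCl p} (hx : x ∈ M) (hx1 : ‖x‖ ≤ 1) (hy : y ∈ M)
    (hy1 : ‖y‖ ≤ 1) : resM M x = resM M y ↔ ‖x - y‖ < 1 := by
  rw [resM_eq hx hx1, resM_eq hy hy1, Unramified.residue_eq_iff_norm_sub_lt_one]
  rfl

lemma resM_mul {x y : PadicAlgCl p} (hx : x ∈ M) (hx1 : ‖x‖ ≤ 1) (hy : y ∈ M)
    (hy1 : ‖y‖ ≤ 1) : resM M (x * y) = resM M x * resM M y := by
  have hxy1 : ‖x * y‖ ≤ 1 := by
    rw [norm_mul]
    exact mul_le_one₀ hx1 (norm_nonneg _) hy1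
  rw [resM_eq hx hx1, resM_eq hy hy1, resM_eq (M.mul_mem hx hy) hxy1, ← map_mul]
  rfl

lemma resM_one : resM M (1 : PadicAlgCl p) = 1 := by
  rw [resM_eq M.one_mem (by rw [norm_one]), ← map_one (IsLocalRing.residue 𝒪[M])]
  rfl

end Res

/-! ### The tame character -/

section Tame

variable (M : IntermediateField ℚ_[p] (PadicAlgCl p)) [FiniteDimensional ℚ_[p] M]
  [Normal ℚ_[p] M]

omit [FiniteDimensional ℚ_[p] M] in
lemma ratio_mem (τ : PadicAlgCl p ≃ₐ[ℚ_[p]] PadicAlgCl p) {x : PadicAlgCl p} (hx : x ∈ M) :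
    τ x / x ∈ M :=
  M.div_mem (map_mem M τ hx) hx

lemma norm_ratio (τ : PadicAlgCl p ≃ₐ[ℚ_[p]] PadicAlgCl p) {x : PadicAlgCl p} (hx0 : x ≠ 0) :
    ‖τ x / x‖ = 1 := by
  rw [norm_div, WildFin.norm_map, div_self (norm_ne_zero_iff.mpr hx0)]

/-- The tame character `τ ↦ res(τ ϖ / ϖ)` of `inertiaAt M`, with values in the residue field. -/
noncomputable def tameHom : ↥(inertiaAt M) →* 𝓀[M] where
  toFun τ := resM M ((τ : PadicAlgCl p ≃ₐ[ℚ_[p]] PadicAlgCl p) (unif M) / unif M)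
  map_one' := by
    show resM M ((1 : PadicAlgCl p ≃ₐ[ℚ_[p]] PadicAlgCl p) (unif M) / unif M) = 1
    rw [AlgEquiv.one_apply, div_self (unif_ne_zero M), resM_one]
  map_mul' σ τ := by
    show resM M (((σ : PadicAlgCl p ≃ₐ[ℚ_[p]] PadicAlgCl p) *
        (τ : PadicAlgCl p ≃ₐ[ℚ_[p]] PadicAlgCl p)) (unif M) / unif M) =
      resM M ((σ : PadicAlgCl p ≃ₐ[ℚ_[p]] PadicAlgCl p) (unif M) / unif M) *
        resM M ((τ : PadicAlgCl p ≃ₐ[ℚ_[p]] PadicAlgCl p) (unif M) / unif M)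
    set s : PadicAlgCl p ≃ₐ[ℚ_[p]] PadicAlgCl p := σ.1 with hs
    set t : PadicAlgCl p ≃ₐ[ℚ_[p]] PadicAlgCl p := τ.1 with ht
    have h0 := unif_ne_zero M
    have hs0 : s (unif M) ≠ 0 := by simpa using h0
    have hu : t (unif M) / unif M ∈ M := ratio_mem M t (unif_mem M)
    have hu1 : ‖t (unif M) / unif M‖ = 1 := norm_ratio t h0
    have hv : s (unif M) / unif M ∈ M := ratio_mem M s (unif_mem M)
    have hv1 : ‖s (unif M) / unif M‖ = 1 := norm_ratio s h0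
    have hsu : s (t (unif M) / unif M) ∈ M := map_mem M s hu
    have hsu1 : ‖s (t (unif M) / unif M)‖ = 1 := by rw [WildFin.norm_map, hu1]
    have e : (s * t) (unif M) / unif M = s (t (unif M) / unif M) * (s (unif M) / unif M) := by
      rw [AlgEquiv.mul_apply, map_div₀]
      field_simp
    have h2 : resM M (s (t (unif M) / unif M)) = resM M (t (unif M) / unif M) :=
      (resM_eq_iff hsu hsu1.le hu hu1.le).mpr (σ.2 _ hu hu1.le)
    rw [e, resM_mul hsu hsu1.le hv hv1.le, h2, mul_comm]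

lemma tameHom_apply (τ : ↥(inertiaAt M)) :
    tameHom M τ = resM M ((τ : PadicAlgCl p ≃ₐ[ℚ_[p]] PadicAlgCl p) (unif M) / unif M) := rfl

/-- The tame character of `M`, as a homomorphism to the units of the residue field. -/
noncomputable def tame : ↥(inertiaAt M) →* 𝓀[M]ˣ := (tameHom M).toHomUnits

lemma coe_tame (τ : ↥(inertiaAt M)) : ((tame M τ : 𝓀[M]ˣ) : 𝓀[M]) = tameHom M τ := rfl

omit [Normal ℚ_[p] M] in
lemma unif_max : ∀ x ∈ M, ‖x‖ < 1 → ‖x‖ ≤ ‖unif M‖ := by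
  intro x hx hx1
  by_cases hx0 : x = 0
  · rw [hx0, norm_zero]; exact norm_nonneg _
  obtain ⟨n, hn⟩ := exists_norm_eq_zpow_unif M hx hx0
  have hu1 := norm_unif_lt_one M
  have hu0 : 0 < ‖unif M‖ := norm_pos_iff.mpr (unif_ne_zero M)
  rw [hn]
  rcases le_or_gt n 0 with h | h
  · exfalso
    have h2 : 1 ≤ ‖unif M‖ ^ n := by
      obtain ⟨m, rfl⟩ : ∃ m : ℕ, n = -(m : ℤ) := ⟨(-n).toNat, by omega⟩
      rw [zpow_neg, zpow_natCast]
      exact (one_le_inv₀ (pow_pos hu0 m)).mpr (pow_le_one₀ hu0.le hu1.le)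
    rw [← hn] at h2
    exact absurd hx1 (not_lt.mpr h2)
  · obtain ⟨m, rfl⟩ : ∃ m : ℕ, n = ((m + 1 : ℕ) : ℤ) := ⟨(n - 1).toNat, by omega⟩
    rw [zpow_natCast, pow_succ]
    exact mul_le_of_le_one_left hu0.le (pow_le_one₀ hu0.le hu1.le)

/-- **The kernel of the tame character is wild inertia.** -/
theorem tame_eq_one_iff (τ : ↥(inertiaAt M)) :
    tame M τ = 1 ↔ (τ : PadicAlgCl p ≃ₐ[ℚ_[p]] PadicAlgCl p) ∈ wildAt M := by
  have h0 := unif_ne_zero M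
  have hu : (τ : PadicAlgCl p ≃ₐ[ℚ_[p]] PadicAlgCl p) (unif M) / unif M ∈ M :=
    ratio_mem M τ (unif_mem M)
  have hu1 : ‖(τ : PadicAlgCl p ≃ₐ[ℚ_[p]] PadicAlgCl p) (unif M) / unif M‖ = 1 :=
    norm_ratio _ h0
  have key : tame M τ = 1 ↔
      ‖(τ : PadicAlgCl p ≃ₐ[ℚ_[p]] PadicAlgCl p) (unif M) - unif M‖ < ‖unif M‖ := by
    rw [← norm_div_sub_one_lt_iff h0, ← resM_eq_iff hu hu1.le M.one_mem (by rw [norm_one]),
      resM_one, ← tameHom_apply, ← coe_tame, Units.ext_iff, Units.val_one]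
  rw [key]
  constructor
  · intro h
    exact mem_wildAt_of_uniformizer M (unif_mem M) (norm_unif_lt_one M) (unif_max M) τ.2 h
  · intro h
    exact h (unif M) (unif_mem M) h0

/-- The tame character computed with any uniformiser `ϖ'` of `M`: its value at `τ` is the
residue class of `z` as soon as `τ ϖ' ≡ z ϖ'` modulo `ϖ' 𝔪`. -/
theorem tame_eq_iff_uniformizer {ϖ' : PadicAlgCl p} (hϖ' : ϖ' ∈ M) (h1 : ‖ϖ'‖ < 1)
    (hmax : ∀ x ∈ M, ‖x‖ < 1 → ‖x‖ ≤ ‖ϖ'‖) (τ : ↥(inertiaAt M)) {z : PadicAlgCl p}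
    (hz : z ∈ M) (hz1 : ‖z‖ ≤ 1) :
    ((tame M τ : 𝓀[M]ˣ) : 𝓀[M]) = resM M z ↔
      ‖(τ : PadicAlgCl p ≃ₐ[ℚ_[p]] PadicAlgCl p) ϖ' - z * ϖ'‖ < ‖ϖ'‖ := by
  set t : PadicAlgCl p ≃ₐ[ℚ_[p]] PadicAlgCl p := τ.1 with ht
  have h0 := unif_ne_zero M
  have hnorm := norm_eq_norm_unif M hϖ' h1 hmax
  have hϖ0 : ϖ' ≠ 0 := by
    intro h
    rw [h, norm_zero] at hnorm
    exact (norm_pos_iff.mpr h0).ne hnorm
  -- `ϖ' = y * unif M` with `y` a unit of `M`
  set y := ϖ' / unif M with hy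
  have hyM : y ∈ M := M.div_mem hϖ' (unif_mem M)
  have hy1 : ‖y‖ = 1 := by
    rw [hy, norm_div, hnorm, div_self (norm_ne_zero_iff.mpr h0)]
  have hy0 : y ≠ 0 := by
    intro h
    rw [h, norm_zero] at hy1
    exact zero_ne_one hy1
  have hϖy : ϖ' = y * unif M := by rw [hy, div_mul_cancel₀ _ h0]
  have hu : t (unif M) / unif M ∈ M := ratio_mem M t (unif_mem M)
  have hu1 : ‖t (unif M) / unif M‖ = 1 := norm_ratio t h0
  have hw : t ϖ' / ϖ' ∈ M := ratio_mem M t hϖ'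
  have hw1 : ‖t ϖ' / ϖ'‖ = 1 := norm_ratio t hϖ0
  -- the two ratios are congruent
  have hcong : ‖t ϖ' / ϖ' - t (unif M) / unif M‖ < 1 := by
    have e : t ϖ' / ϖ' - t (unif M) / unif M = (t y / y - 1) * (t (unif M) / unif M) := by
      rw [hϖy, map_mul]
      field_simp
    rw [e, norm_mul, hu1, mul_one]
    exact norm_div_sub_one_lt_of_unit M τ.2 hyM hy1
  have h2 : resM M (t ϖ' / ϖ') = resM M (t (unif M) / unif M) :=
    (resM_eq_iff hw hw1.le hu hu1.le).mpr hcong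
  rw [coe_tame, tameHom_apply, ← h2, resM_eq_iff hw hw1.le hz hz1]
  have e2 : t ϖ' / ϖ' - z = (t ϖ' - z * ϖ') / ϖ' := by
    field_simp
  rw [e2, norm_div, div_lt_one (norm_pos_iff.mpr hϖ0)]

/-- **Inertia is cyclic modulo wild inertia.**  Every subgroup `J` of `inertiaAt M` contains an
element `τ1` such that every element of `J` is a power of `τ1` modulo `wildAt M`. -/
theorem exists_generator_mod_wild (J : Subgroup (PadicAlgCl p ≃ₐ[ℚ_[p]] PadicAlgCl p))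
    (hJ : J ≤ inertiaAt M) :
    ∃ τ1 ∈ J, ∀ τ ∈ J, ∃ a : ℕ, (τ1 ^ a)⁻¹ * τ ∈ wildAt M := by
  let f : ↥J →* 𝓀[M]ˣ := (tame M).comp (Subgroup.inclusion hJ)
  have hf : ∀ x : ↥J, f x = tame M (Subgroup.inclusion hJ x) := fun x => rfl
  have hfin : Finite 𝓀[M]ˣ := inferInstance
  have hfin2 : Finite ↥f.range := inferInstance
  have hcyc : IsCyclic ↥f.range := isCyclic_subgroup_units f.range
  obtain ⟨g, hg⟩ := IsCyclic.exists_monoid_generator (α := ↥f.range)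
  obtain ⟨τ1, hτ1⟩ := g.2
  refine ⟨τ1, τ1.2, fun τ hτ => ?_⟩
  have hmem : (⟨f ⟨τ, hτ⟩, ⟨⟨τ, hτ⟩, rfl⟩⟩ : ↥f.range) ∈ Submonoid.powers g := hg _
  obtain ⟨a, ha⟩ := (Submonoid.mem_powers_iff _ _).mp hmem
  refine ⟨a, ?_⟩
  have ha' : f τ1 ^ a = f ⟨τ, hτ⟩ := by
    rw [hτ1]
    have h1 : ((g ^ a : ↥f.range) : 𝓀[M]ˣ) = f ⟨τ, hτ⟩ := congrArg Subtype.val ha
    rw [← h1]
    rfl
  have h2 : f ((τ1 ^ a)⁻¹ * ⟨τ, hτ⟩) = 1 := by
    rw [map_mul, map_inv, map_pow, ha', inv_mul_cancel]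
  rw [hf] at h2
  have h3 := (tame_eq_one_iff M _).mp h2
  exact h3

end Tame

/-! ### The full inertia group and the row literal -/

section Full

variable (p)

/-- The inertia subgroup of `Gal(ℚ̄_p/ℚ_p)`: trivial action on the residue field of `ℚ̄_p`. -/
def inertial : Subgroup (PadicAlgCl p ≃ₐ[ℚ_[p]] PadicAlgCl p) where
  carrier := {τ | ∀ x : PadicAlgCl p, ‖x‖ ≤ 1 → ‖τ x - x‖ < 1}
  mul_mem' {σ τ} hσ hτ := by
    intro x hx
    rw [AlgEquiv.mul_apply]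
    exact norm_sub_lt_of (hσ (τ x) (by rw [WildFin.norm_map]; exact hx)) (hτ x hx)
  one_mem' := by
    intro x _
    simp
  inv_mem' {σ} hσ := by
    intro x hx
    have h := hσ (σ⁻¹ x) (by rw [WildFin.norm_map]; exact hx)
    have e : σ (σ⁻¹ x) = x := by
      rw [← AlgEquiv.mul_apply, mul_inv_cancel, AlgEquiv.one_apply]
    rw [e, norm_sub_rev] at h
    exact h

variable {p}

lemma mem_inertial {τ : PadicAlgCl p ≃ₐ[ℚ_[p]] PadicAlgCl p} :
    τ ∈ inertial p ↔ ∀ x : PadicAlgCl p, ‖x‖ ≤ 1 → ‖τ x - x‖ < 1 := Iff.rfl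

lemma inertial_le_inertiaAt (M : IntermediateField ℚ_[p] (PadicAlgCl p)) [Normal ℚ_[p] M] :
    inertial p ≤ inertiaAt M :=
  fun _ hτ x _ hx1 => hτ x hx1

/-- A finite-dimensional intermediate field stable under the Galois group is normal. -/
lemma normal_of_stable (M : IntermediateField ℚ_[p] (PadicAlgCl p))
    (hM : ∀ σ : PadicAlgCl p ≃ₐ[ℚ_[p]] PadicAlgCl p, ∀ x ∈ M, σ x ∈ M) : Normal ℚ_[p] M := by
  have : IsGalois ℚ_[p] (PadicAlgCl p) := IsAlgClosure.isGalois ℚ_[p] (PadicAlgCl p)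
  rw [IntermediateField.normal_iff_forall_map_le']
  rintro σ _ ⟨x, hx, rfl⟩
  exact hM σ x hx

/-- **LG-wild**: the literal of the row Prop `LGWildStatement`, with `IsInertial` and `IsWildOn`
unfolded.  For a finite `Gal`-stable `M`: an element wild on `M` has `p`-power order on `M`, and
the inertia group is generated modulo the elements wild on `M` by one element. -/
theorem lgWild (M : IntermediateField ℚ_[p] (PadicAlgCl p)) [FiniteDimensional ℚ_[p] M]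
    (hM : ∀ σ : Flat.Gp p, ∀ x ∈ M, σ x ∈ M) :
    (∀ τ : Flat.Gp p,
      ((∀ x : PadicAlgCl p, ‖x‖ ≤ 1 → ‖τ x - x‖ < 1) ∧
        ∀ x ∈ M, x ≠ 0 → ‖τ x - x‖ < ‖x‖) →
      ∃ n : ℕ, ∀ x ∈ M, (τ ^ (p ^ n)) x = x) ∧
    ∃ τ1 : Flat.Gp p, (∀ x : PadicAlgCl p, ‖x‖ ≤ 1 → ‖τ1 x - x‖ < 1) ∧
      ∀ τ : Flat.Gp p, (∀ x : PadicAlgCl p, ‖x‖ ≤ 1 → ‖τ x - x‖ < 1) →
        ∃ a : ℕ, (∀ x : PadicAlgCl p, ‖x‖ ≤ 1 → ‖((τ1 ^ a)⁻¹ * τ) x - x‖ < 1) ∧
          ∀ x ∈ M, x ≠ 0 → ‖((τ1 ^ a)⁻¹ * τ) x - x‖ < ‖x‖ := by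
  have : Normal ℚ_[p] M := normal_of_stable M hM
  refine ⟨?_, ?_⟩
  · rintro τ ⟨-, hw⟩
    obtain ⟨n, hn⟩ := exists_pow_mem_fixingSubgroup_of_mem_wildAt M (w := τ) hw
    exact ⟨n, (IntermediateField.mem_fixingSubgroup_iff M _).mp hn⟩
  · obtain ⟨τ1, hτ1, h⟩ := exists_generator_mod_wild M (inertial p) (inertial_le_inertiaAt M)
    refine ⟨τ1, hτ1, fun τ hτ => ?_⟩
    obtain ⟨a, ha⟩ := h τ hτ
    exact ⟨a, (inertial p).mul_mem ((inertial p).inv_mem ((inertial p).pow_mem hτ1 a)) hτ, ha⟩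

end Full

end Fermat.Agent.S56.LF.LGWild
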