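import Mathlib
import Fermat.Agent.S56.Flat.LocalBricks
import Fermat.Agent.S56.LF.LGWild

/-!
# S56 / LF, row LG: `Flat.LGWildStatement` is a theorem

* `wild_pow_fix` : clause 1 of the row Prop in its landed form (no normality of `M`): an
  automorphism `τ` of `ℚ̄_p` which maps the finite extension `M` into itself and is wild on `M`
  (`‖τ x - x‖ < ‖x‖` on `M ∖ {0}`) has `p`-power order on `M`.  (Some power `τ ^ N` is the
  identity on `M` because `M` has finitely many embeddings; the prime-to-`p` part is killed by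
  the averaging argument.)
* `lgWildStatement : Flat.LGWildStatement` : clause 1 + clause 2 (`LGWild.lgWild`).
-/

set_option autoImplicit false

namespace Fermat.Agent.S56.LF.LGWildExit

open Fermat.Agent.S56 Fermat.Agent.S56.LF.WildFin

variable {p : ℕ} [Fact p.Prime]

section One

variable (M : IntermediateField ℚ_[p] (PadicAlgCl p)) (τ : Flat.Gp p)

lemma pow_stable (hst : ∀ x ∈ M, τ x ∈ M) (n : ℕ) : ∀ x ∈ M, (τ ^ n) x ∈ M := by
  induction n with
  | zero =>
    intro x hx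
    simpa using hx
  | succ n ih =>
    intro x hx
    rw [pow_succ, AlgEquiv.mul_apply]
    exact ih _ (hst x hx)

lemma pow_wild (hst : ∀ x ∈ M, τ x ∈ M) (hw : ∀ x ∈ M, x ≠ 0 → ‖τ x - x‖ < ‖x‖) (n : ℕ) :
    ∀ x ∈ M, x ≠ 0 → ‖(τ ^ n) x - x‖ < ‖x‖ := by
  induction n with
  | zero =>
    intro x hx hx0
    simpa using hx0
  | succ n ih =>
    intro x hx hx0
    rw [pow_succ, AlgEquiv.mul_apply]
    have h0 : τ x ≠ 0 := by simpa using hx0
    have h1 : ‖(τ ^ n) (τ x) - τ x‖ < ‖τ x‖ := ih (τ x) (hst x hx) h0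
    rw [WildFin.norm_map τ x] at h1
    exact WildFin.norm_sub_lt_of h1 (hw x hx hx0)

/-- Some positive power of `τ` is the identity on the finite extension `M`. -/
lemma exists_pow_fix [FiniteDimensional ℚ_[p] M] :
    ∃ N : ℕ, 0 < N ∧ ∀ x ∈ M, (τ ^ N) x = x := by
  let F : ℕ → (M →ₐ[ℚ_[p]] PadicAlgCl p) := fun i =>
    ((τ ^ i : Flat.Gp p) : PadicAlgCl p →ₐ[ℚ_[p]] PadicAlgCl p).comp M.val
  have hfin : Finite (M →ₐ[ℚ_[p]] PadicAlgCl p) := inferInstance
  have key : ∀ i j : ℕ, i < j → F i = F j → ∃ N : ℕ, 0 < N ∧ ∀ x ∈ M, (τ ^ N) x = x := by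
    intro i j h hF
    refine ⟨j - i, Nat.sub_pos_of_lt h, fun x hx => ?_⟩
    have h1 : (τ ^ i) x = (τ ^ j) x := congrArg (fun G : M →ₐ[ℚ_[p]] PadicAlgCl p => G ⟨x, hx⟩) hF
    have h2 : τ ^ j = τ ^ i * τ ^ (j - i) := by rw [← pow_add, Nat.add_sub_cancel' h.le]
    rw [h2, AlgEquiv.mul_apply] at h1
    exact ((τ ^ i).injective h1).symm
  obtain ⟨i, j, hij, hF⟩ := Finite.exists_ne_map_eq_of_infinite F
  rcases lt_or_gt_of_ne hij with h | h
  · exact key i j h hF
  · exact key j i h hF.symm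

/-- **Clause 1 of LG-wild** (no normality): `τ` mapping `M` into itself and wild on `M` has
`p`-power order on `M`. -/
theorem wild_pow_fix [FiniteDimensional ℚ_[p] M] (hst : ∀ x ∈ M, τ x ∈ M)
    (hw : ∀ x ∈ M, x ≠ 0 → ‖τ x - x‖ < ‖x‖) : ∃ n : ℕ, ∀ x ∈ M, (τ ^ (p ^ n)) x = x := by
  have hp : p.Prime := Fact.out
  obtain ⟨N, hN, hfix⟩ := exists_pow_fix M τ
  obtain ⟨a, m, hm, hNm⟩ := Nat.exists_eq_pow_mul_and_not_dvd hN.ne' p hp.ne_one
  refine ⟨a, ?_⟩
  set w : Flat.Gp p := τ ^ (p ^ a) with hw'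
  have hwst : ∀ x ∈ M, w x ∈ M := pow_stable M τ hst _
  have hww : ∀ x ∈ M, x ≠ 0 → ‖w x - x‖ < ‖x‖ := pow_wild M τ hst hw _
  have hw'm : ∀ x ∈ M, (w ^ m) x = x := by
    intro x hx
    rw [hw', ← pow_mul, ← hNm]
    exact hfix x hx
  have hm0 : m ≠ 0 := by
    rintro rfl
    exact hm (dvd_zero p)
  intro x hx
  by_contra hne
  set u := w x - x with hu
  have hu0 : u ≠ 0 := sub_ne_zero.mpr hne
  have huM : u ∈ M := M.sub_mem (hwst x hx) hx
  have hsum : ∑ i ∈ Finset.range m, (w ^ i) u = 0 := by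
    have e : ∀ i, (w ^ i) u = (w ^ (i + 1)) x - (w ^ i) x := by
      intro i
      rw [hu, map_sub, pow_succ, AlgEquiv.mul_apply]
    simp only [e]
    rw [Finset.sum_range_sub (fun i => (w ^ i) x), hw'm x hx, pow_zero, AlgEquiv.one_apply,
      sub_self]
  have hmu : (m : PadicAlgCl p) * u = ∑ i ∈ Finset.range m, (u - (w ^ i) u) := by
    rw [Finset.sum_sub_distrib, hsum, sub_zero, Finset.sum_const, Finset.card_range,
      nsmul_eq_mul]
  have hlt : ‖∑ i ∈ Finset.range m, (u - (w ^ i) u)‖ < ‖u‖ := by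
    obtain ⟨i, -, hi⟩ := IsUltrametricDist.exists_norm_finsetSum_le_of_nonempty
      (Finset.nonempty_range_iff.mpr hm0) (fun i => u - (w ^ i) u)
    refine lt_of_le_of_lt hi ?_
    rw [norm_sub_rev]
    exact pow_wild M w hwst hww i u huM hu0
  rw [← hmu, norm_mul, WildFin.norm_natCast_of_not_dvd hm, one_mul] at hlt
  exact lt_irrefl _ hlt

end One

/-- **LG-wild** is a theorem. -/
theorem lgWildStatement : Flat.LGWildStatement := by
  intro p _ M _
  refine ⟨fun τ hst hwild => wild_pow_fix M τ hst hwild.2, fun hM => ?_⟩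
  exact (LGWild.lgWild M hM).2

end Fermat.Agent.S56.LF.LGWildExit
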