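import Mathlib
import Fermat.Agent.CFT.Local.UnramPadicAbs
import Fermat.Agent.S56.Flat.LocalBricks
import Fermat.Agent.S56.LF.WildFin

/-!
# S56 / LF, row LI: the character / group half of the tame field of the induced case

`Flat.LIStatement` asks for a finite Galois `K ⊇ ℚ_{p²}(ζ_p)` of degree prime to `p` with a tame
generator `τ0`, Frobenius elements and the vanishing of the characters of `G_{ℚ_{p²}}` of finite
level on `G_K`.  This file proves its body (`li_of_field`) from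

* the two local Galois rows `Flat.LGWildStatement`, `Flat.LGFrobStatement` (as hypotheses),
* the fact `hUr` of row B3 (an inertia-fixed element of norm `< 1` is `p` times an inertia-fixed
  element of norm `≤ 1`; the same literal as in `FlatRigid.flatRigid`),
* one field-theoretic hypothesis `hField`: for every `m ≥ 1` there is `ϖ` with
  `ϖ ^ (p² - 1) = -p` such that `ϖ` is a uniformiser of `K_m := unram ⊥ (2 m) ⊔ ℚ_p⟮ϖ⟯` and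
  `ζ ∈ K_m`.

Everything else (Galois stability of `K_m`, the exponent `n0`, the tame generator and its
primitive root `z`, the `ω̄`-clause, the conjugation clause, the character clauses) is proved
here by norms.  `liStatement_of_field` is the same with the binders of `Flat.LIStatement`.
-/

set_option autoImplicit false

namespace Fermat.Agent.S56.LF.TameFieldI

open scoped NNReal NormedField Valued IntermediateField
open IsLocalRing Polynomial Fermat.Agent.CFT.Local Fermat.Agent.CFT.Local.NormedLocal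
  Fermat.Agent.CFT.Local.PadicExt Fermat.Agent.CFT.Local.UnramPadic

variable {p : ℕ} [Fact p.Prime]

/-! ### Norm lemmas -/

section Norm

lemma norm_prime_lt_one : ‖((p : ℕ) : PadicAlgCl p)‖ < 1 := by
  have h : ‖((p : ℕ) : PadicAlgCl p)‖ = ‖((p : ℕ) : ℚ_[p])‖ := by
    rw [← map_natCast (algebraMap ℚ_[p] (PadicAlgCl p)) p, norm_algebraMap']
  rw [h]
  exact Padic.norm_p_lt_one

lemma prime_cast_ne_zero : ((p : ℕ) : PadicAlgCl p) ≠ 0 :=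
  Nat.cast_ne_zero.mpr (Fact.out : p.Prime).ne_zero

lemma norm_eq_one_of_pow_eq_one {x : PadicAlgCl p} {n : ℕ} (hn : n ≠ 0) (h : x ^ n = 1) :
    ‖x‖ = 1 := by
  have h1 : ‖x‖ ^ n = 1 := by rw [← norm_pow, h, norm_one]
  exact (pow_eq_one_iff_of_nonneg (norm_nonneg x) hn).mp h1

lemma norm_one_add_of_norm_lt {x : PadicAlgCl p} (h : ‖x‖ < 1) : ‖1 + x‖ = 1 := by
  apply le_antisymm
  · exact le_trans (IsUltrametricDist.norm_add_le_max _ _) (max_le norm_one.le h.le)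
  · by_contra hc
    have hc' : ‖1 + x‖ < 1 := not_le.mp hc
    have h1 : ‖(1 + x) + -x‖ < 1 :=
      lt_of_le_of_lt (IsUltrametricDist.norm_add_le_max _ _)
        (max_lt hc' (by rw [norm_neg]; exact h))
    rw [add_neg_cancel_right, norm_one] at h1
    exact lt_irrefl _ h1

/-- A geometric sum of an element congruent to `1` is congruent to its number of terms. -/
lemma norm_geom_sum_sub_lt {x : PadicAlgCl p} (hx : ‖x - 1‖ < 1) (n : ℕ) :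
    ‖∑ i ∈ Finset.range n, x ^ i - (n : PadicAlgCl p)‖ < 1 := by
  have hx1 : ‖x‖ ≤ 1 := by
    have e : x = (x - 1) + 1 := by ring
    rw [e]
    exact le_trans (IsUltrametricDist.norm_add_le_max _ _) (max_le hx.le norm_one.le)
  induction n with
  | zero => simp
  | succ n ih =>
    have e : ∑ i ∈ Finset.range (n + 1), x ^ i - ((n + 1 : ℕ) : PadicAlgCl p) =
        (∑ i ∈ Finset.range n, x ^ i - (n : PadicAlgCl p)) + (x ^ n - 1 ^ n) := by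
      rw [Finset.sum_range_succ]
      push_cast
      ring
    rw [e]
    exact lt_of_le_of_lt (IsUltrametricDist.norm_add_le_max _ _)
      (max_lt ih (WildFin.norm_pow_sub_pow_lt hx1 norm_one.le hx n))

/-- A root of unity of order prime to `p` which is congruent to `1` is `1`. -/
lemma eq_one_of_pow_eq_one_of_norm_sub_lt {η : PadicAlgCl p} {n : ℕ} (hn : ¬ p ∣ n)
    (h : η ^ n = 1) (hη : ‖η - 1‖ < 1) : η = 1 := by
  have hS : ∑ i ∈ Finset.range n, η ^ i ≠ 0 := by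
    intro h0
    have h1 := norm_geom_sum_sub_lt hη n
    rw [h0, zero_sub, norm_neg, WildFin.norm_natCast_of_not_dvd hn] at h1
    exact lt_irrefl _ h1
  have h2 : (η - 1) * ∑ i ∈ Finset.range n, η ^ i = 0 := by
    rw [mul_geom_sum, h, sub_self]
  rcases mul_eq_zero.mp h2 with h3 | h3
  · exact sub_eq_zero.mp h3
  · exact absurd h3 hS

/-- Congruent roots of unity of order prime to `p` are equal. -/
lemma eq_of_pow_eq_one_of_norm_sub_lt {α β : PadicAlgCl p} {n : ℕ} (hn : ¬ p ∣ n)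
    (hα : α ^ n = 1) (hβ : β ^ n = 1) (h : ‖α - β‖ < 1) : α = β := by
  have hn0 : n ≠ 0 := by
    rintro rfl
    exact hn (dvd_zero p)
  have hβ1 : ‖β‖ = 1 := norm_eq_one_of_pow_eq_one hn0 hβ
  have hβ0 : β ≠ 0 := by
    intro h0
    rw [h0, norm_zero] at hβ1
    exact zero_ne_one hβ1
  have h1 : (α / β) ^ n = 1 := by rw [div_pow, hα, hβ, div_one]
  have h2 : ‖α / β - 1‖ < 1 := by
    have e : α / β - 1 = (α - β) / β := by field_simp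
    rw [e, norm_div, hβ1, div_one]
    exact h
  exact (div_eq_one_iff_eq hβ0).mp (eq_one_of_pow_eq_one_of_norm_sub_lt hn h1 h2)

lemma not_dvd_pow_sub_one {n : ℕ} (hn : 0 < n) : ¬ p ∣ p ^ n - 1 := by
  have hp : p.Prime := Fact.out
  intro h
  have h1 : p ∣ p ^ n := dvd_pow_self p hn.ne'
  have h2 : 1 ≤ p ^ n := Nat.one_le_pow _ _ hp.pos
  have h3 : p ∣ 1 := (Nat.dvd_add_right h).mp (by rw [Nat.sub_add_cancel h2]; exact h1)
  exact hp.one_lt.ne' (Nat.dvd_one.mp h3)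

lemma sq_sub_one_pos : 0 < p ^ 2 - 1 := by
  have hp : p.Prime := Fact.out
  have h1 : 2 ^ 2 ≤ p ^ 2 := Nat.pow_le_pow_left hp.two_le 2
  omega

lemma not_dvd_sq_sub_one : ¬ p ∣ p ^ 2 - 1 := not_dvd_pow_sub_one (by norm_num)

omit [Fact p.Prime] in
lemma succ_mul_pred : (p + 1) * (p - 1) = p ^ 2 - 1 := by
  have h := Nat.sq_sub_sq p 1
  rw [one_pow] at h
  exact h.symm

lemma pow_pow_eq_self {z : PadicAlgCl p} {a : ℕ} (h : z ^ a = z) (j : ℕ) : z ^ (a ^ j) = z := by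
  induction j with
  | zero => simp
  | succ j ih => rw [pow_succ, pow_mul, ih, h]

/-- `(1 + y) ^ p = 1 + p y + p y² r + y ^ p`. -/
lemma one_add_pow_prime_eq {R : Type*} [CommRing R] {q : ℕ} (hq : q.Prime) (y : R) :
    ∃ r : R, (1 + y) ^ q = 1 + q * y + q * y ^ 2 * r + y ^ q := by
  have h := add_pow_prime_eq hq y (1 : R)
  have h1 : 1 ∈ Finset.Ioo 0 q := by simp [hq.one_lt]
  rw [← Finset.add_sum_erase _ _ h1] at h
  refine ⟨∑ k ∈ (Finset.Ioo 0 q).erase 1, y ^ (k - 2) * ((q.choose k / q : ℕ) : R), ?_⟩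
  have h2 : ∑ k ∈ (Finset.Ioo 0 q).erase 1,
      y ^ (k - 1) * 1 ^ (q - k - 1) * ((q.choose k / q : ℕ) : R) =
      y * ∑ k ∈ (Finset.Ioo 0 q).erase 1, y ^ (k - 2) * ((q.choose k / q : ℕ) : R) := by
    rw [Finset.mul_sum]
    apply Finset.sum_congr rfl
    intro k hk
    have hk2 : 2 ≤ k := by
      have h3 := Finset.mem_erase.mp hk
      have h4 := Finset.mem_Ioo.mp h3.2
      omega
    obtain ⟨j, rfl⟩ : ∃ j, k = j + 2 := ⟨k - 2, by omega⟩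
    have e1 : j + 2 - 1 = j + 1 := by omega
    have e2 : j + 2 - 2 = j := by omega
    rw [e1, e2, one_pow, pow_succ]
    ring
  have h3 : q.choose 1 / q = 1 := by
    rw [Nat.choose_one_right]
    exact Nat.div_self hq.pos
  rw [h2, h3] at h
  rw [add_comm 1 y, h]
  simp only [one_pow, pow_zero, Nat.cast_one, Nat.sub_self]
  ring

variable (p) in
/-- The closed unit ball of `ℚ̄_p`, as a subring. -/
def ball : Subring (PadicAlgCl p) where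
  carrier := {x | ‖x‖ ≤ 1}
  mul_mem' {a b} ha hb := by
    show ‖a * b‖ ≤ 1
    rw [norm_mul]
    exact mul_le_one₀ ha (norm_nonneg b) hb
  one_mem' := by
    show ‖(1 : PadicAlgCl p)‖ ≤ 1
    exact norm_one.le
  add_mem' {a b} ha hb := le_trans (IsUltrametricDist.norm_add_le_max a b) (max_le ha hb)
  zero_mem' := by
    show ‖(0 : PadicAlgCl p)‖ ≤ 1
    rw [norm_zero]
    exact zero_le_one
  neg_mem' {a} ha := by
    show ‖-a‖ ≤ 1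
    rw [norm_neg]
    exact ha

/-- `‖ζ - 1‖ ^ (p - 1) = ‖p‖` for a primitive `p`-th root of unity `ζ`. -/
theorem norm_sub_one_pow_of_isPrimitiveRoot {ζ : PadicAlgCl p} (hζ : IsPrimitiveRoot ζ p) :
    ‖ζ - 1‖ ^ (p - 1) = ‖((p : ℕ) : PadicAlgCl p)‖ := by
  have hp : p.Prime := Fact.out
  have hζ1 : ‖ζ‖ = 1 := norm_eq_one_of_pow_eq_one hp.ne_zero hζ.pow_eq_one
  have hy1 : ‖ζ - 1‖ ≤ 1 := by
    rw [sub_eq_add_neg]
    refine le_trans (IsUltrametricDist.norm_add_le_max _ _) (max_le hζ1.le ?_)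
    rw [norm_neg]
    exact norm_one.le
  have hy0 : ζ - 1 ≠ 0 := sub_ne_zero.mpr (hζ.ne_one hp.one_lt)
  obtain ⟨r, hr⟩ := one_add_pow_prime_eq hp (⟨ζ - 1, hy1⟩ : ball p)
  have hr1 : ‖(r : PadicAlgCl p)‖ ≤ 1 := r.2
  have hr' : (1 + (ζ - 1)) ^ p = 1 + (p : PadicAlgCl p) * (ζ - 1) +
      (p : PadicAlgCl p) * (ζ - 1) ^ 2 * (r : PadicAlgCl p) + (ζ - 1) ^ p := by
    have h := congrArg (fun t : ball p => (t : PadicAlgCl p)) hr
    simpa using h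
  have e1 : (1 : PadicAlgCl p) + (ζ - 1) = ζ := by ring
  rw [e1, hζ.pow_eq_one] at hr'
  have e2 : (ζ - 1) ^ (p - 1) = -(p : PadicAlgCl p) * (1 + (ζ - 1) * (r : PadicAlgCl p)) := by
    have e3 : (ζ - 1) * (ζ - 1) ^ (p - 1) =
        (ζ - 1) * (-(p : PadicAlgCl p) * (1 + (ζ - 1) * (r : PadicAlgCl p))) := by
      rw [← pow_succ', Nat.sub_add_cancel hp.one_le]
      linear_combination (-1 : PadicAlgCl p) * hr'
    exact mul_left_cancel₀ hy0 e3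
  have hn : ‖ζ - 1‖ ^ (p - 1) =
      ‖((p : ℕ) : PadicAlgCl p)‖ * ‖1 + (ζ - 1) * (r : PadicAlgCl p)‖ := by
    rw [← norm_pow, e2, norm_mul, norm_neg]
  have hyr : ‖(ζ - 1) * (r : PadicAlgCl p)‖ ≤ ‖ζ - 1‖ := by
    rw [norm_mul]
    exact mul_le_of_le_one_right (norm_nonneg _) hr1
  have hle : ‖1 + (ζ - 1) * (r : PadicAlgCl p)‖ ≤ 1 :=
    le_trans (IsUltrametricDist.norm_add_le_max _ _) (max_le norm_one.le (hyr.trans hy1))
  have hylt : ‖ζ - 1‖ < 1 := by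
    by_contra hc
    have h1 : 1 ≤ ‖ζ - 1‖ ^ (p - 1) := one_le_pow₀ (not_lt.mp hc)
    have h2 : ‖((p : ℕ) : PadicAlgCl p)‖ * ‖1 + (ζ - 1) * (r : PadicAlgCl p)‖ ≤
        ‖((p : ℕ) : PadicAlgCl p)‖ := mul_le_of_le_one_right (norm_nonneg _) hle
    rw [hn] at h1
    exact not_lt.mpr (h1.trans h2) norm_prime_lt_one
  rw [hn, norm_one_add_of_norm_lt (lt_of_le_of_lt hyr hylt), mul_one]

end Norm

/-! ### Inertial elements -/

section Inertial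

variable (p) in
/-- The inertial elements of `Gal(ℚ̄_p/ℚ_p)`, as a subgroup. -/
def inert : Subgroup (Flat.Gp p) where
  carrier := {τ | Flat.IsInertial p τ}
  mul_mem' {σ τ} hσ hτ := by
    intro x hx
    have h1 : ‖τ x‖ ≤ 1 := by rw [WildFin.norm_map]; exact hx
    rw [AlgEquiv.mul_apply]
    exact WildFin.norm_sub_lt_of (hσ _ h1) (hτ x hx)
  one_mem' := by
    intro x _
    simp
  inv_mem' {τ} hτ := by
    intro x hx
    have h1 : ‖τ⁻¹ x‖ ≤ 1 := by rw [WildFin.norm_map]; exact hx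
    have h2 := hτ _ h1
    have h3 : τ (τ⁻¹ x) = x := by
      rw [← AlgEquiv.mul_apply, mul_inv_cancel, AlgEquiv.one_apply]
    rw [h3, norm_sub_rev] at h2
    exact h2

lemma mem_inert {τ : Flat.Gp p} : τ ∈ inert p ↔ Flat.IsInertial p τ := Iff.rfl

lemma conj_mem_inert (σ : Flat.Gp p) {τ : Flat.Gp p} (hτ : τ ∈ inert p) :
    σ * τ * σ⁻¹ ∈ inert p := by
  intro x hx
  have h1 : ‖σ⁻¹ x‖ ≤ 1 := by rw [WildFin.norm_map]; exact hx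
  have h2 : (σ * τ * σ⁻¹) x - x = σ (τ (σ⁻¹ x) - σ⁻¹ x) := by
    have h3 : σ (σ⁻¹ x) = x := by
      rw [← AlgEquiv.mul_apply, mul_inv_cancel, AlgEquiv.one_apply]
    rw [map_sub, h3, AlgEquiv.mul_apply, AlgEquiv.mul_apply]
  rw [h2, WildFin.norm_map]
  exact hτ _ h1

/-- Inertial elements fix the roots of unity of order prime to `p`. -/
lemma apply_root_of_inertial {τ : Flat.Gp p} (hτ : Flat.IsInertial p τ) {ξ : PadicAlgCl p}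
    {n : ℕ} (hn : ¬ p ∣ n) (hξ : ξ ^ n = 1) : τ ξ = ξ := by
  have hn0 : n ≠ 0 := by
    rintro rfl
    exact hn (dvd_zero p)
  refine eq_of_pow_eq_one_of_norm_sub_lt hn ?_ hξ
    (hτ ξ (norm_eq_one_of_pow_eq_one hn0 hξ).le)
  rw [← map_pow, hξ, map_one]

lemma mem_fixingSubgroup_bot (σ : Flat.Gp p) :
    σ ∈ (⊥ : IntermediateField ℚ_[p] (PadicAlgCl p)).fixingSubgroup := by
  rw [IntermediateField.fixingSubgroup_bot]
  exact Subgroup.mem_top σ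

/-- Inertial elements fix the unramified extensions of `ℚ_p`. -/
lemma inertial_mem_fixingSubgroup_unram_bot {τ : Flat.Gp p} (hτ : Flat.IsInertial p τ) {n : ℕ}
    (hn : 0 < n) :
    τ ∈ (unram (⊥ : IntermediateField ℚ_[p] (PadicAlgCl p)) n).fixingSubgroup := by
  rw [mem_fixingSubgroup_unram_iff]
  refine ⟨mem_fixingSubgroup_bot τ, ?_⟩
  have h := (isPrimitiveRoot_zeta (⊥ : IntermediateField ℚ_[p] (PadicAlgCl p)) hn).pow_eq_one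
  rw [card_residueField_bot] at h
  exact apply_root_of_inertial hτ (not_dvd_pow_sub_one hn) h

end Inertial

/-! ### Field generalities -/

section Fields

/-- An automorphism fixes `E(x)` iff it fixes `E` and `x`. -/
lemma mem_fixingSubgroup_sup_adjoin_iff (E : IntermediateField ℚ_[p] (PadicAlgCl p))
    (x : PadicAlgCl p) (σ : PadicAlgCl p ≃ₐ[ℚ_[p]] PadicAlgCl p) :
    σ ∈ (E ⊔ ℚ_[p]⟮x⟯).fixingSubgroup ↔ σ ∈ E.fixingSubgroup ∧ σ x = x := by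
  rw [IntermediateField.fixingSubgroup_sup, Subgroup.mem_inf]
  refine and_congr Iff.rfl ⟨fun h => ?_, fun h => ?_⟩
  · exact (IntermediateField.mem_fixingSubgroup_iff _ σ).mp h _
      (IntermediateField.mem_adjoin_simple_self _ _)
  · rw [← Subgroup.zpowers_le, ← IntermediateField.le_iff_le,
      IntermediateField.adjoin_simple_le_iff, IntermediateField.mem_fixedField_iff]
    intro f hf
    have hle : Subgroup.zpowers σ ≤ MulAction.stabilizer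
        (PadicAlgCl p ≃ₐ[ℚ_[p]] PadicAlgCl p) x := by
      rw [Subgroup.zpowers_le, MulAction.mem_stabilizer_iff]
      exact h
    exact MulAction.mem_stabilizer_iff.mp (hle hf)

lemma card_residueField_unram_bot {n : ℕ} (hn : 0 < n) :
    Nat.card 𝓀[unram (⊥ : IntermediateField ℚ_[p] (PadicAlgCl p)) n] = p ^ n := by
  have h1 := card_residueField_of_le (le_unram (⊥ : IntermediateField ℚ_[p] (PadicAlgCl p)) n)
  rw [inertiaDeg_unram _ hn, card_residueField_bot] at h1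
  exact h1

lemma mem_unram_bot_of_pow_eq_one {n : ℕ} (hn : 0 < n) {ξ : PadicAlgCl p}
    (hξ : ξ ^ (p ^ n - 1) = 1) : ξ ∈ unram (⊥ : IntermediateField ℚ_[p] (PadicAlgCl p)) n := by
  refine mem_unram_of_pow_eq_one _ hn ?_
  rw [card_residueField_bot]
  exact hξ

lemma zeta_unram_two_mem {m : ℕ} (hm : 0 < m) :
    zeta (unram (⊥ : IntermediateField ℚ_[p] (PadicAlgCl p)) 2) m ∈
      unram (⊥ : IntermediateField ℚ_[p] (PadicAlgCl p)) (2 * m) := by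
  have h := (isPrimitiveRoot_zeta (unram (⊥ : IntermediateField ℚ_[p] (PadicAlgCl p)) 2)
    hm).pow_eq_one
  rw [card_residueField_unram_bot (by norm_num : 0 < 2), ← pow_mul] at h
  exact mem_unram_bot_of_pow_eq_one (Nat.mul_pos (by norm_num) hm) h

lemma unram_unram_two_le {m : ℕ} (hm : 0 < m) :
    unram (unram (⊥ : IntermediateField ℚ_[p] (PadicAlgCl p)) 2) m ≤
      unram (⊥ : IntermediateField ℚ_[p] (PadicAlgCl p)) (2 * m) := by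
  refine sup_le (unram_le_of_dvd _ (Dvd.intro m rfl) (Nat.mul_pos (by norm_num) hm)) ?_
  rw [IntermediateField.adjoin_simple_le_iff]
  exact zeta_unram_two_mem hm

lemma pow_apply_of_apply_eq_mul {g : Flat.Gp p} {η x : PadicAlgCl p} (hη : g η = η)
    (hx : g x = η * x) (i : ℕ) : (g ^ i) x = η ^ i * x := by
  induction i with
  | zero => simp
  | succ i ih =>
    rw [pow_succ', AlgEquiv.mul_apply, ih, map_mul, map_pow, hη, hx]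
    ring

end Fields

/-! ### The element `ϖ` with `ϖ ^ (p² - 1) = -p` -/

section Varpi

variable {ϖ : PadicAlgCl p}

lemma varpi_ne_zero (hϖ : ϖ ^ (p ^ 2 - 1) = -((p : ℕ) : PadicAlgCl p)) : ϖ ≠ 0 := by
  intro h
  rw [h, zero_pow (sq_sub_one_pos (p := p)).ne'] at hϖ
  exact prime_cast_ne_zero (p := p) (neg_eq_zero.mp hϖ.symm)

lemma norm_varpi_pow (hϖ : ϖ ^ (p ^ 2 - 1) = -((p : ℕ) : PadicAlgCl p)) :
    ‖ϖ‖ ^ (p ^ 2 - 1) = ‖((p : ℕ) : PadicAlgCl p)‖ := by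
  rw [← norm_pow, hϖ, norm_neg]

lemma norm_varpi_lt_one (hϖ : ϖ ^ (p ^ 2 - 1) = -((p : ℕ) : PadicAlgCl p)) : ‖ϖ‖ < 1 := by
  by_contra h
  have h2 : 1 ≤ ‖ϖ‖ ^ (p ^ 2 - 1) := one_le_pow₀ (not_lt.mp h)
  rw [norm_varpi_pow hϖ] at h2
  exact not_lt.mpr h2 norm_prime_lt_one

/-- Every automorphism multiplies `ϖ` by a `(p² - 1)`-th root of unity. -/
lemma exists_root_mul (hϖ : ϖ ^ (p ^ 2 - 1) = -((p : ℕ) : PadicAlgCl p)) (σ : Flat.Gp p) :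
    ∃ η : PadicAlgCl p, η ^ (p ^ 2 - 1) = 1 ∧ σ ϖ = η * ϖ := by
  have h0 := varpi_ne_zero hϖ
  refine ⟨σ ϖ / ϖ, ?_, (div_mul_cancel₀ _ h0).symm⟩
  rw [div_pow, ← map_pow, hϖ, map_neg, map_natCast]
  exact div_self (neg_ne_zero.mpr prime_cast_ne_zero)

/-- An automorphism moving `ϖ` by less than `‖ϖ‖` fixes it. -/
lemma apply_varpi_eq_of_norm_lt (hϖ : ϖ ^ (p ^ 2 - 1) = -((p : ℕ) : PadicAlgCl p))
    {w : Flat.Gp p} (h : ‖w ϖ - ϖ‖ < ‖ϖ‖) : w ϖ = ϖ := by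
  obtain ⟨η, hη, hw⟩ := exists_root_mul hϖ w
  have h0 := varpi_ne_zero hϖ
  have h1 : ‖η - 1‖ < 1 := by
    have e : w ϖ - ϖ = (η - 1) * ϖ := by rw [hw]; ring
    rw [e, norm_mul] at h
    exact (mul_lt_iff_lt_one_left (norm_pos_iff.mpr h0)).mp h
  rw [hw, eq_one_of_pow_eq_one_of_norm_sub_lt not_dvd_sq_sub_one hη h1, one_mul]

/-- If `τ1` generates inertia modulo the elements wild on `M ∋ ϖ`, every inertial element acts
on `ϖ` through a power of `τ1 ϖ / ϖ`. -/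
lemma exists_pow_mul_of_gen (hϖ : ϖ ^ (p ^ 2 - 1) = -((p : ℕ) : PadicAlgCl p))
    {M : IntermediateField ℚ_[p] (PadicAlgCl p)} (hϖM : ϖ ∈ M)
    {τ1 : Flat.Gp p} (hτ1 : Flat.IsInertial p τ1)
    (hgen : ∀ τ : Flat.Gp p, Flat.IsInertial p τ →
      ∃ a : ℕ, Flat.IsWildOn p M ((τ1 ^ a)⁻¹ * τ))
    {τ : Flat.Gp p} (hτ : Flat.IsInertial p τ) :
    ∃ a : ℕ, Flat.IsWildOn p M ((τ1 ^ a)⁻¹ * τ) ∧ τ ϖ = (τ1 ϖ / ϖ) ^ a * ϖ := by
  obtain ⟨a, ha⟩ := hgen τ hτ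
  refine ⟨a, ha, ?_⟩
  have h0 := varpi_ne_zero hϖ
  have hw : ((τ1 ^ a)⁻¹ * τ) ϖ = ϖ := apply_varpi_eq_of_norm_lt hϖ (ha.2 ϖ hϖM h0)
  have hτϖ : τ ϖ = (τ1 ^ a) ϖ := by
    calc τ ϖ = ((τ1 ^ a) * ((τ1 ^ a)⁻¹ * τ)) ϖ := by rw [mul_inv_cancel_left]
      _ = (τ1 ^ a) ϖ := by rw [AlgEquiv.mul_apply, hw]
  obtain ⟨η, hη, hη1⟩ := exists_root_mul hϖ τ1
  have hz : τ1 ϖ / ϖ = η := by rw [hη1, mul_div_cancel_right₀ _ h0]
  have hτη : τ1 η = η := apply_root_of_inertial hτ1 not_dvd_sq_sub_one hη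
  rw [hτϖ, hz]
  exact pow_apply_of_apply_eq_mul hτη hη1 a

end Varpi

/-! ### Frobenius acts on tame inertia by its exponent -/

section Conj

/-- The form of `WildFin.frob_conj_mem_wildAt` for an arbitrary exponent. -/
theorem frob_conj_mem_wildAt_pow (L : IntermediateField ℚ_[p] (PadicAlgCl p)) [Normal ℚ_[p] L]
    {n : ℕ} {s τ : PadicAlgCl p ≃ₐ[ℚ_[p]] PadicAlgCl p}
    (hs : ∀ x ∈ L, ‖x‖ ≤ 1 → ‖s x - x ^ n‖ < 1) (hτ : τ ∈ WildFin.inertiaAt L) :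
    (τ ^ n)⁻¹ * (s * τ * s⁻¹) ∈ WildFin.wildAt L := by
  intro x hx hx0
  have hxpos : 0 < ‖x‖ := norm_pos_iff.mpr hx0
  set y := s⁻¹ x with hy
  have hyL : y ∈ L := WildFin.map_mem L s⁻¹ hx
  have hy0 : y ≠ 0 := by simpa [hy] using hx0
  have hyn : ‖y‖ = ‖x‖ := by rw [hy, WildFin.norm_map]
  have hsy : s y = x := by
    rw [hy, ← AlgEquiv.mul_apply, mul_inv_cancel, AlgEquiv.one_apply]
  set a := τ y / y with ha
  have haL : a ∈ L := L.div_mem (WildFin.map_mem L τ hyL) hyL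
  have han : ‖a‖ = 1 := by
    rw [ha, norm_div, WildFin.norm_map, div_self (norm_ne_zero_iff.mpr hy0)]
  have hτy : τ y = a * y := by rw [ha, div_mul_cancel₀ _ hy0]
  set b := τ x / x with hb
  have hbn : ‖b‖ = 1 := by
    rw [hb, norm_div, WildFin.norm_map, div_self (norm_ne_zero_iff.mpr hx0)]
  set u := x / y with hu
  have huL : u ∈ L := L.div_mem hx hyL
  have hun : ‖u‖ = 1 := by rw [hu, norm_div, hyn, div_self (norm_ne_zero_iff.mpr hx0)]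
  have hu0 : u ≠ 0 := by
    intro h
    rw [h, norm_zero] at hun
    exact zero_ne_one hun
  have hxu : x = u * y := by rw [hu, div_mul_cancel₀ _ hy0]
  have hab : ‖b - a‖ < 1 := by
    have e : b - a = (τ u - u) / u * a := by
      rw [hb]
      nth_rewrite 1 [hxu]
      rw [map_mul, hτy, hxu]
      field_simp
    rw [e, norm_mul, norm_div, han, hun, div_one, mul_one]
    exact hτ u huL hun.le
  have h1 : ‖s a - a ^ n‖ < 1 := hs a haL han.le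
  have h2 : ‖a ^ n - b ^ n‖ < 1 := by
    rw [norm_sub_rev]
    exact WildFin.norm_pow_sub_pow_lt hbn.le han.le hab n
  have h3 : ‖(τ ^ n) x - b ^ n * x‖ < ‖x‖ := WildFin.norm_pow_apply_sub_lt L hτ hx hx0 n
  have e1 : ((τ ^ n)⁻¹ * (s * τ * s⁻¹)) x - x = (τ ^ n)⁻¹ (s (τ y) - (τ ^ n) x) := by
    rw [map_sub, ← AlgEquiv.mul_apply (τ ^ n)⁻¹ (τ ^ n), inv_mul_cancel, AlgEquiv.one_apply]
    simp only [AlgEquiv.mul_apply, hy]
  have e2 : s (τ y) - (τ ^ n) x =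
      ((s a - a ^ n) + (a ^ n - b ^ n)) * x - ((τ ^ n) x - b ^ n * x) := by
    rw [hτy, map_mul, hsy]
    ring
  rw [e1, WildFin.norm_map, e2, sub_eq_add_neg]
  refine lt_of_le_of_lt (IsUltrametricDist.norm_add_le_max _ _) (max_lt ?_ ?_)
  · rw [norm_mul]
    refine mul_lt_of_lt_one_left hxpos ?_
    exact lt_of_le_of_lt (IsUltrametricDist.norm_add_le_max _ _) (max_lt h1 h2)
  · rw [norm_neg]
    exact h3

end Conj

/-! ### The field `K_m := unram ⊥ (2 m) ⊔ ℚ_p⟮ϖ⟯` -/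

section FieldK

local notation "Qp2" => unram (⊥ : IntermediateField ℚ_[p] (PadicAlgCl p)) 2

local notation "Kur(" m ")" => unram (⊥ : IntermediateField ℚ_[p] (PadicAlgCl p)) (2 * m)

lemma unram_two_le_unram {m : ℕ} (hm : 0 < m) : Qp2 ≤ Kur(m) :=
  unram_le_of_dvd _ (Dvd.intro m rfl) (Nat.mul_pos (by norm_num) hm)

lemma root_mem_unram_two {η : PadicAlgCl p} (hη : η ^ (p ^ 2 - 1) = 1) : η ∈ Qp2 :=
  mem_unram_bot_of_pow_eq_one (by norm_num) hη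

lemma varpi_mem_K (m : ℕ) (ϖ : PadicAlgCl p) : ϖ ∈ Kur(m) ⊔ ℚ_[p]⟮ϖ⟯ :=
  (le_sup_right : ℚ_[p]⟮ϖ⟯ ≤ Kur(m) ⊔ ℚ_[p]⟮ϖ⟯) (IntermediateField.mem_adjoin_simple_self _ _)

lemma finiteDimensional_K (m : ℕ) (ϖ : PadicAlgCl p) :
    FiniteDimensional ℚ_[p] ↥(Kur(m) ⊔ ℚ_[p]⟮ϖ⟯) := by
  have : FiniteDimensional ℚ_[p] ℚ_[p]⟮ϖ⟯ :=
    IntermediateField.adjoin.finiteDimensional (Algebra.IsIntegral.isIntegral _)
  exact IntermediateField.finiteDimensional_sup _ _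

lemma not_dvd_card_sub_one (k : Type) [Field k] [Finite k] [CharP k p] :
    ¬ p ∣ Nat.card k - 1 := by
  let _ := Fintype.ofFinite k
  obtain ⟨r, -, hr⟩ := FiniteField.card k p
  rw [Nat.card_eq_fintype_card, hr]
  exact not_dvd_pow_sub_one r.pos

variable {ϖ : PadicAlgCl p}

/-- `K_m` is stable under `Gal(ℚ̄_p/ℚ_p)`. -/
lemma map_mem_K (hϖ : ϖ ^ (p ^ 2 - 1) = -((p : ℕ) : PadicAlgCl p)) {m : ℕ} (hm : 0 < m)
    (σ : Flat.Gp p) {x : PadicAlgCl p} (hx : x ∈ Kur(m) ⊔ ℚ_[p]⟮ϖ⟯) :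
    σ x ∈ Kur(m) ⊔ ℚ_[p]⟮ϖ⟯ := by
  have h2m : 0 < 2 * m := Nat.mul_pos (by norm_num) hm
  have key : Kur(m) ⊔ ℚ_[p]⟮ϖ⟯ ≤
      (Kur(m) ⊔ ℚ_[p]⟮ϖ⟯).comap (σ : PadicAlgCl p →ₐ[ℚ_[p]] PadicAlgCl p) := by
    refine sup_le (fun e he => ?_) ?_
    · show σ e ∈ Kur(m) ⊔ ℚ_[p]⟮ϖ⟯
      exact (le_sup_left : Kur(m) ≤ Kur(m) ⊔ ℚ_[p]⟮ϖ⟯)
        (map_mem_unram _ (mem_fixingSubgroup_bot σ) h2m he)
    · rw [IntermediateField.adjoin_simple_le_iff]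
      show σ ϖ ∈ Kur(m) ⊔ ℚ_[p]⟮ϖ⟯
      obtain ⟨η, hη, hσϖ⟩ := exists_root_mul hϖ σ
      rw [hσϖ]
      exact mul_mem ((le_sup_left : Kur(m) ≤ Kur(m) ⊔ ℚ_[p]⟮ϖ⟯)
        (unram_two_le_unram hm (root_mem_unram_two hη))) (varpi_mem_K m ϖ)
  exact key hx

/-- Every `σ ^ (2 m (p² - 1))` fixes `K_m`. -/
lemma pow_mem_fixingSubgroup_K (hϖ : ϖ ^ (p ^ 2 - 1) = -((p : ℕ) : PadicAlgCl p)) {m : ℕ}
    (hm : 0 < m) (σ : Flat.Gp p) :
    σ ^ (2 * m * (p ^ 2 - 1)) ∈ (Kur(m) ⊔ ℚ_[p]⟮ϖ⟯).fixingSubgroup := by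
  have hp : p.Prime := Fact.out
  have h2m : 0 < 2 * m := Nat.mul_pos (by norm_num) hm
  have hg : σ ^ (2 * m) ∈ (Kur(m)).fixingSubgroup := by
    rw [mem_fixingSubgroup_unram_iff]
    refine ⟨mem_fixingSubgroup_bot _, ?_⟩
    obtain ⟨j, -, hj⟩ := exists_map_zeta_eq_pow
      (⊥ : IntermediateField ℚ_[p] (PadicAlgCl p)) h2m (mem_fixingSubgroup_bot σ)
    rw [card_residueField_bot] at hj
    have h := (isPrimitiveRoot_zeta (⊥ : IntermediateField ℚ_[p] (PadicAlgCl p)) h2m).pow_eq_one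
    rw [card_residueField_bot] at h
    have h1 : 1 ≤ p ^ (2 * m) := Nat.one_le_pow _ _ hp.pos
    have h3 : zeta (⊥ : IntermediateField ℚ_[p] (PadicAlgCl p)) (2 * m) ^ (p ^ (2 * m)) =
        zeta (⊥ : IntermediateField ℚ_[p] (PadicAlgCl p)) (2 * m) := by
      calc zeta (⊥ : IntermediateField ℚ_[p] (PadicAlgCl p)) (2 * m) ^ (p ^ (2 * m))
          = zeta (⊥ : IntermediateField ℚ_[p] (PadicAlgCl p)) (2 * m) ^ (p ^ (2 * m) - 1 + 1) := by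
            rw [Nat.sub_add_cancel h1]
        _ = zeta (⊥ : IntermediateField ℚ_[p] (PadicAlgCl p)) (2 * m) := by
            rw [pow_succ, h, one_mul]
    have e : (p ^ j) ^ (2 * m) = (p ^ (2 * m)) ^ j := by
      rw [← pow_mul, ← pow_mul, mul_comm]
    rw [pow_apply_root σ hj (2 * m), e]
    exact pow_pow_eq_self h3 j
  rw [pow_mul, mem_fixingSubgroup_sup_adjoin_iff]
  refine ⟨Subgroup.pow_mem _ hg _, ?_⟩
  obtain ⟨η, hη, hgϖ⟩ := exists_root_mul hϖ (σ ^ (2 * m))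
  have hgη : (σ ^ (2 * m)) η = η :=
    (IntermediateField.mem_fixingSubgroup_iff _ _).mp hg η
      (unram_two_le_unram hm (root_mem_unram_two hη))
  rw [pow_apply_of_apply_eq_mul hgη hgϖ, hη, one_mul]

/-- **The tame generator.**  An inertial `τ0` acting on `ϖ` through a primitive
`(p² - 1)`-th root of unity. -/
theorem exists_tame_generator (hW : Flat.LGWildStatement)
    (hUr : ∀ a : PadicAlgCl p,
      (∀ τ : Flat.Gp p, (∀ x : PadicAlgCl p, ‖x‖ ≤ 1 → ‖τ x - x‖ < 1) → τ a = a) → ‖a‖ < 1 →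
      ∃ b : PadicAlgCl p, ‖b‖ ≤ 1 ∧
        (∀ τ : Flat.Gp p, (∀ x : PadicAlgCl p, ‖x‖ ≤ 1 → ‖τ x - x‖ < 1) → τ b = b) ∧
        a = (p : PadicAlgCl p) * b)
    (hϖ : ϖ ^ (p ^ 2 - 1) = -((p : ℕ) : PadicAlgCl p))
    (K : IntermediateField ℚ_[p] (PadicAlgCl p)) [FiniteDimensional ℚ_[p] K] (hϖK : ϖ ∈ K)
    (hK : ∀ σ : Flat.Gp p, ∀ x ∈ K, σ x ∈ K) :
    ∃ (τ0 : Flat.Gp p) (z : PadicAlgCl p), IsPrimitiveRoot z (p ^ 2 - 1) ∧
      Flat.IsInertial p τ0 ∧ τ0 ϖ = z * ϖ := by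
  have h0 := varpi_ne_zero hϖ
  obtain ⟨τ1, hτ1, hgen⟩ := (hW p K).2 hK
  obtain ⟨z, hz, hτ1ϖ⟩ := exists_root_mul hϖ τ1
  have hzdiv : τ1 ϖ / ϖ = z := by rw [hτ1ϖ, mul_div_cancel_right₀ _ h0]
  refine ⟨τ1, z, ⟨hz, fun l hl => ?_⟩, hτ1, hτ1ϖ⟩
  obtain ⟨d, hd⟩ : ∃ d : ℕ, d = Nat.gcd l (p ^ 2 - 1) := ⟨_, rfl⟩
  have hzd : z ^ d = 1 := by
    rw [hd]
    exact pow_gcd_eq_one.mpr ⟨hl, hz⟩
  have hdpos : 0 < d := by
    rw [hd]
    exact Nat.gcd_pos_of_pos_right l sq_sub_one_pos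
  have hfix : ∀ τ : Flat.Gp p, (∀ x : PadicAlgCl p, ‖x‖ ≤ 1 → ‖τ x - x‖ < 1) →
      τ (ϖ ^ d) = ϖ ^ d := by
    intro τ hτ
    obtain ⟨a, -, ha⟩ := exists_pow_mul_of_gen hϖ hϖK hτ1 hgen (τ := τ) hτ
    rw [map_pow, ha, hzdiv, mul_pow, ← pow_mul, mul_comm a d, pow_mul, hzd, one_pow, one_mul]
  have hlt : ‖ϖ ^ d‖ < 1 := by
    rw [norm_pow]
    exact pow_lt_one₀ (norm_nonneg _) (norm_varpi_lt_one hϖ) hdpos.ne'
  obtain ⟨b, hb1, -, hb⟩ := hUr (ϖ ^ d) hfix hlt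
  have h1 : ‖ϖ‖ ^ d ≤ ‖ϖ‖ ^ (p ^ 2 - 1) := by
    rw [norm_varpi_pow hϖ, ← norm_pow, hb, norm_mul]
    exact mul_le_of_le_one_right (norm_nonneg _) hb1
  have h2 : p ^ 2 - 1 ≤ d :=
    (pow_le_pow_iff_right_of_lt_one₀ (norm_pos_iff.mpr h0) (norm_varpi_lt_one hϖ)).mp h1
  have h3 : d ∣ p ^ 2 - 1 := by
    rw [hd]
    exact Nat.gcd_dvd_right l (p ^ 2 - 1)
  have h4 : d = p ^ 2 - 1 := Nat.le_antisymm (Nat.le_of_dvd sq_sub_one_pos h3) h2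
  rw [← h4, hd]
  exact Nat.gcd_dvd_left l (p ^ 2 - 1)

/-- **The `ω̄`-clause**: `τ0` acts on `ζ_p` through `z ^ (p + 1)` modulo the maximal ideal. -/
theorem omega_clause (hϖ : ϖ ^ (p ^ 2 - 1) = -((p : ℕ) : PadicAlgCl p)) {ζ : PadicAlgCl p}
    (hζ : IsPrimitiveRoot ζ p) {τ0 : Flat.Gp p} {z : PadicAlgCl p}
    (hτ0 : Flat.IsInertial p τ0) (hz : z ^ (p ^ 2 - 1) = 1) (hτϖ : τ0 ϖ = z * ϖ) (n : ℕ)
    (hn : τ0 ζ = ζ ^ n) : ‖(n : PadicAlgCl p) - z ^ (p + 1)‖ < 1 := by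
  have hp : p.Prime := Fact.out
  have h0 := varpi_ne_zero hϖ
  have hπ0 : ϖ ^ (p + 1) ≠ 0 := pow_ne_zero _ h0
  have hπ : ‖ϖ ^ (p + 1)‖ ^ (p - 1) = ‖((p : ℕ) : PadicAlgCl p)‖ := by
    rw [norm_pow, ← pow_mul, succ_mul_pred, norm_varpi_pow hϖ]
  have hp1 : p - 1 ≠ 0 := by
    have := hp.two_le
    omega
  have hy : ‖ζ - 1‖ = ‖ϖ ^ (p + 1)‖ :=
    (pow_left_inj₀ (norm_nonneg _) (norm_nonneg _) hp1).mp
      ((norm_sub_one_pow_of_isPrimitiveRoot hζ).trans hπ.symm)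
  have hy0 : ζ - 1 ≠ 0 := sub_ne_zero.mpr (hζ.ne_one hp.one_lt)
  have hylt : ‖ζ - 1‖ < 1 := by
    rw [hy, norm_pow]
    exact pow_lt_one₀ (norm_nonneg _) (norm_varpi_lt_one hϖ) (Nat.succ_ne_zero p)
  have hz1 : ‖z‖ = 1 := norm_eq_one_of_pow_eq_one sq_sub_one_pos.ne' hz
  have hz0 : z ≠ 0 := by
    intro h
    rw [h, norm_zero] at hz1
    exact zero_ne_one hz1
  have hc1 : ‖z ^ (p + 1)‖ = 1 := by rw [norm_pow, hz1, one_pow]
  have hun : ‖(ζ - 1) / ϖ ^ (p + 1)‖ = 1 := by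
    rw [norm_div, hy, div_self (norm_ne_zero_iff.mpr hπ0)]
  have h1 : ‖τ0 ((ζ - 1) / ϖ ^ (p + 1)) - (ζ - 1) / ϖ ^ (p + 1)‖ < 1 := hτ0 _ hun.le
  have hτu : τ0 ((ζ - 1) / ϖ ^ (p + 1)) = (ζ ^ n - 1) / (z ^ (p + 1) * ϖ ^ (p + 1)) := by
    rw [map_div₀, map_sub, map_one, hn, map_pow, hτϖ, mul_pow]
  have hS : ζ ^ n - 1 = (ζ - 1) * ∑ i ∈ Finset.range n, ζ ^ i := (mul_geom_sum ζ n).symm
  have e : ∑ i ∈ Finset.range n, ζ ^ i - z ^ (p + 1) =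
      (τ0 ((ζ - 1) / ϖ ^ (p + 1)) - (ζ - 1) / ϖ ^ (p + 1)) * z ^ (p + 1) /
        ((ζ - 1) / ϖ ^ (p + 1)) := by
    rw [hτu, hS]
    field_simp
  have h2 : ‖∑ i ∈ Finset.range n, ζ ^ i - z ^ (p + 1)‖ < 1 := by
    rw [e, norm_div, norm_mul, hc1, hun, mul_one, div_one]
    exact h1
  have h3 : ‖(n : PadicAlgCl p) - ∑ i ∈ Finset.range n, ζ ^ i‖ < 1 := by
    rw [norm_sub_rev]
    exact norm_geom_sum_sub_lt hylt n
  exact WildFin.norm_sub_lt_of h3 h2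

/-- **The conjugation clause**: an element outside `G_{ℚ_{p²}}` turns `τ0` into `τ0 ^ p` on
`K_m`. -/
theorem conj_clause (hϖ : ϖ ^ (p ^ 2 - 1) = -((p : ℕ) : PadicAlgCl p)) {m : ℕ} (hm : 0 < m)
    {τ0 : Flat.Gp p} {z : PadicAlgCl p} (hτ0 : Flat.IsInertial p τ0)
    (hz : z ^ (p ^ 2 - 1) = 1) (hτϖ : τ0 ϖ = z * ϖ) (F : Flat.Gp p)
    (hF : F ∉ (Qp2).fixingSubgroup) {x : PadicAlgCl p} (hx : x ∈ Kur(m) ⊔ ℚ_[p]⟮ϖ⟯) :
    (F * τ0 * F⁻¹) x = (τ0 ^ p) x := by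
  have h2m : 0 < 2 * m := Nat.mul_pos (by norm_num) hm
  have hτz : τ0 z = z := apply_root_of_inertial hτ0 not_dvd_sq_sub_one hz
  have hFz : F z = z ^ p := by
    obtain ⟨j, hj2, hj⟩ := exists_map_zeta_eq_pow
      (⊥ : IntermediateField ℚ_[p] (PadicAlgCl p)) (by norm_num : 0 < 2) (mem_fixingSubgroup_bot F)
    rw [card_residueField_bot] at hj
    have hprim := isPrimitiveRoot_zeta (⊥ : IntermediateField ℚ_[p] (PadicAlgCl p))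
      (by norm_num : 0 < 2)
    rw [card_residueField_bot] at hprim
    have hj1 : j = 1 := by
      by_contra hne
      have hj0 : j = 0 := by omega
      rw [hj0, pow_zero, pow_one] at hj
      exact hF ((mem_fixingSubgroup_unram_iff _ F).mpr ⟨mem_fixingSubgroup_bot F, hj⟩)
    rw [hj1, pow_one] at hj
    exact map_root_eq_pow sq_sub_one_pos.ne' hprim hz F hj
  have h1 : (F * τ0 * F⁻¹) ϖ = z ^ p * ϖ := by
    obtain ⟨η, hη, hFϖ⟩ := exists_root_mul hϖ F⁻¹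
    have hτη : τ0 η = η := apply_root_of_inertial hτ0 not_dvd_sq_sub_one hη
    have hFF : F (η * ϖ) = ϖ := by
      rw [← hFϖ, ← AlgEquiv.mul_apply, mul_inv_cancel, AlgEquiv.one_apply]
    have e : η * (z * ϖ) = z * (η * ϖ) := by ring
    rw [AlgEquiv.mul_apply, AlgEquiv.mul_apply, hFϖ, map_mul, hτη, hτϖ, e, map_mul, hFF, hFz]
  have h2 : (τ0 ^ p) ϖ = z ^ p * ϖ := pow_apply_of_apply_eq_mul hτz hτϖ p
  have hin1 : F * τ0 * F⁻¹ ∈ inert p := conj_mem_inert F hτ0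
  have hin2 : τ0 ^ p ∈ inert p := (inert p).pow_mem hτ0 p
  have hg : (τ0 ^ p)⁻¹ * (F * τ0 * F⁻¹) ∈ (Kur(m) ⊔ ℚ_[p]⟮ϖ⟯).fixingSubgroup := by
    rw [mem_fixingSubgroup_sup_adjoin_iff]
    refine ⟨inertial_mem_fixingSubgroup_unram_bot
      ((inert p).mul_mem ((inert p).inv_mem hin2) hin1) h2m, ?_⟩
    rw [AlgEquiv.mul_apply, h1, ← h2, ← AlgEquiv.mul_apply, inv_mul_cancel, AlgEquiv.one_apply]
  have h3 := (IntermediateField.mem_fixingSubgroup_iff _ _).mp hg x hx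
  calc (F * τ0 * F⁻¹) x = ((τ0 ^ p) * ((τ0 ^ p)⁻¹ * (F * τ0 * F⁻¹))) x := by
        rw [mul_inv_cancel_left]
    _ = (τ0 ^ p) x := by rw [AlgEquiv.mul_apply, h3]

/-- **The character clauses**, with the auxiliary normal level `M ⊇ K_m ⊔ L`. -/
theorem char_clause_aux (hW : Flat.LGWildStatement) (hF : Flat.LGFrobStatement)
    (hϖ : ϖ ^ (p ^ 2 - 1) = -((p : ℕ) : PadicAlgCl p))
    (k : Type) [Field k] [Finite k] [CharP k p] {m : ℕ} (hm : 0 < m)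
    (hkm : Nat.card k - 1 ∣ m) (hpm : p ^ 2 - 1 ∣ m)
    {τ0 : Flat.Gp p} {z : PadicAlgCl p} (hτ0 : Flat.IsInertial p τ0)
    (hz : IsPrimitiveRoot z (p ^ 2 - 1)) (hτϖ : τ0 ϖ = z * ϖ)
    (ψ : Flat.Gp p → kˣ)
    (hmul : ∀ σ ∈ (Qp2).fixingSubgroup, ∀ τ ∈ (Qp2).fixingSubgroup, ψ (σ * τ) = ψ σ * ψ τ)
    (L M : IntermediateField ℚ_[p] (PadicAlgCl p)) [Normal ℚ_[p] M] [FiniteDimensional ℚ_[p] M]
    (hL : ∀ σ ∈ (Qp2).fixingSubgroup, (∀ x ∈ L, σ x = x) → ψ σ = 1)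
    (hLM : L ≤ M) (hKM : Kur(m) ⊔ ℚ_[p]⟮ϖ⟯ ≤ M) :
    (∀ σ ∈ (Kur(m) ⊔ ℚ_[p]⟮ϖ⟯).fixingSubgroup, ψ σ = 1) ∧
    ∀ τ ∈ (Qp2).fixingSubgroup, Flat.IsInertial p τ → τ ϖ = ϖ → ψ τ = 1 := by
  have hp : p.Prime := Fact.out
  have h0 := varpi_ne_zero hϖ
  have h2m : 0 < 2 * m := Nat.mul_pos (by norm_num) hm
  have hK0M : Kur(m) ≤ M := le_trans le_sup_left hKM
  have hF0K0 : Qp2 ≤ Kur(m) := unram_two_le_unram hm
  have hF0M : Qp2 ≤ M := le_trans hF0K0 hK0M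
  have hϖM : ϖ ∈ M := hKM (varpi_mem_K m ϖ)
  have hcard : Nat.card 𝓀[Qp2] = p ^ 2 := card_residueField_unram_bot (by norm_num)
  -- `ψ` as a homomorphism on `G_{ℚ_{p²}}`
  let ψH : (Qp2).fixingSubgroup →* kˣ :=
    MonoidHom.mk' (fun h => ψ h.1) (fun a b => hmul a.1 a.2 b.1 b.2)
  have hψpow : ∀ σ ∈ (Qp2).fixingSubgroup, ∀ n : ℕ, ψ (σ ^ n) = ψ σ ^ n :=
    fun σ hσ n => map_pow ψH ⟨σ, hσ⟩ n
  have hψinv : ∀ σ ∈ (Qp2).fixingSubgroup, ψ σ⁻¹ = (ψ σ)⁻¹ :=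
    fun σ hσ => map_inv ψH ⟨σ, hσ⟩
  have hcardpow : ∀ u : kˣ, u ^ (Nat.card k - 1) = 1 := by
    intro u
    rw [← Nat.card_units]
    exact pow_card_eq_one'
  have hpN : ¬ p ∣ Nat.card k - 1 := not_dvd_card_sub_one k
  -- elements wild on `M` are killed
  have hwild : ∀ w : Flat.Gp p, w ∈ (Qp2).fixingSubgroup → Flat.IsWildOn p M w → ψ w = 1 := by
    intro w hwH hw
    obtain ⟨n, hn⟩ := (hW p M).1 w (fun x hx => WildFin.map_mem M w hx) hw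
    have h1 : ψ (w ^ (p ^ n)) = 1 :=
      hL _ (Subgroup.pow_mem _ hwH _) (fun x hx => hn x (hLM hx))
    rw [hψpow w hwH] at h1
    have h3 : ψ w ^ Nat.gcd (p ^ n) (Nat.card k - 1) = 1 :=
      pow_gcd_eq_one.mpr ⟨h1, hcardpow _⟩
    have h4 : Nat.gcd (p ^ n) (Nat.card k - 1) = 1 :=
      Nat.Coprime.pow_left n ((Nat.Prime.coprime_iff_not_dvd hp).mpr hpN)
    rw [h4, pow_one] at h3
    exact h3
  -- the Frobenius of `ℚ_{p²}` on `M` and the tame generator of `M`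
  obtain ⟨s, hsH, hsfrob, hsgen⟩ := hF p (Qp2) M hF0M
  rw [hcard] at hsfrob
  obtain ⟨τ1, hτ1, hgen⟩ := (hW p M).2 (fun σ x hx => WildFin.map_mem M σ hx)
  have hτ1H : τ1 ∈ (Qp2).fixingSubgroup :=
    inertial_mem_fixingSubgroup_unram_bot hτ1 (by norm_num)
  have hT : ψ τ1 ^ (p ^ 2 - 1) = 1 := by
    have hw : (τ1 ^ (p ^ 2))⁻¹ * (s * τ1 * s⁻¹) ∈ WildFin.wildAt M :=
      frob_conj_mem_wildAt_pow M hsfrob (fun x _ hx1 => hτ1 x hx1)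
    have hwin : (τ1 ^ (p ^ 2))⁻¹ * (s * τ1 * s⁻¹) ∈ inert p :=
      (inert p).mul_mem ((inert p).inv_mem ((inert p).pow_mem hτ1 _)) (conj_mem_inert s hτ1)
    have hwH : (τ1 ^ (p ^ 2))⁻¹ * (s * τ1 * s⁻¹) ∈ (Qp2).fixingSubgroup :=
      inertial_mem_fixingSubgroup_unram_bot hwin (by norm_num)
    have h1 : ψ ((τ1 ^ (p ^ 2))⁻¹ * (s * τ1 * s⁻¹)) = 1 := hwild _ hwH ⟨hwin, hw⟩
    have h2 : ψ ((τ1 ^ (p ^ 2))⁻¹ * (s * τ1 * s⁻¹)) =
        (ψ τ1 ^ (p ^ 2))⁻¹ * (ψ s * ψ τ1 * (ψ s)⁻¹) := by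
      rw [hmul ((τ1 ^ (p ^ 2))⁻¹) (inv_mem (pow_mem hτ1H _)) (s * τ1 * s⁻¹)
          (mul_mem (mul_mem hsH hτ1H) (inv_mem hsH)),
        hψinv (τ1 ^ (p ^ 2)) (pow_mem hτ1H _), hψpow τ1 hτ1H,
        hmul (s * τ1) (mul_mem hsH hτ1H) s⁻¹ (inv_mem hsH), hmul s hsH τ1 hτ1H, hψinv s hsH]
    rw [h2, mul_comm (ψ s) (ψ τ1), mul_assoc (ψ τ1), mul_inv_cancel, mul_one] at h1
    have h3 : ψ τ1 ^ (p ^ 2) = ψ τ1 := inv_mul_eq_one.mp h1
    have hp2 : 1 ≤ p ^ 2 := Nat.one_le_pow _ _ hp.pos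
    have h5 : ψ τ1 ^ (p ^ 2 - 1) * ψ τ1 = 1 * ψ τ1 := by
      rw [← pow_succ, Nat.sub_add_cancel hp2, h3, one_mul]
    exact mul_right_cancel h5
  -- the root of unity of the generator is primitive
  have hη1prim : IsPrimitiveRoot (τ1 ϖ / ϖ) (p ^ 2 - 1) := by
    obtain ⟨c, -, hc⟩ := exists_pow_mul_of_gen hϖ hϖM hτ1 hgen hτ0
    have hzc : z = (τ1 ϖ / ϖ) ^ c := mul_right_cancel₀ h0 (by rw [← hτϖ, hc])
    obtain ⟨η, hη, hη1⟩ := exists_root_mul hϖ τ1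
    have hη' : τ1 ϖ / ϖ = η := by rw [hη1, mul_div_cancel_right₀ _ h0]
    refine ⟨by rw [hη']; exact hη, fun l hl => ?_⟩
    apply hz.dvd_of_pow_eq_one
    rw [hzc, ← pow_mul, mul_comm, pow_mul, hl, one_pow]
  -- inertial elements fixing `ϖ`
  have hB : ∀ τ ∈ (Qp2).fixingSubgroup, Flat.IsInertial p τ → τ ϖ = ϖ → ψ τ = 1 := by
    intro τ hτH hτ hτfix
    obtain ⟨a, ha, haϖ⟩ := exists_pow_mul_of_gen hϖ hϖM hτ1 hgen hτ
    have h1 : (τ1 ϖ / ϖ) ^ a = 1 := by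
      rw [hτfix] at haϖ
      exact mul_right_cancel₀ h0 (by rw [one_mul]; exact haϖ.symm)
    obtain ⟨c, rfl⟩ := (hη1prim.pow_eq_one_iff_dvd a).mp h1
    have hwH : (τ1 ^ ((p ^ 2 - 1) * c))⁻¹ * τ ∈ (Qp2).fixingSubgroup :=
      mul_mem (inv_mem (pow_mem hτ1H _)) hτH
    have h3 := hwild _ hwH ha
    rw [hmul _ (inv_mem (pow_mem hτ1H _)) _ hτH, hψinv _ (pow_mem hτ1H _), hψpow _ hτ1H,
      pow_mul, hT, one_pow, inv_one, one_mul] at h3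
    exact h3
  refine ⟨?_, hB⟩
  intro σ hσK
  have hσH : σ ∈ (Qp2).fixingSubgroup :=
    IntermediateField.fixingSubgroup_le (le_trans hF0K0 le_sup_left) hσK
  obtain ⟨j, τ, hτ, hτH, hστ⟩ := hsgen σ hσH
  have hτK0 : τ ∈ (Kur(m)).fixingSubgroup := inertial_mem_fixingSubgroup_unram_bot hτ h2m
  have hσK0 : σ ∈ (Kur(m)).fixingSubgroup :=
    IntermediateField.fixingSubgroup_le le_sup_left hσK
  have hsjK0 : s ^ j ∈ (Kur(m)).fixingSubgroup := by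
    rw [IntermediateField.mem_fixingSubgroup_iff]
    intro x hx
    have h1 := hστ x (hK0M hx)
    rw [(IntermediateField.mem_fixingSubgroup_iff _ σ).mp hσK0 x hx,
      (IntermediateField.mem_fixingSubgroup_iff _ τ).mp hτK0 x hx] at h1
    exact h1.symm
  -- `s` is a Frobenius on the roots of unity generating `unram ℚ_{p²} m`, so `m ∣ j`
  have hszeta : s (zeta (Qp2) m) = zeta (Qp2) m ^ Nat.card 𝓀[Qp2] := by
    rw [hcard]
    have hz1 : zeta (Qp2) m ^ (p ^ (2 * m) - 1) = 1 := by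
      have h := (isPrimitiveRoot_zeta (Qp2) hm).pow_eq_one
      rw [hcard, ← pow_mul] at h
      exact h
    have hpn : ¬ p ∣ p ^ (2 * m) - 1 := not_dvd_pow_sub_one h2m
    have hn0 : p ^ (2 * m) - 1 ≠ 0 := by
      intro h
      exact hpn (h ▸ dvd_zero p)
    have hn1 : ‖zeta (Qp2) m‖ = 1 := norm_eq_one_of_pow_eq_one hn0 hz1
    refine eq_of_pow_eq_one_of_norm_sub_lt hpn ?_ ?_
      (hsfrob _ (hK0M (zeta_unram_two_mem hm)) hn1.le)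
    · rw [← map_pow, hz1, map_one]
    · rw [← pow_mul, mul_comm, pow_mul, hz1, one_pow]
  have hmj : m ∣ j := (frobenius_pow_mem_iff (Qp2) hm hsH hszeta j).mp
    (IntermediateField.fixingSubgroup_le (unram_unram_two_le hm) hsjK0)
  obtain ⟨c, rfl⟩ := hmj
  -- `s ^ j` and `τ` fix `ϖ`
  obtain ⟨ηs, hηs, hsϖ⟩ := exists_root_mul hϖ s
  have hsηs : s ηs = ηs :=
    (IntermediateField.mem_fixingSubgroup_iff _ s).mp hsH ηs (root_mem_unram_two hηs)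
  have hsjϖ : (s ^ (m * c)) ϖ = ϖ := by
    obtain ⟨d, hd⟩ := hpm
    rw [pow_apply_of_apply_eq_mul hsηs hsϖ, hd, pow_mul, pow_mul, hηs, one_pow, one_pow, one_mul]
  obtain ⟨ητ, hητ, hτϖ'⟩ := exists_root_mul hϖ τ
  have hsjη : (s ^ (m * c)) ητ = ητ :=
    (IntermediateField.mem_fixingSubgroup_iff _ _).mp (Subgroup.pow_mem _ hsH _) ητ
      (root_mem_unram_two hητ)
  have hσϖ : σ ϖ = ϖ :=
    (IntermediateField.mem_fixingSubgroup_iff _ σ).mp hσK ϖ (varpi_mem_K m ϖ)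
  have hτfix : τ ϖ = ϖ := by
    have h1 := hστ ϖ hϖM
    rw [hσϖ, hτϖ', map_mul, hsjϖ, hsjη] at h1
    rw [hτϖ']
    exact h1.symm
  have hψτ : ψ τ = 1 := hB τ hτH hτ hτfix
  -- `σ` is `s ^ j * τ` up to an element fixing `M`
  have hσ'H : (s ^ (m * c) * τ)⁻¹ * σ ∈ (Qp2).fixingSubgroup :=
    mul_mem (inv_mem (mul_mem (pow_mem hsH _) hτH)) hσH
  have hσ'L : ∀ x ∈ L, ((s ^ (m * c) * τ)⁻¹ * σ) x = x := by
    intro x hx
    rw [AlgEquiv.mul_apply, hστ x (hLM hx), ← AlgEquiv.mul_apply (s ^ (m * c)) τ,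
      ← AlgEquiv.mul_apply, inv_mul_cancel, AlgEquiv.one_apply]
  have h2 := hL _ hσ'H hσ'L
  have h3 : ψ σ = ψ (s ^ (m * c) * τ) * ψ ((s ^ (m * c) * τ)⁻¹ * σ) := by
    rw [← hmul _ (mul_mem (pow_mem hsH _) hτH) _ hσ'H, mul_inv_cancel_left]
  rw [h3, h2, mul_one, hmul _ (pow_mem hsH _) _ hτH, hψτ, mul_one, hψpow _ hsH]
  obtain ⟨d, hd⟩ := hkm
  rw [hd, pow_mul, pow_mul, hcardpow, one_pow, one_pow]

/-- **The character clauses**: the characters of `G_{ℚ_{p²}}` of finite level with values in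
`kˣ` are trivial on `G_{K_m}` and on the inertial elements fixing `ϖ`, as soon as
`(|k| - 1) (p² - 1) ∣ m`. -/
theorem char_clause (hW : Flat.LGWildStatement) (hF : Flat.LGFrobStatement)
    (hϖ : ϖ ^ (p ^ 2 - 1) = -((p : ℕ) : PadicAlgCl p))
    (k : Type) [Field k] [Finite k] [CharP k p] {m : ℕ} (hm : 0 < m)
    (hkm : Nat.card k - 1 ∣ m) (hpm : p ^ 2 - 1 ∣ m)
    {τ0 : Flat.Gp p} {z : PadicAlgCl p} (hτ0 : Flat.IsInertial p τ0)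
    (hz : IsPrimitiveRoot z (p ^ 2 - 1)) (hτϖ : τ0 ϖ = z * ϖ)
    (ψ : Flat.Gp p → kˣ)
    (hmul : ∀ σ ∈ (Qp2).fixingSubgroup, ∀ τ ∈ (Qp2).fixingSubgroup, ψ (σ * τ) = ψ σ * ψ τ)
    (hlev : ∃ L : IntermediateField ℚ_[p] (PadicAlgCl p), FiniteDimensional ℚ_[p] L ∧
      ∀ σ ∈ (Qp2).fixingSubgroup, (∀ x ∈ L, σ x = x) → ψ σ = 1) :
    (∀ σ ∈ (Kur(m) ⊔ ℚ_[p]⟮ϖ⟯).fixingSubgroup, ψ σ = 1) ∧
    ∀ τ ∈ (Qp2).fixingSubgroup, Flat.IsInertial p τ → τ ϖ = ϖ → ψ τ = 1 := by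
  obtain ⟨L, hLfin, hL⟩ := hlev
  have hKfin := finiteDimensional_K (p := p) m ϖ
  have hKLfin : FiniteDimensional ℚ_[p] ↥((Kur(m) ⊔ ℚ_[p]⟮ϖ⟯) ⊔ L) :=
    IntermediateField.finiteDimensional_sup _ _
  have hle := IntermediateField.le_normalClosure ((Kur(m) ⊔ ℚ_[p]⟮ϖ⟯) ⊔ L)
  have hnorm : Normal ℚ_[p] ↥(IntermediateField.normalClosure ℚ_[p]
      ↥((Kur(m) ⊔ ℚ_[p]⟮ϖ⟯) ⊔ L) (PadicAlgCl p)) := normalClosure.normal _ _ _
  have hfin : FiniteDimensional ℚ_[p] ↥(IntermediateField.normalClosure ℚ_[p]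
      ↥((Kur(m) ⊔ ℚ_[p]⟮ϖ⟯) ⊔ L) (PadicAlgCl p)) := normalClosure.is_finiteDimensional _ _ _
  exact char_clause_aux hW hF hϖ k hm hkm hpm hτ0 hz hτϖ ψ hmul L
    (IntermediateField.normalClosure ℚ_[p] ↥((Kur(m) ⊔ ℚ_[p]⟮ϖ⟯) ⊔ L) (PadicAlgCl p))
    hL (le_trans le_sup_right hle) (le_trans le_sup_left hle)

/-- **LI, character / group half.**  The body of `Flat.LIStatement` at `(p, k, ζ)` from the two
local Galois rows, the fact `hUr` of row B3 and the field input `hField`. -/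
theorem li_of_field (hp2 : p ≠ 2) (hW : Flat.LGWildStatement) (hF : Flat.LGFrobStatement)
    (hUr : ∀ a : PadicAlgCl p,
      (∀ τ : Flat.Gp p, (∀ x : PadicAlgCl p, ‖x‖ ≤ 1 → ‖τ x - x‖ < 1) → τ a = a) → ‖a‖ < 1 →
      ∃ b : PadicAlgCl p, ‖b‖ ≤ 1 ∧
        (∀ τ : Flat.Gp p, (∀ x : PadicAlgCl p, ‖x‖ ≤ 1 → ‖τ x - x‖ < 1) → τ b = b) ∧
        a = (p : PadicAlgCl p) * b)
    (k : Type) [Field k] [Finite k] [CharP k p] (ζ : PadicAlgCl p) (hζ : IsPrimitiveRoot ζ p)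
    (hField : ∀ m : ℕ, 0 < m → ∃ ϖ : PadicAlgCl p, ϖ ^ (p ^ 2 - 1) = -(p : PadicAlgCl p) ∧
      ζ ∈ unram (⊥ : IntermediateField ℚ_[p] (PadicAlgCl p)) (2 * m) ⊔ ℚ_[p]⟮ϖ⟯ ∧
      ∀ x ∈ unram (⊥ : IntermediateField ℚ_[p] (PadicAlgCl p)) (2 * m) ⊔ ℚ_[p]⟮ϖ⟯,
        ‖x‖ < 1 → ‖x‖ ≤ ‖ϖ‖) :
    ∃ (K : IntermediateField ℚ_[p] (PadicAlgCl p)) (_ : FiniteDimensional ℚ_[p] K)
      (ϖ z : PadicAlgCl p) (τ0 φ φ1 : Flat.Gp p) (n0 : ℕ),
      unram (⊥ : IntermediateField ℚ_[p] (PadicAlgCl p)) 2 ≤ K ∧ ζ ∈ K ∧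
      (∀ σ : Flat.Gp p, ∀ x ∈ K, σ x ∈ K) ∧
      (0 < n0 ∧ ¬ p ∣ n0 ∧ ∀ σ : Flat.Gp p, σ ^ n0 ∈ K.fixingSubgroup) ∧
      ϖ ∈ K ∧ ‖ϖ‖ < 1 ∧ (∀ x ∈ K, ‖x‖ < 1 → ‖x‖ ≤ ‖ϖ‖) ∧
      ‖ϖ‖ ^ ((p + 1) * (p - 1)) = ‖(p : PadicAlgCl p)‖ ∧
      z ∈ unram (⊥ : IntermediateField ℚ_[p] (PadicAlgCl p)) 2 ∧ IsPrimitiveRoot z (p ^ 2 - 1) ∧
      τ0 ∈ (unram (⊥ : IntermediateField ℚ_[p] (PadicAlgCl p)) 2).fixingSubgroup ∧
      Flat.IsInertial p τ0 ∧ τ0 ϖ = z * ϖ ∧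
      (∀ n : ℕ, τ0 ζ = ζ ^ n → ‖(n : PadicAlgCl p) - z ^ (p + 1)‖ < 1) ∧
      φ ∈ (unram (⊥ : IntermediateField ℚ_[p] (PadicAlgCl p)) 2).fixingSubgroup ∧
      (∀ x ∈ K, ‖x‖ ≤ 1 → ‖φ x - x ^ (p ^ 2)‖ < 1) ∧
      (∀ x ∈ K, ‖x‖ ≤ 1 → ‖φ1 x - x ^ p‖ < 1) ∧
      (∀ F : Flat.Gp p,
        F ∉ (unram (⊥ : IntermediateField ℚ_[p] (PadicAlgCl p)) 2).fixingSubgroup →
        ∀ x ∈ K, (F * τ0 * F⁻¹) x = (τ0 ^ p) x) ∧
      ∀ ψ : Flat.Gp p → kˣ,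
        (∀ σ ∈ (unram (⊥ : IntermediateField ℚ_[p] (PadicAlgCl p)) 2).fixingSubgroup,
          ∀ τ ∈ (unram (⊥ : IntermediateField ℚ_[p] (PadicAlgCl p)) 2).fixingSubgroup,
            ψ (σ * τ) = ψ σ * ψ τ) →
        (∃ L : IntermediateField ℚ_[p] (PadicAlgCl p), FiniteDimensional ℚ_[p] L ∧
          ∀ σ ∈ (unram (⊥ : IntermediateField ℚ_[p] (PadicAlgCl p)) 2).fixingSubgroup,
            (∀ x ∈ L, σ x = x) → ψ σ = 1) →
        (∀ σ ∈ K.fixingSubgroup, ψ σ = 1) ∧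
        ∀ τ ∈ (unram (⊥ : IntermediateField ℚ_[p] (PadicAlgCl p)) 2).fixingSubgroup,
          Flat.IsInertial p τ → τ ϖ = ϖ → ψ τ = 1 := by
  have hp : p.Prime := Fact.out
  have hk1 : 1 < Nat.card k := Finite.one_lt_card
  have hpN : ¬ p ∣ Nat.card k - 1 := not_dvd_card_sub_one k
  obtain ⟨m, hmdef⟩ : ∃ m : ℕ, m = (Nat.card k - 1) * (p ^ 2 - 1) := ⟨_, rfl⟩
  have hkm : Nat.card k - 1 ∣ m := ⟨p ^ 2 - 1, hmdef⟩
  have hpm : p ^ 2 - 1 ∣ m := ⟨Nat.card k - 1, by rw [hmdef, mul_comm]⟩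
  have hm : 0 < m := by
    rw [hmdef]
    exact Nat.mul_pos (by omega) sq_sub_one_pos
  have h2m : 0 < 2 * m := Nat.mul_pos (by norm_num) hm
  obtain ⟨ϖ, hϖ, hζK, hunif⟩ := hField m hm
  have hKfin := finiteDimensional_K (p := p) m ϖ
  have hKstab : ∀ σ : Flat.Gp p, ∀ x ∈ Kur(m) ⊔ ℚ_[p]⟮ϖ⟯, σ x ∈ Kur(m) ⊔ ℚ_[p]⟮ϖ⟯ :=
    fun σ x hx => map_mem_K hϖ hm σ hx
  obtain ⟨τ0, z, hz, hτ0, hτϖ⟩ :=
    exists_tame_generator hW hUr hϖ (Kur(m) ⊔ ℚ_[p]⟮ϖ⟯) (varpi_mem_K m ϖ) hKstab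
  obtain ⟨φ, hφH, hφfrob, -⟩ := hF p (Qp2) (Kur(m) ⊔ ℚ_[p]⟮ϖ⟯)
    (le_trans (unram_two_le_unram hm) le_sup_left)
  rw [card_residueField_unram_bot (by norm_num : 0 < 2)] at hφfrob
  obtain ⟨φ1, -, hφ1frob, -⟩ := hF p (⊥ : IntermediateField ℚ_[p] (PadicAlgCl p))
    (Kur(m) ⊔ ℚ_[p]⟮ϖ⟯) bot_le
  rw [card_residueField_bot] at hφ1frob
  refine ⟨Kur(m) ⊔ ℚ_[p]⟮ϖ⟯, hKfin, ϖ, z, τ0, φ, φ1, 2 * m * (p ^ 2 - 1), ?_, hζK, hKstab,
    ⟨?_, ?_, ?_⟩, varpi_mem_K m ϖ, norm_varpi_lt_one hϖ, hunif, ?_,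
    root_mem_unram_two hz.pow_eq_one, hz,
    inertial_mem_fixingSubgroup_unram_bot hτ0 (by norm_num), hτ0, hτϖ, ?_, hφH, hφfrob,
    hφ1frob, ?_, ?_⟩
  · exact le_trans (unram_two_le_unram hm) le_sup_left
  · exact Nat.mul_pos h2m sq_sub_one_pos
  · intro h
    rcases (Nat.Prime.dvd_mul hp).mp h with h1 | h1
    · rcases (Nat.Prime.dvd_mul hp).mp h1 with h2 | h2
      · exact hp2 ((Nat.prime_dvd_prime_iff_eq hp Nat.prime_two).mp h2)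
      · rw [hmdef] at h2
        rcases (Nat.Prime.dvd_mul hp).mp h2 with h3 | h3
        · exact hpN h3
        · exact not_dvd_sq_sub_one h3
    · exact not_dvd_sq_sub_one h1
  · exact fun σ => pow_mem_fixingSubgroup_K hϖ hm σ
  · rw [succ_mul_pred]
    exact norm_varpi_pow hϖ
  · exact fun n hn => omega_clause hϖ hζ hτ0 hz.pow_eq_one hτϖ n hn
  · exact fun F hF' x hx => conj_clause hϖ hm hτ0 hz.pow_eq_one hτϖ F hF' hx
  · exact fun ψ hmul hlev => char_clause hW hF hϖ k hm hkm hpm hτ0 hz hτϖ ψ hmul hlev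

end FieldK

/-- **`Flat.LIStatement`** from `Flat.LGWildStatement`, `Flat.LGFrobStatement`, the fact `hUr`
of row B3 and the field input: for every odd `p`, every primitive `p`-th root of unity `ζ` and
every `m ≥ 1` there is `ϖ` with `ϖ ^ (p² - 1) = -p`, which is a uniformiser of
`unram ⊥ (2 m) ⊔ ℚ_p⟮ϖ⟯`, a field containing `ζ`. -/
theorem liStatement_of_field (hW : Flat.LGWildStatement) (hF : Flat.LGFrobStatement)
    (hUr : ∀ (p : ℕ) [Fact p.Prime], p ≠ 2 → ∀ a : PadicAlgCl p,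
      (∀ τ : Flat.Gp p, (∀ x : PadicAlgCl p, ‖x‖ ≤ 1 → ‖τ x - x‖ < 1) → τ a = a) → ‖a‖ < 1 →
      ∃ b : PadicAlgCl p, ‖b‖ ≤ 1 ∧
        (∀ τ : Flat.Gp p, (∀ x : PadicAlgCl p, ‖x‖ ≤ 1 → ‖τ x - x‖ < 1) → τ b = b) ∧
        a = (p : PadicAlgCl p) * b)
    (hField : ∀ (p : ℕ) [Fact p.Prime], p ≠ 2 → ∀ ζ : PadicAlgCl p, IsPrimitiveRoot ζ p →
      ∀ m : ℕ, 0 < m → ∃ ϖ : PadicAlgCl p, ϖ ^ (p ^ 2 - 1) = -(p : PadicAlgCl p) ∧
        ζ ∈ unram (⊥ : IntermediateField ℚ_[p] (PadicAlgCl p)) (2 * m) ⊔ ℚ_[p]⟮ϖ⟯ ∧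
        ∀ x ∈ unram (⊥ : IntermediateField ℚ_[p] (PadicAlgCl p)) (2 * m) ⊔ ℚ_[p]⟮ϖ⟯,
          ‖x‖ < 1 → ‖x‖ ≤ ‖ϖ‖) :
    Flat.LIStatement :=
  fun p _ hp2 k _ _ _ ζ hζ => li_of_field hp2 hW hF (hUr p hp2) k ζ hζ (hField p hp2 ζ hζ)

end Fermat.Agent.S56.LF.TameFieldI
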