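import Mathlib
import Fermat.Agent.CFT.Local.UnramPadicAbs
import Fermat.Agent.S56.Flat.LocalBricks
import Fermat.Agent.S56.LF.WildFin

/-!
# S56 / LF: the tame field of the reducible case (`Flat.LRStatement`)

For a primitive `p`-th root of unity `ζ ∈ ℚ̄_p` and a finite field `k` of characteristic `p`, the
field `K := ℚ_p(ζ) · (unramified extension of degree |k| - 1)` is the witness of
`Flat.LRStatement` (file `Flat/LocalBricks.lean`).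

* `norm_zeta_sub_one_pow` : `‖ζ - 1‖ ^ (p - 1) = ‖p‖`;
* `cyclo_main` : `[ℚ_p(ζ) : ℚ_p] = p - 1`, the residue field of `ℚ_p(ζ)` has `p` elements, every
  uniformiser has the norm of `ζ - 1`;
* `exists_map_zeta_eq_pow'` : the Galois group acts transitively on the primitive `p`-th roots;
* `exists_inertial_pow` : (from LG-key) an inertial element acts on `ζ` by any prescribed exponent;
* `char_trivial` : (from LG-key and LG-wild) characters `Gal(ℚ̄_p/ℚ_p) → kˣ` of finite level are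
  trivial on the fixing subgroup of `K` and on inertial elements fixing `ζ`;
* `lrStatement : LGKeyStatement → LGWildStatement → LRStatement`.
-/

set_option autoImplicit false

namespace Fermat.Agent.S56.LF.TameFieldR

open scoped NNReal NormedField Valued IntermediateField
open IsLocalRing Polynomial Fermat.Agent.CFT.Local Fermat.Agent.CFT.Local.NormedLocal
  Fermat.Agent.CFT.Local.PadicExt Fermat.Agent.CFT.Local.UnramPadic
open Fermat.Agent.S56.Flat Fermat.Agent.S56.LF.WildFin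

variable {p : ℕ} [Fact p.Prime]

/-! ### Elementary facts -/

section Elementary

/-- Roots of unity have norm one. -/
lemma norm_eq_one_of_pow_eq_one' {x : PadicAlgCl p} {m : ℕ} (hm : m ≠ 0) (hx : x ^ m = 1) :
    ‖x‖ = 1 := by
  have h : ‖x‖ ^ m = 1 := by rw [← norm_pow, hx, norm_one]
  exact (pow_eq_one_iff_of_nonneg (norm_nonneg x) hm).mp h

/-- `‖x ^ i - 1‖ ≤ ‖x - 1‖` for integral `x`. -/
lemma norm_pow_sub_one_le (x : PadicAlgCl p) (hx : ‖x‖ ≤ 1) (i : ℕ) : ‖x ^ i - 1‖ ≤ ‖x - 1‖ := by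
  rw [← mul_geom_sum, norm_mul]
  refine mul_le_of_le_one_right (norm_nonneg _) ?_
  exact IsUltrametricDist.norm_sum_le_of_forall_le_of_nonneg zero_le_one
    (fun j _ => by rw [norm_pow]; exact pow_le_one₀ (norm_nonneg _) hx)

/-- Reduction is injective on the roots of unity of order prime to `p`. -/
lemma eq_of_pow_eq_one_of_norm_sub_lt {m : ℕ} (hm : ¬ p ∣ m) {a b : PadicAlgCl p}
    (ha : a ^ m = 1) (hb : b ^ m = 1) (h : ‖a - b‖ < 1) : a = b := by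
  have hm0 : m ≠ 0 := fun h0 => hm (h0 ▸ dvd_zero p)
  have hb0 : b ≠ 0 := by
    rintro rfl
    rw [zero_pow hm0] at hb
    exact zero_ne_one hb
  have hbn : ‖b‖ = 1 := norm_eq_one_of_pow_eq_one' hm0 hb
  set c := a / b with hc
  have hcm : c ^ m = 1 := by rw [hc, div_pow, ha, hb, div_one]
  have hc1 : ‖c - 1‖ < 1 := by
    have e : c - 1 = (a - b) / b := by rw [hc]; field_simp
    rw [e, norm_div, hbn, div_one]
    exact h
  have hcn : ‖c‖ = 1 := norm_eq_one_of_pow_eq_one' hm0 hcm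
  have hsum : ‖∑ i ∈ Finset.range m, c ^ i - (m : PadicAlgCl p)‖ < 1 := by
    have e : ∑ i ∈ Finset.range m, c ^ i - (m : PadicAlgCl p) =
        ∑ i ∈ Finset.range m, (c ^ i - 1) := by
      rw [Finset.sum_sub_distrib, Finset.sum_const, Finset.card_range, nsmul_eq_mul, mul_one]
    rw [e]
    obtain ⟨i, -, hi⟩ := IsUltrametricDist.exists_norm_finsetSum_le_of_nonempty
      (Finset.nonempty_range_iff.mpr hm0) (fun i => c ^ i - 1)
    refine lt_of_le_of_lt hi ?_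
    have := norm_pow_sub_pow_lt (x := c) (y := 1) hcn.le (by rw [norm_one]) hc1 i
    rwa [one_pow] at this
  have hgeom : (c - 1) * ∑ i ∈ Finset.range m, c ^ i = 0 := by
    rw [mul_geom_sum, hcm, sub_self]
  rcases mul_eq_zero.mp hgeom with h1 | h1
  · have h2 : c = 1 := sub_eq_zero.mp h1
    rw [hc, div_eq_one_iff_eq hb0] at h2
    exact h2
  · exfalso
    rw [h1, zero_sub, norm_neg, norm_natCast_of_not_dvd hm] at hsum
    exact lt_irrefl _ hsum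

/-- `ℚ_p(x)` is finite over `ℚ_p`. -/
instance finiteDimensional_adjoin_simple (x : PadicAlgCl p) :
    FiniteDimensional ℚ_[p] ℚ_[p]⟮x⟯ :=
  IntermediateField.adjoin.finiteDimensional (Algebra.IsIntegral.isIntegral x)

/-- An automorphism fixing `x` fixes `ℚ_p(x)`. -/
lemma mem_fixingSubgroup_adjoin_simple {σ : PadicAlgCl p ≃ₐ[ℚ_[p]] PadicAlgCl p}
    {x : PadicAlgCl p} (h : σ x = x) : σ ∈ (ℚ_[p]⟮x⟯).fixingSubgroup := by
  rw [← Subgroup.zpowers_le, ← IntermediateField.le_iff_le,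
    IntermediateField.adjoin_simple_le_iff, IntermediateField.mem_fixedField_iff]
  intro f hf
  have hle : Subgroup.zpowers σ ≤ MulAction.stabilizer
      (PadicAlgCl p ≃ₐ[ℚ_[p]] PadicAlgCl p) x := by
    rw [Subgroup.zpowers_le, MulAction.mem_stabilizer_iff]
    exact h
  exact MulAction.mem_stabilizer_iff.mp (hle hf)

/-- `p` is a uniformiser of `ℚ_p`. -/
lemma irreducible_p_integer : Irreducible ((p : ℕ) : 𝒪[ℚ_[p]]) := by
  have h : (𝒪[ℚ_[p]] : Subring ℚ_[p]) = PadicInt.subring p := by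
    ext x
    rw [Valued.integer.mem_iff]
    change _ ↔ ‖x‖ ≤ 1
    rfl
  let e0 : 𝒪[ℚ_[p]] ≃+* ℤ_[p] := RingEquiv.subringCongr h
  have h1 : Irreducible (e0 ((p : ℕ) : 𝒪[ℚ_[p]])) := by
    rw [map_natCast]
    exact PadicInt.irreducible_p
  exact (MulEquiv.irreducible_iff e0).mp h1

/-- A uniformiser has norm in `(0, 1)`. -/
lemma norm_irreducible {K : Type*} [NontriviallyNormedField K] [IsUltrametricDist K]
    {ϖ : 𝒪[K]} (hϖ : Irreducible ϖ) : 0 < ‖(ϖ : K)‖ ∧ ‖(ϖ : K)‖ < 1 := by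
  constructor
  · rw [norm_pos_iff]
    intro h
    exact hϖ.ne_zero (Subtype.ext h)
  · have h1 : ‖(ϖ : K)‖ ≤ 1 := Valued.integer.mem_iff.mp ϖ.2
    refine lt_of_le_of_ne h1 ?_
    intro h
    exact hϖ.not_isUnit (Valued.integer.isUnit_iff_norm_eq_one.mpr h)

omit [Fact p.Prime] in
/-- The cardinality of a finite field of characteristic `p`. -/
lemma card_eq_pow (k : Type) [Field k] [Finite k] [CharP k p] :
    ∃ f : ℕ, 0 < f ∧ Nat.card k = p ^ f := by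
  let _ := Fintype.ofFinite k
  obtain ⟨n, -, hn⟩ := FiniteField.card k p
  exact ⟨n, n.pos, by rw [Nat.card_eq_fintype_card, hn]⟩

lemma not_dvd_pow_sub_one {f : ℕ} (hf : 0 < f) : ¬ p ∣ p ^ f - 1 := by
  have hp : p.Prime := Fact.out
  intro h
  have h1 : p ∣ p ^ f := dvd_pow_self p hf.ne'
  have h2 : p ^ f - 1 + 1 = p ^ f := Nat.sub_add_cancel (Nat.one_le_pow _ _ hp.pos)
  rw [← h2] at h1
  have h3 : p ∣ 1 := (Nat.dvd_add_right h).mp h1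
  exact hp.one_lt.ne' (Nat.dvd_one.mp h3)

/-- A primitive root modulo `p`. -/
lemma exists_primitive_root_mod : ∃ g : ℕ, g.Coprime p ∧ orderOf (g : ZMod p) = p - 1 := by
  have hp : p.Prime := Fact.out
  have : NeZero p := ⟨hp.ne_zero⟩
  obtain ⟨u, hu⟩ := IsCyclic.exists_generator (α := (ZMod p)ˣ)
  have h1 : orderOf u = p - 1 := by
    rw [orderOf_eq_card_of_forall_mem_zpowers hu, Nat.card_eq_fintype_card, ZMod.card_units]
  refine ⟨(u : ZMod p).val, ?_, ?_⟩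
  · rw [Nat.coprime_comm, hp.coprime_iff_not_dvd]
    intro hdvd
    have h2 : (((u : ZMod p).val : ℕ) : ZMod p) = 0 := (ZMod.natCast_eq_zero_iff _ _).mpr hdvd
    rw [ZMod.natCast_zmod_val] at h2
    exact u.ne_zero h2
  · rw [ZMod.natCast_zmod_val, orderOf_units]
    exact h1

end Elementary

/-! ### The cyclotomic field `ℚ_p(ζ)` -/

section Cyclo

variable {ζ : PadicAlgCl p} (hζ : IsPrimitiveRoot ζ p)
include hζ

lemma zeta_ne_one : ζ ≠ 1 := hζ.ne_one (Fact.out : p.Prime).one_lt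

lemma norm_zeta : ‖ζ‖ = 1 :=
  norm_eq_one_of_pow_eq_one' (Fact.out : p.Prime).ne_zero hζ.pow_eq_one

/-- All `p`-th roots of unity other than `1` are at the same distance from `1`. -/
lemma norm_sub_one_eq {η : PadicAlgCl p} (hη : η ^ p = 1) (hη1 : η ≠ 1) :
    ‖η - 1‖ = ‖ζ - 1‖ := by
  have hp : p.Prime := Fact.out
  have : NeZero p := ⟨hp.ne_zero⟩
  obtain ⟨i, hi, rfl⟩ := hζ.eq_pow_of_pow_eq_one hη
  have hi0 : i ≠ 0 := by
    rintro rfl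
    exact hη1 (pow_zero ζ)
  have hcop : i.Coprime p := by
    rw [Nat.coprime_comm, hp.coprime_iff_not_dvd]
    exact Nat.not_dvd_of_pos_of_lt (Nat.pos_of_ne_zero hi0) hi
  have hprim : IsPrimitiveRoot (ζ ^ i) p := hζ.pow_of_coprime i hcop
  obtain ⟨j, -, hj⟩ := hprim.eq_pow_of_pow_eq_one hζ.pow_eq_one
  refine le_antisymm (norm_pow_sub_one_le ζ (norm_zeta hζ).le i) ?_
  have h2 := norm_pow_sub_one_le (ζ ^ i)
    (by rw [norm_pow]; exact pow_le_one₀ (norm_nonneg _) (norm_zeta hζ).le) j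
  rwa [hj] at h2

/-- `‖ζ - 1‖ ^ (p - 1) = ‖p‖`. -/
theorem norm_zeta_sub_one_pow : ‖ζ - 1‖ ^ (p - 1) = ‖(p : PadicAlgCl p)‖ := by
  have hp : p.Prime := Fact.out
  have h1 : (cyclotomic p (PadicAlgCl p)).eval 1 = (p : PadicAlgCl p) :=
    eval_one_cyclotomic_prime
  rw [cyclotomic_eq_prod_X_sub_primitiveRoots hζ, eval_prod] at h1
  simp only [eval_sub, eval_X, eval_C] at h1
  rw [← h1, norm_prod]
  have h2 : ∀ μ ∈ primitiveRoots p (PadicAlgCl p), ‖1 - μ‖ = ‖ζ - 1‖ := by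
    intro μ hμ
    have hμ' : IsPrimitiveRoot μ p := (mem_primitiveRoots hp.pos).mp hμ
    rw [norm_sub_rev]
    exact norm_sub_one_eq hζ hμ'.pow_eq_one (hμ'.ne_one hp.one_lt)
  rw [Finset.prod_congr rfl h2, Finset.prod_const, hζ.card_primitiveRoots, Nat.totient_prime hp]

omit hζ in
lemma norm_natCast_p : ‖(p : PadicAlgCl p)‖ = (p : ℝ)⁻¹ := by
  have h : ‖(p : PadicAlgCl p)‖ = ‖(p : ℚ_[p])‖ := by
    rw [← map_natCast (algebraMap ℚ_[p] (PadicAlgCl p)) p, norm_algebraMap']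
  rw [h]
  exact Padic.norm_p

omit hζ in
lemma norm_natCast_p_lt_one : ‖(p : PadicAlgCl p)‖ < 1 := by
  have h : ‖(p : PadicAlgCl p)‖ = ‖(p : ℚ_[p])‖ := by
    rw [← map_natCast (algebraMap ℚ_[p] (PadicAlgCl p)) p, norm_algebraMap']
  rw [h]
  exact Padic.norm_p_lt_one

lemma norm_zeta_sub_one_lt_one : ‖ζ - 1‖ < 1 := by
  have hp : p.Prime := Fact.out
  by_contra hge
  rw [not_lt] at hge
  have h1 : 1 ≤ ‖ζ - 1‖ ^ (p - 1) := one_le_pow₀ hge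
  rw [norm_zeta_sub_one_pow hζ] at h1
  exact absurd h1 (not_le.mpr norm_natCast_p_lt_one)

lemma aeval_cyclotomic : aeval ζ (cyclotomic p ℚ_[p]) = 0 := by
  have hp : p.Prime := Fact.out
  rw [aeval_def, eval₂_eq_eval_map, map_cyclotomic]
  exact hζ.isRoot_cyclotomic hp.pos

lemma finrank_adjoin_le : Module.finrank ℚ_[p] ℚ_[p]⟮ζ⟯ ≤ p - 1 := by
  have hp : p.Prime := Fact.out
  have hint : IsIntegral ℚ_[p] ζ := Algebra.IsIntegral.isIntegral ζ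
  rw [IntermediateField.adjoin.finrank hint]
  have hdvd := minpoly.dvd ℚ_[p] ζ (aeval_cyclotomic hζ)
  have h := natDegree_le_of_dvd hdvd (cyclotomic_ne_zero p ℚ_[p])
  rwa [natDegree_cyclotomic, Nat.totient_prime hp] at h

/-- **The arithmetic of `ℚ_p(ζ)`**: degree `p - 1`, residue field with `p` elements, and every
uniformiser has the norm of `ζ - 1`. -/
theorem cyclo_main {ϖ : 𝒪[ℚ_[p]⟮ζ⟯]} (hϖ : Irreducible ϖ) :
    Module.finrank ℚ_[p] ℚ_[p]⟮ζ⟯ = p - 1 ∧ Nat.card 𝓀[ℚ_[p]⟮ζ⟯] = p ∧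
      ‖(ϖ : ℚ_[p]⟮ζ⟯)‖ = ‖ζ - 1‖ := by
  have hp : p.Prime := Fact.out
  have hef := ramificationIdx_mul_inertiaDeg_abs ℚ_[p]⟮ζ⟯
  have hle := finrank_adjoin_le hζ
  have hcardE := card_residueField_eq_prime_pow ℚ_[p]⟮ζ⟯
  obtain ⟨ha0, ha1⟩ := norm_irreducible hϖ
  have hnorm : ‖(((p : ℕ) : 𝒪[ℚ_[p]]) : ℚ_[p])‖ =
      ‖(ϖ : ℚ_[p]⟮ζ⟯)‖ ^ (𝓂[ℚ_[p]⟮ζ⟯]).ramificationIdx 𝒪[ℚ_[p]] :=
    norm_irreducible_eq_pow irreducible_p_integer hϖ
  have hnp : ‖(((p : ℕ) : 𝒪[ℚ_[p]]) : ℚ_[p])‖ = ‖(p : PadicAlgCl p)‖ := by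
    rw [norm_natCast_p]
    exact Padic.norm_p
  -- `ζ - 1` as an element of `ℚ_p(ζ)`
  have hmem : ζ - 1 ∈ ℚ_[p]⟮ζ⟯ :=
    sub_mem (IntermediateField.mem_adjoin_simple_self _ _) (one_mem _)
  have hx0 : (⟨ζ - 1, hmem⟩ : ℚ_[p]⟮ζ⟯) ≠ 0 := by
    intro h
    exact zeta_ne_one hζ (sub_eq_zero.mp (congrArg Subtype.val h))
  obtain ⟨m, hm⟩ := exists_norm_eq_zpow hϖ hx0
  have hm' : ‖ζ - 1‖ = ‖(ϖ : ℚ_[p]⟮ζ⟯)‖ ^ m := hm
  have hmpos : 0 < m := by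
    have h1 : ‖(ϖ : ℚ_[p]⟮ζ⟯)‖ ^ m < ‖(ϖ : ℚ_[p]⟮ζ⟯)‖ ^ (0 : ℤ) := by
      rw [zpow_zero, ← hm']
      exact norm_zeta_sub_one_lt_one hζ
    exact (zpow_lt_zpow_iff_right_of_lt_one₀ ha0 ha1).mp h1
  obtain ⟨m', rfl⟩ := Int.eq_ofNat_of_zero_le hmpos.le
  have hm'pos : 0 < m' := by exact_mod_cast hmpos
  rw [zpow_natCast] at hm'
  have hkey : m' * (p - 1) = (𝓂[ℚ_[p]⟮ζ⟯]).ramificationIdx 𝒪[ℚ_[p]] := by
    have h1 : ‖(ϖ : ℚ_[p]⟮ζ⟯)‖ ^ (m' * (p - 1)) =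
        ‖(ϖ : ℚ_[p]⟮ζ⟯)‖ ^ (𝓂[ℚ_[p]⟮ζ⟯]).ramificationIdx 𝒪[ℚ_[p]] := by
      rw [pow_mul, ← hm', norm_zeta_sub_one_pow hζ, ← hnp, hnorm]
    exact (pow_right_strictAnti₀ ha0 ha1).injective h1
  have hp1 : 0 < p - 1 := Nat.sub_pos_of_lt hp.one_lt
  have hfpos : 0 < (𝓂[ℚ_[p]⟮ζ⟯]).inertiaDeg 𝒪[ℚ_[p]] := by
    have h2 : 0 < Module.finrank ℚ_[p] ℚ_[p]⟮ζ⟯ := Module.finrank_pos
    rw [← hef] at h2
    exact Nat.pos_of_mul_pos_left h2
  have hprod : (p - 1) * (m' * (𝓂[ℚ_[p]⟮ζ⟯]).inertiaDeg 𝒪[ℚ_[p]]) ≤ (p - 1) * 1 := by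
    calc (p - 1) * (m' * (𝓂[ℚ_[p]⟮ζ⟯]).inertiaDeg 𝒪[ℚ_[p]])
        = (m' * (p - 1)) * (𝓂[ℚ_[p]⟮ζ⟯]).inertiaDeg 𝒪[ℚ_[p]] := by ring
      _ = Module.finrank ℚ_[p] ℚ_[p]⟮ζ⟯ := by rw [hkey, hef]
      _ ≤ p - 1 := hle
      _ = (p - 1) * 1 := (mul_one _).symm
  have hle1 : m' * (𝓂[ℚ_[p]⟮ζ⟯]).inertiaDeg 𝒪[ℚ_[p]] ≤ 1 := Nat.le_of_mul_le_mul_left hprod hp1
  have hm1 : m' = 1 := by
    have h3 : m' * 1 ≤ m' * (𝓂[ℚ_[p]⟮ζ⟯]).inertiaDeg 𝒪[ℚ_[p]] := Nat.mul_le_mul_left _ hfpos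
    omega
  have hf1 : (𝓂[ℚ_[p]⟮ζ⟯]).inertiaDeg 𝒪[ℚ_[p]] = 1 := by
    rw [hm1, one_mul] at hle1
    omega
  refine ⟨?_, ?_, ?_⟩
  · rw [← hef, ← hkey, hm1, hf1, one_mul, mul_one]
  · rw [hcardE, hf1, pow_one]
  · rw [hm', hm1, pow_one]

lemma finrank_adjoin : Module.finrank ℚ_[p] ℚ_[p]⟮ζ⟯ = p - 1 := by
  obtain ⟨ϖ, hϖ⟩ := IsDiscreteValuationRing.exists_irreducible 𝒪[ℚ_[p]⟮ζ⟯]
  exact (cyclo_main hζ hϖ).1

lemma card_residueField_adjoin : Nat.card 𝓀[ℚ_[p]⟮ζ⟯] = p := by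
  obtain ⟨ϖ, hϖ⟩ := IsDiscreteValuationRing.exists_irreducible 𝒪[ℚ_[p]⟮ζ⟯]
  exact (cyclo_main hζ hϖ).2.1

lemma minpoly_eq_cyclotomic : minpoly ℚ_[p] ζ = cyclotomic p ℚ_[p] := by
  have hp : p.Prime := Fact.out
  have hint : IsIntegral ℚ_[p] ζ := Algebra.IsIntegral.isIntegral ζ
  have hdvd := minpoly.dvd ℚ_[p] ζ (aeval_cyclotomic hζ)
  have hdeg : (cyclotomic p ℚ_[p]).natDegree ≤ (minpoly ℚ_[p] ζ).natDegree := by
    rw [natDegree_cyclotomic, Nat.totient_prime hp, ← IntermediateField.adjoin.finrank hint,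
      finrank_adjoin hζ]
  exact (eq_of_monic_of_dvd_of_natDegree_le (minpoly.monic hint) (cyclotomic.monic p ℚ_[p])
    hdvd hdeg).symm

/-- The Galois group acts transitively on the primitive `p`-th roots of unity. -/
theorem exists_map_zeta_eq_pow' {g : ℕ} (hg : g.Coprime p) :
    ∃ σ : PadicAlgCl p ≃ₐ[ℚ_[p]] PadicAlgCl p, σ ζ = ζ ^ g := by
  have hprim : IsPrimitiveRoot (ζ ^ g) p := hζ.pow_of_coprime g hg
  have hconj : IsConjRoot ℚ_[p] (ζ ^ g) ζ := by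
    rw [IsConjRoot, minpoly_eq_cyclotomic hζ, minpoly_eq_cyclotomic hprim]
  obtain ⟨σ, hσ⟩ := hconj.exists_algEquiv
  exact ⟨σ, hσ⟩

/-- Every automorphism raises `ζ` to a power prime to `p`. -/
lemma exists_pow_eq_map (σ : PadicAlgCl p ≃ₐ[ℚ_[p]] PadicAlgCl p) :
    ∃ c : ℕ, σ ζ = ζ ^ c ∧ (c : ZMod p) ≠ 0 := by
  have hp : p.Prime := Fact.out
  have : NeZero p := ⟨hp.ne_zero⟩
  obtain ⟨c, -, hc⟩ := hζ.eq_pow_of_pow_eq_one (ξ := σ ζ)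
    (by rw [← map_pow, hζ.pow_eq_one, map_one])
  refine ⟨c, hc.symm, ?_⟩
  intro h0
  rw [ZMod.natCast_eq_zero_iff] at h0
  obtain ⟨d, rfl⟩ := h0
  rw [pow_mul, hζ.pow_eq_one, one_pow] at hc
  have h1 : σ ζ = σ 1 := by rw [← hc, map_one]
  exact zeta_ne_one hζ (σ.injective h1)

lemma zeta_pow_eq_iff {a b : ℕ} : ζ ^ a = ζ ^ b ↔ (a : ZMod p) = (b : ZMod p) := by
  have hp : p.Prime := Fact.out
  have ho : orderOf ζ = p := hζ.eq_orderOf.symm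
  have ha : ζ ^ (a % p) = ζ ^ a := by
    have h := pow_mod_orderOf ζ a
    rwa [ho] at h
  have hb : ζ ^ (b % p) = ζ ^ b := by
    have h := pow_mod_orderOf ζ b
    rwa [ho] at h
  rw [ZMod.natCast_eq_natCast_iff', ← ha, ← hb]
  constructor
  · intro h
    exact hζ.pow_inj (Nat.mod_lt _ hp.pos) (Nat.mod_lt _ hp.pos) h
  · intro h
    rw [h]

/-- The `m`-th powers fix `ζ` when `(p - 1) ∣ m`. -/
lemma pow_apply_zeta (σ : PadicAlgCl p ≃ₐ[ℚ_[p]] PadicAlgCl p) {m : ℕ} (hm : (p - 1) ∣ m) :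
    (σ ^ m) ζ = ζ := by
  obtain ⟨c, hc, hc0⟩ := exists_pow_eq_map hζ σ
  rw [pow_apply_root σ hc m]
  conv_rhs => rw [← pow_one ζ]
  rw [zeta_pow_eq_iff hζ]
  obtain ⟨d, rfl⟩ := hm
  push_cast
  rw [pow_mul, ZMod.pow_card_sub_one_eq_one hc0, one_pow]

/-- Wild elements fix `ζ`. -/
lemma wild_apply_zeta {L : IntermediateField ℚ_[p] (PadicAlgCl p)} [Normal ℚ_[p] L]
    (hζL : ζ ∈ L) {w : PadicAlgCl p ≃ₐ[ℚ_[p]] PadicAlgCl p} (hw : w ∈ wildAt L) : w ζ = ζ := by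
  have hp : p.Prime := Fact.out
  have h1 : ζ - 1 ∈ L := L.sub_mem hζL L.one_mem
  have h10 : ζ - 1 ≠ 0 := sub_ne_zero.mpr (zeta_ne_one hζ)
  have h2 := (mem_wildAt.mp hw) (ζ - 1) h1 h10
  rw [map_sub, map_one, sub_sub_sub_cancel_right] at h2
  by_contra hne
  have hζ0 : ζ ≠ 0 := hζ.ne_zero hp.ne_zero
  set η := w ζ / ζ with hη
  have hηp : η ^ p = 1 := by rw [hη, div_pow, ← map_pow, hζ.pow_eq_one, map_one, div_one]
  have hη1 : η ≠ 1 := by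
    intro h
    rw [hη, div_eq_one_iff_eq hζ0] at h
    exact hne h
  have h3 := norm_sub_one_eq hζ hηp hη1
  have h4 : ‖η - 1‖ = ‖w ζ - ζ‖ := by
    have e : η - 1 = (w ζ - ζ) / ζ := by rw [hη]; field_simp
    rw [e, norm_div, norm_zeta hζ, div_one]
  rw [← h4, h3] at h2
  exact lt_irrefl _ h2

/-- `ℚ_p(ζ) · (unramified of degree n)` is stable under all `ℚ_p`-endomorphisms of `ℚ̄_p`. -/
lemma map_mem_unram_adjoin {n : ℕ} (hn : 0 < n) (σ : PadicAlgCl p →ₐ[ℚ_[p]] PadicAlgCl p)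
    {x : PadicAlgCl p} (hx : x ∈ unram ℚ_[p]⟮ζ⟯ n) : σ x ∈ unram ℚ_[p]⟮ζ⟯ n := by
  have hp : p.Prime := Fact.out
  have : NeZero p := ⟨hp.ne_zero⟩
  have hm : rootOrder ℚ_[p]⟮ζ⟯ n ≠ 0 := rootOrder_ne_zero _ hn
  have : NeZero (Nat.card 𝓀[ℚ_[p]⟮ζ⟯] ^ n - 1) := ⟨hm⟩
  have hz := isPrimitiveRoot_zeta ℚ_[p]⟮ζ⟯ hn
  have key : unram ℚ_[p]⟮ζ⟯ n ≤ (unram ℚ_[p]⟮ζ⟯ n).comap σ := by
    refine sup_le ?_ ?_
    · rw [IntermediateField.adjoin_simple_le_iff]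
      show σ ζ ∈ unram ℚ_[p]⟮ζ⟯ n
      obtain ⟨a, -, ha⟩ := hζ.eq_pow_of_pow_eq_one (ξ := σ ζ)
        (by rw [← map_pow, hζ.pow_eq_one, map_one])
      rw [← ha]
      exact pow_mem (le_unram _ n (IntermediateField.mem_adjoin_simple_self _ _)) a
    · rw [IntermediateField.adjoin_simple_le_iff]
      show σ (zeta ℚ_[p]⟮ζ⟯ n) ∈ unram ℚ_[p]⟮ζ⟯ n
      obtain ⟨a, -, ha⟩ := hz.eq_pow_of_pow_eq_one (ξ := σ (zeta ℚ_[p]⟮ζ⟯ n))
        (by rw [← map_pow, hz.pow_eq_one, map_one])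
      rw [← ha]
      exact pow_mem (zeta_mem_unram _ n) a
  exact key hx

lemma normal_unram_adjoin {n : ℕ} (hn : 0 < n) : Normal ℚ_[p] (unram ℚ_[p]⟮ζ⟯ n) := by
  rw [IntermediateField.normal_iff_forall_map_le]
  intro σ
  rw [IntermediateField.map_le_iff_le_comap]
  intro x hx
  exact map_mem_unram_adjoin hζ hn σ hx

/-- The exponent of `Gal(K/ℚ_p)`. -/
lemma pow_mem_fixingSubgroup_unram {n : ℕ} (hn : 0 < n)
    (σ : PadicAlgCl p ≃ₐ[ℚ_[p]] PadicAlgCl p) {m : ℕ} (h1 : (p - 1) ∣ m) (h2 : n ∣ m) :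
    σ ^ m ∈ (unram ℚ_[p]⟮ζ⟯ n).fixingSubgroup := by
  have hp : p.Prime := Fact.out
  rw [mem_fixingSubgroup_unram_iff]
  refine ⟨mem_fixingSubgroup_adjoin_simple (pow_apply_zeta hζ σ h1), ?_⟩
  have hz := isPrimitiveRoot_zeta ℚ_[p]⟮ζ⟯ hn
  rw [card_residueField_adjoin hζ] at hz
  have hcop : (p ^ n - 1).Coprime p := by
    rw [Nat.coprime_comm, hp.coprime_iff_not_dvd]
    exact not_dvd_pow_sub_one hn
  have hm0 : p ^ n - 1 ≠ 0 := fun h0 => not_dvd_pow_sub_one (p := p) hn (h0 ▸ dvd_zero p)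
  obtain ⟨j, hj⟩ := exists_map_eq_prime_pow σ hm0 hcop hz.pow_eq_one
  rw [pow_apply_root σ hj m, ← pow_mul]
  obtain ⟨d, hd⟩ := Nat.pow_sub_one_dvd_pow_sub_one p (h2.mul_left j)
  have h3 : p ^ (j * m) = (p ^ n - 1) * d + 1 := by
    have : 1 ≤ p ^ (j * m) := Nat.one_le_pow _ _ hp.pos
    omega
  rw [h3, pow_succ, pow_mul, hz.pow_eq_one, one_pow, one_mul]

omit hζ in
/-- A uniformiser of `E` bounds the norms `< 1` on `unram E n`. -/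
lemma norm_le_of_mem_unram (E : IntermediateField ℚ_[p] (PadicAlgCl p))
    [FiniteDimensional ℚ_[p] E] {n : ℕ} (hn : 0 < n) {ϖ : 𝒪[E]} (hϖ : Irreducible ϖ)
    {x : PadicAlgCl p} (hx : x ∈ unram E n) (hx1 : ‖x‖ < 1) : ‖x‖ ≤ ‖(ϖ : E)‖ := by
  letI := normedAlgebraOfLE (le_unram E n)
  have hirr := irreducible_algebraMap_unram E hn hϖ
  obtain ⟨hb0, hb1⟩ := norm_irreducible hϖ
  by_cases hx0 : x = 0
  · rw [hx0, norm_zero]
    exact hb0.le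
  have hx0' : (⟨x, hx⟩ : unram E n) ≠ 0 := fun h => hx0 (congrArg Subtype.val h)
  obtain ⟨m, hm⟩ := exists_norm_eq_zpow hirr hx0'
  have hm' : ‖x‖ = ‖(ϖ : E)‖ ^ m := hm
  have hmpos : 0 < m := by
    have h1 : ‖(ϖ : E)‖ ^ m < ‖(ϖ : E)‖ ^ (0 : ℤ) := by
      rw [zpow_zero, ← hm']
      exact hx1
    exact (zpow_lt_zpow_iff_right_of_lt_one₀ hb0 hb1).mp h1
  rw [hm']
  have h2 : ‖(ϖ : E)‖ ^ m ≤ ‖(ϖ : E)‖ ^ (1 : ℤ) :=
    zpow_le_zpow_right_of_le_one₀ hb0 hb1.le (by omega)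
  rwa [zpow_one] at h2

/-- Roots of unity of order prime to `p` in `ℚ_p(ζ)` are fixed by `x ↦ x ^ p`. -/
lemma root_pow_p {ξ : PadicAlgCl p} (hξ : ξ ∈ ℚ_[p]⟮ζ⟯) {m : ℕ} (hm : ¬ p ∣ m)
    (hξm : ξ ^ m = 1) : ξ ^ p = ξ := by
  have hp : p.Prime := Fact.out
  have hm0 : m ≠ 0 := fun h0 => hm (h0 ▸ dvd_zero p)
  have hξ1 : ‖ξ‖ = 1 := norm_eq_one_of_pow_eq_one' hm0 hξm
  obtain ⟨t, -, ht, hlt⟩ := exists_teichmuller ℚ_[p]⟮ζ⟯ hξ hξ1.le
  rw [card_residueField_adjoin hζ] at ht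
  have ht0 : t ≠ 0 := by
    rintro rfl
    rw [sub_zero, hξ1] at hlt
    exact lt_irrefl _ hlt
  have ht1 : t ^ (p - 1) = 1 := by
    have h2 : t ^ (p - 1) * t = 1 * t := by
      rw [← pow_succ, Nat.sub_add_cancel hp.pos, ht, one_mul]
    exact mul_right_cancel₀ ht0 h2
  have hmp : ¬ p ∣ m * (p - 1) := by
    intro h
    rcases hp.dvd_mul.mp h with h | h
    · exact hm h
    · exact Nat.not_dvd_of_pos_of_lt (Nat.sub_pos_of_lt hp.one_lt) (Nat.sub_lt hp.pos one_pos) h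
  have heq : ξ = t := eq_of_pow_eq_one_of_norm_sub_lt hmp
    (by rw [pow_mul, hξm, one_pow]) (by rw [mul_comm, pow_mul, ht1, one_pow]) hlt
  rw [heq]
  exact ht

/-- **An inertial element with prescribed action on `ζ`** (from LG-key). -/
theorem exists_inertial_pow (hKey : LGKeyStatement) {g : ℕ} (hg : g.Coprime p) :
    ∃ τ : Gp p, IsInertial p τ ∧ τ ζ = ζ ^ g := by
  have hp : p.Prime := Fact.out
  obtain ⟨σ, hσ⟩ := exists_map_zeta_eq_pow' hζ hg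
  obtain ⟨τ, hτ, hτσ⟩ := hKey p ℚ_[p]⟮ζ⟯ σ (by
    intro ξ hξ m hm hξm
    have hm' : ¬ p ∣ m := (hp.coprime_iff_not_dvd).mp (Nat.coprime_comm.mp hm)
    have hm0 : m ≠ 0 := fun h0 => hm' (h0 ▸ dvd_zero p)
    obtain ⟨j, hj⟩ := exists_map_eq_prime_pow σ hm0 hm hξm
    rw [hj]
    have hξp := root_pow_p hζ hξ hm' hξm
    clear hj
    induction j with
    | zero => rw [pow_zero, pow_one]
    | succ j ih => rw [pow_succ, pow_mul, ih, hξp])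
  exact ⟨τ, hτ, by rw [← hτσ ζ (IntermediateField.mem_adjoin_simple_self _ _), hσ]⟩

end Cyclo

/-! ### Characters into `kˣ` -/

section Characters

variable {k : Type} [Field k] [Finite k] [CharP k p]

/-- A character into `kˣ` is trivial on elements with a `p`-power in its kernel. -/
lemma char_eq_one_of_pow {G : Type*} [Group G] (χ : G →* kˣ) {w : G} {a : ℕ}
    (h : χ (w ^ (p ^ a)) = 1) : χ w = 1 := by
  have hp : p.Prime := Fact.out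
  obtain ⟨f, hf0, hcardk⟩ := card_eq_pow (p := p) k
  have h1 : χ w ^ (p ^ a) = 1 := by rw [← map_pow]; exact h
  have h2 : χ w ^ (Nat.card k - 1) = 1 := by
    rw [← Nat.card_units]
    exact pow_card_eq_one'
  have hcop : Nat.Coprime (p ^ a) (Nat.card k - 1) := by
    apply Nat.Coprime.pow_left
    rw [hp.coprime_iff_not_dvd, hcardk]
    exact not_dvd_pow_sub_one hf0
  have h3 : χ w ^ Nat.gcd (p ^ a) (Nat.card k - 1) = 1 := pow_gcd_eq_one.mpr ⟨h1, h2⟩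
  rwa [hcop.gcd_eq_one, pow_one] at h3

/-- **Characters of finite level into `kˣ`** are trivial on the fixing subgroup of
`K = ℚ_p(ζ) · (unramified of degree |k| - 1)` and on the inertial elements fixing `ζ`
(from LG-key and LG-wild). -/
theorem char_trivial (hKey : LGKeyStatement) (hWild : LGWildStatement)
    {ζ : PadicAlgCl p} (hζ : IsPrimitiveRoot ζ p)
    {τ0 : Gp p} {g0 : ℕ} (hτ0 : IsInertial p τ0) (hτ0ζ : τ0 ζ = ζ ^ g0)
    (hg0 : orderOf (g0 : ZMod p) = p - 1)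
    (χ : Gp p →* kˣ) (L0 : IntermediateField ℚ_[p] (PadicAlgCl p)) [FiniteDimensional ℚ_[p] L0]
    (hL0 : ∀ σ : Gp p, (∀ x ∈ L0, σ x = x) → χ σ = 1) :
    (∀ σ ∈ (unram ℚ_[p]⟮ζ⟯ (Nat.card k - 1)).fixingSubgroup, χ σ = 1) ∧
      ∀ τ : Gp p, IsInertial p τ → τ ζ = ζ → χ τ = 1 := by
  have hp : p.Prime := Fact.out
  obtain ⟨f, hf0, hcardk⟩ := card_eq_pow (p := p) k
  have hn0 : 0 < Nat.card k - 1 := by
    have h1 : p ^ 1 ≤ p ^ f := Nat.pow_le_pow_right hp.pos hf0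
    rw [pow_one] at h1
    have := hp.two_le
    omega
  have hp1n : (p - 1) ∣ Nat.card k - 1 := by
    have h := Nat.pow_sub_one_dvd_pow_sub_one p (one_dvd f)
    rwa [pow_one, ← hcardk] at h
  have hcard := card_residueField_adjoin hζ
  -- the level
  let L : IntermediateField ℚ_[p] (PadicAlgCl p) :=
    IntermediateField.normalClosure ℚ_[p]
      ↥(unram ℚ_[p]⟮ζ⟯ (Nat.card k - 1) ⊔ L0) (PadicAlgCl p)
  have hKL : unram ℚ_[p]⟮ζ⟯ (Nat.card k - 1) ≤ L :=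
    le_sup_left.trans (IntermediateField.le_normalClosure _)
  have hL0L : L0 ≤ L := le_sup_right.trans (IntermediateField.le_normalClosure _)
  have hχL : ∀ σ : Gp p, (∀ x ∈ L, σ x = x) → χ σ = 1 :=
    fun σ h => hL0 σ (fun x hx => h x (hL0L hx))
  have hζK : ζ ∈ unram ℚ_[p]⟮ζ⟯ (Nat.card k - 1) :=
    le_unram _ _ (IntermediateField.mem_adjoin_simple_self _ _)
  have hζL : ζ ∈ L := hKL hζK
  -- wild elements
  have hwild : ∀ w ∈ wildAt L, χ w = 1 := by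
    intro w hw
    obtain ⟨a, ha⟩ := exists_pow_mem_fixingSubgroup_of_mem_wildAt L hw
    exact char_eq_one_of_pow χ (hχL _ ((IntermediateField.mem_fixingSubgroup_iff L _).mp ha))
  have hin : ∀ τ : Gp p, IsInertial p τ → τ ∈ inertiaAt L := fun τ h x _ hx1 => h x hx1
  obtain ⟨s, hs, hgen⟩ := WildFin.exists_frobenius L
  -- a generator of the tame inertia
  obtain ⟨τ1, hτ1, hτ1gen⟩ := (hWild p L).2 (fun σ x hx => map_mem L σ hx)
  have hχτ1 : χ τ1 ^ (p - 1) = 1 := by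
    have h1 := hwild _ (frob_conj_mem_wildAt L hs (hin τ1 hτ1))
    rw [map_mul, map_inv, map_pow, map_mul, map_mul, map_inv] at h1
    have h2 : χ s * χ τ1 * (χ s)⁻¹ = χ τ1 := by
      rw [mul_comm (χ s), mul_assoc, mul_inv_cancel, mul_one]
    rw [h2] at h1
    have h3 : χ τ1 ^ p = χ τ1 := inv_mul_eq_one.mp h1
    have h4 : χ τ1 ^ (p - 1) * χ τ1 = 1 * χ τ1 := by
      rw [← pow_succ, Nat.sub_add_cancel hp.pos, h3, one_mul]
    exact mul_right_cancel h4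
  have hwζ : ∀ w ∈ wildAt L, w ζ = ζ := fun w hw => wild_apply_zeta hζ hζL hw
  obtain ⟨c1, hc1, -⟩ := exists_pow_eq_map hζ τ1
  -- `τ1` acts on `ζ` through a generator of `𝔽_pˣ`
  have hdvd : ∀ a : ℕ, (τ1 ^ a) ζ = ζ → (p - 1) ∣ a := by
    intro a ha
    obtain ⟨b, hb⟩ := hτ1gen τ0 hτ0
    have hw := hwζ _ hb.2
    have h1 : τ0 ζ = (τ1 ^ b) ζ := by
      have h2 := congrArg (τ1 ^ b) hw
      rwa [← AlgEquiv.mul_apply, mul_inv_cancel_left] at h2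
    rw [hτ0ζ, pow_apply_root τ1 hc1 b, zeta_pow_eq_iff hζ] at h1
    rw [pow_apply_root τ1 hc1 a] at ha
    have ha' : ζ ^ (c1 ^ a) = ζ ^ 1 := by rw [ha, pow_one]
    rw [zeta_pow_eq_iff hζ] at ha'
    push_cast at h1 ha'
    rw [← hg0]
    apply orderOf_dvd_of_pow_eq_one
    rw [h1, ← pow_mul, mul_comm, pow_mul, ha', one_pow]
  -- the second clause
  have key : ∀ τ : Gp p, IsInertial p τ → τ ζ = ζ → χ τ = 1 := by
    intro τ hτ hτζ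
    obtain ⟨a, ha⟩ := hτ1gen τ hτ
    have hw : (τ1 ^ a)⁻¹ * τ ∈ wildAt L := ha.2
    have h1 : (τ1 ^ a) ζ = ζ := by
      have h2 := hwζ _ hw
      rw [AlgEquiv.mul_apply, hτζ] at h2
      have h3 := congrArg (τ1 ^ a) h2
      rw [← AlgEquiv.mul_apply, mul_inv_cancel, AlgEquiv.one_apply] at h3
      exact h3.symm
    obtain ⟨d, hd⟩ := hdvd a h1
    have h3 : χ τ = χ (τ1 ^ a) * χ ((τ1 ^ a)⁻¹ * τ) := by rw [← map_mul, mul_inv_cancel_left]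
    rw [h3, hwild _ hw, mul_one, map_pow, hd, pow_mul, hχτ1, one_pow]
  refine ⟨?_, key⟩
  -- the first clause
  intro σ hσ
  obtain ⟨j, hj⟩ := hgen σ
  -- lift `(s ^ j)⁻¹ * σ` to an inertial element
  obtain ⟨τ, hτ, hτι⟩ := hKey p L ((s ^ j)⁻¹ * σ) (by
    intro ξ hξ m hm hξm
    have hm' : ¬ p ∣ m := (hp.coprime_iff_not_dvd).mp (Nat.coprime_comm.mp hm)
    have hm0 : m ≠ 0 := fun h0 => hm' (h0 ▸ dvd_zero p)
    exact eq_of_pow_eq_one_of_norm_sub_lt hm' (by rw [← map_pow, hξm, map_one]) hξm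
      ((mem_inertiaAt.mp hj) ξ hξ (norm_eq_one_of_pow_eq_one' hm0 hξm).le))
  have hσeq : σ = s ^ j * ((s ^ j)⁻¹ * σ) := by rw [mul_inv_cancel_left]
  -- the root of unity generating the unramified part
  have hz := isPrimitiveRoot_zeta ℚ_[p]⟮ζ⟯ hn0
  rw [hcard] at hz
  have hzK : zeta ℚ_[p]⟮ζ⟯ (Nat.card k - 1) ∈ unram ℚ_[p]⟮ζ⟯ (Nat.card k - 1) :=
    zeta_mem_unram _ _
  have hzL : zeta ℚ_[p]⟮ζ⟯ (Nat.card k - 1) ∈ L := hKL hzK
  have hpn : ¬ p ∣ p ^ (Nat.card k - 1) - 1 := not_dvd_pow_sub_one hn0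
  have hpn0 : p ^ (Nat.card k - 1) - 1 ≠ 0 := fun h0 => hpn (h0 ▸ dvd_zero p)
  have hz1 : ‖zeta ℚ_[p]⟮ζ⟯ (Nat.card k - 1)‖ ≤ 1 :=
    (norm_eq_one_of_pow_eq_one' hpn0 hz.pow_eq_one).le
  have hιz : ((s ^ j)⁻¹ * σ) (zeta ℚ_[p]⟮ζ⟯ (Nat.card k - 1)) =
      zeta ℚ_[p]⟮ζ⟯ (Nat.card k - 1) :=
    eq_of_pow_eq_one_of_norm_sub_lt hpn (by rw [← map_pow, hz.pow_eq_one, map_one])
      hz.pow_eq_one ((mem_inertiaAt.mp hj) _ hzL hz1)
  have hsz : s (zeta ℚ_[p]⟮ζ⟯ (Nat.card k - 1)) = zeta ℚ_[p]⟮ζ⟯ (Nat.card k - 1) ^ p :=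
    eq_of_pow_eq_one_of_norm_sub_lt hpn (by rw [← map_pow, hz.pow_eq_one, map_one])
      (by rw [← pow_mul, mul_comm, pow_mul, hz.pow_eq_one, one_pow]) (hs _ hzL hz1)
  have hσz : σ (zeta ℚ_[p]⟮ζ⟯ (Nat.card k - 1)) = zeta ℚ_[p]⟮ζ⟯ (Nat.card k - 1) :=
    (IntermediateField.mem_fixingSubgroup_iff _ σ).mp hσ _ hzK
  have hnj : (Nat.card k - 1) ∣ j := by
    rw [hσeq, AlgEquiv.mul_apply, hιz, pow_apply_root s hsz j] at hσz
    have h1 : zeta ℚ_[p]⟮ζ⟯ (Nat.card k - 1) ^ (p ^ j - 1) = 1 := by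
      have hz0 : zeta ℚ_[p]⟮ζ⟯ (Nat.card k - 1) ≠ 0 := hz.ne_zero hpn0
      have h2 : zeta ℚ_[p]⟮ζ⟯ (Nat.card k - 1) ^ (p ^ j - 1) * zeta ℚ_[p]⟮ζ⟯ (Nat.card k - 1) =
          1 * zeta ℚ_[p]⟮ζ⟯ (Nat.card k - 1) := by
        rw [← pow_succ, Nat.sub_add_cancel (Nat.one_le_pow _ _ hp.pos), hσz, one_mul]
      exact mul_right_cancel₀ hz0 h2
    have h3 : p ^ (Nat.card k - 1) - 1 ∣ p ^ j - 1 := (hz.pow_eq_one_iff_dvd _).mp h1
    have h4 := Nat.gcd_eq_left h3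
    rw [Nat.pow_sub_one_gcd_pow_sub_one] at h4
    have h5 : p ^ Nat.gcd (Nat.card k - 1) j = p ^ (Nat.card k - 1) := by
      have : 1 ≤ p ^ Nat.gcd (Nat.card k - 1) j := Nat.one_le_pow _ _ hp.pos
      have : 1 ≤ p ^ (Nat.card k - 1) := Nat.one_le_pow _ _ hp.pos
      omega
    have h6 : Nat.gcd (Nat.card k - 1) j = Nat.card k - 1 := Nat.pow_right_injective hp.two_le h5
    exact Nat.gcd_eq_left_iff_dvd.mp h6
  have hχs : χ (s ^ j) = 1 := by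
    obtain ⟨d, rfl⟩ := hnj
    rw [map_pow, pow_mul, ← Nat.card_units, pow_card_eq_one', one_pow]
  -- `(s ^ j)⁻¹ * σ` fixes `ζ`
  have hιζ : ((s ^ j)⁻¹ * σ) ζ = ζ := by
    have h1 : (s ^ j) ζ = ζ := pow_apply_zeta hζ s (hp1n.trans hnj)
    have h2 : σ ζ = ζ := (IntermediateField.mem_fixingSubgroup_iff _ σ).mp hσ ζ hζK
    rw [AlgEquiv.mul_apply, h2]
    have h3 : (s ^ j)⁻¹ ((s ^ j) ζ) = (s ^ j)⁻¹ ζ := by rw [h1]
    rw [← AlgEquiv.mul_apply, inv_mul_cancel, AlgEquiv.one_apply] at h3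
    exact h3.symm
  have hτζ : τ ζ = ζ := by rw [← hτι ζ hζL, hιζ]
  have hχι : χ ((s ^ j)⁻¹ * σ) = χ τ := by
    have h1 : χ (τ⁻¹ * ((s ^ j)⁻¹ * σ)) = 1 := hχL _ (fun x hx => by
      rw [AlgEquiv.mul_apply, hτι x hx, ← AlgEquiv.mul_apply, inv_mul_cancel,
        AlgEquiv.one_apply])
    rw [map_mul, map_inv, inv_mul_eq_one] at h1
    exact h1.symm
  rw [hσeq, map_mul, hχs, one_mul, hχι]
  exact key τ hτ hτζ

end Characters

/-! ### The statement -/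

/-- **LR.**  The tame field of the reducible case, from LG-key and LG-wild. -/
theorem lrStatement (hKey : LGKeyStatement) (hWild : LGWildStatement) : LRStatement := by
  intro p _ _ k _ _ _ ζ hζ
  have hp : p.Prime := Fact.out
  obtain ⟨f, hf0, hcardk⟩ := card_eq_pow (p := p) k
  have hn0 : 0 < Nat.card k - 1 := by
    have h1 : p ^ 1 ≤ p ^ f := Nat.pow_le_pow_right hp.pos hf0
    rw [pow_one] at h1
    have := hp.two_le
    omega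
  have hpn : ¬ p ∣ Nat.card k - 1 := by
    rw [hcardk]
    exact not_dvd_pow_sub_one hf0
  have hp1 : 0 < p - 1 := Nat.sub_pos_of_lt hp.one_lt
  obtain ⟨ϖ, hϖ⟩ := IsDiscreteValuationRing.exists_irreducible 𝒪[ℚ_[p]⟮ζ⟯]
  obtain ⟨-, -, hnormϖ⟩ := cyclo_main hζ hϖ
  obtain ⟨g0, hg0cop, hg0⟩ := exists_primitive_root_mod (p := p)
  obtain ⟨τ0, hτ0in, hτ0⟩ := exists_inertial_pow hζ hKey hg0cop
  have : Normal ℚ_[p] (unram ℚ_[p]⟮ζ⟯ (Nat.card k - 1)) := normal_unram_adjoin hζ hn0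
  obtain ⟨φ, hφ, -⟩ := WildFin.exists_frobenius (unram ℚ_[p]⟮ζ⟯ (Nat.card k - 1))
  refine ⟨unram ℚ_[p]⟮ζ⟯ (Nat.card k - 1), inferInstance, τ0, φ, g0, (p - 1) * (Nat.card k - 1),
    le_unram _ _ (IntermediateField.mem_adjoin_simple_self _ _),
    fun σ x hx => map_mem_unram_adjoin hζ hn0 (σ : PadicAlgCl p →ₐ[ℚ_[p]] PadicAlgCl p) hx,
    ⟨Nat.mul_pos hp1 hn0, ?_, fun σ => pow_mem_fixingSubgroup_unram hζ hn0 σ
      (Dvd.intro _ rfl) (Dvd.intro_left _ rfl)⟩,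
    ?_, norm_zeta_sub_one_pow hζ, hτ0in, hτ0, hg0, hφ, ?_⟩
  · intro h
    rcases hp.dvd_mul.mp h with h | h
    · exact Nat.not_dvd_of_pos_of_lt hp1 (Nat.sub_lt hp.pos one_pos) h
    · exact hpn h
  · intro x hx hx1
    rw [← hnormϖ]
    exact norm_le_of_mem_unram _ hn0 hϖ hx hx1
  · rintro χ ⟨L0, hL0fin, hL0⟩
    have := hL0fin
    exact char_trivial hKey hWild hζ hτ0in hτ0 hg0 χ L0 hL0

end Fermat.Agent.S56.LF.TameFieldR
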