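import Mathlib
import Fermat.Agent.CFT.Local.UnramPadicAbs
import Fermat.Agent.S56.LF.WildFin

/-!
# S56 / LF: the shared field facts of the tame fields (rows LR / LI)

`Ω = PadicAlgCl p`, `Gal = Ω ≃ₐ[ℚ_[p]] Ω`, `E N = unram ⊥ N` (the unramified extension of degree
`N` of `ℚ_p`).  Field facts only, by norms (helper101, ledger note L-14a (2)):

* (a) roots of unity: `norm_eq_one_of_pow_eq_one`, `root_eq_of_norm_sub_lt` (roots of unity of
  order prime to `p` are incongruent), `norm_zeta_pow_sub_one`, `norm_zeta_sub_one_pow`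
  (`‖ζ - 1‖ ^ (p - 1) = ‖p‖`), `norm_zeta_sub_one_lt_one`, `norm_geom_sub_natCast`,
  `apply_zeta_eq_of_norm_lt`;
* (b) the `e f` count: `uniformizer_of_norm_pow` (if `E N ≤ K`, `π ∈ K`, `‖π‖ ^ d = ‖p‖` and
  `[K : ℚ_p] ≤ N d`, then `π` is a uniformiser of `K`, the residue field of `K` has `p ^ N`
  elements and `[K : ℚ_p] = N d`), `root_mem_unram_of_card`, `finrank_unram_sup_adjoin_le`,
  `finrank_unram_sup_zeta_le`;
* (e) Galois stability: `normal_of_map_mem`, `pow_finrank_mem_fixingSubgroup`,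
  `map_mem_unram_bot`, `pow_mem_fixingSubgroup_unram_bot`, `map_mem_sup_adjoin`,
  `exists_normal_ge`.
-/

set_option autoImplicit false

namespace Fermat.Agent.S56.LF.TameCore

open scoped NNReal NormedField Valued IntermediateField
open IsLocalRing Polynomial Fermat.Agent.CFT.Local Fermat.Agent.CFT.Local.NormedLocal
  Fermat.Agent.CFT.Local.PadicExt Fermat.Agent.CFT.Local.UnramPadic

variable {p : ℕ} [Fact p.Prime]

/-! ### (a) Roots of unity -/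

section Roots

lemma norm_p_algCl : ‖(p : PadicAlgCl p)‖ = (p : ℝ)⁻¹ := by
  rw [← map_natCast (algebraMap ℚ_[p] (PadicAlgCl p)) p, norm_algebraMap']
  exact Padic.norm_p

lemma norm_p_algCl_lt_one : ‖(p : PadicAlgCl p)‖ < 1 := by
  rw [← map_natCast (algebraMap ℚ_[p] (PadicAlgCl p)) p, norm_algebraMap']
  exact Padic.norm_p_lt_one

theorem norm_eq_one_of_pow_eq_one {ξ : PadicAlgCl p} {n : ℕ} (hn : n ≠ 0) (hξ : ξ ^ n = 1) :
    ‖ξ‖ = 1 := by
  have h : ‖ξ‖ ^ n = 1 := by rw [← norm_pow, hξ, norm_one]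
  exact (pow_eq_one_iff_of_nonneg (norm_nonneg ξ) hn).mp h

/-- `‖x ^ n - 1‖ ≤ ‖x - 1‖` for integral `x`. -/
lemma norm_pow_sub_one_le {x : PadicAlgCl p} (hx : ‖x‖ ≤ 1) (n : ℕ) : ‖x ^ n - 1‖ ≤ ‖x - 1‖ := by
  rw [← mul_geom_sum, norm_mul]
  refine mul_le_of_le_one_right (norm_nonneg _) ?_
  refine IsUltrametricDist.norm_sum_le_of_forall_le_of_nonneg zero_le_one (fun i _ => ?_)
  rw [norm_pow]
  exact pow_le_one₀ (norm_nonneg _) hx

/-- **Roots of unity of order prime to `p` are incongruent modulo the maximal ideal.** -/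
theorem root_eq_of_norm_sub_lt {ξ ξ' : PadicAlgCl p} {n : ℕ} (hn : ¬ p ∣ n) (hξ : ξ ^ n = 1)
    (hξ' : ξ' ^ n = 1) (h : ‖ξ - ξ'‖ < 1) : ξ = ξ' := by
  have hn0 : n ≠ 0 := by
    rintro rfl
    exact hn (dvd_zero p)
  have h1 : ‖ξ'‖ = 1 := norm_eq_one_of_pow_eq_one hn0 hξ'
  have hξ'0 : ξ' ≠ 0 := by
    intro h0
    rw [h0, norm_zero] at h1
    exact zero_ne_one h1
  set u := ξ / ξ' with hu
  have hun : u ^ n = 1 := by rw [hu, div_pow, hξ, hξ', div_one]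
  have hu1 : ‖u - 1‖ < 1 := by
    have e : u - 1 = (ξ - ξ') / ξ' := by
      rw [hu]
      field_simp
    rw [e, norm_div, h1, div_one]
    exact h
  have hunorm : ‖u‖ ≤ 1 := (norm_eq_one_of_pow_eq_one hn0 hun).le
  by_contra hne
  have hu_ne : u ≠ 1 := by
    intro h'
    apply hne
    rw [hu, div_eq_one_iff_eq hξ'0] at h'
    exact h'
  have hsum : ∑ i ∈ Finset.range n, u ^ i = 0 := by
    have h2 := mul_geom_sum u n
    rw [hun, sub_self] at h2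
    exact (mul_eq_zero.mp h2).resolve_left (sub_ne_zero.mpr hu_ne)
  have hn' : (n : PadicAlgCl p) = ∑ i ∈ Finset.range n, (1 - u ^ i) := by
    rw [Finset.sum_sub_distrib, hsum, sub_zero, Finset.sum_const, Finset.card_range,
      nsmul_eq_mul, mul_one]
  have hlt : ‖(n : PadicAlgCl p)‖ < 1 := by
    rw [hn']
    obtain ⟨i, -, hi⟩ := IsUltrametricDist.exists_norm_finsetSum_le_of_nonempty
      (Finset.nonempty_range_iff.mpr hn0) (fun i => 1 - u ^ i)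
    refine lt_of_le_of_lt hi ?_
    have h4 := WildFin.norm_pow_sub_pow_lt hunorm (le_of_eq norm_one) hu1 i
    rw [one_pow, norm_sub_rev] at h4
    exact h4
  rw [WildFin.norm_natCast_of_not_dvd hn] at hlt
  exact lt_irrefl _ hlt

variable {ζ : PadicAlgCl p}

/-- All the `ζ ^ i - 1`, `p ∤ i`, have the norm of `ζ - 1`. -/
theorem norm_zeta_pow_sub_one (hζ : IsPrimitiveRoot ζ p) {i : ℕ} (hi : ¬ p ∣ i) :
    ‖ζ ^ i - 1‖ = ‖ζ - 1‖ := by
  have hp : p.Prime := Fact.out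
  have hζ1 : ‖ζ‖ = 1 := norm_eq_one_of_pow_eq_one hp.ne_zero hζ.pow_eq_one
  refine le_antisymm (norm_pow_sub_one_le hζ1.le i) ?_
  have hcop : Nat.Coprime i p := ((Nat.Prime.coprime_iff_not_dvd hp).mpr hi).symm
  obtain ⟨m, -, hm⟩ := Nat.exists_mul_mod_eq_one_of_coprime hcop hp.one_lt
  have e : (ζ ^ i) ^ m = ζ := by
    rw [← pow_mul, pow_eq_pow_mod (i * m) hζ.pow_eq_one, hm, pow_one]
  have h := norm_pow_sub_one_le (x := ζ ^ i) (by rw [norm_pow, hζ1, one_pow]) m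
  rw [e] at h
  exact h

/-- **`‖ζ - 1‖ ^ (p - 1) = ‖p‖`** for a primitive `p`-th root of unity `ζ`. -/
theorem norm_zeta_sub_one_pow (hζ : IsPrimitiveRoot ζ p) :
    ‖ζ - 1‖ ^ (p - 1) = ‖(p : PadicAlgCl p)‖ := by
  have hp : p.Prime := Fact.out
  have hp1 : p - 1 + 1 = p := Nat.sub_add_cancel hp.one_le
  have hζ' : IsPrimitiveRoot ζ (p - 1 + 1) := by
    rw [hp1]
    exact hζ
  have h := hζ'.prod_one_sub_pow_eq_order
  have hcast : ((p - 1 : ℕ) : PadicAlgCl p) + 1 = (p : PadicAlgCl p) := by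
    rw [← Nat.cast_succ, Nat.succ_eq_add_one, hp1]
  rw [hcast] at h
  have hterm : ∀ k ∈ Finset.range (p - 1), ‖1 - ζ ^ (k + 1)‖ = ‖ζ - 1‖ := by
    intro k hk
    rw [norm_sub_rev]
    refine norm_zeta_pow_sub_one hζ ?_
    intro hdvd
    have hk' : k + 1 < p := by
      have := Finset.mem_range.mp hk
      omega
    exact absurd (Nat.le_of_dvd (Nat.succ_pos k) hdvd) (by omega)
  rw [← h, norm_prod, Finset.prod_congr rfl hterm, Finset.prod_const, Finset.card_range]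

theorem norm_zeta_sub_one_lt_one (hζ : IsPrimitiveRoot ζ p) : ‖ζ - 1‖ < 1 := by
  by_contra hge
  rw [not_lt] at hge
  have h1 : 1 ≤ ‖ζ - 1‖ ^ (p - 1) := one_le_pow₀ hge
  rw [norm_zeta_sub_one_pow hζ] at h1
  exact absurd norm_p_algCl_lt_one (not_lt.mpr h1)

/-- `(ζ ^ n - 1) / (ζ - 1) ≡ n`: the mod `p` cyclotomic character read on `ζ - 1`. -/
theorem norm_geom_sub_natCast (hζ : IsPrimitiveRoot ζ p) (n : ℕ) :
    ‖(ζ ^ n - 1) / (ζ - 1) - (n : PadicAlgCl p)‖ < 1 := by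
  have hp : p.Prime := Fact.out
  have hζ1 : ‖ζ‖ = 1 := norm_eq_one_of_pow_eq_one hp.ne_zero hζ.pow_eq_one
  have hne : ζ - 1 ≠ 0 := sub_ne_zero.mpr (hζ.ne_one hp.one_lt)
  have e : (ζ ^ n - 1) / (ζ - 1) - (n : PadicAlgCl p) = ∑ i ∈ Finset.range n, (ζ ^ i - 1) := by
    rw [Finset.sum_sub_distrib, Finset.sum_const, Finset.card_range, nsmul_eq_mul, mul_one,
      ← mul_geom_sum, mul_div_cancel_left₀ _ hne]
  rw [e]
  exact lt_of_le_of_lt (IsUltrametricDist.norm_sum_le_of_forall_le_of_nonneg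
    (norm_nonneg (ζ - 1)) (fun i _ => norm_pow_sub_one_le hζ1.le i)) (norm_zeta_sub_one_lt_one hζ)

/-- An automorphism moving `ζ - 1` by less than its norm fixes `ζ`. -/
theorem apply_zeta_eq_of_norm_lt (hζ : IsPrimitiveRoot ζ p)
    (σ : PadicAlgCl p ≃ₐ[ℚ_[p]] PadicAlgCl p) (h : ‖σ (ζ - 1) - (ζ - 1)‖ < ‖ζ - 1‖) :
    σ ζ = ζ := by
  have hp : p.Prime := Fact.out
  have : NeZero p := ⟨hp.ne_zero⟩
  have hζ1 : ‖ζ‖ = 1 := norm_eq_one_of_pow_eq_one hp.ne_zero hζ.pow_eq_one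
  obtain ⟨i, hip, hi⟩ := hζ.eq_pow_of_pow_eq_one (ξ := σ ζ)
    (by rw [← map_pow, hζ.pow_eq_one, map_one])
  rcases Nat.eq_zero_or_pos i with rfl | hipos
  · exfalso
    rw [pow_zero] at hi
    have h1 : σ ζ = σ 1 := by rw [← hi, map_one]
    exact hζ.ne_one hp.one_lt (σ.injective h1)
  · by_cases hd : p ∣ i - 1
    · have h0 : i - 1 = 0 := Nat.eq_zero_of_dvd_of_lt hd (by omega)
      have hi1 : i = 1 := by omega
      rw [← hi, hi1, pow_one]
    · exfalso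
      have e : σ (ζ - 1) - (ζ - 1) = ζ * (ζ ^ (i - 1) - 1) := by
        have h2 : ζ ^ i = ζ * ζ ^ (i - 1) := by rw [← pow_succ', Nat.sub_add_cancel hipos]
        rw [map_sub, map_one, ← hi, h2]
        ring
      rw [e, norm_mul, hζ1, one_mul, norm_zeta_pow_sub_one hζ hd] at h
      exact lt_irrefl _ h

end Roots

/-! ### (b) The `e f` count -/

section Count

/-- An integer of norm `< 1` whose norm dominates every norm `< 1` is a uniformiser (the lemma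
`LevelBound.Tower.irreducible_of_norm_max`, repeated to keep the closure of this file small). -/
theorem irreducible_of_norm_ge {K : Type*} [NontriviallyNormedField K] [IsUltrametricDist K]
    [ProperSpace K] {x : 𝒪[K]} (hx1 : ‖(x : K)‖ < 1)
    (hmax : ∀ y : K, ‖y‖ < 1 → ‖y‖ ≤ ‖(x : K)‖) : Irreducible x := by
  obtain ⟨ϖ, hϖ⟩ := IsDiscreteValuationRing.exists_irreducible 𝒪[K]
  have hϖpos : 0 < ‖(ϖ : K)‖ := Valued.integer.norm_irreducible_pos hϖ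
  have hϖlt : ‖(ϖ : K)‖ < 1 := Valued.integer.norm_irreducible_lt_one hϖ
  have hle : ‖(ϖ : K)‖ ≤ ‖(x : K)‖ := hmax _ hϖlt
  have hx0 : x ≠ 0 := by
    rintro rfl
    have h0 : ‖((0 : 𝒪[K]) : K)‖ = 0 := norm_zero
    rw [h0] at hle
    exact absurd hle (not_le.mpr hϖpos)
  obtain ⟨n, u, hu⟩ := IsDiscreteValuationRing.eq_unit_mul_pow_irreducible hx0 hϖ
  have hnorm : ‖(x : K)‖ = ‖(ϖ : K)‖ ^ n := by
    have h2 : (x : K) = ((u : 𝒪[K]) : K) * (ϖ : K) ^ n := congrArg Subtype.val hu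
    rw [h2, norm_mul, Valued.integer.norm_coe_unit, one_mul, norm_pow]
  have hn : n = 1 := by
    rcases Nat.lt_trichotomy n 1 with h | h | h
    · have hn0 : n = 0 := by omega
      rw [hn0, pow_zero] at hnorm
      exact absurd hnorm hx1.ne
    · exact h
    · exfalso
      have h3 : ‖(ϖ : K)‖ ^ n ≤ ‖(ϖ : K)‖ ^ 2 := pow_le_pow_of_le_one hϖpos.le hϖlt.le h
      have h4 : ‖(ϖ : K)‖ ^ 2 < ‖(ϖ : K)‖ := by nlinarith
      rw [hnorm] at hle
      exact absurd (hle.trans h3) (not_le.mpr h4)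
  rw [hn, pow_one] at hu
  rw [hu]
  exact (irreducible_units_mul u).mpr hϖ

/-- Every element of norm `< 1` has norm at most the norm of a uniformiser. -/
theorem norm_le_norm_irreducible {K : Type*} [NontriviallyNormedField K] [IsUltrametricDist K]
    [ProperSpace K] {ϖ : 𝒪[K]} (hϖ : Irreducible ϖ) {x : K} (hx : ‖x‖ < 1) :
    ‖x‖ ≤ ‖(ϖ : K)‖ := by
  by_cases hx0 : x = 0
  · rw [hx0, norm_zero]
    exact norm_nonneg _
  obtain ⟨n, hn⟩ := exists_norm_eq_zpow hϖ hx0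
  have hϖpos : 0 < ‖(ϖ : K)‖ := Valued.integer.norm_irreducible_pos hϖ
  have hϖlt : ‖(ϖ : K)‖ < 1 := Valued.integer.norm_irreducible_lt_one hϖ
  have hn1 : 1 ≤ n := by
    by_contra hcon
    have hn0 : n ≤ 0 := by omega
    have h1 : 1 ≤ ‖(ϖ : K)‖ ^ n := one_le_zpow_of_nonpos₀ hϖpos hϖlt.le hn0
    rw [← hn] at h1
    exact absurd hx (not_lt.mpr h1)
  rw [hn]
  calc ‖(ϖ : K)‖ ^ n ≤ ‖(ϖ : K)‖ ^ (1 : ℤ) := zpow_le_zpow_right_of_le_one₀ hϖpos hϖlt.le hn1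
    _ = ‖(ϖ : K)‖ := zpow_one _

/-- `p` is a uniformiser of `ℚ_p`. -/
theorem irreducible_p_padic : Irreducible ((p : ℕ) : 𝒪[ℚ_[p]]) := by
  have hp1 : (1 : ℝ) < p := by exact_mod_cast (Fact.out : p.Prime).one_lt
  have hnp : ‖(((p : ℕ) : 𝒪[ℚ_[p]]) : ℚ_[p])‖ = (p : ℝ)⁻¹ := Padic.norm_p
  apply irreducible_of_norm_ge
  · rw [hnp]
    exact inv_lt_one_of_one_lt₀ hp1
  · intro y hy
    rw [hnp]
    have h2 := (Padic.norm_le_pow_iff_norm_lt_pow_add_one y (-1)).mpr (by simpa using hy)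
    simpa [zpow_neg_one] using h2

/-- The residue field of `unram ⊥ N` has `p ^ N` elements. -/
theorem card_residueField_unram_bot {N : ℕ} (hN : 0 < N) :
    Nat.card 𝓀[unram (⊥ : IntermediateField ℚ_[p] (PadicAlgCl p)) N] = p ^ N := by
  have h := card_residueField_of_le (le_unram (⊥ : IntermediateField ℚ_[p] (PadicAlgCl p)) N)
  rw [inertiaDeg_unram _ hN, card_residueField_bot] at h
  exact h

/-- **The `e f` count.**  If `unram ⊥ N ≤ K`, `π ∈ K` has `‖π‖ ^ d = ‖p‖` and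
`[K : ℚ_p] ≤ N d`, then `π` is a uniformiser of `K` (norm form), the residue field of `K` has
`p ^ N` elements and `[K : ℚ_p] = N d`. -/
theorem uniformizer_of_norm_pow {N d : ℕ} (hN : 0 < N) (hd : 0 < d)
    (K : IntermediateField ℚ_[p] (PadicAlgCl p)) [FiniteDimensional ℚ_[p] K]
    (hEK : unram (⊥ : IntermediateField ℚ_[p] (PadicAlgCl p)) N ≤ K) {π : PadicAlgCl p}
    (hπK : π ∈ K) (hπ : ‖π‖ ^ d = ‖(p : PadicAlgCl p)‖)
    (hdeg : Module.finrank ℚ_[p] K ≤ N * d) :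
    (∀ x ∈ K, ‖x‖ < 1 → ‖x‖ ≤ ‖π‖) ∧ Nat.card 𝓀[K] = p ^ N ∧
      Module.finrank ℚ_[p] K = N * d := by
  have hp : p.Prime := Fact.out
  obtain ⟨ϖ, hϖ⟩ := IsDiscreteValuationRing.exists_irreducible 𝒪[K]
  have hϖpos : 0 < ‖(ϖ : K)‖ := Valued.integer.norm_irreducible_pos hϖ
  have hϖlt : ‖(ϖ : K)‖ < 1 := Valued.integer.norm_irreducible_lt_one hϖ
  -- the absolute `e` and `f`
  obtain ⟨e, f, hef, hcK, hnorm⟩ : ∃ e f : ℕ, e * f = Module.finrank ℚ_[p] K ∧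
      Nat.card 𝓀[K] = p ^ f ∧ (p : ℝ)⁻¹ = ‖(ϖ : K)‖ ^ e := by
    refine ⟨(𝓂[K]).ramificationIdx 𝒪[ℚ_[p]], (𝓂[K]).inertiaDeg 𝒪[ℚ_[p]],
      ramificationIdx_mul_inertiaDeg_abs K, card_residueField_eq_prime_pow K, ?_⟩
    have h := norm_irreducible_eq_pow (K := ℚ_[p]) (L := K) irreducible_p_padic hϖ
    have hnp : ‖(((p : ℕ) : 𝒪[ℚ_[p]]) : ℚ_[p])‖ = (p : ℝ)⁻¹ := Padic.norm_p
    rw [hnp] at h
    exact h
  -- `N ≤ f`
  have hNf : N ≤ f := by
    have hcK2 := card_residueField_of_le hEK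
    rw [card_residueField_unram_bot hN, ← pow_mul, hcK] at hcK2
    have hfN := Nat.pow_right_injective hp.two_le hcK2
    have hf'pos := inertiaDeg_pos_of_le hEK
    rw [hfN]
    exact Nat.le_mul_of_pos_right N hf'pos
  -- `d ≤ e`
  have hπ' : ‖π‖ ^ d = (p : ℝ)⁻¹ := by rw [hπ, norm_p_algCl]
  have hπlt : ‖π‖ < 1 := by
    by_contra hge
    rw [not_lt] at hge
    have h1 : 1 ≤ ‖π‖ ^ d := one_le_pow₀ hge
    rw [hπ] at h1
    exact absurd norm_p_algCl_lt_one (not_lt.mpr h1)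
  have hπle : ‖π‖ ≤ ‖(ϖ : K)‖ := norm_le_norm_irreducible hϖ (x := (⟨π, hπK⟩ : K)) hπlt
  have hde : d ≤ e := by
    have h1 : ‖(ϖ : K)‖ ^ e ≤ ‖(ϖ : K)‖ ^ d := by
      rw [← hnorm, ← hπ']
      exact pow_le_pow_left₀ (norm_nonneg _) hπle d
    exact (pow_le_pow_iff_right_of_lt_one₀ hϖpos hϖlt).mp h1
  -- the count
  have hcount : e * f = N * d := by
    apply le_antisymm
    · rw [hef]
      exact hdeg
    · calc N * d ≤ f * e := Nat.mul_le_mul hNf hde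
        _ = e * f := mul_comm _ _
  have hed : e = d := by
    by_contra hne
    have hlt : d < e := lt_of_le_of_ne hde (Ne.symm hne)
    have h1 : N * d < N * e := Nat.mul_lt_mul_of_pos_left hlt hN
    have h2 : N * e ≤ f * e := Nat.mul_le_mul_right e hNf
    have h3 : f * e = e * f := mul_comm _ _
    omega
  have hfN' : f = N := by
    rw [hed] at hcount
    have h1 : f * d = N * d := by
      rw [mul_comm]
      exact hcount
    exact Nat.eq_of_mul_eq_mul_right hd h1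
  refine ⟨?_, ?_, ?_⟩
  · intro x hx hx1
    have hϖπ : ‖(ϖ : K)‖ = ‖π‖ := by
      have h1 : ‖(ϖ : K)‖ ^ d = ‖π‖ ^ d := by rw [hπ', hnorm, hed]
      exact (pow_left_inj₀ (norm_nonneg _) (norm_nonneg _) hd.ne').mp h1
    rw [← hϖπ]
    exact norm_le_norm_irreducible hϖ (x := (⟨x, hx⟩ : K)) hx1
  · rw [hcK, hfN']
  · rw [← hef, hcount]

/-- **The roots of unity of order prime to `p` of a field with residue field of `p ^ N` elements
lie in `unram ⊥ N`.** -/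
theorem root_mem_unram_of_card {N : ℕ} (hN : 0 < N)
    (K : IntermediateField ℚ_[p] (PadicAlgCl p)) [FiniteDimensional ℚ_[p] K]
    (hcard : Nat.card 𝓀[K] = p ^ N) {ξ : PadicAlgCl p} (hξK : ξ ∈ K) {n : ℕ} (hn : ¬ p ∣ n)
    (hξ : ξ ^ n = 1) : ξ ∈ unram (⊥ : IntermediateField ℚ_[p] (PadicAlgCl p)) N := by
  have hp : p.Prime := Fact.out
  have hn0 : n ≠ 0 := by
    rintro rfl
    exact hn (dvd_zero p)
  have hξ1 : ‖ξ‖ = 1 := norm_eq_one_of_pow_eq_one hn0 hξ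
  obtain ⟨t, -, ht, hlt⟩ := WildFin.exists_teichmuller K hξK hξ1.le
  rw [hcard] at ht
  have ht0 : t ≠ 0 := by
    rintro rfl
    rw [sub_zero, hξ1] at hlt
    exact lt_irrefl _ hlt
  have hpN : 1 ≤ p ^ N := Nat.one_le_pow _ _ hp.pos
  have ht1 : t ^ (p ^ N - 1) = 1 := by
    have h2 : t * t ^ (p ^ N - 1) = t * 1 := by
      rw [← pow_succ', mul_one, Nat.sub_add_cancel hpN]
      exact ht
    exact mul_left_cancel₀ ht0 h2
  have hm : ¬ p ∣ n * (p ^ N - 1) := by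
    intro h
    rcases (Nat.Prime.dvd_mul hp).mp h with h | h
    · exact hn h
    · have h3 : p ∣ (p ^ N - 1) + 1 := by
        rw [Nat.sub_add_cancel hpN]
        exact dvd_pow_self p hN.ne'
      have h4 : p ∣ 1 := (Nat.dvd_add_right h).mp h3
      exact hp.one_lt.ne' (Nat.dvd_one.mp h4)
  have heq : ξ = t := root_eq_of_norm_sub_lt hm (by rw [pow_mul, hξ, one_pow])
    (by rw [mul_comm, pow_mul, ht1, one_pow]) hlt
  rw [heq]
  refine mem_unram_of_pow_eq_one (⊥ : IntermediateField ℚ_[p] (PadicAlgCl p)) hN ?_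
  rw [card_residueField_bot]
  exact ht1

/-- `F(x)` is finite over `ℚ_p`. -/
theorem finiteDimensional_sup_adjoin (F : IntermediateField ℚ_[p] (PadicAlgCl p))
    [FiniteDimensional ℚ_[p] F] (x : PadicAlgCl p) :
    FiniteDimensional ℚ_[p] ↥(F ⊔ ℚ_[p]⟮x⟯) := by
  have : FiniteDimensional ℚ_[p] ℚ_[p]⟮x⟯ :=
    IntermediateField.adjoin.finiteDimensional (Algebra.IsIntegral.isIntegral x)
  exact IntermediateField.finiteDimensional_sup F ℚ_[p]⟮x⟯

theorem finrank_adjoin_le_natDegree {x : PadicAlgCl p} {f : ℚ_[p][X]} (hf : f ≠ 0)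
    (hx : Polynomial.aeval x f = 0) : Module.finrank ℚ_[p] ℚ_[p]⟮x⟯ ≤ f.natDegree := by
  have hint : IsIntegral ℚ_[p] x := Algebra.IsIntegral.isIntegral x
  rw [IntermediateField.adjoin.finrank hint]
  exact Polynomial.natDegree_le_of_dvd (minpoly.dvd ℚ_[p] x hx) hf

/-- `[E_N(x) : ℚ_p] ≤ N deg f` for a root `x` of `f ≠ 0`. -/
theorem finrank_unram_sup_adjoin_le {N : ℕ} (hN : 0 < N) {x : PadicAlgCl p} {f : ℚ_[p][X]}
    (hf : f ≠ 0) (hx : Polynomial.aeval x f = 0) :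
    Module.finrank ℚ_[p] ↥(unram (⊥ : IntermediateField ℚ_[p] (PadicAlgCl p)) N ⊔ ℚ_[p]⟮x⟯) ≤
      N * f.natDegree := by
  refine le_trans (IntermediateField.finrank_sup_le _ _) ?_
  rw [finrank_unram_bot hN]
  exact Nat.mul_le_mul_left N (finrank_adjoin_le_natDegree hf hx)

/-- `[E_N(ζ_p) : ℚ_p] ≤ N (p - 1)`. -/
theorem finrank_unram_sup_zeta_le {N : ℕ} (hN : 0 < N) {ζ : PadicAlgCl p}
    (hζ : IsPrimitiveRoot ζ p) :
    Module.finrank ℚ_[p] ↥(unram (⊥ : IntermediateField ℚ_[p] (PadicAlgCl p)) N ⊔ ℚ_[p]⟮ζ⟯) ≤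
      N * (p - 1) := by
  have hp : p.Prime := Fact.out
  have hroot : Polynomial.aeval ζ (cyclotomic p ℚ_[p]) = 0 := by
    rw [aeval_def, eval₂_eq_eval_map, map_cyclotomic]
    exact hζ.isRoot_cyclotomic hp.pos
  have h := finrank_unram_sup_adjoin_le hN (cyclotomic_ne_zero p ℚ_[p]) hroot
  rwa [natDegree_cyclotomic, Nat.totient_prime hp] at h

end Count

/-! ### (e) Galois stability -/

section Stable

/-- A `Gal`-stable intermediate field is normal over `ℚ_p`. -/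
theorem normal_of_map_mem (K : IntermediateField ℚ_[p] (PadicAlgCl p))
    (hK : ∀ σ : PadicAlgCl p ≃ₐ[ℚ_[p]] PadicAlgCl p, ∀ x ∈ K, σ x ∈ K) : Normal ℚ_[p] K := by
  rw [IntermediateField.normal_iff_forall_map_le']
  rintro σ x ⟨y, hy, rfl⟩
  exact hK σ y hy

/-- **`σ ^ [K : ℚ_p]` fixes a finite `Gal`-stable `K`.** -/
theorem pow_finrank_mem_fixingSubgroup (K : IntermediateField ℚ_[p] (PadicAlgCl p))
    [FiniteDimensional ℚ_[p] K]
    (hK : ∀ σ : PadicAlgCl p ≃ₐ[ℚ_[p]] PadicAlgCl p, ∀ x ∈ K, σ x ∈ K)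
    (σ : PadicAlgCl p ≃ₐ[ℚ_[p]] PadicAlgCl p) :
    σ ^ Module.finrank ℚ_[p] K ∈ K.fixingSubgroup := by
  have hnormal : K.fixingSubgroup.Normal := by
    refine ⟨fun τ hτ g => ?_⟩
    rw [IntermediateField.mem_fixingSubgroup_iff] at hτ ⊢
    intro x hx
    have h1 : g⁻¹ x ∈ K := hK g⁻¹ x hx
    rw [AlgEquiv.mul_apply, AlgEquiv.mul_apply, hτ _ h1, ← AlgEquiv.mul_apply, mul_inv_cancel,
      AlgEquiv.one_apply]
  rw [IntermediateField.finrank_eq_fixingSubgroup_index]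
  exact Subgroup.pow_index_mem _ σ

/-- `unram ⊥ N` is `Gal`-stable. -/
theorem map_mem_unram_bot {N : ℕ} (hN : 0 < N) (σ : PadicAlgCl p ≃ₐ[ℚ_[p]] PadicAlgCl p)
    {x : PadicAlgCl p} (hx : x ∈ unram (⊥ : IntermediateField ℚ_[p] (PadicAlgCl p)) N) :
    σ x ∈ unram (⊥ : IntermediateField ℚ_[p] (PadicAlgCl p)) N := by
  refine map_mem_unram (⊥ : IntermediateField ℚ_[p] (PadicAlgCl p)) ?_ hN hx
  rw [IntermediateField.fixingSubgroup_bot]
  exact Subgroup.mem_top σ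

/-- `σ ^ N` fixes `unram ⊥ N`. -/
theorem pow_mem_fixingSubgroup_unram_bot {N : ℕ} (hN : 0 < N)
    (σ : PadicAlgCl p ≃ₐ[ℚ_[p]] PadicAlgCl p) :
    σ ^ N ∈ (unram (⊥ : IntermediateField ℚ_[p] (PadicAlgCl p)) N).fixingSubgroup := by
  have h := pow_finrank_mem_fixingSubgroup
    (unram (⊥ : IntermediateField ℚ_[p] (PadicAlgCl p)) N)
    (fun τ x hx => map_mem_unram_bot hN τ hx) σ
  rwa [finrank_unram_bot hN] at h

/-- `F(x)` is `Gal`-stable if `F` is and all the conjugates of `x` lie in `F(x)`. -/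
theorem map_mem_sup_adjoin (F : IntermediateField ℚ_[p] (PadicAlgCl p))
    (hF : ∀ σ : PadicAlgCl p ≃ₐ[ℚ_[p]] PadicAlgCl p, ∀ y ∈ F, σ y ∈ F) {x : PadicAlgCl p}
    (hx : ∀ σ : PadicAlgCl p ≃ₐ[ℚ_[p]] PadicAlgCl p, σ x ∈ F ⊔ ℚ_[p]⟮x⟯)
    (σ : PadicAlgCl p ≃ₐ[ℚ_[p]] PadicAlgCl p) {y : PadicAlgCl p} (hy : y ∈ F ⊔ ℚ_[p]⟮x⟯) :
    σ y ∈ F ⊔ ℚ_[p]⟮x⟯ := by
  have key : F ⊔ ℚ_[p]⟮x⟯ ≤
      (F ⊔ ℚ_[p]⟮x⟯).comap (σ : PadicAlgCl p →ₐ[ℚ_[p]] PadicAlgCl p) := by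
    refine sup_le (fun e he => ?_) ?_
    · show σ e ∈ F ⊔ ℚ_[p]⟮x⟯
      exact (le_sup_left : F ≤ F ⊔ ℚ_[p]⟮x⟯) (hF σ e he)
    · rw [IntermediateField.adjoin_simple_le_iff]
      show σ x ∈ F ⊔ ℚ_[p]⟮x⟯
      exact hx σ
  exact key hy

/-- Two finite fields lie in a finite normal one. -/
theorem exists_normal_ge (L K : IntermediateField ℚ_[p] (PadicAlgCl p))
    [FiniteDimensional ℚ_[p] L] [FiniteDimensional ℚ_[p] K] :
    ∃ M : IntermediateField ℚ_[p] (PadicAlgCl p), L ≤ M ∧ K ≤ M ∧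
      FiniteDimensional ℚ_[p] M ∧ Normal ℚ_[p] M := by
  have : FiniteDimensional ℚ_[p] ↥(L ⊔ K) := IntermediateField.finiteDimensional_sup L K
  refine ⟨IntermediateField.normalClosure ℚ_[p] ↥(L ⊔ K) (PadicAlgCl p), ?_, ?_,
    inferInstance, inferInstance⟩
  · exact le_sup_left.trans (IntermediateField.le_normalClosure (L ⊔ K))
  · exact le_sup_right.trans (IntermediateField.le_normalClosure (L ⊔ K))

end Stable

end Fermat.Agent.S56.LF.TameCore
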