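import Mathlib
import Fermat.Agent.CFT.Local.UnramPadicAbs
import Fermat.Agent.S56.LF.TameCore

/-!
# S56 / LF, row LI, field half: the tame field `unram ⊥ (2N) (ϖ)`, `ϖ ^ (p² - 1) = -p`

`tameField p N ϖ := unram ⊥ (2 * N) ⊔ ℚ_p(ϖ)` inside `ℚ̄_p = PadicAlgCl p`, for a root `ϖ` of
`X ^ (p² - 1) + p` (helper113, twin / second seat of row LI).  With `N := |k| - 1` this is the
field `K` of `Flat.LIStatement`; with `N := 1` it is `F0(ϖ)`, `F0 := unram ⊥ 2`.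

* `map_mem` (Galois-stable), `pow_mem_fixingSubgroup` (exponent `2 N (p² - 1)`);
* `norm_le_of_lt_one`, `norm_self_pow` (`ϖ` is a uniformiser, `e = p² - 1`),
  `card_residueField` (`f = 1` over `unram ⊥ (2N)`), `root_mem_unram`;
* `exists_conj` (`X ^ (p² - 1) + p` is the minimal polynomial of `ϖ` over `unram ⊥ (2N)`);
* `zeta_mem`, `norm_zeta_sub_one` (`ℚ_p(ζ_p) = ℚ_p((-p)^(1/(p-1)))`, by Hensel);
* `norm_natCast_sub_lt` (the mod `p` cyclotomic character of an inertial `τ` with `τ ϖ = z ϖ`),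
  `conj_apply` (conjugation by `F ∉ G_{F0}` turns `τ0` into `τ0 ^ p`).
-/

set_option autoImplicit false

namespace Fermat.Agent.S56.LF.TameIField

open scoped NNReal NormedField Valued IntermediateField
open IsLocalRing Polynomial
open Fermat.Agent.CFT.Local Fermat.Agent.CFT.Local.NormedLocal Fermat.Agent.CFT.Local.PadicExt
open Fermat.Agent.CFT.Local.UnramPadic

/-! ### Generic lemmas -/

section Generic

/-- `p² - 1 = (p + 1) (p - 1)`. -/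
lemma sq_sub_one_eq (q : ℕ) (hq : 1 ≤ q) : q ^ 2 - 1 = (q + 1) * (q - 1) := by
  obtain ⟨m, rfl⟩ : ∃ m, q = m + 1 := ⟨q - 1, by omega⟩
  have h : (m + 1) ^ 2 = (m + 1 + 1) * m + 1 := by ring
  rw [h]
  simp

lemma pow_pow_eq_self {M : Type*} [Monoid M] {x : M} {a : ℕ} (h : x ^ a = x) (j : ℕ) :
    x ^ (a ^ j) = x := by
  induction j with
  | zero => simp
  | succ j ih => rw [pow_succ, pow_mul, ih, h]

/-- The binomial identity behind `ℚ_p(ζ_p) = ℚ_p((-p)^(1/(p-1)))`: for `π ^ (q - 1) = -q`,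
`(1 + π Y) ^ q - 1 = π ^ q Y (Y ^ (q - 1) - (1 + π W(Y)))` with `deg W ≤ q - 2`. -/
theorem one_add_mul_pow_sub_one {R : Type*} [CommRing R] {q : ℕ} (hq : q.Prime) (π : R)
    (h : π ^ (q - 1) = -(q : R)) :
    ∃ W : R[X], W.natDegree + 2 ≤ q ∧ ∀ Y : R,
      (1 + π * Y) ^ q - 1 = π ^ q * Y * (Y ^ (q - 1) - (1 + π * W.eval Y)) := by
  obtain ⟨m, rfl⟩ : ∃ m, q = m + 2 := ⟨q - 2, by have := hq.two_le; omega⟩
  have hdiv : ∀ i ∈ Finset.range m,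
      (((m + 2 : ℕ) : R)) * ((((m + 2).choose (i + 2) / (m + 2) : ℕ)) : R)
        = (((m + 2).choose (i + 2) : ℕ) : R) := by
    intro i hi
    have hi' : i < m := Finset.mem_range.mp hi
    have hd : (m + 2) ∣ (m + 2).choose (i + 2) :=
      hq.dvd_choose_self (by omega) (by omega)
    rw [← Nat.cast_mul, Nat.mul_div_cancel' hd]
  refine ⟨∑ i ∈ Finset.range m,
    C ((((m + 2).choose (i + 2) / (m + 2) : ℕ) : R) * π ^ i) * X ^ (i + 1), ?_, fun Y => ?_⟩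
  · have hle : (∑ i ∈ Finset.range m,
        C ((((m + 2).choose (i + 2) / (m + 2) : ℕ) : R) * π ^ i) * X ^ (i + 1)).natDegree ≤ m := by
      refine natDegree_sum_le_of_forall_le _ _ (fun i hi => ?_)
      have hi' : i < m := Finset.mem_range.mp hi
      exact (natDegree_C_mul_X_pow_le _ _).trans (by omega)
    omega
  · have h' : π ^ (m + 1) = -((m + 2 : ℕ) : R) := by simpa using h
    have e : m + 2 - 1 = m + 1 := by omega
    rw [e]
    rw [add_comm (1 : R) (π * Y), add_pow]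
    rw [Finset.sum_range_succ, Finset.sum_range_succ', Finset.sum_range_succ']
    simp only [one_pow, mul_one, Nat.choose_self, Nat.cast_one, Nat.choose_zero_right, pow_zero,
      zero_add, pow_one, Nat.choose_one_right, eval_finsetSum, eval_mul, eval_C, eval_pow, eval_X]
    have hsum : ∑ i ∈ Finset.range m, (π * Y) ^ (i + 1 + 1) * (((m + 2).choose (i + 1 + 1) : ℕ) : R)
        = ((m + 2 : ℕ) : R) * π * Y * (π * ∑ i ∈ Finset.range m,
            ((((m + 2).choose (i + 2) / (m + 2) : ℕ)) : R) * π ^ i * Y ^ (i + 1)) := by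
      rw [Finset.mul_sum, Finset.mul_sum]
      refine Finset.sum_congr rfl fun i hi => ?_
      rw [← hdiv i hi]
      ring
    rw [hsum]
    have hneg : ((m + 2 : ℕ) : R) = -π ^ (m + 1) := by rw [h', neg_neg]
    rw [hneg]
    ring

end Generic

variable {p : ℕ} [Fact p.Prime]

/-! ### Norm lemmas in `PadicAlgCl p` -/

section Norm

lemma norm_prime : ‖(p : PadicAlgCl p)‖ = (p : ℝ)⁻¹ := by
  have h : ‖((p : ℕ) : PadicAlgCl p)‖ = ‖((p : ℕ) : ℚ_[p])‖ := by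
    rw [← map_natCast (algebraMap ℚ_[p] (PadicAlgCl p)) p, norm_algebraMap']
  rw [h]
  exact Padic.norm_p

lemma norm_prime_lt_one : ‖(p : PadicAlgCl p)‖ < 1 := by
  rw [norm_prime]
  have hp1 : (1 : ℝ) < p := by exact_mod_cast (Fact.out : p.Prime).one_lt
  exact inv_lt_one_of_one_lt₀ hp1

lemma norm_prime_pos : 0 < ‖(p : PadicAlgCl p)‖ := by
  rw [norm_prime]
  have hp0 : (0 : ℝ) < p := by exact_mod_cast (Fact.out : p.Prime).pos
  exact inv_pos.mpr hp0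

lemma norm_natCast_of_not_dvd {m : ℕ} (hm : ¬ p ∣ m) : ‖(m : PadicAlgCl p)‖ = 1 := by
  have h : ‖(m : PadicAlgCl p)‖ = ‖(m : ℚ_[p])‖ := by
    rw [← map_natCast (algebraMap ℚ_[p] (PadicAlgCl p)) m, norm_algebraMap']
  rw [h, Padic.norm_natCast_eq_one_iff]
  exact (Nat.Prime.coprime_iff_not_dvd (Fact.out : p.Prime)).mpr hm

lemma norm_add_lt_of {a b : PadicAlgCl p} {C : ℝ} (ha : ‖a‖ < C) (hb : ‖b‖ < C) : ‖a + b‖ < C :=
  lt_of_le_of_lt (IsUltrametricDist.norm_add_le_max _ _) (max_lt ha hb)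

lemma norm_add_le_of {a b : PadicAlgCl p} {C : ℝ} (ha : ‖a‖ ≤ C) (hb : ‖b‖ ≤ C) : ‖a + b‖ ≤ C :=
  le_trans (IsUltrametricDist.norm_add_le_max _ _) (max_le ha hb)

/-- `‖x ^ a - 1‖ ≤ ‖x - 1‖` for an integral `x`. -/
lemma norm_pow_sub_one_le {x : PadicAlgCl p} (hx : ‖x‖ ≤ 1) (a : ℕ) : ‖x ^ a - 1‖ ≤ ‖x - 1‖ := by
  induction a with
  | zero => simp
  | succ a ih =>
    have e : x ^ (a + 1) - 1 = x ^ a * (x - 1) + (x ^ a - 1) := by ring
    rw [e]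
    refine norm_add_le_of ?_ ih
    rw [norm_mul, norm_pow]
    exact mul_le_of_le_one_left (norm_nonneg _) (pow_le_one₀ (norm_nonneg _) hx)

/-- `1 + x + ⋯ + x ^ (n - 1) ≡ n` for `x ≡ 1`. -/
lemma norm_geom_sum_sub_natCast_lt {x : PadicAlgCl p} (hx : ‖x‖ ≤ 1) (h : ‖x - 1‖ < 1) (n : ℕ) :
    ‖∑ i ∈ Finset.range n, x ^ i - (n : PadicAlgCl p)‖ < 1 := by
  induction n with
  | zero => simp
  | succ n ih =>
    have e : ∑ i ∈ Finset.range (n + 1), x ^ i - ((n + 1 : ℕ) : PadicAlgCl p) =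
        (∑ i ∈ Finset.range n, x ^ i - (n : PadicAlgCl p)) + (x ^ n - 1) := by
      rw [Finset.sum_range_succ]
      push_cast
      ring
    rw [e]
    exact norm_add_lt_of ih (lt_of_le_of_lt (norm_pow_sub_one_le hx n) h)

/-- Roots of unity of order prime to `p` congruent to `1` are equal to `1`. -/
lemma root_eq_one_of_norm_sub_lt {η : PadicAlgCl p} {n : ℕ} (hn : n.Coprime p) (h : η ^ n = 1)
    (hlt : ‖η - 1‖ < 1) : η = 1 := by
  by_contra hne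
  have hpn : ¬ p ∣ n := (Nat.Prime.coprime_iff_not_dvd (Fact.out : p.Prime)).mp hn.symm
  have hsum : (∑ i ∈ Finset.range n, η ^ i) * (η - 1) = 0 := by rw [geom_sum_mul, h, sub_self]
  have h0 : ∑ i ∈ Finset.range n, η ^ i = 0 := by
    rcases mul_eq_zero.mp hsum with h0 | h0
    · exact h0
    · exact absurd (sub_eq_zero.mp h0) hne
  have hη1 : ‖η‖ ≤ 1 := by
    have e : η = (η - 1) + 1 := by ring
    rw [e]
    exact norm_add_le_of hlt.le (by rw [norm_one])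
  have hcong := norm_geom_sum_sub_natCast_lt hη1 hlt n
  rw [h0, zero_sub, norm_neg, norm_natCast_of_not_dvd hpn] at hcong
  exact lt_irrefl _ hcong

end Norm

/-! ### The field -/

/-- The tame field of the induced case: `unram ⊥ (2N) (ϖ)`. -/
noncomputable def tameField (p : ℕ) [Fact p.Prime] (N : ℕ) (ϖ : PadicAlgCl p) :
    IntermediateField ℚ_[p] (PadicAlgCl p) :=
  unram (⊥ : IntermediateField ℚ_[p] (PadicAlgCl p)) (2 * N) ⊔ ℚ_[p]⟮ϖ⟯

instance finiteDimensional_tameField (N : ℕ) (ϖ : PadicAlgCl p) :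
    FiniteDimensional ℚ_[p] (tameField p N ϖ) := by
  have : FiniteDimensional ℚ_[p] ℚ_[p]⟮ϖ⟯ :=
    IntermediateField.adjoin.finiteDimensional (Algebra.IsIntegral.isIntegral _)
  exact IntermediateField.finiteDimensional_sup _ _

theorem exists_root : ∃ ϖ : PadicAlgCl p, ϖ ^ (p ^ 2 - 1) = -(p : PadicAlgCl p) := by
  have hp : p.Prime := Fact.out
  have h1 : 1 < p ^ 2 := Nat.one_lt_pow (by norm_num) hp.one_lt
  exact IsAlgClosed.exists_pow_nat_eq _ (by omega)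

theorem unram_le (N : ℕ) (ϖ : PadicAlgCl p) :
    unram (⊥ : IntermediateField ℚ_[p] (PadicAlgCl p)) (2 * N) ≤ tameField p N ϖ := le_sup_left

theorem unram_two_le {N : ℕ} (hN : 0 < N) (ϖ : PadicAlgCl p) :
    unram (⊥ : IntermediateField ℚ_[p] (PadicAlgCl p)) 2 ≤ tameField p N ϖ :=
  (unram_le_of_dvd _ (Dvd.intro N rfl) (by omega)).trans (unram_le N ϖ)

theorem self_mem (N : ℕ) (ϖ : PadicAlgCl p) : ϖ ∈ tameField p N ϖ :=
  (le_sup_right : ℚ_[p]⟮ϖ⟯ ≤ tameField p N ϖ) (IntermediateField.mem_adjoin_simple_self _ _)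

theorem tameField_mono {N : ℕ} (hN : 0 < N) (ϖ : PadicAlgCl p) :
    tameField p 1 ϖ ≤ tameField p N ϖ := by
  unfold tameField
  exact sup_le_sup_right (unram_le_of_dvd _ (Dvd.intro N (by ring)) (by omega)) _

/-! ### Galois lemmas -/

section Galois

lemma mem_fixingSubgroup_bot (σ : PadicAlgCl p ≃ₐ[ℚ_[p]] PadicAlgCl p) :
    σ ∈ (⊥ : IntermediateField ℚ_[p] (PadicAlgCl p)).fixingSubgroup := by
  rw [IntermediateField.fixingSubgroup_bot]
  exact Subgroup.mem_top σ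

/-- An automorphism fixing `x` fixes `ℚ_p(x)`. -/
lemma mem_fixingSubgroup_adjoin_simple {σ : PadicAlgCl p ≃ₐ[ℚ_[p]] PadicAlgCl p}
    {x : PadicAlgCl p} (h : σ x = x) : σ ∈ (ℚ_[p]⟮x⟯).fixingSubgroup := by
  rw [← Subgroup.zpowers_le, ← IntermediateField.le_iff_le,
    IntermediateField.adjoin_simple_le_iff, IntermediateField.mem_fixedField_iff]
  intro f hf
  have hle : Subgroup.zpowers σ ≤ MulAction.stabilizer
      (PadicAlgCl p ≃ₐ[ℚ_[p]] PadicAlgCl p) x := by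
    rw [Subgroup.zpowers_le, MulAction.mem_stabilizer_iff]
    exact h
  exact MulAction.mem_stabilizer_iff.mp (hle hf)

/-- `τ ϖ = c ϖ` with `τ c = c` gives `τ ^ i ϖ = c ^ i ϖ`. -/
lemma pow_apply_mul {τ : PadicAlgCl p ≃ₐ[ℚ_[p]] PadicAlgCl p} {c x : PadicAlgCl p}
    (hc : τ c = c) (h : τ x = c * x) (i : ℕ) : (τ ^ i) x = c ^ i * x := by
  induction i with
  | zero => simp
  | succ i ih =>
    rw [pow_succ' τ i, AlgEquiv.mul_apply, ih, map_mul, map_pow, hc, h]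
    ring

/-- `σ ^ (2N)` fixes `unram ⊥ (2N)`. -/
lemma pow_mem_fixingSubgroup_unram {N : ℕ} (hN : 0 < N)
    (σ : PadicAlgCl p ≃ₐ[ℚ_[p]] PadicAlgCl p) :
    σ ^ (2 * N) ∈
      (unram (⊥ : IntermediateField ℚ_[p] (PadicAlgCl p)) (2 * N)).fixingSubgroup := by
  have h2N : 0 < 2 * N := by omega
  have hσ := mem_fixingSubgroup_bot σ
  obtain ⟨j, -, hj⟩ :=
    exists_map_zeta_eq_pow (⊥ : IntermediateField ℚ_[p] (PadicAlgCl p)) h2N hσ
  have hθ := isPrimitiveRoot_zeta (⊥ : IntermediateField ℚ_[p] (PadicAlgCl p)) h2N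
  have hQ : 1 ≤ Nat.card 𝓀[(⊥ : IntermediateField ℚ_[p] (PadicAlgCl p))] ^ (2 * N) :=
    Nat.one_le_pow _ _ (by
      have := Unramified.one_lt_card_residueField
        (K := (⊥ : IntermediateField ℚ_[p] (PadicAlgCl p)))
      omega)
  have hθQ : zeta (⊥ : IntermediateField ℚ_[p] (PadicAlgCl p)) (2 * N) ^
      (Nat.card 𝓀[(⊥ : IntermediateField ℚ_[p] (PadicAlgCl p))] ^ (2 * N)) =
      zeta (⊥ : IntermediateField ℚ_[p] (PadicAlgCl p)) (2 * N) := by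
    conv_lhs => rw [← Nat.sub_add_cancel hQ, pow_succ, hθ.pow_eq_one, one_mul]
  rw [mem_fixingSubgroup_unram_iff]
  refine ⟨Subgroup.pow_mem _ hσ _, ?_⟩
  rw [pow_apply_root σ hj (2 * N), ← pow_mul, mul_comm j (2 * N), pow_mul]
  exact pow_pow_eq_self hθQ j

end Galois

section Main

variable {N : ℕ} {ϖ : PadicAlgCl p}

theorem norm_self_pow (hϖ : ϖ ^ (p ^ 2 - 1) = -(p : PadicAlgCl p)) :
    ‖ϖ‖ ^ ((p + 1) * (p - 1)) = ‖(p : PadicAlgCl p)‖ := by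
  rw [← sq_sub_one_eq p (Fact.out : p.Prime).one_lt.le, ← norm_pow, hϖ, norm_neg]

lemma sq_sub_one_ne_zero : p ^ 2 - 1 ≠ 0 := by
  have hp : p.Prime := Fact.out
  have h1 : 1 < p ^ 2 := Nat.one_lt_pow (by norm_num) hp.one_lt
  omega

lemma ne_zero_of_root (hϖ : ϖ ^ (p ^ 2 - 1) = -(p : PadicAlgCl p)) : ϖ ≠ 0 := by
  rintro rfl
  rw [zero_pow sq_sub_one_ne_zero] at hϖ
  have h := norm_prime_pos (p := p)
  rw [← norm_neg, ← hϖ, norm_zero] at h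
  exact lt_irrefl _ h

theorem norm_self_lt_one (hϖ : ϖ ^ (p ^ 2 - 1) = -(p : PadicAlgCl p)) : ‖ϖ‖ < 1 := by
  by_contra hge
  rw [not_lt] at hge
  have h1 : 1 ≤ ‖ϖ‖ ^ (p ^ 2 - 1) := one_le_pow₀ hge
  rw [← norm_pow, hϖ, norm_neg] at h1
  exact absurd norm_prime_lt_one (not_lt.mpr h1)

/-- Every conjugate of `ϖ` is `c * ϖ` with `c` a `(p² - 1)`-th root of unity (in `unram ⊥ 2`). -/
theorem exists_map_eq_mul (hϖ : ϖ ^ (p ^ 2 - 1) = -(p : PadicAlgCl p))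
    (σ : PadicAlgCl p ≃ₐ[ℚ_[p]] PadicAlgCl p) :
    ∃ c : PadicAlgCl p, c ^ (p ^ 2 - 1) = 1 ∧
      c ∈ unram (⊥ : IntermediateField ℚ_[p] (PadicAlgCl p)) 2 ∧ σ ϖ = c * ϖ := by
  have hϖ0 := ne_zero_of_root hϖ
  have hp0 : (p : PadicAlgCl p) ≠ 0 := norm_pos_iff.mp norm_prime_pos
  have hc : (σ ϖ / ϖ) ^ (p ^ 2 - 1) = 1 := by
    rw [div_pow, ← map_pow, hϖ, map_neg, map_natCast]
    exact div_self (neg_ne_zero.mpr hp0)
  refine ⟨σ ϖ / ϖ, hc, ?_, (div_mul_cancel₀ _ hϖ0).symm⟩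
  refine mem_unram_of_pow_eq_one _ (by norm_num) ?_
  rw [card_residueField_bot]
  exact hc

/-- The tame field is stable under `Gal(ℚ̄_p/ℚ_p)`. -/
theorem map_mem (hN : 0 < N) (hϖ : ϖ ^ (p ^ 2 - 1) = -(p : PadicAlgCl p))
    (σ : PadicAlgCl p ≃ₐ[ℚ_[p]] PadicAlgCl p) {x : PadicAlgCl p} (hx : x ∈ tameField p N ϖ) :
    σ x ∈ tameField p N ϖ := by
  have key : unram (⊥ : IntermediateField ℚ_[p] (PadicAlgCl p)) (2 * N) ⊔ ℚ_[p]⟮ϖ⟯ ≤
      (tameField p N ϖ).comap (σ : PadicAlgCl p →ₐ[ℚ_[p]] PadicAlgCl p) := by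
    refine sup_le (fun e he => ?_) ?_
    · show σ e ∈ tameField p N ϖ
      exact unram_le N ϖ (map_mem_unram _ (mem_fixingSubgroup_bot σ) (by omega) he)
    · rw [IntermediateField.adjoin_simple_le_iff]
      show σ ϖ ∈ tameField p N ϖ
      obtain ⟨c, -, hc, hcϖ⟩ := exists_map_eq_mul hϖ σ
      rw [hcϖ]
      exact mul_mem (unram_two_le hN ϖ hc) (self_mem N ϖ)
  exact key hx

/-- `Gal(K/ℚ_p)` has exponent dividing `2 N (p² - 1)`. -/
theorem pow_mem_fixingSubgroup (hN : 0 < N) (hϖ : ϖ ^ (p ^ 2 - 1) = -(p : PadicAlgCl p))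
    (σ : PadicAlgCl p ≃ₐ[ℚ_[p]] PadicAlgCl p) :
    σ ^ (2 * N * (p ^ 2 - 1)) ∈ (tameField p N ϖ).fixingSubgroup := by
  have hτ := pow_mem_fixingSubgroup_unram hN σ
  obtain ⟨c, hc1, hc2, hcϖ⟩ := exists_map_eq_mul hϖ (σ ^ (2 * N))
  have hcK0 : c ∈ unram (⊥ : IntermediateField ℚ_[p] (PadicAlgCl p)) (2 * N) :=
    unram_le_of_dvd _ (Dvd.intro N rfl) (by omega) hc2
  have hτc : (σ ^ (2 * N)) c = c :=
    (IntermediateField.mem_fixingSubgroup_iff _ _).mp hτ c hcK0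
  have hfix : ((σ ^ (2 * N)) ^ (p ^ 2 - 1)) ϖ = ϖ := by
    rw [pow_apply_mul hτc hcϖ, hc1, one_mul]
  rw [pow_mul, tameField, IntermediateField.fixingSubgroup_sup, Subgroup.mem_inf]
  exact ⟨Subgroup.pow_mem _ hτ _, mem_fixingSubgroup_adjoin_simple hfix⟩

theorem not_dvd_exponent (hp2 : p ≠ 2) (hN : ¬ p ∣ N) : ¬ p ∣ 2 * N * (p ^ 2 - 1) := by
  have hp : p.Prime := Fact.out
  intro h
  rcases (Nat.Prime.dvd_mul hp).mp h with h1 | h1
  · rcases (Nat.Prime.dvd_mul hp).mp h1 with h2 | h2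
    · have := Nat.le_of_dvd (by norm_num) h2
      have := hp.two_le
      omega
    · exact hN h2
  · have h3 : p ∣ p ^ 2 := dvd_pow_self p (by norm_num)
    have h4 : p ^ 2 - 1 + 1 = p ^ 2 := Nat.sub_add_cancel (Nat.one_le_pow _ _ hp.pos)
    have h5 : p ∣ 1 := by
      have h6 : p ∣ p ^ 2 - 1 + 1 := by rw [h4]; exact h3
      exact (Nat.dvd_add_right h1).mp h6
    exact hp.one_lt.ne' (Nat.dvd_one.mp h5)

/-! ### The `e f` count (through `TameCore.uniformizer_of_norm_pow`) and the minimal polynomial -/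

section General

variable {M : ℕ}

/-- `[unram ⊥ M (ϖ) : ℚ_p] ≤ M (p² - 1)`. -/
lemma finrank_sup_le (hM : 0 < M) (hϖ : ϖ ^ (p ^ 2 - 1) = -(p : PadicAlgCl p)) :
    Module.finrank ℚ_[p]
        ↥(unram (⊥ : IntermediateField ℚ_[p] (PadicAlgCl p)) M ⊔ ℚ_[p]⟮ϖ⟯) ≤
      M * (p ^ 2 - 1) := by
  have hf : (X ^ (p ^ 2 - 1) + C ((p : ℕ) : ℚ_[p]) : ℚ_[p][X]) ≠ 0 :=
    (monic_X_pow_add_C _ sq_sub_one_ne_zero).ne_zero
  have hx : aeval ϖ (X ^ (p ^ 2 - 1) + C ((p : ℕ) : ℚ_[p]) : ℚ_[p][X]) = 0 := by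
    rw [map_add, map_pow, aeval_X, aeval_C, map_natCast, hϖ, neg_add_cancel]
  have h := TameCore.finrank_unram_sup_adjoin_le hM hf hx
  rwa [natDegree_X_pow_add_C] at h

/-- `ϖ` is a uniformiser of `unram ⊥ M (ϖ)`, which is totally ramified of degree `p² - 1` over
`unram ⊥ M`. -/
theorem main_general (hM : 0 < M) (hϖ : ϖ ^ (p ^ 2 - 1) = -(p : PadicAlgCl p)) :
    (∀ x ∈ unram (⊥ : IntermediateField ℚ_[p] (PadicAlgCl p)) M ⊔ ℚ_[p]⟮ϖ⟯,
        ‖x‖ < 1 → ‖x‖ ≤ ‖ϖ‖) ∧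
      Nat.card 𝓀[↥(unram (⊥ : IntermediateField ℚ_[p] (PadicAlgCl p)) M ⊔ ℚ_[p]⟮ϖ⟯)] = p ^ M ∧
      Module.finrank ℚ_[p]
        ↥(unram (⊥ : IntermediateField ℚ_[p] (PadicAlgCl p)) M ⊔ ℚ_[p]⟮ϖ⟯) = M * (p ^ 2 - 1) := by
  have := TameCore.finiteDimensional_sup_adjoin
    (unram (⊥ : IntermediateField ℚ_[p] (PadicAlgCl p)) M) ϖ
  exact TameCore.uniformizer_of_norm_pow hM (Nat.pos_of_ne_zero sq_sub_one_ne_zero) _ le_sup_left
    ((le_sup_right : ℚ_[p]⟮ϖ⟯ ≤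
        unram (⊥ : IntermediateField ℚ_[p] (PadicAlgCl p)) M ⊔ ℚ_[p]⟮ϖ⟯)
      (IntermediateField.mem_adjoin_simple_self _ _))
    (by rw [← norm_pow, hϖ, norm_neg]) (finrank_sup_le hM hϖ)

/-- `X ^ (p² - 1) + p` is the minimal polynomial of `ϖ` over `unram ⊥ M`. -/
theorem minpoly_eq (hM : 0 < M) (hϖ : ϖ ^ (p ^ 2 - 1) = -(p : PadicAlgCl p)) :
    minpoly (unram (⊥ : IntermediateField ℚ_[p] (PadicAlgCl p)) M) ϖ =
      X ^ (p ^ 2 - 1) + C ((p : ℕ) : unram (⊥ : IntermediateField ℚ_[p] (PadicAlgCl p)) M) := by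
  have hm0 : p ^ 2 - 1 ≠ 0 := sq_sub_one_ne_zero
  have hint0 : IsIntegral ℚ_[p] ϖ := Algebra.IsIntegral.isIntegral ϖ
  have hint : IsIntegral (unram (⊥ : IntermediateField ℚ_[p] (PadicAlgCl p)) M) ϖ :=
    hint0.tower_top
  have hmonic : (X ^ (p ^ 2 - 1) + C ((p : ℕ) :
      unram (⊥ : IntermediateField ℚ_[p] (PadicAlgCl p)) M) :
      (unram (⊥ : IntermediateField ℚ_[p] (PadicAlgCl p)) M)[X]).Monic :=
    monic_X_pow_add_C _ hm0
  have hroot : aeval ϖ (X ^ (p ^ 2 - 1) + C ((p : ℕ) :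
      unram (⊥ : IntermediateField ℚ_[p] (PadicAlgCl p)) M) :
      (unram (⊥ : IntermediateField ℚ_[p] (PadicAlgCl p)) M)[X]) = 0 := by
    rw [map_add, map_pow, aeval_X, aeval_C, map_natCast, hϖ, neg_add_cancel]
  have hdvd := minpoly.dvd (unram (⊥ : IntermediateField ℚ_[p] (PadicAlgCl p)) M) ϖ hroot
  -- the degree, by the tower law
  have h1 : Module.finrank (unram (⊥ : IntermediateField ℚ_[p] (PadicAlgCl p)) M)
      ↥(IntermediateField.adjoin (unram (⊥ : IntermediateField ℚ_[p] (PadicAlgCl p)) M)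
        ({ϖ} : Set (PadicAlgCl p))) =
      (minpoly (unram (⊥ : IntermediateField ℚ_[p] (PadicAlgCl p)) M) ϖ).natDegree :=
    IntermediateField.adjoin.finrank hint
  have h2 : (IntermediateField.adjoin (unram (⊥ : IntermediateField ℚ_[p] (PadicAlgCl p)) M)
      ({ϖ} : Set (PadicAlgCl p))).restrictScalars ℚ_[p] =
      unram (⊥ : IntermediateField ℚ_[p] (PadicAlgCl p)) M ⊔ ℚ_[p]⟮ϖ⟯ :=
    IntermediateField.restrictScalars_adjoin_eq_sup ℚ_[p] _ _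
  have h3 := Module.finrank_mul_finrank ℚ_[p]
    (unram (⊥ : IntermediateField ℚ_[p] (PadicAlgCl p)) M)
    ↥(IntermediateField.adjoin (unram (⊥ : IntermediateField ℚ_[p] (PadicAlgCl p)) M)
      ({ϖ} : Set (PadicAlgCl p)))
  have h4 : Module.finrank ℚ_[p]
      ↥(IntermediateField.adjoin (unram (⊥ : IntermediateField ℚ_[p] (PadicAlgCl p)) M)
        ({ϖ} : Set (PadicAlgCl p))) =
      Module.finrank ℚ_[p]
        ↥(unram (⊥ : IntermediateField ℚ_[p] (PadicAlgCl p)) M ⊔ ℚ_[p]⟮ϖ⟯) := by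
    rw [← h2]
    rfl
  rw [h4, (main_general hM hϖ).2.2, finrank_unram_bot hM, h1] at h3
  have hdeg : (minpoly (unram (⊥ : IntermediateField ℚ_[p] (PadicAlgCl p)) M) ϖ).natDegree =
      p ^ 2 - 1 := Nat.eq_of_mul_eq_mul_left hM h3
  exact (eq_of_monic_of_dvd_of_natDegree_le (minpoly.monic hint) hmonic hdvd
    (by rw [natDegree_X_pow_add_C, hdeg])).symm

end General

/-- `ϖ` is a uniformiser of the tame field. -/
theorem norm_le_of_lt_one (hN : 0 < N) (hϖ : ϖ ^ (p ^ 2 - 1) = -(p : PadicAlgCl p))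
    {x : PadicAlgCl p} (hx : x ∈ tameField p N ϖ) (hx1 : ‖x‖ < 1) : ‖x‖ ≤ ‖ϖ‖ :=
  (main_general (show 0 < 2 * N by omega) hϖ).1 x hx hx1

/-- The tame field is totally ramified over `unram ⊥ (2N)`. -/
theorem card_residueField (hN : 0 < N) (hϖ : ϖ ^ (p ^ 2 - 1) = -(p : PadicAlgCl p)) :
    Nat.card 𝓀[tameField p N ϖ] = p ^ (2 * N) :=
  (main_general (show 0 < 2 * N by omega) hϖ).2.1

/-- `[K : ℚ_p] = 2 N (p² - 1)`. -/
theorem finrank_tameField (hN : 0 < N) (hϖ : ϖ ^ (p ^ 2 - 1) = -(p : PadicAlgCl p)) :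
    Module.finrank ℚ_[p] (tameField p N ϖ) = 2 * N * (p ^ 2 - 1) :=
  (main_general (show 0 < 2 * N by omega) hϖ).2.2

/-- The roots of unity of order prime to `p` of the tame field lie in `unram ⊥ (2N)`. -/
theorem root_mem_unram (hN : 0 < N) (hϖ : ϖ ^ (p ^ 2 - 1) = -(p : PadicAlgCl p))
    {ξ : PadicAlgCl p} (hξ : ξ ∈ tameField p N ϖ) {n : ℕ} (hn : n.Coprime p) (h : ξ ^ n = 1) :
    ξ ∈ unram (⊥ : IntermediateField ℚ_[p] (PadicAlgCl p)) (2 * N) := by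
  have hp : p.Prime := Fact.out
  have hn0 : n ≠ 0 := by
    rintro rfl
    rw [Nat.coprime_zero_left] at hn
    exact hp.one_lt.ne' hn
  have hξ1 : ‖ξ‖ = 1 := by
    have h1 : ‖ξ‖ ^ n = 1 := by rw [← norm_pow, h, norm_one]
    exact (pow_eq_one_iff_of_nonneg (norm_nonneg _) hn0).mp h1
  have hcard := card_residueField hN hϖ
  have hQ1 : 1 ≤ p ^ (2 * N) := Nat.one_le_pow _ _ hp.pos
  -- `ξ ^ (Q - 1) ≡ 1`
  let ξO : 𝒪[tameField p N ϖ] := ⟨⟨ξ, hξ⟩, Valued.integer.mem_iff.mpr hξ1.le⟩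
  have hunit : IsUnit ξO := Valued.integer.isUnit_iff_norm_eq_one.mpr hξ1
  have hres0 : IsLocalRing.residue 𝒪[tameField p N ϖ] ξO ≠ 0 := by
    rw [Ne, IsLocalRing.residue_eq_zero_iff, IsLocalRing.mem_maximalIdeal, mem_nonunits_iff]
    exact not_not.mpr hunit
  let _ := Fintype.ofFinite 𝓀[tameField p N ϖ]
  have hpow : IsLocalRing.residue 𝒪[tameField p N ϖ] (ξO ^ (p ^ (2 * N) - 1)) =
      IsLocalRing.residue 𝒪[tameField p N ϖ] 1 := by
    rw [map_pow, map_one, ← hcard, Nat.card_eq_fintype_card]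
    exact FiniteField.pow_card_sub_one_eq_one _ hres0
  have hlt : ‖ξ ^ (p ^ (2 * N) - 1) - 1‖ < 1 :=
    (Unramified.residue_eq_iff_norm_sub_lt_one (ξO ^ (p ^ (2 * N) - 1)) 1).mp hpow
  have hη : ξ ^ (p ^ (2 * N) - 1) = 1 :=
    root_eq_one_of_norm_sub_lt hn (by rw [← pow_mul, mul_comm (p ^ (2 * N) - 1) n, pow_mul, h, one_pow]) hlt
  refine mem_unram_of_pow_eq_one _ (show 0 < 2 * N by omega) ?_
  rw [card_residueField_bot]
  exact hη

/-- `ϖ` and `z ϖ` are conjugate over `unram ⊥ (2N)`. -/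
theorem exists_conj (hN : 0 < N) (hϖ : ϖ ^ (p ^ 2 - 1) = -(p : PadicAlgCl p))
    {z : PadicAlgCl p} (hz : z ^ (p ^ 2 - 1) = 1) :
    ∃ ρ : PadicAlgCl p ≃ₐ[ℚ_[p]] PadicAlgCl p,
      ρ ∈ (unram (⊥ : IntermediateField ℚ_[p] (PadicAlgCl p)) (2 * N)).fixingSubgroup ∧
      ρ ϖ = z * ϖ := by
  have hmin := minpoly_eq (show 0 < 2 * N by omega) hϖ
  have hroot : aeval (z * ϖ)
      (minpoly (unram (⊥ : IntermediateField ℚ_[p] (PadicAlgCl p)) (2 * N)) ϖ) = 0 := by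
    rw [hmin, map_add, map_pow, aeval_X, aeval_C, map_natCast, mul_pow, hz, one_mul, hϖ,
      neg_add_cancel]
  have hnormal : Normal (unram (⊥ : IntermediateField ℚ_[p] (PadicAlgCl p)) (2 * N))
      (PadicAlgCl p) := Normal.tower_top_of_normal ℚ_[p] _ (PadicAlgCl p)
  obtain ⟨σ, hσ⟩ := minpoly.exists_algEquiv_of_root'
    (K := unram (⊥ : IntermediateField ℚ_[p] (PadicAlgCl p)) (2 * N)) (L := PadicAlgCl p)
    (x := z * ϖ) (y := ϖ) (hnormal.isIntegral ϖ).isAlgebraic hroot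
  refine ⟨σ.restrictScalars ℚ_[p], ?_, hσ⟩
  rw [IntermediateField.mem_fixingSubgroup_iff]
  intro x hx
  exact σ.commutes ⟨x, hx⟩

/-- A primitive `p`-th root of unity in the tame field, congruent to `1` modulo `ϖ ^ (p + 1)`
exactly (Hensel's lemma for `Y ^ (p - 1) - (1 + π W(Y))`, `π := ϖ ^ (p + 1)`). -/
theorem exists_zeta (N : ℕ) (hϖ : ϖ ^ (p ^ 2 - 1) = -(p : PadicAlgCl p)) :
    ∃ ζ' ∈ tameField p N ϖ, IsPrimitiveRoot ζ' p ∧ ‖ζ' - 1‖ = ‖ϖ‖ ^ (p + 1) := by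
  have hp : p.Prime := Fact.out
  have hϖ0 := ne_zero_of_root hϖ
  have hϖ1 := norm_self_lt_one hϖ
  have hπK : ϖ ^ (p + 1) ∈ tameField p N ϖ := pow_mem (self_mem N ϖ) _
  have hπn : ‖ϖ ^ (p + 1)‖ < 1 := by
    rw [norm_pow]
    exact pow_lt_one₀ (norm_nonneg _) hϖ1 (by omega)
  let π : 𝒪[tameField p N ϖ] := ⟨⟨ϖ ^ (p + 1), hπK⟩, Valued.integer.mem_iff.mpr hπn.le⟩
  have hπpow : π ^ (p - 1) = -((p : ℕ) : 𝒪[tameField p N ϖ]) := by
    apply Subtype.ext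
    apply Subtype.ext
    show (ϖ ^ (p + 1)) ^ (p - 1) = -(p : PadicAlgCl p)
    rw [← pow_mul, ← sq_sub_one_eq p hp.one_lt.le, hϖ]
  have hπmem : π ∈ 𝓂[tameField p N ϖ] := by
    rw [IsLocalRing.mem_maximalIdeal, mem_nonunits_iff, Valued.integer.isUnit_iff_norm_eq_one]
    exact hπn.ne
  obtain ⟨W, hWdeg, hW⟩ := one_add_mul_pow_sub_one hp π hπpow
  -- the monic polynomial
  have hdeg : (1 + C π * W : 𝒪[tameField p N ϖ][X]).degree < ((p - 1 : ℕ) : WithBot ℕ) := by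
    have h1 : (1 + C π * W : 𝒪[tameField p N ϖ][X]).natDegree ≤ p - 2 := by
      refine natDegree_add_le_of_degree_le ?_ ((natDegree_C_mul_le _ _).trans (by omega))
      rw [natDegree_one]
      exact Nat.zero_le _
    refine lt_of_le_of_lt degree_le_natDegree ?_
    have h2 : p - 2 < p - 1 := by have := hp.two_le; omega
    exact_mod_cast lt_of_le_of_lt h1 h2
  have hmonic : (X ^ (p - 1) - (1 + C π * W) : 𝒪[tameField p N ϖ][X]).Monic :=
    monic_X_pow_sub hdeg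
  have heval : (X ^ (p - 1) - (1 + C π * W) : 𝒪[tameField p N ϖ][X]).eval 1 ∈
      𝓂[tameField p N ϖ] := by
    have e : (X ^ (p - 1) - (1 + C π * W) : 𝒪[tameField p N ϖ][X]).eval 1 =
        π * (-(W.eval 1)) := by
      simp only [eval_sub, eval_pow, eval_X, eval_add, eval_one, eval_mul, eval_C, one_pow]
      ring
    rw [e]
    exact Ideal.mul_mem_right _ _ hπmem
  have hcast : ((p - 1 : ℕ) : 𝓀[tameField p N ϖ]) = -1 := by
    rw [Nat.cast_sub hp.one_lt.le, CharP.cast_eq_zero, Nat.cast_one, zero_sub]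
  have hder : IsUnit ((X ^ (p - 1) - (1 + C π * W) : 𝒪[tameField p N ϖ][X]).derivative.eval 1) := by
    rw [← IsLocalRing.notMem_maximalIdeal, ← IsLocalRing.residue_eq_zero_iff]
    simp only [derivative_X_pow, derivative_add, derivative_one, derivative_mul,
      derivative_C, zero_mul, zero_add, eval_sub, eval_mul, eval_pow, eval_X, eval_C,
      eval_natCast, one_pow, mul_one, map_sub, map_mul, map_natCast]
    rw [(IsLocalRing.residue_eq_zero_iff _).mpr hπmem, zero_mul, sub_zero, hcast]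
    exact neg_ne_zero.mpr one_ne_zero
  obtain ⟨y, hroot, hy1⟩ := HenselianLocalRing.is_henselian _ hmonic 1 heval hder
  -- `y` is a unit
  have hyn : ‖((y : tameField p N ϖ) : PadicAlgCl p)‖ = 1 := by
    have hres : IsLocalRing.residue 𝒪[tameField p N ϖ] y =
        IsLocalRing.residue 𝒪[tameField p N ϖ] 1 := by
      rw [← sub_eq_zero, ← map_sub, IsLocalRing.residue_eq_zero_iff]
      exact hy1
    have hu : IsUnit y := by
      rw [← IsLocalRing.notMem_maximalIdeal, ← IsLocalRing.residue_eq_zero_iff, hres, map_one]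
      exact one_ne_zero
    exact Valued.integer.isUnit_iff_norm_eq_one.mp hu
  -- the root of unity
  have hpow : (1 + π * y) ^ p = 1 := by
    have h1 := hW y
    have h2 : y ^ (p - 1) - (1 + π * W.eval y) = 0 := by
      have := hroot
      rw [IsRoot.def] at this
      simpa only [eval_sub, eval_pow, eval_X, eval_add, eval_one, eval_mul, eval_C] using this
    rw [h2, mul_zero] at h1
    exact sub_eq_zero.mp h1
  refine ⟨1 + ϖ ^ (p + 1) * ((y : tameField p N ϖ) : PadicAlgCl p), ?_, ?_, ?_⟩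
  · exact add_mem (one_mem _) (mul_mem hπK (y : tameField p N ϖ).2)
  · have hpow' : (1 + ϖ ^ (p + 1) * ((y : tameField p N ϖ) : PadicAlgCl p)) ^ p = 1 :=
      congrArg (fun t : 𝒪[tameField p N ϖ] => ((t : tameField p N ϖ) : PadicAlgCl p)) hpow
    have hne : 1 + ϖ ^ (p + 1) * ((y : tameField p N ϖ) : PadicAlgCl p) ≠ 1 := by
      intro h
      have h0 : ϖ ^ (p + 1) * ((y : tameField p N ϖ) : PadicAlgCl p) = 0 := by
        linear_combination h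
      rcases mul_eq_zero.mp h0 with h1 | h1
      · exact hϖ0 (pow_eq_zero_iff (by omega) |>.mp h1)
      · rw [h1, norm_zero] at hyn
        exact zero_ne_one hyn
    have hord := orderOf_eq_prime hpow' hne
    have := IsPrimitiveRoot.orderOf (1 + ϖ ^ (p + 1) * ((y : tameField p N ϖ) : PadicAlgCl p))
    rwa [hord] at this
  · rw [add_sub_cancel_left, norm_mul, hyn, mul_one, norm_pow]

/-- `ℚ_p(ζ_p) = ℚ_p((-p)^(1/(p-1)))`: the tame field contains the `p`-th roots of unity. -/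
theorem zeta_mem (N : ℕ) (hϖ : ϖ ^ (p ^ 2 - 1) = -(p : PadicAlgCl p))
    {ζ : PadicAlgCl p} (hζ : IsPrimitiveRoot ζ p) : ζ ∈ tameField p N ϖ := by
  obtain ⟨ζ', hζ'K, hζ', -⟩ := exists_zeta N hϖ
  have : NeZero p := ⟨(Fact.out : p.Prime).ne_zero⟩
  obtain ⟨i, -, hi⟩ := hζ'.eq_pow_of_pow_eq_one hζ.pow_eq_one
  rw [← hi]
  exact pow_mem hζ'K i

theorem norm_zeta_sub_one (hϖ : ϖ ^ (p ^ 2 - 1) = -(p : PadicAlgCl p))
    {ζ : PadicAlgCl p} (hζ : IsPrimitiveRoot ζ p) : ‖ζ - 1‖ = ‖ϖ‖ ^ (p + 1) := by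
  obtain ⟨ζ', -, hζ', hn⟩ := exists_zeta 1 hϖ
  have hp : p.Prime := Fact.out
  have : NeZero p := ⟨hp.ne_zero⟩
  have hnorm1 : ∀ ξ : PadicAlgCl p, ξ ^ p = 1 → ‖ξ‖ ≤ 1 := by
    intro ξ hξ
    have h1 : ‖ξ‖ ^ p = 1 := by rw [← norm_pow, hξ, norm_one]
    exact ((pow_eq_one_iff_of_nonneg (norm_nonneg _) hp.ne_zero).mp h1).le
  obtain ⟨i, -, hi⟩ := hζ'.eq_pow_of_pow_eq_one hζ.pow_eq_one
  obtain ⟨i', -, hi'⟩ := hζ.eq_pow_of_pow_eq_one hζ'.pow_eq_one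
  rw [← hn]
  apply le_antisymm
  · rw [← hi]
    exact norm_pow_sub_one_le (hnorm1 ζ' hζ'.pow_eq_one) i
  · rw [← hi']
    exact norm_pow_sub_one_le (hnorm1 ζ hζ.pow_eq_one) i'

/-- The mod `p` cyclotomic character of an inertial `τ` with `τ ϖ = z ϖ` is `z ^ (p + 1)`. -/
theorem norm_natCast_sub_lt (hϖ : ϖ ^ (p ^ 2 - 1) = -(p : PadicAlgCl p))
    {ζ : PadicAlgCl p} (hζ : IsPrimitiveRoot ζ p)
    {τ : PadicAlgCl p ≃ₐ[ℚ_[p]] PadicAlgCl p} (hτ : ∀ x : PadicAlgCl p, ‖x‖ ≤ 1 → ‖τ x - x‖ < 1)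
    {z : PadicAlgCl p} (hτϖ : τ ϖ = z * ϖ) {n : ℕ} (hn : τ ζ = ζ ^ n) :
    ‖(n : PadicAlgCl p) - z ^ (p + 1)‖ < 1 := by
  have hp : p.Prime := Fact.out
  have hϖ0 := ne_zero_of_root hϖ
  have hϖ1 := norm_self_lt_one hϖ
  have hπ0 : ϖ ^ (p + 1) ≠ 0 := pow_ne_zero _ hϖ0
  have hlam := norm_zeta_sub_one hϖ hζ
  have hζ1 : ‖ζ‖ ≤ 1 := by
    have h1 : ‖ζ‖ ^ p = 1 := by rw [← norm_pow, hζ.pow_eq_one, norm_one]
    exact ((pow_eq_one_iff_of_nonneg (norm_nonneg _) hp.ne_zero).mp h1).le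
  have hlamlt : ‖ζ - 1‖ < 1 := by
    rw [hlam]
    exact pow_lt_one₀ (norm_nonneg _) hϖ1 (by omega)
  -- `‖z‖ = 1`
  have hz1 : ‖z‖ = 1 := by
    have h1 : ‖τ ϖ‖ = ‖ϖ‖ := norm_algEquiv p τ ϖ
    rw [hτϖ, norm_mul] at h1
    have hpos : 0 < ‖ϖ‖ := norm_pos_iff.mpr hϖ0
    exact (mul_eq_right₀ hpos.ne').mp h1
  -- `w := (ζ - 1) / ϖ ^ (p + 1)` is a unit
  set w : PadicAlgCl p := (ζ - 1) / ϖ ^ (p + 1) with hw
  have hwn : ‖w‖ = 1 := by
    rw [hw, norm_div, hlam, norm_pow, div_self]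
    exact pow_ne_zero _ (norm_ne_zero_iff.mpr hϖ0)
  have hwlam : ζ - 1 = w * ϖ ^ (p + 1) := by rw [hw, div_mul_cancel₀ _ hπ0]
  -- the two expressions of `τ (ζ - 1)`
  have h1 : τ (ζ - 1) = (∑ i ∈ Finset.range n, ζ ^ i) * (w * ϖ ^ (p + 1)) := by
    rw [map_sub, map_one, hn, ← hwlam, geom_sum_mul]
  have h2 : τ (ζ - 1) = τ w * z ^ (p + 1) * ϖ ^ (p + 1) := by
    rw [hwlam, map_mul, map_pow, hτϖ, mul_pow]
    ring
  have h3 : τ w * z ^ (p + 1) = (∑ i ∈ Finset.range n, ζ ^ i) * w := by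
    have h4 : (τ w * z ^ (p + 1)) * ϖ ^ (p + 1) =
        ((∑ i ∈ Finset.range n, ζ ^ i) * w) * ϖ ^ (p + 1) := by
      rw [← h2, h1]
      ring
    exact mul_right_cancel₀ hπ0 h4
  have hg := norm_geom_sum_sub_natCast_lt hζ1 hlamlt n
  have key : w * ((n : PadicAlgCl p) - z ^ (p + 1)) =
      (τ w - w) * z ^ (p + 1) + -(w * (∑ i ∈ Finset.range n, ζ ^ i - (n : PadicAlgCl p))) := by
    linear_combination -h3
  have hlt : ‖w * ((n : PadicAlgCl p) - z ^ (p + 1))‖ < 1 := by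
    rw [key]
    refine norm_add_lt_of ?_ ?_
    · rw [norm_mul, norm_pow, hz1, one_pow, mul_one]
      exact hτ w hwn.le
    · rw [norm_neg, norm_mul, hwn, one_mul]
      exact hg
  rwa [norm_mul, hwn, one_mul] at hlt

/-- Conjugation by `F ∉ G_{F0}` turns `τ0` into `τ0 ^ p` on the tame field. -/
theorem conj_apply (hN : 0 < N) (hϖ : ϖ ^ (p ^ 2 - 1) = -(p : PadicAlgCl p))
    {τ0 : PadicAlgCl p ≃ₐ[ℚ_[p]] PadicAlgCl p} {z : PadicAlgCl p} (hz : z ^ (p ^ 2 - 1) = 1)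
    (hτ0 : ∀ x ∈ unram (⊥ : IntermediateField ℚ_[p] (PadicAlgCl p)) (2 * N), τ0 x = x)
    (hτ0ϖ : τ0 ϖ = z * ϖ) {F : PadicAlgCl p ≃ₐ[ℚ_[p]] PadicAlgCl p}
    (hF : F ∉ (unram (⊥ : IntermediateField ℚ_[p] (PadicAlgCl p)) 2).fixingSubgroup)
    {x : PadicAlgCl p} (hx : x ∈ tameField p N ϖ) : (F * τ0 * F⁻¹) x = (τ0 ^ p) x := by
  have h2N : 0 < 2 * N := by omega
  have h2le : unram (⊥ : IntermediateField ℚ_[p] (PadicAlgCl p)) 2 ≤
      unram (⊥ : IntermediateField ℚ_[p] (PadicAlgCl p)) (2 * N) :=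
    unram_le_of_dvd _ (Dvd.intro N rfl) h2N
  -- `F` raises the `(p² - 1)`-th roots of unity to the `p`-th power
  have hFz : ∀ ξ : PadicAlgCl p, ξ ^ (p ^ 2 - 1) = 1 → F ξ = ξ ^ p := by
    intro ξ hξ
    obtain ⟨j, hj2, hj⟩ := exists_map_zeta_eq_pow (⊥ : IntermediateField ℚ_[p] (PadicAlgCl p))
      (show 0 < 2 by norm_num) (mem_fixingSubgroup_bot F)
    have hprim := isPrimitiveRoot_zeta (⊥ : IntermediateField ℚ_[p] (PadicAlgCl p))
      (show 0 < 2 by norm_num)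
    rw [card_residueField_bot] at hj hprim
    have hj1 : j = 1 := by
      rcases Nat.eq_zero_or_pos j with h0 | h0
      · exfalso
        apply hF
        rw [mem_fixingSubgroup_unram_iff]
        refine ⟨mem_fixingSubgroup_bot F, ?_⟩
        rw [hj, h0, pow_zero, pow_one]
      · omega
    rw [hj1, pow_one] at hj
    exact map_root_eq_pow sq_sub_one_ne_zero hprim hξ F hj
  have hzK0 : z ∈ unram (⊥ : IntermediateField ℚ_[p] (PadicAlgCl p)) (2 * N) := by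
    refine h2le (mem_unram_of_pow_eq_one _ (by norm_num) ?_)
    rw [card_residueField_bot]
    exact hz
  have hτ0z : τ0 z = z := hτ0 z hzK0
  -- the element `g := (τ0 ^ p)⁻¹ * (F * τ0 * F⁻¹)` fixes the tame field
  have hτ0mem : τ0 ∈
      (unram (⊥ : IntermediateField ℚ_[p] (PadicAlgCl p)) (2 * N)).fixingSubgroup :=
    (IntermediateField.mem_fixingSubgroup_iff _ _).mpr hτ0
  have hg0 : (τ0 ^ p)⁻¹ * (F * τ0 * F⁻¹) ∈
      (unram (⊥ : IntermediateField ℚ_[p] (PadicAlgCl p)) (2 * N)).fixingSubgroup := by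
    refine Subgroup.mul_mem _ (Subgroup.inv_mem _ (Subgroup.pow_mem _ hτ0mem _)) ?_
    rw [IntermediateField.mem_fixingSubgroup_iff]
    intro y hy
    have hFy : F⁻¹ y ∈ unram (⊥ : IntermediateField ℚ_[p] (PadicAlgCl p)) (2 * N) :=
      map_mem_unram _ (mem_fixingSubgroup_bot F⁻¹) h2N hy
    rw [AlgEquiv.mul_apply, AlgEquiv.mul_apply, hτ0 _ hFy, ← AlgEquiv.mul_apply, mul_inv_cancel,
      AlgEquiv.one_apply]
  have hgϖ : ((τ0 ^ p)⁻¹ * (F * τ0 * F⁻¹)) ϖ = ϖ := by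
    obtain ⟨c, hc1, hc2, hcϖ⟩ := exists_map_eq_mul hϖ F⁻¹
    have hτ0c : τ0 c = c := hτ0 c (h2le hc2)
    have hFF : F (F⁻¹ ϖ) = ϖ := by
      rw [← AlgEquiv.mul_apply, mul_inv_cancel, AlgEquiv.one_apply]
    have h1 : (F * τ0 * F⁻¹) ϖ = z ^ p * ϖ := by
      rw [AlgEquiv.mul_apply, AlgEquiv.mul_apply, hcϖ, map_mul, hτ0c, hτ0ϖ]
      have h2 : F (c * (z * ϖ)) = F z * F (c * ϖ) := by
        rw [map_mul, map_mul, map_mul]
        ring
      rw [h2, ← hcϖ, hFF, hFz z hz]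
    have h3 : (τ0 ^ p) ϖ = z ^ p * ϖ := pow_apply_mul hτ0z hτ0ϖ p
    rw [AlgEquiv.mul_apply, h1, ← h3]
    exact (τ0 ^ p).symm_apply_apply ϖ
  have hg : (τ0 ^ p)⁻¹ * (F * τ0 * F⁻¹) ∈ (tameField p N ϖ).fixingSubgroup := by
    rw [tameField, IntermediateField.fixingSubgroup_sup, Subgroup.mem_inf]
    exact ⟨hg0, mem_fixingSubgroup_adjoin_simple hgϖ⟩
  have h4 := (IntermediateField.mem_fixingSubgroup_iff _ _).mp hg x hx
  rw [AlgEquiv.mul_apply] at h4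
  have h5 : (τ0 ^ p) ((τ0 ^ p)⁻¹ ((F * τ0 * F⁻¹) x)) = (F * τ0 * F⁻¹) x :=
    (τ0 ^ p).apply_symm_apply _
  rw [← h5, h4]

/-- **The field hypothesis (FH) of the character half of row LI**: for every `m ≥ 1` there is a
root `ϖ` of `X ^ (p² - 1) + p` which is a uniformiser (norm form) of `unram ⊥ (2m) (ϖ)`, and this
field contains the `p`-th roots of unity. -/
theorem field_exit {ζ : PadicAlgCl p} (hζ : IsPrimitiveRoot ζ p) :
    ∀ m : ℕ, 0 < m → ∃ ϖ : PadicAlgCl p, ϖ ^ (p ^ 2 - 1) = -(p : PadicAlgCl p) ∧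
      ζ ∈ unram (⊥ : IntermediateField ℚ_[p] (PadicAlgCl p)) (2 * m) ⊔ ℚ_[p]⟮ϖ⟯ ∧
      ∀ x ∈ unram (⊥ : IntermediateField ℚ_[p] (PadicAlgCl p)) (2 * m) ⊔ ℚ_[p]⟮ϖ⟯,
        ‖x‖ < 1 → ‖x‖ ≤ ‖ϖ‖ := by
  intro m hm
  obtain ⟨ϖ, hϖ⟩ := exists_root (p := p)
  exact ⟨ϖ, hϖ, zeta_mem m hϖ hζ, fun x hx hx1 => norm_le_of_lt_one hm hϖ hx hx1⟩

end Main

end Fermat.Agent.S56.LF.TameIField
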