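import Mathlib
import Fermat.Agent.CFT.Local.UnramPadicAbs
import Fermat.Agent.S56.LF.LevelBound.Tower

/-!
# S56 / LF, case (I): ring homomorphisms `ρ0 : 𝒪[E] →+* k` into a finite field (helper281)

Leaf for the induced case of the flat local bound.  `E` is a finite extension of `ℚ_p` inside
`ℚ̄_p`, `k` a field of characteristic `p`.

* `RhoZero.map_eq_zero_of_norm_lt_one` : a ring homomorphism `ρ0 : 𝒪[E] →+* k` kills every
  integer of norm `< 1`;
* `RhoZero.norm_lt_one_of_map_eq_zero` : conversely its kernel consists of integers of norm `< 1`;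
* `RhoZero.map_eq_natCast` (R3) : `‖n - x‖ < 1 → ρ0 x = n`;
* `RhoZero.orderOf_map` (R2) : a primitive `(p ^ 2 - 1)`-th root of unity `z ∈ 𝒪[E]` is sent to an
  element of order `p ^ 2 - 1`;
* `RhoZero.card_residueField_quad`, `RhoZero.card_residueField_bot_pow` (R5) :
  `#𝓀[unram ⊥ 2] = p ^ 2`, `#𝓀[⊥] = p ^ 1`;
* `RhoZero.two_dvd_finrank` : `s ^ (p ^ 2) = s ≠ s ^ p` in a finite field `k` forces
  `2 ∣ [k : 𝔽_p]`;
* `RhoZero.exists_rho0` (R1) : under that hypothesis there is a ring homomorphism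
  `𝒪[unram ⊥ 2] →+* k`.
-/

set_option autoImplicit false

namespace Fermat.Agent.S56.LF.RhoZero

open scoped NNReal NormedField Valued IntermediateField
open IsLocalRing
open Fermat.Agent.CFT.Local Fermat.Agent.CFT.Local.NormedLocal Fermat.Agent.CFT.Local.PadicExt
open Fermat.Agent.CFT.Local.UnramPadic

variable {p : ℕ} [Fact p.Prime]

section General

variable (E : IntermediateField ℚ_[p] (PadicAlgCl p))
variable {k : Type} [Field k] [CharP k p]

/-- A ring homomorphism from the integers of `E` to a field of characteristic `p` kills the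
integers of norm `< 1`. -/
theorem map_eq_zero_of_norm_lt_one (ρ0 : 𝒪[E] →+* k) (y : 𝒪[E]) (hy : ‖(y : E)‖ < 1) :
    ρ0 y = 0 := by
  have hp1 : (1 : ℝ) < p := by exact_mod_cast (Fact.out : p.Prime).one_lt
  have hpn : ‖((p : ℕ) : E)‖ = (p : ℝ)⁻¹ := norm_natCast_self p E
  have hppos : (0 : ℝ) < (p : ℝ)⁻¹ := inv_pos.mpr (by linarith)
  obtain ⟨N, hN⟩ := exists_pow_lt_of_lt_one hppos hy
  have hp0 : ((p : ℕ) : E) ≠ 0 := by
    intro h
    rw [h, norm_zero] at hpn
    linarith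
  have hw : (y : E) ^ N / ((p : ℕ) : E) ∈ 𝒪[E] := by
    rw [Valued.integer.mem_iff]
    change ‖(y : E) ^ N / ((p : ℕ) : E)‖ ≤ 1
    rw [norm_div, norm_pow, hpn, div_le_one hppos]
    exact hN.le
  have hyN : y ^ N = ((p : ℕ) : 𝒪[E]) * ⟨_, hw⟩ := by
    apply Subtype.ext
    change (y : E) ^ N = ((p : ℕ) : E) * ((y : E) ^ N / ((p : ℕ) : E))
    rw [mul_comm ((p : ℕ) : E), div_mul_cancel₀ _ hp0]
  have h0 : ρ0 y ^ N = 0 := by
    rw [← map_pow, hyN, map_mul, map_natCast, CharP.cast_eq_zero, zero_mul]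
  exact eq_zero_of_pow_eq_zero h0

/-- The kernel of a ring homomorphism from the integers of `E` to a field consists of integers of
norm `< 1`. -/
theorem norm_lt_one_of_map_eq_zero (ρ0 : 𝒪[E] →+* k) (y : 𝒪[E]) (hy : ρ0 y = 0) :
    ‖(y : E)‖ < 1 := by
  have h1 : ‖(y : E)‖ ≤ 1 := Valued.integer.norm_le_one y
  refine lt_of_le_of_ne h1 fun h => ?_
  have hu : IsUnit y := Valued.integer.isUnit_iff_norm_eq_one.mpr h
  have := hu.map ρ0
  rw [hy] at this
  exact not_isUnit_zero this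

/-- (R3) `ρ0 x = n` as soon as `‖n - x‖ < 1`. -/
theorem map_eq_natCast (ρ0 : 𝒪[E] →+* k) (x : 𝒪[E]) (n : ℕ)
    (h : ‖(n : PadicAlgCl p) - ((x : E) : PadicAlgCl p)‖ < 1) : ρ0 x = (n : k) := by
  have h' : ‖(((n : 𝒪[E]) - x : 𝒪[E]) : E)‖ < 1 := by
    have e : ‖(((n : 𝒪[E]) - x : 𝒪[E]) : E)‖ =
        ‖(n : PadicAlgCl p) - ((x : E) : PadicAlgCl p)‖ := by
      change ‖(((((n : 𝒪[E]) - x : 𝒪[E]) : E)) : PadicAlgCl p)‖ = _
      push_cast
      rfl
    rw [e]; exact h
  have h0 := map_eq_zero_of_norm_lt_one E ρ0 _ h'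
  rw [map_sub, map_natCast, sub_eq_zero] at h0
  exact h0.symm

/-- (R2) A primitive `(p ^ 2 - 1)`-th root of unity in `𝒪[E]` is sent to an element of order
`p ^ 2 - 1`. -/
theorem orderOf_map (ρ0 : 𝒪[E] →+* k) (z : 𝒪[E])
    (hz : IsPrimitiveRoot ((z : E) : PadicAlgCl p) (p ^ 2 - 1)) :
    orderOf (ρ0 z) = p ^ 2 - 1 := by
  have hcard : Nat.card 𝓀[ℚ_[p]] = p := card_residueField_padicBase p
  have hz' : IsPrimitiveRoot ((z : E) : PadicAlgCl p) (Nat.card 𝓀[ℚ_[p]] ^ 2 - 1) := by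
    rw [hcard]; exact hz
  have hpow : ∀ d : ℕ, ρ0 z ^ d = 1 → p ^ 2 - 1 ∣ d := by
    intro d hd
    have h0 : ρ0 (z ^ d - 1) = 0 := by rw [map_sub, map_pow, hd, map_one, sub_self]
    have h1 := norm_lt_one_of_map_eq_zero E ρ0 _ h0
    have h2 : ‖((z : E) : PadicAlgCl p) ^ d - 1‖ < 1 := by
      have e : ‖(((z ^ d - 1 : 𝒪[E]) : E))‖ = ‖((z : E) : PadicAlgCl p) ^ d - 1‖ := by
        change ‖((((z ^ d - 1 : 𝒪[E]) : E)) : PadicAlgCl p)‖ = _
        push_cast
        rfl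
      rw [← e]; exact h1
    have h3 := Fermat.Agent.CFT.Local.Unramified.pow_eq_one_of_norm_lt (K := ℚ_[p])
      (L := PadicAlgCl p) (n := 2) (by norm_num) hz' h2
    exact hz.dvd_of_pow_eq_one d h3
  have hone : ρ0 z ^ (p ^ 2 - 1) = 1 := by
    have h1 : z ^ (p ^ 2 - 1) = 1 := by
      have h := hz.pow_eq_one
      apply Subtype.ext
      apply Subtype.ext
      simpa using h
    rw [← map_pow, h1, map_one]
  exact Nat.dvd_antisymm (orderOf_dvd_of_pow_eq_one hone) (hpow _ (pow_orderOf_eq_one _))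

/-- (R2), `IsPrimitiveRoot` form. -/
theorem isPrimitiveRoot_map (ρ0 : 𝒪[E] →+* k) (z : 𝒪[E])
    (hz : IsPrimitiveRoot ((z : E) : PadicAlgCl p) (p ^ 2 - 1)) :
    IsPrimitiveRoot (ρ0 z) (p ^ 2 - 1) := by
  have h := IsPrimitiveRoot.orderOf (ρ0 z)
  rwa [orderOf_map E ρ0 z hz] at h

end General

section Quad

/-- `#𝓀[unram ⊥ 2] = p ^ 2`. -/
theorem card_residueField_quad :
    Nat.card 𝓀[unram (⊥ : IntermediateField ℚ_[p] (PadicAlgCl p)) 2] = p ^ 2 := by
  rw [Fermat.Agent.S56.LF.LevelBound.Tower.card_residueField_unram _ (by norm_num),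
    card_residueField_bot]

/-- `#𝓀[⊥] = p ^ 1`, in the shape of the binder `Nat.card 𝓀[Fb] = p ^ a` of `CntFinStatement`. -/
theorem card_residueField_bot_pow :
    Nat.card 𝓀[(⊥ : IntermediateField ℚ_[p] (PadicAlgCl p))] = p ^ 1 := by
  rw [card_residueField_bot, pow_one]

/-- `s ^ (p ^ 2) = s ≠ s ^ p` in a finite field of characteristic `p` forces an even degree. -/
theorem two_dvd_finrank (k : Type) [Field k] [Finite k] [Algebra (ZMod p) k]
    (s : k) (hs : s ^ (p ^ 2) = s) (hs' : s ^ p ≠ s) : 2 ∣ Module.finrank (ZMod p) k := by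
  by_contra h
  obtain ⟨t, ht⟩ : ∃ t, Module.finrank (ZMod p) k = 2 * t + 1 :=
    ⟨Module.finrank (ZMod p) k / 2, by omega⟩
  have hit : ∀ t : ℕ, s ^ (p ^ (2 * t)) = s := by
    intro t
    induction t with
    | zero => simp
    | succ t ih => rw [show 2 * (t + 1) = 2 * t + 2 by ring, pow_add, pow_mul, ih, hs]
  apply hs'
  have h1 : s ^ (p ^ (2 * t + 1)) = s := by
    rw [← ht, FiniteField.pow_finrank_eq_natCard p k]
    letI := Fintype.ofFinite k
    rw [Nat.card_eq_fintype_card]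
    exact FiniteField.pow_card s
  rw [pow_succ, pow_mul, hit] at h1
  exact h1

/-- (R1) A finite field `k` of characteristic `p` containing `s` with `s ^ (p ^ 2) = s ≠ s ^ p`
receives a ring homomorphism from the integers of the unramified quadratic extension of `ℚ_p`. -/
theorem exists_rho0 (k : Type) [Field k] [Finite k] [CharP k p]
    (s : k) (hs : s ^ (p ^ 2) = s) (hs' : s ^ p ≠ s) :
    Nonempty (𝒪[unram (⊥ : IntermediateField ℚ_[p] (PadicAlgCl p)) 2] →+* k) := by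
  letI : Algebra (ZMod p) k := ZMod.algebra k p
  haveI : CharP 𝓀[unram (⊥ : IntermediateField ℚ_[p] (PadicAlgCl p)) 2] p :=
    charP_residueField p _
  letI : Algebra (ZMod p) 𝓀[unram (⊥ : IntermediateField ℚ_[p] (PadicAlgCl p)) 2] :=
    ZMod.algebra _ p
  haveI : Finite 𝓀[unram (⊥ : IntermediateField ℚ_[p] (PadicAlgCl p)) 2] :=
    Nat.finite_of_card_ne_zero (by
      rw [card_residueField_quad]
      exact pow_ne_zero _ (Fact.out : p.Prime).ne_zero)
  have h2 : Module.finrank (ZMod p) 𝓀[unram (⊥ : IntermediateField ℚ_[p] (PadicAlgCl p)) 2] = 2 := by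
    have h := FiniteField.pow_finrank_eq_natCard p
      𝓀[unram (⊥ : IntermediateField ℚ_[p] (PadicAlgCl p)) 2]
    rw [card_residueField_quad] at h
    exact Nat.pow_right_injective (Fact.out : p.Prime).two_le h
  obtain ⟨f⟩ := FiniteField.nonempty_algHom_of_finrank_dvd (F := ZMod p)
    (K := 𝓀[unram (⊥ : IntermediateField ℚ_[p] (PadicAlgCl p)) 2]) (L := k)
    (by rw [h2]; exact two_dvd_finrank k s hs hs')
  exact ⟨(f : 𝓀[unram (⊥ : IntermediateField ℚ_[p] (PadicAlgCl p)) 2] →+* k).comp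
    (IsLocalRing.residue _)⟩

end Quad

end Fermat.Agent.S56.LF.RhoZero
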