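import Mathlib
import Fermat.Agent.CFT.Local.UnramPadicAbs
import Fermat.Agent.S56.Flat.LocalBricks
import Fermat.Agent.S56.Flat.CntFin
import Fermat.Agent.S56.Flat.ShapeArith
import Fermat.Agent.S56.LF.RhoZero

/-!
# S56, brick LF, case (I): the count wiring of the induced shape (`gamma_count`)

(helper52.)  `Flat.CntFinStatement` at `(Fb, F0, K) = (F0, F0, K)`, `F0` the unramified quadratic
extension of `ℚ_p`, `e0 = p + 1`, `a = a' = 2`, `ρ0` a ring homomorphism `𝒪[F0] → k` (it exists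
because `A τ0 ∈ k` generates `𝔽_{p²}`), `ξ = A ^ 2` (so that `ξ χ = A D = ω̄` on `G_{F0}`) and the
tame parameter `z` of `τ0` on the uniformiser `ϖ` of `K`:

* the indicator `[χ = 1 on G_{F0}]` vanishes because `A τ0 ≠ D τ0`;
* the pair count is `≤ 1` by `ShapeArith.natCard_I_le_one'`
  (`x = A τ0`, `x' = D τ0 = x ^ p`, `y = χ τ0`, `s = ξ τ0`, `t = ρ0 z`, `t ^ (p + 1) = ω̄ τ0`).

Hence `HSpace p k F0 K ζ _ χ` is finite-dimensional of dimension `≤ 1` for `χ = D / A`.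
-/

set_option autoImplicit false

open scoped NNReal NormedField Valued
open IsLocalRing
open Fermat.Agent.CFT.Local.NormedLocal Fermat.Agent.CFT.Local.PadicExt
open Fermat.Agent.CFT.Local.UnramPadic
open Fermat.Agent.S56.Flat

namespace Fermat.Agent.S56.LF.IndCount

/-- **The count of the induced shape.**  `F0 = unram ⊥ 2`; `K ⊇ F0` finite, Galois-stable,
containing `ζ_p`, with uniformiser `ϖ`, `|ϖ| ^ ((p + 1) (p - 1)) = |p|`; `τ0 ∈ G_{F0}` inertial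
with `τ0 ϖ = z ϖ`, `z ∈ F0` a primitive `(p² - 1)`-th root of unity with `z ^ (p + 1) ≡ ω(τ0)`;
`φ ∈ G_{F0}` the `p²`-Frobenius on `K`; `A` multiplicative on `G_{F0}`, `A D = ω̄` and
`χ A = D` on `G_{F0}`, `D τ0 = A τ0 ^ p`, `A τ0 = D τ0 ^ p`, `A τ0 ≠ D τ0`.  Then
`HSpace p k F0 K ζ _ χ` is finite-dimensional of dimension at most `1`. -/
theorem gamma_count {p : ℕ} [Fact p.Prime] (hCnt : Flat.CntFinStatement) (hp2 : p ≠ 2)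
    (k : Type) [Field k] [Finite k] [CharP k p]
    (K : IntermediateField ℚ_[p] (PadicAlgCl p)) [FiniteDimensional ℚ_[p] K]
    (hF0K : unram (⊥ : IntermediateField ℚ_[p] (PadicAlgCl p)) 2 ≤ K)
    (hKstab : ∀ σ : Gp p, ∀ x ∈ K, σ x ∈ K)
    (ζ : PadicAlgCl p) (hζ : IsPrimitiveRoot ζ p) (hζK : ζ ∈ K)
    (ϖ z : PadicAlgCl p) (hϖK : ϖ ∈ K) (hϖ1 : ‖ϖ‖ < 1)
    (hmax : ∀ x ∈ K, ‖x‖ < 1 → ‖x‖ ≤ ‖ϖ‖)
    (hpe : ‖ϖ‖ ^ ((p + 1) * (p - 1)) = ‖(p : PadicAlgCl p)‖)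
    (hzF0 : z ∈ unram (⊥ : IntermediateField ℚ_[p] (PadicAlgCl p)) 2)
    (hz : IsPrimitiveRoot z (p ^ 2 - 1))
    (τ0 φ : Gp p)
    (hτ0 : τ0 ∈ (unram (⊥ : IntermediateField ℚ_[p] (PadicAlgCl p)) 2).fixingSubgroup)
    (hτ0I : IsInertial p τ0) (hτ0ϖ : τ0 ϖ = z * ϖ)
    (hω : ∀ n : ℕ, τ0 ζ = ζ ^ n → ‖(n : PadicAlgCl p) - z ^ (p + 1)‖ < 1)
    (hφ : φ ∈ (unram (⊥ : IntermediateField ℚ_[p] (PadicAlgCl p)) 2).fixingSubgroup)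
    (hφK : ∀ x ∈ K, ‖x‖ ≤ 1 → ‖φ x - x ^ (p ^ 2)‖ < 1)
    (A D χ : Gp p → kˣ)
    (hA : ∀ σ ∈ (unram (⊥ : IntermediateField ℚ_[p] (PadicAlgCl p)) 2).fixingSubgroup,
      ∀ τ ∈ (unram (⊥ : IntermediateField ℚ_[p] (PadicAlgCl p)) 2).fixingSubgroup,
        A (σ * τ) = A σ * A τ)
    (hAD : ∀ σ ∈ (unram (⊥ : IntermediateField ℚ_[p] (PadicAlgCl p)) 2).fixingSubgroup,
      ∀ n : ℕ, σ ζ = ζ ^ n → ((A σ : kˣ) : k) * ((D σ : kˣ) : k) = n)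
    (hχ : ∀ σ ∈ (unram (⊥ : IntermediateField ℚ_[p] (PadicAlgCl p)) 2).fixingSubgroup,
      χ σ * A σ = D σ)
    (hDA : ((D τ0 : kˣ) : k) = ((A τ0 : kˣ) : k) ^ p)
    (hAD' : ((A τ0 : kˣ) : k) = ((D τ0 : kˣ) : k) ^ p) (hne : A τ0 ≠ D τ0) :
    Module.Finite k (HSpace p k (unram (⊥ : IntermediateField ℚ_[p] (PadicAlgCl p)) 2) K ζ
      hζ.pow_eq_one (fun σ => ((χ σ : kˣ) : k))) ∧
    Module.finrank k (HSpace p k (unram (⊥ : IntermediateField ℚ_[p] (PadicAlgCl p)) 2) K ζ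
      hζ.pow_eq_one (fun σ => ((χ σ : kˣ) : k))) ≤ 1 := by
  classical
  have hpp : p.Prime := Fact.out
  have hp2le : 2 ≤ p := hpp.two_le
  have hN0 : p ^ 2 - 1 ≠ 0 := by
    have h4 : 4 ≤ p ^ 2 := by nlinarith
    omega
  -- the ring homomorphism `ρ0 : 𝒪[F0] → k`
  have hs1 : ((A τ0 : kˣ) : k) ^ (p ^ 2) = ((A τ0 : kˣ) : k) := by
    rw [pow_two, pow_mul, ← hDA, ← hAD']
  have hs2 : ((A τ0 : kˣ) : k) ^ p ≠ ((A τ0 : kˣ) : k) := by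
    intro h
    apply hne
    apply Units.ext
    rw [hDA, h]
  obtain ⟨ρ0⟩ := RhoZero.exists_rho0 (p := p) k ((A τ0 : kˣ) : k) hs1 hs2
  -- the tame parameter as an integer of `F0`
  have hz1 : ‖z‖ = 1 := by
    have h : ‖z‖ ^ (p ^ 2 - 1) = 1 := by rw [← norm_pow, hz.pow_eq_one, norm_one]
    exact (pow_eq_one_iff_of_nonneg (norm_nonneg z) hN0).mp h
  have hzO : (⟨z, hzF0⟩ : unram (⊥ : IntermediateField ℚ_[p] (PadicAlgCl p)) 2) ∈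
      𝒪[unram (⊥ : IntermediateField ℚ_[p] (PadicAlgCl p)) 2] := by
    rw [Valued.integer.mem_iff]
    change ‖z‖ ≤ 1
    exact hz1.le
  -- the uniformiser is nonzero
  have hnp : ‖((p : ℕ) : PadicAlgCl p)‖ = (p : ℝ)⁻¹ := by
    have h : ((p : ℕ) : PadicAlgCl p) = algebraMap ℚ_[p] (PadicAlgCl p) (p : ℚ_[p]) := by
      rw [map_natCast]
    rw [h, norm_algebraMap', Padic.norm_p]
  have hϖ0 : ϖ ≠ 0 := by
    intro h
    have he : (p + 1) * (p - 1) ≠ 0 := Nat.mul_ne_zero (Nat.succ_ne_zero p) (by omega)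
    rw [h, norm_zero, zero_pow he, hnp] at hpe
    have hpos : (0 : ℝ) < (p : ℝ)⁻¹ := inv_pos.mpr (by exact_mod_cast hpp.pos)
    linarith
  have hzϖ : ‖τ0 ϖ - (((⟨⟨z, hzF0⟩, hzO⟩ :
      𝒪[unram (⊥ : IntermediateField ℚ_[p] (PadicAlgCl p)) 2]) :
      unram (⊥ : IntermediateField ℚ_[p] (PadicAlgCl p)) 2) : PadicAlgCl p) * ϖ‖ < ‖ϖ‖ := by
    change ‖τ0 ϖ - z * ϖ‖ < ‖ϖ‖
    rw [hτ0ϖ, sub_self, norm_zero]
    exact norm_pos_iff.mpr hϖ0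
  -- the count
  have key := hCnt p hp2 k (unram (⊥ : IntermediateField ℚ_[p] (PadicAlgCl p)) 2)
    (unram (⊥ : IntermediateField ℚ_[p] (PadicAlgCl p)) 2) K le_rfl hF0K
    (fun σ _ x hx => hKstab σ x hx) ζ hζ hζK 2 2 (p + 1) ϖ
    RhoZero.card_residueField_quad RhoZero.card_residueField_quad hϖK hϖ1 hmax hpe
    ρ0 χ (fun σ => A σ * A σ)
    (fun σ hσ τ hτ => by
      change A (σ * τ) * A (σ * τ) = A σ * A σ * (A τ * A τ)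
      rw [hA σ hσ τ hτ]
      exact mul_mul_mul_comm _ _ _ _)
    (fun σ hσ n hn => by
      change (((A σ * A σ : kˣ)) : k) * ((χ σ : kˣ) : k) = (n : k)
      have h1 := hAD σ hσ n hn
      have h2 := hχ σ hσ
      rw [← h1, ← h2]
      push_cast
      ring)
    τ0 φ ⟨⟨z, hzF0⟩, hzO⟩ hτ0 hφ (fun x _ hx => hτ0I x hx) hφK hzϖ
  -- the indicator vanishes
  have hif : ¬ ∀ σ ∈ (unram (⊥ : IntermediateField ℚ_[p] (PadicAlgCl p)) 2).fixingSubgroup,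
      χ σ = 1 := by
    intro h
    apply hne
    have h2 := hχ τ0 hτ0
    rw [h τ0 hτ0, one_mul] at h2
    exact h2
  have h2 := key.2
  rw [if_neg hif, zero_add] at h2
  refine ⟨key.1, h2.trans ?_⟩
  -- the pair count
  obtain ⟨n, -, hn⟩ := hζ.eq_pow_of_pow_eq_one
    (show (τ0 ζ) ^ p = 1 by rw [← map_pow, hζ.pow_eq_one, map_one])
  have hn' : τ0 ζ = ζ ^ n := hn.symm
  have ht : IsPrimitiveRoot (ρ0 ⟨⟨z, hzF0⟩, hzO⟩) (p ^ 2 - 1) :=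
    RhoZero.isPrimitiveRoot_map (unram (⊥ : IntermediateField ℚ_[p] (PadicAlgCl p)) 2) ρ0
      ⟨⟨z, hzF0⟩, hzO⟩ hz
  have htn : ρ0 ⟨⟨z, hzF0⟩, hzO⟩ ^ (p + 1) = (n : k) := by
    rw [← map_pow]
    apply RhoZero.map_eq_natCast (unram (⊥ : IntermediateField ℚ_[p] (PadicAlgCl p)) 2) ρ0 _ n
    change ‖(n : PadicAlgCl p) - z ^ (p + 1)‖ < 1
    exact hω n hn'
  have hdet : ((A τ0 : kˣ) : k) * ((D τ0 : kˣ) : k) = ρ0 ⟨⟨z, hzF0⟩, hzO⟩ ^ (p + 1) := by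
    rw [htn]
    exact hAD τ0 hτ0 n hn'
  have hy : ((χ τ0 : kˣ) : k) * ((A τ0 : kˣ) : k) = ((D τ0 : kˣ) : k) := by
    rw [← Units.val_mul, hχ τ0 hτ0]
  have hsχ : (((A τ0 * A τ0 : kˣ)) : k) * ((χ τ0 : kˣ) : k) =
      ρ0 ⟨⟨z, hzF0⟩, hzO⟩ ^ (p + 1) := by
    rw [← hdet, ← hy]
    push_cast
    ring
  exact ShapeArith.natCard_I_le_one' hp2 rfl rfl ht hDA hdet hy hsχ

end Fermat.Agent.S56.LF.IndCount
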