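import Mathlib
import Fermat.Agent.S56.LF.WildFin
import Fermat.Agent.S56.LF.KummerGen

/-!
# S56 / LF, row TI (seam (s3)): inertia modulo a finite tame level is generated by one element

`Gal = PadicAlgCl p ≃ₐ[ℚ_[p]] PadicAlgCl p`, `L` a finite normal extension of `ℚ_p` inside
`PadicAlgCl p`, `ϖ ∈ L` a uniformiser (`‖ϖ‖ < 1` and `‖x‖ ≤ ‖ϖ‖` for all `x ∈ L` with
`‖x‖ < 1`), in the vocabulary of `WildFin` (`inertiaAt L`, `wildAt L`).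

* `mem_wildAt_of_uniformizer` : an element of `inertiaAt L` with `‖τ ϖ - ϖ‖ < ‖ϖ‖` is in
  `wildAt L` (the kernel of the tame character is wild);
* `mem_fixingSubgroup_of_uniformizer` : if moreover `τ ^ m` fixes `L` with `p ∤ m`, then `τ`
  fixes `L`;
* `exists_pow_inv_mul_mem_fixingSubgroup` : if `‖ϖ‖ ^ e = ‖p‖`, `p ∤ e`, `z` a primitive `e`-th
  root of unity, `τ0 ∈ inertiaAt L` with `τ0 ϖ = z * ϖ`, `τ0 z = z`, and every `σ ^ n0` fixes `L`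
  (`p ∤ n0`), then every `τ ∈ inertiaAt L` is `τ0 ^ i` modulo the fixing subgroup of `L`;
* `exists_map_eq_pow` : hence `ρ τ = ρ τ0 ^ i` for every monoid homomorphism `ρ` which is trivial
  on the fixing subgroup of `L`;
* `diag_ne_of_inertiaAt` : for `r : Gal →* Matrix (Fin 2) (Fin 2) k` trivial on the fixing subgroup
  of `L` with `r τ0` diagonal: if some `τ ∈ inertiaAt L` has `r τ 0 0 ≠ r τ 1 1`, then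
  `r τ0 0 0 ≠ r τ0 1 1`;
* `exists_pow_inv_mul_mem_of_li`, `exists_map_eq_pow_of_li`, `diag_ne_of_li` : the same three
  facts with the hypotheses spelled exactly as the clauses of `Flat.LIStatement`
  (`K` stable under `Gal`, `‖ϖ‖ ^ ((p + 1) * (p - 1)) = ‖p‖`, `z ∈ unram ⊥ 2` primitive of order
  `p ^ 2 - 1`, `τ0` in the fixing subgroup of `unram ⊥ 2`, absolute inertia spelled out).
-/

set_option autoImplicit false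

namespace Fermat.Agent.S56.LF.TameGen

open scoped NNReal NormedField Valued IntermediateField
open Polynomial Fermat.Agent.CFT.Local Fermat.Agent.CFT.Local.NormedLocal
  Fermat.Agent.CFT.Local.UnramPadic

variable {p : ℕ} [Fact p.Prime]

/-! ### The condition `‖τ x - x‖ < ‖x‖` is multiplicative -/

section Mult

lemma norm_apply_mul_sub_lt (τ : PadicAlgCl p ≃ₐ[ℚ_[p]] PadicAlgCl p) {a b : PadicAlgCl p}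
    (ha : ‖τ a - a‖ < ‖a‖) (hb : ‖τ b - b‖ < ‖b‖) : ‖τ (a * b) - a * b‖ < ‖a * b‖ := by
  have e : τ (a * b) - a * b = (τ a - a) * τ b + a * (τ b - b) := by
    rw [map_mul]
    ring
  rw [e, norm_mul]
  refine lt_of_le_of_lt (IsUltrametricDist.norm_add_le_max _ _) (max_lt ?_ ?_)
  · rw [norm_mul, WildFin.norm_map]
    exact mul_lt_mul_of_pos_right ha (lt_of_le_of_lt (norm_nonneg _) hb)
  · rw [norm_mul]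
    exact mul_lt_mul_of_pos_left hb (lt_of_le_of_lt (norm_nonneg _) ha)

lemma norm_apply_pow_sub_lt (τ : PadicAlgCl p ≃ₐ[ℚ_[p]] PadicAlgCl p) {a : PadicAlgCl p}
    (ha : ‖τ a - a‖ < ‖a‖) (n : ℕ) : ‖τ (a ^ n) - a ^ n‖ < ‖a ^ n‖ := by
  induction n with
  | zero => simp
  | succ n ih =>
    rw [pow_succ]
    exact norm_apply_mul_sub_lt τ ih ha

lemma norm_apply_inv_sub_lt (τ : PadicAlgCl p ≃ₐ[ℚ_[p]] PadicAlgCl p) {a : PadicAlgCl p}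
    (ha : ‖τ a - a‖ < ‖a‖) : ‖τ a⁻¹ - a⁻¹‖ < ‖a⁻¹‖ := by
  have ha0 : a ≠ 0 := by
    rintro rfl
    simp at ha
  have hτa0 : τ a ≠ 0 := by simpa using ha0
  have hpos : 0 < ‖a‖ := norm_pos_iff.mpr ha0
  have e : τ a⁻¹ - a⁻¹ = -((τ a - a) * ((τ a)⁻¹ * a⁻¹)) := by
    rw [map_inv₀]
    field_simp
    ring
  rw [e, norm_neg, norm_mul, norm_mul, norm_inv, norm_inv, WildFin.norm_map]
  calc ‖τ a - a‖ * (‖a‖⁻¹ * ‖a‖⁻¹) < ‖a‖ * (‖a‖⁻¹ * ‖a‖⁻¹) :=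
        mul_lt_mul_of_pos_right ha (by positivity)
    _ = ‖a‖⁻¹ := by
        field_simp

/-- Powers of `τ0` act on `ϖ` through the powers of `z` when `τ0 ϖ = z * ϖ` and `τ0 z = z`. -/
lemma pow_apply_eq_pow_mul (τ0 : PadicAlgCl p ≃ₐ[ℚ_[p]] PadicAlgCl p) {z ϖ : PadicAlgCl p}
    (hz : τ0 z = z) (hϖ : τ0 ϖ = z * ϖ) (i : ℕ) : (τ0 ^ i) ϖ = z ^ i * ϖ := by
  induction i with
  | zero => simp
  | succ i ih =>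
    rw [pow_succ', AlgEquiv.mul_apply, ih, map_mul, map_pow, hz, hϖ]
    ring

lemma natCast_prime_ne_zero : ((p : ℕ) : PadicAlgCl p) ≠ 0 := by
  have hp : p.Prime := Fact.out
  have h : ((p : ℕ) : PadicAlgCl p) = algebraMap ℚ_[p] (PadicAlgCl p) (p : ℚ_[p]) := by
    rw [map_natCast]
  rw [h]
  exact (_root_.map_ne_zero _).mpr (Nat.cast_ne_zero.mpr hp.ne_zero)

lemma succ_mul_pred_eq : (p + 1) * (p - 1) = p ^ 2 - 1 := by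
  have hp : p.Prime := Fact.out
  obtain ⟨q, rfl⟩ : ∃ q, p = q + 1 := ⟨p - 1, by have := hp.pos; omega⟩
  have h : (q + 1) ^ 2 = (q + 1 + 1) * q + 1 := by ring
  rw [h]
  simp

lemma not_dvd_sq_sub_one : ¬ p ∣ p ^ 2 - 1 := by
  have hp : p.Prime := Fact.out
  intro h
  rw [← succ_mul_pred_eq] at h
  rcases (Nat.Prime.dvd_mul hp).mp h with h1 | h1
  · have h2 : p ∣ 1 := (Nat.dvd_add_right (dvd_refl p)).mp h1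
    exact hp.one_lt.ne' (Nat.dvd_one.mp h2)
  · have h3 : 0 < p - 1 := by have := hp.one_lt; omega
    have := Nat.le_of_dvd h3 h1
    omega

end Mult

/-! ### The kernel of the tame character is wild -/

section Level

variable {L : IntermediateField ℚ_[p] (PadicAlgCl p)} [Normal ℚ_[p] L]

/-- **The kernel of the tame character is wild**: an inertia element at the level `L` moving a
uniformiser `ϖ` of `L` by less than `‖ϖ‖` is wild at the level `L`. -/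
theorem mem_wildAt_of_uniformizer {τ : PadicAlgCl p ≃ₐ[ℚ_[p]] PadicAlgCl p}
    (hτ : τ ∈ WildFin.inertiaAt L) {ϖ : PadicAlgCl p} (hϖL : ϖ ∈ L) (hϖ1 : ‖ϖ‖ < 1)
    (hmax : ∀ x ∈ L, ‖x‖ < 1 → ‖x‖ ≤ ‖ϖ‖) (h : ‖τ ϖ - ϖ‖ < ‖ϖ‖) : τ ∈ WildFin.wildAt L := by
  have hϖ0 : ϖ ≠ 0 := by
    rintro rfl
    simp at h
  have hϖpos : 0 < ‖ϖ‖ := norm_pos_iff.mpr hϖ0
  -- the integral case
  have key : ∀ x ∈ L, x ≠ 0 → ‖x‖ ≤ 1 → ‖τ x - x‖ < ‖x‖ := by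
    intro x hx hx0 hx1
    obtain ⟨n, hn1, hn2⟩ := exists_nat_pow_near_of_lt_one (norm_pos_iff.mpr hx0) hx1 hϖpos hϖ1
    have hpn : ϖ ^ n ≠ 0 := pow_ne_zero n hϖ0
    have hpnpos : 0 < ‖ϖ‖ ^ n := pow_pos hϖpos n
    have hyL : x / ϖ ^ n ∈ L := L.div_mem hx (pow_mem hϖL n)
    have hyn : ‖x / ϖ ^ n‖ = 1 := by
      have h1 : ‖x / ϖ ^ n‖ ≤ 1 := by
        rw [norm_div, norm_pow]
        exact div_le_one_of_le₀ hn2 hpnpos.le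
      have h2 : ‖ϖ‖ < ‖x / ϖ ^ n‖ := by
        rw [norm_div, norm_pow, lt_div_iff₀ hpnpos]
        calc ‖ϖ‖ * ‖ϖ‖ ^ n = ‖ϖ‖ ^ (n + 1) := by ring
          _ < ‖x‖ := hn1
      by_contra hne
      exact absurd (hmax _ hyL (lt_of_le_of_ne h1 hne)) (not_le.mpr h2)
    have hxy : x = x / ϖ ^ n * ϖ ^ n := by rw [div_mul_cancel₀ _ hpn]
    rw [hxy]
    refine norm_apply_mul_sub_lt τ ?_ (norm_apply_pow_sub_lt τ h n)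
    rw [hyn]
    exact hτ _ hyL hyn.le
  intro x hx hx0
  rcases le_or_gt ‖x‖ 1 with hx1 | hx1
  · exact key x hx hx0 hx1
  · have hinv : ‖x⁻¹‖ ≤ 1 := by
      rw [norm_inv]
      exact inv_le_one_of_one_le₀ hx1.le
    have h2 := norm_apply_inv_sub_lt τ (key x⁻¹ (L.inv_mem hx) (inv_ne_zero hx0) hinv)
    rwa [inv_inv] at h2

variable [FiniteDimensional ℚ_[p] L]

/-- **The tame character is injective on elements of order prime to `p`**: an inertia element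
at the level `L` moving a uniformiser `ϖ` by less than `‖ϖ‖`, a power of which of exponent prime
to `p` fixes `L`, fixes `L`. -/
theorem mem_fixingSubgroup_of_uniformizer {τ : PadicAlgCl p ≃ₐ[ℚ_[p]] PadicAlgCl p}
    (hτ : τ ∈ WildFin.inertiaAt L) {ϖ : PadicAlgCl p} (hϖL : ϖ ∈ L) (hϖ1 : ‖ϖ‖ < 1)
    (hmax : ∀ x ∈ L, ‖x‖ < 1 → ‖x‖ ≤ ‖ϖ‖) (h : ‖τ ϖ - ϖ‖ < ‖ϖ‖) {m : ℕ} (hm : ¬ p ∣ m)
    (hpow : τ ^ m ∈ L.fixingSubgroup) : τ ∈ L.fixingSubgroup := by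
  have hp : p.Prime := Fact.out
  obtain ⟨a, ha⟩ := WildFin.exists_pow_mem_fixingSubgroup_of_mem_wildAt L
    (mem_wildAt_of_uniformizer hτ hϖL hϖ1 hmax h)
  have hcop : Nat.Coprime m (p ^ a) :=
    Nat.Coprime.pow_right a ((Nat.Prime.coprime_iff_not_dvd hp).mpr hm).symm
  exact KummerGen.mem_of_pow_mem_of_coprime L.fixingSubgroup τ hcop hpow ha

/-- **Inertia modulo the tame level `L` is generated by `τ0`.**  `ϖ` a uniformiser of `L` with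
`‖ϖ‖ ^ e = ‖p‖`, `p ∤ e`; `z` a primitive `e`-th root of unity; `τ0` an inertia element with
`τ0 ϖ = z * ϖ` and `τ0 z = z`; `σ ^ n0` fixes `L` for all `σ`, `p ∤ n0`.  Then every inertia
element `τ` is `τ0 ^ i` modulo the fixing subgroup of `L`. -/
theorem exists_pow_inv_mul_mem_fixingSubgroup {ϖ z : PadicAlgCl p}
    {τ0 : PadicAlgCl p ≃ₐ[ℚ_[p]] PadicAlgCl p} {e n0 : ℕ}
    (hϖL : ϖ ∈ L) (hϖ1 : ‖ϖ‖ < 1) (hmax : ∀ x ∈ L, ‖x‖ < 1 → ‖x‖ ≤ ‖ϖ‖)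
    (he : ¬ p ∣ e) (hnorm : ‖ϖ‖ ^ e = ‖((p : ℕ) : PadicAlgCl p)‖) (hz : IsPrimitiveRoot z e)
    (hτ0 : τ0 ∈ WildFin.inertiaAt L) (hτ0z : τ0 z = z) (hτ0ϖ : τ0 ϖ = z * ϖ)
    (hn0 : ¬ p ∣ n0) (hpow : ∀ σ : PadicAlgCl p ≃ₐ[ℚ_[p]] PadicAlgCl p, σ ^ n0 ∈ L.fixingSubgroup)
    {τ : PadicAlgCl p ≃ₐ[ℚ_[p]] PadicAlgCl p} (hτ : τ ∈ WildFin.inertiaAt L) :
    ∃ i : ℕ, (τ0 ^ i)⁻¹ * τ ∈ L.fixingSubgroup := by
  have he0 : e ≠ 0 := fun h0 => he (h0 ▸ dvd_zero p)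
  have hepos : 0 < e := Nat.pos_of_ne_zero he0
  have : NeZero e := ⟨he0⟩
  have hp0 : ((p : ℕ) : PadicAlgCl p) ≠ 0 := natCast_prime_ne_zero
  have hpnorm : 0 < ‖((p : ℕ) : PadicAlgCl p)‖ := norm_pos_iff.mpr hp0
  have hϖ0 : ϖ ≠ 0 := by
    rintro rfl
    rw [norm_zero, zero_pow he0] at hnorm
    exact hpnorm.ne hnorm
  have hϖpos : 0 < ‖ϖ‖ := norm_pos_iff.mpr hϖ0
  -- `u = τ ϖ / ϖ`
  have hu : τ ϖ = τ ϖ / ϖ * ϖ := by rw [div_mul_cancel₀ _ hϖ0]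
  -- the unit `w = ϖ ^ e / p` of `L`
  have hwL : ϖ ^ e / ((p : ℕ) : PadicAlgCl p) ∈ L := L.div_mem (pow_mem hϖL e) (natCast_mem L p)
  have hwn : ‖ϖ ^ e / ((p : ℕ) : PadicAlgCl p)‖ = 1 := by
    rw [norm_div, norm_pow, hnorm, div_self hpnorm.ne']
  have hτw : τ (ϖ ^ e / ((p : ℕ) : PadicAlgCl p)) - ϖ ^ e / ((p : ℕ) : PadicAlgCl p) =
      ((τ ϖ / ϖ) ^ e - 1) * (ϖ ^ e / ((p : ℕ) : PadicAlgCl p)) := by
    rw [map_div₀, map_pow, map_natCast, div_pow]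
    field_simp
  have hue : ‖(τ ϖ / ϖ) ^ e - 1‖ < 1 := by
    have h1 := hτ _ hwL hwn.le
    rw [hτw, norm_mul, hwn, mul_one] at h1
    exact h1
  -- a root of unity congruent to `u`
  have hprod : (τ ϖ / ϖ) ^ e - 1 = ∏ ξ ∈ nthRootsFinset e (1 : PadicAlgCl p), (τ ϖ / ϖ - ξ) := by
    have h1 := congrArg (Polynomial.eval (τ ϖ / ϖ)) (X_pow_sub_one_eq_prod hepos hz)
    simpa [Polynomial.eval_prod] using h1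
  obtain ⟨ξ, hξmem, hξ⟩ : ∃ ξ ∈ nthRootsFinset e (1 : PadicAlgCl p), ‖τ ϖ / ϖ - ξ‖ < 1 := by
    by_contra hcon
    push Not at hcon
    have h1 : (1 : ℝ) ≤ ∏ ξ ∈ nthRootsFinset e (1 : PadicAlgCl p), ‖τ ϖ / ϖ - ξ‖ := by
      calc (1 : ℝ) = ∏ ξ ∈ nthRootsFinset e (1 : PadicAlgCl p), (1 : ℝ) := by simp
        _ ≤ ∏ ξ ∈ nthRootsFinset e (1 : PadicAlgCl p), ‖τ ϖ / ϖ - ξ‖ :=
          Finset.prod_le_prod (fun _ _ => zero_le_one) hcon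
    rw [hprod, norm_prod] at hue
    exact absurd h1 (not_le.mpr hue)
  have hξe : ξ ^ e = 1 := (mem_nthRootsFinset hepos 1).mp hξmem
  obtain ⟨i, -, rfl⟩ := hz.eq_pow_of_pow_eq_one hξe
  refine ⟨i, ?_⟩
  have hτ' : (τ0 ^ i)⁻¹ * τ ∈ WildFin.inertiaAt L :=
    (WildFin.inertiaAt L).mul_mem ((WildFin.inertiaAt L).inv_mem
      ((WildFin.inertiaAt L).pow_mem hτ0 i)) hτ
  have h' : ‖((τ0 ^ i)⁻¹ * τ) ϖ - ϖ‖ < ‖ϖ‖ := by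
    have e1 : (τ0 ^ i) (((τ0 ^ i)⁻¹ * τ) ϖ - ϖ) = (τ ϖ / ϖ - z ^ i) * ϖ := by
      rw [map_sub, pow_apply_eq_pow_mul τ0 hτ0z hτ0ϖ i, ← AlgEquiv.mul_apply,
        mul_inv_cancel_left, sub_mul, ← hu]
    rw [← WildFin.norm_map (τ0 ^ i), e1, norm_mul]
    exact mul_lt_of_lt_one_left hϖpos hξ
  exact mem_fixingSubgroup_of_uniformizer hτ' hϖL hϖ1 hmax h' hn0 (hpow _)

/-- A monoid homomorphism which is trivial on the fixing subgroup of the tame level `L` maps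
every inertia element to a power of the image of `τ0`. -/
theorem exists_map_eq_pow {M : Type*} [Monoid M]
    (ρ : (PadicAlgCl p ≃ₐ[ℚ_[p]] PadicAlgCl p) →* M) (hρ : ∀ g ∈ L.fixingSubgroup, ρ g = 1)
    {ϖ z : PadicAlgCl p} {τ0 : PadicAlgCl p ≃ₐ[ℚ_[p]] PadicAlgCl p} {e n0 : ℕ}
    (hϖL : ϖ ∈ L) (hϖ1 : ‖ϖ‖ < 1) (hmax : ∀ x ∈ L, ‖x‖ < 1 → ‖x‖ ≤ ‖ϖ‖)
    (he : ¬ p ∣ e) (hnorm : ‖ϖ‖ ^ e = ‖((p : ℕ) : PadicAlgCl p)‖) (hz : IsPrimitiveRoot z e)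
    (hτ0 : τ0 ∈ WildFin.inertiaAt L) (hτ0z : τ0 z = z) (hτ0ϖ : τ0 ϖ = z * ϖ)
    (hn0 : ¬ p ∣ n0) (hpow : ∀ σ : PadicAlgCl p ≃ₐ[ℚ_[p]] PadicAlgCl p, σ ^ n0 ∈ L.fixingSubgroup)
    {τ : PadicAlgCl p ≃ₐ[ℚ_[p]] PadicAlgCl p} (hτ : τ ∈ WildFin.inertiaAt L) :
    ∃ i : ℕ, ρ τ = ρ τ0 ^ i := by
  obtain ⟨i, hi⟩ := exists_pow_inv_mul_mem_fixingSubgroup hϖL hϖ1 hmax he hnorm hz hτ0 hτ0z hτ0ϖ
    hn0 hpow hτ
  refine ⟨i, ?_⟩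
  calc ρ τ = ρ (τ0 ^ i * ((τ0 ^ i)⁻¹ * τ)) := by rw [mul_inv_cancel_left]
    _ = ρ τ0 ^ i := by rw [map_mul, hρ _ hi, mul_one, map_pow]

/-- If `r τ0` is diagonal and some inertia element has two distinct diagonal entries under `r`
(trivial on the fixing subgroup of the tame level `L`), then so has `τ0`. -/
theorem diag_ne_of_inertiaAt {k : Type*} [Field k]
    (r : (PadicAlgCl p ≃ₐ[ℚ_[p]] PadicAlgCl p) →* Matrix (Fin 2) (Fin 2) k)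
    (hr : ∀ g ∈ L.fixingSubgroup, r g = 1)
    {ϖ z : PadicAlgCl p} {τ0 : PadicAlgCl p ≃ₐ[ℚ_[p]] PadicAlgCl p} {e n0 : ℕ}
    (hϖL : ϖ ∈ L) (hϖ1 : ‖ϖ‖ < 1) (hmax : ∀ x ∈ L, ‖x‖ < 1 → ‖x‖ ≤ ‖ϖ‖)
    (he : ¬ p ∣ e) (hnorm : ‖ϖ‖ ^ e = ‖((p : ℕ) : PadicAlgCl p)‖) (hz : IsPrimitiveRoot z e)
    (hτ0 : τ0 ∈ WildFin.inertiaAt L) (hτ0z : τ0 z = z) (hτ0ϖ : τ0 ϖ = z * ϖ)
    (hn0 : ¬ p ∣ n0) (hpow : ∀ σ : PadicAlgCl p ≃ₐ[ℚ_[p]] PadicAlgCl p, σ ^ n0 ∈ L.fixingSubgroup)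
    (h10 : r τ0 1 0 = 0) (h01 : r τ0 0 1 = 0)
    {τ : PadicAlgCl p ≃ₐ[ℚ_[p]] PadicAlgCl p} (hτ : τ ∈ WildFin.inertiaAt L)
    (hne : r τ 0 0 ≠ r τ 1 1) : r τ0 0 0 ≠ r τ0 1 1 := by
  intro heq
  obtain ⟨i, hi⟩ := exists_map_eq_pow r hr hϖL hϖ1 hmax he hnorm hz hτ0 hτ0z hτ0ϖ hn0 hpow hτ
  have hsc : r τ0 = (r τ0 0 0) • (1 : Matrix (Fin 2) (Fin 2) k) := by
    ext a b
    fin_cases a <;> fin_cases b <;> simp [h10, h01, heq]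
  apply hne
  rw [hi, hsc, _root_.smul_pow, one_pow]
  simp

end Level

/-! ### The same facts on the literal clauses of `Flat.LIStatement` -/

section LI

variable {K : IntermediateField ℚ_[p] (PadicAlgCl p)} [FiniteDimensional ℚ_[p] K]

/-- **(s3) on the LI literals.**  With `K, ϖ, z, τ0, n0` as in `Flat.LIStatement`, every
(absolutely) inertial `τ` is `τ0 ^ i` modulo the fixing subgroup of `K`. -/
theorem exists_pow_inv_mul_mem_of_li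
    (hK : ∀ σ : PadicAlgCl p ≃ₐ[ℚ_[p]] PadicAlgCl p, ∀ x ∈ K, σ x ∈ K)
    {ϖ z : PadicAlgCl p} {τ0 : PadicAlgCl p ≃ₐ[ℚ_[p]] PadicAlgCl p} {n0 : ℕ}
    (hn0 : ¬ p ∣ n0) (hpow : ∀ σ : PadicAlgCl p ≃ₐ[ℚ_[p]] PadicAlgCl p, σ ^ n0 ∈ K.fixingSubgroup)
    (hϖK : ϖ ∈ K) (hϖ1 : ‖ϖ‖ < 1) (hmax : ∀ x ∈ K, ‖x‖ < 1 → ‖x‖ ≤ ‖ϖ‖)
    (hnorm : ‖ϖ‖ ^ ((p + 1) * (p - 1)) = ‖((p : ℕ) : PadicAlgCl p)‖)
    (hzF : z ∈ unram (⊥ : IntermediateField ℚ_[p] (PadicAlgCl p)) 2)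
    (hz : IsPrimitiveRoot z (p ^ 2 - 1))
    (hτ0F : τ0 ∈ (unram (⊥ : IntermediateField ℚ_[p] (PadicAlgCl p)) 2).fixingSubgroup)
    (hτ0 : ∀ x : PadicAlgCl p, ‖x‖ ≤ 1 → ‖τ0 x - x‖ < 1) (hτ0ϖ : τ0 ϖ = z * ϖ)
    {τ : PadicAlgCl p ≃ₐ[ℚ_[p]] PadicAlgCl p} (hτ : ∀ x : PadicAlgCl p, ‖x‖ ≤ 1 → ‖τ x - x‖ < 1) :
    ∃ i : ℕ, (τ0 ^ i)⁻¹ * τ ∈ K.fixingSubgroup := by
  have : Normal ℚ_[p] K := by
    rw [IntermediateField.normal_iff_forall_map_le']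
    rintro σ x ⟨y, hy, rfl⟩
    exact hK σ y hy
  have hτ0z : τ0 z = z := (IntermediateField.mem_fixingSubgroup_iff _ τ0).mp hτ0F z hzF
  rw [succ_mul_pred_eq] at hnorm
  exact exists_pow_inv_mul_mem_fixingSubgroup hϖK hϖ1 hmax not_dvd_sq_sub_one hnorm hz
    (fun x _ hx1 => hτ0 x hx1) hτ0z hτ0ϖ hn0 hpow (fun x _ hx1 => hτ x hx1)

/-- A monoid homomorphism trivial on the fixing subgroup of the LI field `K` maps every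
(absolutely) inertial element to a power of the image of `τ0`. -/
theorem exists_map_eq_pow_of_li {M : Type*} [Monoid M]
    (ρ : (PadicAlgCl p ≃ₐ[ℚ_[p]] PadicAlgCl p) →* M) (hρ : ∀ g ∈ K.fixingSubgroup, ρ g = 1)
    (hK : ∀ σ : PadicAlgCl p ≃ₐ[ℚ_[p]] PadicAlgCl p, ∀ x ∈ K, σ x ∈ K)
    {ϖ z : PadicAlgCl p} {τ0 : PadicAlgCl p ≃ₐ[ℚ_[p]] PadicAlgCl p} {n0 : ℕ}
    (hn0 : ¬ p ∣ n0) (hpow : ∀ σ : PadicAlgCl p ≃ₐ[ℚ_[p]] PadicAlgCl p, σ ^ n0 ∈ K.fixingSubgroup)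
    (hϖK : ϖ ∈ K) (hϖ1 : ‖ϖ‖ < 1) (hmax : ∀ x ∈ K, ‖x‖ < 1 → ‖x‖ ≤ ‖ϖ‖)
    (hnorm : ‖ϖ‖ ^ ((p + 1) * (p - 1)) = ‖((p : ℕ) : PadicAlgCl p)‖)
    (hzF : z ∈ unram (⊥ : IntermediateField ℚ_[p] (PadicAlgCl p)) 2)
    (hz : IsPrimitiveRoot z (p ^ 2 - 1))
    (hτ0F : τ0 ∈ (unram (⊥ : IntermediateField ℚ_[p] (PadicAlgCl p)) 2).fixingSubgroup)
    (hτ0 : ∀ x : PadicAlgCl p, ‖x‖ ≤ 1 → ‖τ0 x - x‖ < 1) (hτ0ϖ : τ0 ϖ = z * ϖ)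
    {τ : PadicAlgCl p ≃ₐ[ℚ_[p]] PadicAlgCl p} (hτ : ∀ x : PadicAlgCl p, ‖x‖ ≤ 1 → ‖τ x - x‖ < 1) :
    ∃ i : ℕ, ρ τ = ρ τ0 ^ i := by
  obtain ⟨i, hi⟩ := exists_pow_inv_mul_mem_of_li hK hn0 hpow hϖK hϖ1 hmax hnorm hzF hz hτ0F hτ0
    hτ0ϖ hτ
  refine ⟨i, ?_⟩
  calc ρ τ = ρ (τ0 ^ i * ((τ0 ^ i)⁻¹ * τ)) := by rw [mul_inv_cancel_left]
    _ = ρ τ0 ^ i := by rw [map_mul, hρ _ hi, mul_one, map_pow]

/-- **(s3) for TI.**  `r` trivial on the fixing subgroup of the LI field `K` and diagonal at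
`τ0`: if some (absolutely) inertial `τ` has `r τ 0 0 ≠ r τ 1 1`, then `r τ0 0 0 ≠ r τ0 1 1`. -/
theorem diag_ne_of_li {k : Type*} [Field k]
    (r : (PadicAlgCl p ≃ₐ[ℚ_[p]] PadicAlgCl p) →* Matrix (Fin 2) (Fin 2) k)
    (hr : ∀ g ∈ K.fixingSubgroup, r g = 1)
    (hK : ∀ σ : PadicAlgCl p ≃ₐ[ℚ_[p]] PadicAlgCl p, ∀ x ∈ K, σ x ∈ K)
    {ϖ z : PadicAlgCl p} {τ0 : PadicAlgCl p ≃ₐ[ℚ_[p]] PadicAlgCl p} {n0 : ℕ}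
    (hn0 : ¬ p ∣ n0) (hpow : ∀ σ : PadicAlgCl p ≃ₐ[ℚ_[p]] PadicAlgCl p, σ ^ n0 ∈ K.fixingSubgroup)
    (hϖK : ϖ ∈ K) (hϖ1 : ‖ϖ‖ < 1) (hmax : ∀ x ∈ K, ‖x‖ < 1 → ‖x‖ ≤ ‖ϖ‖)
    (hnorm : ‖ϖ‖ ^ ((p + 1) * (p - 1)) = ‖((p : ℕ) : PadicAlgCl p)‖)
    (hzF : z ∈ unram (⊥ : IntermediateField ℚ_[p] (PadicAlgCl p)) 2)
    (hz : IsPrimitiveRoot z (p ^ 2 - 1))
    (hτ0F : τ0 ∈ (unram (⊥ : IntermediateField ℚ_[p] (PadicAlgCl p)) 2).fixingSubgroup)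
    (hτ0 : ∀ x : PadicAlgCl p, ‖x‖ ≤ 1 → ‖τ0 x - x‖ < 1) (hτ0ϖ : τ0 ϖ = z * ϖ)
    (h10 : r τ0 1 0 = 0) (h01 : r τ0 0 1 = 0)
    (hex : ∃ τ : PadicAlgCl p ≃ₐ[ℚ_[p]] PadicAlgCl p,
      (∀ x : PadicAlgCl p, ‖x‖ ≤ 1 → ‖τ x - x‖ < 1) ∧ r τ 0 0 ≠ r τ 1 1) :
    r τ0 0 0 ≠ r τ0 1 1 := by
  obtain ⟨τ, hτ, hne⟩ := hex
  intro heq
  obtain ⟨i, hi⟩ := exists_map_eq_pow_of_li r hr hK hn0 hpow hϖK hϖ1 hmax hnorm hzF hz hτ0F hτ0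
    hτ0ϖ hτ
  have hsc : r τ0 = (r τ0 0 0) • (1 : Matrix (Fin 2) (Fin 2) k) := by
    ext a b
    fin_cases a <;> fin_cases b <;> simp [h10, h01, heq]
  apply hne
  rw [hi, hsc, _root_.smul_pow, one_pow]
  simp

end LI

end Fermat.Agent.S56.LF.TameGen
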