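import Fermat.Agent.S56.LF.TameInv

/-!
# The producer of `(hF)` / `(hα)` from the output clauses of `Flat.LIStatement` (S56, brick LF)

The hypotheses are literally clauses of the conclusion of `Flat.LIStatement` (with `IsInertial`
unfolded and `z ∈ K` instead of `z ∈ unram ⊥ 2 ≤ K`): `K ∋ ζ` finite and Galois-stable, `ϖ ∈ K`
norm-maximal in the maximal ideal with `‖ϖ‖ ^ ((p + 1) (p - 1)) = ‖p‖`, `z` a primitive
`(p² - 1)`-th root of unity, `τ0 ∈ G_{F0}` inertial with `τ0 ϖ = z ϖ`.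

* `conj_invariant_of_li` : if `χ τ0 = 1`, every `φ ∈ HSpace p k F0 K ζ _ χ` is invariant under
  conjugation by every element of `Gal(ℚ̄_p/ℚ_p)`  (`χ = 1`: the hypothesis `(hαF)` of
  `ThreeStep.finrank_induced`).
* `eq_zero_of_li` : if moreover `χ σ ≠ 1` for some `σ ∈ G_{F0}`, then `φ = 0`
  (`F0 = ⊥`, `χ = η` the unramified quadratic character: the diagonal entry of a flat cocycle
  vanishes on `G_K`).
-/

set_option autoImplicit false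

namespace Fermat.Agent.S56.LF.TameInvLI

open scoped NNReal NormedField Valued
open IsLocalRing Fermat.Agent.CFT.Local Fermat.Agent.CFT.Local.NormedLocal
  Fermat.Agent.CFT.Local.PadicExt Fermat.Agent.S56.Flat Fermat.Agent.S56.LF.TameInv

variable {p : ℕ} [Fact p.Prime]

/-- A natural number prime to `p` has norm `1` in `ℚ̄_p`. -/
theorem norm_natCast_eq_one {N : ℕ} (hN : ¬ p ∣ N) : ‖((N : ℕ) : PadicAlgCl p)‖ = 1 := by
  have h : ‖((N : ℕ) : PadicAlgCl p)‖ = ‖((N : ℕ) : ℚ_[p])‖ := by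
    rw [← map_natCast (algebraMap ℚ_[p] (PadicAlgCl p)) N, norm_algebraMap']
  rw [h, Padic.norm_natCast_eq_one_iff]
  exact (Nat.Prime.coprime_iff_not_dvd (Fact.out : p.Prime)).mpr hN

/-- Roots of unity of order prime to `p` are not congruent to `1`. -/
theorem norm_sub_one_of_pow_eq_one {y : PadicAlgCl p} {N : ℕ} (hN : ¬ p ∣ N) (hy : y ^ N = 1)
    (hy1 : y ≠ 1) : ‖y - 1‖ = 1 := by
  have hN0 : N ≠ 0 := fun h0 => hN (h0 ▸ dvd_zero p)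
  have hyn : ‖y‖ = 1 := by
    have h1 : ‖y‖ ^ N = 1 := by rw [← norm_pow, hy, norm_one]
    exact (pow_eq_one_iff_of_nonneg (norm_nonneg y) hN0).mp h1
  have hle : ‖y - 1‖ ≤ 1 := by
    rw [sub_eq_add_neg]
    refine (IsUltrametricDist.norm_add_le_max _ _).trans ?_
    rw [hyn, norm_neg, norm_one, max_self]
  refine le_antisymm hle (not_lt.mp fun hlt => ?_)
  -- every power of `y` is congruent to `1`
  have hpow : ∀ i : ℕ, ‖y ^ i - 1‖ < 1 := by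
    intro i
    induction i with
    | zero => simp
    | succ i ih =>
      have h1 : y ^ (i + 1) - 1 = y ^ i * (y - 1) + (y ^ i - 1) := by ring
      rw [h1]
      refine lt_of_le_of_lt (IsUltrametricDist.norm_add_le_max _ _) (max_lt ?_ ih)
      rw [norm_mul, norm_pow, hyn, one_pow, one_mul]
      exact hlt
  -- the geometric sum vanishes
  have hsum : ∑ i ∈ Finset.range N, y ^ i = 0 := by
    have h1 : (∑ i ∈ Finset.range N, y ^ i) * (y - 1) = 0 := by rw [geom_sum_mul, hy, sub_self]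
    exact (mul_eq_zero.mp h1).resolve_right (sub_ne_zero.mpr hy1)
  have hN1 : ‖((N : ℕ) : PadicAlgCl p)‖ < 1 := by
    have h1 : ((N : ℕ) : PadicAlgCl p) = -∑ i ∈ Finset.range N, (y ^ i - 1) := by
      rw [Finset.sum_sub_distrib, hsum, Finset.sum_const, Finset.card_range, nsmul_eq_mul, mul_one]
      ring
    rw [h1, norm_neg]
    have hne : (Finset.range N).Nonempty := Finset.nonempty_range_iff.mpr hN0
    obtain ⟨i, -, hi⟩ := IsUltrametricDist.exists_norm_finsetSum_le_of_nonempty hne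
      (fun i => y ^ i - 1)
    exact lt_of_le_of_lt hi (hpow i)
  exact hN1.ne (norm_natCast_eq_one hN)

section Main

variable (K : IntermediateField ℚ_[p] (PadicAlgCl p)) [FiniteDimensional ℚ_[p] K]

/-- A norm-maximal element of the maximal ideal of `𝒪[K]` is irreducible. -/
theorem irreducible_of_norm_max {ϖ : 𝒪[K]} (hϖ0 : ϖ ≠ 0) (hϖ1 : ‖incl K ϖ‖ < 1)
    (hmax : ∀ x ∈ K, ‖x‖ < 1 → ‖x‖ ≤ ‖incl K ϖ‖) : Irreducible ϖ := by
  obtain ⟨Θ, hΘ⟩ := IsDiscreteValuationRing.exists_irreducible 𝒪[K]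
  obtain ⟨n, u, hu⟩ := IsDiscreteValuationRing.eq_unit_mul_pow_irreducible hϖ0 hΘ
  have hΘ0 : incl K Θ ≠ 0 := fun h0 => hΘ.ne_zero (incl_injective K (by rw [h0, map_zero]))
  have hΘpos : 0 < ‖incl K Θ‖ := norm_pos_iff.mpr hΘ0
  have hΘlt : ‖incl K Θ‖ < 1 := by
    refine lt_of_le_of_ne (norm_incl_le K Θ) fun h1 => ?_
    exact hΘ.not_isUnit ((isUnit_iff_norm_incl K Θ).mpr h1)
  have hnorm : ‖incl K ϖ‖ = ‖incl K Θ‖ ^ n := by
    rw [hu, map_mul, map_pow, norm_mul, norm_pow, (isUnit_iff_norm_incl K _).mp u.isUnit, one_mul]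
  have hn1 : n = 1 := by
    have h1 : ‖incl K Θ‖ ≤ ‖incl K Θ‖ ^ n := by
      rw [← hnorm]
      exact hmax _ (incl_mem K Θ) hΘlt
    have hn0 : n ≠ 0 := by
      intro h0
      rw [h0, pow_zero] at hnorm
      exact hϖ1.ne hnorm
    by_contra hne
    have h2 : 2 ≤ n := by omega
    have h3 : ‖incl K Θ‖ ^ n ≤ ‖incl K Θ‖ ^ 2 :=
      pow_le_pow_of_le_one hΘpos.le hΘlt.le h2
    have h4 : ‖incl K Θ‖ ^ 2 < ‖incl K Θ‖ := by
      rw [pow_two]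
      exact mul_lt_of_lt_one_left hΘpos hΘlt
    exact absurd (h1.trans h3) (not_le.mpr h4)
  rw [hn1, pow_one] at hu
  rw [hu]
  exact (irreducible_units_mul u).mpr hΘ

/-- **`(hF)` from `LIStatement`.**  The hypotheses are clauses of the conclusion of
`Flat.LIStatement`; if `χ τ0 = 1`, every `φ ∈ HSpace p k F0 K ζ _ χ` is invariant under
conjugation by every `s ∈ Gal(ℚ̄_p/ℚ_p)`. -/
theorem conj_invariant_of_li (hp2 : p ≠ 2) (k : Type) [Field k] [CharP k p]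
    (F0 : IntermediateField ℚ_[p] (PadicAlgCl p)) (hK : ∀ (s : Gp p), ∀ x ∈ K, s x ∈ K)
    {ζ : PadicAlgCl p} (hζ : IsPrimitiveRoot ζ p) (hζK : ζ ∈ K)
    {ϖ z : PadicAlgCl p} (hϖK : ϖ ∈ K) (hϖ1 : ‖ϖ‖ < 1)
    (hϖmax : ∀ x ∈ K, ‖x‖ < 1 → ‖x‖ ≤ ‖ϖ‖)
    (hϖp : ‖ϖ‖ ^ ((p + 1) * (p - 1)) = ‖((p : ℕ) : PadicAlgCl p)‖)
    (hzK : z ∈ K) (hz : IsPrimitiveRoot z (p ^ 2 - 1))
    {τ0 : Gp p} (hτ0 : τ0 ∈ F0.fixingSubgroup)
    (hτ0I : ∀ x : PadicAlgCl p, ‖x‖ ≤ 1 → ‖τ0 x - x‖ < 1) (hτ0ϖ : τ0 ϖ = z * ϖ)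
    (χ : Gp p → k) (hχ : χ τ0 = 1)
    {φ : K.fixingSubgroup → k} (hφ : φ ∈ HSpace p k F0 K ζ hζ.pow_eq_one χ)
    (s : Gp p) (g g' : K.fixingSubgroup) (hg : (g' : Gp p) = s * g * s⁻¹) : φ g' = φ g := by
  have hp : p.Prime := Fact.out
  have hp1 : 1 < p := hp.one_lt
  have hpp : p ^ 2 - 1 = (p + 1) * (p - 1) := by
    have h1 : p ^ 2 - 1 ^ 2 = (p + 1) * (p - 1) := Nat.sq_sub_sq p 1
    rw [one_pow] at h1
    exact h1
  have hepos : 0 < (p + 1) * (p - 1) := Nat.mul_pos (by omega) (by omega)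
  have hndvd : ¬ p ∣ p ^ 2 - 1 := by
    intro hdvd
    have h2 : p ∣ p ^ 2 := dvd_pow_self p (by norm_num)
    have h3 : p ∣ p ^ 2 - (p ^ 2 - 1) := Nat.dvd_sub h2 hdvd
    have h4 : p ^ 2 - (p ^ 2 - 1) = 1 := by
      have : 1 ≤ p ^ 2 := Nat.one_le_pow _ _ hp.pos
      omega
    rw [h4] at h3
    exact hp.one_lt.ne' (Nat.dvd_one.mp h3)
  have hpn : ‖((p : ℕ) : PadicAlgCl p)‖ < 1 := norm_natCast_lt_one
  have hϖ0 : ϖ ≠ 0 := by
    intro h0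
    rw [h0, norm_zero, zero_pow hepos.ne'] at hϖp
    have h1 : ((p : ℕ) : PadicAlgCl p) = 0 := norm_eq_zero.mp hϖp.symm
    exact (Nat.cast_ne_zero (R := PadicAlgCl p)).mpr hp.ne_zero h1
  have hz1 : ‖z‖ = 1 := by
    have h1 : ‖z‖ ^ (p ^ 2 - 1) = 1 := by rw [← norm_pow, hz.pow_eq_one, norm_one]
    exact (pow_eq_one_iff_of_nonneg (norm_nonneg z) (by rw [hpp]; exact hepos.ne')).mp h1
  obtain ⟨ϖO, hϖO⟩ := exists_incl_eq K hϖK hϖ1.le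
  obtain ⟨zO, hzO⟩ := exists_incl_eq K hzK hz1.le
  have hϖO0 : ϖO ≠ 0 := by
    intro h0
    apply hϖ0
    rw [← hϖO, h0, map_zero]
  have hirr : Irreducible ϖO :=
    irreducible_of_norm_max K hϖO0 (by rw [hϖO]; exact hϖ1) (by rw [hϖO]; exact hϖmax)
  refine conj_invariant K hp2 k F0 hK hζ hζK χ hτ0 hχ hirr (c := zO) ?_ ?_
    (e := (p + 1) * (p - 1)) ?_ ?_ hφ s g g' hg
  · rw [hϖO, hzO, hτ0ϖ, mul_comm]
  · exact fun x => hτ0I _ (norm_incl_le K x)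
  · rw [hϖO, hϖp]
  · intro j hj hje
    rw [hzO]
    refine norm_sub_one_of_pow_eq_one hndvd ?_ ?_
    · rw [← pow_mul, mul_comm, pow_mul, hz.pow_eq_one, one_pow]
    · intro h1
      have h2 := hz.dvd_of_pow_eq_one j h1
      rw [hpp] at h2
      exact absurd (Nat.le_of_dvd hj h2) (not_le.mpr hje)

/-- **`(hα)` from `LIStatement`.**  Under the hypotheses of `conj_invariant_of_li`, if `χ σ ≠ 1`
for some `σ ∈ G_{F0}`, every `φ ∈ HSpace p k F0 K ζ _ χ` vanishes. -/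
theorem eq_zero_of_li (hp2 : p ≠ 2) (k : Type) [Field k] [CharP k p]
    (F0 : IntermediateField ℚ_[p] (PadicAlgCl p)) (hK : ∀ (s : Gp p), ∀ x ∈ K, s x ∈ K)
    {ζ : PadicAlgCl p} (hζ : IsPrimitiveRoot ζ p) (hζK : ζ ∈ K)
    {ϖ z : PadicAlgCl p} (hϖK : ϖ ∈ K) (hϖ1 : ‖ϖ‖ < 1)
    (hϖmax : ∀ x ∈ K, ‖x‖ < 1 → ‖x‖ ≤ ‖ϖ‖)
    (hϖp : ‖ϖ‖ ^ ((p + 1) * (p - 1)) = ‖((p : ℕ) : PadicAlgCl p)‖)
    (hzK : z ∈ K) (hz : IsPrimitiveRoot z (p ^ 2 - 1))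
    {τ0 : Gp p} (hτ0 : τ0 ∈ F0.fixingSubgroup)
    (hτ0I : ∀ x : PadicAlgCl p, ‖x‖ ≤ 1 → ‖τ0 x - x‖ < 1) (hτ0ϖ : τ0 ϖ = z * ϖ)
    (χ : Gp p → k) (hχ : χ τ0 = 1) {σ : Gp p} (hσ : σ ∈ F0.fixingSubgroup) (hχσ : χ σ ≠ 1)
    {φ : K.fixingSubgroup → k} (hφ : φ ∈ HSpace p k F0 K ζ hζ.pow_eq_one χ) : φ = 0 := by
  funext g
  have hg' : σ * (g : Gp p) * σ⁻¹ ∈ K.fixingSubgroup := by
    rw [IntermediateField.mem_fixingSubgroup_iff]
    intro x hx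
    change σ ((g : Gp p) (σ⁻¹ x)) = x
    rw [(IntermediateField.mem_fixingSubgroup_iff _ _).mp g.2 _ (hK σ⁻¹ x hx)]
    exact σ.apply_symm_apply x
  have h1 : φ ⟨σ * (g : Gp p) * σ⁻¹, hg'⟩ = χ σ * φ g := hφ.2.1 σ hσ g ⟨_, hg'⟩ rfl
  have h2 : φ ⟨σ * (g : Gp p) * σ⁻¹, hg'⟩ = φ g :=
    conj_invariant_of_li K hp2 k F0 hK hζ hζK hϖK hϖ1 hϖmax hϖp hzK hz hτ0 hτ0I hτ0ϖ χ hχ hφ
      σ g ⟨_, hg'⟩ rfl
  have h3 : (χ σ - 1) * φ g = 0 := by rw [sub_mul, one_mul, ← h1, h2, sub_self]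
  rcases mul_eq_zero.mp h3 with h4 | h4
  · exact absurd (sub_eq_zero.mp h4) hχσ
  · exact h4

end Main

end Fermat.Agent.S56.LF.TameInvLI
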