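/-
S56 / brick LF, induced case: the hypothesis `(hα)` of the three-step argument from the output of
`Flat.LIStatement` (closer of `LF/EtaClass.lean`).

`r : Gal(ℚ̄_p/ℚ_p) →* M₂(k)` is diagonal on `G_{F0}` (`F0` the unramified quadratic extension) and
antidiagonal off it; `d` is a trace-zero `r`-derivation with a flat lift `r + ε d`.  Then the
diagonal entry of the cocycle `c g = d g * (r g)⁻¹` vanishes on `G_{F0}`:

* `alpha_eq_zero_of_li_clauses` : from the clauses of the conclusion of `Flat.LIStatement`;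
* `alpha_eq_zero_of_LIStatement` : from `Flat.LIStatement` itself (the field is consumed inside).

Proof: `EtaClass.alpha_eq_zero` (the restriction of the diagonal entry to `G_K` lies in
`HSpace p k ⊥ K ζ _ η`, `η` the sign character of `G_{F0}`) and `TameInvLI.eq_zero_of_li` (that
space is zero: `η τ0 = 1` for the tame generator `τ0 ∈ G_{F0}`, `η F = -1 ≠ 1` for `F ∉ G_{F0}`).
-/
import Mathlib
import Fermat.Agent.S56.Flat.LocalBricks
import Fermat.Agent.S56.LF.EtaClass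
import Fermat.Agent.S56.LF.TameInvLI

set_option autoImplicit false

namespace Fermat.Agent.S56.LF.EtaClassLI

open Fermat.Agent.S56.Flat Fermat.Agent.CFT.Local.UnramPadic Fermat.Agent.S56.LF.EtaClass

section Sign

variable {Γ : Type*} [Group Γ] {k : Type*} [Field k] (G0 : Subgroup Γ)

theorem etaU_val_of_mem {σ : Γ} (h : σ ∈ G0) : ((etaU k G0 σ : kˣ) : k) = 1 := by
  rw [etaU_of_mem G0 h, Units.val_one]

theorem etaU_val_of_not_mem {σ : Γ} (h : σ ∉ G0) : ((etaU k G0 σ : kˣ) : k) = -1 := by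
  rw [etaU_of_not_mem G0 h, Units.val_neg, Units.val_one]

end Sign

variable {p : ℕ} [Fact p.Prime] {k : Type} [Field k]

/-- `G_{F0}`, `F0` the unramified quadratic extension of `ℚ_p`, is a proper subgroup of
`Gal(ℚ̄_p/ℚ_p)`. -/
theorem exists_not_mem_fixingSubgroup_unram_two :
    ∃ F : Gp p, F ∉ (unram (⊥ : IntermediateField ℚ_[p] (PadicAlgCl p)) 2).fixingSubgroup := by
  by_contra hall
  have hall' : ∀ F : Gp p,
      F ∈ (unram (⊥ : IntermediateField ℚ_[p] (PadicAlgCl p)) 2).fixingSubgroup := by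
    intro F
    by_contra hF
    exact hall ⟨F, hF⟩
  have htop : (unram (⊥ : IntermediateField ℚ_[p] (PadicAlgCl p)) 2).fixingSubgroup = ⊤ :=
    (Subgroup.eq_top_iff' _).mpr hall'
  have h2 := relIndex_fixingSubgroup_unram (⊥ : IntermediateField ℚ_[p] (PadicAlgCl p))
    (n := 2) (by norm_num)
  rw [htop, Subgroup.relIndex_top_left] at h2
  exact absurd h2 (by norm_num)

/-- In characteristic `p ≠ 2`, `-1 ≠ 1`. -/
theorem neg_one_ne_one_of_charP (hp2 : p ≠ 2) [CharP k p] : (-1 : k) ≠ 1 := by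
  intro h
  have h2 : ((2 : ℕ) : k) = 0 := by
    rw [Nat.cast_ofNat]
    linear_combination (-1 : k) * h
  have h4 : p ∣ 2 := (CharP.cast_eq_zero_iff k p 2).mp h2
  exact hp2 ((Nat.prime_dvd_prime_iff_eq (Fact.out : p.Prime) Nat.prime_two).mp h4)

/-- **`(hα)` of the induced case, from the clauses of the conclusion of `Flat.LIStatement`.** -/
theorem alpha_eq_zero_of_li_clauses (hLev : FlatKummer.LevelStatement) (hp2 : p ≠ 2) [CharP k p]
    (r : Gp p →* Matrix (Fin 2) (Fin 2) k) (d : Gp p → Matrix (Fin 2) (Fin 2) k)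
    (hd : ∀ σ τ : Gp p, d (σ * τ) = d σ * r τ + r σ * d τ)
    (htr : ∀ σ : Gp p, (d σ * r σ⁻¹).trace = 0)
    (hflat : FlatLocal p ((Fin 2 → k) × (Fin 2 → k)) (liftAct r d))
    (hdiag : ∀ σ ∈ (unram (⊥ : IntermediateField ℚ_[p] (PadicAlgCl p)) 2).fixingSubgroup,
      r σ 1 0 = 0 ∧ r σ 0 1 = 0)
    (hanti : ∀ σ : Gp p,
      σ ∉ (unram (⊥ : IntermediateField ℚ_[p] (PadicAlgCl p)) 2).fixingSubgroup →
      r σ 0 0 = 0 ∧ r σ 1 1 = 0)
    (K : IntermediateField ℚ_[p] (PadicAlgCl p)) [FiniteDimensional ℚ_[p] K]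
    (hF0K : unram (⊥ : IntermediateField ℚ_[p] (PadicAlgCl p)) 2 ≤ K)
    (ζ : PadicAlgCl p) (hζ : IsPrimitiveRoot ζ p) (hζK : ζ ∈ K)
    (hK : ∀ σ : Gp p, ∀ x ∈ K, σ x ∈ K)
    (n0 : ℕ) (hn0 : ¬ p ∣ n0) (hn0K : ∀ σ : Gp p, σ ^ n0 ∈ K.fixingSubgroup)
    (ϖ z : PadicAlgCl p) (hϖK : ϖ ∈ K) (hϖ1 : ‖ϖ‖ < 1)
    (hϖmax : ∀ x ∈ K, ‖x‖ < 1 → ‖x‖ ≤ ‖ϖ‖)
    (hϖp : ‖ϖ‖ ^ ((p + 1) * (p - 1)) = ‖(p : PadicAlgCl p)‖)
    (hz : z ∈ unram (⊥ : IntermediateField ℚ_[p] (PadicAlgCl p)) 2)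
    (hzp : IsPrimitiveRoot z (p ^ 2 - 1))
    (τ0 : Gp p)
    (hτ0 : τ0 ∈ (unram (⊥ : IntermediateField ℚ_[p] (PadicAlgCl p)) 2).fixingSubgroup)
    (hτ0I : IsInertial p τ0) (hτ0ϖ : τ0 ϖ = z * ϖ) :
    ∀ g ∈ (unram (⊥ : IntermediateField ℚ_[p] (PadicAlgCl p)) 2).fixingSubgroup,
      (d g * r g⁻¹) 0 0 = 0 := by
  obtain ⟨F, hF⟩ := exists_not_mem_fixingSubgroup_unram_two (p := p)
  have hKF0 : K.fixingSubgroup ≤
      (unram (⊥ : IntermediateField ℚ_[p] (PadicAlgCl p)) 2).fixingSubgroup :=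
    IntermediateField.fixingSubgroup_le hF0K
  have hne : (-1 : k) ≠ 1 := neg_one_ne_one_of_charP hp2
  have hbotmem : ∀ s : Gp p,
      s ∈ (⊥ : IntermediateField ℚ_[p] (PadicAlgCl p)).fixingSubgroup := by
    intro s
    rw [IntermediateField.fixingSubgroup_bot]
    exact Subgroup.mem_top s
  refine alpha_eq_zero r d hLev hp2 hd htr hflat _ K hdiag hanti hKF0 ζ hζ hζK n0 hn0 hn0K ?_
  intro φ hφ
  exact TameInvLI.eq_zero_of_li K hp2 k ⊥ hK hζ hζK hϖK hϖ1 hϖmax hϖp (hF0K hz) hzp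
    (τ0 := τ0) (hbotmem τ0) hτ0I hτ0ϖ
    (fun σ => ((etaU k
      (unram (⊥ : IntermediateField ℚ_[p] (PadicAlgCl p)) 2).fixingSubgroup σ : kˣ) : k))
    (etaU_val_of_mem _ hτ0) (σ := F) (hbotmem F)
    (fun h => hne ((etaU_val_of_not_mem _ hF).symm.trans h)) hφ

/-- **`(hα)` of the induced case, from `Flat.LIStatement`.**  For `r` diagonal on `G_{F0}` and
antidiagonal off it, and a trace-zero derivation `d` with `r + ε d` flat, the diagonal entry of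
the cocycle `g ↦ d g * (r g)⁻¹` vanishes on `G_{F0}`. -/
theorem alpha_eq_zero_of_LIStatement (hLI : LIStatement) (hLev : FlatKummer.LevelStatement)
    (hp2 : p ≠ 2) [Finite k] [CharP k p]
    (r : Gp p →* Matrix (Fin 2) (Fin 2) k) (d : Gp p → Matrix (Fin 2) (Fin 2) k)
    (hd : ∀ σ τ : Gp p, d (σ * τ) = d σ * r τ + r σ * d τ)
    (htr : ∀ σ : Gp p, (d σ * r σ⁻¹).trace = 0)
    (hflat : FlatLocal p ((Fin 2 → k) × (Fin 2 → k)) (liftAct r d))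
    (hdiag : ∀ σ ∈ (unram (⊥ : IntermediateField ℚ_[p] (PadicAlgCl p)) 2).fixingSubgroup,
      r σ 1 0 = 0 ∧ r σ 0 1 = 0)
    (hanti : ∀ σ : Gp p,
      σ ∉ (unram (⊥ : IntermediateField ℚ_[p] (PadicAlgCl p)) 2).fixingSubgroup →
      r σ 0 0 = 0 ∧ r σ 1 1 = 0) :
    ∀ g ∈ (unram (⊥ : IntermediateField ℚ_[p] (PadicAlgCl p)) 2).fixingSubgroup,
      (d g * r g⁻¹) 0 0 = 0 := by
  obtain ⟨ζ, hζ⟩ := exists_primitiveRoot (q := p) p (Fact.out : p.Prime).ne_zero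
  obtain ⟨K, hKfd, ϖ, z, τ0, φ, φ1, n0, hF0K, hζK, hK, ⟨-, hn0, hn0K⟩, hϖK, hϖ1, hϖmax, hϖp,
    hz, hzp, hτ0, hτ0I, hτ0ϖ, -, -, -, -, -, -⟩ := hLI p hp2 k ζ hζ
  exact alpha_eq_zero_of_li_clauses hLev hp2 r d hd htr hflat hdiag hanti K hF0K ζ hζ hζK hK n0
    hn0 hn0K ϖ z hϖK hϖ1 hϖmax hϖp hz hzp τ0 hτ0 hτ0I hτ0ϖ

end Fermat.Agent.S56.LF.EtaClassLI
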