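import Fermat.Agent.S56.LF.ThreeStep

/-!
# S56, brick LF, row C6: corollaries of the three-step argument in shape (I)  (FIX B forms)

Same vocabulary as `Fermat.Agent.S56.LF.ThreeStep` (`ad`, `Z1`, `B1`, `cob`), nothing new is
defined here.

* `Z1_conj`: for a cocycle `c` and `g` with trivial adjoint action, `c (σ g σ⁻¹) = ad r σ (c g)`.
* `Z1_conj_00_diag`, `Z1_conj_00_anti`: in shape (I) the upper left entry of a cocycle on `N`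
  is invariant under conjugation by `Γ₀` and changes sign under conjugation by the other coset.
* `Z1_add_00_diag`: the upper left entry of a cocycle is additive on `Γ₀`.
* `finrank_induced_of_entry_zero` (form (hα)): no space `Hα`; the hypothesis is that the upper
  left entry of every non-coboundary cocycle of `C` vanishes on `N`.
  `finrank_induced_of_entry_zero'` is the same statement with `∀ g ∈ N`.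
* `finrank_induced_of_anti` (form (hF')): the hypothesis on `Hα` is that it contains no non-zero
  function which changes sign under conjugation by `F`.
-/

set_option autoImplicit false

namespace Fermat.Agent.S56.LF.ThreeStepFixB

open Matrix Module
open Fermat.Agent.S56.LF.ThreeStep

variable {Γ : Type*} [Group Γ] {k : Type*} [Field k]

section Facts

variable (r : Γ →* GL (Fin 2) k)

local notation "𝔞(" σ ")" => (Units.val (r σ) : Matrix (Fin 2) (Fin 2) k) 0 0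
local notation "𝔟(" σ ")" => (Units.val (r σ) : Matrix (Fin 2) (Fin 2) k) 0 1
local notation "𝔠(" σ ")" => (Units.val (r σ) : Matrix (Fin 2) (Fin 2) k) 1 0
local notation "𝔡(" σ ")" => (Units.val (r σ) : Matrix (Fin 2) (Fin 2) k) 1 1

/-- Conjugation formula for cocycles: if `r g` acts trivially then
`c (σ * g * σ⁻¹) = ad r σ (c g)`. -/
theorem Z1_conj {c : Γ → Matrix (Fin 2) (Fin 2) k} (hc : c ∈ Z1 r) (σ g : Γ)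
    (hg : ∀ X : Matrix (Fin 2) (Fin 2) k, ad r g X = X) :
    c (σ * g * σ⁻¹) = ad r σ (c g) := by
  have e1 : c (σ * g * σ⁻¹) = c σ + ad r σ (c g) + ad r σ (c σ⁻¹) := by
    rw [hc.2 (σ * g) σ⁻¹, hc.2 σ g, ad_mul, hg]
  have e2 : c σ + ad r σ (c σ⁻¹) = 0 := by
    have h := hc.2 σ σ⁻¹
    rw [mul_inv_cancel, Z1_one r hc] at h
    exact h.symm
  rw [e1, add_right_comm, e2, zero_add]

/-- The same with the entrywise hypothesis `r g = 1`. -/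
theorem Z1_conj_of_one {c : Γ → Matrix (Fin 2) (Fin 2) k} (hc : c ∈ Z1 r) (σ g : Γ)
    (h00 : 𝔞(g) = 1) (h01 : 𝔟(g) = 0) (h10 : 𝔠(g) = 0) (h11 : 𝔡(g) = 1) :
    c (σ * g * σ⁻¹) = ad r σ (c g) :=
  Z1_conj r hc σ g (fun X => ad_of_one r h00 h01 h10 h11 X)

/-- The upper left entry of a cocycle is additive on the elements with diagonal `r σ`. -/
theorem Z1_add_00_diag {c : Γ → Matrix (Fin 2) (Fin 2) k} (hc : c ∈ Z1 r) {σ : Γ}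
    (hσb : 𝔟(σ) = 0) (hσc : 𝔠(σ) = 0) (τ : Γ) :
    c (σ * τ) 0 0 = c σ 0 0 + c τ 0 0 := by
  rw [hc.2 σ τ, Matrix.add_apply, (ad_entries_diag r hσc hσb (c τ)).2.1]

/-- Conjugation by an element with diagonal `r σ` does not change the upper left entry of a
cocycle at an element `g` with `r g = 1`. -/
theorem Z1_conj_00_diag {c : Γ → Matrix (Fin 2) (Fin 2) k} (hc : c ∈ Z1 r) {σ : Γ}
    (hσb : 𝔟(σ) = 0) (hσc : 𝔠(σ) = 0) {g : Γ}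
    (h00 : 𝔞(g) = 1) (h01 : 𝔟(g) = 0) (h10 : 𝔠(g) = 0) (h11 : 𝔡(g) = 1) :
    c (σ * g * σ⁻¹) 0 0 = c g 0 0 := by
  rw [Z1_conj_of_one r hc σ g h00 h01 h10 h11, (ad_entries_diag r hσc hσb (c g)).2.1]

/-- Conjugation by an element with antidiagonal `r σ` changes the sign of the upper left entry
of a cocycle at an element `g` with `r g = 1`. -/
theorem Z1_conj_00_anti {c : Γ → Matrix (Fin 2) (Fin 2) k} (hc : c ∈ Z1 r) {σ : Γ}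
    (hσa : 𝔞(σ) = 0) (hσd : 𝔡(σ) = 0) {g : Γ}
    (h00 : 𝔞(g) = 1) (h01 : 𝔟(g) = 0) (h10 : 𝔠(g) = 0) (h11 : 𝔡(g) = 1) :
    c (σ * g * σ⁻¹) 0 0 = -c g 0 0 := by
  rw [Z1_conj_of_one r hc σ g h00 h01 h10 h11, (ad_entries_anti r hσa hσd (c g)).1,
    Z1_apply_11 r hc g]

/-- If `r τ` is diagonal and `r F` is antidiagonal then `r (F * τ)` is antidiagonal. -/
theorem anti_mul_diag {F τ : Γ} (hF0 : 𝔞(F) = 0) (hF1 : 𝔡(F) = 0)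
    (hτb : 𝔟(τ) = 0) (hτc : 𝔠(τ) = 0) :
    𝔞(F * τ) = 0 ∧ 𝔡(F * τ) = 0 := by
  have h : (Units.val (r (F * τ)) : Matrix (Fin 2) (Fin 2) k)
      = (Units.val (r F) : Matrix (Fin 2) (Fin 2) k) * (Units.val (r τ)) := by
    rw [map_mul, Units.val_mul]
  constructor
  · rw [h, Matrix.mul_apply, Fin.sum_univ_two, hF0, hτc, zero_mul, mul_zero, add_zero]
  · rw [h, Matrix.mul_apply, Fin.sum_univ_two, hF1, hτb, zero_mul, mul_zero, add_zero]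

end Facts

section Induced

variable (r : Γ →* GL (Fin 2) k) (Γ₀ N : Subgroup Γ) (F : Γ)
  (C : Submodule k (Γ → Matrix (Fin 2) (Fin 2) k))

local notation "𝔞(" σ ")" => (Units.val (r σ) : Matrix (Fin 2) (Fin 2) k) 0 0
local notation "𝔟(" σ ")" => (Units.val (r σ) : Matrix (Fin 2) (Fin 2) k) 0 1
local notation "𝔠(" σ ")" => (Units.val (r σ) : Matrix (Fin 2) (Fin 2) k) 1 0
local notation "𝔡(" σ ")" => (Units.val (r σ) : Matrix (Fin 2) (Fin 2) k) 1 1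

omit C in
/-- In shape (I), for every `σ` of the coset `F Γ₀` the upper left entry of a cocycle on `N`
changes sign under conjugation by `σ`. -/
theorem Z1_conj_00_coset {c : Γ → Matrix (Fin 2) (Fin 2) k} (hc : c ∈ Z1 r)
    (hdiag0 : ∀ σ ∈ Γ₀, 𝔟(σ) = 0) (hdiag1 : ∀ σ ∈ Γ₀, 𝔠(σ) = 0)
    (hF0 : 𝔞(F) = 0) (hF1 : 𝔡(F) = 0) (hNΓ : N ≤ Γ₀)
    (hN0 : ∀ g ∈ N, 𝔞(g) = 1) (hN1 : ∀ g ∈ N, 𝔡(g) = 1)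
    {σ : Γ} (hσ : F⁻¹ * σ ∈ Γ₀) {g : Γ} (hg : g ∈ N) :
    c (σ * g * σ⁻¹) 0 0 = -c g 0 0 := by
  have e : σ = F * (F⁻¹ * σ) := by group
  obtain ⟨ha, hd⟩ := anti_mul_diag r hF0 hF1 (hdiag0 _ hσ) (hdiag1 _ hσ)
  rw [← e] at ha hd
  exact Z1_conj_00_anti r hc ha hd (hN0 g hg) (hdiag0 g (hNΓ hg)) (hdiag1 g (hNΓ hg)) (hN1 g hg)

omit F C in
/-- In shape (I), the upper left entry of a cocycle on `N` is invariant under conjugation by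
`Γ₀`. -/
theorem Z1_conj_00_sub {c : Γ → Matrix (Fin 2) (Fin 2) k} (hc : c ∈ Z1 r)
    (hdiag0 : ∀ σ ∈ Γ₀, 𝔟(σ) = 0) (hdiag1 : ∀ σ ∈ Γ₀, 𝔠(σ) = 0) (hNΓ : N ≤ Γ₀)
    (hN0 : ∀ g ∈ N, 𝔞(g) = 1) (hN1 : ∀ g ∈ N, 𝔡(g) = 1)
    {σ : Γ} (hσ : σ ∈ Γ₀) {g : Γ} (hg : g ∈ N) :
    c (σ * g * σ⁻¹) 0 0 = c g 0 0 :=
  Z1_conj_00_diag r hc (hdiag0 σ hσ) (hdiag1 σ hσ) (hN0 g hg) (hdiag0 g (hNΓ hg))
    (hdiag1 g (hNΓ hg)) (hN1 g hg)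

/-- **Shape (I), form (hα).**  As `ThreeStep.finrank_induced`, without the space `Hα`: the
upper left entry of every cocycle of `C` which is not a coboundary vanishes on `N`. -/
theorem finrank_induced_of_entry_zero
    (hdiag0 : ∀ σ ∈ Γ₀, 𝔟(σ) = 0) (hdiag1 : ∀ σ ∈ Γ₀, 𝔠(σ) = 0)
    (hF0 : 𝔞(F) = 0) (hF1 : 𝔡(F) = 0) (hNΓ : N ≤ Γ₀)
    (hN0 : ∀ g ∈ N, 𝔞(g) = 1) (hN1 : ∀ g ∈ N, 𝔡(g) = 1)
    (hFN : ∀ g ∈ N, F * g * F⁻¹ ∈ N)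
    (hidx : ∀ σ, σ ∈ Γ₀ ∨ F⁻¹ * σ ∈ Γ₀) (hnorm : ∀ σ ∈ Γ₀, F⁻¹ * σ * F ∈ Γ₀)
    (hne : ∃ σ ∈ Γ₀, 𝔞(σ) ≠ 𝔡(σ)) (h2 : (2 : k) ≠ 0)
    (hΔ0 : ∀ f : Γ → k, (∀ σ ∈ Γ₀, ∀ τ ∈ Γ₀, f (σ * τ) = f σ + f τ) → (∀ g ∈ N, f g = 0) →
      ∀ σ ∈ Γ₀, f σ = 0)
    (hΔγ : ∀ f : Γ → k, (∀ σ ∈ Γ₀, ∀ τ ∈ Γ₀, f (σ * τ) = f σ + 𝔡(σ) / 𝔞(σ) * f τ) →
      (∀ g ∈ N, f g = 0) → ∃ x : k, ∀ σ ∈ Γ₀, f σ = (𝔡(σ) / 𝔞(σ) - 1) * x)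
    (hΔβ : ∀ f : Γ → k, (∀ σ ∈ Γ₀, ∀ τ ∈ Γ₀, f (σ * τ) = f σ + 𝔞(σ) / 𝔡(σ) * f τ) →
      (∀ g ∈ N, f g = 0) → ∃ y : k, ∀ σ ∈ Γ₀, f σ = (𝔞(σ) / 𝔡(σ) - 1) * y)
    (Hγ : Submodule k (N → k)) [Module.Finite k Hγ]
    (hC : C ≤ Z1 r)
    (Fγ : ∀ c ∈ C, c ∉ B1 r → (fun g : N => c g 1 0) ∈ Hγ)
    (hα : ∀ c ∈ C, c ∉ B1 r → ∀ g : N, c g 0 0 = 0) :
    Module.Finite k (↥C ⧸ (B1 r).comap C.subtype) ∧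
      finrank k (↥C ⧸ (B1 r).comap C.subtype) ≤ finrank k Hγ :=
  finrank_induced r Γ₀ N F C hdiag0 hdiag1 hF0 hF1 hNΓ hN0 hN1 hFN hidx hnorm hne h2 hΔ0 hΔγ hΔβ
    Hγ ⊥ hC Fγ
    (fun c hc hcB => (Submodule.mem_bot k).mpr (funext fun g => hα c hc hcB g))
    (fun φ hφ g => by
      rw [(Submodule.mem_bot k).mp hφ]
      rfl)

/-- **Shape (I), form (hα)**, with the hypothesis spelled `∀ g ∈ N`. -/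
theorem finrank_induced_of_entry_zero'
    (hdiag0 : ∀ σ ∈ Γ₀, 𝔟(σ) = 0) (hdiag1 : ∀ σ ∈ Γ₀, 𝔠(σ) = 0)
    (hF0 : 𝔞(F) = 0) (hF1 : 𝔡(F) = 0) (hNΓ : N ≤ Γ₀)
    (hN0 : ∀ g ∈ N, 𝔞(g) = 1) (hN1 : ∀ g ∈ N, 𝔡(g) = 1)
    (hFN : ∀ g ∈ N, F * g * F⁻¹ ∈ N)
    (hidx : ∀ σ, σ ∈ Γ₀ ∨ F⁻¹ * σ ∈ Γ₀) (hnorm : ∀ σ ∈ Γ₀, F⁻¹ * σ * F ∈ Γ₀)
    (hne : ∃ σ ∈ Γ₀, 𝔞(σ) ≠ 𝔡(σ)) (h2 : (2 : k) ≠ 0)
    (hΔ0 : ∀ f : Γ → k, (∀ σ ∈ Γ₀, ∀ τ ∈ Γ₀, f (σ * τ) = f σ + f τ) → (∀ g ∈ N, f g = 0) →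
      ∀ σ ∈ Γ₀, f σ = 0)
    (hΔγ : ∀ f : Γ → k, (∀ σ ∈ Γ₀, ∀ τ ∈ Γ₀, f (σ * τ) = f σ + 𝔡(σ) / 𝔞(σ) * f τ) →
      (∀ g ∈ N, f g = 0) → ∃ x : k, ∀ σ ∈ Γ₀, f σ = (𝔡(σ) / 𝔞(σ) - 1) * x)
    (hΔβ : ∀ f : Γ → k, (∀ σ ∈ Γ₀, ∀ τ ∈ Γ₀, f (σ * τ) = f σ + 𝔞(σ) / 𝔡(σ) * f τ) →
      (∀ g ∈ N, f g = 0) → ∃ y : k, ∀ σ ∈ Γ₀, f σ = (𝔞(σ) / 𝔡(σ) - 1) * y)
    (Hγ : Submodule k (N → k)) [Module.Finite k Hγ]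
    (hC : C ≤ Z1 r)
    (Fγ : ∀ c ∈ C, c ∉ B1 r → (fun g : N => c g 1 0) ∈ Hγ)
    (hα : ∀ c ∈ C, c ∉ B1 r → ∀ g ∈ N, c g 0 0 = 0) :
    Module.Finite k (↥C ⧸ (B1 r).comap C.subtype) ∧
      finrank k (↥C ⧸ (B1 r).comap C.subtype) ≤ finrank k Hγ :=
  finrank_induced_of_entry_zero r Γ₀ N F C hdiag0 hdiag1 hF0 hF1 hNΓ hN0 hN1 hFN hidx hnorm hne h2
    hΔ0 hΔγ hΔβ Hγ hC Fγ (fun c hc hcB g => hα c hc hcB g g.2)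

/-- **Shape (I), form (hF').**  As `ThreeStep.finrank_induced`, with the hypothesis on `Hα`
replaced by: a function of `Hα` which changes sign under conjugation by `F` is zero. -/
theorem finrank_induced_of_anti
    (hdiag0 : ∀ σ ∈ Γ₀, 𝔟(σ) = 0) (hdiag1 : ∀ σ ∈ Γ₀, 𝔠(σ) = 0)
    (hF0 : 𝔞(F) = 0) (hF1 : 𝔡(F) = 0) (hNΓ : N ≤ Γ₀)
    (hN0 : ∀ g ∈ N, 𝔞(g) = 1) (hN1 : ∀ g ∈ N, 𝔡(g) = 1)
    (hFN : ∀ g ∈ N, F * g * F⁻¹ ∈ N)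
    (hidx : ∀ σ, σ ∈ Γ₀ ∨ F⁻¹ * σ ∈ Γ₀) (hnorm : ∀ σ ∈ Γ₀, F⁻¹ * σ * F ∈ Γ₀)
    (hne : ∃ σ ∈ Γ₀, 𝔞(σ) ≠ 𝔡(σ)) (h2 : (2 : k) ≠ 0)
    (hΔ0 : ∀ f : Γ → k, (∀ σ ∈ Γ₀, ∀ τ ∈ Γ₀, f (σ * τ) = f σ + f τ) → (∀ g ∈ N, f g = 0) →
      ∀ σ ∈ Γ₀, f σ = 0)
    (hΔγ : ∀ f : Γ → k, (∀ σ ∈ Γ₀, ∀ τ ∈ Γ₀, f (σ * τ) = f σ + 𝔡(σ) / 𝔞(σ) * f τ) →
      (∀ g ∈ N, f g = 0) → ∃ x : k, ∀ σ ∈ Γ₀, f σ = (𝔡(σ) / 𝔞(σ) - 1) * x)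
    (hΔβ : ∀ f : Γ → k, (∀ σ ∈ Γ₀, ∀ τ ∈ Γ₀, f (σ * τ) = f σ + 𝔞(σ) / 𝔡(σ) * f τ) →
      (∀ g ∈ N, f g = 0) → ∃ y : k, ∀ σ ∈ Γ₀, f σ = (𝔞(σ) / 𝔡(σ) - 1) * y)
    (Hγ Hα : Submodule k (N → k)) [Module.Finite k Hγ]
    (hC : C ≤ Z1 r)
    (Fγ : ∀ c ∈ C, c ∉ B1 r → (fun g : N => c g 1 0) ∈ Hγ)
    (Fα : ∀ c ∈ C, c ∉ B1 r → (fun g : N => c g 0 0) ∈ Hα)
    (hanti : ∀ φ ∈ Hα, (∀ g : N, φ ⟨F * g * F⁻¹, hFN g g.2⟩ = -φ g) → φ = 0) :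
    Module.Finite k (↥C ⧸ (B1 r).comap C.subtype) ∧
      finrank k (↥C ⧸ (B1 r).comap C.subtype) ≤ finrank k Hγ := by
  refine finrank_induced_of_entry_zero r Γ₀ N F C hdiag0 hdiag1 hF0 hF1 hNΓ hN0 hN1 hFN hidx hnorm
    hne h2 hΔ0 hΔγ hΔβ Hγ hC Fγ (fun c hc hcB g => ?_)
  have h0 := hanti _ (Fα c hc hcB) (fun g' => by
    show c (F * (g' : Γ) * F⁻¹) 0 0 = -c (g' : Γ) 0 0
    exact Z1_conj_00_anti r (hC hc) hF0 hF1 (hN0 g' g'.2) (hdiag0 g' (hNΓ g'.2))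
      (hdiag1 g' (hNΓ g'.2)) (hN1 g' g'.2))
  exact congrFun h0 g

end Induced

end Fermat.Agent.S56.LF.ThreeStepFixB
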