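import Mathlib
import Fermat.Agent.S56.Flat.Top
import Fermat.Agent.S56.Flat.LocalBricks
import Fermat.Agent.S56.LF.TopTri
import Fermat.Agent.S56.LF.ThreeStepFixB
import Fermat.Agent.S56.LF.CocDict
import Fermat.Agent.S56.LF.EtaClassLI
import Fermat.Agent.S56.LF.TriCount

/-!
# S56, brick LF: the induced case `TIStatement`, up to two seams

(helper243.)  `r : Gal(ℚ̄_p/ℚ_p) → GL₂(k)` is diagonal on `G_{F0}` (`F0` the unramified quadratic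
extension), antidiagonal outside, and an inertial element has two distinct diagonal entries.

* `ind_*` : elementary facts on such `r` (the index two property follows from the shape).
* `lfTop_induced_of` (layer A): the bound of `LFBound` from a field `K` killing the diagonal
  characters, the count `dim HSpace p k F0 K ζ _ (χ₂/χ₁) ≤ 1` and the vanishing on `G_K` of the
  upper left entry of the flat classes (`ThreeStepFixB.finrank_induced_of_entry_zero'`).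
* `TransportSeam`, `GammaCountSeam` : the two inputs still proved elsewhere (inertia acts on `K`
  through the powers of `τ0`; the count for `χ₂/χ₁` from `CntFinStatement`).
* `ti_of_seams : LIStatement → LevelStatement → TransportSeam → GammaCountSeam → TIStatement`.
-/

set_option autoImplicit false

noncomputable section

namespace Fermat.Agent.S56.LF.TopInduced

open Matrix Module Fermat.Agent.S56.Flat Fermat.Agent.S56.LF.FlatKummer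
open Fermat.Agent.S56.LF.ThreeStep Fermat.Agent.S56.LF.CocDict
open Fermat.Agent.CFT.Local.UnramPadic

/-! ### Elementary facts -/

section Generic

variable {Γ : Type*} [Group Γ] {k : Type*} [Field k] (r : Γ →* Matrix (Fin 2) (Fin 2) k)

theorem ind_mul_apply (A B : Matrix (Fin 2) (Fin 2) k) (i j : Fin 2) :
    (A * B) i j = A i 0 * B 0 j + A i 1 * B 1 j := by
  rw [Matrix.mul_apply, Fin.sum_univ_two]

theorem ind_r_mul_apply (σ τ : Γ) (i j : Fin 2) :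
    r (σ * τ) i j = r σ i 0 * r τ 0 j + r σ i 1 * r τ 1 j := by
  rw [map_mul, Matrix.mul_apply, Fin.sum_univ_two]

theorem ind_r_mul_inv (σ : Γ) : r σ * r σ⁻¹ = 1 := by
  rw [← map_mul, mul_inv_cancel, map_one]

theorem ind_a_ne_zero {σ : Γ} (h01 : r σ 0 1 = 0) : r σ 0 0 ≠ 0 := by
  intro h
  have h1 : (r σ * r σ⁻¹) 0 0 = 1 := by rw [ind_r_mul_inv r σ, Matrix.one_apply_eq]
  rw [ind_mul_apply, h, h01, zero_mul, zero_mul, add_zero] at h1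
  exact zero_ne_one h1

theorem ind_d_ne_zero {σ : Γ} (h10 : r σ 1 0 = 0) : r σ 1 1 ≠ 0 := by
  intro h
  have h1 : (r σ * r σ⁻¹) 1 1 = 1 := by rw [ind_r_mul_inv r σ, Matrix.one_apply_eq]
  rw [ind_mul_apply, h, h10, zero_mul, zero_mul, add_zero] at h1
  exact zero_ne_one h1

theorem ind_b_ne_zero {σ : Γ} (h00 : r σ 0 0 = 0) : r σ 0 1 ≠ 0 := by
  intro h
  have h1 : (r σ * r σ⁻¹) 0 0 = 1 := by rw [ind_r_mul_inv r σ, Matrix.one_apply_eq]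
  rw [ind_mul_apply, h, h00, zero_mul, zero_mul, add_zero] at h1
  exact zero_ne_one h1

theorem ind_c_ne_zero {σ : Γ} (h11 : r σ 1 1 = 0) : r σ 1 0 ≠ 0 := by
  intro h
  have h1 : (r σ * r σ⁻¹) 1 1 = 1 := by rw [ind_r_mul_inv r σ, Matrix.one_apply_eq]
  rw [ind_mul_apply, h, h11, zero_mul, zero_mul, add_zero] at h1
  exact zero_ne_one h1

theorem ind_diag_mul_00 {σ : Γ} (h01 : r σ 0 1 = 0) (τ : Γ) :
    r (σ * τ) 0 0 = r σ 0 0 * r τ 0 0 := by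
  rw [ind_r_mul_apply, h01, zero_mul, add_zero]

theorem ind_diag_mul_11 {σ : Γ} (h10 : r σ 1 0 = 0) (τ : Γ) :
    r (σ * τ) 1 1 = r σ 1 1 * r τ 1 1 := by
  rw [ind_r_mul_apply, h10, zero_mul, zero_add]

theorem ind_diag_pow_00 {σ : Γ} (h01 : r σ 0 1 = 0) (n : ℕ) : r (σ ^ n) 0 0 = r σ 0 0 ^ n := by
  induction n with
  | zero => simp
  | succ n ih => rw [pow_succ' σ n, ind_diag_mul_00 r h01, ih, pow_succ' (r σ 0 0) n]

theorem ind_diag_pow_11 {σ : Γ} (h10 : r σ 1 0 = 0) (n : ℕ) : r (σ ^ n) 1 1 = r σ 1 1 ^ n := by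
  induction n with
  | zero => simp
  | succ n ih => rw [pow_succ' σ n, ind_diag_mul_11 r h10, ih, pow_succ' (r σ 1 1) n]

/-- The product of two elements outside `Γ₀` lies in `Γ₀` (`r` antidiagonal outside `Γ₀`). -/
theorem ind_mul_mem_of_not_mem (Γ₀ : Subgroup Γ)
    (hanti : ∀ σ : Γ, σ ∉ Γ₀ → r σ 0 0 = 0 ∧ r σ 1 1 = 0) {σ τ : Γ}
    (hσ : σ ∉ Γ₀) (hτ : τ ∉ Γ₀) : σ * τ ∈ Γ₀ := by
  by_contra hn
  obtain ⟨h00, -⟩ := hanti _ hn
  obtain ⟨hs0, -⟩ := hanti σ hσ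
  obtain ⟨-, ht1⟩ := hanti τ hτ
  have h01 : r (σ * τ) 0 1 = 0 := by
    rw [ind_r_mul_apply, hs0, ht1, zero_mul, mul_zero, add_zero]
  exact ind_a_ne_zero r h01 h00

/-- Conjugation by an antidiagonal element swaps the two diagonal entries. -/
theorem ind_swap_conj {F : Γ} (hF0 : r F 0 0 = 0) (hF1 : r F 1 1 = 0) (σ : Γ) :
    r (F * σ * F⁻¹) 0 0 = r σ 1 1 ∧ r (F * σ * F⁻¹) 1 1 = r σ 0 0 := by
  have hb : r F 0 1 ≠ 0 := ind_b_ne_zero r hF0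
  have hc : r F 1 0 ≠ 0 := ind_c_ne_zero r hF1
  have e : r (F * σ * F⁻¹) * r F = r F * r σ := by
    rw [← map_mul r, ← map_mul r, inv_mul_cancel_right]
  have e01 := congrFun (congrFun e 0) 1
  have e10 := congrFun (congrFun e 1) 0
  rw [ind_mul_apply, ind_mul_apply, hF1, hF0, mul_zero, add_zero, zero_mul, zero_add] at e01
  rw [ind_mul_apply, ind_mul_apply, hF0, hF1, mul_zero, zero_add, zero_mul, add_zero] at e10
  exact ⟨mul_right_cancel₀ hb (e01.trans (mul_comm _ _)),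
    mul_right_cancel₀ hc (e10.trans (mul_comm _ _))⟩

open Classical in
/-- The unit with value `x` (`1` if `x = 0`). -/
def entryU (x : k) : kˣ := if h : x = 0 then 1 else Units.mk0 x h

theorem entryU_val {x : k} (h : x ≠ 0) : ((entryU x : kˣ) : k) = x := by
  simp [entryU, h]

theorem entryU_mul {x y : k} (hx : x ≠ 0) (hy : y ≠ 0) :
    entryU (x * y) = entryU x * entryU y := by
  apply Units.ext
  rw [Units.val_mul, entryU_val (mul_ne_zero hx hy), entryU_val hx, entryU_val hy]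

theorem entryU_one : entryU (1 : k) = 1 := by
  apply Units.ext
  rw [entryU_val one_ne_zero, Units.val_one]

end Generic

section Local

variable {p : ℕ} [Fact p.Prime] {k : Type} [Field k]

/-- The unramified quadratic extension of `ℚ_p`. -/
abbrev F2 (p : ℕ) [Fact p.Prime] : IntermediateField ℚ_[p] (PadicAlgCl p) :=
  unram (⊥ : IntermediateField ℚ_[p] (PadicAlgCl p)) 2

/-- The stabiliser of a `Gal`-stable field is stable under conjugation. -/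
theorem ind_conj_mem_fixingSubgroup (K : IntermediateField ℚ_[p] (PadicAlgCl p))
    (hstab : ∀ σ : Gp p, ∀ x ∈ K, σ x ∈ K) (σ g : Gp p) (hg : g ∈ K.fixingSubgroup) :
    σ * g * σ⁻¹ ∈ K.fixingSubgroup := by
  rw [IntermediateField.mem_fixingSubgroup_iff] at hg ⊢
  intro x hx
  have h1 : σ⁻¹ x ∈ K := hstab σ⁻¹ x hx
  show σ (g (σ⁻¹ x)) = x
  rw [hg _ h1]
  show (σ * σ⁻¹) x = x
  rw [mul_inv_cancel]
  rfl

/-! ### Layer A: the three-step argument -/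

/-- **LF-top for `r` diagonal on `G_{F0}` and antidiagonal outside, up to the count.**  `K ∋ ζ_p`
is a finite `Gal`-stable extension of `F0` on whose Galois group the diagonal characters of `r`
are trivial, with `σ ^ n0 ∈ G_K` for all `σ` and `n0` prime to `p`; `χ = χ₂/χ₁` on `G_{F0}`;
`HSpace p k F0 K ζ _ χ` is finite-dimensional of dimension `≤ 1`; the upper left entry of the
cocycle of every non-inner element of `Cs` vanishes on `G_K`. -/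
theorem lfTop_induced_of (hLev : LevelStatement) (hp2 : p ≠ 2) [CharP k p]
    (r : Gp p →* Matrix (Fin 2) (Fin 2) k)
    (F0 K : IntermediateField ℚ_[p] (PadicAlgCl p)) [FiniteDimensional ℚ_[p] K]
    (hdiag : ∀ σ ∈ F0.fixingSubgroup, r σ 1 0 = 0 ∧ r σ 0 1 = 0)
    (hanti : ∀ σ : Gp p, σ ∉ F0.fixingSubgroup → r σ 0 0 = 0 ∧ r σ 1 1 = 0)
    (hne : ∃ σ ∈ F0.fixingSubgroup, r σ 0 0 ≠ r σ 1 1)
    (F : Gp p) (hF : F ∉ F0.fixingSubgroup)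
    (Cs : Submodule k (Gp p → Matrix (Fin 2) (Fin 2) k))
    (hder : ∀ d ∈ Cs, ∀ σ τ : Gp p, d (σ * τ) = d σ * r τ + r σ * d τ)
    (htr : ∀ d ∈ Cs, ∀ σ : Gp p, (d σ * r σ⁻¹).trace = 0)
    (hflat : ∀ d ∈ Cs, d ∉ Inn (p := p) r →
      FlatLocal p ((Fin 2 → k) × (Fin 2 → k)) (liftAct r d))
    (hKF : ∀ g ∈ K.fixingSubgroup, g ∈ F0.fixingSubgroup)
    (hKst : ∀ σ : Gp p, ∀ x ∈ K, σ x ∈ K)
    (ζ : PadicAlgCl p) (hζ : IsPrimitiveRoot ζ p) (hζK : ζ ∈ K)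
    (hK0 : ∀ g ∈ K.fixingSubgroup, r g 0 0 = 1) (hK1 : ∀ g ∈ K.fixingSubgroup, r g 1 1 = 1)
    (n0 : ℕ) (hn0 : (n0 : k) ≠ 0) (hpow : ∀ σ : Gp p, σ ^ n0 ∈ K.fixingSubgroup)
    (χ : Gp p → k) (hχ : ∀ σ ∈ F0.fixingSubgroup, χ σ = r σ 1 1 / r σ 0 0)
    [Module.Finite k (HSpace p k F0 K ζ hζ.pow_eq_one χ)]
    (hγ1 : finrank k (HSpace p k F0 K ζ hζ.pow_eq_one χ) ≤ 1)
    (hα : ∀ d ∈ Cs, d ∉ Inn (p := p) r → ∀ g ∈ K.fixingSubgroup, (d g * r g⁻¹) 0 0 = 0) :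
    finrank k (↥Cs ⧸ (Inn (p := p) r).comap Cs.subtype) ≤ 1 + finrank k (Comm0 (p := p) r) := by
  classical
  have h2 : (2 : k) ≠ 0 := by
    intro h
    have h' : ((2 : ℕ) : k) = 0 := by exact_mod_cast h
    have hdvd := (CharP.cast_eq_zero_iff k p 2).mp h'
    have hp : p.Prime := Fact.out
    exact hp2 ((Nat.prime_dvd_prime_iff_eq hp Nat.prime_two).mp hdvd)
  -- the shape
  have h10 : ∀ σ ∈ F0.fixingSubgroup, r σ 1 0 = 0 := fun σ hσ => (hdiag σ hσ).1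
  have h01 : ∀ σ ∈ F0.fixingSubgroup, r σ 0 1 = 0 := fun σ hσ => (hdiag σ hσ).2
  have ha_mul : ∀ σ ∈ F0.fixingSubgroup, ∀ τ : Gp p, r (σ * τ) 0 0 = r σ 0 0 * r τ 0 0 :=
    fun σ hσ τ => ind_diag_mul_00 r (h01 σ hσ) τ
  have hd_mul : ∀ σ ∈ F0.fixingSubgroup, ∀ τ : Gp p, r (σ * τ) 1 1 = r σ 1 1 * r τ 1 1 :=
    fun σ hσ τ => ind_diag_mul_11 r (h10 σ hσ) τ
  have hFinv : F⁻¹ ∉ F0.fixingSubgroup := fun h => hF (by
    have h' := (F0.fixingSubgroup).inv_mem h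
    rwa [inv_inv] at h')
  have hidx : ∀ σ : Gp p, σ ∈ F0.fixingSubgroup ∨ F⁻¹ * σ ∈ F0.fixingSubgroup := by
    intro σ
    by_cases hσ : σ ∈ F0.fixingSubgroup
    · exact Or.inl hσ
    · exact Or.inr (ind_mul_mem_of_not_mem r F0.fixingSubgroup hanti hFinv hσ)
  have hnorm : ∀ σ ∈ F0.fixingSubgroup, F⁻¹ * σ * F ∈ F0.fixingSubgroup := by
    intro σ hσ
    refine ind_mul_mem_of_not_mem r F0.fixingSubgroup hanti (fun h => hFinv ?_) hF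
    have h3 := (F0.fixingSubgroup).mul_mem h ((F0.fixingSubgroup).inv_mem hσ)
    rwa [mul_assoc, mul_inv_cancel, mul_one] at h3
  -- notation
  set R : Gp p →* GL (Fin 2) k := rGL r with hR
  set C : Submodule k (Gp p → Matrix (Fin 2) (Fin 2) k) :=
    Cs.map ((toCoc r : _ ≃ₗ[k] _) : _ →ₗ[k] _) with hC
  have hCZ : C ≤ Z1 R := by
    rintro _ ⟨d, hd, rfl⟩
    exact toCoc_mem_Z1 r (hder d hd) (htr d hd)
  -- the two characters of the three-step argument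
  let χγ : Gp p → k := fun σ => r σ 1 1 / r σ 0 0
  let χβ : Gp p → k := fun σ => r σ 0 0 / r σ 1 1
  have hχγ : ∀ σ ∈ F0.fixingSubgroup, ∀ τ ∈ F0.fixingSubgroup, χγ (σ * τ) = χγ σ * χγ τ := by
    intro σ hσ τ _
    show r (σ * τ) 1 1 / r (σ * τ) 0 0 = r σ 1 1 / r σ 0 0 * (r τ 1 1 / r τ 0 0)
    rw [ha_mul σ hσ, hd_mul σ hσ, mul_div_mul_comm]
  have hχβ : ∀ σ ∈ F0.fixingSubgroup, ∀ τ ∈ F0.fixingSubgroup, χβ (σ * τ) = χβ σ * χβ τ := by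
    intro σ hσ τ _
    show r (σ * τ) 0 0 / r (σ * τ) 1 1 = r σ 0 0 / r σ 1 1 * (r τ 0 0 / r τ 1 1)
    rw [ha_mul σ hσ, hd_mul σ hσ, mul_div_mul_comm]
  have hχγN : ∀ g ∈ K.fixingSubgroup, χγ g = 1 := fun g hg => by
    show r g 1 1 / r g 0 0 = 1
    rw [hK0 g hg, hK1 g hg, div_one]
  have hχβN : ∀ g ∈ K.fixingSubgroup, χβ g = 1 := fun g hg => by
    show r g 0 0 / r g 1 1 = 1
    rw [hK0 g hg, hK1 g hg, div_one]
  have hpow' : ∀ σ ∈ F0.fixingSubgroup, σ ^ n0 ∈ K.fixingSubgroup := fun σ _ => hpow σ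
  -- the `Δ`-inputs
  have hΔ0 : ∀ f : Gp p → k,
      (∀ σ ∈ F0.fixingSubgroup, ∀ τ ∈ F0.fixingSubgroup, f (σ * τ) = f σ + f τ) →
      (∀ g ∈ K.fixingSubgroup, f g = 0) → ∀ σ ∈ F0.fixingSubgroup, f σ = 0 := fun f hf hfN =>
    add_eq_zero_of_pow_on F0.fixingSubgroup K.fixingSubgroup n0 hn0 hpow' f hf hfN
  have hΔγ : ∀ f : Gp p → k,
      (∀ σ ∈ F0.fixingSubgroup, ∀ τ ∈ F0.fixingSubgroup,
        f (σ * τ) = f σ + (R σ : Matrix (Fin 2) (Fin 2) k) 1 1 /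
          (R σ : Matrix (Fin 2) (Fin 2) k) 0 0 * f τ) →
      (∀ g ∈ K.fixingSubgroup, f g = 0) →
      ∃ x : k, ∀ σ ∈ F0.fixingSubgroup, f σ = ((R σ : Matrix (Fin 2) (Fin 2) k) 1 1 /
        (R σ : Matrix (Fin 2) (Fin 2) k) 0 0 - 1) * x := fun f hf hfN =>
    twisted_coboundary_of_pow_on F0.fixingSubgroup K.fixingSubgroup n0 hn0 hpow' χγ f hχγ hχγN
      hf hfN
  have hΔβ : ∀ f : Gp p → k,
      (∀ σ ∈ F0.fixingSubgroup, ∀ τ ∈ F0.fixingSubgroup,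
        f (σ * τ) = f σ + (R σ : Matrix (Fin 2) (Fin 2) k) 0 0 /
          (R σ : Matrix (Fin 2) (Fin 2) k) 1 1 * f τ) →
      (∀ g ∈ K.fixingSubgroup, f g = 0) →
      ∃ y : k, ∀ σ ∈ F0.fixingSubgroup, f σ = ((R σ : Matrix (Fin 2) (Fin 2) k) 0 0 /
        (R σ : Matrix (Fin 2) (Fin 2) k) 1 1 - 1) * y := fun f hf hfN =>
    twisted_coboundary_of_pow_on F0.fixingSubgroup K.fixingSubgroup n0 hn0 hpow' χβ f hχβ hχβN
      hf hfN
  -- the character `χ`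
  have hχmul : ∀ σ ∈ F0.fixingSubgroup, ∀ τ ∈ F0.fixingSubgroup, χ (σ * τ) = χ σ * χ τ := by
    intro σ hσ τ hτ
    rw [hχ _ ((F0.fixingSubgroup).mul_mem hσ hτ), hχ σ hσ, hχ τ hτ, ha_mul σ hσ, hd_mul σ hσ,
      mul_div_mul_comm]
  have hχK : ∀ g ∈ K.fixingSubgroup, χ g = 1 := fun g hg => by
    rw [hχ g (hKF g hg), hK0 g hg, hK1 g hg, div_one]
  -- the two inputs on the cocycles
  have Fγ : ∀ c ∈ C, c ∉ B1 R →
      (fun g : K.fixingSubgroup => c g 1 0) ∈ HSpace p k F0 K ζ hζ.pow_eq_one χ := by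
    rintro _ ⟨d, hd, rfl⟩ hcB
    have hdinn : d ∉ Inn (p := p) r := fun h => hcB ((mem_inn_iff_toCoc_mem_B1 r h2 d).mp h)
    have hcZ : toCoc r d ∈ Z1 R := toCoc_mem_Z1 r (hder d hd) (htr d hd)
    exact TopTri.twisted_mem_HSpace_on r hLev hp2 d (hflat d hd hdinn) F0 K hKF ζ hζ hζK χ
      (fun σ => toCoc r d σ 1 0) hχmul hχK
      (fun σ hσ τ _ => by
        have e2 : ad R σ (toCoc r d τ) 1 0 = r σ 1 1 / r σ 0 0 * toCoc r d τ 1 0 :=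
          (ad_entries_diag R (h10 σ hσ) (h01 σ hσ) (toCoc r d τ)).1
        show toCoc r d (σ * τ) 1 0 = toCoc r d σ 1 0 + χ σ * toCoc r d τ 1 0
        rw [hcZ.2 σ τ, Matrix.add_apply, e2, hχ σ hσ])
      (fun g _ hg => by
        show (d g * r g⁻¹) 1 0 = 0
        rw [d_eq_zero_of_liftAct r d g hg, Matrix.zero_mul]
        rfl)
  have hα' : ∀ c ∈ C, c ∉ B1 R → ∀ g ∈ K.fixingSubgroup, c g 0 0 = 0 := by
    rintro _ ⟨d, hd, rfl⟩ hcB g hg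
    have hdinn : d ∉ Inn (p := p) r := fun h => hcB ((mem_inn_iff_toCoc_mem_B1 r h2 d).mp h)
    exact hα d hd hdinn g hg
  -- the three-step argument
  obtain ⟨-, hfin⟩ := ThreeStepFixB.finrank_induced_of_entry_zero' R F0.fixingSubgroup
    K.fixingSubgroup F C h01 h10 (hanti F hF).1 (hanti F hF).2 hKF hK0 hK1
    (fun g hg => ind_conj_mem_fixingSubgroup K hKst F g hg) hidx hnorm hne h2 hΔ0 hΔγ hΔβ
    (HSpace p k F0 K ζ hζ.pow_eq_one χ) hCZ Fγ hα'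
  rw [finrank_quot_eq r h2 Cs]
  exact (hfin.trans hγ1).trans (Nat.le_add_right 1 _)

/-! ### The two seams -/

/-- **Seam (transport).**  For a finite `Gal`-stable `K` with uniformiser `ϖ`, `e = p² - 1`, of
exponent prime to `p`, and an inertial `τ0` with `τ0 ϖ = z ϖ`, `z` a primitive `(p² - 1)`-th root
of unity fixed by `τ0`: every inertial element acts on `K` as a power of `τ0`. -/
def TransportSeam : Prop :=
  ∀ (p : ℕ) [Fact p.Prime] (K : IntermediateField ℚ_[p] (PadicAlgCl p))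
    [FiniteDimensional ℚ_[p] K], (∀ σ : Gp p, ∀ x ∈ K, σ x ∈ K) →
    ∀ (ϖ z : PadicAlgCl p) (τ0 : Gp p) (n0 : ℕ), ϖ ∈ K → ‖ϖ‖ < 1 →
      (∀ x ∈ K, ‖x‖ < 1 → ‖x‖ ≤ ‖ϖ‖) →
      ‖ϖ‖ ^ ((p + 1) * (p - 1)) = ‖(p : PadicAlgCl p)‖ →
      z ∈ K → IsPrimitiveRoot z (p ^ 2 - 1) →
      IsInertial p τ0 → τ0 ϖ = z * ϖ → τ0 z = z →
      ¬ p ∣ n0 → (∀ σ : Gp p, σ ^ n0 ∈ K.fixingSubgroup) →
      ∀ τ : Gp p, IsInertial p τ → ∃ i : ℕ, (τ0 ^ i)⁻¹ * τ ∈ K.fixingSubgroup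

/-- **Seam (count).**  The count of `CntFinStatement` at `(F0, F0, K)` for the character
`χ = D / A` of `G_{F0}`, `A D = ω̄`, `D τ0 = A τ0 ^ p`, `A τ0 = D τ0 ^ p`, `A τ0 ≠ D τ0`: the
space `HSpace p k F0 K ζ _ χ` is finite-dimensional of dimension at most `1`. -/
def GammaCountSeam : Prop :=
  ∀ (p : ℕ) [Fact p.Prime], p ≠ 2 →
  ∀ (k : Type) [Field k] [Finite k] [CharP k p]
    (K : IntermediateField ℚ_[p] (PadicAlgCl p)) [FiniteDimensional ℚ_[p] K],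
    F2 p ≤ K → (∀ σ : Gp p, ∀ x ∈ K, σ x ∈ K) →
    ∀ (ζ : PadicAlgCl p) (hζ : IsPrimitiveRoot ζ p), ζ ∈ K →
    ∀ (ϖ z : PadicAlgCl p), ϖ ∈ K → ‖ϖ‖ < 1 → (∀ x ∈ K, ‖x‖ < 1 → ‖x‖ ≤ ‖ϖ‖) →
      ‖ϖ‖ ^ ((p + 1) * (p - 1)) = ‖(p : PadicAlgCl p)‖ →
      z ∈ F2 p → IsPrimitiveRoot z (p ^ 2 - 1) →
    ∀ (τ0 φ : Gp p), τ0 ∈ (F2 p).fixingSubgroup → IsInertial p τ0 → τ0 ϖ = z * ϖ →
      (∀ n : ℕ, τ0 ζ = ζ ^ n → ‖(n : PadicAlgCl p) - z ^ (p + 1)‖ < 1) →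
      φ ∈ (F2 p).fixingSubgroup → (∀ x ∈ K, ‖x‖ ≤ 1 → ‖φ x - x ^ (p ^ 2)‖ < 1) →
    ∀ (A D χ : Gp p → kˣ),
      (∀ σ ∈ (F2 p).fixingSubgroup, ∀ τ ∈ (F2 p).fixingSubgroup, A (σ * τ) = A σ * A τ) →
      (∀ σ ∈ (F2 p).fixingSubgroup, ∀ n : ℕ, σ ζ = ζ ^ n →
        ((A σ : kˣ) : k) * ((D σ : kˣ) : k) = n) →
      (∀ σ ∈ (F2 p).fixingSubgroup, χ σ * A σ = D σ) →
      ((D τ0 : kˣ) : k) = ((A τ0 : kˣ) : k) ^ p → ((A τ0 : kˣ) : k) = ((D τ0 : kˣ) : k) ^ p →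
      A τ0 ≠ D τ0 →
      Module.Finite k (HSpace p k (F2 p) K ζ hζ.pow_eq_one (fun σ => ((χ σ : kˣ) : k))) ∧
      Module.finrank k (HSpace p k (F2 p) K ζ hζ.pow_eq_one (fun σ => ((χ σ : kˣ) : k))) ≤ 1

/-! ### Layer B: the induced case from `LIStatement` and the two seams -/

/-- **`TIStatement` from `LIStatement`, `LevelStatement` and the two seams.** -/
theorem ti_of_seams (hLI : LIStatement) (hLev : LevelStatement) (hTr : TransportSeam)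
    (hCount : GammaCountSeam) : TIStatement := by
  intro p _ hp2 k _ _ _ r h hdiag hanti hne
  intro Cs hder htr _ hflat
  classical
  have hpp : p.Prime := Fact.out
  obtain ⟨ζ, hζ⟩ := exists_primitiveRoot (q := p) p hpp.ne_zero
  obtain ⟨K, hKfd, ϖ, z, τ0, φ, φ1, n0, hF0K, hζK, hKst, ⟨-, hn0, hpow⟩, hϖK, hϖ1, hϖmax, hϖp,
    hz, hzp, hτ0, hτ0I, hτ0ϖ, hω, hφ, hφK, -, hconj, hchar⟩ := hLI p hp2 k ζ hζ
  obtain ⟨F, hF⟩ := EtaClassLI.exists_not_mem_fixingSubgroup_unram_two (p := p)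
  obtain ⟨⟨L, hLfd, hL⟩, hdet, -⟩ := h
  have hKF : ∀ g ∈ K.fixingSubgroup, g ∈ (F2 p).fixingSubgroup := fun g hg =>
    IntermediateField.fixingSubgroup_le hF0K hg
  -- the shape on `G_{F0}`
  have h10 : ∀ σ ∈ (F2 p).fixingSubgroup, r σ 1 0 = 0 := fun σ hσ => (hdiag σ hσ).1
  have h01 : ∀ σ ∈ (F2 p).fixingSubgroup, r σ 0 1 = 0 := fun σ hσ => (hdiag σ hσ).2
  have ha_ne : ∀ σ ∈ (F2 p).fixingSubgroup, r σ 0 0 ≠ 0 := fun σ hσ =>
    ind_a_ne_zero r (h01 σ hσ)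
  have hd_ne : ∀ σ ∈ (F2 p).fixingSubgroup, r σ 1 1 ≠ 0 := fun σ hσ =>
    ind_d_ne_zero r (h10 σ hσ)
  have ha_mul : ∀ σ ∈ (F2 p).fixingSubgroup, ∀ τ : Gp p, r (σ * τ) 0 0 = r σ 0 0 * r τ 0 0 :=
    fun σ hσ τ => ind_diag_mul_00 r (h01 σ hσ) τ
  have hd_mul : ∀ σ ∈ (F2 p).fixingSubgroup, ∀ τ : Gp p, r (σ * τ) 1 1 = r σ 1 1 * r τ 1 1 :=
    fun σ hσ τ => ind_diag_mul_11 r (h10 σ hσ) τ
  -- the two diagonal characters
  let A : Gp p → kˣ := fun σ => entryU (r σ 0 0)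
  let D : Gp p → kˣ := fun σ => entryU (r σ 1 1)
  have hAval : ∀ σ ∈ (F2 p).fixingSubgroup, ((A σ : kˣ) : k) = r σ 0 0 := fun σ hσ =>
    entryU_val (ha_ne σ hσ)
  have hDval : ∀ σ ∈ (F2 p).fixingSubgroup, ((D σ : kˣ) : k) = r σ 1 1 := fun σ hσ =>
    entryU_val (hd_ne σ hσ)
  have hAmul : ∀ σ ∈ (F2 p).fixingSubgroup, ∀ τ ∈ (F2 p).fixingSubgroup,
      A (σ * τ) = A σ * A τ := by
    intro σ hσ τ hτ
    show entryU (r (σ * τ) 0 0) = entryU (r σ 0 0) * entryU (r τ 0 0)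
    rw [ha_mul σ hσ τ]
    exact entryU_mul (ha_ne σ hσ) (ha_ne τ hτ)
  have hDmul : ∀ σ ∈ (F2 p).fixingSubgroup, ∀ τ ∈ (F2 p).fixingSubgroup,
      D (σ * τ) = D σ * D τ := by
    intro σ hσ τ hτ
    show entryU (r (σ * τ) 1 1) = entryU (r σ 1 1) * entryU (r τ 1 1)
    rw [hd_mul σ hσ τ]
    exact entryU_mul (hd_ne σ hσ) (hd_ne τ hτ)
  have hAlev : ∃ L : IntermediateField ℚ_[p] (PadicAlgCl p), FiniteDimensional ℚ_[p] L ∧
      ∀ σ ∈ (F2 p).fixingSubgroup, (∀ x ∈ L, σ x = x) → A σ = 1 :=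
    ⟨L, hLfd, fun σ _ hσL => by
      show entryU (r σ 0 0) = 1
      rw [hL σ hσL, Matrix.one_apply_eq]
      exact entryU_one⟩
  have hDlev : ∃ L : IntermediateField ℚ_[p] (PadicAlgCl p), FiniteDimensional ℚ_[p] L ∧
      ∀ σ ∈ (F2 p).fixingSubgroup, (∀ x ∈ L, σ x = x) → D σ = 1 :=
    ⟨L, hLfd, fun σ _ hσL => by
      show entryU (r σ 1 1) = 1
      rw [hL σ hσL, Matrix.one_apply_eq]
      exact entryU_one⟩
  obtain ⟨hAK, -⟩ := hchar A hAmul hAlev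
  obtain ⟨hDK, -⟩ := hchar D hDmul hDlev
  have hK0 : ∀ g ∈ K.fixingSubgroup, r g 0 0 = 1 := fun g hg => by
    have h1 := congrArg Units.val (hAK g hg)
    rwa [hAval g (hKF g hg), Units.val_one] at h1
  have hK1 : ∀ g ∈ K.fixingSubgroup, r g 1 1 = 1 := fun g hg => by
    have h1 := congrArg Units.val (hDK g hg)
    rwa [hDval g (hKF g hg), Units.val_one] at h1
  -- the tame generator has two distinct diagonal entries
  have hτ0z : τ0 z = z := by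
    have h1 := hτ0
    rw [IntermediateField.mem_fixingSubgroup_iff] at h1
    exact h1 z hz
  have hs_ne : r τ0 0 0 ≠ r τ0 1 1 := by
    intro hss
    obtain ⟨τ, hτI, hτne⟩ := hne
    obtain ⟨i, hi⟩ := hTr p K hKst ϖ z τ0 n0 hϖK hϖ1 hϖmax hϖp (hF0K hz) hzp hτ0I hτ0ϖ hτ0z hn0
      hpow τ hτI
    have hτ0i : τ0 ^ i ∈ (F2 p).fixingSubgroup := Subgroup.pow_mem _ hτ0 i
    have e0 : r (τ0 ^ i * ((τ0 ^ i)⁻¹ * τ)) 0 0 = r τ0 0 0 ^ i := by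
      rw [ha_mul _ hτ0i, hK0 _ hi, mul_one, ind_diag_pow_00 r (h01 τ0 hτ0)]
    have e1 : r (τ0 ^ i * ((τ0 ^ i)⁻¹ * τ)) 1 1 = r τ0 1 1 ^ i := by
      rw [hd_mul _ hτ0i, hK1 _ hi, mul_one, ind_diag_pow_11 r (h10 τ0 hτ0)]
    rw [mul_inv_cancel_left] at e0 e1
    exact hτne (e0.trans ((congrArg (fun t => t ^ i) hss).trans e1.symm))
  -- conjugation by `F` turns `τ0` into `τ0 ^ p` on `K`
  have hτ0p : τ0 ^ p ∈ (F2 p).fixingSubgroup := Subgroup.pow_mem _ hτ0 p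
  have hg : (τ0 ^ p)⁻¹ * (F * τ0 * F⁻¹) ∈ K.fixingSubgroup := by
    rw [IntermediateField.mem_fixingSubgroup_iff]
    intro x hx
    show (τ0 ^ p)⁻¹ ((F * τ0 * F⁻¹) x) = x
    rw [hconj F hF x hx]
    show ((τ0 ^ p)⁻¹ * τ0 ^ p) x = x
    rw [inv_mul_cancel]
    rfl
  have hsw := ind_swap_conj r (hanti F hF).1 (hanti F hF).2 τ0
  have c0 : r (τ0 ^ p * ((τ0 ^ p)⁻¹ * (F * τ0 * F⁻¹))) 0 0 = r τ0 0 0 ^ p := by
    rw [ha_mul _ hτ0p, hK0 _ hg, mul_one, ind_diag_pow_00 r (h01 τ0 hτ0)]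
  have c1 : r (τ0 ^ p * ((τ0 ^ p)⁻¹ * (F * τ0 * F⁻¹))) 1 1 = r τ0 1 1 ^ p := by
    rw [hd_mul _ hτ0p, hK1 _ hg, mul_one, ind_diag_pow_11 r (h10 τ0 hτ0)]
  rw [mul_inv_cancel_left] at c0 c1
  have hs' : r τ0 1 1 = r τ0 0 0 ^ p := hsw.1.symm.trans c0
  have hs : r τ0 0 0 = r τ0 1 1 ^ p := hsw.2.symm.trans c1
  -- the determinant
  have hdetn : ∀ σ ∈ (F2 p).fixingSubgroup, ∀ n : ℕ, σ ζ = ζ ^ n →
      r σ 0 0 * r σ 1 1 = (n : k) := by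
    intro σ hσ n hn
    have h1 := hdet σ n (TriCount.map_root_of_pow_eq_one hζ hn)
    rw [Matrix.det_fin_two, h01 σ hσ, zero_mul, sub_zero] at h1
    exact h1
  -- the count
  let χu : Gp p → kˣ := fun σ => D σ / A σ
  have hcnt := hCount p hp2 k K hF0K hKst ζ hζ hζK ϖ z hϖK hϖ1 hϖmax hϖp hz hzp τ0 φ hτ0 hτ0I
    hτ0ϖ hω hφ hφK A D χu hAmul
    (fun σ hσ n hn => by
      rw [hAval σ hσ, hDval σ hσ]
      exact hdetn σ hσ n hn)
    (fun σ _ => div_mul_cancel (D σ) (A σ))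
    (by
      rw [hAval τ0 hτ0, hDval τ0 hτ0]
      exact hs')
    (by
      rw [hAval τ0 hτ0, hDval τ0 hτ0]
      exact hs)
    (fun hAD => hs_ne (by
      have h1 := congrArg Units.val hAD
      rwa [hAval τ0 hτ0, hDval τ0 hτ0] at h1))
  have hfinγ := hcnt.1
  -- the three-step argument
  exact lfTop_induced_of hLev hp2 r (F2 p) K hdiag hanti ⟨τ0, hτ0, hs_ne⟩ F hF Cs hder htr hflat
    hKF hKst ζ hζ hζK hK0 hK1 n0 (fun h0 => hn0 ((CharP.cast_eq_zero_iff k p n0).mp h0)) hpow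
    (fun σ => ((χu σ : kˣ) : k))
    (fun σ hσ => by
      show ((D σ / A σ : kˣ) : k) = r σ 1 1 / r σ 0 0
      rw [Units.val_div_eq_div_val, hAval σ hσ, hDval σ hσ])
    hcnt.2
    (fun d hd hdinn g hg => EtaClassLI.alpha_eq_zero_of_LIStatement hLI hLev hp2 r d (hder d hd)
      (htr d hd) (hflat d hd hdinn) hdiag hanti g (hKF g hg))

end Local

end Fermat.Agent.S56.LF.TopInduced
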