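import Mathlib
import Fermat.Agent.S56.LF.TopInduced
import Fermat.Agent.S56.LF.TameGen

/-!
# S56, brick LF: the induced case, the transport seam closed

(helper243.)  `transportSeam : TopInduced.TransportSeam` from `LF/TameGen.lean` (helper225), hence
`ti_of_count : LIStatement → LevelStatement → GammaCountSeam → TIStatement`.
-/

set_option autoImplicit false

namespace Fermat.Agent.S56.LF.TopInducedSeam

open Fermat.Agent.S56.Flat Fermat.Agent.S56.LF.FlatKummer Fermat.Agent.S56.LF.TopInduced

/-- The transport seam of `LF/TopInduced.lean`: every inertial element acts on the tame field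
`K` as a power of the tame generator `τ0`. -/
theorem transportSeam : TransportSeam := by
  intro p _ K _ hK ϖ z τ0 n0 hϖK hϖ1 hmax hnorm _ hz hτ0 hτ0ϖ hτ0z hn0 hpow τ hτ
  have : Normal ℚ_[p] K := by
    rw [IntermediateField.normal_iff_forall_map_le']
    rintro σ x ⟨y, hy, rfl⟩
    exact hK σ y hy
  rw [TameGen.succ_mul_pred_eq] at hnorm
  exact TameGen.exists_pow_inv_mul_mem_fixingSubgroup hϖK hϖ1 hmax TameGen.not_dvd_sq_sub_one
    hnorm hz (fun x _ hx1 => hτ0 x hx1) hτ0z hτ0ϖ hn0 hpow (fun x _ hx1 => hτ x hx1)

/-- **`TIStatement` from `LIStatement`, `LevelStatement` and the count seam.** -/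
theorem ti_of_count (hLI : LIStatement) (hLev : LevelStatement) (hCount : GammaCountSeam) :
    TIStatement :=
  ti_of_seams hLI hLev transportSeam hCount

end Fermat.Agent.S56.LF.TopInducedSeam
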