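import Fermat.Agent.S56.LF.UnitPowExtra
import Fermat.Agent.S56.Flat.SemiCount

/-!
# S56 / brick LF, row C4b ("CNT-abs"): a quotient-free proof  [helper14]

`O` a complete discrete valuation ring with finite residue field `κ` of characteristic `p`,
`p = ϖ ^ (e0 (p - 1)) υ`, `ζ ∈ O` a primitive `p`-th root of unity, `D` a group of ring
automorphisms of `O`, `ξ : D →* kˣ` (`k` a finite field of characteristic `p`).  We bound the
number of maps `h : k → Oˣ` with values `≡ 1` modulo `p` which are additive and `ξ`-equivariant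
modulo `p`-th powers of units, counted modulo `p`-th powers.

The proof works with finite families `T` of functions `k → Oˣ` themselves (`IsFam`): no quotient
module, no action on a quotient.  Descending induction on the level `N` of the unit filtration
(`p e0 ≥ N ≥ e`):

* `card_le_of_top`    : level `p e0` (the "unramified" piece; `UnitPow.card_quot_crit_le` and
                        `UnitPow.map_mul_pow_inv_mem_range`);
* `card_le_of_dvd`    : `p ∣ N`: the piece dies (`UnitPow.exists_pow_mul_mem_succ`);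
* `card_le_of_graded` : `p ∤ N`: the fibres of `h ↦ (coordinate of h modulo 𝔪)` are families of
                        level `N + 1`, the image is counted by `SemiCount.semiCountStatement`;
* `card_le_main`      : the induction;
* `cntAbs`            : the exit, in the shape of the architect's `CntAbsStatement`.
-/

set_option autoImplicit false

namespace Fermat.Agent.S56.LF.CntDirect

open IsLocalRing Fermat.Agent.CFT.Local

section Classes

variable {O : Type*} [CommRing O]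

/-- Congruence of units modulo `p`-th powers of units. -/
def PEq (p : ℕ) (u v : Oˣ) : Prop := ∃ w : Oˣ, u = v * w ^ p

theorem PEq.refl (p : ℕ) (u : Oˣ) : PEq p u u := ⟨1, by rw [one_pow, mul_one]⟩

theorem PEq.symm {p : ℕ} {u v : Oˣ} (h : PEq p u v) : PEq p v u := by
  obtain ⟨w, rfl⟩ := h
  exact ⟨w⁻¹, by rw [inv_pow, mul_inv_cancel_right]⟩

theorem PEq.trans {p : ℕ} {u v z : Oˣ} (h : PEq p u v) (h' : PEq p v z) : PEq p u z := by
  obtain ⟨w, rfl⟩ := h
  obtain ⟨w', rfl⟩ := h'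
  exact ⟨w' * w, by rw [mul_pow, mul_assoc]⟩

theorem PEq.mul {p : ℕ} {u v u' v' : Oˣ} (h : PEq p u v) (h' : PEq p u' v') :
    PEq p (u * u') (v * v') := by
  obtain ⟨w, rfl⟩ := h
  obtain ⟨w', rfl⟩ := h'
  exact ⟨w * w', by rw [mul_pow, mul_mul_mul_comm]⟩

theorem PEq.inv {p : ℕ} {u v : Oˣ} (h : PEq p u v) : PEq p u⁻¹ v⁻¹ := by
  obtain ⟨w, rfl⟩ := h
  exact ⟨w⁻¹, by rw [mul_inv, inv_pow]⟩

theorem PEq.pow {p : ℕ} {u v : Oˣ} (h : PEq p u v) (n : ℕ) : PEq p (u ^ n) (v ^ n) := by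
  obtain ⟨w, rfl⟩ := h
  exact ⟨w ^ n, by rw [mul_pow, ← pow_mul, ← pow_mul, mul_comm p n]⟩

theorem PEq.map {p : ℕ} (σ : O →+* O) {u v : Oˣ} (h : PEq p u v) :
    PEq p (Units.map (σ : O →* O) u) (Units.map (σ : O →* O) v) := by
  obtain ⟨w, rfl⟩ := h
  exact ⟨Units.map (σ : O →* O) w, by rw [map_mul, map_pow]⟩

theorem pEq_mul_pow (p : ℕ) (u w : Oˣ) : PEq p (u * w ^ p) u := ⟨w, rfl⟩

theorem pEq_mul_pow_inv (p : ℕ) (u w : Oˣ) : PEq p (u * (w ^ p)⁻¹) u :=
  ⟨w⁻¹, by rw [inv_pow]⟩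

theorem pEq_iff_mem {p : ℕ} {u v : Oˣ} :
    PEq p u v ↔ u * v⁻¹ ∈ (powMonoidHom p : Oˣ →* Oˣ).range := by
  constructor
  · rintro ⟨w, rfl⟩
    exact MonoidHom.mem_range.mpr ⟨w, by rw [mul_comm v, mul_inv_cancel_right]; rfl⟩
  · intro h
    obtain ⟨w, hw⟩ := MonoidHom.mem_range.mp h
    have hw' : w ^ p = u * v⁻¹ := hw
    exact ⟨w, by rw [hw', mul_comm u, mul_inv_cancel_left]⟩

theorem PEq.mul_right_cancel {p : ℕ} {u v z : Oˣ} (h : PEq p (u * z) (v * z)) : PEq p u v := by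
  have h1 := h.mul (PEq.refl p z⁻¹)
  rwa [mul_inv_cancel_right, mul_inv_cancel_right] at h1

end Classes

/-- A family of level `N`: finitely many maps `k → U_N`, additive and `ξ`-equivariant modulo
`p`-th powers, pairwise distinct modulo `p`-th powers. -/
def IsFam {O : Type*} [CommRing O] [IsLocalRing O] {D k : Type*} [Add k] [Mul k] (p : ℕ)
    (ξ : D → k) (act : D → O ≃+* O) (N : ℕ) (T : Finset (k → Oˣ)) : Prop :=
  (∀ h ∈ T, ∀ x, h x ∈ principalUnits O N) ∧
  (∀ h ∈ T, ∀ x y, PEq p (h (x + y)) (h x * h y)) ∧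
  (∀ h ∈ T, ∀ σ x, PEq p (h (ξ σ * x))
      (Units.map (((act σ : O ≃+* O) : O →+* O) : O →* O) (h x))) ∧
  (∀ h ∈ T, ∀ h' ∈ T, (∀ x, PEq p (h x) (h' x)) → h = h')

section Graded

variable {O : Type*} [CommRing O] [IsDomain O] [IsDiscreteValuationRing O]
  {ϖ : O} (hϖ : Irreducible ϖ)

open Classical in
/-- The coordinate modulo `𝔪` of a unit at level `N` (zero outside `U_N`). -/
noncomputable def gr (N : ℕ) (u : Oˣ) : ResidueField O :=
  if hu : u ∈ principalUnits O N then residue O (coord hϖ N ⟨u, hu⟩) else 0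

theorem gr_of_mem (N : ℕ) {u : Oˣ} (hu : u ∈ principalUnits O N) :
    gr hϖ N u = residue O (coord hϖ N ⟨u, hu⟩) := dif_pos hu

theorem gr_mul (N : ℕ) (hN : 1 ≤ N) {u v : Oˣ} (hu : u ∈ principalUnits O N)
    (hv : v ∈ principalUnits O N) : gr hϖ N (u * v) = gr hϖ N u + gr hϖ N v := by
  rw [gr_of_mem hϖ N hu, gr_of_mem hϖ N hv, gr_of_mem hϖ N (mul_mem hu hv)]
  have h := map_mul (gradedHom hϖ N hN) ⟨u, hu⟩ ⟨v, hv⟩
  rw [gradedHom_apply, gradedHom_apply, gradedHom_apply, ← ofAdd_add] at h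
  exact Multiplicative.ofAdd.injective h

theorem gr_eq_zero_iff (N : ℕ) (hN : 1 ≤ N) {u : Oˣ} (hu : u ∈ principalUnits O N) :
    gr hϖ N u = 0 ↔ u ∈ principalUnits O (N + 1) := by
  rw [gr_of_mem hϖ N hu]
  have h2 : (⟨u, hu⟩ : principalUnits O N) ∈ (gradedHom hϖ N hN).ker ↔
      u ∈ principalUnits O (N + 1) := by
    rw [ker_gradedHom, Subgroup.mem_subgroupOf]
  rw [← h2, MonoidHom.mem_ker, gradedHom_apply, ofAdd_eq_one]

theorem mul_inv_mem_succ_of_gr_eq (N : ℕ) (hN : 1 ≤ N) {u v : Oˣ}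
    (hu : u ∈ principalUnits O N) (hv : v ∈ principalUnits O N)
    (h : gr hϖ N u = gr hϖ N v) : u * v⁻¹ ∈ principalUnits O (N + 1) := by
  rw [gr_of_mem hϖ N hu, gr_of_mem hϖ N hv] at h
  exact UnitPow.mul_inv_mem_succ_of_residue_coord_eq hϖ N hN ⟨u, hu⟩ ⟨v, hv⟩ h

theorem gr_map (σ : O →+* O) {c : O} (hc : σ ϖ = ϖ * c) (N : ℕ) {u : Oˣ}
    (hu : u ∈ principalUnits O N) :
    gr hϖ N (Units.map (σ : O →* O) u) =
      residue O c ^ N * residue O (σ (coord hϖ N ⟨u, hu⟩)) := by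
  rw [gr_of_mem hϖ N (UnitPow.map_mem_principalUnits hϖ σ hc hu)]
  exact UnitPow.residue_coord_map hϖ σ hc N ⟨u, hu⟩

variable {p : ℕ} (hp : p.Prime) {e e0 : ℕ} {υ : Oˣ}
  (hpe : (p : O) = ϖ ^ e * (υ : O)) (he : e = e0 * (p - 1))

include hp hpe he in
/-- Units of `U_N` (`p ∤ N`, `N < p e0`) congruent modulo `p`-th powers have the same
coordinate. -/
theorem gr_eq_of_pEq {N : ℕ} (hN1 : 1 ≤ N) (hN : N < p * e0) (hpN : ¬ p ∣ N) {u v : Oˣ}
    (hu : u ∈ principalUnits O N) (hv : v ∈ principalUnits O N) (h : PEq p u v) :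
    gr hϖ N u = gr hϖ N v := by
  obtain ⟨w, hw⟩ := h
  have h1 : w ^ p ∈ principalUnits O N := by
    have h0 : w ^ p = v⁻¹ * u := by rw [hw, inv_mul_cancel_left]
    rw [h0]
    exact mul_mem (inv_mem hv) hu
  have h2 : w ^ p ∈ principalUnits O (N + 1) := UnitPow.pow_mem_succ hϖ hp hpe he hN1 hN hpN h1
  have h3 : gr hϖ N (w ^ p) = 0 := (gr_eq_zero_iff hϖ N hN1 h1).mpr h2
  rw [hw, gr_mul hϖ N hN1 hv h1, h3, add_zero]

end Graded

section Steps

variable {O : Type} [CommRing O] [IsDomain O] [IsDiscreteValuationRing O]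
  {ϖ : O} (hϖ : Irreducible ϖ) {p : ℕ} [hpF : Fact p.Prime] {e e0 : ℕ} {υ : Oˣ}
  (hpe : (p : O) = ϖ ^ e * (υ : O)) (he : e = e0 * (p - 1))
  {D : Type*} {k : Type} [Field k]
  (ξ : D → k) (act : D → O ≃+* O)

include hϖ hpe he

/-- **The step `p ∣ N`.**  A family of level `p m` (`1 ≤ m < e0`) can be moved to level
`p m + 1`. -/
theorem card_le_of_dvd (hperf : ∀ x : ResidueField O, ∃ y, y ^ p = x) {m : ℕ} (hm1 : 1 ≤ m)
    (hm : m < e0) (C : ℕ)
    (hC : ∀ T' : Finset (k → Oˣ), IsFam p ξ act (p * m + 1) T' → T'.card ≤ C)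
    (T : Finset (k → Oˣ)) (hT : IsFam p ξ act (p * m) T) : T.card ≤ C := by
  classical
  have hp : p.Prime := Fact.out
  obtain ⟨hmem, hadd, heq, hinj⟩ := hT
  have hpeel : ∀ u : Oˣ, ∃ v : Oˣ, PEq p v u ∧
      (u ∈ principalUnits O (p * m) → v ∈ principalUnits O (p * m + 1)) := by
    intro u
    by_cases hu : u ∈ principalUnits O (p * m)
    · obtain ⟨y, -, hy⟩ := UnitPow.exists_pow_mul_mem_succ hϖ hp hpe he hperf hm1 hm hu
      exact ⟨u * (y ^ p)⁻¹, pEq_mul_pow_inv p u y, fun _ => hy⟩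
    · exact ⟨u, PEq.refl p u, fun h => absurd h hu⟩
  choose pl hpl1 hpl2 using hpeel
  let G : (k → Oˣ) → (k → Oˣ) := fun h x => pl (h x)
  have hG : ∀ h x, G h x = pl (h x) := fun _ _ => rfl
  have hGinj : Set.InjOn G (T : Set (k → Oˣ)) := by
    intro h hh h' hh' hGG
    apply hinj h hh h' hh'
    intro x
    have h1 := congrFun hGG x
    rw [hG, hG] at h1
    have h2 := hpl1 (h' x)
    rw [← h1] at h2
    exact (hpl1 (h x)).symm.trans h2
  have hcard : (T.image G).card = T.card := Finset.card_image_of_injOn hGinj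
  rw [← hcard]
  apply hC
  refine ⟨?_, ?_, ?_, ?_⟩
  · intro h' hh' x
    obtain ⟨h, hh, rfl⟩ := Finset.mem_image.mp hh'
    exact hpl2 _ (hmem h hh x)
  · intro h' hh' x y
    obtain ⟨h, hh, rfl⟩ := Finset.mem_image.mp hh'
    rw [hG, hG, hG]
    exact ((hpl1 _).trans (hadd h hh x y)).trans ((hpl1 _).mul (hpl1 _)).symm
  · intro h' hh' σ x
    obtain ⟨h, hh, rfl⟩ := Finset.mem_image.mp hh'
    rw [hG, hG]
    exact ((hpl1 _).trans (heq h hh σ x)).trans ((hpl1 (h x)).map _).symm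
  · intro h1' hh1' h2' hh2' hx
    obtain ⟨h1, hh1, rfl⟩ := Finset.mem_image.mp hh1'
    obtain ⟨h2, hh2, rfl⟩ := Finset.mem_image.mp hh2'
    have h12 : h1 = h2 := hinj h1 hh1 h2 hh2 (fun x => by
      have h3 := hx x
      rw [hG, hG] at h3
      exact ((hpl1 (h1 x)).symm.trans h3).trans (hpl1 (h2 x)))
    rw [h12]

/-- **The step `p ∤ N`.**  The fibres of `h ↦ (coordinate of h at level N)` are families of
level `N + 1`; the image consists of semilinear maps `k → κ`, counted by `SemiCount`. -/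
theorem card_le_of_graded [Finite k] [CharP k p] [Finite (ResidueField O)]
    {F : Type} [Field F] [Finite F] {a' : ℕ} (hF : Nat.card F = p ^ a')
    (ι : F →+* k) (ι' : F →+* ResidueField O)
    {N : ℕ} (hN1 : 1 ≤ N) (hN : N < p * e0) (hpN : ¬ p ∣ N)
    (τ0 φ' : D) (t : F) (c c' : O)
    (hτ : ∀ x : O, residue O (act τ0 x) = residue O x)
    (hτϖ : act τ0 ϖ = ϖ * c) (hc : residue O c = ι' t)
    (hφ : ∀ x : O, residue O (act φ' x) = residue O x ^ (p ^ a'))
    (hφϖ : act φ' ϖ = ϖ * c') (hc' : residue O c' ≠ 0) (hξφ : ξ φ' ≠ 0)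
    (C : ℕ) (hC : ∀ T' : Finset (k → Oˣ), IsFam p ξ act (N + 1) T' → T'.card ≤ C)
    (T : Finset (k → Oˣ)) (hT : IsFam p ξ act N T) :
    T.card ≤ Nat.card k ^ Nat.card {j : Fin a' // ι (t ^ N) ^ (p ^ (j : ℕ)) = ξ τ0} * C := by
  classical
  have hp : p.Prime := Fact.out
  have he0 : 1 ≤ e0 := by
    rcases Nat.eq_zero_or_pos e0 with h | h
    · rw [h, Nat.mul_zero] at hN
      omega
    · exact h
  have he1 : 1 ≤ e := by
    rw [he]
    exact Nat.mul_pos he0 (Nat.sub_pos_of_lt hp.one_lt)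
  have : CharP (ResidueField O) p := UnitPowExtra.charP_residueField hϖ hp hpe he1
  have : CharP F p := ι.charP ι.injective p
  obtain ⟨hmem, hadd, heq, hinj⟩ := hT
  let f : (k → Oˣ) → (k → ResidueField O) := fun h x => gr hϖ N (h x)
  have hf : ∀ h x, f h x = gr hϖ N (h x) := fun _ _ => rfl
  -- the fibres
  have hfib : ∀ g ∈ T.image f, (T.filter fun h => f h = g).card ≤ C := by
    intro g hg
    obtain ⟨h0, hh0, rfl⟩ := Finset.mem_image.mp hg
    let R : (k → Oˣ) → (k → Oˣ) := fun h x => h x * (h0 x)⁻¹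
    have hR : ∀ h x, R h x = h x * (h0 x)⁻¹ := fun _ _ => rfl
    have hRinj : Function.Injective R := by
      intro h h' hRR
      funext x
      have h1 := congrFun hRR x
      rw [hR, hR] at h1
      exact mul_right_cancel h1
    rw [← Finset.card_image_of_injective _ hRinj]
    apply hC
    refine ⟨?_, ?_, ?_, ?_⟩
    · intro h' hh' x
      obtain ⟨h, hh, rfl⟩ := Finset.mem_image.mp hh'
      obtain ⟨hhT, hfh⟩ := Finset.mem_filter.mp hh
      have h1 := congrFun hfh x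
      rw [hf, hf] at h1
      rw [hR]
      exact mul_inv_mem_succ_of_gr_eq hϖ N hN1 (hmem h hhT x) (hmem h0 hh0 x) h1
    · intro h' hh' x y
      obtain ⟨h, hh, rfl⟩ := Finset.mem_image.mp hh'
      obtain ⟨hhT, -⟩ := Finset.mem_filter.mp hh
      rw [hR, hR, hR]
      have h1 := (hadd h hhT x y).mul (hadd h0 hh0 x y).inv
      rwa [mul_inv, mul_mul_mul_comm] at h1
    · intro h' hh' σ x
      obtain ⟨h, hh, rfl⟩ := Finset.mem_image.mp hh'
      obtain ⟨hhT, -⟩ := Finset.mem_filter.mp hh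
      rw [hR, hR]
      have h1 := (heq h hhT σ x).mul (heq h0 hh0 σ x).inv
      rwa [← map_inv, ← map_mul] at h1
    · intro h1' hh1' h2' hh2' hx
      obtain ⟨h1, hh1, rfl⟩ := Finset.mem_image.mp hh1'
      obtain ⟨h2, hh2, rfl⟩ := Finset.mem_image.mp hh2'
      obtain ⟨hh1T, -⟩ := Finset.mem_filter.mp hh1
      obtain ⟨hh2T, -⟩ := Finset.mem_filter.mp hh2
      have h12 : h1 = h2 := hinj h1 hh1T h2 hh2T (fun x => by
        have h3 := hx x
        rw [hR, hR] at h3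
        exact h3.mul_right_cancel)
      rw [h12]
  have key := Finset.card_le_mul_card_image (f := f) T C hfib
  -- the image
  have hgadd : ∀ g ∈ T.image f, ∀ x y, g (x + y) = g x + g y := by
    intro g hg x y
    obtain ⟨h, hh, rfl⟩ := Finset.mem_image.mp hg
    rw [hf, hf, hf, gr_eq_of_pEq hϖ hp hpe he hN1 hN hpN (hmem h hh (x + y))
      (mul_mem (hmem h hh x) (hmem h hh y)) (hadd h hh x y),
      gr_mul hϖ N hN1 (hmem h hh x) (hmem h hh y)]
  have hgτ : ∀ g ∈ T.image f, ∀ x, g (ξ τ0 * x) = ι' (t ^ N) * g x := by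
    intro g hg x
    obtain ⟨h, hh, rfl⟩ := Finset.mem_image.mp hg
    rw [hf, hf, gr_eq_of_pEq hϖ hp hpe he hN1 hN hpN (hmem h hh (ξ τ0 * x))
      (UnitPow.map_mem_principalUnits hϖ _ hτϖ (hmem h hh x)) (heq h hh τ0 x),
      gr_map hϖ _ hτϖ N (hmem h hh x), hc, map_pow, gr_of_mem hϖ N (hmem h hh x)]
    congr 1
    exact hτ _
  have hgφ : ∀ g ∈ T.image f, ∀ x, g (ξ φ' * x) = residue O c' ^ N * g x ^ (p ^ a') := by
    intro g hg x
    obtain ⟨h, hh, rfl⟩ := Finset.mem_image.mp hg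
    rw [hf, hf, gr_eq_of_pEq hϖ hp hpe he hN1 hN hpN (hmem h hh (ξ φ' * x))
      (UnitPow.map_mem_principalUnits hϖ _ hφϖ (hmem h hh x)) (heq h hh φ' x),
      gr_map hϖ _ hφϖ N (hmem h hh x), gr_of_mem hϖ N (hmem h hh x)]
    congr 1
    exact hφ _
  let S := {h : k →+ ResidueField O // (∀ x, h (ξ τ0 * x) = ι' (t ^ N) * h x) ∧
    ∀ x, h (ξ φ' * x) = residue O c' ^ N * h x ^ (p ^ a')}
  let ψ : {g // g ∈ T.image f} → S := fun g =>
    ⟨AddMonoidHom.mk' g.1 (hgadd g.1 g.2), ⟨hgτ g.1 g.2, hgφ g.1 g.2⟩⟩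
  have hψ : Function.Injective ψ := by
    intro g g' hgg
    apply Subtype.ext
    funext x
    have h1 := congrArg (fun s : S => s.1 x) hgg
    exact h1
  have : Finite (k →+ ResidueField O) := DFunLike.finite _
  have h1 : (T.image f).card ≤ Nat.card S := by
    rw [← Nat.card_eq_finsetCard (T.image f)]
    exact Nat.card_le_card_of_injective ψ hψ
  have h2 : Nat.card S ≤
      Nat.card k ^ Nat.card {j : Fin a' // ι (t ^ N) ^ (p ^ (j : ℕ)) = ξ τ0} :=
    Flat.SemiCount.semiCountStatement p k (ResidueField O) F a' hF ι ι' (ξ τ0) (ξ φ') (t ^ N)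
      (residue O c' ^ N) hξφ (pow_ne_zero N hc')
  calc T.card ≤ C * (T.image f).card := key
    _ ≤ C * Nat.card k ^ Nat.card {j : Fin a' // ι (t ^ N) ^ (p ^ (j : ℕ)) = ξ τ0} :=
        Nat.mul_le_mul_left C (h1.trans h2)
    _ = _ := Nat.mul_comm _ _

omit hϖ hpe he in
/-- In a family, `h 0` is a `p`-th power. -/
theorem pEq_zero {O : Type*} [CommRing O] {p : ℕ} {k : Type*} [AddMonoid k] (h : k → Oˣ)
    (hadd : ∀ x y, PEq p (h (x + y)) (h x * h y)) : PEq p (h 0) 1 := by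
  have h1 := hadd 0 0
  rw [add_zero] at h1
  have h2 : PEq p (1 * h 0) (h 0 * h 0) := by rwa [one_mul]
  exact h2.mul_right_cancel.symm

omit hϖ hpe he in
/-- In a family, `h (n • x) ≡ (h x) ^ n`. -/
theorem pEq_nsmul {O : Type*} [CommRing O] {p : ℕ} {k : Type*} [AddMonoid k] (h : k → Oˣ)
    (hadd : ∀ x y, PEq p (h (x + y)) (h x * h y)) (n : ℕ) (x : k) :
    PEq p (h (n • x)) (h x ^ n) := by
  induction n with
  | zero =>
    rw [zero_smul, pow_zero]
    exact pEq_zero h hadd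
  | succ n ih =>
    rw [succ_nsmul, pow_succ]
    exact (hadd _ _).trans (ih.mul (PEq.refl p _))

open Classical in
/-- **The top level `p e0`.**  A family of level `p e0` has at most `|k|` members, and at most
one unless `ξ` is the cyclotomic character. -/
theorem card_le_of_top [Finite k] [CharP k p] [IsAdicComplete (maximalIdeal O) O]
    [Finite (ResidueField O)] (he0 : 1 ≤ e0) {ζ : O} (hζ : IsPrimitiveRoot ζ p)
    (T : Finset (k → Oˣ)) (hT : IsFam p ξ act (p * e0) T) :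
    T.card ≤ Nat.card k ^
      (if ∀ (σ : D) (n : ℕ), act σ ζ = ζ ^ n → ξ σ = (n : k) then 1 else 0) := by
  classical
  have hp : p.Prime := Fact.out
  obtain ⟨hmem, hadd, heq, hinj⟩ := hT
  split_ifs with hcond
  · -- at most `|k|`
    rw [pow_one]
    have hU : ∀ u : Oˣ, u ∈ principalUnits O (p * e0 + 1) →
        u ∈ (powMonoidHom p : Oˣ →* Oˣ).range :=
      fun u hu => UnitPow.mem_range_pow_of_mem hϖ hp hpe he hu
    have hQcard : Nat.card (principalUnits O (p * e0) ⧸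
        ((powMonoidHom p : Oˣ →* Oˣ).range.subgroupOf (principalUnits O (p * e0)))) ≤ p :=
      UnitPow.card_quot_crit_le hϖ hp hpe he he0
    have hQfin : Finite (principalUnits O (p * e0) ⧸
        ((powMonoidHom p : Oˣ →* Oˣ).range.subgroupOf (principalUnits O (p * e0)))) := by
      rw [← Subgroup.index_ne_zero_iff_finite]
      have h1 : ((principalUnits O (p * e0 + 1)).subgroupOf (principalUnits O (p * e0))).index
          ≠ 0 := by
        have h2 := relIndex_principalUnits_succ O (p * e0) (Nat.mul_pos hp.pos he0)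
        rw [Subgroup.relIndex] at h2
        rw [h2]
        exact Nat.card_pos.ne'
      have hle : (principalUnits O (p * e0 + 1)).subgroupOf (principalUnits O (p * e0)) ≤
          (powMonoidHom p : Oˣ →* Oˣ).range.subgroupOf (principalUnits O (p * e0)) := by
        intro x hx
        rw [Subgroup.mem_subgroupOf] at hx ⊢
        exact hU _ hx
      exact ne_zero_of_dvd_ne_zero h1 (Subgroup.index_dvd_of_le hle)
    let _ : Algebra (ZMod p) k := ZMod.algebra k p
    have : NeZero p := ⟨hp.ne_zero⟩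
    let b := Module.finBasis (ZMod p) k
    have hk : Nat.card k = p ^ Module.finrank (ZMod p) k := by
      have h1 := Module.natCard_eq_pow_finrank (K := ZMod p) (V := k)
      rwa [Nat.card_zmod] at h1
    let Φ : {h // h ∈ T} → (Fin (Module.finrank (ZMod p) k) → principalUnits O (p * e0) ⧸
        ((powMonoidHom p : Oˣ →* Oˣ).range.subgroupOf (principalUnits O (p * e0)))) :=
      fun h i => QuotientGroup.mk ⟨h.1 (b i), hmem h.1 h.2 (b i)⟩
    have hΦ : Function.Injective Φ := by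
      intro h h' hΦΦ
      apply Subtype.ext
      apply hinj h.1 h.2 h'.1 h'.2
      have hb : ∀ i, PEq p (h.1 (b i)) (h'.1 (b i)) := by
        intro i
        have h1 : (QuotientGroup.mk (⟨h.1 (b i), hmem h.1 h.2 (b i)⟩ : principalUnits O (p * e0)) :
            principalUnits O (p * e0) ⧸
              ((powMonoidHom p : Oˣ →* Oˣ).range.subgroupOf (principalUnits O (p * e0)))) =
            QuotientGroup.mk ⟨h'.1 (b i), hmem h'.1 h'.2 (b i)⟩ := congrFun hΦΦ i
        have h2 := QuotientGroup.eq.mp h1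
        rw [Subgroup.mem_subgroupOf] at h2
        have h3 : (h.1 (b i))⁻¹ * h'.1 (b i) ∈ (powMonoidHom p : Oˣ →* Oˣ).range := h2
        rw [mul_comm] at h3
        exact (pEq_iff_mem.mpr h3).symm
      let E : AddSubmonoid k :=
        { carrier := {x | PEq p (h.1 x) (h'.1 x)}
          zero_mem' := (pEq_zero h.1 (hadd h.1 h.2)).trans (pEq_zero h'.1 (hadd h'.1 h'.2)).symm
          add_mem' := fun {x y} hx hy =>
            ((hadd h.1 h.2 x y).trans (PEq.mul hx hy)).trans (hadd h'.1 h'.2 x y).symm }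
      intro x
      have hx : x ∈ E := by
        rw [← b.sum_repr x]
        refine AddSubmonoid.sum_mem _ (fun i _ => ?_)
        rw [← ZMod.natCast_zmod_val (b.repr x i), Nat.cast_smul_eq_nsmul]
        exact AddSubmonoid.nsmul_mem _ (hb i) _
      exact hx
    calc T.card = Nat.card {h // h ∈ T} := (Nat.card_eq_finsetCard T).symm
      _ ≤ Nat.card (Fin (Module.finrank (ZMod p) k) → principalUnits O (p * e0) ⧸
          ((powMonoidHom p : Oˣ →* Oˣ).range.subgroupOf (principalUnits O (p * e0)))) :=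
        Nat.card_le_card_of_injective Φ hΦ
      _ = Nat.card (principalUnits O (p * e0) ⧸
          ((powMonoidHom p : Oˣ →* Oˣ).range.subgroupOf (principalUnits O (p * e0)))) ^
            Module.finrank (ZMod p) k := by
        rw [Nat.card_fun, Nat.card_fin]
      _ ≤ p ^ Module.finrank (ZMod p) k := Nat.pow_le_pow_left hQcard _
      _ = Nat.card k := hk.symm
  · -- at most one
    rw [pow_zero]
    obtain ⟨σ, hσ'⟩ := not_forall.mp hcond
    obtain ⟨n, hn⟩ := not_forall.mp hσ'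
    obtain ⟨hσ, hne⟩ := Classical.not_imp.mp hn
    have triv : ∀ h ∈ T, ∀ x, PEq p (h x) 1 := by
      intro h hh
      have h1 : ∀ x, PEq p (h (ξ σ * x)) (h ((n : k) * x)) := by
        intro x
        have h2 := UnitPow.map_mul_pow_inv_mem_range hϖ hp hpe he he0 hζ (act σ) hσ (hmem h hh x)
        have h3 := (heq h hh σ x).trans (pEq_iff_mem.mpr h2)
        have h4 := pEq_nsmul h (hadd h hh) n x
        rw [nsmul_eq_mul] at h4
        exact h3.trans h4.symm
      have h5 : ∀ x, PEq p (h ((ξ σ - (n : k)) * x)) 1 := by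
        intro x
        have h6 := hadd h hh ((ξ σ - (n : k)) * x) ((n : k) * x)
        rw [← add_mul, sub_add_cancel] at h6
        have h7 : PEq p (h ((ξ σ - (n : k)) * x) * h ((n : k) * x)) (1 * h ((n : k) * x)) := by
          rw [one_mul]
          exact h6.symm.trans (h1 x)
        exact h7.mul_right_cancel
      intro x
      have h8 := h5 ((ξ σ - (n : k))⁻¹ * x)
      rwa [mul_inv_cancel_left₀ (sub_ne_zero.mpr hne)] at h8
    apply Finset.card_le_one.mpr
    intro h hh h' hh'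
    exact hinj h hh h' hh' (fun x => (triv h hh x).trans (triv h' hh' x).symm)

end Steps

section Index

variable {k F : Type*} [Semiring k] [Semiring F] (p e0 a' : ℕ) (ι : F →+* k) (t : F) (s : k)

theorem finite_idx (m : ℕ) :
    Finite {nj : ℕ × ℕ // 1 ≤ nj.1 ∧ nj.1 ≤ m ∧ ¬ p ∣ nj.1 ∧ nj.2 < a' ∧
      ι t ^ ((p * e0 - nj.1) * p ^ nj.2) = s} := by
  have hfin : Set.Finite {nj : ℕ × ℕ | 1 ≤ nj.1 ∧ nj.1 ≤ m ∧ ¬ p ∣ nj.1 ∧ nj.2 < a' ∧
      ι t ^ ((p * e0 - nj.1) * p ^ nj.2) = s} :=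
    Set.Finite.subset ((Set.finite_Iic m).prod (Set.finite_Iio a'))
      (fun nj h => ⟨h.2.1, h.2.2.2.1⟩)
  exact hfin.to_subtype

theorem card_idx_zero :
    Nat.card {nj : ℕ × ℕ // 1 ≤ nj.1 ∧ nj.1 ≤ 0 ∧ ¬ p ∣ nj.1 ∧ nj.2 < a' ∧
      ι t ^ ((p * e0 - nj.1) * p ^ nj.2) = s} = 0 := by
  have hemp : IsEmpty {nj : ℕ × ℕ // 1 ≤ nj.1 ∧ nj.1 ≤ 0 ∧ ¬ p ∣ nj.1 ∧ nj.2 < a' ∧
      ι t ^ ((p * e0 - nj.1) * p ^ nj.2) = s} :=
    ⟨fun x => by
      have h1 := x.2.1
      have h2 := x.2.2.1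
      omega⟩
  exact Nat.card_of_isEmpty

theorem card_idx_le (m : ℕ) :
    Nat.card {nj : ℕ × ℕ // 1 ≤ nj.1 ∧ nj.1 ≤ m ∧ ¬ p ∣ nj.1 ∧ nj.2 < a' ∧
      ι t ^ ((p * e0 - nj.1) * p ^ nj.2) = s} ≤
    Nat.card {nj : ℕ × ℕ // 1 ≤ nj.1 ∧ nj.1 ≤ m + 1 ∧ ¬ p ∣ nj.1 ∧ nj.2 < a' ∧
      ι t ^ ((p * e0 - nj.1) * p ^ nj.2) = s} := by
  have hfin := finite_idx p e0 a' ι t s (m + 1)
  refine Nat.card_le_card_of_injective
    (fun x => ⟨x.1, x.2.1, Nat.le_succ_of_le x.2.2.1, x.2.2.2.1, x.2.2.2.2.1, x.2.2.2.2.2⟩) ?_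
  intro x y hxy
  exact Subtype.ext (Subtype.mk.inj hxy)

theorem card_idx_succ_le (m : ℕ) (hpm : ¬ p ∣ m + 1) :
    Nat.card {nj : ℕ × ℕ // 1 ≤ nj.1 ∧ nj.1 ≤ m ∧ ¬ p ∣ nj.1 ∧ nj.2 < a' ∧
      ι t ^ ((p * e0 - nj.1) * p ^ nj.2) = s} +
      Nat.card {j : Fin a' // ι (t ^ (p * e0 - (m + 1))) ^ (p ^ (j : ℕ)) = s} ≤
    Nat.card {nj : ℕ × ℕ // 1 ≤ nj.1 ∧ nj.1 ≤ m + 1 ∧ ¬ p ∣ nj.1 ∧ nj.2 < a' ∧
      ι t ^ ((p * e0 - nj.1) * p ^ nj.2) = s} := by
  have hfin := finite_idx p e0 a' ι t s (m + 1)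
  have hfin' := finite_idx p e0 a' ι t s m
  have hgen : ∀ n : ℕ, ι t ^ ((p * e0 - (m + 1)) * n) = ι (t ^ (p * e0 - (m + 1))) ^ n :=
    fun n => by rw [map_pow, pow_mul]
  rw [← Nat.card_sum]
  refine Nat.card_le_card_of_injective
    (Sum.elim
      (fun x => ⟨x.1, x.2.1, Nat.le_succ_of_le x.2.2.1, x.2.2.2.1, x.2.2.2.2.1, x.2.2.2.2.2⟩)
      (fun j => ⟨(m + 1, (j.1 : ℕ)), Nat.succ_le_succ (Nat.zero_le m), le_rfl, hpm, j.1.2,
        (hgen _).trans j.2⟩)) ?_
  rintro (x | j) (y | j') hxy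
  · have h1 : x.1 = y.1 := Subtype.mk.inj hxy
    exact congrArg Sum.inl (Subtype.ext h1)
  · exfalso
    have h1 : x.1 = (m + 1, (j'.1 : ℕ)) := Subtype.mk.inj hxy
    have h2 := x.2.2.1
    rw [h1] at h2
    exact Nat.not_succ_le_self m h2
  · exfalso
    have h1 : (m + 1, (j.1 : ℕ)) = y.1 := Subtype.mk.inj hxy
    have h2 := y.2.2.1
    rw [← h1] at h2
    exact Nat.not_succ_le_self m h2
  · have h1 : (m + 1, (j.1 : ℕ)) = (m + 1, (j'.1 : ℕ)) := Subtype.mk.inj hxy
    have h2 : (j.1 : ℕ) = (j'.1 : ℕ) := (Prod.mk.inj h1).2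
    exact congrArg Sum.inr (Subtype.ext (Fin.ext h2))

end Index

section Main

variable {O : Type} [CommRing O] [IsDomain O] [IsDiscreteValuationRing O]
  [IsAdicComplete (maximalIdeal O) O] [Finite (ResidueField O)]
  {ϖ : O} (hϖ : Irreducible ϖ) {p : ℕ} [hpF : Fact p.Prime] {e e0 : ℕ} {υ : Oˣ}
  (hpe : (p : O) = ϖ ^ e * (υ : O)) (he : e = e0 * (p - 1))
  {D : Type*} {k : Type} [Field k] [Finite k] [CharP k p]
  (ξ : D → k) (act : D → O ≃+* O)

include hϖ hpe he in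
open Classical in
/-- **The count, by descending induction on the level.**  A family of level `p e0 - m`
(`m ≤ e0`) has at most `|k| ^ ([ξ = cyclotomic] + #{(n, j) : n ≤ m, …})` members. -/
theorem card_le_main (he0 : 1 ≤ e0) {ζ : O} (hζ : IsPrimitiveRoot ζ p)
    {F : Type} [Field F] [Finite F] {a' : ℕ} (hF : Nat.card F = p ^ a')
    (ι : F →+* k) (ι' : F →+* ResidueField O)
    (τ0 φ' : D) (t : F) (c c' : O)
    (hτ : ∀ x : O, residue O (act τ0 x) = residue O x)
    (hτϖ : act τ0 ϖ = ϖ * c) (hc : residue O c = ι' t)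
    (hφ : ∀ x : O, residue O (act φ' x) = residue O x ^ (p ^ a'))
    (hφϖ : act φ' ϖ = ϖ * c') (hc' : residue O c' ≠ 0) (hξφ : ξ φ' ≠ 0)
    (m : ℕ) (hm : m ≤ e0) (T : Finset (k → Oˣ)) (hT : IsFam p ξ act (p * e0 - m) T) :
    T.card ≤ Nat.card k ^
      ((if ∀ (σ : D) (n : ℕ), act σ ζ = ζ ^ n → ξ σ = (n : k) then 1 else 0) +
        Nat.card {nj : ℕ × ℕ // 1 ≤ nj.1 ∧ nj.1 ≤ m ∧ ¬ p ∣ nj.1 ∧ nj.2 < a' ∧
          ι t ^ ((p * e0 - nj.1) * p ^ nj.2) = ξ τ0}) := by
  have hp : p.Prime := Fact.out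
  have hk1 : 1 ≤ Nat.card k := Nat.card_pos
  have hq1 : 1 ≤ e0 * (p - 1) := Nat.mul_pos he0 (Nat.sub_pos_of_lt hp.one_lt)
  have he1 : 1 ≤ e := by rw [he]; exact hq1
  have hperf : ∀ x : ResidueField O, ∃ y, y ^ p = x :=
    UnitPowExtra.exists_pow_eq_residue hϖ hp hpe he1
  have harith : p * e0 = e0 + e0 * (p - 1) := UnitPow.mul_eq_add_mul_pred hp.pos e0
  induction m generalizing T with
  | zero =>
    rw [Nat.sub_zero] at hT
    rw [card_idx_zero, Nat.add_zero]
    exact card_le_of_top hϖ hpe he ξ act he0 hζ T hT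
  | succ m ih =>
    have hm' : m ≤ e0 := Nat.le_of_succ_le hm
    have hN1 : 1 ≤ p * e0 - (m + 1) := by omega
    have hN : p * e0 - (m + 1) < p * e0 := by omega
    have hNs : p * e0 - (m + 1) + 1 = p * e0 - m := by omega
    have hstep : ∀ T' : Finset (k → Oˣ), IsFam p ξ act (p * e0 - (m + 1) + 1) T' →
        T'.card ≤ Nat.card k ^
          ((if ∀ (σ : D) (n : ℕ), act σ ζ = ζ ^ n → ξ σ = (n : k) then 1 else 0) +
            Nat.card {nj : ℕ × ℕ // 1 ≤ nj.1 ∧ nj.1 ≤ m ∧ ¬ p ∣ nj.1 ∧ nj.2 < a' ∧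
              ι t ^ ((p * e0 - nj.1) * p ^ nj.2) = ξ τ0}) := by
      intro T' hT'
      rw [hNs] at hT'
      exact ih hm' T' hT'
    by_cases hpN : p ∣ p * e0 - (m + 1)
    · obtain ⟨m', hm'eq⟩ := hpN
      have hm'1 : 1 ≤ m' := by
        rcases Nat.eq_zero_or_pos m' with h | h
        · rw [h, Nat.mul_zero] at hm'eq
          omega
        · exact h
      have hm'lt : m' < e0 := by
        by_contra hcon
        have h1 : p * e0 ≤ p * m' := Nat.mul_le_mul_left p (not_lt.mp hcon)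
        omega
      rw [hm'eq] at hT hstep
      have h1 := card_le_of_dvd hϖ hpe he ξ act hperf hm'1 hm'lt _ hstep T hT
      exact h1.trans (Nat.pow_le_pow_right hk1
        (Nat.add_le_add_left (card_idx_le p e0 a' ι t (ξ τ0) m) _))
    · have hpm : ¬ p ∣ m + 1 := by
        rintro ⟨r, hr⟩
        apply hpN
        refine ⟨e0 - r, ?_⟩
        rw [hr, Nat.mul_sub]
      have h1 := card_le_of_graded hϖ hpe he ξ act hF ι ι' hN1 hN hpN τ0 φ' t c c' hτ hτϖ hc
        hφ hφϖ hc' hξφ _ hstep T hT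
      refine h1.trans ?_
      rw [← pow_add]
      refine Nat.pow_le_pow_right hk1 ?_
      have h2 := card_idx_succ_le p e0 a' ι t (ξ τ0) m hpm
      rw [Nat.add_left_comm]
      exact Nat.add_le_add_left (by rw [Nat.add_comm]; exact h2) _

end Main

set_option linter.overlappingInstances false in
open Classical in
/-- **CNT-abs** (row C4b of brick LF): the architect's `CntAbsStatement`, with the equivariance
clause written in `O`. -/
theorem cntAbs :
    ∀ (p : ℕ) [Fact p.Prime], p ≠ 2 →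
    ∀ (O : Type) [CommRing O] [IsDomain O] [IsDiscreteValuationRing O]
      [IsAdicComplete (maximalIdeal O) O] [Finite (ResidueField O)]
      (D : Type) [Group D] [MulSemiringAction D O]
      (k : Type) [Field k] [Finite k] [CharP k p]
      (F : Type) [Field F] [Finite F] (a a' : ℕ), a ∣ a' → Nat.card F = p ^ a' →
      ∀ (ι : F →+* k) (ι' : F →+* ResidueField O) (ϖ : O), Irreducible ϖ →
      ∀ (e0 : ℕ) (υ : Oˣ), (p : O) = ϖ ^ (e0 * (p - 1)) * υ →
      ∀ ζ : O, IsPrimitiveRoot ζ p →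
      ∀ (ξ : D →* kˣ) (τ0 φ : D) (t : F) (z : O),
        (∀ x : O, τ0 • x - x ∈ maximalIdeal O) →
        (∀ x : O, φ • x - x ^ (p ^ a) ∈ maximalIdeal O) →
        residue O z = ι' t → τ0 • ϖ - z * ϖ ∈ maximalIdeal O ^ 2 →
        ∀ T : Finset (k → Oˣ),
          (∀ h ∈ T, (∀ x, ((h x : Oˣ) : O) - 1 ∈ Ideal.span {(p : O)}) ∧
            (∀ x y, ∃ w : Oˣ, h (x + y) = h x * h y * w ^ p) ∧
            ∀ (σ : D) (x : k), ∃ w : Oˣ,
              ((h (((ξ σ : kˣ) : k) * x) : Oˣ) : O) =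
                σ • ((h x : Oˣ) : O) * ((w : Oˣ) : O) ^ p) →
          (∀ h ∈ T, ∀ h' ∈ T, (∀ x, ∃ w : Oˣ, h x = h' x * w ^ p) → h = h') →
          T.card ≤ Nat.card k ^
            ((if ∀ (σ : D) (n : ℕ), σ • ζ = ζ ^ n → ((ξ σ : kˣ) : k) = n then 1 else 0) +
              Nat.card {nj : ℕ × ℕ // 1 ≤ nj.1 ∧ nj.1 ≤ e0 ∧ ¬ p ∣ nj.1 ∧ nj.2 < a' ∧
                ι t ^ ((p * e0 - nj.1) * p ^ nj.2) = ((ξ τ0 : kˣ) : k)}) := by
  intro p _ _ O _ _ _ _ _ D _ _ k _ _ _ F _ _ a a' haa hF ι ι' ϖ hϖ e0 υ hpe ζ hζ ξ τ0 φ t z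
    hτ0 hφ hz hτϖ T hT hTinj
  have hp : p.Prime := Fact.out
  have ha' : 1 ≤ a' := by
    rcases Nat.eq_zero_or_pos a' with h | h
    · rw [h, pow_zero] at hF
      have h1 := Finite.one_lt_card (α := F)
      omega
    · exact h
  have ha : 1 ≤ a := by
    rcases Nat.eq_zero_or_pos a with h | h
    · rw [h] at haa
      have h1 := Nat.eq_zero_of_zero_dvd haa
      omega
    · exact h
  let act : D → O ≃+* O := fun σ => MulSemiringAction.toRingEquiv D O σ
  have hact : ∀ (σ : D) (x : O), act σ x = σ • x := fun _ _ => rfl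
  -- `e0 = 0` is impossible
  have he0 : 1 ≤ e0 := by
    by_contra hcon
    have h0 : e0 = 0 := by omega
    rw [h0, Nat.zero_mul, pow_zero, one_mul] at hpe
    have hη : IsPrimitiveRoot (act φ ζ) p := hζ.map_of_injective (act φ).injective
    have h1 : residue O (act φ ζ) = 1 := by
      have h2 := hφ ζ
      have h3 : ζ ^ (p ^ a) = 1 := by
        obtain ⟨a0, rfl⟩ : ∃ a0, a = a0 + 1 := ⟨a - 1, by omega⟩
        rw [pow_succ', pow_mul, hζ.pow_eq_one, one_pow]
      rw [h3] at h2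
      have h4 := (residue_eq_zero_iff _).mpr h2
      rw [map_sub, map_one] at h4
      exact sub_eq_zero.mp h4
    have h5 := hη.geom_sum_eq_zero hp.one_lt
    have h6 := congrArg (residue O) h5
    rw [map_sum, map_zero] at h6
    simp only [map_pow, h1, one_pow, Finset.sum_const, Finset.card_range, nsmul_eq_mul,
      mul_one] at h6
    have h7 : (p : O) ∈ maximalIdeal O := by
      rw [← residue_eq_zero_iff, map_natCast]
      exact h6
    rw [hpe] at h7
    exact (IsLocalRing.mem_maximalIdeal _).mp h7 υ.isUnit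
  have hq1 : 1 ≤ e0 * (p - 1) := Nat.mul_pos he0 (Nat.sub_pos_of_lt hp.one_lt)
  -- `τ0`
  have hτ : ∀ x : O, residue O (act τ0 x) = residue O x := by
    intro x
    have h1 := (residue_eq_zero_iff _).mpr (hτ0 x)
    rw [map_sub] at h1
    exact sub_eq_zero.mp h1
  obtain ⟨cu, hcu⟩ := UnitPowExtra.exists_unit_map_uniformizer hϖ (act τ0)
  have hc : residue O (cu : O) = ι' t := by
    rw [← hz]
    have h1 : ϖ * ((cu : O) - z) ∈ maximalIdeal O ^ 2 := by
      have h2 : ϖ * ((cu : O) - z) = τ0 • ϖ - z * ϖ := by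
        rw [← hact, hcu]
        ring
      rw [h2]
      exact hτϖ
    obtain ⟨b, hb⟩ := (mem_maximalIdeal_pow_iff hϖ 2 _).mp h1
    have h3 : (cu : O) - z = ϖ * b := by
      have h4 : ϖ * ((cu : O) - z) = ϖ * (ϖ * b) := by
        rw [hb]
        ring
      exact mul_left_cancel₀ hϖ.ne_zero h4
    have h5 : residue O ((cu : O) - z) = 0 := by
      rw [residue_eq_zero_iff, h3]
      exact Ideal.mul_mem_right _ _ (uniformizer_mem_maximalIdeal hϖ)
    rw [map_sub] at h5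
    exact sub_eq_zero.mp h5
  -- `φ ^ (a' / a)`
  obtain ⟨r, hr⟩ := haa
  have hφpow : ∀ (n : ℕ) (x : O),
      residue O ((φ ^ n) • x) = residue O x ^ (p ^ (a * n)) := by
    intro n
    induction n with
    | zero =>
      intro x
      rw [pow_zero, one_smul, Nat.mul_zero, pow_zero, pow_one]
    | succ n ih =>
      intro x
      rw [pow_succ', mul_smul]
      have h1 := (residue_eq_zero_iff _).mpr (hφ ((φ ^ n) • x))
      rw [map_sub, map_pow] at h1
      rw [sub_eq_zero.mp h1, ih, ← pow_mul, ← pow_add, Nat.mul_succ]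
  have hφ' : ∀ x : O, residue O (act (φ ^ r) x) = residue O x ^ (p ^ a') := by
    intro x
    rw [hact, hφpow, hr]
  obtain ⟨cu', hcu'⟩ := UnitPowExtra.exists_unit_map_uniformizer hϖ (act (φ ^ r))
  have hc' : residue O (cu' : O) ≠ 0 := by
    intro h
    exact (IsLocalRing.mem_maximalIdeal _).mp ((residue_eq_zero_iff _).mp h) cu'.isUnit
  -- the family
  have hlev : p * e0 - e0 = e0 * (p - 1) := by
    have h1 := UnitPow.mul_eq_add_mul_pred hp.pos e0
    omega
  have hfam : IsFam p (fun σ => ((ξ σ : kˣ) : k)) act (p * e0 - e0) T := by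
    rw [hlev]
    refine ⟨?_, ?_, ?_, ?_⟩
    · intro h hh x
      rw [mem_principalUnits, maximalIdeal_pow_eq_span hϖ]
      have h1 := (hT h hh).1 x
      rw [hpe, Ideal.span_singleton_mul_right_unit υ.isUnit] at h1
      exact h1
    · intro h hh x y
      exact (hT h hh).2.1 x y
    · intro h hh σ x
      obtain ⟨w, hw⟩ := (hT h hh).2.2 σ x
      exact ⟨w, Units.ext (by rw [hw, Units.val_mul, Units.val_pow_eq_pow_val]; rfl)⟩
    · intro h hh h' hh' hx
      exact hTinj h hh h' hh' hx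
  exact card_le_main hϖ hpe rfl (fun σ => ((ξ σ : kˣ) : k)) act he0 hζ hF ι ι' τ0 (φ ^ r) t
    (cu : O) (cu' : O) hτ hcu hc hφ' hcu' hc' (Units.ne_zero _) e0 le_rfl T hfam

end Fermat.Agent.S56.LF.CntDirect
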