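import Fermat.Agent.S56.LF.CountFinrank

/-!
# S56, brick LF, row C3 (Kummer twin, part 7): `Module.Finite ∧ finrank ≤ N` from family bounds

The exit shape of `Flat.CntFinStatement` (`Module.Finite k (HSpace …) ∧ finrank k (HSpace …) ≤ N`)
from the shape of `Flat.CntAbsStatement` / `LF/OKInst` (a bound `T.card ≤ |k| ^ N` for every
finite family `T` of values of an injective map), over a finite field `k`.

* `finite_of_finset_card_le` : a type whose finite subsets have bounded cardinality is finite.
* `finite_and_finrank_le_of_finset_card_le` : `V` with `S.card ≤ |k| ^ N` for all finsets `S`.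
* `finite_and_finrank_le_of_injective` : through an injective map `f : V → X`.
* `submodule_finite_and_finrank_le_of_injOn` : for a submodule `W ≤ V` and `f : V → X` injective
  on `W`.
-/

set_option autoImplicit false

namespace Fermat.Agent.S56.LF.CountFinrank

/-- A type all of whose finite subsets have at most `n` elements is finite. -/
theorem finite_of_finset_card_le {V : Type*} (n : ℕ) (h : ∀ S : Finset V, S.card ≤ n) :
    Finite V := by
  by_contra hV
  rw [not_finite_iff_infinite] at hV
  obtain ⟨S, hS⟩ := Infinite.exists_subset_card_eq V (n + 1)
  have h1 := h S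
  omega

variable {k V : Type*} [Field k] [Finite k] [AddCommGroup V] [Module k V]

/-- If every finite subset of `V` has at most `|k| ^ N` elements, then `V` is finite-dimensional
of dimension at most `N`. -/
theorem finite_and_finrank_le_of_finset_card_le (N : ℕ)
    (h : ∀ S : Finset V, S.card ≤ Nat.card k ^ N) :
    Module.Finite k V ∧ Module.finrank k V ≤ N := by
  have hV : Finite V := finite_of_finset_card_le _ h
  exact ⟨Module.Finite.of_finite, finrank_le_of_finset_card_le N h⟩

/-- If `f : V → X` is injective and every finite family of values of `f` has at most `|k| ^ N`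
elements, then `V` is finite-dimensional of dimension at most `N`. -/
theorem finite_and_finrank_le_of_injective {X : Type*} (N : ℕ) (f : V → X)
    (hf : Function.Injective f)
    (h : ∀ T : Finset X, (∀ t ∈ T, ∃ v, f v = t) → T.card ≤ Nat.card k ^ N) :
    Module.Finite k V ∧ Module.finrank k V ≤ N := by
  classical
  refine finite_and_finrank_le_of_finset_card_le N fun S => ?_
  have h1 := h (S.image f) (by
    intro t ht
    rw [Finset.mem_image] at ht
    obtain ⟨v, -, rfl⟩ := ht
    exact ⟨v, rfl⟩)
  rwa [Finset.card_image_of_injective _ hf] at h1

/-- If `f : V → X` is injective on the submodule `W` and every finite family of values of `f` on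
`W` has at most `|k| ^ N` elements, then `W` is finite-dimensional of dimension at most `N`. -/
theorem submodule_finite_and_finrank_le_of_injOn {X : Type*} (W : Submodule k V) (N : ℕ)
    (f : V → X) (hinj : ∀ v ∈ W, ∀ v' ∈ W, f v = f v' → v = v')
    (h : ∀ T : Finset X, (∀ t ∈ T, ∃ v ∈ W, f v = t) → T.card ≤ Nat.card k ^ N) :
    Module.Finite k W ∧ Module.finrank k W ≤ N := by
  refine finite_and_finrank_le_of_injective N (fun w : W => f w)
    (fun w w' hw => Subtype.ext (hinj w w.2 w' w'.2 hw)) fun T hT => h T fun t ht => ?_
  obtain ⟨w, rfl⟩ := hT t ht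
  exact ⟨w, w.2, rfl⟩

end Fermat.Agent.S56.LF.CountFinrank
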