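import Mathlib

/-!
# S56, brick LF, row C3 (Kummer twin, part 6): `finrank` bound from an injection

Glue between the shape of `Flat/CntAbs.lean` (`Nat.card {h : k →+ B // …} ≤ |k| ^ N`) and the
shape of `CntStatement` (`finrank_k (HSpace …) ≤ N`), over a finite field `k`.

* `finrank_le_of_injective` : a `k`-vector space which injects (as a set) into a finite type
  with at most `|k| ^ N` elements has `finrank ≤ N`.
* `finrank_le_of_injOn` : the same for a submodule `W ≤ V` and a map defined on `V`, injective
  on `W`, with values in a subtype `{x // P x}` on `W`.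
-/

set_option autoImplicit false

namespace Fermat.Agent.S56.LF.CountInj

variable {k V : Type*} [Field k] [Finite k] [AddCommGroup V] [Module k V]

/-- A `k`-vector space which injects into a finite type with at most `|k| ^ N` elements has
`finrank ≤ N`. -/
theorem finrank_le_of_injective {X : Type*} [Finite X] (N : ℕ) (f : V → X)
    (hf : Function.Injective f) (hX : Nat.card X ≤ Nat.card k ^ N) :
    Module.finrank k V ≤ N := by
  have hV : Finite V := Finite.of_injective f hf
  have hfin : Module.Finite k V := Module.Finite.of_finite
  have h1 : Nat.card V = Nat.card k ^ Module.finrank k V := Module.natCard_eq_pow_finrank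
  have h2 : Nat.card V ≤ Nat.card k ^ N := (Nat.card_le_card_of_injective f hf).trans hX
  rw [h1] at h2
  exact (Nat.pow_le_pow_iff_right Finite.one_lt_card).mp h2

/-- Let `W ≤ V` be a submodule, `f : V → X` a map with `P (f v)` for `v ∈ W`, injective on `W`.
If `{x // P x}` is finite with at most `|k| ^ N` elements, then `finrank k W ≤ N`. -/
theorem finrank_le_of_injOn {X : Type*} (P : X → Prop) [Finite {x : X // P x}]
    (W : Submodule k V) (N : ℕ) (f : V → X) (hP : ∀ v ∈ W, P (f v))
    (hinj : ∀ v ∈ W, ∀ v' ∈ W, f v = f v' → v = v')
    (hX : Nat.card {x : X // P x} ≤ Nat.card k ^ N) : Module.finrank k W ≤ N := by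
  refine finrank_le_of_injective N (fun w : W => (⟨f w, hP w w.2⟩ : {x : X // P x})) ?_ hX
  intro w w' h
  exact Subtype.ext (hinj w w.2 w' w'.2 (congrArg Subtype.val h))

end Fermat.Agent.S56.LF.CountInj
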