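import Mathlib

/-!
# S56, brick LF, row C3 (Kummer twin, part 8): the twist `ξ χ = ω̄`, arithmetic of the constants

Setting of `Flat.CntFinStatement`, made generic: `Γ` a subgroup of `Gal(Ω/F)`, `ζ ∈ Ω` a primitive
`p`-th root of unity, `ξ χ : Gal(Ω/F) → kˣ` plain functions with `ξ` multiplicative on `Γ` and
`ξ σ * χ σ = n` whenever `σ ζ = ζ ^ n` (`σ ∈ Γ`).  No multiplicativity of `χ` is assumed.

* `natCast_mul_inv_apply` : for `σ ∈ Γ` with `σ ζ = ζ ^ m`: `(m : k) * χ σ⁻¹ = ξ σ`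
  (the constant of the equivariance `h (ξ σ * x) ≡ σ • h x`, with HSpace's clause read at `σ⁻¹`).
* `chi_inv` : `χ σ⁻¹ = (χ σ)⁻¹` for `σ ∈ Γ`.
* `forall_chi_eq_one_iff` : `(∀ σ ∈ Γ, χ σ = 1) ↔ (∀ σ ∈ Γ, ∀ n, σ ζ = ζ ^ n → ξ σ = n)` (the two
  `if` conditions of `CntFinStatement` / `CntAbsStatement`).
* `exists_apply_eq_pow` : every `σ` maps `ζ` to a power `ζ ^ n`.
-/

set_option autoImplicit false

namespace Fermat.Agent.S56.LF.CycloTwist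

variable {F Ω : Type*} [Field F] [Field Ω] [Algebra F Ω] {p : ℕ} [Fact p.Prime]
  {k : Type*} [Field k] [CharP k p]

/-- Every automorphism maps a primitive `p`-th root of unity to one of its powers. -/
theorem exists_apply_eq_pow {ζ : Ω} (hζ : IsPrimitiveRoot ζ p) (σ : Ω ≃ₐ[F] Ω) :
    ∃ n : ℕ, σ ζ = ζ ^ n := by
  have hp : p.Prime := Fact.out
  have : NeZero p := ⟨hp.ne_zero⟩
  have h1 : (σ ζ) ^ p = 1 := by rw [← map_pow, hζ.pow_eq_one, map_one]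
  obtain ⟨n, -, hn⟩ := hζ.eq_pow_of_pow_eq_one h1
  exact ⟨n, hn.symm⟩

/-- If `σ ζ = ζ ^ m` and `σ⁻¹ ζ = ζ ^ m'` then `m * m' = 1` in characteristic `p`. -/
theorem natCast_mul_natCast_eq_one {ζ : Ω} (hζ : IsPrimitiveRoot ζ p) {σ : Ω ≃ₐ[F] Ω} {m m' : ℕ}
    (hm : σ ζ = ζ ^ m) (hm' : σ⁻¹ ζ = ζ ^ m') : (m : k) * (m' : k) = 1 := by
  have hp : p.Prime := Fact.out
  have h3 : ζ ^ (m * m') = ζ ^ 1 := by
    rw [pow_one, pow_mul, ← hm, ← map_pow, ← hm']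
    show (σ * σ⁻¹) ζ = ζ
    rw [mul_inv_cancel]
    rfl
  have h4 : (m * m') % p = 1 := by
    have h3' : ζ ^ ((m * m') % p) = ζ ^ 1 := by
      rw [← pow_eq_pow_mod _ hζ.pow_eq_one]; exact h3
    exact hζ.pow_inj (Nat.mod_lt _ hp.pos) hp.one_lt h3'
  have h5 : ((m * m' : ℕ) : k) = 1 := by
    rw [CharP.natCast_eq_natCast_mod k p (m * m'), h4, Nat.cast_one]
  rw [← h5, Nat.cast_mul]

variable (Γ : Subgroup (Ω ≃ₐ[F] Ω)) {ζ : Ω} (hζ : IsPrimitiveRoot ζ p)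
  (χ ξ : (Ω ≃ₐ[F] Ω) → kˣ)
  (hξ : ∀ σ ∈ Γ, ∀ τ ∈ Γ, ξ (σ * τ) = ξ σ * ξ τ)
  (hχ : ∀ σ ∈ Γ, ∀ n : ℕ, σ ζ = ζ ^ n → ((ξ σ : kˣ) : k) * ((χ σ : kˣ) : k) = n)

include hξ in
/-- `ξ σ * ξ σ⁻¹ = 1` for `σ ∈ Γ`. -/
theorem xi_mul_xi_inv {σ : Ω ≃ₐ[F] Ω} (hσ : σ ∈ Γ) : ξ σ * ξ σ⁻¹ = 1 := by
  have h1 := hξ 1 (one_mem _) 1 (one_mem _)
  rw [mul_one] at h1
  have hξ1 : ξ 1 = 1 := left_eq_mul.mp h1
  rw [← hξ σ hσ σ⁻¹ (inv_mem hσ), mul_inv_cancel, hξ1]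

include hζ hξ hχ in
/-- **The equivariance constant.**  For `σ ∈ Γ` with `σ ζ = ζ ^ m`: `(m : k) * χ σ⁻¹ = ξ σ`. -/
theorem natCast_mul_inv_apply {σ : Ω ≃ₐ[F] Ω} (hσ : σ ∈ Γ) {m : ℕ} (hm : σ ζ = ζ ^ m) :
    (m : k) * ((χ σ⁻¹ : kˣ) : k) = ((ξ σ : kˣ) : k) := by
  obtain ⟨m', hm'⟩ := exists_apply_eq_pow hζ σ⁻¹
  have h2 := hχ σ⁻¹ (inv_mem hσ) m' hm'
  have h5 : (m : k) * (m' : k) = 1 := natCast_mul_natCast_eq_one hζ hm hm'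
  have h6k : ((ξ σ : kˣ) : k) * ((ξ σ⁻¹ : kˣ) : k) = 1 := by
    rw [← Units.val_mul, xi_mul_xi_inv Γ ξ hξ hσ, Units.val_one]
  calc (m : k) * ((χ σ⁻¹ : kˣ) : k)
      = (m : k) * (((ξ σ : kˣ) : k) * ((ξ σ⁻¹ : kˣ) : k) * ((χ σ⁻¹ : kˣ) : k)) := by
        rw [h6k, one_mul]
    _ = (m : k) * (((ξ σ : kˣ) : k) * (m' : k)) := by rw [mul_assoc, h2]
    _ = ((ξ σ : kˣ) : k) * ((m : k) * (m' : k)) := by ring
    _ = ((ξ σ : kˣ) : k) := by rw [h5, mul_one]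

include hζ hξ hχ in
/-- `χ σ⁻¹ = (χ σ)⁻¹` for `σ ∈ Γ` (although `χ` is not assumed multiplicative). -/
theorem chi_inv {σ : Ω ≃ₐ[F] Ω} (hσ : σ ∈ Γ) : χ σ⁻¹ = (χ σ)⁻¹ := by
  obtain ⟨m, hm⟩ := exists_apply_eq_pow hζ σ
  have h1 := natCast_mul_inv_apply Γ hζ χ ξ hξ hχ hσ hm
  have h2 := hχ σ hσ m hm
  refine eq_inv_of_mul_eq_one_left (Units.ext ?_)
  have hξ0 : ((ξ σ : kˣ) : k) ≠ 0 := (ξ σ).ne_zero
  rw [Units.val_mul, Units.val_one]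
  apply mul_left_cancel₀ hξ0
  calc ((ξ σ : kˣ) : k) * (((χ σ⁻¹ : kˣ) : k) * ((χ σ : kˣ) : k))
      = ((ξ σ : kˣ) : k) * ((χ σ : kˣ) : k) * ((χ σ⁻¹ : kˣ) : k) := by ring
    _ = (m : k) * ((χ σ⁻¹ : kˣ) : k) := by rw [h2]
    _ = ((ξ σ : kˣ) : k) * 1 := by rw [h1, mul_one]

omit [CharP k p] in
include hζ hχ in
/-- The two `if` conditions agree: `χ = 1` on `Γ` iff `ξ` is the mod-`p` cyclotomic character
on `Γ`. -/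
theorem forall_chi_eq_one_iff :
    (∀ σ ∈ Γ, χ σ = 1) ↔ ∀ σ ∈ Γ, ∀ n : ℕ, σ ζ = ζ ^ n → ((ξ σ : kˣ) : k) = n := by
  constructor
  · intro h σ hσ n hn
    have h2 := hχ σ hσ n hn
    rw [h σ hσ, Units.val_one, mul_one] at h2
    exact h2
  · intro h σ hσ
    obtain ⟨n, hn⟩ := exists_apply_eq_pow hζ σ
    have h1 := h σ hσ n hn
    have h2 := hχ σ hσ n hn
    rw [← h1] at h2
    exact Units.ext ((mul_eq_left₀ (ξ σ).ne_zero).mp h2)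

end Fermat.Agent.S56.LF.CycloTwist
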