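/-
S56 / brick LF, supersingular ("induced") case: the diagonal component of a flat cocycle.

`r : Γ →* M₂(k)` is diagonal on a subgroup `G0` and antidiagonal off it, `d` is an `r`-derivation
with trace-zero cocycle `c σ = d σ * (r σ)⁻¹`.  Then `α := c₀₀` is additive on `G0`, and
`α (F g F⁻¹) = - α g` for `F ∉ G0`, `g ∈ G0`: `α` transforms under conjugation by the whole group
through the sign character `η` of `G0`.

For `Γ = Gal(ℚ̄_p/ℚ_p)`, `G0 = G_{F0}` and a flat lift `r + ε d`, the restriction of `α` to `G_K`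
is therefore an element of `HSpace p k ⊥ K ζ _ η` (Kummer clause: `FlatKummer.mem_HSpace_of_flat`);
if that space is zero (the count over the base `ℚ_p`: `[η = 1] + [η|I = ω̄|I] = 0`) and every
`σ ^ n0` lies in `G_K` with `p ∤ n0`, then `α = 0` on `G_{F0}`.

* `alpha_mul`, `alpha_conj_mem`, `alpha_conj_not_mem`, `alpha_pow` : the algebra (any group).
* `etaU` : the sign character of a subgroup, as a function to the units.
* `alpha_mem_HSpace` : `α|G_K ∈ HSpace p k ⊥ K ζ _ η`.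
* `alpha_eq_zero` : the exit (the hypothesis `(hα)` of the three-step argument, case (I)).
* `alpha_eq_zero_of_finrank` : the same, the vanishing of the space given as `finrank ≤ 0`.
-/
import Mathlib
import Fermat.Agent.S56.Flat.Defs
import Fermat.Agent.S56.LF.FlatKummer

set_option autoImplicit false

namespace Fermat.Agent.S56.LF.EtaClass

open Fermat.Agent.S56.Flat

section Algebra

variable {Γ : Type*} [Group Γ] {k : Type*} [Field k]

/-- Conjugation by a matrix whose relevant off-diagonal entries vanish fixes the `(0,0)` entry. -/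
theorem conj_apply_zero_of_diag {A A' M : Matrix (Fin 2) (Fin 2) k} (h : A * A' = 1)
    (hA : A 0 1 = 0) (hA' : A' 1 0 = 0) : (A * M * A') 0 0 = M 0 0 := by
  have h00 : A 0 0 * A' 0 0 = 1 := by
    have h1 := congrFun (congrFun h 0) 0
    rw [Matrix.mul_apply, Fin.sum_univ_two, hA, zero_mul, add_zero, Matrix.one_apply_eq] at h1
    exact h1
  rw [Matrix.mul_apply, Fin.sum_univ_two, hA', mul_zero, add_zero, Matrix.mul_apply,
    Fin.sum_univ_two, hA, zero_mul, add_zero]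
  calc A 0 0 * M 0 0 * A' 0 0 = (A 0 0 * A' 0 0) * M 0 0 := by ring
    _ = M 0 0 := by rw [h00, one_mul]

/-- Conjugation by an antidiagonal matrix moves the `(1,1)` entry to the `(0,0)` entry. -/
theorem conj_apply_zero_of_anti {A A' M : Matrix (Fin 2) (Fin 2) k} (h : A * A' = 1)
    (hA : A 0 0 = 0) (hA' : A' 0 0 = 0) : (A * M * A') 0 0 = M 1 1 := by
  have h00 : A 0 1 * A' 1 0 = 1 := by
    have h1 := congrFun (congrFun h 0) 0
    rw [Matrix.mul_apply, Fin.sum_univ_two, hA, zero_mul, zero_add, Matrix.one_apply_eq] at h1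
    exact h1
  rw [Matrix.mul_apply, Fin.sum_univ_two, hA', mul_zero, zero_add, Matrix.mul_apply,
    Fin.sum_univ_two, hA, zero_mul, zero_add]
  calc A 0 1 * M 1 1 * A' 1 0 = (A 0 1 * A' 1 0) * M 1 1 := by ring
    _ = M 1 1 := by rw [h00, one_mul]

variable (r : Γ →* Matrix (Fin 2) (Fin 2) k) (d : Γ → Matrix (Fin 2) (Fin 2) k)

theorem r_mul_inv (σ : Γ) : r σ * r σ⁻¹ = 1 := by
  rw [← map_mul, mul_inv_cancel, map_one]

/-- The diagonal component of the cocycle `σ ↦ d σ * (r σ)⁻¹`. -/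
def alpha (σ : Γ) : k := (d σ * r σ⁻¹) 0 0

/-- The cocycle relation of `σ ↦ d σ * (r σ)⁻¹`. -/
theorem coc_mul (hd : ∀ σ τ : Γ, d (σ * τ) = d σ * r τ + r σ * d τ) (σ τ : Γ) :
    d (σ * τ) * r (σ * τ)⁻¹ = d σ * r σ⁻¹ + r σ * (d τ * r τ⁻¹) * r σ⁻¹ := by
  rw [hd, mul_inv_rev, map_mul, add_mul]
  congr 1
  · rw [mul_assoc, ← mul_assoc (r τ), r_mul_inv, one_mul]
  · simp only [mul_assoc]

variable (G0 : Subgroup Γ)

/-- `α` is additive as soon as the first factor lies in `G0`. -/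
theorem alpha_mul (hd : ∀ σ τ : Γ, d (σ * τ) = d σ * r τ + r σ * d τ)
    (hdiag : ∀ σ ∈ G0, r σ 1 0 = 0 ∧ r σ 0 1 = 0) {σ : Γ} (hσ : σ ∈ G0) (τ : Γ) :
    alpha r d (σ * τ) = alpha r d σ + alpha r d τ := by
  unfold alpha
  rw [coc_mul r d hd, Matrix.add_apply,
    conj_apply_zero_of_diag (r_mul_inv r σ) (hdiag σ hσ).2 (hdiag σ⁻¹ (G0.inv_mem hσ)).1]

theorem alpha_one (hd : ∀ σ τ : Γ, d (σ * τ) = d σ * r τ + r σ * d τ)
    (hdiag : ∀ σ ∈ G0, r σ 1 0 = 0 ∧ r σ 0 1 = 0) : alpha r d 1 = 0 := by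
  have h := alpha_mul r d G0 hd hdiag G0.one_mem 1
  rw [mul_one] at h
  exact add_eq_left.mp h.symm

theorem alpha_inv (hd : ∀ σ τ : Γ, d (σ * τ) = d σ * r τ + r σ * d τ)
    (hdiag : ∀ σ ∈ G0, r σ 1 0 = 0 ∧ r σ 0 1 = 0) {σ : Γ} (hσ : σ ∈ G0) :
    alpha r d σ⁻¹ = -alpha r d σ := by
  have h := alpha_mul r d G0 hd hdiag hσ σ⁻¹
  rw [mul_inv_cancel, alpha_one r d G0 hd hdiag] at h
  exact eq_neg_of_add_eq_zero_right h.symm

/-- `α` is invariant under conjugation by `G0`. -/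
theorem alpha_conj_mem (hd : ∀ σ τ : Γ, d (σ * τ) = d σ * r τ + r σ * d τ)
    (hdiag : ∀ σ ∈ G0, r σ 1 0 = 0 ∧ r σ 0 1 = 0) {σ g : Γ} (hσ : σ ∈ G0) (hg : g ∈ G0) :
    alpha r d (σ * g * σ⁻¹) = alpha r d g := by
  rw [alpha_mul r d G0 hd hdiag (G0.mul_mem hσ hg), alpha_mul r d G0 hd hdiag hσ,
    alpha_inv r d G0 hd hdiag hσ]
  ring

/-- `α` is anti-invariant under conjugation by elements outside `G0`. -/
theorem alpha_conj_not_mem (hd : ∀ σ τ : Γ, d (σ * τ) = d σ * r τ + r σ * d τ)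
    (htr : ∀ σ : Γ, (d σ * r σ⁻¹).trace = 0)
    (hdiag : ∀ σ ∈ G0, r σ 1 0 = 0 ∧ r σ 0 1 = 0)
    (hanti : ∀ σ : Γ, σ ∉ G0 → r σ 0 0 = 0 ∧ r σ 1 1 = 0) {F g : Γ} (hF : F ∉ G0)
    (hg' : F * g * F⁻¹ ∈ G0) : alpha r d (F * g * F⁻¹) = -alpha r d g := by
  have hF' : F⁻¹ ∉ G0 := fun h => hF (by simpa using G0.inv_mem h)
  have e : F * g * F⁻¹ * F = F * g := by group
  have h1 := coc_mul r d hd (F * g * F⁻¹) F
  have h2 := coc_mul r d hd F g
  rw [e] at h1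
  have h3 := congrFun (congrFun (h1.symm.trans h2) 0) 0
  rw [Matrix.add_apply, Matrix.add_apply,
    conj_apply_zero_of_diag (r_mul_inv r _) (hdiag _ hg').2 (hdiag _ (G0.inv_mem hg')).1,
    conj_apply_zero_of_anti (r_mul_inv r F) (hanti F hF).1 (hanti F⁻¹ hF').1] at h3
  have h4 := htr g
  rw [Matrix.trace_fin_two] at h4
  unfold alpha
  linear_combination h3 + h4

theorem alpha_pow (hd : ∀ σ τ : Γ, d (σ * τ) = d σ * r τ + r σ * d τ)
    (hdiag : ∀ σ ∈ G0, r σ 1 0 = 0 ∧ r σ 0 1 = 0) {σ : Γ} (hσ : σ ∈ G0) (n : ℕ) :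
    alpha r d (σ ^ n) = n * alpha r d σ := by
  induction n with
  | zero => rw [pow_zero, alpha_one r d G0 hd hdiag, Nat.cast_zero, zero_mul]
  | succ n ih =>
    rw [pow_succ', alpha_mul r d G0 hd hdiag hσ, ih, Nat.cast_succ]
    ring

variable (k) in
open Classical in
/-- The sign character of a subgroup (`1` on it, `-1` off it), as a function to the units. -/
noncomputable def etaU (σ : Γ) : kˣ := if σ ∈ G0 then 1 else -1

theorem etaU_of_mem {σ : Γ} (h : σ ∈ G0) : etaU k G0 σ = 1 := if_pos h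

theorem etaU_of_not_mem {σ : Γ} (h : σ ∉ G0) : etaU k G0 σ = -1 := if_neg h

/-- For a subgroup of index two the sign character is multiplicative. -/
theorem etaU_mul (h2 : G0.index = 2) (σ τ : Γ) :
    etaU k G0 (σ * τ) = etaU k G0 σ * etaU k G0 τ := by
  have key := Subgroup.mul_mem_iff_of_index_two h2 (a := σ) (b := τ)
  by_cases hσ : σ ∈ G0 <;> by_cases hτ : τ ∈ G0
  · rw [etaU_of_mem G0 hσ, etaU_of_mem G0 hτ, etaU_of_mem G0 (key.mpr (iff_of_true hσ hτ)),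
      one_mul]
  · rw [etaU_of_mem G0 hσ, etaU_of_not_mem G0 hτ,
      etaU_of_not_mem G0 (fun h => hτ ((key.mp h).mp hσ)), one_mul]
  · rw [etaU_of_not_mem G0 hσ, etaU_of_mem G0 hτ,
      etaU_of_not_mem G0 (fun h => hσ ((key.mp h).mpr hτ)), mul_one]
  · rw [etaU_of_not_mem G0 hσ, etaU_of_not_mem G0 hτ,
      etaU_of_mem G0 (key.mpr (iff_of_false hσ hτ)), neg_mul_neg, one_mul]

end Algebra

section Concrete

variable {p : ℕ} [Fact p.Prime] {k : Type} [Field k]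
  (r : Gp p →* Matrix (Fin 2) (Fin 2) k) (d : Gp p → Matrix (Fin 2) (Fin 2) k)

/-- The restriction to `G_K` of the diagonal component of a flat cocycle lies in
`HSpace p k ⊥ K ζ _ η`, `η` the sign character of `G_{F0}`. -/
theorem alpha_mem_HSpace (hLev : FlatKummer.LevelStatement) (hp2 : p ≠ 2) [CharP k p]
    (hd : ∀ σ τ : Gp p, d (σ * τ) = d σ * r τ + r σ * d τ)
    (htr : ∀ σ : Gp p, (d σ * r σ⁻¹).trace = 0)
    (hflat : FlatLocal p ((Fin 2 → k) × (Fin 2 → k)) (liftAct r d))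
    (F0 K : IntermediateField ℚ_[p] (PadicAlgCl p)) [FiniteDimensional ℚ_[p] K]
    (hdiag : ∀ σ ∈ F0.fixingSubgroup, r σ 1 0 = 0 ∧ r σ 0 1 = 0)
    (hanti : ∀ σ : Gp p, σ ∉ F0.fixingSubgroup → r σ 0 0 = 0 ∧ r σ 1 1 = 0)
    (hKF0 : K.fixingSubgroup ≤ F0.fixingSubgroup)
    (ζ : PadicAlgCl p) (hζ : IsPrimitiveRoot ζ p) (hζK : ζ ∈ K) :
    (fun g : K.fixingSubgroup => alpha r d (g : Gp p)) ∈
      HSpace p k ⊥ K ζ hζ.pow_eq_one (fun σ => ((etaU k F0.fixingSubgroup σ : kˣ) : k)) := by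
  have hpX : ∀ x : (Fin 2 → k) × (Fin 2 → k), p • x = 0 := fun x => by
    rw [← Nat.cast_smul_eq_nsmul k p x, CharP.cast_eq_zero k p, zero_smul]
  refine FlatKummer.mem_HSpace_of_flat hLev hp2 (liftAct r d) hpX hflat ⊥ K ζ hζ hζK _ _
    ?_ ?_ ?_
  · intro g h
    show alpha r d ((g : Gp p) * (h : Gp p)) = alpha r d (g : Gp p) + alpha r d (h : Gp p)
    exact alpha_mul r d F0.fixingSubgroup hd hdiag (hKF0 g.2) _
  · intro σ _ g g' hgg'
    show alpha r d (g' : Gp p) =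
      ((etaU k F0.fixingSubgroup σ : kˣ) : k) * alpha r d (g : Gp p)
    have hg0 : (g : Gp p) ∈ F0.fixingSubgroup := hKF0 g.2
    have hg0' : σ * (g : Gp p) * σ⁻¹ ∈ F0.fixingSubgroup := by
      rw [← hgg']
      exact hKF0 g'.2
    by_cases hσ : σ ∈ F0.fixingSubgroup
    · rw [etaU_of_mem F0.fixingSubgroup hσ, Units.val_one, one_mul, hgg']
      exact alpha_conj_mem r d F0.fixingSubgroup hd hdiag hσ hg0
    · rw [etaU_of_not_mem F0.fixingSubgroup hσ, Units.val_neg, Units.val_one, neg_one_mul, hgg']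
      exact alpha_conj_not_mem r d F0.fixingSubgroup hd htr hdiag hanti hσ hg0'
  · intro g hg
    have h0 : d (g : Gp p) = 0 := FlatKummer.d_eq_zero_of_liftAct r d (g : Gp p) hg
    show (d (g : Gp p) * r (g : Gp p)⁻¹) 0 0 = 0
    rw [h0, zero_mul, Matrix.zero_apply]

/-- **The diagonal component of a flat cocycle vanishes on `G_{F0}`** (case (I)), provided the
space `HSpace p k ⊥ K ζ _ η` is zero and `G_K` contains all `n0`-th powers, `p ∤ n0`. -/
theorem alpha_eq_zero (hLev : FlatKummer.LevelStatement) (hp2 : p ≠ 2) [CharP k p]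
    (hd : ∀ σ τ : Gp p, d (σ * τ) = d σ * r τ + r σ * d τ)
    (htr : ∀ σ : Gp p, (d σ * r σ⁻¹).trace = 0)
    (hflat : FlatLocal p ((Fin 2 → k) × (Fin 2 → k)) (liftAct r d))
    (F0 K : IntermediateField ℚ_[p] (PadicAlgCl p)) [FiniteDimensional ℚ_[p] K]
    (hdiag : ∀ σ ∈ F0.fixingSubgroup, r σ 1 0 = 0 ∧ r σ 0 1 = 0)
    (hanti : ∀ σ : Gp p, σ ∉ F0.fixingSubgroup → r σ 0 0 = 0 ∧ r σ 1 1 = 0)
    (hKF0 : K.fixingSubgroup ≤ F0.fixingSubgroup)
    (ζ : PadicAlgCl p) (hζ : IsPrimitiveRoot ζ p) (hζK : ζ ∈ K)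
    (n0 : ℕ) (hn0 : ¬ p ∣ n0) (hn0K : ∀ σ : Gp p, σ ^ n0 ∈ K.fixingSubgroup)
    (hbot : ∀ φ ∈ HSpace p k ⊥ K ζ hζ.pow_eq_one
      (fun σ => ((etaU k F0.fixingSubgroup σ : kˣ) : k)), φ = 0) :
    ∀ g ∈ F0.fixingSubgroup, (d g * r g⁻¹) 0 0 = 0 := by
  intro g hg
  have h1 := hbot _
    (alpha_mem_HSpace r d hLev hp2 hd htr hflat F0 K hdiag hanti hKF0 ζ hζ hζK)
  have h2 : alpha r d (g ^ n0) = 0 := congrFun h1 ⟨g ^ n0, hn0K g⟩
  rw [alpha_pow r d _ hd hdiag hg] at h2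
  have h3 : (n0 : k) ≠ 0 := fun h => hn0 ((CharP.cast_eq_zero_iff k p n0).mp h)
  exact (mul_eq_zero.mp h2).resolve_left h3

/-- A finite-dimensional subspace of dimension `≤ 0` is zero (the form in which a count with
exponent `0` is consumed). -/
theorem eq_zero_of_finrank_le_zero {V : Type*} [AddCommGroup V] [Module k V] (H : Submodule k V)
    (h : Module.Finite k H ∧ Module.finrank k H ≤ 0) : ∀ φ ∈ H, φ = 0 := by
  intro φ hφ
  have := h.1
  have h1 : H = ⊥ := Submodule.finrank_eq_zero.mp (Nat.le_zero.mp h.2)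
  rw [h1] at hφ
  exact (Submodule.mem_bot k).mp hφ

/-- The exit `alpha_eq_zero`, with the vanishing of `HSpace p k ⊥ K ζ _ η` given as a count
(`Module.Finite ∧ finrank ≤ 0`). -/
theorem alpha_eq_zero_of_finrank (hLev : FlatKummer.LevelStatement) (hp2 : p ≠ 2) [CharP k p]
    (hd : ∀ σ τ : Gp p, d (σ * τ) = d σ * r τ + r σ * d τ)
    (htr : ∀ σ : Gp p, (d σ * r σ⁻¹).trace = 0)
    (hflat : FlatLocal p ((Fin 2 → k) × (Fin 2 → k)) (liftAct r d))
    (F0 K : IntermediateField ℚ_[p] (PadicAlgCl p)) [FiniteDimensional ℚ_[p] K]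
    (hdiag : ∀ σ ∈ F0.fixingSubgroup, r σ 1 0 = 0 ∧ r σ 0 1 = 0)
    (hanti : ∀ σ : Gp p, σ ∉ F0.fixingSubgroup → r σ 0 0 = 0 ∧ r σ 1 1 = 0)
    (hKF0 : K.fixingSubgroup ≤ F0.fixingSubgroup)
    (ζ : PadicAlgCl p) (hζ : IsPrimitiveRoot ζ p) (hζK : ζ ∈ K)
    (n0 : ℕ) (hn0 : ¬ p ∣ n0) (hn0K : ∀ σ : Gp p, σ ^ n0 ∈ K.fixingSubgroup)
    (hcnt : Module.Finite k (HSpace p k ⊥ K ζ hζ.pow_eq_one
        (fun σ => ((etaU k F0.fixingSubgroup σ : kˣ) : k))) ∧
      Module.finrank k (HSpace p k ⊥ K ζ hζ.pow_eq_one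
        (fun σ => ((etaU k F0.fixingSubgroup σ : kˣ) : k))) ≤ 0) :
    ∀ g ∈ F0.fixingSubgroup, (d g * r g⁻¹) 0 0 = 0 :=
  alpha_eq_zero r d hLev hp2 hd htr hflat F0 K hdiag hanti hKF0 ζ hζ hζK n0 hn0 hn0K
    (eq_zero_of_finrank_le_zero _ hcnt)

end Concrete

end Fermat.Agent.S56.LF.EtaClass
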