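import Mathlib
import Fermat.Agent.S56.LF.FlatKummer
import Fermat.Agent.S56.LF.ThreeStep

/-!
# S56, brick LF: flat ⟹ Kummer-bounded, for an upper triangular `r` (shape (R))

`FlatKummer.entry_mem_HSpace` asks that `r` be trivial on `G_K`.  In the reducible non-split
case this fails at the tame counting field `K` (there `r g = !![1, b g; 0, 1]` on `G_K` with
`b ≠ 0`).  This file gives the junction with `HSpace` for an upper triangular `r` whose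
diagonal characters are trivial on `G_K`, directly from `FlatKummer.mem_HSpace_of_flat`.

Derivation form (`d (σ * τ) = d σ * r τ + r σ * d τ`, `r + ε d` flat):

* `tri_gamma` : `g ↦ d g 1 0` lies in `HSpace` for `χ = χ₂ / χ₁`.
* `tri_alpha` : `g ↦ d g 0 0` lies in `HSpace` for `χ = 1`, once `d σ 1 0 = 0` for all `σ`.
* `tri_beta`  : `g ↦ d g 0 1` lies in `HSpace` for `χ = χ₁ / χ₂`, once the entries `(1, 0)`,
  `(0, 0)`, `(1, 1)` of `d` vanish identically.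
* `tri_b`     : `g ↦ r g 0 1` lies in `HSpace` for `χ = χ₁ / χ₂` (any flat `r + ε d`).

Cocycle form (`c ∈ ThreeStep.Z1 rG`, `rG` with values in `GL₂(k)`, `d = c * rG`): the four
memberships `gamma_mem_HSpace`, `alpha_mem_HSpace`, `beta_mem_HSpace`, `b_mem_HSpace` are the
conclusions of the hypotheses `Fγ`, `Fα`, `Fβ`, `hb` of `ThreeStep.finrank_triangular`
(with `N = G_K`).
-/

set_option autoImplicit false

noncomputable section

namespace Fermat.Agent.S56.LF.FlatKummerTri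

open Fermat.Agent.S56.Flat Fermat.Agent.S56.LF.FlatKummer

/-! ### Derivation form -/

section Derivation

variable {p : ℕ} [Fact p.Prime] {k : Type} [Field k]
  (r : Gp p →* Matrix (Fin 2) (Fin 2) k) (d : Gp p → Matrix (Fin 2) (Fin 2) k)

theorem r_mul_inv (σ : Gp p) : r σ * r σ⁻¹ = 1 := by
  rw [← map_mul, mul_inv_cancel, map_one]

theorem r_inv_mul (σ : Gp p) : r σ⁻¹ * r σ = 1 := by
  rw [← map_mul, inv_mul_cancel, map_one]

/-- Entry `(0, 0)` of `r σ * r σ⁻¹ = 1` for an upper triangular `r`. -/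
theorem r00_mul_inv (hr : ∀ σ : Gp p, r σ 1 0 = 0) (σ : Gp p) : r σ 0 0 * r σ⁻¹ 0 0 = 1 := by
  have h := congrFun (congrFun (r_mul_inv r σ) 0) 0
  rw [Matrix.mul_apply, Fin.sum_univ_two, hr σ⁻¹, mul_zero, add_zero, Matrix.one_apply_eq] at h
  exact h

/-- Entry `(1, 1)` of `r σ * r σ⁻¹ = 1` for an upper triangular `r`. -/
theorem r11_mul_inv (hr : ∀ σ : Gp p, r σ 1 0 = 0) (σ : Gp p) : r σ 1 1 * r σ⁻¹ 1 1 = 1 := by
  have h := congrFun (congrFun (r_mul_inv r σ) 1) 1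
  rw [Matrix.mul_apply, Fin.sum_univ_two, hr σ, zero_mul, zero_add, Matrix.one_apply_eq] at h
  exact h

/-- Entry `(0, 1)` of `r σ * r σ⁻¹ = 1`. -/
theorem r01_mul_inv (σ : Gp p) : r σ 0 0 * r σ⁻¹ 0 1 + r σ 0 1 * r σ⁻¹ 1 1 = 0 := by
  have h := congrFun (congrFun (r_mul_inv r σ) 0) 1
  rw [Matrix.mul_apply, Fin.sum_univ_two] at h
  rw [h]
  exact Matrix.one_apply_ne (by decide)

/-- The general conjugation formula for a derivation. -/
theorem d_conj_gen (hd : ∀ σ τ : Gp p, d (σ * τ) = d σ * r τ + r σ * d τ) (σ g : Gp p) :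
    d (σ * g * σ⁻¹) =
      (d σ * r g - r (σ * g * σ⁻¹) * d σ) * r σ⁻¹ + r σ * d g * r σ⁻¹ := by
  have h1 : d σ * r σ⁻¹ + r σ * d σ⁻¹ = 0 := by
    rw [← hd σ σ⁻¹, mul_inv_cancel, d_one r d hd]
  have h3 : r σ * d σ⁻¹ = -(d σ * r σ⁻¹) := by
    rw [eq_neg_iff_add_eq_zero, add_comm]
    exact h1
  have h4 : r (σ * g) = r (σ * g * σ⁻¹) * r σ := by
    rw [← map_mul, inv_mul_cancel_right]
  have e1 : d (σ * g * σ⁻¹) = d (σ * g) * r σ⁻¹ + r (σ * g) * d σ⁻¹ := hd (σ * g) σ⁻¹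
  have e2 : d (σ * g) = d σ * r g + r σ * d g := hd σ g
  rw [e1, e2, h4, Matrix.mul_assoc (r (σ * g * σ⁻¹)) (r σ) (d σ⁻¹), h3, add_mul, sub_mul,
    Matrix.mul_neg, Matrix.mul_assoc (r (σ * g * σ⁻¹)) (d σ) (r σ⁻¹)]
  abel

/-- Conjugation formula, entry `(1, 0)`. -/
theorem d_conj_10 (hd : ∀ σ τ : Gp p, d (σ * τ) = d σ * r τ + r σ * d τ)
    (hr : ∀ σ : Gp p, r σ 1 0 = 0) (σ g : Gp p) (hg : r g 0 0 = 1)
    (hg' : r (σ * g * σ⁻¹) 1 1 = 1) :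
    d (σ * g * σ⁻¹) 1 0 = r σ 1 1 * d g 1 0 * r σ⁻¹ 0 0 := by
  rw [d_conj_gen r d hd σ g]
  simp only [Matrix.add_apply, Matrix.sub_apply, Matrix.mul_apply, Fin.sum_univ_two, hr σ, hr g,
    hr σ⁻¹, hr (σ * g * σ⁻¹), hg, hg']
  ring

/-- Conjugation formula, entry `(0, 0)`, for a derivation with vanishing `(1, 0)` entry. -/
theorem d_conj_00 (hd : ∀ σ τ : Gp p, d (σ * τ) = d σ * r τ + r σ * d τ)
    (hr : ∀ σ : Gp p, r σ 1 0 = 0) (hd10 : ∀ σ : Gp p, d σ 1 0 = 0) (σ g : Gp p)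
    (hg : r g 0 0 = 1) (hg' : r (σ * g * σ⁻¹) 0 0 = 1) :
    d (σ * g * σ⁻¹) 0 0 = r σ 0 0 * d g 0 0 * r σ⁻¹ 0 0 := by
  rw [d_conj_gen r d hd σ g]
  simp only [Matrix.add_apply, Matrix.sub_apply, Matrix.mul_apply, Fin.sum_univ_two, hr g,
    hr σ⁻¹, hd10 σ, hd10 g, hg, hg']
  ring

/-- Conjugation formula, entry `(0, 1)`, for a derivation with values in the upper right
corner. -/
theorem d_conj_01 (hd : ∀ σ τ : Gp p, d (σ * τ) = d σ * r τ + r σ * d τ)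
    (hr : ∀ σ : Gp p, r σ 1 0 = 0) (hd10 : ∀ σ : Gp p, d σ 1 0 = 0)
    (hd00 : ∀ σ : Gp p, d σ 0 0 = 0) (hd11 : ∀ σ : Gp p, d σ 1 1 = 0) (σ g : Gp p)
    (hg : r g 1 1 = 1) (hg' : r (σ * g * σ⁻¹) 0 0 = 1) :
    d (σ * g * σ⁻¹) 0 1 = r σ 0 0 * d g 0 1 * r σ⁻¹ 1 1 := by
  rw [d_conj_gen r d hd σ g]
  simp only [Matrix.add_apply, Matrix.sub_apply, Matrix.mul_apply, Fin.sum_univ_two, hr g,
    hd10 σ, hd10 g, hd00 σ, hd00 g, hd11 σ, hd11 g, hg, hg']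
  ring

/-- Conjugation formula for the upper right entry of `r` at a unipotent element. -/
theorem r_conj_01 (hr : ∀ σ : Gp p, r σ 1 0 = 0) (σ g : Gp p) (hg0 : r g 0 0 = 1)
    (hg1 : r g 1 1 = 1) :
    r (σ * g * σ⁻¹) 0 1 = r σ 0 0 * r g 0 1 * r σ⁻¹ 1 1 := by
  have h01 := r01_mul_inv r σ
  rw [map_mul, map_mul]
  simp only [Matrix.mul_apply, Fin.sum_univ_two, hr g, hg0, hg1]
  linear_combination h01

omit [Fact p.Prime] in
/-- The scalar action on `k² × k²` is killed by `p`. -/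
theorem p_nsmul_eq_zero [CharP k p] (x : (Fin 2 → k) × (Fin 2 → k)) : p • x = 0 := by
  rw [← Nat.cast_smul_eq_nsmul k p x, CharP.cast_eq_zero k p, zero_smul]

/-- **Shape (R), the `γ`-entry.**  `r` upper triangular with diagonal characters trivial on
`G_K`, `r + ε d` flat: the lower left entry of `d` on `G_K` lies in `HSpace` for `χ₂ / χ₁`. -/
theorem tri_gamma (hLev : LevelStatement) (hp2 : p ≠ 2) [CharP k p]
    (hd : ∀ σ τ : Gp p, d (σ * τ) = d σ * r τ + r σ * d τ)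
    (hr : ∀ σ : Gp p, r σ 1 0 = 0)
    (hflat : FlatLocal p ((Fin 2 → k) × (Fin 2 → k)) (liftAct r d))
    (F0 K : IntermediateField ℚ_[p] (PadicAlgCl p)) [FiniteDimensional ℚ_[p] K]
    (ζ : PadicAlgCl p) (hζ : IsPrimitiveRoot ζ p) (hζK : ζ ∈ K)
    (hK0 : ∀ g ∈ K.fixingSubgroup, r g 0 0 = 1) (hK1 : ∀ g ∈ K.fixingSubgroup, r g 1 1 = 1)
    (χ : Gp p → k) (hχ : ∀ σ ∈ F0.fixingSubgroup, χ σ * r σ 0 0 = r σ 1 1) :
    (fun g : K.fixingSubgroup => d (g : Gp p) 1 0) ∈ HSpace p k F0 K ζ hζ.pow_eq_one χ := by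
  refine mem_HSpace_of_flat hLev hp2 (liftAct r d) (p_nsmul_eq_zero) hflat F0 K ζ hζ hζK χ _
    (fun g h => ?_) (fun σ hσ g g' hgg' => ?_) (fun g hg => ?_)
  · show d ((g : Gp p) * (h : Gp p)) 1 0 = d (g : Gp p) 1 0 + d (h : Gp p) 1 0
    rw [hd]
    simp only [Matrix.add_apply, Matrix.mul_apply, Fin.sum_univ_two, hr (g : Gp p),
      hr (h : Gp p), hK0 (h : Gp p) h.2, hK1 (g : Gp p) g.2]
    ring
  · show d (g' : Gp p) 1 0 = χ σ * d (g : Gp p) 1 0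
    have hg1 : r (σ * (g : Gp p) * σ⁻¹) 1 1 = 1 := by
      rw [← hgg']
      exact hK1 _ g'.2
    rw [hgg', d_conj_10 r d hd hr σ g (hK0 _ g.2) hg1]
    linear_combination (-(d (g : Gp p) 1 0 * r σ⁻¹ 0 0)) * hχ σ hσ +
      (χ σ * d (g : Gp p) 1 0) * r00_mul_inv r hr σ
  · show d (g : Gp p) 1 0 = 0
    rw [d_eq_zero_of_liftAct r d g hg]
    rfl

/-- **Shape (R), the `α`-entry.**  If moreover the lower left entry of `d` vanishes identically,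
the upper left entry of `d` on `G_K` lies in `HSpace` for the trivial character. -/
theorem tri_alpha (hLev : LevelStatement) (hp2 : p ≠ 2) [CharP k p]
    (hd : ∀ σ τ : Gp p, d (σ * τ) = d σ * r τ + r σ * d τ)
    (hr : ∀ σ : Gp p, r σ 1 0 = 0) (hd10 : ∀ σ : Gp p, d σ 1 0 = 0)
    (hflat : FlatLocal p ((Fin 2 → k) × (Fin 2 → k)) (liftAct r d))
    (F0 K : IntermediateField ℚ_[p] (PadicAlgCl p)) [FiniteDimensional ℚ_[p] K]
    (ζ : PadicAlgCl p) (hζ : IsPrimitiveRoot ζ p) (hζK : ζ ∈ K)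
    (hK0 : ∀ g ∈ K.fixingSubgroup, r g 0 0 = 1)
    (χ : Gp p → k) (hχ : ∀ σ ∈ F0.fixingSubgroup, χ σ = 1) :
    (fun g : K.fixingSubgroup => d (g : Gp p) 0 0) ∈ HSpace p k F0 K ζ hζ.pow_eq_one χ := by
  refine mem_HSpace_of_flat hLev hp2 (liftAct r d) (p_nsmul_eq_zero) hflat F0 K ζ hζ hζK χ _
    (fun g h => ?_) (fun σ hσ g g' hgg' => ?_) (fun g hg => ?_)
  · show d ((g : Gp p) * (h : Gp p)) 0 0 = d (g : Gp p) 0 0 + d (h : Gp p) 0 0
    rw [hd]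
    simp only [Matrix.add_apply, Matrix.mul_apply, Fin.sum_univ_two, hr (h : Gp p),
      hd10 (h : Gp p), hK0 (h : Gp p) h.2, hK0 (g : Gp p) g.2]
    ring
  · show d (g' : Gp p) 0 0 = χ σ * d (g : Gp p) 0 0
    have hg1 : r (σ * (g : Gp p) * σ⁻¹) 0 0 = 1 := by
      rw [← hgg']
      exact hK0 _ g'.2
    rw [hgg', d_conj_00 r d hd hr hd10 σ g (hK0 _ g.2) hg1, hχ σ hσ]
    linear_combination (d (g : Gp p) 0 0) * r00_mul_inv r hr σ
  · show d (g : Gp p) 0 0 = 0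
    rw [d_eq_zero_of_liftAct r d g hg]
    rfl

/-- **Shape (R), the `β`-entry.**  If the entries `(1, 0)`, `(0, 0)`, `(1, 1)` of `d` vanish
identically, the upper right entry of `d` on `G_K` lies in `HSpace` for `χ₁ / χ₂`. -/
theorem tri_beta (hLev : LevelStatement) (hp2 : p ≠ 2) [CharP k p]
    (hd : ∀ σ τ : Gp p, d (σ * τ) = d σ * r τ + r σ * d τ)
    (hr : ∀ σ : Gp p, r σ 1 0 = 0) (hd10 : ∀ σ : Gp p, d σ 1 0 = 0)
    (hd00 : ∀ σ : Gp p, d σ 0 0 = 0) (hd11 : ∀ σ : Gp p, d σ 1 1 = 0)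
    (hflat : FlatLocal p ((Fin 2 → k) × (Fin 2 → k)) (liftAct r d))
    (F0 K : IntermediateField ℚ_[p] (PadicAlgCl p)) [FiniteDimensional ℚ_[p] K]
    (ζ : PadicAlgCl p) (hζ : IsPrimitiveRoot ζ p) (hζK : ζ ∈ K)
    (hK0 : ∀ g ∈ K.fixingSubgroup, r g 0 0 = 1) (hK1 : ∀ g ∈ K.fixingSubgroup, r g 1 1 = 1)
    (χ : Gp p → k) (hχ : ∀ σ ∈ F0.fixingSubgroup, χ σ * r σ 1 1 = r σ 0 0) :
    (fun g : K.fixingSubgroup => d (g : Gp p) 0 1) ∈ HSpace p k F0 K ζ hζ.pow_eq_one χ := by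
  refine mem_HSpace_of_flat hLev hp2 (liftAct r d) (p_nsmul_eq_zero) hflat F0 K ζ hζ hζK χ _
    (fun g h => ?_) (fun σ hσ g g' hgg' => ?_) (fun g hg => ?_)
  · show d ((g : Gp p) * (h : Gp p)) 0 1 = d (g : Gp p) 0 1 + d (h : Gp p) 0 1
    rw [hd]
    simp only [Matrix.add_apply, Matrix.mul_apply, Fin.sum_univ_two, hd00 (g : Gp p),
      hd11 (h : Gp p), hK1 (h : Gp p) h.2, hK0 (g : Gp p) g.2]
    ring
  · show d (g' : Gp p) 0 1 = χ σ * d (g : Gp p) 0 1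
    have hg1 : r (σ * (g : Gp p) * σ⁻¹) 0 0 = 1 := by
      rw [← hgg']
      exact hK0 _ g'.2
    rw [hgg', d_conj_01 r d hd hr hd10 hd00 hd11 σ g (hK1 _ g.2) hg1]
    linear_combination (-(d (g : Gp p) 0 1 * r σ⁻¹ 1 1)) * hχ σ hσ +
      (χ σ * d (g : Gp p) 0 1) * r11_mul_inv r hr σ
  · show d (g : Gp p) 0 1 = 0
    rw [d_eq_zero_of_liftAct r d g hg]
    rfl

/-- If `r + ε d` acts trivially at `g` then `r g = 1`. -/
theorem r_eq_one_of_liftAct (g : Gp p)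
    (h : ∀ x : (Fin 2 → k) × (Fin 2 → k), liftAct r d g x = x) : r g = 1 := by
  ext i j
  have h1 := congrArg Prod.fst (h (Pi.single j 1, 0))
  have h2 := congrFun h1 i
  simpa [liftAct, Matrix.mulVec_single_one, Matrix.one_apply, Pi.single_apply] using h2

/-- **Shape (R), the extension class of `r` itself.**  `r` upper triangular with diagonal
characters trivial on `G_K`; if some `r + ε d` is flat, the upper right entry of `r` on `G_K`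
lies in `HSpace` for `χ₁ / χ₂`. -/
theorem tri_b (hLev : LevelStatement) (hp2 : p ≠ 2) [CharP k p]
    (hr : ∀ σ : Gp p, r σ 1 0 = 0)
    (hflat : FlatLocal p ((Fin 2 → k) × (Fin 2 → k)) (liftAct r d))
    (F0 K : IntermediateField ℚ_[p] (PadicAlgCl p)) [FiniteDimensional ℚ_[p] K]
    (ζ : PadicAlgCl p) (hζ : IsPrimitiveRoot ζ p) (hζK : ζ ∈ K)
    (hK0 : ∀ g ∈ K.fixingSubgroup, r g 0 0 = 1) (hK1 : ∀ g ∈ K.fixingSubgroup, r g 1 1 = 1)
    (χ : Gp p → k) (hχ : ∀ σ ∈ F0.fixingSubgroup, χ σ * r σ 1 1 = r σ 0 0) :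
    (fun g : K.fixingSubgroup => r (g : Gp p) 0 1) ∈ HSpace p k F0 K ζ hζ.pow_eq_one χ := by
  refine mem_HSpace_of_flat hLev hp2 (liftAct r d) (p_nsmul_eq_zero) hflat F0 K ζ hζ hζK χ _
    (fun g h => ?_) (fun σ hσ g g' hgg' => ?_) (fun g hg => ?_)
  · show r ((g : Gp p) * (h : Gp p)) 0 1 = r (g : Gp p) 0 1 + r (h : Gp p) 0 1
    rw [map_mul]
    simp only [Matrix.mul_apply, Fin.sum_univ_two, hK1 (h : Gp p) h.2, hK0 (g : Gp p) g.2]
    ring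
  · show r (g' : Gp p) 0 1 = χ σ * r (g : Gp p) 0 1
    rw [hgg', r_conj_01 r hr σ g (hK0 _ g.2) (hK1 _ g.2)]
    linear_combination (-(r (g : Gp p) 0 1 * r σ⁻¹ 1 1)) * hχ σ hσ +
      (χ σ * r (g : Gp p) 0 1) * r11_mul_inv r hr σ
  · show r (g : Gp p) 0 1 = 0
    rw [r_eq_one_of_liftAct r d g hg]
    exact Matrix.one_apply_ne (by decide)

end Derivation

/-! ### Cocycle form: the hypotheses `Fγ`, `Fα`, `Fβ`, `hb` of `ThreeStep.finrank_triangular` -/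

section Cocycle

open Fermat.Agent.S56.LF.ThreeStep

variable {p : ℕ} [Fact p.Prime] {k : Type} [Field k] (rG : Gp p →* GL (Fin 2) k)

/-- The matrix valued homomorphism underlying `rG`. -/
def matHom : Gp p →* Matrix (Fin 2) (Fin 2) k :=
  (Units.coeHom (Matrix (Fin 2) (Fin 2) k)).comp rG

theorem matHom_apply (σ : Gp p) : matHom rG σ = (rG σ : Matrix (Fin 2) (Fin 2) k) := rfl

/-- The derivation `c * rG` attached to a cocycle `c`. -/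
theorem derivation_of_mem_Z1 {c : Gp p → Matrix (Fin 2) (Fin 2) k} (hc : c ∈ Z1 rG)
    (σ τ : Gp p) :
    c (σ * τ) * matHom rG (σ * τ) =
      c σ * matHom rG σ * matHom rG τ + matHom rG σ * (c τ * matHom rG τ) := by
  have h1 : ad rG σ (c τ) * matHom rG σ = matHom rG σ * c τ := ad_mul_self rG σ (c τ)
  rw [(mem_Z1.mp hc).2 σ τ, map_mul, add_mul, ← Matrix.mul_assoc (ad rG σ (c τ)), h1,
    ← Matrix.mul_assoc (c σ), Matrix.mul_assoc (matHom rG σ) (c τ)]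

/-- Entry `(1, 0)` of `c * rG` for an upper triangular `rG`. -/
theorem mul_matHom_10 (hr : ∀ σ : Gp p, (rG σ : Matrix (Fin 2) (Fin 2) k) 1 0 = 0)
    (c : Gp p → Matrix (Fin 2) (Fin 2) k) (σ : Gp p) :
    (c σ * matHom rG σ) 1 0 = c σ 1 0 * (rG σ : Matrix (Fin 2) (Fin 2) k) 0 0 := by
  rw [Matrix.mul_apply, Fin.sum_univ_two, matHom_apply, hr σ, mul_zero, add_zero]

/-- Entry `(0, 0)` of `c * rG` for an upper triangular `rG`. -/
theorem mul_matHom_00 (hr : ∀ σ : Gp p, (rG σ : Matrix (Fin 2) (Fin 2) k) 1 0 = 0)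
    (c : Gp p → Matrix (Fin 2) (Fin 2) k) (σ : Gp p) :
    (c σ * matHom rG σ) 0 0 = c σ 0 0 * (rG σ : Matrix (Fin 2) (Fin 2) k) 0 0 := by
  rw [Matrix.mul_apply, Fin.sum_univ_two, matHom_apply, hr σ, mul_zero, add_zero]

/-- Entry `(0, 1)` of `c * rG`. -/
theorem mul_matHom_01 (c : Gp p → Matrix (Fin 2) (Fin 2) k) (σ : Gp p) :
    (c σ * matHom rG σ) 0 1 = c σ 0 0 * (rG σ : Matrix (Fin 2) (Fin 2) k) 0 1 +
      c σ 0 1 * (rG σ : Matrix (Fin 2) (Fin 2) k) 1 1 := by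
  rw [Matrix.mul_apply, Fin.sum_univ_two, matHom_apply]

/-- Entry `(1, 1)` of `c * rG`. -/
theorem mul_matHom_11 (c : Gp p → Matrix (Fin 2) (Fin 2) k) (σ : Gp p) :
    (c σ * matHom rG σ) 1 1 = c σ 1 0 * (rG σ : Matrix (Fin 2) (Fin 2) k) 0 1 +
      c σ 1 1 * (rG σ : Matrix (Fin 2) (Fin 2) k) 1 1 := by
  rw [Matrix.mul_apply, Fin.sum_univ_two, matHom_apply]

/-- **The hypothesis `Fγ` of `ThreeStep.finrank_triangular`.** -/
theorem gamma_mem_HSpace (hLev : LevelStatement) (hp2 : p ≠ 2) [CharP k p]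
    (hr : ∀ σ : Gp p, (rG σ : Matrix (Fin 2) (Fin 2) k) 1 0 = 0)
    (F0 K : IntermediateField ℚ_[p] (PadicAlgCl p)) [FiniteDimensional ℚ_[p] K]
    (ζ : PadicAlgCl p) (hζ : IsPrimitiveRoot ζ p) (hζK : ζ ∈ K)
    (hK0 : ∀ g ∈ K.fixingSubgroup, (rG g : Matrix (Fin 2) (Fin 2) k) 0 0 = 1)
    (hK1 : ∀ g ∈ K.fixingSubgroup, (rG g : Matrix (Fin 2) (Fin 2) k) 1 1 = 1)
    (χ : Gp p → k)
    (hχ : ∀ σ ∈ F0.fixingSubgroup, χ σ * (rG σ : Matrix (Fin 2) (Fin 2) k) 0 0 =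
      (rG σ : Matrix (Fin 2) (Fin 2) k) 1 1)
    (c : Gp p → Matrix (Fin 2) (Fin 2) k) (hc : c ∈ Z1 rG)
    (hflat : FlatLocal p ((Fin 2 → k) × (Fin 2 → k))
      (liftAct (fun σ => (rG σ : Matrix (Fin 2) (Fin 2) k))
        (fun σ => c σ * (rG σ : Matrix (Fin 2) (Fin 2) k)))) :
    (fun g : K.fixingSubgroup => c (g : Gp p) 1 0) ∈ HSpace p k F0 K ζ hζ.pow_eq_one χ := by
  have h := tri_gamma (matHom rG) (fun σ => c σ * matHom rG σ) hLev hp2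
    (derivation_of_mem_Z1 rG hc) hr hflat F0 K ζ hζ hζK hK0 hK1 χ hχ
  have e : (fun g : K.fixingSubgroup => (c (g : Gp p) * matHom rG (g : Gp p)) 1 0) =
      fun g : K.fixingSubgroup => c (g : Gp p) 1 0 := by
    funext g
    rw [mul_matHom_10 rG hr, hK0 _ g.2, mul_one]
  rw [← e]
  exact h

/-- **The hypothesis `Fα` of `ThreeStep.finrank_triangular`.** -/
theorem alpha_mem_HSpace (hLev : LevelStatement) (hp2 : p ≠ 2) [CharP k p]
    (hr : ∀ σ : Gp p, (rG σ : Matrix (Fin 2) (Fin 2) k) 1 0 = 0)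
    (F0 K : IntermediateField ℚ_[p] (PadicAlgCl p)) [FiniteDimensional ℚ_[p] K]
    (ζ : PadicAlgCl p) (hζ : IsPrimitiveRoot ζ p) (hζK : ζ ∈ K)
    (hK0 : ∀ g ∈ K.fixingSubgroup, (rG g : Matrix (Fin 2) (Fin 2) k) 0 0 = 1)
    (χ : Gp p → k) (hχ : ∀ σ ∈ F0.fixingSubgroup, χ σ = 1)
    (c : Gp p → Matrix (Fin 2) (Fin 2) k) (hc : c ∈ Z1 rG) (hc10 : ∀ σ : Gp p, c σ 1 0 = 0)
    (hflat : FlatLocal p ((Fin 2 → k) × (Fin 2 → k))
      (liftAct (fun σ => (rG σ : Matrix (Fin 2) (Fin 2) k))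
        (fun σ => c σ * (rG σ : Matrix (Fin 2) (Fin 2) k)))) :
    (fun g : K.fixingSubgroup => c (g : Gp p) 0 0) ∈ HSpace p k F0 K ζ hζ.pow_eq_one χ := by
  have hd10 : ∀ σ : Gp p, (c σ * matHom rG σ) 1 0 = 0 := fun σ => by
    rw [mul_matHom_10 rG hr, hc10 σ, zero_mul]
  have h := tri_alpha (matHom rG) (fun σ => c σ * matHom rG σ) hLev hp2
    (derivation_of_mem_Z1 rG hc) hr hd10 hflat F0 K ζ hζ hζK hK0 χ hχ
  have e : (fun g : K.fixingSubgroup => (c (g : Gp p) * matHom rG (g : Gp p)) 0 0) =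
      fun g : K.fixingSubgroup => c (g : Gp p) 0 0 := by
    funext g
    rw [mul_matHom_00 rG hr, hK0 _ g.2, mul_one]
  rw [← e]
  exact h

/-- **The hypothesis `Fβ` of `ThreeStep.finrank_triangular`.** -/
theorem beta_mem_HSpace (hLev : LevelStatement) (hp2 : p ≠ 2) [CharP k p]
    (hr : ∀ σ : Gp p, (rG σ : Matrix (Fin 2) (Fin 2) k) 1 0 = 0)
    (F0 K : IntermediateField ℚ_[p] (PadicAlgCl p)) [FiniteDimensional ℚ_[p] K]
    (ζ : PadicAlgCl p) (hζ : IsPrimitiveRoot ζ p) (hζK : ζ ∈ K)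
    (hK0 : ∀ g ∈ K.fixingSubgroup, (rG g : Matrix (Fin 2) (Fin 2) k) 0 0 = 1)
    (hK1 : ∀ g ∈ K.fixingSubgroup, (rG g : Matrix (Fin 2) (Fin 2) k) 1 1 = 1)
    (χ : Gp p → k)
    (hχ : ∀ σ ∈ F0.fixingSubgroup, χ σ * (rG σ : Matrix (Fin 2) (Fin 2) k) 1 1 =
      (rG σ : Matrix (Fin 2) (Fin 2) k) 0 0)
    (c : Gp p → Matrix (Fin 2) (Fin 2) k) (hc : c ∈ Z1 rG) (hc10 : ∀ σ : Gp p, c σ 1 0 = 0)
    (hc00 : ∀ σ : Gp p, c σ 0 0 = 0)
    (hflat : FlatLocal p ((Fin 2 → k) × (Fin 2 → k))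
      (liftAct (fun σ => (rG σ : Matrix (Fin 2) (Fin 2) k))
        (fun σ => c σ * (rG σ : Matrix (Fin 2) (Fin 2) k)))) :
    (fun g : K.fixingSubgroup => c (g : Gp p) 0 1) ∈ HSpace p k F0 K ζ hζ.pow_eq_one χ := by
  have hc11 : ∀ σ : Gp p, c σ 1 1 = 0 := fun σ => by
    have ht := (mem_Z1.mp hc).1 σ
    rw [Matrix.trace_fin_two, hc00 σ, zero_add] at ht
    exact ht
  have hd10 : ∀ σ : Gp p, (c σ * matHom rG σ) 1 0 = 0 := fun σ => by
    rw [mul_matHom_10 rG hr, hc10 σ, zero_mul]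
  have hd00 : ∀ σ : Gp p, (c σ * matHom rG σ) 0 0 = 0 := fun σ => by
    rw [mul_matHom_00 rG hr, hc00 σ, zero_mul]
  have hd11 : ∀ σ : Gp p, (c σ * matHom rG σ) 1 1 = 0 := fun σ => by
    rw [mul_matHom_11 rG, hc10 σ, hc11 σ, zero_mul, zero_mul, add_zero]
  have h := tri_beta (matHom rG) (fun σ => c σ * matHom rG σ) hLev hp2
    (derivation_of_mem_Z1 rG hc) hr hd10 hd00 hd11 hflat F0 K ζ hζ hζK hK0 hK1 χ hχ
  have e : (fun g : K.fixingSubgroup => (c (g : Gp p) * matHom rG (g : Gp p)) 0 1) =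
      fun g : K.fixingSubgroup => c (g : Gp p) 0 1 := by
    funext g
    rw [mul_matHom_01 rG, hc00, zero_mul, zero_add, hK1 _ g.2, mul_one]
  rw [← e]
  exact h

/-- **The hypothesis `hb` of `ThreeStep.finrank_triangular`**: it holds as soon as one lift
`rG + ε d` is flat. -/
theorem b_mem_HSpace (hLev : LevelStatement) (hp2 : p ≠ 2) [CharP k p]
    (hr : ∀ σ : Gp p, (rG σ : Matrix (Fin 2) (Fin 2) k) 1 0 = 0)
    (F0 K : IntermediateField ℚ_[p] (PadicAlgCl p)) [FiniteDimensional ℚ_[p] K]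
    (ζ : PadicAlgCl p) (hζ : IsPrimitiveRoot ζ p) (hζK : ζ ∈ K)
    (hK0 : ∀ g ∈ K.fixingSubgroup, (rG g : Matrix (Fin 2) (Fin 2) k) 0 0 = 1)
    (hK1 : ∀ g ∈ K.fixingSubgroup, (rG g : Matrix (Fin 2) (Fin 2) k) 1 1 = 1)
    (χ : Gp p → k)
    (hχ : ∀ σ ∈ F0.fixingSubgroup, χ σ * (rG σ : Matrix (Fin 2) (Fin 2) k) 1 1 =
      (rG σ : Matrix (Fin 2) (Fin 2) k) 0 0)
    (d : Gp p → Matrix (Fin 2) (Fin 2) k)
    (hflat : FlatLocal p ((Fin 2 → k) × (Fin 2 → k))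
      (liftAct (fun σ => (rG σ : Matrix (Fin 2) (Fin 2) k)) d)) :
    (fun g : K.fixingSubgroup => (rG (g : Gp p) : Matrix (Fin 2) (Fin 2) k) 0 1) ∈
      HSpace p k F0 K ζ hζ.pow_eq_one χ :=
  tri_b (matHom rG) d hLev hp2 hr hflat F0 K ζ hζ hζK hK0 hK1 χ hχ

end Cocycle

end Fermat.Agent.S56.LF.FlatKummerTri
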