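import Mathlib

/-!
# S56, brick LF, row TI (induced shape): the two counts

`t` an element of exact order `p ^ 2 - 1` of a field (the image of the tame parameter `z` of
`LIStatement`), `p` an odd prime.  The exponent of `CntFinStatement` at `e0 = p + 1`, `a' = 2`
is the number of pairs `(n, j)`, `1 ≤ n ≤ p + 1`, `p ∤ n`, `j < 2`, with
`t ^ ((p (p + 1) - n) p ^ j) = ξ τ0`.

* `card_pairs_le_one` : for `ξ τ0 = s ^ 2` with `s ^ (p ^ 2 - 1) = 1` and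
  `s ^ (p + 1) = t ^ (p + 1)` (the determinant condition) there is at most one such pair;
* `card_pairs_eq_zero` : for `ξ τ0 = t ^ (p + 1)` (the `η`-class) there is none.
-/

set_option autoImplicit false

namespace Fermat.Agent.S56.LF.InducedArith

variable {k : Type*} [Field k]

/-- In a field, equal powers of a primitive `N`-th root of unity have congruent exponents. -/
theorem dvd_sub_of_pow_eq {t : k} {N : ℕ} (ht : IsPrimitiveRoot t N) (hN : N ≠ 0) {a b : ℕ}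
    (h : t ^ a = t ^ b) : (N : ℤ) ∣ (a : ℤ) - b := by
  have ht0 : t ≠ 0 := ht.ne_zero hN
  rw [← ht.zpow_eq_one_iff_dvd, zpow_sub₀ ht0, zpow_natCast, zpow_natCast, h,
    div_self (pow_ne_zero _ ht0)]

theorem sq_sub_one_ne_zero {p : ℕ} (hp3 : 3 ≤ p) : p ^ 2 - 1 ≠ 0 := by
  have : 9 ≤ p ^ 2 := by nlinarith
  omega

theorem cast_sq_sub_one {p : ℕ} (hp3 : 3 ≤ p) : ((p ^ 2 - 1 : ℕ) : ℤ) = (p : ℤ) ^ 2 - 1 := by
  have h : 1 ≤ p ^ 2 := Nat.one_le_pow _ _ (by omega)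
  rw [Nat.cast_sub h]
  push_cast
  ring

/-- The congruence carried by a pair `(n, j)` of the count. -/
theorem key_dvd {p : ℕ} (hp3 : 3 ≤ p) {t : k} (ht : IsPrimitiveRoot t (p ^ 2 - 1)) {n j E : ℕ}
    (hn : n ≤ p + 1) (hj : j < 2) (h : t ^ ((p * (p + 1) - n) * p ^ j) = t ^ E) :
    ((p : ℤ) ^ 2 - 1) ∣ ((p : ℤ) + 1 - n * (p : ℤ) ^ j) - E := by
  have h1 := dvd_sub_of_pow_eq ht (sq_sub_one_ne_zero hp3) h
  have hle : n ≤ p * (p + 1) := by nlinarith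
  rw [cast_sq_sub_one hp3] at h1
  push_cast [Nat.cast_sub hle] at h1
  interval_cases j
  · have e : ((p : ℤ) + 1 - n * (p : ℤ) ^ 0) - E =
        (((p : ℤ) * ((p : ℤ) + 1) - n) * (p : ℤ) ^ 0 - E) - ((p : ℤ) ^ 2 - 1) := by ring
    rw [e]
    exact dvd_sub h1 (dvd_refl _)
  · have e : ((p : ℤ) + 1 - n * (p : ℤ) ^ 1) - E =
        (((p : ℤ) * ((p : ℤ) + 1) - n) * (p : ℤ) ^ 1 - E) -
          ((p : ℤ) ^ 2 - 1) * ((p : ℤ) + 1) := by ring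
    rw [e]
    exact dvd_sub h1 (Dvd.intro _ rfl)

theorem isCoprime_sq_sub_one (P : ℤ) : IsCoprime (P ^ 2 - 1) P :=
  ⟨-1, P, by ring⟩

/-- A multiple of `p ^ 2 - 1` of absolute value at most `p + 1` vanishes. -/
theorem eq_zero_of_dvd_of_abs_le {p : ℕ} (hp3 : 3 ≤ p) {x : ℤ}
    (h : ((p : ℤ) ^ 2 - 1) ∣ x) (hx : |x| ≤ (p : ℤ) + 1) : x = 0 := by
  have hP : (3 : ℤ) ≤ (p : ℤ) := by exact_mod_cast hp3
  apply Int.eq_zero_of_abs_lt_dvd h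
  nlinarith

/-- The two pairs `(n₁, 0)` and `(n₂, 1)` cannot both occur. -/
theorem mixed_false {p : ℕ} (hp3 : 3 ≤ p) {m n1 n2 : ℕ}
    (hm1 : ((p : ℤ) ^ 2 - 1) ∣ (m : ℤ) * ((p : ℤ) + 1) - ((p : ℤ) + 1))
    (h11 : 1 ≤ n1) (h12 : n1 ≤ p + 1) (h21 : 1 ≤ n2) (h22 : n2 ≤ p + 1)
    (K1 : ((p : ℤ) ^ 2 - 1) ∣ ((p : ℤ) + 1 - n1) - 2 * m)
    (K2 : ((p : ℤ) ^ 2 - 1) ∣ ((p : ℤ) + 1 - n2 * p) - 2 * m) : False := by
  have hP : (3 : ℤ) ≤ (p : ℤ) := by exact_mod_cast hp3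
  have e1 : (p : ℤ) ^ 2 - 1 = ((p : ℤ) - 1) * ((p : ℤ) + 1) := by ring
  have hdvd : ((p : ℤ) - 1) ∣ (p : ℤ) ^ 2 - 1 := ⟨(p : ℤ) + 1, e1⟩
  -- `p - 1 ∣ m - 1`
  have hm2 : ((p : ℤ) - 1) ∣ (m : ℤ) - 1 := by
    have e2 : (m : ℤ) * ((p : ℤ) + 1) - ((p : ℤ) + 1) = ((p : ℤ) + 1) * ((m : ℤ) - 1) := by ring
    have e3 : (p : ℤ) ^ 2 - 1 = ((p : ℤ) + 1) * ((p : ℤ) - 1) := by ring
    rw [e2, e3] at hm1
    exact Int.dvd_of_mul_dvd_mul_left (by linarith) hm1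
  -- `p - 1 ∣ n1`, `p - 1 ∣ n2`
  have A1 : ((p : ℤ) - 1) ∣ (n1 : ℤ) := by
    have e : (n1 : ℤ) = ((p : ℤ) - 1) - 2 * ((m : ℤ) - 1) - (((p : ℤ) + 1 - n1) - 2 * m) := by
      ring
    rw [e]
    exact dvd_sub (dvd_sub (dvd_refl _) (Dvd.dvd.mul_left hm2 2)) (hdvd.trans K1)
  have A2 : ((p : ℤ) - 1) ∣ (n2 : ℤ) := by
    have e : (n2 : ℤ) = ((p : ℤ) - 1) - 2 * ((m : ℤ) - 1) - (n2 : ℤ) * ((p : ℤ) - 1) -
        (((p : ℤ) + 1 - n2 * p) - 2 * m) := by ring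
    rw [e]
    exact dvd_sub (dvd_sub (dvd_sub (dvd_refl _) (Dvd.dvd.mul_left hm2 2))
      (Dvd.intro_left _ rfl)) (hdvd.trans K2)
  obtain ⟨c1, hc1⟩ := A1
  obtain ⟨c2, hc2⟩ := A2
  have h11' : (1 : ℤ) ≤ (n1 : ℤ) := by exact_mod_cast h11
  have h21' : (1 : ℤ) ≤ (n2 : ℤ) := by exact_mod_cast h21
  have h12' : (n1 : ℤ) ≤ (p : ℤ) + 1 := by exact_mod_cast h12
  have h22' : (n2 : ℤ) ≤ (p : ℤ) + 1 := by exact_mod_cast h22
  have hc1pos : 1 ≤ c1 := by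
    by_contra hneg
    have : c1 ≤ 0 := by omega
    nlinarith
  have hc2pos : 1 ≤ c2 := by
    by_contra hneg
    have : c2 ≤ 0 := by omega
    nlinarith
  -- `p + 1 ∣ c1 + c2`
  have D : ((p : ℤ) - 1) * ((p : ℤ) + 1) ∣ ((p : ℤ) - 1) * (c2 * (p : ℤ) - c1) := by
    have e : ((p : ℤ) - 1) * (c2 * (p : ℤ) - c1) =
        (((p : ℤ) + 1 - n1) - 2 * m) - (((p : ℤ) + 1 - n2 * p) - 2 * m) := by
      rw [hc1, hc2]; ring
    rw [e, ← e1]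
    exact dvd_sub K1 K2
  have D' : ((p : ℤ) + 1) ∣ c2 * (p : ℤ) - c1 :=
    Int.dvd_of_mul_dvd_mul_left (by linarith) D
  have D'' : ((p : ℤ) + 1) ∣ c1 + c2 := by
    have e : c1 + c2 = c2 * ((p : ℤ) + 1) - (c2 * (p : ℤ) - c1) := by ring
    rw [e]
    exact dvd_sub (Dvd.intro_left _ rfl) D'
  have hle : (p : ℤ) + 1 ≤ c1 + c2 := Int.le_of_dvd (by linarith) D''
  -- hence `p = 3`
  have hb1 : ((p : ℤ) - 1) * c1 ≤ (p : ℤ) + 1 := by rw [← hc1]; exact h12'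
  have hb2 : ((p : ℤ) - 1) * c2 ≤ (p : ℤ) + 1 := by rw [← hc2]; exact h22'
  have hP3 : (p : ℤ) ≤ 3 := by nlinarith
  have hp : p = 3 := by
    have : p ≤ 3 := by exact_mod_cast hP3
    omega
  subst hp
  norm_num at hc1 hc2 hb1 hb2 hle K1 hm1
  obtain ⟨a, ha⟩ := K1
  obtain ⟨b, hb⟩ := hm1
  omega

/-- **The count of the `γ`-class.**  At most one pair `(n, j)` when `ξ τ0 = s ^ 2`. -/
theorem card_pairs_le_one {p : ℕ} (hp : p.Prime) (hp2 : p ≠ 2) {t s : k}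
    (ht : orderOf t = p ^ 2 - 1) (hs : s ^ (p ^ 2 - 1) = 1) (hdet : s ^ (p + 1) = t ^ (p + 1))
    (x : k) (hx : x = s ^ 2) :
    Nat.card {nj : ℕ × ℕ // 1 ≤ nj.1 ∧ nj.1 ≤ p + 1 ∧ ¬ p ∣ nj.1 ∧ nj.2 < 2 ∧
      t ^ ((p * (p + 1) - nj.1) * p ^ nj.2) = x} ≤ 1 := by
  have hp3 : 3 ≤ p := by have := hp.two_le; omega
  have hP : (3 : ℤ) ≤ (p : ℤ) := by exact_mod_cast hp3
  have hN : p ^ 2 - 1 ≠ 0 := sq_sub_one_ne_zero hp3
  have : NeZero (p ^ 2 - 1) := ⟨hN⟩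
  have htp : IsPrimitiveRoot t (p ^ 2 - 1) := ht ▸ IsPrimitiveRoot.orderOf t
  obtain ⟨m, -, hm⟩ := htp.eq_pow_of_pow_eq_one hs
  have hm1 : ((p : ℤ) ^ 2 - 1) ∣ (m : ℤ) * ((p : ℤ) + 1) - ((p : ℤ) + 1) := by
    have h := dvd_sub_of_pow_eq htp hN (a := m * (p + 1)) (b := p + 1)
      (by rw [pow_mul, hm, hdet])
    rw [cast_sq_sub_one hp3] at h
    push_cast at h
    exact h
  have hx' : x = t ^ (2 * m) := by rw [hx, ← hm, ← pow_mul, mul_comm]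
  have : Subsingleton {nj : ℕ × ℕ // 1 ≤ nj.1 ∧ nj.1 ≤ p + 1 ∧ ¬ p ∣ nj.1 ∧ nj.2 < 2 ∧
      t ^ ((p * (p + 1) - nj.1) * p ^ nj.2) = x} := by
    refine ⟨?_⟩
    rintro ⟨⟨n1, j1⟩, h11, h12, -, hj1, hE1⟩ ⟨⟨n2, j2⟩, h21, h22, -, hj2, hE2⟩
    simp only at h11 h12 hj1 hE1 h21 h22 hj2 hE2
    have K1 := key_dvd hp3 htp h12 hj1 (hE1.trans hx')
    have K2 := key_dvd hp3 htp h22 hj2 (hE2.trans hx')
    push_cast at K1 K2
    have h11' : (1 : ℤ) ≤ (n1 : ℤ) := by exact_mod_cast h11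
    have h21' : (1 : ℤ) ≤ (n2 : ℤ) := by exact_mod_cast h21
    have h12' : (n1 : ℤ) ≤ (p : ℤ) + 1 := by exact_mod_cast h12
    have h22' : (n2 : ℤ) ≤ (p : ℤ) + 1 := by exact_mod_cast h22
    have hsame : ((p : ℤ) ^ 2 - 1) ∣ (n2 : ℤ) - n1 → n1 = n2 := by
      intro hd
      have h0 := eq_zero_of_dvd_of_abs_le hp3 hd (by rw [abs_le]; constructor <;> linarith)
      have : (n1 : ℤ) = n2 := by linarith
      exact_mod_cast this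
    interval_cases j1 <;> interval_cases j2
    · -- (0, 0)
      have hd : ((p : ℤ) ^ 2 - 1) ∣ (n2 : ℤ) - n1 := by
        have e : (n2 : ℤ) - n1 = (((p : ℤ) + 1 - n1 * (p : ℤ) ^ 0) - 2 * m) -
            (((p : ℤ) + 1 - n2 * (p : ℤ) ^ 0) - 2 * m) := by ring
        rw [e]
        exact dvd_sub K1 K2
      have := hsame hd
      subst this
      rfl
    · -- (0, 1)
      exfalso
      rw [pow_zero, mul_one] at K1
      rw [pow_one] at K2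
      exact mixed_false hp3 hm1 h11 h12 h21 h22 K1 K2
    · -- (1, 0)
      exfalso
      rw [pow_zero, mul_one] at K2
      rw [pow_one] at K1
      exact mixed_false hp3 hm1 h21 h22 h11 h12 K2 K1
    · -- (1, 1)
      have hd : ((p : ℤ) ^ 2 - 1) ∣ ((n2 : ℤ) - n1) * (p : ℤ) := by
        have e : ((n2 : ℤ) - n1) * (p : ℤ) = (((p : ℤ) + 1 - n1 * (p : ℤ) ^ 1) - 2 * m) -
            (((p : ℤ) + 1 - n2 * (p : ℤ) ^ 1) - 2 * m) := by ring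
        rw [e]
        exact dvd_sub K1 K2
      have := hsame ((isCoprime_sq_sub_one (p : ℤ)).dvd_of_dvd_mul_right hd)
      subst this
      rfl
  exact Finite.card_le_one_iff_subsingleton.mpr inferInstance

/-- **The count of the `η`-class.**  No pair `(n, j)` when `ξ τ0 = t ^ (p + 1)`. -/
theorem card_pairs_eq_zero {p : ℕ} (hp : p.Prime) (hp2 : p ≠ 2) {t : k}
    (ht : orderOf t = p ^ 2 - 1) (x : k) (hx : x = t ^ (p + 1)) :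
    Nat.card {nj : ℕ × ℕ // 1 ≤ nj.1 ∧ nj.1 ≤ p + 1 ∧ ¬ p ∣ nj.1 ∧ nj.2 < 2 ∧
      t ^ ((p * (p + 1) - nj.1) * p ^ nj.2) = x} = 0 := by
  have hp3 : 3 ≤ p := by have := hp.two_le; omega
  have hP : (3 : ℤ) ≤ (p : ℤ) := by exact_mod_cast hp3
  have htp : IsPrimitiveRoot t (p ^ 2 - 1) := ht ▸ IsPrimitiveRoot.orderOf t
  have : IsEmpty {nj : ℕ × ℕ // 1 ≤ nj.1 ∧ nj.1 ≤ p + 1 ∧ ¬ p ∣ nj.1 ∧ nj.2 < 2 ∧
      t ^ ((p * (p + 1) - nj.1) * p ^ nj.2) = x} := by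
    refine ⟨?_⟩
    rintro ⟨⟨n, j⟩, h1, h2, -, hj, hE⟩
    simp only at h1 h2 hj hE
    have K := key_dvd hp3 htp h2 hj (hE.trans hx)
    push_cast at K
    have h1' : (1 : ℤ) ≤ (n : ℤ) := by exact_mod_cast h1
    have h2' : (n : ℤ) ≤ (p : ℤ) + 1 := by exact_mod_cast h2
    have hd : ((p : ℤ) ^ 2 - 1) ∣ (n : ℤ) * (p : ℤ) ^ j := by
      have e : (n : ℤ) * (p : ℤ) ^ j =
          -(((p : ℤ) + 1 - n * (p : ℤ) ^ j) - ((p : ℤ) + 1)) := by ring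
      rw [e]
      exact (dvd_neg).mpr K
    have hd' : ((p : ℤ) ^ 2 - 1) ∣ (n : ℤ) :=
      ((isCoprime_sq_sub_one (p : ℤ)).pow_right (n := j)).dvd_of_dvd_mul_right hd
    have h0 := eq_zero_of_dvd_of_abs_le hp3 hd' (by rw [abs_le]; constructor <;> linarith)
    linarith
  exact Nat.card_of_isEmpty

end Fermat.Agent.S56.LF.InducedArith
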