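import Mathlib
import Fermat.Agent.CFT.Local.UnramPadicAbs
import Fermat.Agent.S56.Flat.LocalBricks
import Fermat.Agent.S56.Flat.CntFin
import Fermat.Agent.S56.LF.InducedArith
import Fermat.Agent.S56.LF.RhoZero

/-!
# S56, brick LF, case (I): the count of the `γ`-class (`CntFinStatement` ⟹ `dim Hγ ≤ 1`)

(helper260; twin of `LF/IndCount.lean`, the literal is the one of the TI owner.)  For the field
`K` of `Flat.LIStatement` (`F0 = unram ⊥ 2 ≤ K`, uniformiser `ϖ` with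
`‖ϖ‖ ^ ((p + 1) (p - 1)) = ‖p‖`, tame generator `τ0 ϖ = z ϖ`, `z` a primitive `(p² - 1)`-th root of
unity of `F0`) and characters `A`, `D` of `G_{F0}` with `A D = ω̄`, `D τ0 = (A τ0) ^ p`,
`A τ0 = (D τ0) ^ p`, `A τ0 ≠ D τ0`: `Flat.CntFinStatement` at `(Fb, F0, K) = (F0, F0, K)`,
`a = a' = 2`, `e0 = p + 1`, `ξ = A²`, `χ = D / A` gives

  `HSpace p k F0 K ζ _ χ` is finite-dimensional of dimension `≤ 1`.

The ring homomorphism `ρ0 : 𝒪[F0] →+* k` comes from `RhoZero.exists_rho0` at `s = A τ0`; the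
indicator term vanishes because `χ τ0 ≠ 1`; the pair count is `InducedArith.card_pairs_le_one`
at `t = ρ0 z`, `s = A τ0`.
-/

set_option autoImplicit false

open scoped NNReal NormedField Valued
open IsLocalRing
open Fermat.Agent.CFT.Local.NormedLocal Fermat.Agent.CFT.Local.PadicExt
open Fermat.Agent.CFT.Local.UnramPadic
open Fermat.Agent.S56.Flat

namespace Fermat.Agent.S56.LF.IndCountTwin

/-- **The `γ`-count of the induced case.** -/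
theorem gamma_count {p : ℕ} [Fact p.Prime] (hCnt : Flat.CntFinStatement) (hp2 : p ≠ 2)
    (k : Type) [Field k] [Finite k] [CharP k p]
    (K : IntermediateField ℚ_[p] (PadicAlgCl p)) [FiniteDimensional ℚ_[p] K]
    (hF0K : unram (⊥ : IntermediateField ℚ_[p] (PadicAlgCl p)) 2 ≤ K)
    (hKstab : ∀ σ : Gp p, ∀ x ∈ K, σ x ∈ K)
    (ζ : PadicAlgCl p) (hζ : IsPrimitiveRoot ζ p) (hζK : ζ ∈ K)
    (ϖ z : PadicAlgCl p) (hϖK : ϖ ∈ K) (hϖ1 : ‖ϖ‖ < 1)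
    (hmax : ∀ x ∈ K, ‖x‖ < 1 → ‖x‖ ≤ ‖ϖ‖)
    (hpe : ‖ϖ‖ ^ ((p + 1) * (p - 1)) = ‖(p : PadicAlgCl p)‖)
    (hzF0 : z ∈ unram (⊥ : IntermediateField ℚ_[p] (PadicAlgCl p)) 2)
    (hz : IsPrimitiveRoot z (p ^ 2 - 1))
    (τ0 φ : Gp p)
    (hτ0 : τ0 ∈ (unram (⊥ : IntermediateField ℚ_[p] (PadicAlgCl p)) 2).fixingSubgroup)
    (hτ0I : IsInertial p τ0) (hτ0ϖ : τ0 ϖ = z * ϖ)
    (hω : ∀ n : ℕ, τ0 ζ = ζ ^ n → ‖(n : PadicAlgCl p) - z ^ (p + 1)‖ < 1)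
    (hφ : φ ∈ (unram (⊥ : IntermediateField ℚ_[p] (PadicAlgCl p)) 2).fixingSubgroup)
    (hφK : ∀ x ∈ K, ‖x‖ ≤ 1 → ‖φ x - x ^ (p ^ 2)‖ < 1)
    (A D χ : Gp p → kˣ)
    (hA : ∀ σ ∈ (unram (⊥ : IntermediateField ℚ_[p] (PadicAlgCl p)) 2).fixingSubgroup,
      ∀ τ ∈ (unram (⊥ : IntermediateField ℚ_[p] (PadicAlgCl p)) 2).fixingSubgroup,
        A (σ * τ) = A σ * A τ)
    (hAD : ∀ σ ∈ (unram (⊥ : IntermediateField ℚ_[p] (PadicAlgCl p)) 2).fixingSubgroup,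
      ∀ n : ℕ, σ ζ = ζ ^ n → ((A σ : kˣ) : k) * ((D σ : kˣ) : k) = n)
    (hχ : ∀ σ ∈ (unram (⊥ : IntermediateField ℚ_[p] (PadicAlgCl p)) 2).fixingSubgroup,
      χ σ * A σ = D σ)
    (hDA : ((D τ0 : kˣ) : k) = ((A τ0 : kˣ) : k) ^ p)
    (hAD' : ((A τ0 : kˣ) : k) = ((D τ0 : kˣ) : k) ^ p) (hne : A τ0 ≠ D τ0) :
    Module.Finite k (HSpace p k (unram (⊥ : IntermediateField ℚ_[p] (PadicAlgCl p)) 2) K ζ
      hζ.pow_eq_one (fun σ => ((χ σ : kˣ) : k))) ∧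
    Module.finrank k (HSpace p k (unram (⊥ : IntermediateField ℚ_[p] (PadicAlgCl p)) 2) K ζ
      hζ.pow_eq_one (fun σ => ((χ σ : kˣ) : k))) ≤ 1 := by
  have hp : p.Prime := Fact.out
  have hp1 : 1 < p := hp.one_lt
  have : NeZero p := ⟨hp.ne_zero⟩
  -- the element `s = A τ0` generates `𝔽_{p²}`
  have hsne : ((A τ0 : kˣ) : k) ≠ 0 := Units.ne_zero _
  have hs2 : ((A τ0 : kˣ) : k) ^ (p ^ 2) = ((A τ0 : kˣ) : k) := by
    rw [pow_two, pow_mul, ← hDA, ← hAD']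
  have hsp : ((A τ0 : kˣ) : k) ^ p ≠ ((A τ0 : kˣ) : k) := by
    intro h
    apply hne
    apply Units.ext
    rw [hDA, h]
  obtain ⟨ρ0⟩ := RhoZero.exists_rho0 k ((A τ0 : kˣ) : k) hs2 hsp
  -- `ϖ ≠ 0`, `‖z‖ = 1`
  have hϖ0 : ϖ ≠ 0 := by
    rintro rfl
    have he : (p + 1) * (p - 1) ≠ 0 := Nat.mul_ne_zero (Nat.succ_ne_zero p) (by omega)
    rw [norm_zero, zero_pow he] at hpe
    have h0 : ((p : ℕ) : PadicAlgCl p) = 0 := norm_eq_zero.mp hpe.symm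
    exact (Nat.cast_ne_zero.mpr hp.ne_zero) h0
  have hN : p ^ 2 - 1 ≠ 0 := by
    have h : 1 < p ^ 2 := Nat.one_lt_pow (by norm_num) hp1
    omega
  have hz1 : ‖z‖ = 1 := by
    have h : ‖z‖ ^ (p ^ 2 - 1) = 1 := by rw [← norm_pow, hz.pow_eq_one, norm_one]
    exact (pow_eq_one_iff_of_nonneg (norm_nonneg z) hN).mp h
  let z' : 𝒪[unram (⊥ : IntermediateField ℚ_[p] (PadicAlgCl p)) 2] :=
    ⟨⟨z, hzF0⟩, Valued.integer.mem_iff.mpr hz1.le⟩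
  have hz' : IsPrimitiveRoot
      (((z' : unram (⊥ : IntermediateField ℚ_[p] (PadicAlgCl p)) 2)) : PadicAlgCl p)
      (p ^ 2 - 1) := hz
  have hzz : ‖τ0 ϖ -
      (((z' : unram (⊥ : IntermediateField ℚ_[p] (PadicAlgCl p)) 2)) : PadicAlgCl p) * ϖ‖ <
      ‖ϖ‖ := by
    show ‖τ0 ϖ - z * ϖ‖ < ‖ϖ‖
    rw [hτ0ϖ, sub_self, norm_zero]
    exact norm_pos_iff.mpr hϖ0
  have key := hCnt p hp2 k (unram (⊥ : IntermediateField ℚ_[p] (PadicAlgCl p)) 2)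
    (unram (⊥ : IntermediateField ℚ_[p] (PadicAlgCl p)) 2) K le_rfl hF0K
    (fun σ _ x hx => hKstab σ x hx) ζ hζ hζK 2 2 (p + 1) ϖ
    RhoZero.card_residueField_quad RhoZero.card_residueField_quad hϖK hϖ1 hmax hpe
    ρ0 χ (fun σ => A σ * A σ)
    (fun σ hσ τ hτ => by
      show A (σ * τ) * A (σ * τ) = A σ * A σ * (A τ * A τ)
      rw [hA σ hσ τ hτ, mul_mul_mul_comm])
    (fun σ hσ n hn => by
      show ((A σ * A σ : kˣ) : k) * ((χ σ : kˣ) : k) = n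
      rw [← hAD σ hσ n hn, ← hχ σ hσ]
      push_cast
      ring)
    τ0 φ z' hτ0 hφ (fun x _ hx => hτ0I x hx) hφK hzz
  refine ⟨key.1, key.2.trans ?_⟩
  have hif : ¬ ∀ σ ∈ (unram (⊥ : IntermediateField ℚ_[p] (PadicAlgCl p)) 2).fixingSubgroup,
      χ σ = 1 := by
    intro h
    apply hne
    have h1 := hχ τ0 hτ0
    rw [h τ0 hτ0, one_mul] at h1
    exact h1
  rw [if_neg hif, zero_add]
  -- the pair count
  obtain ⟨n, -, hn⟩ := hζ.eq_pow_of_pow_eq_one (ξ := τ0 ζ)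
    (by rw [← map_pow, hζ.pow_eq_one, map_one])
  have hdet : ((A τ0 : kˣ) : k) ^ (p + 1) = ρ0 z' ^ (p + 1) := by
    have h1 : ((A τ0 : kˣ) : k) ^ (p + 1) = (n : k) := by
      rw [pow_succ, ← hDA, mul_comm]
      exact hAD τ0 hτ0 n hn.symm
    have h2 : ρ0 z' ^ (p + 1) = (n : k) := by
      rw [← map_pow]
      exact RhoZero.map_eq_natCast _ ρ0 (z' ^ (p + 1)) n (hω n hn.symm)
    rw [h1, h2]
  have hs1 : ((A τ0 : kˣ) : k) ^ (p ^ 2 - 1) = 1 := by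
    have h : ((A τ0 : kˣ) : k) ^ (p ^ 2 - 1) * ((A τ0 : kˣ) : k) = 1 * ((A τ0 : kˣ) : k) := by
      rw [← pow_succ, Nat.sub_add_cancel (Nat.one_le_pow _ _ hp.pos), hs2, one_mul]
    exact mul_right_cancel₀ hsne h
  exact InducedArith.card_pairs_le_one hp hp2 (RhoZero.orderOf_map _ ρ0 z' hz') hs1 hdet _
    (by rw [Units.val_mul, pow_two])

end Fermat.Agent.S56.LF.IndCountTwin
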