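import Mathlib
import Fermat.Agent.S56.Flat.Defs

/-!
# S56 / LF, row TI: three small lemmas for the closer of the induced case

* `hSpace_congr` : `HSpace p k F0 K ζ _ χ` depends on `χ` only through its values on `G_{F0}`
  (the count bounds it for a unit-valued `χ`, the assembly uses `σ ↦ r σ 1 1 / r σ 0 0`, which
  vanishes off `G_{F0}`); `finite_and_finrank_congr` transports the bound.
* `r_eq_one_of_diag` : a matrix with zero off-diagonal entries and diagonal entries `1` is `1`.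
* `diag_swap_pow` : if `r τ0` is diagonal, `r F` antidiagonal, `r` trivial on `G_K` and
  `F τ0 F⁻¹ = τ0 ^ n` on `K`, then `r τ0 1 1 = (r τ0 0 0) ^ n` and `r τ0 0 0 = (r τ0 1 1) ^ n`
  (with the conjugation clause of `Flat.LIStatement`: `ψ' τ0 = (ψ τ0) ^ p`, `ψ τ0 = (ψ' τ0) ^ p`).
-/

set_option autoImplicit false

namespace Fermat.Agent.S56.LF.IndKit

open Fermat.Agent.S56.Flat

variable {p : ℕ} [Fact p.Prime] {k : Type} [Field k]

/-! ### `HSpace` depends on `χ` only on `G_{F0}` -/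

theorem hSpace_le_of_eq_on (F0 K : IntermediateField ℚ_[p] (PadicAlgCl p)) (ζ : PadicAlgCl p)
    (hζ : ζ ^ p = 1) {χ χ' : Gp p → k} (h : ∀ σ ∈ F0.fixingSubgroup, χ σ = χ' σ) :
    HSpace p k F0 K ζ hζ χ ≤ HSpace p k F0 K ζ hζ χ' := by
  rintro φ ⟨h1, h2, h3⟩
  exact ⟨h1, fun σ hσ g g' hg => by rw [← h σ hσ]; exact h2 σ hσ g g' hg, h3⟩

/-- **`HSpace` depends on `χ` only through its values on `G_{F0}`.** -/
theorem hSpace_congr (F0 K : IntermediateField ℚ_[p] (PadicAlgCl p)) (ζ : PadicAlgCl p)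
    (hζ : ζ ^ p = 1) {χ χ' : Gp p → k} (h : ∀ σ ∈ F0.fixingSubgroup, χ σ = χ' σ) :
    HSpace p k F0 K ζ hζ χ = HSpace p k F0 K ζ hζ χ' :=
  le_antisymm (hSpace_le_of_eq_on F0 K ζ hζ h)
    (hSpace_le_of_eq_on F0 K ζ hζ (fun σ hσ => (h σ hσ).symm))

/-- Transport of "finite-dimensional of dimension at most `n`" along `hSpace_congr`. -/
theorem finite_and_finrank_congr (F0 K : IntermediateField ℚ_[p] (PadicAlgCl p))
    (ζ : PadicAlgCl p) (hζ : ζ ^ p = 1) {χ χ' : Gp p → k}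
    (h : ∀ σ ∈ F0.fixingSubgroup, χ σ = χ' σ) {n : ℕ}
    (hfin : Module.Finite k (HSpace p k F0 K ζ hζ χ) ∧
      Module.finrank k (HSpace p k F0 K ζ hζ χ) ≤ n) :
    Module.Finite k (HSpace p k F0 K ζ hζ χ') ∧
      Module.finrank k (HSpace p k F0 K ζ hζ χ') ≤ n := by
  rw [← hSpace_congr F0 K ζ hζ h]
  exact hfin

/-! ### Diagonal matrices -/

/-- A `2 × 2` matrix with zero off-diagonal entries and diagonal entries `1` is `1`. -/
theorem eq_one_of_entries {M : Matrix (Fin 2) (Fin 2) k} (h00 : M 0 0 = 1) (h01 : M 0 1 = 0)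
    (h10 : M 1 0 = 0) (h11 : M 1 1 = 1) : M = 1 := by
  ext a b
  fin_cases a <;> fin_cases b <;> simp [h00, h01, h10, h11]

/-- `r` is trivial on `G_K` as soon as it is diagonal there with diagonal entries `1`. -/
theorem r_eq_one_of_diag (r : Gp p →* Matrix (Fin 2) (Fin 2) k)
    (F0 K : IntermediateField ℚ_[p] (PadicAlgCl p))
    (hKF0 : K.fixingSubgroup ≤ F0.fixingSubgroup)
    (hdiag : ∀ σ ∈ F0.fixingSubgroup, r σ 1 0 = 0 ∧ r σ 0 1 = 0)
    (hK0 : ∀ g ∈ K.fixingSubgroup, r g 0 0 = 1) (hK1 : ∀ g ∈ K.fixingSubgroup, r g 1 1 = 1) :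
    ∀ g ∈ K.fixingSubgroup, r g = 1 := fun g hg =>
  eq_one_of_entries (hK0 g hg) (hdiag g (hKF0 hg)).2 (hdiag g (hKF0 hg)).1 (hK1 g hg)

/-- Powers of a diagonal `2 × 2` matrix. -/
theorem diag_pow_apply {M : Matrix (Fin 2) (Fin 2) k} (h01 : M 0 1 = 0) (h10 : M 1 0 = 0)
    (n : ℕ) : (M ^ n) 0 0 = M 0 0 ^ n ∧ (M ^ n) 1 1 = M 1 1 ^ n ∧ (M ^ n) 0 1 = 0 ∧
      (M ^ n) 1 0 = 0 := by
  induction n with
  | zero => simp
  | succ n ih =>
    obtain ⟨i00, i11, i01, i10⟩ := ih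
    rw [pow_succ]
    simp only [Matrix.mul_apply, Fin.sum_univ_two, i00, i11, i01, i10, h01, h10]
    refine ⟨by ring, by ring, by ring, by ring⟩

/-- **The swap.**  `r τ0` diagonal, `r F` antidiagonal, `r` trivial on `G_K`, and
`F τ0 F⁻¹ = τ0 ^ n` on `K`: then the two diagonal entries of `r τ0` are the `n`-th powers of
each other. -/
theorem diag_swap_pow (r : Gp p →* Matrix (Fin 2) (Fin 2) k)
    (K : IntermediateField ℚ_[p] (PadicAlgCl p)) (hr : ∀ g ∈ K.fixingSubgroup, r g = 1)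
    {τ0 F : Gp p} (n : ℕ) (h10 : r τ0 1 0 = 0) (h01 : r τ0 0 1 = 0)
    (hF00 : r F 0 0 = 0) (hF11 : r F 1 1 = 0)
    (hconj : ∀ x ∈ K, (F * τ0 * F⁻¹) x = (τ0 ^ n) x) :
    r τ0 1 1 = r τ0 0 0 ^ n ∧ r τ0 0 0 = r τ0 1 1 ^ n := by
  -- `F τ0 F⁻¹` and `τ0 ^ n` have the same image under `r`
  have hmem : (τ0 ^ n)⁻¹ * (F * τ0 * F⁻¹) ∈ K.fixingSubgroup := by
    rw [IntermediateField.mem_fixingSubgroup_iff]
    intro x hx
    rw [AlgEquiv.mul_apply, hconj x hx, ← AlgEquiv.mul_apply, inv_mul_cancel, AlgEquiv.one_apply]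
  have hrr : r (F * τ0 * F⁻¹) = r τ0 ^ n := by
    have h1 : F * τ0 * F⁻¹ = τ0 ^ n * ((τ0 ^ n)⁻¹ * (F * τ0 * F⁻¹)) := by
      rw [mul_inv_cancel_left]
    rw [h1, map_mul, hr _ hmem, mul_one, map_pow]
  -- `r F * r τ0 = (r τ0) ^ n * r F`
  have hFF : r F * r F⁻¹ = 1 := by rw [← map_mul, mul_inv_cancel, map_one]
  have hF'F : r F⁻¹ * r F = 1 := by rw [← map_mul, inv_mul_cancel, map_one]
  have hcomm : r F * r τ0 = r τ0 ^ n * r F := by
    rw [← hrr, map_mul, map_mul, mul_assoc, mul_assoc, hF'F, mul_one]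
  obtain ⟨p00, p11, p01, p10⟩ := diag_pow_apply h01 h10 n
  -- entries `0 1` and `1 0` of `hcomm`
  have e01 := congrFun (congrFun hcomm 0) 1
  have e10 := congrFun (congrFun hcomm 1) 0
  simp only [Matrix.mul_apply, Fin.sum_univ_two, hF00, hF11, h01, h10, p00, p11, p01, p10,
    mul_zero, add_zero, zero_add] at e01 e10
  -- the antidiagonal entries of `r F` are nonzero
  have hb : r F 0 1 ≠ 0 := by
    intro hb
    have e := congrFun (congrFun hFF 0) 0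
    simp [Matrix.mul_apply, Fin.sum_univ_two, hF00, hb] at e
  have hc : r F 1 0 ≠ 0 := by
    intro hc
    have e := congrFun (congrFun hFF 1) 1
    simp [Matrix.mul_apply, Fin.sum_univ_two, hF11, hc] at e
  constructor
  · -- `e01 : r F 0 1 * r τ0 1 1 = r τ0 0 0 ^ n * r F 0 1`
    have : r F 0 1 * (r τ0 1 1 - r τ0 0 0 ^ n) = 0 := by rw [mul_sub, e01]; ring
    rcases mul_eq_zero.mp this with h | h
    · exact absurd h hb
    · exact sub_eq_zero.mp h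
  · -- `e10 : r F 1 0 * r τ0 0 0 = r τ0 1 1 ^ n * r F 1 0`
    have : r F 1 0 * (r τ0 0 0 - r τ0 1 1 ^ n) = 0 := by rw [mul_sub, e10]; ring
    rcases mul_eq_zero.mp this with h | h
    · exact absurd h hc
    · exact sub_eq_zero.mp h

/-- The swap on the literal conjugation clause of `Flat.LIStatement`
(`∀ F ∉ G_{F0}, ∀ x ∈ K, (F τ0 F⁻¹) x = (τ0 ^ p) x`) and the two shape clauses of
`Flat.TIStatement`. -/
theorem diag_swap_pow_of_li (r : Gp p →* Matrix (Fin 2) (Fin 2) k)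
    (F0 K : IntermediateField ℚ_[p] (PadicAlgCl p)) (hr : ∀ g ∈ K.fixingSubgroup, r g = 1)
    (hdiag : ∀ σ ∈ F0.fixingSubgroup, r σ 1 0 = 0 ∧ r σ 0 1 = 0)
    (hanti : ∀ σ : Gp p, σ ∉ F0.fixingSubgroup → r σ 0 0 = 0 ∧ r σ 1 1 = 0)
    {τ0 : Gp p} (hτ0 : τ0 ∈ F0.fixingSubgroup)
    (hconj : ∀ F : Gp p, F ∉ F0.fixingSubgroup → ∀ x ∈ K, (F * τ0 * F⁻¹) x = (τ0 ^ p) x)
    {F : Gp p} (hF : F ∉ F0.fixingSubgroup) :
    r τ0 1 1 = r τ0 0 0 ^ p ∧ r τ0 0 0 = r τ0 1 1 ^ p :=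
  diag_swap_pow r K hr p (hdiag τ0 hτ0).1 (hdiag τ0 hτ0).2 (hanti F hF).1 (hanti F hF).2
    (hconj F hF)

/-- Consequence of the swap: `s := r τ0 0 0` satisfies `s ^ (p ^ 2) = s`. -/
theorem pow_sq_eq_self_of_swap {s s' : k} {n : ℕ} (h1 : s' = s ^ n) (h2 : s = s' ^ n) :
    s ^ (n ^ 2) = s := by
  rw [pow_two, pow_mul, ← h1, ← h2]

end Fermat.Agent.S56.LF.IndKit
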