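import Fermat.Agent.S56.LF.KummerClass

/-!
# S56, brick LF, row C3 (Kummer twin, part 3): eigen-classes and conjugation invariance

Same generic setting as `LF/KummerGen.lean` / `LF/KummerClass.lean`.

* `IsKummerClass.pow` : `u ^ n` is a class of `n * c`.
* `IsKummerClass.conj_eq` : if `s ζ = ζ ^ m` and the class `u` of `c` is an eigen-class of `s`,
  `s u = w ^ p * u ^ n` with `w ∈ K`, then `m * c (s⁻¹ g s) = n * c g` on `G_K`
  (the transport "Kummer generator of the conjugate character = conjugate of the Kummer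
  generator", combined with Kummer injectivity).
* `IsKummerClass.conj_invariant` : the case `n = m`, `p ∤ m`: `c (s⁻¹ g s) = c g` on `G_K`.
* `conj_eq_of_trChar_class`, `conj_invariant_of_trChar_class` : the same for the trace-form
  family `trChar T φ x` of a `k`-valued `φ`: if every class `u_x` satisfies
  `s u_x = w ^ p * u_x ^ n`, then `m • φ (s⁻¹ g s) = n • φ g` on `G_K`.
-/

set_option autoImplicit false

namespace Fermat.Agent.S56.LF.KummerClass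

open Fermat.Agent.S56.LF.KummerGen

variable {F Ω : Type*} [Field F] [Field Ω] [Algebra F Ω]

namespace IsKummerClass

variable {p : ℕ} {K : IntermediateField F Ω} {ζ : K} {c : (Ω ≃ₐ[F] Ω) → ZMod p} {u : Ω}

/-- Powers: `u ^ n` is a class of `n * c`. -/
theorem pow [NeZero p] (hζ : (ζ : Ω) ^ p = 1) (h : IsKummerClass K ζ c u) (n : ℕ) :
    IsKummerClass K ζ (fun σ => (n : ZMod p) * c σ) (u ^ n) := by
  obtain ⟨θ, hθ, rfl⟩ := h
  exact ⟨θ ^ n, hθ.pow hζ n, by rw [← pow_mul, mul_comm, pow_mul]⟩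

/-- **Eigen-classes.**  Let `s ∈ Gal(Ω/F)` map `K` into `K`, with `s ζ = ζ ^ m`.  If the class
`u` of `c` satisfies `s u = w ^ p * u ^ n` for some `w ∈ K`, then
`m * c (s⁻¹ * g * s) = n * c g` for all `g ∈ G_K`. -/
theorem conj_eq [Fact p.Prime] (hζ : IsPrimitiveRoot (ζ : Ω) p) (h : IsKummerClass K ζ c u)
    (s : Ω ≃ₐ[F] Ω) (hsK : ∀ x ∈ K, s x ∈ K) (m n : ℕ) (hsζ : s (ζ : Ω) = (ζ : Ω) ^ m)
    {w : Ω} (hw : w ∈ K) (hsu : s u = w ^ p * u ^ n) {g : Ω ≃ₐ[F] Ω}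
    (hg : g ∈ K.fixingSubgroup) : (m : ZMod p) * c (s⁻¹ * g * s) = (n : ZMod p) * c g := by
  have hp : p.Prime := Fact.out
  have : NeZero p := ⟨hp.ne_zero⟩
  exact (h.conj hζ.pow_eq_one s hsK m hsζ).eq_of_eq_pow_mul hζ (h.pow hζ.pow_eq_one n) hw hsu hg

/-- **Conjugation invariance.**  Let `s ∈ Gal(Ω/F)` map `K` into `K`, with `s ζ = ζ ^ m`,
`p ∤ m`.  If the class `u` of `c` satisfies `s u = w ^ p * u ^ m` for some `w ∈ K`, then
`c (s⁻¹ * g * s) = c g` for all `g ∈ G_K`. -/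
theorem conj_invariant [Fact p.Prime] (hζ : IsPrimitiveRoot (ζ : Ω) p)
    (h : IsKummerClass K ζ c u) (s : Ω ≃ₐ[F] Ω) (hsK : ∀ x ∈ K, s x ∈ K) (m : ℕ)
    (hsζ : s (ζ : Ω) = (ζ : Ω) ^ m) (hm : (m : ZMod p) ≠ 0) {w : Ω} (hw : w ∈ K)
    (hsu : s u = w ^ p * u ^ m) {g : Ω ≃ₐ[F] Ω} (hg : g ∈ K.fixingSubgroup) :
    c (s⁻¹ * g * s) = c g :=
  mul_left_cancel₀ hm (h.conj_eq hζ s hsK m m hsζ hw hsu hg)

end IsKummerClass

section Trace

variable {k : Type*} [CommRing k] {p : ℕ} {K : IntermediateField F Ω} {ζ : K}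
  {T : k →+ ZMod p} {φ : (Ω ≃ₐ[F] Ω) → k}

/-- **Eigen-classes, trace-form family.**  Let `s ∈ Gal(Ω/F)` map `K` into `K`, with
`s ζ = ζ ^ m`.  If `T` is nondegenerate and every `trChar T φ x` has a class `u` with
`s u = w ^ p * u ^ n`, `w ∈ K`, then `m • φ (s⁻¹ * g * s) = n • φ g` for all `g ∈ G_K`. -/
theorem conj_eq_of_trChar_class [Fact p.Prime] (hζ : IsPrimitiveRoot (ζ : Ω) p)
    (hT : ∀ y : k, (∀ x : k, T (x * y) = 0) → y = 0) (s : Ω ≃ₐ[F] Ω)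
    (hsK : ∀ x ∈ K, s x ∈ K) (m n : ℕ) (hsζ : s (ζ : Ω) = (ζ : Ω) ^ m)
    (h : ∀ x : k, ∃ u w : Ω, IsKummerClass K ζ (trChar T φ x) u ∧ w ∈ K ∧
      s u = w ^ p * u ^ n)
    {g : Ω ≃ₐ[F] Ω} (hg : g ∈ K.fixingSubgroup) :
    m • φ (s⁻¹ * g * s) = n • φ g := by
  refine eq_of_sub_eq_zero (hT _ fun x => ?_)
  obtain ⟨u, w, hu, hw, hsu⟩ := h x
  have h1 : (m : ZMod p) * trChar T φ x (s⁻¹ * g * s) = (n : ZMod p) * trChar T φ x g :=
    hu.conj_eq hζ s hsK m n hsζ hw hsu hg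
  rw [trChar_apply, trChar_apply, ← nsmul_eq_mul, ← nsmul_eq_mul, ← map_nsmul, ← map_nsmul]
    at h1
  rw [mul_sub, map_sub, mul_smul_comm, mul_smul_comm, h1, sub_self]

/-- **Conjugation invariance, trace-form family.**  Let `s ∈ Gal(Ω/F)` map `K` into `K`, with
`s ζ = ζ ^ m`, `p ∤ m`.  If `T` is nondegenerate and every `trChar T φ x` has a class `u` with
`s u = w ^ p * u ^ m`, `w ∈ K`, then `φ (s⁻¹ * g * s) = φ g` for all `g ∈ G_K`. -/
theorem conj_invariant_of_trChar_class [Fact p.Prime] (hζ : IsPrimitiveRoot (ζ : Ω) p)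
    (hT : ∀ y : k, (∀ x : k, T (x * y) = 0) → y = 0) (s : Ω ≃ₐ[F] Ω)
    (hsK : ∀ x ∈ K, s x ∈ K) (m : ℕ) (hsζ : s (ζ : Ω) = (ζ : Ω) ^ m)
    (hm : (m : ZMod p) ≠ 0)
    (h : ∀ x : k, ∃ u w : Ω, IsKummerClass K ζ (trChar T φ x) u ∧ w ∈ K ∧
      s u = w ^ p * u ^ m)
    {g : Ω ≃ₐ[F] Ω} (hg : g ∈ K.fixingSubgroup) : φ (s⁻¹ * g * s) = φ g := by
  refine eq_of_sub_eq_zero (hT _ fun x => ?_)
  obtain ⟨u, w, hu, hw, hsu⟩ := h x
  have h1 : trChar T φ x (s⁻¹ * g * s) = trChar T φ x g :=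
    hu.conj_invariant hζ s hsK m hsζ hm hw hsu hg
  rw [trChar_apply, trChar_apply] at h1
  rw [mul_sub, map_sub, h1, sub_self]

end Trace

end Fermat.Agent.S56.LF.KummerClass
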