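import Mathlib
import Fermat.Agent.S56.LF.LevelBound.Main
import Fermat.Agent.S56.LF.LevelExit

/-!
# S56 / LF row B2 (LF5): the exit of the row, and the closing line of the LF serial chain

* `level_bound : LevelBoundStatement p` : for `p` odd, `K`, `L'` finite over `ℚ_p` inside
  `ℚ̄_p`, `L'` with property (P), `ζ_p ∈ K`: if `u ∈ Kˣ` has a `p`-th root in `L' K`, then
  `u ≡ w ^ p` modulo `p` for some `w ∈ Kˣ` (i.e. `‖u / w ^ p - 1‖ ≤ ‖p‖`);
* `level_bound_literal` : the same statement, unfolded;
* `levelStatement : FlatKummer.LevelStatement` : the input of `LF/FlatKummer.lean`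
  (flat ⟹ Kummer-bounded), through `LevelExit.levelStatement_of_main`.
-/

set_option autoImplicit false

namespace Fermat.Agent.S56.LF.LevelBound

open scoped NNReal NormedField Valued IntermediateField

/-- **LF5 (level bound), exit of row B2.** -/
theorem level_bound {p : ℕ} [Fact p.Prime] : LevelBoundStatement p :=
  ReduceTwin.levelBound_of_main mainStatement

/-- **LF5 (level bound)**, unfolded literal. -/
theorem level_bound_literal {p : ℕ} [Fact p.Prime] (hp2 : p ≠ 2)
    (K L' : IntermediateField ℚ_[p] (PadicAlgCl p)) [FiniteDimensional ℚ_[p] K]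
    [FiniteDimensional ℚ_[p] L'] (hP : PropP L')
    {ζ : PadicAlgCl p} (hζ : IsPrimitiveRoot ζ p) (hζK : ζ ∈ K)
    {u θ : PadicAlgCl p} (hu : u ∈ K) (hu0 : u ≠ 0) (hθ : θ ∈ L' ⊔ K) (hθu : θ ^ p = u) :
    ∃ w ∈ K, w ≠ 0 ∧ ‖u / w ^ p - 1‖ ≤ ‖((p : ℕ) : PadicAlgCl p)‖ :=
  level_bound hp2 K L' hP hζ hζK hu hu0 hθ hθu

/-- **The closing line of the LF serial chain** (A1 → A2 → A3 → B2 → LevelGlue): the level
statement consumed by `LF/FlatKummer.lean`. -/
theorem levelStatement : FlatKummer.LevelStatement :=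
  LevelExit.levelStatement_of_main (fun p _ => mainStatement (p := p))

end Fermat.Agent.S56.LF.LevelBound
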