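/-
S56, brick LF, row C7 = LF9 (p = 3): the junction `flat points ⟹ PThree.QuotRigid`.

For a finite free cocommutative Hopf algebra `H` over `ℤ_(p) = GaloisRep.ratLocalizedAt p`
whose `ℚ̄_p`-points are identified, additively and `G_p`-equivariantly, with an additive group
`X` killed by `p` (this is what the frozen flatness condition gives for a lift, after the
adapter `Flat/Adapter.exists_local_points`), the module `X` is quotient rigid with respect to
any subgroup `I ≤ G_p` which

* acts trivially on the residue field (`‖τ x - x‖ < 1` for `‖x‖ ≤ 1`), and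
* has unramified fixed ring (`a` fixed by `I`, `‖a‖ < 1` ⟹ `a = p b`, `b` fixed, `‖b‖ ≤ 1`).

Both hold for the inertia group of `G_p` (row B3).  The proof is one call of the ring-level
quotient rigidity `LF.QuotRigid.mem_of_quot_fixed` (row A4) at `S :=` the unit ball of `ℚ̄_p`.
-/
import Mathlib
import Fermat.Prelude.Def_GaloisRep_Flat
import Fermat.Prelude.Def_GaloisRep_CompletionBridge
import Fermat.Agent.S56.LF.PThree
import Fermat.Agent.S56.LF.QuotRigid
import Fermat.Agent.S56.Flat.Adapter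

set_option autoImplicit false

noncomputable section

namespace Fermat.Agent.S56.LF.PThreeInst

open GaloisRep WithConv

variable (p : ℕ) [Fact p.Prime]

set_option quotPrecheck false in
local notation "R0" => ↥(ratLocalizedAt p)
local notation "Qpb" => PadicAlgCl p
local notation "Gp" => (PadicAlgCl p ≃ₐ[ℚ_[p]] PadicAlgCl p)

/-! ### The unit ball of `ℚ̄_p` as a `ℤ_(p)`-algebra -/

theorem norm_algebraMap_le_one (r : R0) : ‖algebraMap R0 Qpb r‖ ≤ 1 := by
  have h1 : algebraMap R0 Qpb r = algebraMap ℚ_[p] Qpb (((r : ℚ) : ℚ_[p])) := rfl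
  rw [h1]
  have h2 := PadicAlgCl.norm_extends p (((r : ℚ) : ℚ_[p]))
  rw [h2]
  apply Padic.norm_rat_le_one
  have hr : (r : ℚ).den.Coprime p := r.2
  intro hdvd
  exact (Fact.out : p.Prime).ne_one (Nat.Coprime.eq_one_of_dvd hr.symm hdvd)

theorem norm_natCast_self : ‖((p : ℕ) : Qpb)‖ = (p : ℝ)⁻¹ := by
  have h : ((p : ℕ) : Qpb) = algebraMap ℚ_[p] Qpb ((p : ℕ) : ℚ_[p]) := (map_natCast _ p).symm
  rw [h]
  have h2 := PadicAlgCl.norm_extends p ((p : ℕ) : ℚ_[p])
  rw [h2]
  exact Padic.norm_p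

theorem norm_gal (τ : Gp) (x : Qpb) : ‖τ x‖ = ‖x‖ :=
  (spectralNorm_eq_of_equiv τ x).symm

/-- The unit ball of `ℚ̄_p`, as a `ℤ_(p)`-subalgebra. -/
def ball : Subalgebra R0 Qpb where
  carrier := {x | ‖x‖ ≤ 1}
  mul_mem' := fun {a b} ha hb => by
    show ‖a * b‖ ≤ 1
    rw [norm_mul]
    exact mul_le_one₀ ha (norm_nonneg _) hb
  add_mem' := fun {a b} ha hb => by
    show ‖a + b‖ ≤ 1
    exact (PadicAlgCl.isNonarchimedean p a b).trans (max_le ha hb)
  algebraMap_mem' := fun r => norm_algebraMap_le_one p r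

theorem mem_ball {x : Qpb} : x ∈ ball p ↔ ‖x‖ ≤ 1 := Iff.rfl

instance charZero_ball : CharZero ↥(ball p) :=
  (RingHom.charZero_iff (ϕ := (ball p).val.toRingHom) Subtype.val_injective).mpr inferInstance

/-- The open unit ball, as an ideal of the unit ball. -/
def mS : Ideal ↥(ball p) where
  carrier := {x | ‖(x : Qpb)‖ < 1}
  add_mem' := fun {a b} ha hb =>
    lt_of_le_of_lt (PadicAlgCl.isNonarchimedean p (a : Qpb) (b : Qpb)) (max_lt ha hb)
  zero_mem' := by
    show ‖((0 : ↥(ball p)) : Qpb)‖ < 1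
    simp
  smul_mem' := fun c x hx => by
    show ‖((c * x : ↥(ball p)) : Qpb)‖ < 1
    have : ((c * x : ↥(ball p)) : Qpb) = (c : Qpb) * (x : Qpb) := rfl
    rw [this, norm_mul]
    exact mul_lt_one_of_nonneg_of_lt_one_right c.2 (norm_nonneg _) hx

theorem mem_mS {x : ↥(ball p)} : x ∈ mS p ↔ ‖(x : Qpb)‖ < 1 := Iff.rfl

/-- The Galois group acts on the unit ball by `ℤ_(p)`-algebra maps. -/
def galS (τ : Gp) : ↥(ball p) →ₐ[R0] ↥(ball p) where
  toFun x := ⟨τ (x : Qpb), by
    show ‖τ (x : Qpb)‖ ≤ 1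
    rw [norm_gal]
    exact x.2⟩
  map_one' := Subtype.ext (map_one τ)
  map_mul' x y := Subtype.ext (map_mul τ _ _)
  map_zero' := Subtype.ext (map_zero τ)
  map_add' x y := Subtype.ext (map_add τ _ _)
  commutes' r := Subtype.ext (by
    show τ (algebraMap ℚ_[p] Qpb (((r : ℚ) : ℚ_[p]))) = algebraMap ℚ_[p] Qpb (((r : ℚ) : ℚ_[p]))
    exact τ.commutes _)

theorem coe_galS (τ : Gp) (x : ↥(ball p)) : ((galS p τ x : ↥(ball p)) : Qpb) = τ (x : Qpb) := rfl

theorem galS_injective (τ : Gp) : Function.Injective (galS p τ) := by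
  intro x y h
  apply Subtype.ext
  apply τ.injective
  have := congrArg (fun z : ↥(ball p) => (z : Qpb)) h
  exact this

/-- The unit ball is `p`-adically separated. -/
theorem sep_ball (a : ↥(ball p)) (h : ∀ k : ℕ, ((p : ℕ) : ↥(ball p)) ^ k ∣ a) : a = 0 := by
  by_contra ha
  have ha' : 0 < ‖(a : Qpb)‖ := by
    rw [norm_pos_iff]
    intro h0
    exact ha (Subtype.ext h0)
  have hp1 : (p : ℝ)⁻¹ < 1 := by
    have : (1 : ℝ) < p := by exact_mod_cast (Fact.out : p.Prime).one_lt
    exact inv_lt_one_of_one_lt₀ this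
  have hp0 : (0 : ℝ) ≤ (p : ℝ)⁻¹ := by positivity
  obtain ⟨k, hk⟩ := exists_pow_lt_of_lt_one ha' hp1
  obtain ⟨c, hc⟩ := h k
  have hnorm : ‖(a : Qpb)‖ = ((p : ℝ)⁻¹) ^ k * ‖(c : Qpb)‖ := by
    have : (a : Qpb) = ((p : ℕ) : Qpb) ^ k * (c : Qpb) := by
      rw [hc]; rfl
    rw [this, norm_mul, norm_pow, norm_natCast_self]
  have hle : ‖(a : Qpb)‖ ≤ ((p : ℝ)⁻¹) ^ k := by
    rw [hnorm]
    exact mul_le_of_le_one_right (pow_nonneg hp0 k) c.2
  exact absurd hle (not_le.mpr hk)

/-! ### The residue ring of the unit ball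

A type synonym with explicitly commutative instances (the convolution monoid of points needs a
`CommSemiring` on the target and an `Algebra` instance over that very structure). -/

/-- The residue ring of the unit ball. -/
def Res : Type := ↥(ball p) ⧸ mS p

instance commRingRes : CommRing (Res p) := Ideal.Quotient.commRing (mS p)

/-- The reduction map. -/
def resMk : ↥(ball p) →+* Res p := Ideal.Quotient.mk (mS p)

instance algebraRes : Algebra R0 (Res p) :=
  ((resMk p).comp (algebraMap R0 ↥(ball p))).toAlgebra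

/-- The reduction map as a `ℤ_(p)`-algebra map. -/
def resAlg : ↥(ball p) →ₐ[R0] Res p :=
  { resMk p with commutes' := fun _ => rfl }

theorem resAlg_apply (a : ↥(ball p)) : resAlg p a = resMk p a := rfl

theorem resMk_eq_iff (a b : ↥(ball p)) : resMk p a = resMk p b ↔ a - b ∈ mS p :=
  Ideal.Quotient.eq

/-! ### Points -/

section Points

variable (H : Type) [CommRing H] [HopfAlgebra (ratLocalizedAt p) H]
  [Module.Finite (ratLocalizedAt p) H]

/-- The values of a `ℚ̄_p`-point of a finite `ℤ_(p)`-algebra lie in the unit ball. -/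
theorem norm_point_le_one (g : H →ₐ[R0] Qpb) (h : H) : ‖g h‖ ≤ 1 := by
  obtain ⟨P, hP, hPe⟩ := Fermat.Agent.S56.Flat.Adapter.isIntegral_point p H g h
  by_contra hlt
  rw [not_le] at hlt
  set x := g h with hx
  have hsum := hP.as_sum
  have hev : x ^ P.natDegree +
      ∑ i ∈ Finset.range P.natDegree, algebraMap R0 Qpb (P.coeff i) * x ^ i = 0 := by
    have := hPe
    rw [hsum] at this
    simpa [Polynomial.eval₂_add, Polynomial.eval₂_finsetSum] using this
  have hx0 : 0 < ‖x‖ := lt_trans zero_lt_one hlt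
  -- the degree is positive
  have hdeg : P.natDegree ≠ 0 := by
    intro h0
    rw [h0] at hev
    simp at hev
  obtain ⟨n, hn⟩ := Nat.exists_eq_succ_of_ne_zero hdeg
  have hbound : ‖∑ i ∈ Finset.range P.natDegree, algebraMap R0 Qpb (P.coeff i) * x ^ i‖ ≤
      ‖x‖ ^ n := by
    apply IsUltrametricDist.norm_sum_le_of_forall_le_of_nonneg (pow_nonneg hx0.le n)
    intro i hi
    rw [Finset.mem_range, hn] at hi
    rw [norm_mul, norm_pow]
    calc ‖algebraMap R0 Qpb (P.coeff i)‖ * ‖x‖ ^ i ≤ 1 * ‖x‖ ^ i :=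
          mul_le_mul_of_nonneg_right (norm_algebraMap_le_one p _) (pow_nonneg hx0.le i)
      _ = ‖x‖ ^ i := one_mul _
      _ ≤ ‖x‖ ^ n := pow_le_pow_right₀ hlt.le (Nat.lt_succ_iff.mp hi)
  have heq : x ^ P.natDegree =
      -∑ i ∈ Finset.range P.natDegree, algebraMap R0 Qpb (P.coeff i) * x ^ i :=
    eq_neg_of_add_eq_zero_left hev
  have h1 : ‖x‖ ^ (n + 1) ≤ ‖x‖ ^ n := by
    have h3 := congrArg norm heq
    rw [norm_neg, norm_pow] at h3
    rw [← Nat.succ_eq_add_one, ← hn, h3]
    exact hbound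
  have h2 : ‖x‖ ^ n < ‖x‖ ^ (n + 1) := by
    rw [pow_succ]
    exact lt_mul_of_one_lt_right (pow_pos hx0 n) hlt
  exact absurd h1 (not_le.mpr h2)

/-- Extension of scalars of a point from the unit ball to `ℚ̄_p`, as a monoid homomorphism. -/
def extHom : WithConv (H →ₐ[R0] ↥(ball p)) →* WithConv (H →ₐ[R0] Qpb) where
  toFun g := toConv ((ball p).val.comp g.ofConv)
  map_one' := by
    apply WithConv.ext
    ext h
    exact (ball p).val.commutes (Coalgebra.counit h)
  map_mul' f g := WithConv.ext (AlgHom.comp_convMul_distrib (ball p).val f g)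

theorem extHom_apply (g : WithConv (H →ₐ[R0] ↥(ball p))) (h : H) :
    (extHom p H g).ofConv h = ((g.ofConv h : ↥(ball p)) : Qpb) := rfl

theorem extHom_bijective : Function.Bijective (extHom p H) := by
  constructor
  · intro f g hfg
    apply WithConv.ext
    ext h
    exact congrArg (fun F : WithConv (H →ₐ[R0] Qpb) => F.ofConv h) hfg
  · intro f
    refine ⟨toConv (f.ofConv.codRestrict (ball p) (fun h => norm_point_le_one p H f.ofConv h)),
      ?_⟩
    apply WithConv.ext
    ext h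
    rfl

/-- Reduction of a point modulo the open unit ball, as a monoid homomorphism. -/
def redHom : WithConv (H →ₐ[R0] ↥(ball p)) →* WithConv (H →ₐ[R0] Res p) where
  toFun g := toConv ((resAlg p).comp g.ofConv)
  map_one' := by
    apply WithConv.ext
    ext h
    exact (resAlg p).commutes (Coalgebra.counit h)
  map_mul' f g := WithConv.ext (AlgHom.comp_convMul_distrib (resAlg p) f g)

/-- The Galois action on points in the unit ball, as a monoid homomorphism. -/
def galPt (τ : Gp) : WithConv (H →ₐ[R0] ↥(ball p)) →* WithConv (H →ₐ[R0] ↥(ball p)) where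
  toFun g := toConv ((galS p τ).comp g.ofConv)
  map_one' := by
    apply WithConv.ext
    ext h
    exact congrArg Subtype.val ((galS p τ).commutes (Coalgebra.counit h))
  map_mul' f g := WithConv.ext (AlgHom.comp_convMul_distrib (galS p τ) f g)

theorem galPt_apply (τ : Gp) (g : WithConv (H →ₐ[R0] ↥(ball p))) (h : H) :
    (((galPt p H τ g).ofConv h : ↥(ball p)) : Qpb) = τ ((g.ofConv h : ↥(ball p)) : Qpb) := rfl

theorem redHom_eq_one_iff (g : WithConv (H →ₐ[R0] ↥(ball p))) :
    redHom p H g = 1 ↔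
      ∀ h : H, g.ofConv h - algebraMap R0 ↥(ball p) (Coalgebra.counit h) ∈ mS p := by
  constructor
  · intro hg h
    have h1 := congrArg (fun F : WithConv (H →ₐ[R0] Res p) => F.ofConv h) hg
    have h2 : resMk p (g.ofConv h) = resMk p (algebraMap R0 ↥(ball p) (Coalgebra.counit h)) := h1
    exact (resMk_eq_iff p _ _).mp h2
  · intro hg
    apply WithConv.ext
    ext h
    exact (resMk_eq_iff p _ _).mpr (hg h)

theorem redHom_galPt (I : Subgroup Gp)
    (hI : ∀ τ ∈ I, ∀ x : Qpb, ‖x‖ ≤ 1 → ‖τ x - x‖ < 1) (τ : Gp) (hτ : τ ∈ I)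
    (g : WithConv (H →ₐ[R0] ↥(ball p))) : redHom p H (galPt p H τ g) = redHom p H g := by
  apply WithConv.ext
  ext h
  refine (resMk_eq_iff p _ _).mpr ?_
  show ‖(((galPt p H τ g).ofConv h - g.ofConv h : ↥(ball p)) : Qpb)‖ < 1
  exact hI τ hτ _ (g.ofConv h).2

end Points

/-! ### The junction -/

/-- **Flat points are quotient rigid.**  `H` a finite free cocommutative Hopf algebra over
`ℤ_(p)`, `p` odd, `e` an additive `G_p`-equivariant identification of its `ℚ̄_p`-points with an
additive group `X` killed by `p`; `I ≤ G_p` a subgroup acting trivially on the residue field and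
with unramified fixed ring.  Then `X` is quotient rigid with respect to `I`. -/
theorem quotRigid_of_points (hp2 : p ≠ 2)
    (H : Type) [CommRing H] [HopfAlgebra (ratLocalizedAt p) H]
    [Module.Finite (ratLocalizedAt p) H] [Module.Free (ratLocalizedAt p) H]
    [Coalgebra.IsCocomm (ratLocalizedAt p) H]
    {X : Type} [AddCommGroup X] (act : Gp → X → X) (hX : ∀ x : X, p • x = 0)
    (e : WithConv (H →ₐ[R0] Qpb) ≃ X)
    (hmul : ∀ f g : WithConv (H →ₐ[R0] Qpb), e (f * g) = e f + e g)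
    (hgal : ∀ (τ : Gp) (f g : WithConv (H →ₐ[R0] Qpb)),
      (∀ h : H, g.ofConv h = τ (f.ofConv h)) → e g = act τ (e f))
    (I : Subgroup Gp)
    (hI : ∀ τ ∈ I, ∀ x : Qpb, ‖x‖ ≤ 1 → ‖τ x - x‖ < 1)
    (hur : ∀ a : Qpb, (∀ τ ∈ I, τ a = a) → ‖a‖ < 1 →
      ∃ b : Qpb, ‖b‖ ≤ 1 ∧ (∀ τ ∈ I, τ b = b) ∧ a = (p : Qpb) * b) :
    PThree.QuotRigid act I := by
  classical
  have hpr : p.Prime := Fact.out
  -- the additive parametrisation of `X` by the points in the unit ball
  let Φ : WithConv (H →ₐ[R0] ↥(ball p)) → X := fun g => e (extHom p H g)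
  have hΦmul : ∀ a b, Φ (a * b) = Φ a + Φ b := by
    intro a b
    show e (extHom p H (a * b)) = _
    rw [map_mul, hmul]
  have hΦone : Φ 1 = 0 := by
    have := hΦmul 1 1
    rw [mul_one] at this
    exact left_eq_add.mp this
  have hΦbij : Function.Bijective Φ := e.bijective.comp (extHom_bijective p H)
  have hΦpow : ∀ (a : WithConv (H →ₐ[R0] ↥(ball p))) (n : ℕ), Φ (a ^ n) = n • Φ a := by
    intro a n
    induction n with
    | zero => rw [pow_zero, zero_smul, hΦone]
    | succ n ih => rw [pow_succ, hΦmul, ih, succ_nsmul]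
  have hpow : ∀ a : WithConv (H →ₐ[R0] ↥(ball p)), a ^ p = 1 := by
    intro a
    apply hΦbij.1
    rw [hΦpow, hX, hΦone]
  have hΦgal : ∀ (τ : Gp) (a : WithConv (H →ₐ[R0] ↥(ball p))),
      Φ (galPt p H τ a) = act τ (Φ a) := by
    intro τ a
    exact hgal τ (extHom p H a) (extHom p H (galPt p H τ a)) (fun h => rfl)
  have hp1 : p - 1 + 1 = p := Nat.sub_add_cancel hpr.one_le
  have hΦinv : ∀ a : WithConv (H →ₐ[R0] ↥(ball p)), Φ (a ^ (p - 1)) = -Φ a := by
    intro a
    rw [hΦpow]
    have h := hX (Φ a)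
    rw [← hp1, succ_nsmul] at h
    exact eq_neg_of_add_eq_zero_left h
  -- the subgroup `E0`
  let E0 : AddSubgroup X :=
    { carrier := {v | ∃ a, redHom p H a = 1 ∧ Φ a = v}
      zero_mem' := ⟨1, map_one _, hΦone⟩
      add_mem' := by
        rintro _ _ ⟨a, ha, rfl⟩ ⟨b, hb, rfl⟩
        exact ⟨a * b, by rw [map_mul, ha, hb, one_mul], hΦmul a b⟩
      neg_mem' := by
        rintro _ ⟨a, ha, rfl⟩
        exact ⟨a ^ (p - 1), by rw [map_pow, ha, one_pow], hΦinv a⟩ }
  refine ⟨E0, ?_, ?_⟩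
  · -- inertia acts trivially modulo `E0`
    intro σ hσ v
    obtain ⟨a, rfl⟩ := hΦbij.2 v
    refine ⟨galPt p H σ a * a ^ (p - 1), ?_, ?_⟩
    · rw [map_mul, map_pow, redHom_galPt p H I hI σ hσ, ← pow_succ', hp1, ← map_pow, hpow,
        map_one]
    · rw [hΦmul, hΦgal, hΦinv, sub_eq_add_neg]
  · -- quotient rigidity
    intro N' hN' x hx hxN'
    obtain ⟨a, ha, rfl⟩ := hx
    haveI : Finite (H →ₐ[R0] ↥(ball p)) :=
      Fermat.Agent.S56.Flat.Adapter.finite_algHom R0 H ↥(ball p)
    haveI : Finite (WithConv (H →ₐ[R0] ↥(ball p))) :=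
      Finite.of_injective (fun f : WithConv (H →ₐ[R0] ↥(ball p)) => f.ofConv)
        WithConv.ofConv_injective
    haveI : Fintype (WithConv (H →ₐ[R0] ↥(ball p))) := Fintype.ofFinite _
    let N : Finset (WithConv (H →ₐ[R0] ↥(ball p))) := Finset.univ.filter (fun g => Φ g ∈ N')
    have hmemN : ∀ g, g ∈ N ↔ Φ g ∈ N' := by
      intro g
      simp [N]
    have key := Fermat.Agent.S56.LF.QuotRigid.mem_of_quot_fixed hpr hp2 (sep_ball p)
      (fun i : ↥I => galS p i.1)
      (fun i => galS_injective p i.1) (mS p) ?_ N ?_ ?_ ?_ a (hpow a) ?_ ?_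
    · exact (hmemN a).mp key
    · -- the fixed elements of the open ball are divisible by `p`
      intro b hb hfix
      have hfix' : ∀ τ ∈ I, τ (b : Qpb) = (b : Qpb) := by
        intro τ hτ
        exact congrArg Subtype.val (hfix ⟨τ, hτ⟩)
      obtain ⟨c, hc1, hc2, hc3⟩ := hur (b : Qpb) hfix' hb
      refine ⟨⟨c, hc1⟩, ?_, ?_⟩
      · intro i
        exact Subtype.ext (hc2 i.1 i.2)
      · apply Subtype.ext
        rw [hc3]
        rfl
    · exact (hmemN 1).mpr (by rw [hΦone]; exact N'.zero_mem)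
    · intro g hg g' hg'
      rw [hmemN] at hg hg' ⊢
      rw [hΦmul]
      exact N'.add_mem hg hg'
    · intro i n hn
      rw [hmemN] at hn
      have : toConv ((galS p i.1).comp n.ofConv) = galPt p H i.1 n := rfl
      rw [this, hmemN, hΦgal]
      exact hN' i.1 i.2 _ hn
    · exact (redHom_eq_one_iff p H a).mp ha
    · intro i
      refine ⟨galPt p H i.1 a * a ^ (p - 1), ?_, ?_⟩
      · rw [hmemN, hΦmul, hΦgal, hΦinv, ← sub_eq_add_neg]
        exact hxN' i.1 i.2
      · have h1 : toConv ((galS p i.1).comp a.ofConv) = galPt p H i.1 a := rfl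
        rw [h1, mul_left_comm, ← pow_succ', hp1, hpow, mul_one]

end Fermat.Agent.S56.LF.PThreeInst
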