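/-
S56 / brick LF, row A3 (TWIN, helper272; dealt by the TW ledger note L-12 after the loss of the
box of the row owner): Fontaine's property (P) for the coordinate field of a finite free
cocommutative bialgebra over `ℤ_(p)` whose `ℚ̄_p`-points are killed by `p`.

* `ringHom_ext_ratLocalizedAt` : ring homomorphisms out of `ℤ_(p)` are unique;
* `intHom`, `intAlgebra`, `incl` : the `ℤ_(p)`-algebra `𝒪[E]` and its inclusion into `ℚ̄_p`;
* `propP_of_points_body` : **(P)** for `L' = coordField p H`: for every finite `E'` and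
  `π ∈ 𝒪[E']`, `π ≠ 0`, `(p - 1) v(π) > v(p)`, a ring homomorphism
  `𝒪[L'] → 𝒪[E'] ⧸ (p π)` forces `L' ≤ E'`.  This is the body of
  `LevelBound.PropP (coordField p H)` verbatim.

Proof: the ring-level (P) `PropP.forall_mem_range_of_lift` with `O := 𝒪[L']`, `S := 𝒪[E']`,
`Om := ℚ̄_p`, `J := 𝓂[E']`, `θ := π^(p-1)/p`, and the lifting statement `LiftGlue.liftStatement`
(`𝒪[E']` is `𝓂[E']`-adically complete).
-/
import Mathlib
import Fermat.Agent.CFT.Local.PadicExt
import Fermat.Agent.S56.LF.PropP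
import Fermat.Agent.S56.LF.LiftGlue
import Fermat.Agent.S56.Flat.Coord

set_option autoImplicit false

noncomputable section

namespace Fermat.Agent.S56.LF.PropPLocalTwin

open scoped NNReal NormedField Valued
open IsLocalRing GaloisRep WithConv
open Fermat.Agent.CFT.Local.NormedLocal Fermat.Agent.CFT.Local.PadicExt
open Fermat.Agent.S56.Flat

/-- Ring homomorphisms out of `ℤ_(p)` are unique. -/
theorem ringHom_ext_ratLocalizedAt (p : ℕ) {Q : Type*} [Ring Q]
    (f g : ratLocalizedAt p →+* Q) : f = g := by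
  ext r
  have hdpos : 0 < (r : ℚ).den := (r : ℚ).den_pos
  have hden : (r : ℚ).den.Coprime p := r.2
  let dinv : ratLocalizedAt p := ⟨(((r : ℚ).den : ℚ))⁻¹, by
    show ((((r : ℚ).den : ℚ))⁻¹).den.Coprime p
    rw [Rat.inv_natCast_den_of_pos hdpos]
    exact hden⟩
  have h1 : (((r : ℚ).den : ℕ) : ratLocalizedAt p) * dinv = 1 := by
    apply Subtype.ext
    show ((((r : ℚ).den : ℕ) : ratLocalizedAt p) : ℚ) * (((r : ℚ).den : ℚ))⁻¹ = 1
    rw [Subring.coe_natCast]
    exact mul_inv_cancel₀ (Nat.cast_ne_zero.mpr hdpos.ne')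
  have h2 : (((r : ℚ).den : ℕ) : ratLocalizedAt p) * r = (((r : ℚ).num : ℤ) : ratLocalizedAt p) := by
    apply Subtype.ext
    show ((((r : ℚ).den : ℕ) : ratLocalizedAt p) : ℚ) * (r : ℚ)
      = ((((r : ℚ).num : ℤ) : ratLocalizedAt p) : ℚ)
    rw [Subring.coe_natCast, Subring.coe_intCast]
    exact Rat.den_mul_eq_num _
  have hu : IsUnit ((((r : ℚ).den : ℕ)) : Q) := by
    have h3 : IsUnit (f (((r : ℚ).den : ℕ) : ratLocalizedAt p)) :=
      (IsUnit.of_mul_eq_one _ h1).map f
    rwa [map_natCast] at h3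
  have hf : ((((r : ℚ).den : ℕ)) : Q) * f r = (((r : ℚ).num : ℤ) : Q) := by
    rw [← map_natCast f, ← map_mul, h2, map_intCast]
  have hg : ((((r : ℚ).den : ℕ)) : Q) * g r = (((r : ℚ).num : ℤ) : Q) := by
    rw [← map_natCast g, ← map_mul, h2, map_intCast]
  exact hu.mul_left_cancel (hf.trans hg.symm)

variable (p : ℕ) [Fact p.Prime]

/-- The image of `r ∈ ℤ_(p)` in `ℚ̄_p` is the rational number `r`. -/
theorem algebraMap_ratLocalizedAt (r : ratLocalizedAt p) :
    algebraMap (ratLocalizedAt p) (PadicAlgCl p) r = (((r : ℚ) : ℚ) : (PadicAlgCl p)) := by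
  rw [IsScalarTower.algebraMap_apply (ratLocalizedAt p) ℚ (PadicAlgCl p), eq_ratCast]
  rfl

section Integers

variable (E : IntermediateField ℚ_[p] (PadicAlgCl p))

/-- The canonical ring homomorphism `ℤ_(p) → 𝒪[E]`. -/
def intHom : ratLocalizedAt p →+* 𝒪[E] :=
  ((algebraMap ℚ E).comp (ratLocalizedAt p).subtype).codRestrict 𝒪[E] (fun r => by
    rw [mem_integer_iff, mem_padicIntegers_iff]
    have h := Coord.norm_algebraMap_le_one p r
    rw [algebraMap_ratLocalizedAt] at h
    have h2 : ((((algebraMap ℚ E).comp (ratLocalizedAt p).subtype) r : E) : (PadicAlgCl p))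
        = (((r : ℚ) : ℚ) : (PadicAlgCl p)) := by
      show ((algebraMap ℚ E (r : ℚ) : E) : (PadicAlgCl p)) = _
      rw [eq_ratCast]
      exact map_ratCast E.val _
    rw [h2]
    exact_mod_cast h)

theorem coe_intHom (r : ratLocalizedAt p) :
    (((intHom p E r : 𝒪[E]) : E) : (PadicAlgCl p)) = (((r : ℚ) : ℚ) : (PadicAlgCl p)) := by
  show ((algebraMap ℚ E (r : ℚ) : E) : (PadicAlgCl p)) = _
  rw [eq_ratCast]
  exact map_ratCast E.val _

/-- The `ℤ_(p)`-algebra structure on `𝒪[E]` (a local instance of this file only). -/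
@[reducible] def intAlgebra : Algebra (ratLocalizedAt p) 𝒪[E] := (intHom p E).toAlgebra

attribute [local instance] intAlgebra

/-- The inclusion `𝒪[E] → ℚ̄_p` as a homomorphism of `ℤ_(p)`-algebras. -/
def incl : 𝒪[E] →ₐ[ratLocalizedAt p] (PadicAlgCl p) where
  toRingHom := (E.val : E →+* (PadicAlgCl p)).comp (𝒪[E]).subtype
  commutes' r := by
    rw [algebraMap_ratLocalizedAt]
    exact coe_intHom p E r

theorem incl_apply (x : 𝒪[E]) : incl p E x = ((x : E) : (PadicAlgCl p)) := rfl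

theorem incl_injective : Function.Injective (incl p E) := by
  intro x y hxy
  apply Subtype.ext
  apply Subtype.ext
  exact hxy

end Integers

/-- A ring homomorphism between `ℤ_(p)`-algebras is a homomorphism of `ℤ_(p)`-algebras. -/
def algHomOfRingHom {A B : Type*} [CommRing A] [CommRing B] [Algebra (ratLocalizedAt p) A]
    [Algebra (ratLocalizedAt p) B] (f : A →+* B) : A →ₐ[ratLocalizedAt p] B :=
  { f with
    commutes' := fun r =>
      DFunLike.congr_fun (ringHom_ext_ratLocalizedAt p (f.comp (algebraMap (ratLocalizedAt p) A))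
        (algebraMap (ratLocalizedAt p) B)) r }

attribute [local instance] intAlgebra

/-- **Fontaine's property (P) for the coordinate field** (the body of
`LevelBound.PropP (coordField p H)`).  `H` a finite free cocommutative bialgebra over `ℤ_(p)`
whose `ℚ̄_p`-points are killed by `p`, `L' := coordField p H`.  For every finite extension `E'`
of `ℚ_p` in `ℚ̄_p` and every `π ∈ 𝒪[E']`, `π ≠ 0`, with `‖π‖ ^ (p - 1) < ‖p‖`, the existence of a
ring homomorphism `𝒪[L'] → 𝒪[E'] ⧸ (p π)` forces `L' ≤ E'`. -/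
theorem propP_of_points_body (H : Type) [CommRing H] [Bialgebra (ratLocalizedAt p) H]
    [Coalgebra.IsCocomm (ratLocalizedAt p) H] [Module.Free (ratLocalizedAt p) H]
    [Module.Finite (ratLocalizedAt p) H]
    (htors : ∀ f : WithConv (H →ₐ[ratLocalizedAt p] PadicAlgCl p), f ^ p = 1)
    (E' : IntermediateField ℚ_[p] (PadicAlgCl p)) [FiniteDimensional ℚ_[p] E'] (π : 𝒪[E'])
    (hπ0 : π ≠ 0) (hπ : ‖(π : E')‖ ^ (p - 1) < ‖((p : ℕ) : E')‖)
    (ψ : 𝒪[Coord.coordField p H] →+* 𝒪[E'] ⧸ Ideal.span {((p : ℕ) : 𝒪[E']) * π}) :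
    Coord.coordField p H ≤ E' := by
  classical
  have hp : p.Prime := Fact.out
  have : FiniteDimensional ℚ_[p] (Coord.coordField p H) :=
    Coord.finiteDimensional_coordField p H
  -- norms in `E'`
  have hp0E : ((p : ℕ) : E') ≠ 0 := Nat.cast_ne_zero.mpr hp.ne_zero
  have hple : ‖((p : ℕ) : E')‖ ≤ 1 := IsUltrametricDist.norm_natCast_le_one E' p
  have hπle : ‖(π : E')‖ ≤ 1 := by
    have h := (mem_integer_iff p E' (π : E')).mp π.2
    rw [mem_padicIntegers_iff] at h
    exact_mod_cast h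
  have hπlt : ‖(π : E')‖ < 1 := by
    rcases lt_or_eq_of_le hπle with h | h
    · exact h
    · rw [h, one_pow] at hπ
      exact absurd hπ (not_lt.mpr hple)
  have hmem : ∀ x : 𝒪[E'], ‖(x : E')‖ < 1 → x ∈ 𝓂[E'] := by
    intro x hx
    rw [IsLocalRing.mem_maximalIdeal, mem_nonunits_iff, Valued.integer.isUnit_iff_norm_eq_one]
    exact ne_of_lt hx
  -- `θ := π ^ (p - 1) / p`
  have hθlt : ‖(π : E') ^ (p - 1) / ((p : ℕ) : E')‖ < 1 := by
    rw [norm_div, norm_pow]
    exact (div_lt_one (norm_pos_iff.mpr hp0E)).mpr hπ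
  let θ : 𝒪[E'] := ⟨(π : E') ^ (p - 1) / ((p : ℕ) : E'), by
    rw [mem_integer_iff, mem_padicIntegers_iff]
    exact_mod_cast hθlt.le⟩
  have hπθ : π ^ (p - 1) = ((p : ℕ) : 𝒪[E']) * θ := by
    apply Subtype.ext
    show (π : E') ^ (p - 1) = ((p : ℕ) : E') * ((π : E') ^ (p - 1) / ((p : ℕ) : E'))
    rw [mul_div_cancel₀ _ hp0E]
  have hπm : π ∈ 𝓂[E'] := hmem π hπlt
  have hθm : θ ∈ 𝓂[E'] := hmem θ hθlt
  have hp0S : ((p : ℕ) : 𝒪[E']) ≠ 0 := by
    intro h
    exact hp0E (congrArg (fun z : 𝒪[E'] => (z : E')) h)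
  have hreg : ∀ s : 𝒪[E'], ((p : ℕ) : 𝒪[E']) * π * s = 0 → s = 0 := by
    intro s hs
    rcases mul_eq_zero.mp hs with h | h
    · exact absurd h (mul_ne_zero hp0S hπ0)
    · exact h
  have hLift : PropP.LiftStatement (ratLocalizedAt p) H 𝒪[E'] p π :=
    LiftGlue.liftStatement 𝓂[E'] p hp π θ hπm hθm hπθ hreg
  have : Finite (H →ₐ[ratLocalizedAt p] PadicAlgCl p) := Adapter.finite_algHom _ _ _
  -- the hypotheses on `O := 𝒪[L']`
  have hall : ∀ (f : H →ₐ[ratLocalizedAt p] PadicAlgCl p) (h : H),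
      f h ∈ Set.range (incl p (Coord.coordField p H)) := by
    intro f h
    have hm : f h ∈ Coord.coordField p H := Coord.coord_mem p H f h
    have hn : ‖f h‖ ≤ 1 := Coord.norm_point_le_one p H f h
    refine ⟨⟨⟨f h, hm⟩, ?_⟩, rfl⟩
    rw [mem_integer_iff, mem_padicIntegers_iff]
    exact_mod_cast hn
  have hp0O : ((p : ℕ) : 𝒪[Coord.coordField p H]) ≠ 0 := by
    intro h
    have h2 : ((p : ℕ) : Coord.coordField p H) = 0 :=
      congrArg (fun z : 𝒪[Coord.coordField p H] => (z : Coord.coordField p H)) h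
    exact (Nat.cast_ne_zero.mpr hp.ne_zero) h2
  have hrank : ∀ x : 𝒪[Coord.coordField p H], ¬ IsUnit x →
      ∀ y : 𝒪[Coord.coordField p H], (∀ n, x ^ n ∣ y) → y = 0 := by
    intro x hx y hy
    have hI : Ideal.span {x} ≠ ⊤ := by
      rwa [Ne, Ideal.span_singleton_eq_top]
    have h := Ideal.iInf_pow_eq_bot_of_isLocalRing (Ideal.span {x}) hI
    have hy' : y ∈ ⨅ i : ℕ, Ideal.span {x} ^ i := by
      rw [Ideal.mem_iInf]
      intro n
      rw [Ideal.span_singleton_pow, Ideal.mem_span_singleton]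
      exact hy n
    rw [h] at hy'
    exact hy'
  have key := PropP.forall_mem_range_of_lift (R0 := ratLocalizedAt p) (H := H) (S := 𝒪[E']) hp
    (incl p (Coord.coordField p H)) (incl_injective p (Coord.coordField p H))
    (incl p E') (incl_injective p E') hall htors hp0O hrank 𝓂[E']
    (Ideal.IsMaximal.ne_top inferInstance) π θ hπm hθm hπθ hreg (algHomOfRingHom p ψ) hLift
  refine Coord.coordField_le p H (fun g h => ?_)
  obtain ⟨x, hx⟩ := key g h
  rw [← hx]
  exact (x : E').2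

end Fermat.Agent.S56.LF.PropPLocalTwin
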