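/-
S56 / brick LF, row A3 (TWIN exit, helper272): Fontaine's property (P) for the coordinate field,
in the vocabulary of row B2 (`LevelBound.PropP`, defined in `LF/LevelBound/Approx.lean`).

`propP_coordField : LevelBound.PropP (coordField p H)` for a finite free cocommutative bialgebra
`H` over `ℤ_(p)` whose `ℚ̄_p`-points are killed by `p`; the proof is
`PropPLocalTwin.propP_of_points_body`.
-/
import Fermat.Agent.S56.LF.PropPLocalTwin
import Fermat.Agent.S56.LF.LevelBound.Approx

set_option autoImplicit false

namespace Fermat.Agent.S56.LF.PropPLocalTwinExit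

open GaloisRep
open Fermat.Agent.S56.Flat

/-- **Row A3 exit.**  The coordinate field of a finite free cocommutative bialgebra over `ℤ_(p)`
whose `ℚ̄_p`-points are killed by `p` has Fontaine's property (P). -/
theorem propP_coordField (p : ℕ) [Fact p.Prime] (H : Type) [CommRing H]
    [Bialgebra (ratLocalizedAt p) H] [Coalgebra.IsCocomm (ratLocalizedAt p) H]
    [Module.Free (ratLocalizedAt p) H] [Module.Finite (ratLocalizedAt p) H]
    (htors : ∀ f : WithConv (H →ₐ[ratLocalizedAt p] PadicAlgCl p), f ^ p = 1) :
    LevelBound.PropP (Coord.coordField p H) :=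
  fun E' _ π hπ0 hπ ψ => PropPLocalTwin.propP_of_points_body p H htors E' π hπ0 hπ ψ

end Fermat.Agent.S56.LF.PropPLocalTwinExit
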