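/-
S56, brick LF, row A1: the two Props `LF1Statement` and `RootStatement` of the LF contract
`Fermat/Agent/S56/Flat/AlgBricks.lean`, closed verbatim from `Fermat/Agent/S56/LF/Root.lean`.
-/
import Fermat.Agent.S56.LF.Root
import Fermat.Agent.S56.Flat.AlgBricks

set_option autoImplicit false

namespace Fermat.Agent.S56.LF.Root

/-- Row A1, first half: `LF1Statement` of the LF contract. -/
theorem lf1Statement : Fermat.Agent.S56.Flat.LF1Statement := by
  intro p _ R _ π θ h hu htf y hy
  exact eq_zero_of_pow_eq_one (Fact.out : p.Prime) h hu htf hy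

/-- Row A1, second half: `RootStatement` of the LF contract. -/
theorem rootStatement : Fermat.Agent.S56.Flat.RootStatement := by
  intro p _ R _ I _ π θ hπ hθ h c
  simpa using exists_root (S := R) (R := R) I (Fact.out : p.Prime) hπ hθ h c

end Fermat.Agent.S56.LF.Root
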