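import Mathlib
import Fermat.Agent.S56.LF.TameFieldR
import Fermat.Agent.S56.LF.LGKeyTwinExit
import Fermat.Agent.S56.LF.LGWildExit
import Fermat.Agent.S56.LF.CntFieldExit
import Fermat.Agent.S56.LF.FlatRigidExit
import Fermat.Agent.S56.LF.TopRTwin
import Fermat.Agent.S56.Flat.LF5.LevelStatementExit

/-!
# S56, brick LF: `Flat.LRStatement` and `Flat.TRStatement` are theorems

Junction of the independently landed exits of the reducible (triangular) half of LF-top:

* `lrStatement : Flat.LRStatement` = `TameFieldR.lrStatement` on `LGKeyTwinExit.lgKeyStatement`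
  and `LGWildExit.lgWildStatement`;
* `trStatement : Flat.TRStatement` = `TopRTwin.tr_of` on `lrStatement`,
  `CntFieldExit.cntFinStatement`, `Flat.LF5.LevelStatementExit.levelStatement` and
  `FlatRigidExit.flatRigidStatement`.
-/

set_option autoImplicit false

namespace Fermat.Agent.S56.LF.TRFinal

open Fermat.Agent.S56

/-- **LR**: the tame field of the reducible case exists. -/
theorem lrStatement : Flat.LRStatement :=
  TameFieldR.lrStatement LGKeyTwinExit.lgKeyStatement LGWildExit.lgWildStatement

/-- **TR**: the flat local bound for triangular `r`. -/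
theorem trStatement : Flat.TRStatement :=
  TopRTwin.tr_of lrStatement CntFieldExit.cntFinStatement
    Flat.LF5.LevelStatementExit.levelStatement FlatRigidExit.flatRigidStatement

end Fermat.Agent.S56.LF.TRFinal
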