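import Mathlib
import Fermat.Agent.S56.LF.WildFin

/-!
# S56 / LF, row LG (local Galois basics): absolute inertia and the tame character

`Gal(ℚ̄_p/ℚ_p)` is `PadicAlgCl p ≃ₐ[ℚ_[p]] PadicAlgCl p`; everything is read through the norm of
`PadicAlgCl p`, as in `WildFin`.

* `eq_of_pow_eq_one_of_norm_sub_lt` : congruent roots of unity of order prime to `p` are equal;
* `inertial_iff` : `τ` acts trivially on the residue field of `ℚ̄_p` iff it fixes the roots of unity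
  of order prime to `p`;
* `lgKey` : an automorphism fixing the roots of unity of order prime to `p` of a finite `M` agrees
  on `M` with an inertial automorphism (the inertia group of `ℚ̄_p` maps onto the inertia group of
  every finite level);
* `lgFrob` : for `E ≤ M` finite there is a Frobenius `s ∈ Fix E` on `M` such that every
  `σ ∈ Fix E` agrees on `M` with `s ^ j * τ`, `τ` inertial in `Fix E`;
* the tame character `τ ↦ τ ϖ / ϖ` at a finite normal level `L` (vocabulary of `WildFin`):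
  its kernel is wild (`mem_wildAt_of_uniformizer`), it is injective on elements of order prime to
  `p` (`mem_fixingSubgroup_of_uniformizer`), and its values lie in the field with `Q` elements
  when `τ` commutes on `L` with a `Q`-Frobenius (`norm_tame_pow_sub_lt`).
-/

set_option autoImplicit false

namespace Fermat.Agent.S56.LF.TameChar

open scoped NNReal NormedField Valued IntermediateField
open IsLocalRing Polynomial Fermat.Agent.CFT.Local Fermat.Agent.CFT.Local.NormedLocal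
  Fermat.Agent.CFT.Local.PadicExt Fermat.Agent.CFT.Local.UnramPadic
open Fermat.Agent.S56.LF.WildFin

variable {p : ℕ} [Fact p.Prime]

/-! ### Roots of unity of order prime to `p` -/

section Roots

lemma not_dvd_of_coprime {n : ℕ} (hn : n.Coprime p) : ¬ p ∣ n := by
  have hp : p.Prime := Fact.out
  exact (Nat.Prime.coprime_iff_not_dvd hp).mp hn.symm

lemma ne_zero_of_coprime {n : ℕ} (hn : n.Coprime p) : n ≠ 0 := by
  rintro rfl
  exact not_dvd_of_coprime hn (dvd_zero p)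

lemma norm_eq_one_of_pow_eq_one {n : ℕ} (hn : n ≠ 0) {ξ : PadicAlgCl p} (hξ : ξ ^ n = 1) :
    ‖ξ‖ = 1 := by
  have h : ‖ξ‖ ^ n = 1 := by rw [← norm_pow, hξ, norm_one]
  exact (pow_eq_one_iff_of_nonneg (norm_nonneg _) hn).mp h

/-- A root of unity of order prime to `p` congruent to `1` is `1`. -/
theorem eq_one_of_pow_eq_one_of_norm_sub_lt {n : ℕ} (hn : n.Coprime p) {u : PadicAlgCl p}
    (hu : u ^ n = 1) (h : ‖u - 1‖ < 1) : u = 1 := by
  by_contra hne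
  have hn0 : n ≠ 0 := ne_zero_of_coprime hn
  have h1 : (∑ i ∈ Finset.range n, u ^ i) * (u - 1) = 0 := by rw [geom_sum_mul, hu, sub_self]
  have h2 : ∑ i ∈ Finset.range n, u ^ i = 0 := by
    rcases mul_eq_zero.mp h1 with h' | h'
    · exact h'
    · exact absurd (sub_eq_zero.mp h') hne
  have hu1 : ‖u‖ ≤ 1 := (norm_eq_one_of_pow_eq_one hn0 hu).le
  have h3 : (n : PadicAlgCl p) = - ∑ i ∈ Finset.range n, (u ^ i - 1) := by
    rw [Finset.sum_sub_distrib, h2, Finset.sum_const, Finset.card_range, nsmul_eq_mul, mul_one]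
    ring
  have h4 : ‖∑ i ∈ Finset.range n, (u ^ i - 1)‖ < 1 := by
    obtain ⟨i, -, hi⟩ := IsUltrametricDist.exists_norm_finsetSum_le_of_nonempty
      (Finset.nonempty_range_iff.mpr hn0) (fun i => u ^ i - 1)
    refine lt_of_le_of_lt hi ?_
    have h5 := norm_pow_sub_pow_lt hu1 (by rw [norm_one]) (by simpa using h) i
    simpa using h5
  have h5 : ‖(n : PadicAlgCl p)‖ = 1 := norm_natCast_of_not_dvd (not_dvd_of_coprime hn)
  rw [h3, norm_neg] at h5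
  linarith

/-- Congruent roots of unity of order prime to `p` are equal. -/
theorem eq_of_pow_eq_one_of_norm_sub_lt {n : ℕ} (hn : n.Coprime p) {ξ ξ' : PadicAlgCl p}
    (hξ : ξ ^ n = 1) (hξ' : ξ' ^ n = 1) (h : ‖ξ - ξ'‖ < 1) : ξ = ξ' := by
  have hn0 : n ≠ 0 := ne_zero_of_coprime hn
  have hn' : ‖ξ'‖ = 1 := norm_eq_one_of_pow_eq_one hn0 hξ'
  have h0 : ξ' ≠ 0 := by
    intro h0
    rw [h0, norm_zero] at hn'
    exact zero_ne_one hn'
  have hu : (ξ * ξ'⁻¹) ^ n = 1 := by rw [mul_pow, inv_pow, hξ, hξ', inv_one, mul_one]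
  have hlt : ‖ξ * ξ'⁻¹ - 1‖ < 1 := by
    have e : ξ * ξ'⁻¹ - 1 = (ξ - ξ') * ξ'⁻¹ := by
      rw [sub_mul, mul_inv_cancel₀ h0]
    rw [e, norm_mul, norm_inv, hn', inv_one, mul_one]
    exact h
  have h1 := eq_one_of_pow_eq_one_of_norm_sub_lt hn hu hlt
  have h2 : ξ = ξ * ξ'⁻¹ * ξ' := by rw [mul_assoc, inv_mul_cancel₀ h0, mul_one]
  rw [h2, h1, one_mul]

/-- The two hypotheses with different exponents. -/
theorem eq_of_pow_eq_one_of_norm_sub_lt' {n m : ℕ} (hn : n.Coprime p) (hm : m.Coprime p)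
    {ξ ξ' : PadicAlgCl p} (hξ : ξ ^ n = 1) (hξ' : ξ' ^ m = 1) (h : ‖ξ - ξ'‖ < 1) : ξ = ξ' :=
  eq_of_pow_eq_one_of_norm_sub_lt (Nat.Coprime.mul_left hn hm)
    (by rw [pow_mul, hξ, one_pow]) (by rw [mul_comm, pow_mul, hξ', one_pow]) h

variable (L : IntermediateField ℚ_[p] (PadicAlgCl p)) [FiniteDimensional ℚ_[p] L]

lemma one_lt_card : 1 < Nat.card 𝓀[L] := Unramified.one_lt_card_residueField (K := L)

/-- `#𝓀[L] - 1` is prime to `p`. -/
lemma coprime_card_sub_one : (Nat.card 𝓀[L] - 1).Coprime p := by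
  have hp : p.Prime := Fact.out
  have hQf : Nat.card 𝓀[L] = p ^ (𝓂[L]).inertiaDeg 𝒪[ℚ_[p]] := card_residueField_eq_prime_pow L
  have hQ1 : 1 < Nat.card 𝓀[L] := one_lt_card L
  have hf0 : (𝓂[L]).inertiaDeg 𝒪[ℚ_[p]] ≠ 0 := by
    intro h
    rw [h, pow_zero] at hQf
    omega
  have hdvd : p ∣ Nat.card 𝓀[L] := by
    rw [hQf]
    exact dvd_pow_self p hf0
  refine ((Nat.Prime.coprime_iff_not_dvd hp).mpr ?_).symm
  intro h
  have h1 : p ∣ Nat.card 𝓀[L] - (Nat.card 𝓀[L] - 1) := Nat.dvd_sub hdvd h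
  have h2 : Nat.card 𝓀[L] - (Nat.card 𝓀[L] - 1) = 1 := by omega
  rw [h2] at h1
  exact hp.one_lt.ne' (Nat.dvd_one.mp h1)

/-- Teichmüller representatives, in the form "zero or a root of unity of order `#𝓀[L] - 1`". -/
theorem exists_root_near {x : PadicAlgCl p} (hx : x ∈ L) (hx1 : ‖x‖ ≤ 1) :
    ∃ ζ ∈ L, (ζ = 0 ∨ ζ ^ (Nat.card 𝓀[L] - 1) = 1) ∧ ‖x - ζ‖ < 1 := by
  obtain ⟨ζ, hζL, hζ, hlt⟩ := exists_teichmuller L hx hx1
  refine ⟨ζ, hζL, ?_, hlt⟩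
  by_cases h0 : ζ = 0
  · exact Or.inl h0
  · refine Or.inr ?_
    have hQ1 := one_lt_card L
    have h2 : ζ * ζ ^ (Nat.card 𝓀[L] - 1) = ζ * 1 := by
      rw [← pow_succ', mul_one, Nat.sub_add_cancel hQ1.le]
      exact hζ
    exact mul_left_cancel₀ h0 h2

/-- Every root of unity of order prime to `p` in `L` has order dividing `#𝓀[L] - 1`. -/
theorem pow_card_sub_one_eq_one {n : ℕ} (hn : n.Coprime p) {ξ : PadicAlgCl p} (hξL : ξ ∈ L)
    (hξ : ξ ^ n = 1) : ξ ^ (Nat.card 𝓀[L] - 1) = 1 := by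
  have hn0 : n ≠ 0 := ne_zero_of_coprime hn
  have hξ1 : ‖ξ‖ = 1 := norm_eq_one_of_pow_eq_one hn0 hξ
  obtain ⟨ζ, -, hζ, hlt⟩ := exists_root_near L hξL hξ1.le
  rcases hζ with h0 | hζ
  · rw [h0, sub_zero, hξ1] at hlt
    exact absurd hlt (lt_irrefl _)
  · have h := eq_of_pow_eq_one_of_norm_sub_lt' hn (coprime_card_sub_one L) hξ hζ hlt
    rw [h]
    exact hζ

end Roots

/-! ### Absolute inertia -/

section Inertia

/-- `τ` acts trivially on the residue field of `ℚ̄_p` iff it fixes the roots of unity of order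
prime to `p`. -/
theorem inertial_iff (τ : PadicAlgCl p ≃ₐ[ℚ_[p]] PadicAlgCl p) :
    (∀ x : PadicAlgCl p, ‖x‖ ≤ 1 → ‖τ x - x‖ < 1) ↔
      ∀ ξ : PadicAlgCl p, ∀ n : ℕ, n.Coprime p → ξ ^ n = 1 → τ ξ = ξ := by
  constructor
  · intro h ξ n hn hξ
    have hn0 : n ≠ 0 := ne_zero_of_coprime hn
    have hξ1 : ‖ξ‖ = 1 := norm_eq_one_of_pow_eq_one hn0 hξ
    exact eq_of_pow_eq_one_of_norm_sub_lt hn (by rw [← map_pow, hξ, map_one]) hξ (h ξ hξ1.le)
  · intro h x hx1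
    have hfin : FiniteDimensional ℚ_[p] ℚ_[p]⟮x⟯ :=
      IntermediateField.adjoin.finiteDimensional (Algebra.IsIntegral.isIntegral x)
    obtain ⟨ζ, -, hζ, hlt⟩ := exists_root_near ℚ_[p]⟮x⟯
      (IntermediateField.mem_adjoin_simple_self ℚ_[p] x) hx1
    have hτζ : τ ζ = ζ := by
      rcases hζ with h0 | hζ
      · rw [h0, map_zero]
      · exact h ζ _ (coprime_card_sub_one ℚ_[p]⟮x⟯) hζ
    have e : τ x - x = τ (x - ζ) + -(x - ζ) := by
      rw [map_sub, hτζ]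
      ring
    rw [e]
    refine lt_of_le_of_lt (IsUltrametricDist.norm_add_le_max _ _) (max_lt ?_ ?_)
    · rw [WildFin.norm_map]
      exact hlt
    · rw [norm_neg]
      exact hlt

/-- Absolute inertia: the automorphisms acting trivially on the residue field of `ℚ̄_p`. -/
def inertia (p : ℕ) [Fact p.Prime] : Subgroup (PadicAlgCl p ≃ₐ[ℚ_[p]] PadicAlgCl p) where
  carrier := {τ | ∀ x : PadicAlgCl p, ‖x‖ ≤ 1 → ‖τ x - x‖ < 1}
  mul_mem' {σ τ} hσ hτ := by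
    intro x hx1
    rw [AlgEquiv.mul_apply]
    exact norm_sub_lt_of (hσ (τ x) (by rw [WildFin.norm_map]; exact hx1)) (hτ x hx1)
  one_mem' := by
    intro x _
    simp
  inv_mem' {σ} hσ := by
    intro x hx1
    have h := hσ (σ⁻¹ x) (by rw [WildFin.norm_map]; exact hx1)
    have e : σ (σ⁻¹ x) = x := by
      rw [← AlgEquiv.mul_apply, mul_inv_cancel, AlgEquiv.one_apply]
    rw [e, norm_sub_rev] at h
    exact h

lemma mem_inertia {τ : PadicAlgCl p ≃ₐ[ℚ_[p]] PadicAlgCl p} :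
    τ ∈ inertia p ↔ ∀ x : PadicAlgCl p, ‖x‖ ≤ 1 → ‖τ x - x‖ < 1 := Iff.rfl

instance normal_inertia : (inertia p).Normal := by
  constructor
  intro σ hσ g x hx1
  have h := hσ (g⁻¹ x) (by rw [WildFin.norm_map]; exact hx1)
  have e : (g * σ * g⁻¹) x - x = g (σ (g⁻¹ x) - g⁻¹ x) := by
    rw [map_sub, AlgEquiv.mul_apply, AlgEquiv.mul_apply, ← AlgEquiv.mul_apply g g⁻¹,
      mul_inv_cancel, AlgEquiv.one_apply]
  rw [e, WildFin.norm_map]
  exact h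

/-- Absolute inertia is contained in the inertia of every level. -/
lemma inertia_le_inertiaAt (L : IntermediateField ℚ_[p] (PadicAlgCl p)) [Normal ℚ_[p] L] :
    inertia p ≤ inertiaAt L :=
  fun _ hτ x _ hx1 => hτ x hx1

/-- An automorphism fixing a set fixes the field it generates. -/
lemma mem_fixingSubgroup_adjoin {σ : PadicAlgCl p ≃ₐ[ℚ_[p]] PadicAlgCl p}
    {S : Set (PadicAlgCl p)} (h : ∀ x ∈ S, σ x = x) :
    σ ∈ (IntermediateField.adjoin ℚ_[p] S).fixingSubgroup := by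
  rw [← Subgroup.zpowers_le, ← IntermediateField.le_iff_le, IntermediateField.adjoin_le_iff]
  intro x hx
  rw [SetLike.mem_coe, IntermediateField.mem_fixedField_iff]
  intro f hf
  have hle : Subgroup.zpowers σ ≤ MulAction.stabilizer
      (PadicAlgCl p ≃ₐ[ℚ_[p]] PadicAlgCl p) x := by
    rw [Subgroup.zpowers_le, MulAction.mem_stabilizer_iff]
    exact h x hx
  exact MulAction.mem_stabilizer_iff.mp (hle hf)

/-- The field generated by the roots of unity of order prime to `p` (the maximal unramified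
extension of `ℚ_p`). -/
noncomputable def rootsField (p : ℕ) [Fact p.Prime] : IntermediateField ℚ_[p] (PadicAlgCl p) :=
  IntermediateField.adjoin ℚ_[p] {ξ : PadicAlgCl p | ∃ n : ℕ, n.Coprime p ∧ ξ ^ n = 1}

/-- The fixing subgroup of the maximal unramified extension is the absolute inertia. -/
theorem fixingSubgroup_rootsField : (rootsField p).fixingSubgroup = inertia p := by
  ext τ
  rw [mem_inertia, inertial_iff]
  constructor
  · intro h ξ n hn hξ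
    exact (IntermediateField.mem_fixingSubgroup_iff _ τ).mp h ξ
      (IntermediateField.subset_adjoin _ _ ⟨n, hn, hξ⟩)
  · intro h
    exact mem_fixingSubgroup_adjoin (fun ξ ⟨n, hn, hξ⟩ => h ξ n hn hξ)

end Inertia

/-! ### LG-key: lifting to absolute inertia -/

section Key

/-- A finite set of roots of unity of order prime to `p` has a common order prime to `p`. -/
lemma exists_common_order (T : Finset (PadicAlgCl p))
    (hT : ∀ t ∈ T, ∃ n : ℕ, n.Coprime p ∧ t ^ n = 1) :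
    ∃ N : ℕ, N.Coprime p ∧ ∀ t ∈ T, t ^ N = 1 := by
  classical
  induction T using Finset.induction_on with
  | empty => exact ⟨1, Nat.coprime_one_left p, by simp⟩
  | insert a T _ ih =>
    obtain ⟨N, hN, hNT⟩ := ih (fun t ht => hT t (Finset.mem_insert_of_mem ht))
    obtain ⟨n, hn, han⟩ := hT a (Finset.mem_insert_self a T)
    refine ⟨n * N, Nat.Coprime.mul_left hn hN, ?_⟩
    intro t ht
    rcases Finset.mem_insert.mp ht with rfl | ht
    · rw [pow_mul, han, one_pow]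
    · rw [mul_comm, pow_mul, hNT t ht, one_pow]

/-- Every element of the maximal unramified extension lies in a finite unramified level. -/
theorem exists_mem_unram_of_mem_rootsField {x : PadicAlgCl p} (hx : x ∈ rootsField p) :
    ∃ n : ℕ, 0 < n ∧ x ∈ unram (⊥ : IntermediateField ℚ_[p] (PadicAlgCl p)) n := by
  obtain ⟨T, hTS, hxT⟩ := IntermediateField.exists_finset_of_mem_adjoin hx
  obtain ⟨N, hN, hNT⟩ := exists_common_order T (fun t ht => hTS ht)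
  obtain ⟨n, hn, c, hc⟩ := exists_dvd_card_pow_sub_one
    (⊥ : IntermediateField ℚ_[p] (PadicAlgCl p)) (ne_zero_of_coprime hN) hN
  refine ⟨n, hn, ?_⟩
  have hle : IntermediateField.adjoin ℚ_[p] (T : Set (PadicAlgCl p)) ≤
      unram (⊥ : IntermediateField ℚ_[p] (PadicAlgCl p)) n := by
    rw [IntermediateField.adjoin_le_iff]
    intro t ht
    refine mem_unram_of_pow_eq_one _ hn ?_
    rw [hc, pow_mul, hNT t ht, one_pow]
  exact hle hxT

lemma pow_pow_eq_self {ξ : PadicAlgCl p} {D : ℕ} (h : ξ ^ D = ξ) (k : ℕ) : ξ ^ (D ^ k) = ξ := by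
  induction k with
  | zero => simp
  | succ k ih => rw [pow_succ, pow_mul, ih, h]

/-- The heart of LG-key: an element of `M` lying in an unramified level is fixed by every
automorphism fixing the roots of unity of order prime to `p` of `M`. -/
theorem apply_eq_of_mem_unram (M : IntermediateField ℚ_[p] (PadicAlgCl p))
    (ρ : PadicAlgCl p ≃ₐ[ℚ_[p]] PadicAlgCl p)
    (hρ : ∀ ξ ∈ M, ∀ n : ℕ, n.Coprime p → ξ ^ n = 1 → ρ ξ = ξ) {n : ℕ} (hn : 0 < n)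
    {x : PadicAlgCl p} (hxM : x ∈ M)
    (hxU : x ∈ unram (⊥ : IntermediateField ℚ_[p] (PadicAlgCl p)) n) : ρ x = x := by
  have hGal : IsGalois ℚ_[p] (PadicAlgCl p) := IsAlgClosure.isGalois ℚ_[p] (PadicAlgCl p)
  have hp : p.Prime := Fact.out
  obtain ⟨s, hs, hall⟩ := exists_frobenius_padic (q := p) hn
  have hpn1 : 1 ≤ p ^ n := Nat.one_le_pow _ _ hp.pos
  have hpn2 : p ^ 1 ≤ p ^ n := Nat.pow_le_pow_right hp.pos hn
  have hN0 : p ^ n - 1 ≠ 0 := by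
    have := hp.two_le
    rw [pow_one] at hpn2
    omega
  obtain ⟨ζ, hζ⟩ := exists_primitiveRoot (q := p) (p ^ n - 1) hN0
  have hU : ℚ_[p]⟮ζ⟯ = unram (⊥ : IntermediateField ℚ_[p] (PadicAlgCl p)) n :=
    adjoin_primitiveRoot_eq_unram_bot hn hζ
  rw [← hU] at hxU
  -- the action of the powers of `s` on the roots of unity
  have hspow : ∀ (i : ℕ) (ξ : PadicAlgCl p), ξ ^ (p ^ n - 1) = 1 → (s ^ i) ξ = ξ ^ (p ^ i) :=
    fun i ξ hξ => pow_apply_root s (hs ξ hξ) i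
  -- agreement on `ζ` implies agreement on `x`
  have hagree : ∀ g : PadicAlgCl p ≃ₐ[ℚ_[p]] PadicAlgCl p, g ζ = ζ → g x = x := by
    intro g hg
    have hmem : g ∈ (IntermediateField.adjoin ℚ_[p] ({ζ} : Set (PadicAlgCl p))).fixingSubgroup :=
      mem_fixingSubgroup_adjoin (fun y hy => by rw [Set.mem_singleton_iff.mp hy]; exact hg)
    exact (IntermediateField.mem_fixingSubgroup_iff _ g).mp hmem x hxU
  have hagree2 : ∀ (g : PadicAlgCl p ≃ₐ[ℚ_[p]] PadicAlgCl p) (i : ℕ),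
      g ζ = (s ^ i) ζ → g x = (s ^ i) x := by
    intro g i hg
    have h1 : ((s ^ i)⁻¹ * g) x = x := by
      apply hagree
      rw [AlgEquiv.mul_apply, hg, ← AlgEquiv.mul_apply, inv_mul_cancel, AlgEquiv.one_apply]
    have h2 : g x = (s ^ i) (((s ^ i)⁻¹ * g) x) := by
      rw [← AlgEquiv.mul_apply, mul_inv_cancel_left]
    rw [h2, h1]
  -- the period of `x`
  have hsn : (s ^ n) x = x := by
    apply hagree
    rw [hspow n ζ hζ.pow_eq_one]
    have e : p ^ n = p ^ n - 1 + 1 := (Nat.sub_add_cancel hpn1).symm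
    rw [e, pow_succ, hζ.pow_eq_one, one_mul]
  have hex : ∃ d : ℕ, 0 < d ∧ (s ^ d) x = x := ⟨n, hn, hsn⟩
  classical
  obtain ⟨d, ⟨hd0, hdx⟩, hdmin'⟩ : ∃ d : ℕ, (0 < d ∧ (s ^ d) x = x) ∧
      ∀ i : ℕ, 0 < i ∧ (s ^ i) x = x → d ≤ i :=
    ⟨Nat.find hex, Nat.find_spec hex, fun i hi => Nat.find_min' hex hi⟩
  have hmul : ∀ k : ℕ, (s ^ (d * k)) x = x := by
    intro k
    induction k with
    | zero => simp
    | succ k ih => rw [Nat.mul_succ, pow_add, AlgEquiv.mul_apply, hdx, ih]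
  have hdvd : ∀ i : ℕ, (s ^ i) x = x → d ∣ i := by
    intro i hi
    by_contra hnd
    have hr : 0 < i % d := Nat.pos_of_ne_zero (fun h => hnd (Nat.dvd_of_mod_eq_zero h))
    have h2 : (s ^ i) x = (s ^ (i % d)) ((s ^ (d * (i / d))) x) := by
      rw [← AlgEquiv.mul_apply, ← pow_add, Nat.mod_add_div]
    rw [hmul, hi] at h2
    exact absurd (hdmin' _ ⟨hr, h2.symm⟩) (Nat.not_le.mpr (Nat.mod_lt _ hd0))
  have hdn : d ∣ n := hdvd n hsn
  -- the root of unity generating `ℚ_p(x)`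
  obtain ⟨c, hc⟩ := Nat.pow_sub_one_dvd_pow_sub_one p hdn
  have hξprim : IsPrimitiveRoot (ζ ^ c) (p ^ d - 1) :=
    hζ.pow (Nat.pos_of_ne_zero hN0) (by rw [hc, mul_comm])
  have hξN : (ζ ^ c) ^ (p ^ n - 1) = 1 := by
    rw [← pow_mul, mul_comm, pow_mul, hζ.pow_eq_one, one_pow]
  have hD1 : 1 ≤ p ^ d := Nat.one_le_pow _ _ hp.pos
  have hD2 : p ^ 1 ≤ p ^ d := Nat.pow_le_pow_right hp.pos hd0
  have hD0 : p ^ d - 1 ≠ 0 := by
    have := hp.two_le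
    rw [pow_one] at hD2
    omega
  have hξD : (ζ ^ c) ^ (p ^ d) = ζ ^ c := by
    have e : p ^ d = p ^ d - 1 + 1 := (Nat.sub_add_cancel hD1).symm
    rw [e, pow_succ, hξprim.pow_eq_one, one_mul]
  -- `ζ ^ c ∈ ℚ_p(x) ≤ M`
  have hξM : ζ ^ c ∈ M := by
    have h1 : ζ ^ c ∈ IntermediateField.fixedField (ℚ_[p]⟮x⟯).fixingSubgroup := by
      rw [IntermediateField.mem_fixedField_iff]
      intro g hg
      have hgx : g x = x := (IntermediateField.mem_fixingSubgroup_iff _ g).mp hg x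
        (IntermediateField.mem_adjoin_simple_self _ _)
      obtain ⟨j, -, hj⟩ := hall g
      have h2 : (s ^ j) x = x := by
        rw [← hagree2 g j (hj ζ hζ.pow_eq_one)]
        exact hgx
      obtain ⟨k, hk⟩ := hdvd j h2
      rw [hj (ζ ^ c) hξN, hspow j (ζ ^ c) hξN, hk, pow_mul]
      exact pow_pow_eq_self hξD k
    rw [InfiniteGalois.fixedField_fixingSubgroup] at h1
    exact (IntermediateField.adjoin_simple_le_iff.mpr hxM) h1
  have hcop : (p ^ d - 1).Coprime p := by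
    refine ((Nat.Prime.coprime_iff_not_dvd hp).mpr ?_).symm
    intro h
    have hdvd' : p ∣ p ^ d := dvd_pow_self p hd0.ne'
    have h1 : p ∣ p ^ d - (p ^ d - 1) := Nat.dvd_sub hdvd' h
    have h2 : p ^ d - (p ^ d - 1) = 1 := by omega
    rw [h2] at h1
    exact hp.one_lt.ne' (Nat.dvd_one.mp h1)
  have hρξ : ρ (ζ ^ c) = ζ ^ c := hρ _ hξM _ hcop hξprim.pow_eq_one
  -- `ρ` acts on `ζ` as `s ^ j`, and `d ∣ j`
  obtain ⟨j, -, hj⟩ := hall ρ
  have h3 : (ζ ^ c) ^ (p ^ j) = ζ ^ c := by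
    rw [← hspow j (ζ ^ c) hξN, ← hj (ζ ^ c) hξN]
    exact hρξ
  have hJ1 : 1 ≤ p ^ j := Nat.one_le_pow _ _ hp.pos
  have h4 : (p ^ d - 1) ∣ (p ^ j - 1) := by
    have hξ0 : ζ ^ c ≠ 0 := hξprim.ne_zero hD0
    have h5 : (ζ ^ c) ^ (p ^ j - 1) * ζ ^ c = 1 * ζ ^ c := by
      rw [← pow_succ, Nat.sub_add_cancel hJ1, one_mul]
      exact h3
    exact (hξprim.pow_eq_one_iff_dvd _).mp (mul_right_cancel₀ hξ0 h5)
  have h5 : d ∣ j := by
    have h6 : Nat.gcd (p ^ d - 1) (p ^ j - 1) = p ^ d - 1 := Nat.gcd_eq_left h4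
    rw [Nat.pow_sub_one_gcd_pow_sub_one] at h6
    have hG1 : 1 ≤ p ^ Nat.gcd d j := Nat.one_le_pow _ _ hp.pos
    have h7 : p ^ Nat.gcd d j = p ^ d := by omega
    have h8 : Nat.gcd d j = d := Nat.pow_right_injective hp.two_le h7
    rw [← h8]
    exact Nat.gcd_dvd_right d j
  obtain ⟨k, hk⟩ := h5
  rw [hagree2 ρ j (hj ζ hζ.pow_eq_one), hk]
  exact hmul k

open scoped Pointwise in
/-- **LG-key.**  An automorphism fixing the roots of unity of order prime to `p` of a finite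
extension `M` of `ℚ_p` agrees on `M` with an inertial automorphism. -/
theorem lgKey (p : ℕ) [Fact p.Prime] (M : IntermediateField ℚ_[p] (PadicAlgCl p))
    [FiniteDimensional ℚ_[p] M] (ρ : PadicAlgCl p ≃ₐ[ℚ_[p]] PadicAlgCl p)
    (hρ : ∀ ξ ∈ M, ∀ n : ℕ, n.Coprime p → ξ ^ n = 1 → ρ ξ = ξ) :
    ∃ τ : PadicAlgCl p ≃ₐ[ℚ_[p]] PadicAlgCl p,
      (∀ x : PadicAlgCl p, ‖x‖ ≤ 1 → ‖τ x - x‖ < 1) ∧ ∀ x ∈ M, ρ x = τ x := by
  have hGal : IsGalois ℚ_[p] (PadicAlgCl p) := IsAlgClosure.isGalois ℚ_[p] (PadicAlgCl p)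
  have hopen : IsOpen ((inertia p ⊔ M.fixingSubgroup : Subgroup
      (PadicAlgCl p ≃ₐ[ℚ_[p]] PadicAlgCl p)) : Set (PadicAlgCl p ≃ₐ[ℚ_[p]] PadicAlgCl p)) :=
    Subgroup.isOpen_mono (le_sup_right : M.fixingSubgroup ≤ inertia p ⊔ M.fixingSubgroup)
      M.fixingSubgroup_isOpen
  have hclosed : IsClosed ((inertia p ⊔ M.fixingSubgroup : Subgroup
      (PadicAlgCl p ≃ₐ[ℚ_[p]] PadicAlgCl p)) : Set (PadicAlgCl p ≃ₐ[ℚ_[p]] PadicAlgCl p)) :=
    Subgroup.isClosed_of_isOpen _ hopen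
  have hfix := InfiniteGalois.fixingSubgroup_fixedField
    (⟨inertia p ⊔ M.fixingSubgroup, hclosed⟩ :
      ClosedSubgroup (PadicAlgCl p ≃ₐ[ℚ_[p]] PadicAlgCl p))
  have hρH : ρ ∈ inertia p ⊔ M.fixingSubgroup := by
    have h0 : ρ ∈ (IntermediateField.fixedField
        (inertia p ⊔ M.fixingSubgroup)).fixingSubgroup := by
      rw [IntermediateField.mem_fixingSubgroup_iff]
      intro x hx
      rw [IntermediateField.mem_fixedField_iff] at hx
      have hxM : x ∈ M := by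
        have h1 : x ∈ IntermediateField.fixedField M.fixingSubgroup := by
          rw [IntermediateField.mem_fixedField_iff]
          intro g hg
          exact hx g (Subgroup.mem_sup_right hg)
        rw [InfiniteGalois.fixedField_fixingSubgroup] at h1
        exact h1
      have hxU : x ∈ rootsField p := by
        have h1 : x ∈ IntermediateField.fixedField (rootsField p).fixingSubgroup := by
          rw [IntermediateField.mem_fixedField_iff]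
          intro g hg
          rw [fixingSubgroup_rootsField] at hg
          exact hx g (Subgroup.mem_sup_left hg)
        rw [InfiniteGalois.fixedField_fixingSubgroup] at h1
        exact h1
      obtain ⟨n, hn, hxn⟩ := exists_mem_unram_of_mem_rootsField hxU
      exact apply_eq_of_mem_unram M ρ hρ hn hxM hxn
    have h1 : (IntermediateField.fixedField (inertia p ⊔ M.fixingSubgroup)).fixingSubgroup =
        inertia p ⊔ M.fixingSubgroup := hfix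
    rw [h1] at h0
    exact h0
  have hmem : ρ ∈ ((inertia p : Set (PadicAlgCl p ≃ₐ[ℚ_[p]] PadicAlgCl p)) *
      (M.fixingSubgroup : Set (PadicAlgCl p ≃ₐ[ℚ_[p]] PadicAlgCl p))) := by
    rw [← Subgroup.normal_mul]
    exact hρH
  obtain ⟨τ, hτ, g, hg, rfl⟩ := Set.mem_mul.mp hmem
  refine ⟨τ, hτ, fun x hx => ?_⟩
  rw [AlgEquiv.mul_apply, (IntermediateField.mem_fixingSubgroup_iff M g).mp hg x hx]

end Key

/-! ### LG-Frobenius -/

section Frob

/-- **LG-Frobenius.**  For `E ≤ M` finite there is a Frobenius `s ∈ Fix E` on `M` such that every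
`σ ∈ Fix E` agrees on `M` with `s ^ j * τ`, `τ` inertial in `Fix E`. -/
theorem lgFrob (p : ℕ) [Fact p.Prime] (E M : IntermediateField ℚ_[p] (PadicAlgCl p))
    [FiniteDimensional ℚ_[p] E] [FiniteDimensional ℚ_[p] M] (hEM : E ≤ M) :
    ∃ s : PadicAlgCl p ≃ₐ[ℚ_[p]] PadicAlgCl p, s ∈ E.fixingSubgroup ∧
      (∀ x ∈ M, ‖x‖ ≤ 1 → ‖s x - x ^ Nat.card 𝓀[E]‖ < 1) ∧
      ∀ σ ∈ E.fixingSubgroup, ∃ (j : ℕ) (τ : PadicAlgCl p ≃ₐ[ℚ_[p]] PadicAlgCl p),
        (∀ x : PadicAlgCl p, ‖x‖ ≤ 1 → ‖τ x - x‖ < 1) ∧ τ ∈ E.fixingSubgroup ∧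
        ∀ x ∈ M, σ x = (s ^ j) (τ x) := by
  have hp : p.Prime := Fact.out
  have hQE : Nat.card 𝓀[E] = p ^ (𝓂[E]).inertiaDeg 𝒪[ℚ_[p]] := card_residueField_eq_prime_pow E
  have hQM : Nat.card 𝓀[M] = p ^ (𝓂[M]).inertiaDeg 𝒪[ℚ_[p]] := card_residueField_eq_prime_pow M
  have hM1 : 1 < Nat.card 𝓀[M] := one_lt_card M
  have hb0 : 0 < (𝓂[M]).inertiaDeg 𝒪[ℚ_[p]] := by
    rcases Nat.eq_zero_or_pos ((𝓂[M]).inertiaDeg 𝒪[ℚ_[p]]) with h | h
    · rw [h, pow_zero] at hQM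
      omega
    · exact h
  -- `#𝓀[M] - 1` divides `Q ^ b - 1`
  have hdiv : Nat.card 𝓀[M] - 1 ∣
      Nat.card 𝓀[E] ^ (𝓂[M]).inertiaDeg 𝒪[ℚ_[p]] - 1 := by
    rw [hQE, hQM, ← pow_mul]
    exact Nat.pow_sub_one_dvd_pow_sub_one p (Dvd.intro_left _ rfl)
  obtain ⟨c, hc⟩ := hdiv
  obtain ⟨s, hsE, hs, hall⟩ := exists_frobenius_roots E hb0
  -- roots of unity of `M` are roots of unity of the level
  have hlev : ∀ ξ : PadicAlgCl p, ξ ^ (Nat.card 𝓀[M] - 1) = 1 →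
      ξ ^ (Nat.card 𝓀[E] ^ (𝓂[M]).inertiaDeg 𝒪[ℚ_[p]] - 1) = 1 := by
    intro ξ hξ
    rw [hc, pow_mul, hξ, one_pow]
  refine ⟨s, hsE, ?_, ?_⟩
  · intro x hx hx1
    obtain ⟨ζ, -, hζ, hlt⟩ := exists_root_near M hx hx1
    have hsζ : s ζ = ζ ^ Nat.card 𝓀[E] := by
      rcases hζ with h0 | hζ
      · rw [h0, map_zero, zero_pow (by have := one_lt_card E; omega)]
      · exact hs ζ (hlev ζ hζ)
    have hζ1 : ‖ζ‖ ≤ 1 := by
      have e : ζ = x + -(x - ζ) := by ring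
      rw [e]
      refine le_trans (IsUltrametricDist.norm_add_le_max _ _) (max_le hx1 ?_)
      rw [norm_neg]
      exact hlt.le
    have e : s x - x ^ Nat.card 𝓀[E] =
        s (x - ζ) + (ζ ^ Nat.card 𝓀[E] - x ^ Nat.card 𝓀[E]) := by
      rw [map_sub, hsζ]
      ring
    rw [e]
    refine lt_of_le_of_lt (IsUltrametricDist.norm_add_le_max _ _) (max_lt ?_ ?_)
    · rw [WildFin.norm_map]
      exact hlt
    · exact norm_pow_sub_pow_lt hζ1 hx1 (by rw [norm_sub_rev]; exact hlt) _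
  · intro σ hσ
    obtain ⟨j, -, hj⟩ := hall σ hσ
    have hρE : (s ^ j)⁻¹ * σ ∈ E.fixingSubgroup :=
      Subgroup.mul_mem _ (Subgroup.inv_mem _ (Subgroup.pow_mem _ hsE j)) hσ
    have hρ : ∀ ξ ∈ M, ∀ n : ℕ, n.Coprime p → ξ ^ n = 1 → ((s ^ j)⁻¹ * σ) ξ = ξ := by
      intro ξ hξM n hn hξ
      have h1 := hlev ξ (pow_card_sub_one_eq_one M hn hξM hξ)
      rw [AlgEquiv.mul_apply, hj ξ h1, ← AlgEquiv.mul_apply, inv_mul_cancel, AlgEquiv.one_apply]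
    obtain ⟨τ, hτ, hτM⟩ := lgKey p M ((s ^ j)⁻¹ * σ) hρ
    refine ⟨j, τ, hτ, ?_, ?_⟩
    · rw [IntermediateField.mem_fixingSubgroup_iff]
      intro e he
      rw [← hτM e (hEM he)]
      exact (IntermediateField.mem_fixingSubgroup_iff E _).mp hρE e he
    · intro x hx
      rw [← hτM x hx, ← AlgEquiv.mul_apply, mul_inv_cancel_left]

end Frob

/-! ### The tame character at a finite normal level -/

section Tame

variable (L : IntermediateField ℚ_[p] (PadicAlgCl p))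

/-- The norm of a nonzero integral element of `L` is a power of the norm of an irreducible
element of `𝒪[L]`. -/
lemma exists_norm_eq_pow_irreducible [FiniteDimensional ℚ_[p] L] {ϖ₀ : 𝒪[L]}
    (hϖ₀ : Irreducible ϖ₀) {y : PadicAlgCl p} (hy : y ∈ L) (hy0 : y ≠ 0) (hy1 : ‖y‖ ≤ 1) :
    ∃ n : ℕ, ‖y‖ = ‖((ϖ₀ : L) : PadicAlgCl p)‖ ^ n := by
  have hy0' : (⟨⟨y, hy⟩, Valued.integer.mem_iff.mpr hy1⟩ : 𝒪[L]) ≠ 0 := by
    intro h
    exact hy0 (congrArg (fun z : 𝒪[L] => ((z : L) : PadicAlgCl p)) h)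
  obtain ⟨n, u, hu⟩ := IsDiscreteValuationRing.eq_unit_mul_pow_irreducible hy0' hϖ₀
  refine ⟨n, ?_⟩
  have h2 : y = (((u : 𝒪[L]) : L) : PadicAlgCl p) * ((ϖ₀ : L) : PadicAlgCl p) ^ n :=
    congrArg (fun z : 𝒪[L] => ((z : L) : PadicAlgCl p)) hu
  have hu1 : ‖(((u : 𝒪[L]) : L) : PadicAlgCl p)‖ = 1 := Valued.integer.norm_coe_unit u
  rw [h2, norm_mul, hu1, one_mul, norm_pow]

lemma norm_irreducible_lt_one [FiniteDimensional ℚ_[p] L] {ϖ₀ : 𝒪[L]} (hϖ₀ : Irreducible ϖ₀) :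
    ‖((ϖ₀ : L) : PadicAlgCl p)‖ < 1 := by
  have h1 : ‖(ϖ₀ : L)‖ ≤ 1 := Valued.integer.norm_le_one ϖ₀
  have h2 : ‖(ϖ₀ : L)‖ ≠ 1 :=
    fun h => hϖ₀.not_isUnit (Valued.integer.isUnit_iff_norm_eq_one.mpr h)
  exact lt_of_le_of_ne h1 h2

/-- **Uniformisers exist** (norm form). -/
theorem exists_uniformizer [FiniteDimensional ℚ_[p] L] :
    ∃ ϖ ∈ L, ϖ ≠ 0 ∧ ‖ϖ‖ < 1 ∧ ∀ x ∈ L, ‖x‖ < 1 → ‖x‖ ≤ ‖ϖ‖ := by
  obtain ⟨ϖ, hϖ⟩ := IsDiscreteValuationRing.exists_irreducible 𝒪[L]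
  have hϖ0 : (ϖ : L) ≠ 0 := fun h => hϖ.ne_zero (Subtype.ext h)
  have hϖ1 : ‖((ϖ : L) : PadicAlgCl p)‖ < 1 := norm_irreducible_lt_one L hϖ
  refine ⟨((ϖ : L) : PadicAlgCl p), (ϖ : L).2, fun h => hϖ0 (Subtype.ext h), hϖ1, ?_⟩
  intro x hx hx1
  by_cases hx0 : x = 0
  · rw [hx0, norm_zero]
    exact norm_nonneg _
  · obtain ⟨n, hn⟩ := exists_norm_eq_pow_irreducible L hϖ hx hx0 hx1.le
    have hn0 : n ≠ 0 := by
      rintro rfl
      rw [pow_zero] at hn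
      exact hx1.ne hn
    rw [hn]
    exact pow_le_of_le_one (norm_nonneg _) hϖ1.le hn0

/-- The norm of an integral element of `L` is a power of the norm of a uniformiser. -/
theorem exists_norm_eq_pow [FiniteDimensional ℚ_[p] L] {ϖ : PadicAlgCl p} (hϖL : ϖ ∈ L)
    (hϖ0 : ϖ ≠ 0) (hϖ1 : ‖ϖ‖ < 1) (hϖmax : ∀ x ∈ L, ‖x‖ < 1 → ‖x‖ ≤ ‖ϖ‖)
    {x : PadicAlgCl p} (hx : x ∈ L) (hx0 : x ≠ 0) (hx1 : ‖x‖ ≤ 1) :
    ∃ n : ℕ, ‖x‖ = ‖ϖ‖ ^ n := by
  obtain ⟨ϖ₀, hϖ₀⟩ := IsDiscreteValuationRing.exists_irreducible 𝒪[L]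
  have h₀lt : ‖((ϖ₀ : L) : PadicAlgCl p)‖ < 1 := norm_irreducible_lt_one L hϖ₀
  -- `‖ϖ‖ = ‖ϖ₀‖`
  have heq : ‖ϖ‖ = ‖((ϖ₀ : L) : PadicAlgCl p)‖ := by
    refine le_antisymm ?_ (hϖmax _ (ϖ₀ : L).2 h₀lt)
    obtain ⟨m, hm⟩ := exists_norm_eq_pow_irreducible L hϖ₀ hϖL hϖ0 hϖ1.le
    have hm0 : m ≠ 0 := by
      rintro rfl
      rw [pow_zero] at hm
      exact hϖ1.ne hm
    rw [hm]
    exact pow_le_of_le_one (norm_nonneg _) h₀lt.le hm0
  obtain ⟨n, hn⟩ := exists_norm_eq_pow_irreducible L hϖ₀ hx hx0 hx1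
  exact ⟨n, by rw [hn, heq]⟩

lemma norm_pow_sub_pow_lt_pow {a b : PadicAlgCl p} (hb : b ≠ 0) (h : ‖a - b‖ < ‖b‖) (n : ℕ) :
    n ≠ 0 → ‖a ^ n - b ^ n‖ < ‖b‖ ^ n := by
  have hbpos : 0 < ‖b‖ := norm_pos_iff.mpr hb
  have hab : ‖a‖ ≤ ‖b‖ := by
    have e : a = (a - b) + b := by ring
    rw [e]
    exact le_trans (IsUltrametricDist.norm_add_le_max _ _) (max_le h.le le_rfl)
  induction n with
  | zero => intro h0; exact absurd rfl h0
  | succ n ih =>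
    intro _
    have e : a ^ (n + 1) - b ^ (n + 1) = (a ^ n - b ^ n) * a + b ^ n * (a - b) := by ring
    rw [e]
    refine lt_of_le_of_lt (IsUltrametricDist.norm_add_le_max _ _) (max_lt ?_ ?_)
    · by_cases hn : n = 0
      · subst hn
        simp only [pow_zero, sub_self, zero_mul, norm_zero, zero_add, pow_one]
        exact hbpos
      · rw [norm_mul, pow_succ]
        exact lt_of_le_of_lt (mul_le_mul_of_nonneg_left hab (norm_nonneg _))
          (mul_lt_mul_of_pos_right (ih hn) hbpos)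
    · rw [norm_mul, norm_pow, pow_succ]
      exact mul_lt_mul_of_pos_left h (pow_pos hbpos n)

variable [Normal ℚ_[p] L]

/-- **The kernel of the tame character is wild.**  An element of the inertia of `L` moving a
uniformiser `ϖ` of `L` by less than `‖ϖ‖` is wild. -/
theorem mem_wildAt_of_uniformizer [FiniteDimensional ℚ_[p] L]
    {τ : PadicAlgCl p ≃ₐ[ℚ_[p]] PadicAlgCl p} (hτ : τ ∈ inertiaAt L) {ϖ : PadicAlgCl p}
    (hϖL : ϖ ∈ L) (hϖ1 : ‖ϖ‖ < 1) (hϖmax : ∀ x ∈ L, ‖x‖ < 1 → ‖x‖ ≤ ‖ϖ‖)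
    (h : ‖τ ϖ - ϖ‖ < ‖ϖ‖) : τ ∈ wildAt L := by
  have hϖ0 : ϖ ≠ 0 := by
    rintro rfl
    simp at h
  have hϖpos : 0 < ‖ϖ‖ := norm_pos_iff.mpr hϖ0
  -- integral elements
  have hint : ∀ x ∈ L, x ≠ 0 → ‖x‖ ≤ 1 → ‖τ x - x‖ < ‖x‖ := by
    intro x hx hx0 hx1
    obtain ⟨n, hn⟩ := exists_norm_eq_pow L hϖL hϖ0 hϖ1 hϖmax hx hx0 hx1
    set u := x / ϖ ^ n with hu
    have huL : u ∈ L := L.div_mem hx (pow_mem hϖL n)
    have hun : ‖u‖ = 1 := by
      rw [hu, norm_div, norm_pow, hn, div_self (pow_ne_zero n hϖpos.ne')]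
    have hxu : x = u * ϖ ^ n := by rw [hu, div_mul_cancel₀ _ (pow_ne_zero n hϖ0)]
    have e : τ x - x = (τ u - u) * (τ ϖ) ^ n + u * ((τ ϖ) ^ n - ϖ ^ n) := by
      rw [hxu, map_mul, map_pow]
      ring
    rw [e, hn]
    refine lt_of_le_of_lt (IsUltrametricDist.norm_add_le_max _ _) (max_lt ?_ ?_)
    · rw [norm_mul, norm_pow, WildFin.norm_map]
      exact mul_lt_of_lt_one_left (pow_pos hϖpos n) (hτ u huL hun.le)
    · rw [norm_mul, hun, one_mul]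
      by_cases hn0 : n = 0
      · subst hn0
        simp
      · exact norm_pow_sub_pow_lt_pow hϖ0 h n hn0
  intro x hx hx0
  rcases le_total ‖x‖ 1 with hx1 | hx1
  · exact hint x hx hx0 hx1
  · have hxpos : 0 < ‖x‖ := norm_pos_iff.mpr hx0
    have hy1 : ‖x⁻¹‖ ≤ 1 := by
      rw [norm_inv]
      exact inv_le_one_of_one_le₀ hx1
    have h1 := hint x⁻¹ (L.inv_mem hx) (inv_ne_zero hx0) hy1
    have hτx0 : τ x ≠ 0 := by simpa using hx0
    have e : τ x - x = -((τ x⁻¹ - x⁻¹) * x * τ x) := by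
      rw [map_inv₀]
      have e1 : ((τ x)⁻¹ - x⁻¹) * x * τ x = (τ x)⁻¹ * τ x * x - x⁻¹ * x * τ x := by ring
      rw [e1, inv_mul_cancel₀ hτx0, inv_mul_cancel₀ hx0]
      ring
    rw [e, norm_neg, norm_mul, norm_mul, WildFin.norm_map]
    rw [norm_inv] at h1
    calc ‖τ x⁻¹ - x⁻¹‖ * ‖x‖ * ‖x‖ < ‖x‖⁻¹ * ‖x‖ * ‖x‖ := by
          exact mul_lt_mul_of_pos_right (mul_lt_mul_of_pos_right h1 hxpos) hxpos
      _ = ‖x‖ := by rw [inv_mul_cancel₀ hxpos.ne', one_mul]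

/-- **Wild elements of order prime to `p` on `L` are trivial on `L`.** -/
theorem mem_fixingSubgroup_of_wild_of_pow [FiniteDimensional ℚ_[p] L]
    {τ : PadicAlgCl p ≃ₐ[ℚ_[p]] PadicAlgCl p} (hτ : τ ∈ wildAt L) {m : ℕ} (hm : ¬ p ∣ m)
    (hpow : τ ^ m ∈ L.fixingSubgroup) : τ ∈ L.fixingSubgroup := by
  have hp : p.Prime := Fact.out
  obtain ⟨a, ha⟩ := exists_pow_mem_fixingSubgroup_of_mem_wildAt L hτ
  have hcop : Nat.Coprime (p ^ a) m :=
    Nat.Coprime.pow_left a ((Nat.Prime.coprime_iff_not_dvd hp).mpr hm)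
  have hgcd : ((p ^ a : ℕ) : ℤ) * Nat.gcdA (p ^ a) m + (m : ℤ) * Nat.gcdB (p ^ a) m = 1 := by
    rw [← Nat.gcd_eq_gcd_ab, hcop.gcd_eq_one, Nat.cast_one]
  have e : τ = (τ ^ (p ^ a)) ^ Nat.gcdA (p ^ a) m * (τ ^ m) ^ Nat.gcdB (p ^ a) m := by
    rw [← zpow_natCast τ (p ^ a), ← zpow_natCast τ m, ← zpow_mul, ← zpow_mul, ← zpow_add, hgcd,
      zpow_one]
  rw [e]
  exact Subgroup.mul_mem _ (Subgroup.zpow_mem _ ha _) (Subgroup.zpow_mem _ hpow _)

/-- **The tame character is injective on elements of order prime to `p`.** -/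
theorem mem_fixingSubgroup_of_uniformizer [FiniteDimensional ℚ_[p] L]
    {τ : PadicAlgCl p ≃ₐ[ℚ_[p]] PadicAlgCl p} (hτ : τ ∈ inertiaAt L) {ϖ : PadicAlgCl p}
    (hϖL : ϖ ∈ L) (hϖ1 : ‖ϖ‖ < 1) (hϖmax : ∀ x ∈ L, ‖x‖ < 1 → ‖x‖ ≤ ‖ϖ‖)
    (h : ‖τ ϖ - ϖ‖ < ‖ϖ‖) {m : ℕ} (hm : ¬ p ∣ m) (hpow : τ ^ m ∈ L.fixingSubgroup) :
    τ ∈ L.fixingSubgroup :=
  mem_fixingSubgroup_of_wild_of_pow L (mem_wildAt_of_uniformizer L hτ hϖL hϖ1 hϖmax h) hm hpow

/-- **A `Q`-Frobenius acts on tame inertia by the `Q`-th power** (`WildFin.frob_conj_mem_wildAt`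
for an arbitrary exponent). -/
theorem frobQ_conj_mem_wildAt {s τ : PadicAlgCl p ≃ₐ[ℚ_[p]] PadicAlgCl p} {Q : ℕ}
    (hs : ∀ x ∈ L, ‖x‖ ≤ 1 → ‖s x - x ^ Q‖ < 1) (hτ : τ ∈ inertiaAt L) :
    (τ ^ Q)⁻¹ * (s * τ * s⁻¹) ∈ wildAt L := by
  intro x hx hx0
  have hxpos : 0 < ‖x‖ := norm_pos_iff.mpr hx0
  set y := s⁻¹ x with hy
  have hyL : y ∈ L := map_mem L s⁻¹ hx
  have hy0 : y ≠ 0 := by simpa [hy] using hx0
  have hyn : ‖y‖ = ‖x‖ := by rw [hy, WildFin.norm_map]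
  have hsy : s y = x := by
    rw [hy, ← AlgEquiv.mul_apply, mul_inv_cancel, AlgEquiv.one_apply]
  set a := τ y / y with ha
  have haL : a ∈ L := L.div_mem (map_mem L τ hyL) hyL
  have han : ‖a‖ = 1 := by
    rw [ha, norm_div, WildFin.norm_map, div_self (norm_ne_zero_iff.mpr hy0)]
  have hτy : τ y = a * y := by rw [ha, div_mul_cancel₀ _ hy0]
  set b := τ x / x with hb
  have hbn : ‖b‖ = 1 := by
    rw [hb, norm_div, WildFin.norm_map, div_self (norm_ne_zero_iff.mpr hx0)]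
  set u := x / y with hu
  have huL : u ∈ L := L.div_mem hx hyL
  have hun : ‖u‖ = 1 := by rw [hu, norm_div, hyn, div_self (norm_ne_zero_iff.mpr hx0)]
  have hu0 : u ≠ 0 := by
    intro h
    rw [h, norm_zero] at hun
    exact zero_ne_one hun
  have hxu : x = u * y := by rw [hu, div_mul_cancel₀ _ hy0]
  have hab : ‖b - a‖ < 1 := by
    have e : b - a = (τ u - u) / u * a := by
      rw [hb]
      nth_rewrite 1 [hxu]
      rw [map_mul, hτy, hxu]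
      field_simp
    rw [e, norm_mul, norm_div, han, hun, div_one, mul_one]
    exact hτ u huL hun.le
  have h1 : ‖s a - a ^ Q‖ < 1 := hs a haL han.le
  have h2 : ‖a ^ Q - b ^ Q‖ < 1 := by
    rw [norm_sub_rev]
    exact norm_pow_sub_pow_lt hbn.le han.le hab Q
  have h3 : ‖(τ ^ Q) x - b ^ Q * x‖ < ‖x‖ := norm_pow_apply_sub_lt L hτ hx hx0 Q
  have e1 : ((τ ^ Q)⁻¹ * (s * τ * s⁻¹)) x - x = (τ ^ Q)⁻¹ (s (τ y) - (τ ^ Q) x) := by
    rw [map_sub, ← AlgEquiv.mul_apply (τ ^ Q)⁻¹ (τ ^ Q), inv_mul_cancel, AlgEquiv.one_apply]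
    simp only [AlgEquiv.mul_apply, hy]
  have e2 : s (τ y) - (τ ^ Q) x =
      ((s a - a ^ Q) + (a ^ Q - b ^ Q)) * x - ((τ ^ Q) x - b ^ Q * x) := by
    rw [hτy, map_mul, hsy]
    ring
  rw [e1, WildFin.norm_map, e2, sub_eq_add_neg]
  refine lt_of_le_of_lt (IsUltrametricDist.norm_add_le_max _ _) (max_lt ?_ ?_)
  · rw [norm_mul]
    refine mul_lt_of_lt_one_left hxpos ?_
    exact lt_of_le_of_lt (IsUltrametricDist.norm_add_le_max _ _) (max_lt h1 h2)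
  · rw [norm_neg]
    exact h3

/-- If `τ` commutes on `L` (modulo wild inertia) with a `Q`-Frobenius `s`, then `τ ^ Q ≡ τ`
modulo wild inertia. -/
theorem pow_inv_mul_mem_wildAt {s τ : PadicAlgCl p ≃ₐ[ℚ_[p]] PadicAlgCl p} {Q : ℕ}
    (hs : ∀ x ∈ L, ‖x‖ ≤ 1 → ‖s x - x ^ Q‖ < 1) (hτ : τ ∈ inertiaAt L)
    (hcomm : s * τ * s⁻¹ * τ⁻¹ ∈ wildAt L) : (τ ^ Q)⁻¹ * τ ∈ wildAt L := by
  have h1 := frobQ_conj_mem_wildAt L hs hτ
  have h2 : τ⁻¹ * (s * τ * s⁻¹ * τ⁻¹)⁻¹ * τ⁻¹⁻¹ ∈ wildAt L :=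
    (normal_wildAt L).conj_mem _ (Subgroup.inv_mem _ hcomm) τ⁻¹
  have e : (τ ^ Q)⁻¹ * τ =
      ((τ ^ Q)⁻¹ * (s * τ * s⁻¹)) * (τ⁻¹ * (s * τ * s⁻¹ * τ⁻¹)⁻¹ * τ⁻¹⁻¹) := by group
  rw [e]
  exact Subgroup.mul_mem _ h1 h2

/-- `τ ^ (Q - 1)` is wild when `τ` commutes on `L` with a `Q`-Frobenius. -/
theorem pow_pred_mem_wildAt {s τ : PadicAlgCl p ≃ₐ[ℚ_[p]] PadicAlgCl p} {Q : ℕ} (hQ : 0 < Q)
    (hs : ∀ x ∈ L, ‖x‖ ≤ 1 → ‖s x - x ^ Q‖ < 1) (hτ : τ ∈ inertiaAt L)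
    (hcomm : s * τ * s⁻¹ * τ⁻¹ ∈ wildAt L) : τ ^ (Q - 1) ∈ wildAt L := by
  have h1 := Subgroup.inv_mem _ (pow_inv_mul_mem_wildAt L hs hτ hcomm)
  have e : ((τ ^ Q)⁻¹ * τ)⁻¹ = τ ^ (Q - 1) := by
    have e2 : τ ^ Q = τ ^ (Q - 1) * τ := by rw [← pow_succ, Nat.sub_add_cancel hQ]
    rw [e2]
    group
  rw [e] at h1
  exact h1

/-- **The values of the tame character lie in the field with `Q` elements** when `τ` commutes on
`L` (modulo wild inertia) with a `Q`-Frobenius `s`: `(τ x / x) ^ Q ≡ τ x / x`. -/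
theorem norm_tame_pow_sub_lt {s τ : PadicAlgCl p ≃ₐ[ℚ_[p]] PadicAlgCl p} {Q : ℕ}
    (hs : ∀ x ∈ L, ‖x‖ ≤ 1 → ‖s x - x ^ Q‖ < 1) (hτ : τ ∈ inertiaAt L)
    (hcomm : s * τ * s⁻¹ * τ⁻¹ ∈ wildAt L) {x : PadicAlgCl p} (hx : x ∈ L) (hx0 : x ≠ 0) :
    ‖(τ x / x) ^ Q - τ x / x‖ < 1 := by
  have hxpos : 0 < ‖x‖ := norm_pos_iff.mpr hx0
  have hw := pow_inv_mul_mem_wildAt L hs hτ hcomm
  have h1 : ‖((τ ^ Q)⁻¹ * τ) x - x‖ < ‖x‖ := hw x hx hx0
  have h2 : ‖τ x - (τ ^ Q) x‖ < ‖x‖ := by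
    have e : τ x - (τ ^ Q) x = (τ ^ Q) (((τ ^ Q)⁻¹ * τ) x - x) := by
      rw [map_sub, ← AlgEquiv.mul_apply, mul_inv_cancel_left]
    rw [e, WildFin.norm_map]
    exact h1
  have h3 : ‖(τ ^ Q) x - (τ x / x) ^ Q * x‖ < ‖x‖ := norm_pow_apply_sub_lt L hτ hx hx0 Q
  have h4 : ‖(τ x / x) ^ Q * x - τ x‖ < ‖x‖ := by
    rw [norm_sub_rev]
    exact norm_sub_lt_of h2 h3
  have e : (τ x / x) ^ Q - τ x / x = ((τ x / x) ^ Q * x - τ x) / x := by
    field_simp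
  rw [e, norm_div, div_lt_one hxpos]
  exact h4

end Tame

end Fermat.Agent.S56.LF.TameChar
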