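import Mathlib
import Fermat.Agent.S56.Flat.LocalBricks
import Fermat.Agent.S56.LF.TameFieldI
import Fermat.Agent.S56.LF.TameIField
import Fermat.Agent.S56.LF.InertiaUr
import Fermat.Agent.S56.LF.LGFrobTwin
import Fermat.Agent.S56.LF.LGWildExit

/-!
# S56 / LF : the row `LI` (the tame field of the induced case)

Owner file of the row Prop `Flat.LIStatement` of `Flat/LocalBricks.lean`.  It is the composition of

* the character / group half `TameFieldI.liStatement_of_field` (helper11),
* the field half `TameIField.field_exit` (helper113; the field `unram ⊥ (2 m) ⊔ ℚ_p(ϖ)` with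
  `ϖ ^ (p ^ 2 - 1) = -p`: it contains the `p`-th roots of unity and `ϖ` is a uniformiser),
* `InertiaUr.exists_eq_mul_of_norm_fixed` (inertia-fixed elements of norm `< 1` are divisible
  by `p` among the inertia-fixed integers),
* the row Props `Flat.LGWildStatement` (`LGWildExit.lgWildStatement`) and
  `Flat.LGFrobStatement` (`LGFrobTwin.lgFrobStatement`).

## Exits

* `li`          : `Flat.LGWildStatement → Flat.LGFrobStatement → Flat.LIStatement`;
* `li_of_wild`  : `Flat.LGWildStatement → Flat.LIStatement`;
* `liStatement` : `Flat.LIStatement`.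
-/

set_option autoImplicit false

namespace Fermat.Agent.S56.LF.TameI

/-- **LI** from the two local Galois rows `LGWild` and `LGFrob`. -/
theorem li (hW : Fermat.Agent.S56.Flat.LGWildStatement)
    (hF : Fermat.Agent.S56.Flat.LGFrobStatement) : Fermat.Agent.S56.Flat.LIStatement :=
  Fermat.Agent.S56.LF.TameFieldI.liStatement_of_field hW hF
    (fun p _ _ => Fermat.Agent.S56.LF.InertiaUr.exists_eq_mul_of_norm_fixed p)
    (fun _ _ _ _ hζ => Fermat.Agent.S56.LF.TameIField.field_exit hζ)

/-- **LI** from the row `LGWild` alone (`LGFrob` is `LGFrobTwin.lgFrobStatement`). -/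
theorem li_of_wild (hW : Fermat.Agent.S56.Flat.LGWildStatement) :
    Fermat.Agent.S56.Flat.LIStatement :=
  li hW Fermat.Agent.S56.LF.LGFrobTwin.lgFrobStatement

/-- **LI**: the row Prop `Flat.LIStatement` of `Flat/LocalBricks.lean`. -/
theorem liStatement : Fermat.Agent.S56.Flat.LIStatement :=
  li_of_wild Fermat.Agent.S56.LF.LGWildExit.lgWildStatement

end Fermat.Agent.S56.LF.TameI
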