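import Fermat.Agent.S56.LF.UnitPow

/-!
# The top piece of `U_e (Oˣ)^p / (Oˣ)^p` (S56, brick LF: producer of `(hF)` for case (I))

`O` a complete discrete valuation ring with uniformiser `ϖ`, `p = ϖ ^ e υ`, `e = e0 (p - 1)`,
`ζ ∈ O` a primitive `p`-th root of unity.  `τ` is a ring endomorphism of `O` which is trivial on
the residue field and whose tame character `t = (τ ϖ / ϖ mod 𝔪)` has exact order `≥ e`
(`t ^ j ≠ 1` for `0 < j < e`), with `τ ζ = ζ ^ w`.

* `residue_pow_eq_of_exact_level` : if `u` has exact level `l` (`p ∤ l`, `l < p e0`) and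
  `τ u ≡ u ^ w` modulo `p`-th powers, then `t ^ l = w` in the residue field.
* `exists_pow_mul_mem_crit` : if `u ∈ U_e` and `τ u ≡ u ^ w` modulo `p`-th powers
  (`u` lies in the cyclotomic eigenspace of `τ`), then `u ∈ U_(p e0) (Oˣ)^p`.
* `map_mul_pow_inv_mem_range_of_eigen` : hence EVERY ring automorphism `σ` of `O` with
  `σ ζ = ζ ^ w'` satisfies `σ u ≡ u ^ w'` modulo `p`-th powers.
-/

set_option autoImplicit false

namespace Fermat.Agent.S56.LF.TopPiece

open IsLocalRing Fermat.Agent.CFT.Local Fermat.Agent.S56.LF.UnitPow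

variable {O : Type*} [CommRing O] [IsDomain O] [IsDiscreteValuationRing O]
  {ϖ : O} (hϖ : Irreducible ϖ) {p : ℕ} (hp : p.Prime) {e e0 : ℕ} {υ : Oˣ}
  (hpe : (p : O) = ϖ ^ e * (υ : O)) (he : e = e0 * (p - 1))

include hϖ hp hpe he

/-- If `u` has exact level `l` (`p ∤ l`, `l < p e0`) and `τ u ≡ u ^ w` modulo `p`-th powers,
where `τ` is trivial on the residue field and `τ ϖ = ϖ c`, then `c ^ l = w` in the residue
field. -/
theorem residue_pow_eq_of_exact_level (τ : O →+* O) {c : O} (hc : τ ϖ = ϖ * c)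
    (hτ : ∀ x : O, residue O (τ x) = residue O x) {w l : ℕ} (hl1 : 1 ≤ l) (hl : l < p * e0)
    (hpl : ¬ p ∣ l) {u : Oˣ} (hu : u ∈ principalUnits O l) (hu' : u ∉ principalUnits O (l + 1))
    (h : Units.map (τ : O →* O) u * (u ^ w)⁻¹ ∈ (powMonoidHom p : Oˣ →* Oˣ).range) :
    residue O c ^ l = (w : ResidueField O) := by
  obtain ⟨z, hz⟩ := MonoidHom.mem_range.mp h
  change z ^ p = _ at hz
  have hτu : Units.map (τ : O →* O) u ∈ principalUnits O l :=
    map_mem_principalUnits hϖ τ hc hu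
  have huw : u ^ w ∈ principalUnits O l := pow_mem hu w
  have hz1 : z ^ p ∈ principalUnits O l := by
    rw [hz]
    exact mul_mem hτu (inv_mem huw)
  have hz2 : z ^ p ∈ principalUnits O (l + 1) := pow_mem_succ hϖ hp hpe he hl1 hl hpl hz1
  rw [hz] at hz2
  have hker : (⟨Units.map (τ : O →* O) u, hτu⟩ : principalUnits O l) *
      (⟨u ^ w, huw⟩ : principalUnits O l)⁻¹ ∈ (gradedHom hϖ l hl1).ker := by
    rw [ker_gradedHom, Subgroup.mem_subgroupOf]
    exact hz2
  rw [MonoidHom.mem_ker, map_mul, map_inv, mul_inv_eq_one] at hker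
  have hpow : (⟨u ^ w, huw⟩ : principalUnits O l) = (⟨u, hu⟩ : principalUnits O l) ^ w := rfl
  rw [hpow, map_pow, gradedHom_apply, gradedHom_apply, ← ofAdd_nsmul] at hker
  have h2 := Multiplicative.ofAdd.injective hker
  rw [residue_coord_map hϖ τ hc l ⟨u, hu⟩, hτ, nsmul_eq_mul] at h2
  have ha : residue O (coord hϖ l ⟨u, hu⟩) ≠ 0 := by
    intro h0
    apply hu'
    have hmem : (⟨u, hu⟩ : principalUnits O l) ∈ (gradedHom hϖ l hl1).ker := by
      rw [MonoidHom.mem_ker, gradedHom_apply, h0]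
      rfl
    rw [ker_gradedHom, Subgroup.mem_subgroupOf] at hmem
    exact hmem
  exact mul_right_cancel₀ ha h2

/-- **Top piece, general form.**  If `u ∈ U_e` satisfies `τ u ≡ u ^ w` modulo `p`-th powers and
no level `e ≤ l < p e0` prime to `p` carries the eigenvalue `w` (`c ^ l ≠ w` in the residue
field), then `u ∈ U_(p e0) (Oˣ)^p`. -/
theorem exists_pow_mul_mem_crit_of_forall_ne (hperf : ∀ x : ResidueField O, ∃ y, y ^ p = x)
    (τ : O →+* O) {c : O} (hc : τ ϖ = ϖ * c) (hτ : ∀ x : O, residue O (τ x) = residue O x)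
    {w : ℕ}
    (hno : ∀ l, e ≤ l → l < p * e0 → ¬ p ∣ l → residue O c ^ l ≠ (w : ResidueField O))
    {u : Oˣ} (hu : u ∈ principalUnits O e)
    (h : Units.map (τ : O →* O) u * (u ^ w)⁻¹ ∈ (powMonoidHom p : Oˣ →* Oˣ).range) :
    ∃ y : Oˣ, u * (y ^ p)⁻¹ ∈ principalUnits O (p * e0) := by
  obtain ⟨y, hy | ⟨l, hl1, hl, hpl, hul, hul'⟩⟩ := peel hϖ hp hpe he hperf (le_refl (p * e0)) u
  · exact ⟨y, hy⟩
  · exfalso
    -- the level `l` is at least `e`
    have hle : e ≤ l := by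
      by_contra hlt
      have hlt' : l + 1 ≤ e := by omega
      have hyp : y ^ p ∈ principalUnits O l := by
        have h1 : (u * (y ^ p)⁻¹)⁻¹ * u ∈ principalUnits O l :=
          mul_mem (inv_mem hul) (principalUnits_le O (by omega) hu)
        rwa [mul_inv_rev, inv_inv, inv_mul_cancel_right] at h1
      have hyp' := pow_mem_succ hϖ hp hpe he hl1 hl hpl hyp
      exact hul' (mul_mem (principalUnits_le O hlt' hu) (inv_mem hyp'))
    -- `u' = u y^{-p}` is again an eigenvector modulo `p`-th powers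
    have h' : Units.map (τ : O →* O) (u * (y ^ p)⁻¹) * ((u * (y ^ p)⁻¹) ^ w)⁻¹ ∈
        (powMonoidHom p : Oˣ →* Oˣ).range := by
      have h1 : Units.map (τ : O →* O) (u * (y ^ p)⁻¹) * ((u * (y ^ p)⁻¹) ^ w)⁻¹ =
          (Units.map (τ : O →* O) u * (u ^ w)⁻¹) *
            ((Units.map (τ : O →* O) y)⁻¹ * y ^ w) ^ p := by
        simp only [map_mul, map_inv, map_pow, mul_pow, inv_pow, mul_inv, inv_inv]
        rw [← pow_mul, ← pow_mul, mul_comm p w]
        ac_rfl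
      rw [h1]
      exact mul_mem h (MonoidHom.mem_range.mpr ⟨_, rfl⟩)
    exact hno l hle hl hpl
      (residue_pow_eq_of_exact_level hϖ hp hpe he τ hc hτ hl1 hl hpl hul hul' h')

/-- `ζ - 1 = μ ϖ ^ e0` for a unit `μ`. -/
theorem exists_unit_zeta_sub_one (he0 : 1 ≤ e0) {ζ : O} (hζ : IsPrimitiveRoot ζ p) :
    ∃ μ : Oˣ, ζ - 1 = (μ : O) * ϖ ^ e0 := by
  have hp0 : residue O (p : O) = 0 := residue_prime_eq_zero hϖ hp hpe he he0
  have hζp : ζ ^ p = 1 := hζ.pow_eq_one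
  have hζ1 : ζ ≠ 1 := hζ.ne_one hp.one_lt
  obtain ⟨lam, hlam⟩ : ∃ lam : O, lam = ζ - 1 := ⟨_, rfl⟩
  have hlam0 : lam ≠ 0 := by
    rw [hlam]
    exact sub_ne_zero.mpr hζ1
  have hζlam : ζ = 1 + lam := by rw [hlam]; ring
  have hlamm : lam ∈ maximalIdeal O := by
    have hζu : IsUnit ζ := hζ.isUnit hp.ne_zero
    have h1 : hζu.unit ^ p ∈ principalUnits O 1 := by
      have h2 : hζu.unit ^ p = 1 :=
        Units.ext (by rw [Units.val_pow_eq_pow_val, IsUnit.unit_spec, hζp, Units.val_one])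
      rw [h2]
      exact one_mem _
    have h3 := mem_principalUnits_one_of_pow_mem hϖ hp hpe he he0 le_rfl h1
    rw [mem_principalUnits, pow_one, IsUnit.unit_spec] at h3
    rw [hlam]
    exact h3
  have hlamres : residue O lam = 0 := (residue_eq_zero_iff _).mpr hlamm
  obtain ⟨r, hr⟩ := one_add_pow_prime_eq hp lam
  rw [← hζlam, hζp] at hr
  obtain ⟨η, hη⟩ : ∃ η : O, η = -(1 + lam * r) := ⟨_, rfl⟩
  have hE1 : lam ^ p = (p : O) * lam * η := by
    rw [hη]
    linear_combination -hr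
  have hηres : residue O η = -1 := by
    rw [hη, map_neg, map_add, map_one, map_mul, hlamres, zero_mul, add_zero]
  have hηu : IsUnit η := by
    rw [← residue_ne_zero_iff_isUnit, hηres]
    exact neg_ne_zero.mpr one_ne_zero
  obtain ⟨k, μ, hμ⟩ := IsDiscreteValuationRing.eq_unit_mul_pow_irreducible hlam0 hϖ
  have hq : 0 < p - 1 := Nat.sub_pos_of_lt hp.one_lt
  have hE2 : lam ^ (p - 1) = (p : O) * η := by
    have h1 : lam ^ (p - 1) * lam = (p : O) * η * lam := by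
      rw [pow_sub_one_mul hp.ne_zero, hE1]
      ring
    exact mul_right_cancel₀ hlam0 h1
  have hk : k = e0 := by
    have h1 : ((μ ^ (p - 1) : Oˣ) : O) * ϖ ^ (k * (p - 1)) =
        ((υ * hηu.unit : Oˣ) : O) * ϖ ^ e := by
      rw [Units.val_pow_eq_pow_val, Units.val_mul, IsUnit.unit_spec, pow_mul, ← mul_pow, ← hμ,
        hE2, hpe]
      ring
    have h2 := IsDiscreteValuationRing.unit_mul_pow_congr_pow hϖ hϖ _ _ _ _ h1
    rw [he] at h2
    exact Nat.eq_of_mul_eq_mul_right hq h2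
  rw [hk] at hμ
  exact ⟨μ, by rw [← hlam, hμ]⟩

/-- The cyclotomic exponent of `τ` is the `e0`-th power of its tame character: if `τ ζ = ζ ^ w`,
`τ ϖ = ϖ c` and `τ` is trivial on the residue field then `w = c ^ e0` in the residue field. -/
theorem natCast_eq_residue_pow (he0 : 1 ≤ e0) {ζ : O} (hζ : IsPrimitiveRoot ζ p)
    (τ : O →+* O) {c : O} (hc : τ ϖ = ϖ * c) (hτ : ∀ x : O, residue O (τ x) = residue O x)
    {w : ℕ} (hw : τ ζ = ζ ^ w) : (w : ResidueField O) = residue O c ^ e0 := by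
  obtain ⟨μ, hμ⟩ := exists_unit_zeta_sub_one hϖ hp hpe he he0 hζ
  have hζres : residue O ζ = 1 := by
    have h1 : ζ = 1 + (μ : O) * ϖ ^ e0 := by rw [← hμ]; ring
    have h2 : residue O (ϖ ^ e0) = 0 :=
      (residue_eq_zero_iff _).mpr (uniformizer_pow_mem_maximalIdeal hϖ he0)
    rw [h1, map_add, map_one, map_mul, h2, mul_zero, add_zero]
  have hρres : residue O (∑ i ∈ Finset.range w, ζ ^ i) = (w : ResidueField O) := by
    rw [map_sum]
    simp [hζres]
  -- `τ (ζ - 1) = (ζ - 1) ρ` and `τ (μ ϖ^e0) = τ μ ϖ^e0 c^e0`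
  have h1 : τ (ζ - 1) = (ζ - 1) * ∑ i ∈ Finset.range w, ζ ^ i := by
    rw [map_sub, map_one, hw, mul_geom_sum]
  have h2 : τ (ζ - 1) = τ (μ : O) * (ϖ ^ e0 * c ^ e0) := by
    rw [hμ, map_mul, map_pow, hc, mul_pow]
  have h3 : ϖ ^ e0 * ((μ : O) * ∑ i ∈ Finset.range w, ζ ^ i) = ϖ ^ e0 * (τ (μ : O) * c ^ e0) := by
    have h4 := h1.symm.trans h2
    rw [hμ] at h4
    linear_combination h4
  have h5 := mul_left_cancel₀ (pow_ne_zero e0 hϖ.ne_zero) h3
  have h6 := congrArg (residue O) h5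
  rw [map_mul, map_mul, hρres, hτ, map_pow] at h6
  have hμres : residue O (μ : O) ≠ 0 := by
    rw [Ne, residue_eq_zero_iff]
    exact fun hm => (IsLocalRing.maximalIdeal O).ne_top_iff_one.mp
      (IsLocalRing.maximalIdeal.isMaximal O).ne_top
      (by simpa using Ideal.mul_mem_left _ ((μ⁻¹ : Oˣ) : O) hm)
  exact mul_left_cancel₀ hμres h6

/-- **Top piece.**  `τ` trivial on the residue field, with tame character `c` of exact order at
least `e` and `τ ζ = ζ ^ w`.  If `u ∈ U_e` satisfies `τ u ≡ u ^ w` modulo `p`-th powers, then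
`u ∈ U_(p e0) (Oˣ)^p`. -/
theorem exists_pow_mul_mem_crit (hp2 : p ≠ 2) (hperf : ∀ x : ResidueField O, ∃ y, y ^ p = x)
    (he0 : 1 ≤ e0) {ζ : O} (hζ : IsPrimitiveRoot ζ p)
    (τ : O →+* O) {c : O} (hc : τ ϖ = ϖ * c) (hτ : ∀ x : O, residue O (τ x) = residue O x)
    (hc0 : residue O c ≠ 0) (hord : ∀ j, 0 < j → j < e → residue O c ^ j ≠ 1)
    {w : ℕ} (hw : τ ζ = ζ ^ w) {u : Oˣ} (hu : u ∈ principalUnits O e)
    (h : Units.map (τ : O →* O) u * (u ^ w)⁻¹ ∈ (powMonoidHom p : Oˣ →* Oˣ).range) :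
    ∃ y : Oˣ, u * (y ^ p)⁻¹ ∈ principalUnits O (p * e0) := by
  have hwres := natCast_eq_residue_pow hϖ hp hpe he he0 hζ τ hc hτ hw
  refine exists_pow_mul_mem_crit_of_forall_ne hϖ hp hpe he hperf τ hc hτ (fun l hle hl _ heq => ?_)
    hu h
  have hp3 : 3 ≤ p := by
    have := hp.two_le
    omega
  have hpe0 : p * e0 = e0 + e := by
    have := mul_eq_add_mul_pred hp.pos e0
    omega
  have he0e : e0 < e := by
    have h2 : 2 ≤ p - 1 := by omega
    calc e0 < e0 * 2 := by omega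
      _ ≤ e0 * (p - 1) := Nat.mul_le_mul_left e0 h2
      _ = e := he.symm
  have hsplit : l = e0 + (l - e0) := by omega
  rw [hwres, hsplit, pow_add] at heq
  have h1 : residue O c ^ (l - e0) = 1 := by
    have h2 : residue O c ^ e0 * residue O c ^ (l - e0) = residue O c ^ e0 * 1 := by
      rw [heq, mul_one]
    exact mul_left_cancel₀ (pow_ne_zero e0 hc0) h2
  exact hord (l - e0) (by omega) (by omega) h1

/-- **The cyclotomic eigenspace of the tame generator is the top piece** (abstract form of `(hF)`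
in the supersingular case): under the hypotheses of `exists_pow_mul_mem_crit`, EVERY ring
automorphism `σ` of `O` with `σ ζ = ζ ^ w'` satisfies `σ u ≡ u ^ w'` modulo `p`-th powers. -/
theorem map_mul_pow_inv_mem_range_of_eigen [IsAdicComplete (maximalIdeal O) O]
    [Finite (ResidueField O)] (hp2 : p ≠ 2) (he0 : 1 ≤ e0) {ζ : O} (hζ : IsPrimitiveRoot ζ p)
    (τ : O →+* O) {c : O} (hc : τ ϖ = ϖ * c) (hτ : ∀ x : O, residue O (τ x) = residue O x)
    (hc0 : residue O c ≠ 0) (hord : ∀ j, 0 < j → j < e → residue O c ^ j ≠ 1)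
    {w : ℕ} (hw : τ ζ = ζ ^ w) {u : Oˣ} (hu : u ∈ principalUnits O e)
    (h : Units.map (τ : O →* O) u * (u ^ w)⁻¹ ∈ (powMonoidHom p : Oˣ →* Oˣ).range)
    (σ : O ≃+* O) {w' : ℕ} (hw' : σ ζ = ζ ^ w') :
    Units.map ((σ : O →+* O) : O →* O) u * (u ^ w')⁻¹ ∈ (powMonoidHom p : Oˣ →* Oˣ).range := by
  have hp0' : ((p : ℕ) : ResidueField O) = 0 := by
    rw [← residue_prime_eq_zero hϖ hp hpe he he0, map_natCast]
  have : Fact p.Prime := ⟨hp⟩
  have : CharP (ResidueField O) p := (CharP.charP_iff_prime_eq_zero hp).mpr hp0'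
  have hperf : ∀ x : ResidueField O, ∃ y, y ^ p = x := fun x => by
    obtain ⟨y, hy⟩ := (Finite.injective_iff_surjective.mp
      (frobenius_inj (ResidueField O) p)) x
    exact ⟨y, hy⟩
  obtain ⟨y, hy⟩ := exists_pow_mul_mem_crit hϖ hp hpe he hp2 hperf he0 hζ τ hc hτ hc0 hord hw hu h
  have h1 := map_mul_pow_inv_mem_range hϖ hp hpe he he0 hζ σ hw' hy
  have h2 : Units.map ((σ : O →+* O) : O →* O) u * (u ^ w')⁻¹ =
      (Units.map ((σ : O →+* O) : O →* O) (u * (y ^ p)⁻¹) * ((u * (y ^ p)⁻¹) ^ w')⁻¹) *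
        (Units.map ((σ : O →+* O) : O →* O) y * (y ^ w')⁻¹) ^ p := by
    simp only [map_mul, map_inv, map_pow, mul_pow, inv_pow, mul_inv, inv_inv]
    rw [← pow_mul, ← pow_mul, mul_comm p w']
    have hcancel : ∀ A B Y Z : Oˣ, A * B⁻¹ = A * (Y ^ p)⁻¹ * (B⁻¹ * Z) * (Y ^ p * Z⁻¹) := by
      intro A B Y Z
      have : A * (Y ^ p)⁻¹ * (B⁻¹ * Z) * (Y ^ p * Z⁻¹) =
          A * B⁻¹ * ((Y ^ p)⁻¹ * Y ^ p) * (Z * Z⁻¹) := by ac_rfl
      rw [this, inv_mul_cancel, mul_inv_cancel, mul_one, mul_one]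
    exact hcancel _ _ _ _
  rw [h2]
  exact mul_mem h1 (MonoidHom.mem_range.mpr ⟨_, rfl⟩)

end Fermat.Agent.S56.LF.TopPiece
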