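import Fermat.Agent.S56.Flat.Defs
import Fermat.Agent.S56.LF.TopPiece
import Fermat.Agent.S56.LF.KummerGen
import Fermat.Agent.CFT.Local.PadicExt

/-!
# Conjugation invariance of Kummer-bounded homomorphisms (S56, brick LF: producer of `(hF)`)

`K` a finite extension of `ℚ_p` inside `ℚ̄_p`, stable under `Gal(ℚ̄_p/ℚ_p)`, containing a
primitive `p`-th root of unity `ζ`; `F0` a subfield; `τ0 ∈ G_{F0}` a "tame generator": it acts
trivially on the residue field of `K` and its tame character `τ0 ϖ / ϖ mod 𝔪` has order at least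
the absolute ramification index `e` of `K`.

* `conj_invariant` : if `χ τ0 = 1` then every `φ ∈ HSpace p k F0 K ζ _ χ` is invariant under
  conjugation by EVERY element of `Gal(ℚ̄_p/ℚ_p)`: `φ (s g s⁻¹) = φ g`.
* `eq_zero_of_ne_one` : if moreover `χ s ≠ 1` for some `s ∈ G_{F0}`, then `φ = 0`.

The proof is count-free: the Kummer class of `ℓ ∘ φ` lies in the cyclotomic eigenspace of `τ0`
in `U_e (𝒪ˣ)^p / (𝒪ˣ)^p`, which is the top piece `U_(p e0)` (`LF/TopPiece.lean`), on which every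
automorphism acts through its cyclotomic exponent (`LF/UnitPow.lean`).
-/

set_option autoImplicit false

namespace Fermat.Agent.S56.LF.TameInv

open scoped NNReal NormedField Valued
open IsLocalRing Fermat.Agent.CFT.Local Fermat.Agent.CFT.Local.NormedLocal
  Fermat.Agent.CFT.Local.PadicExt Fermat.Agent.S56.Flat Fermat.Agent.S56.LF.KummerGen
  Fermat.Agent.S56.LF.UnitPow

section DVR

variable {O : Type*} [CommRing O] [IsDomain O] [IsDiscreteValuationRing O]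

/-- If a discrete valuation ring with `p = ϖ ^ e υ`, `1 ≤ e`, contains a primitive `p`-th root of
unity, then `p - 1` divides `e`. -/
theorem exists_eq_mul_pred {ϖ : O} (hϖ : Irreducible ϖ) {p : ℕ} (hp : p.Prime) {e : ℕ} {υ : Oˣ}
    (hpe : (p : O) = ϖ ^ e * (υ : O)) (he1 : 1 ≤ e) {ζ : O} (hζ : IsPrimitiveRoot ζ p) :
    ∃ e0 : ℕ, 1 ≤ e0 ∧ e = e0 * (p - 1) := by
  have hϖm : residue O ϖ = 0 :=
    (residue_eq_zero_iff _).mpr ((IsLocalRing.mem_maximalIdeal _).mpr hϖ.not_isUnit)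
  have hp0 : ((p : ℕ) : ResidueField O) = 0 := by
    rw [← map_natCast (residue O), hpe, map_mul, map_pow, hϖm, zero_pow (by omega), zero_mul]
  have : Fact p.Prime := ⟨hp⟩
  have : CharP (ResidueField O) p := (CharP.charP_iff_prime_eq_zero hp).mpr hp0
  have hζp : ζ ^ p = 1 := hζ.pow_eq_one
  have hζ1 : ζ ≠ 1 := hζ.ne_one hp.one_lt
  have hζres : residue O ζ = 1 := by
    apply frobenius_inj (ResidueField O) p
    rw [frobenius_def, frobenius_def, ← map_pow, hζp, map_one, one_pow]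
  obtain ⟨lam, hlam⟩ : ∃ lam : O, lam = ζ - 1 := ⟨_, rfl⟩
  have hlam0 : lam ≠ 0 := by
    rw [hlam]
    exact sub_ne_zero.mpr hζ1
  have hζlam : ζ = 1 + lam := by rw [hlam]; ring
  have hlamres : residue O lam = 0 := by rw [hlam, map_sub, hζres, map_one, sub_self]
  obtain ⟨r, hr⟩ := one_add_pow_prime_eq hp lam
  rw [← hζlam, hζp] at hr
  obtain ⟨η, hη⟩ : ∃ η : O, η = -(1 + lam * r) := ⟨_, rfl⟩
  have hE1 : lam ^ p = (p : O) * lam * η := by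
    rw [hη]
    linear_combination -hr
  have hηres : residue O η = -1 := by
    rw [hη, map_neg, map_add, map_one, map_mul, hlamres, zero_mul, add_zero]
  have hηu : IsUnit η := by
    rw [← residue_ne_zero_iff_isUnit, hηres]
    exact neg_ne_zero.mpr one_ne_zero
  obtain ⟨k, μ, hμ⟩ := IsDiscreteValuationRing.eq_unit_mul_pow_irreducible hlam0 hϖ
  have hE2 : lam ^ (p - 1) = (p : O) * η := by
    have h1 : lam ^ (p - 1) * lam = (p : O) * η * lam := by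
      rw [pow_sub_one_mul hp.ne_zero, hE1]
      ring
    exact mul_right_cancel₀ hlam0 h1
  have hk : k * (p - 1) = e := by
    have h1 : ((μ ^ (p - 1) : Oˣ) : O) * ϖ ^ (k * (p - 1)) =
        ((υ * hηu.unit : Oˣ) : O) * ϖ ^ e := by
      rw [Units.val_pow_eq_pow_val, Units.val_mul, IsUnit.unit_spec, pow_mul, ← mul_pow, ← hμ,
        hE2, hpe]
      ring
    exact IsDiscreteValuationRing.unit_mul_pow_congr_pow hϖ hϖ _ _ _ _ h1
  refine ⟨k, ?_, hk.symm⟩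
  by_contra h0
  have hk0 : k = 0 := by omega
  rw [hk0, zero_mul] at hk
  omega

end DVR

variable {p : ℕ} [Fact p.Prime]

section Forms

/-- Additive forms `k → 𝔽_p` separate the points of a field of characteristic `p`. -/
theorem eq_zero_of_forall_addMonoidHom {k : Type*} [Field k] [CharP k p] (y : k)
    (h : ∀ ℓ : k →+ ZMod p, ℓ y = 0) : y = 0 := by
  let _ : Algebra (ZMod p) k := ZMod.algebra k p
  refine (Module.forall_dual_apply_eq_zero_iff (ZMod p) y).mp fun f => ?_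
  exact h f.toAddMonoidHom

/-- A Galois automorphism maps a primitive `p`-th root of unity to a power of it, with exponent
prime to `p`. -/
theorem exists_zeta_pow {ζ : PadicAlgCl p} (hζ : IsPrimitiveRoot ζ p) (s : Gp p) :
    ∃ w : ℕ, s ζ = ζ ^ w ∧ (w : ZMod p) ≠ 0 := by
  have hp : p.Prime := Fact.out
  have h1 : (s ζ) ^ p = 1 := by rw [← map_pow, hζ.pow_eq_one, map_one]
  obtain ⟨i, hi, h⟩ := hζ.eq_pow_of_pow_eq_one h1
  refine ⟨i, h.symm, fun h0 => ?_⟩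
  rw [ZMod.natCast_eq_zero_iff] at h0
  have hi0 : i = 0 := Nat.eq_zero_of_dvd_of_lt h0 hi
  rw [hi0, pow_zero] at h
  have h2 : ζ = 1 := by
    have h3 : s ζ = s 1 := by rw [← h, map_one]
    exact s.injective h3
  exact hζ.ne_one hp.one_lt h2

end Forms

section Kummer

variable (K : IntermediateField ℚ_[p] (PadicAlgCl p))

/-- **Descent.**  If `θ` is a Kummer generator of the character `c` of `G_K`, `s` stabilises `K`,
`s ζ = ζ ^ w` and `c` is invariant under conjugation by `s`, then `s θ / θ ^ w ∈ K`. -/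
theorem conj_mul_pow_inv_mem {ζ θ : PadicAlgCl p} (hζp : ζ ^ p = 1)
    (c : K.fixingSubgroup → ZMod p)
    (hθ : ∀ g : K.fixingSubgroup, (g : Gp p) θ = ζ ^ (c g).val * θ)
    (s : Gp p) (hsK : ∀ x ∈ K, s x ∈ K) {w : ℕ} (hw : s ζ = ζ ^ w)
    (hcs : ∀ g g' : K.fixingSubgroup, (g : Gp p) = s * g' * s⁻¹ → c g' = c g) :
    s θ * (θ ^ w)⁻¹ ∈ K := by
  have hp : p.Prime := Fact.out
  have : IsGalois ℚ_[p] (PadicAlgCl p) := IsAlgClosure.isGalois ℚ_[p] (PadicAlgCl p)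
  refine mem_of_forall_fixingSubgroup K _ fun g hg => ?_
  have hg' : s⁻¹ * g * s ∈ K.fixingSubgroup := by
    rw [IntermediateField.mem_fixingSubgroup_iff] at hg ⊢
    intro x hx
    change s⁻¹ (g (s x)) = x
    rw [hg (s x) (hsK x hx)]
    exact s.symm_apply_apply x
  have h1 := hθ ⟨s⁻¹ * g * s, hg'⟩
  have h2 := hθ ⟨g, hg⟩
  have h3 : c ⟨s⁻¹ * g * s, hg'⟩ = c ⟨g, hg⟩ := hcs ⟨g, hg⟩ ⟨s⁻¹ * g * s, hg'⟩ (by
    change g = s * (s⁻¹ * g * s) * s⁻¹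
    group)
  have h4 : g (s θ) = ζ ^ (w * (c ⟨g, hg⟩).val) * s θ := by
    have h5 : g (s θ) = s ((s⁻¹ * g * s) θ) := by
      change g (s θ) = s (s⁻¹ (g (s θ)))
      exact (s.apply_symm_apply _).symm
    rw [h5]
    change s (((⟨s⁻¹ * g * s, hg'⟩ : K.fixingSubgroup) : Gp p) θ) = _
    rw [h1, h3, map_mul, map_pow, hw, ← pow_mul]
  have h6 : g (θ ^ w) = ζ ^ (w * (c ⟨g, hg⟩).val) * θ ^ w := by
    rw [map_pow]
    change (((⟨g, hg⟩ : K.fixingSubgroup) : Gp p) θ) ^ w = _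
    rw [h2, mul_pow, ← pow_mul, mul_comm w]
  have hζ0 : ζ ≠ 0 := by
    intro h0
    rw [h0, zero_pow hp.ne_zero] at hζp
    exact zero_ne_one hζp
  have hζn : ζ ^ (w * (c ⟨g, hg⟩).val) ≠ 0 := pow_ne_zero _ hζ0
  rw [map_mul, map_inv₀, h4, h6, mul_inv, mul_mul_mul_comm, mul_inv_cancel₀ hζn, one_mul]

/-- **Ascent.**  If `θ ≠ 0` is a Kummer generator of the character `c` of `G_K` and
`s θ = b θ ^ w` with `b ∈ K`, `s ζ = ζ ^ w`, `w` prime to `p`, then `c (s g s⁻¹) = c g`. -/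
theorem char_eq_of_conj {ζ θ : PadicAlgCl p} (hζ : IsPrimitiveRoot ζ p)
    (c : K.fixingSubgroup → ZMod p) (hθ0 : θ ≠ 0)
    (hθ : ∀ g : K.fixingSubgroup, (g : Gp p) θ = ζ ^ (c g).val * θ)
    (s : Gp p) {w : ℕ} (hw : s ζ = ζ ^ w) (hw0 : (w : ZMod p) ≠ 0) {b : PadicAlgCl p}
    (hb : b ∈ K) (hsθ : s θ = b * θ ^ w) (g g' : K.fixingSubgroup)
    (hg : (g' : Gp p) = s * g * s⁻¹) : c g' = c g := by
  have hp : p.Prime := Fact.out
  have : NeZero p := ⟨hp.ne_zero⟩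
  have hζp : ζ ^ p = 1 := hζ.pow_eq_one
  have hsθ0 : s θ ≠ 0 := by
    intro h0
    apply hθ0
    have h1 : s θ = s 0 := by rw [h0, map_zero]
    exact s.injective h1
  have h1 : (g' : Gp p) (s θ) = (ζ ^ (c g).val) ^ w * s θ := by
    rw [hg]
    change s ((g : Gp p) (s⁻¹ (s θ))) = _
    have h2 : s⁻¹ (s θ) = θ := s.symm_apply_apply θ
    rw [h2, hθ g, map_mul, map_pow, hw, ← pow_mul, ← pow_mul, mul_comm w]
  have h2 : (g' : Gp p) (s θ) = (ζ ^ (c g').val) ^ w * s θ := by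
    have hb' : (g' : Gp p) b = b :=
      (IntermediateField.mem_fixingSubgroup_iff _ _).mp g'.2 b hb
    rw [hsθ, map_mul, map_pow, hb', hθ g', mul_pow]
    ring
  have h3 : (ζ ^ (c g).val) ^ w = (ζ ^ (c g').val) ^ w :=
    mul_right_cancel₀ hsθ0 (h1.symm.trans h2)
  rw [← pow_val_mul hζp w (c g), ← pow_val_mul hζp w (c g')] at h3
  have h4 : ((w : ZMod p) * c g).val = ((w : ZMod p) * c g').val :=
    hζ.pow_inj (ZMod.val_lt _) (ZMod.val_lt _) h3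
  have h5 : (w : ZMod p) * c g = (w : ZMod p) * c g' := ZMod.val_injective p h4
  exact (mul_left_cancel₀ hw0 h5).symm

end Kummer

section Integers

variable (K : IntermediateField ℚ_[p] (PadicAlgCl p))

/-- The inclusion `𝒪[K] → ℚ̄_p`. -/
noncomputable def incl : 𝒪[K] →+* PadicAlgCl p :=
  (K.val : K →+* PadicAlgCl p).comp (𝒪[K]).subtype

theorem incl_apply (x : 𝒪[K]) : incl K x = ((x : K) : PadicAlgCl p) := rfl

theorem incl_injective : Function.Injective (incl K) := fun _ _ h =>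
  Subtype.ext (Subtype.ext h)

theorem incl_mem (x : 𝒪[K]) : incl K x ∈ K := (x : K).2

theorem norm_incl_le (x : 𝒪[K]) : ‖incl K x‖ ≤ 1 := Valued.integer.norm_le_one x

theorem exists_incl_eq {y : PadicAlgCl p} (hy : y ∈ K) (hn : ‖y‖ ≤ 1) :
    ∃ x : 𝒪[K], incl K x = y :=
  ⟨⟨⟨y, hy⟩, Valued.integer.mem_iff.mpr hn⟩, rfl⟩

theorem isUnit_iff_norm_incl (x : 𝒪[K]) : IsUnit x ↔ ‖incl K x‖ = 1 :=
  Valued.integer.isUnit_iff_norm_eq_one

theorem exists_unit_incl_eq {y : PadicAlgCl p} (hy : y ∈ K) (hn : ‖y‖ = 1) :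
    ∃ v : (𝒪[K])ˣ, incl K (v : 𝒪[K]) = y := by
  obtain ⟨x, hx⟩ := exists_incl_eq K hy hn.le
  have hu : IsUnit x := (isUnit_iff_norm_incl K x).mpr (by rw [hx, hn])
  exact ⟨hu.unit, by rw [IsUnit.unit_spec, hx]⟩

theorem residue_eq_of_norm_lt {x y : 𝒪[K]} (h : ‖incl K x - incl K y‖ < 1) :
    residue 𝒪[K] x = residue 𝒪[K] y := by
  rw [← sub_eq_zero, ← map_sub, residue_eq_zero_iff, IsLocalRing.mem_maximalIdeal,
    mem_nonunits_iff, isUnit_iff_norm_incl, map_sub]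
  exact h.ne

theorem residue_ne_of_norm_eq {x y : 𝒪[K]} (h : ‖incl K x - incl K y‖ = 1) :
    residue 𝒪[K] x ≠ residue 𝒪[K] y := by
  intro h1
  rw [← sub_eq_zero, ← map_sub, residue_eq_zero_iff, IsLocalRing.mem_maximalIdeal,
    mem_nonunits_iff, isUnit_iff_norm_incl, map_sub] at h1
  exact h1 h

theorem dvd_of_norm_le {x y : 𝒪[K]} (hy : y ≠ 0) (h : ‖incl K x‖ ≤ ‖incl K y‖) : y ∣ x := by
  have hy0 : incl K y ≠ 0 := fun h0 => hy (incl_injective K (by rw [h0, map_zero]))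
  have hn : ‖incl K x * (incl K y)⁻¹‖ ≤ 1 := by
    rw [norm_mul, norm_inv]
    exact mul_inv_le_one_of_le₀ h (norm_nonneg _)
  obtain ⟨a, ha⟩ := exists_incl_eq K (K.mul_mem (incl_mem K x) (K.inv_mem (incl_mem K y))) hn
  refine ⟨a, incl_injective K ?_⟩
  rw [map_mul, ha, mul_comm, mul_assoc, inv_mul_cancel₀ hy0, mul_one]

/-- The ring automorphism of `𝒪[K]` induced by `s ∈ Gal(ℚ̄_p/ℚ_p)` when `K` is stable. -/
noncomputable def intEquiv (hK : ∀ (s : Gp p), ∀ x ∈ K, s x ∈ K) (s : Gp p) : 𝒪[K] ≃+* 𝒪[K] where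
  toFun x := ⟨⟨s (incl K x), hK s _ (incl_mem K x)⟩, Valued.integer.mem_iff.mpr
    ((norm_algEquiv p s _).le.trans (norm_incl_le K x))⟩
  invFun x := ⟨⟨s⁻¹ (incl K x), hK s⁻¹ _ (incl_mem K x)⟩, Valued.integer.mem_iff.mpr
    ((norm_algEquiv p s⁻¹ _).le.trans (norm_incl_le K x))⟩
  left_inv x := incl_injective K (s.symm_apply_apply _)
  right_inv x := incl_injective K (s.apply_symm_apply _)
  map_mul' x y := incl_injective K (by
    change s (incl K (x * y)) = s (incl K x) * s (incl K y)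
    rw [map_mul, map_mul])
  map_add' x y := incl_injective K (by
    change s (incl K (x + y)) = s (incl K x) + s (incl K y)
    rw [map_add, map_add])

theorem incl_intEquiv (hK : ∀ (s : Gp p), ∀ x ∈ K, s x ∈ K) (s : Gp p) (x : 𝒪[K]) :
    incl K (intEquiv K hK s x) = s (incl K x) := rfl

end Integers

section Main

variable (K : IntermediateField ℚ_[p] (PadicAlgCl p)) [FiniteDimensional ℚ_[p] K]

theorem norm_natCast_lt_one : ‖((p : ℕ) : PadicAlgCl p)‖ < 1 := by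
  have h : ‖((p : ℕ) : PadicAlgCl p)‖ = ‖((p : ℕ) : ℚ_[p])‖ := by
    rw [← map_natCast (algebraMap ℚ_[p] (PadicAlgCl p)) p, norm_algebraMap']
  rw [h, Padic.norm_p]
  have hq : (1 : ℝ) < p := by exact_mod_cast (Fact.out : p.Prime).one_lt
  exact inv_lt_one_of_one_lt₀ hq

/-- **Core (integral side).**  `τ0` a tame generator; if `u ∈ K`, `u ≡ 1 mod p` and
`τ0 u = z ^ p u ^ w` (`τ0 ζ = ζ ^ w`, `z ∈ K`), then for every `s` with `s ζ = ζ ^ w'` there is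
`y ∈ K` with `s u = y ^ p u ^ w'`. -/
theorem exists_conj_eq_pow_mul (hp2 : p ≠ 2) (hK : ∀ (s : Gp p), ∀ x ∈ K, s x ∈ K)
    {ζ : PadicAlgCl p} (hζ : IsPrimitiveRoot ζ p) (hζK : ζ ∈ K) {τ0 : Gp p}
    {ϖ c : 𝒪[K]} (hϖ : Irreducible ϖ) (hc : τ0 (incl K ϖ) = incl K ϖ * incl K c)
    (hres : ∀ x : 𝒪[K], ‖τ0 (incl K x) - incl K x‖ < 1)
    {e : ℕ} (hpe : ‖((p : ℕ) : PadicAlgCl p)‖ = ‖incl K ϖ‖ ^ e)
    (hord : ∀ j, 0 < j → j < e → ‖incl K c ^ j - 1‖ = 1)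
    {w : ℕ} (hw : τ0 ζ = ζ ^ w) {u z : PadicAlgCl p} (huK : u ∈ K)
    (hun : ‖u - 1‖ ≤ ‖((p : ℕ) : PadicAlgCl p)‖) (hzK : z ∈ K) (hτu : τ0 u = z ^ p * u ^ w)
    (s : Gp p) {w' : ℕ} (hw' : s ζ = ζ ^ w') :
    ∃ y ∈ K, s u = y ^ p * u ^ w' := by
  have hp : p.Prime := Fact.out
  have hpn : ‖((p : ℕ) : PadicAlgCl p)‖ < 1 := norm_natCast_lt_one
  -- norms
  have hu1 : ‖u‖ = 1 := by
    have h1 : ‖u - 1‖ ≠ ‖(1 : PadicAlgCl p)‖ := by
      rw [norm_one]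
      exact (lt_of_le_of_lt hun hpn).ne
    have h2 := IsUltrametricDist.norm_add_eq_max_of_norm_ne_norm h1
    rw [sub_add_cancel, norm_one] at h2
    rw [h2]
    exact max_eq_right (le_trans hun hpn.le)
  have hz1 : ‖z‖ = 1 := by
    have h1 : ‖τ0 u‖ = 1 := by rw [norm_algEquiv p τ0 u, hu1]
    rw [hτu, norm_mul, norm_pow, norm_pow, hu1, one_pow, mul_one] at h1
    exact (pow_eq_one_iff_of_nonneg (norm_nonneg z) hp.ne_zero).mp h1
  have hζ1 : ‖ζ‖ = 1 := by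
    have h1 : ‖ζ‖ ^ p = 1 := by rw [← norm_pow, hζ.pow_eq_one, norm_one]
    exact (pow_eq_one_iff_of_nonneg (norm_nonneg ζ) hp.ne_zero).mp h1
  -- integral models
  obtain ⟨uO, huO⟩ := exists_unit_incl_eq K huK hu1
  obtain ⟨zO, hzO⟩ := exists_unit_incl_eq K hzK hz1
  obtain ⟨ζO, hζO⟩ := exists_incl_eq K hζK hζ1.le
  have hζOprim : IsPrimitiveRoot ζO p :=
    IsPrimitiveRoot.of_map_of_injective (f := incl K) (by rw [hζO]; exact hζ) (incl_injective K)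
  -- the uniformiser
  have hϖ0 : incl K ϖ ≠ 0 := fun h0 => hϖ.ne_zero (incl_injective K (by rw [h0, map_zero]))
  have hϖpos : 0 < ‖incl K ϖ‖ := norm_pos_iff.mpr hϖ0
  have hϖlt : ‖incl K ϖ‖ < 1 := by
    refine lt_of_le_of_ne (norm_incl_le K ϖ) fun h1 => ?_
    exact hϖ.not_isUnit ((isUnit_iff_norm_incl K ϖ).mpr h1)
  have he1 : 1 ≤ e := by
    by_contra h0
    have h1 : e = 0 := by omega
    rw [h1, pow_zero] at hpe
    exact hpn.ne hpe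
  -- `p = ϖ ^ e υ`
  have hp0 : ((p : ℕ) : 𝒪[K]) ≠ 0 := by
    intro h0
    have h1 : incl K ((p : ℕ) : 𝒪[K]) = 0 := by rw [h0, map_zero]
    rw [map_natCast] at h1
    rw [h1, norm_zero] at hpe
    exact (pow_pos hϖpos e).ne hpe
  obtain ⟨n, υ, hυ⟩ := IsDiscreteValuationRing.eq_unit_mul_pow_irreducible hp0 hϖ
  have hne : n = e := by
    have h1 : ‖((p : ℕ) : PadicAlgCl p)‖ = ‖incl K ϖ‖ ^ n := by
      have h2 := congrArg (incl K) hυ
      rw [map_natCast, map_mul, map_pow] at h2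
      rw [h2, norm_mul, norm_pow, (isUnit_iff_norm_incl K _).mp υ.isUnit, one_mul]
    rw [hpe] at h1
    exact (pow_right_injective₀ hϖpos hϖlt.ne h1).symm
  have hpeO : ((p : ℕ) : 𝒪[K]) = ϖ ^ e * (υ : 𝒪[K]) := by rw [hυ, hne, mul_comm]
  obtain ⟨e0, he0, he⟩ := exists_eq_mul_pred hϖ hp hpeO he1 hζOprim
  -- `u ∈ U_e`
  have huU : uO ∈ principalUnits 𝒪[K] e := by
    rw [mem_principalUnits, hϖ.maximalIdeal_eq, Ideal.span_singleton_pow,
      Ideal.mem_span_singleton]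
    refine dvd_of_norm_le K (pow_ne_zero e hϖ.ne_zero) ?_
    rw [map_sub, map_one, map_pow, norm_pow, huO, ← hpe]
    exact hun
  -- the tame generator on `𝒪[K]`
  have hcO : ((intEquiv K hK τ0 : 𝒪[K] ≃+* 𝒪[K]) : 𝒪[K] →+* 𝒪[K]) ϖ = ϖ * c :=
    incl_injective K (by
      rw [map_mul]
      exact hc)
  have hτO : ∀ x : 𝒪[K], residue 𝒪[K] (((intEquiv K hK τ0 : 𝒪[K] ≃+* 𝒪[K]) : 𝒪[K] →+* 𝒪[K]) x) =
      residue 𝒪[K] x := fun x => residue_eq_of_norm_lt K (hres x)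
  have hc1 : ‖incl K c‖ = 1 := by
    have h1 : ‖τ0 (incl K ϖ)‖ = ‖incl K ϖ‖ := norm_algEquiv p τ0 _
    rw [hc, norm_mul] at h1
    exact (mul_eq_left₀ hϖpos.ne').mp h1
  have hc0 : residue 𝒪[K] c ≠ 0 :=
    (residue_ne_zero_iff_isUnit c).mpr ((isUnit_iff_norm_incl K c).mpr hc1)
  have hordO : ∀ j, 0 < j → j < e → residue 𝒪[K] c ^ j ≠ 1 := by
    intro j hj hje
    rw [← map_pow, ← map_one (residue 𝒪[K])]
    refine residue_ne_of_norm_eq K ?_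
    rw [map_pow, map_one]
    exact hord j hj hje
  have hwO : ((intEquiv K hK τ0 : 𝒪[K] ≃+* 𝒪[K]) : 𝒪[K] →+* 𝒪[K]) ζO = ζO ^ w :=
    incl_injective K (by
      rw [map_pow, hζO, ← hw, ← hζO]
      rfl)
  have hw'O : (intEquiv K hK s) ζO = ζO ^ w' :=
    incl_injective K (by
      rw [map_pow, hζO, ← hw', ← hζO]
      rfl)
  have hrange : Units.map (((intEquiv K hK τ0 : 𝒪[K] ≃+* 𝒪[K]) : 𝒪[K] →+* 𝒪[K]) : 𝒪[K] →* 𝒪[K])
      uO * (uO ^ w)⁻¹ ∈ (powMonoidHom p : (𝒪[K])ˣ →* (𝒪[K])ˣ).range := by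
    refine MonoidHom.mem_range.mpr ⟨zO, ?_⟩
    change zO ^ p = _
    rw [eq_mul_inv_iff_mul_eq]
    apply Units.ext
    apply incl_injective K
    rw [Units.val_mul, Units.val_pow_eq_pow_val, Units.val_pow_eq_pow_val, map_mul, map_pow,
      map_pow, hzO, huO, ← hτu, ← huO]
    rfl
  have hmain := TopPiece.map_mul_pow_inv_mem_range_of_eigen hϖ hp hpeO he hp2 he0 hζOprim
    ((intEquiv K hK τ0 : 𝒪[K] ≃+* 𝒪[K]) : 𝒪[K] →+* 𝒪[K]) hcO hτO hc0 hordO hwO huU hrange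
    (intEquiv K hK s) hw'O
  obtain ⟨yO, hyO⟩ := MonoidHom.mem_range.mp hmain
  change yO ^ p = _ at hyO
  rw [eq_mul_inv_iff_mul_eq] at hyO
  refine ⟨incl K (yO : 𝒪[K]), incl_mem K _, ?_⟩
  have h1 := congrArg (fun v : (𝒪[K])ˣ => incl K (v : 𝒪[K])) hyO
  simp only [Units.val_mul, Units.val_pow_eq_pow_val, map_mul, map_pow] at h1
  rw [huO] at h1
  rw [h1, ← huO]
  rfl

/-- **Conjugation invariance** (the producer of `(hF)`).  `K ∋ ζ` finite over `ℚ_p`, stable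
under `Gal(ℚ̄_p/ℚ_p)`; `τ0 ∈ G_{F0}` acts trivially on the residue field of `K`, `τ0 ϖ = ϖ c` and
`c ^ j ≢ 1` modulo the maximal ideal for `0 < j < e`, where `‖p‖ = ‖ϖ‖ ^ e`.  If `χ τ0 = 1`, every
`φ ∈ HSpace p k F0 K ζ _ χ` satisfies `φ (s g s⁻¹) = φ g` for ALL `s ∈ Gal(ℚ̄_p/ℚ_p)`. -/
theorem conj_invariant (hp2 : p ≠ 2) (k : Type) [Field k] [CharP k p]
    (F0 : IntermediateField ℚ_[p] (PadicAlgCl p)) (hK : ∀ (s : Gp p), ∀ x ∈ K, s x ∈ K)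
    {ζ : PadicAlgCl p} (hζ : IsPrimitiveRoot ζ p) (hζK : ζ ∈ K) (χ : Gp p → k)
    {τ0 : Gp p} (hτ0 : τ0 ∈ F0.fixingSubgroup) (hχ : χ τ0 = 1)
    {ϖ c : 𝒪[K]} (hϖ : Irreducible ϖ) (hc : τ0 (incl K ϖ) = incl K ϖ * incl K c)
    (hres : ∀ x : 𝒪[K], ‖τ0 (incl K x) - incl K x‖ < 1)
    {e : ℕ} (hpe : ‖((p : ℕ) : PadicAlgCl p)‖ = ‖incl K ϖ‖ ^ e)
    (hord : ∀ j, 0 < j → j < e → ‖incl K c ^ j - 1‖ = 1)
    {φ : K.fixingSubgroup → k} (hφ : φ ∈ HSpace p k F0 K ζ hζ.pow_eq_one χ)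
    (s : Gp p) (g g' : K.fixingSubgroup) (hg : (g' : Gp p) = s * g * s⁻¹) : φ g' = φ g := by
  have hp : p.Prime := Fact.out
  obtain ⟨-, hequiv, hkum⟩ := hφ
  suffices h : ∀ ℓ : k →+ ZMod p, ℓ (φ g') = ℓ (φ g) from
    sub_eq_zero.mp (eq_zero_of_forall_addMonoidHom (p := p) _ fun ℓ => by
      rw [map_sub, h ℓ, sub_self])
  intro ℓ
  obtain ⟨θ, hθK, hθn, hθ⟩ := hkum ℓ
  obtain ⟨w, hw, -⟩ := exists_zeta_pow hζ τ0
  obtain ⟨w', hw', hw'0⟩ := exists_zeta_pow hζ s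
  have hpn : ‖((p : ℕ) : PadicAlgCl p)‖ < 1 := norm_natCast_lt_one
  have hθ0 : θ ≠ 0 := by
    intro h0
    rw [h0, zero_pow hp.ne_zero, zero_sub, norm_neg, norm_one] at hθn
    exact absurd hθn (not_le.mpr hpn)
  -- descent at `τ0`
  have hzK : τ0 θ * (θ ^ w)⁻¹ ∈ K :=
    conj_mul_pow_inv_mem K hζ.pow_eq_one (fun g => ℓ (φ g)) hθ τ0 (hK τ0) hw
      (fun g₁ g₂ h12 => by
        have h1 := hequiv τ0 hτ0 g₂ g₁ h12
        rw [hχ, one_mul] at h1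
        change ℓ (φ g₂) = ℓ (φ g₁)
        rw [h1])
  have hτu : τ0 (θ ^ p) = (τ0 θ * (θ ^ w)⁻¹) ^ p * (θ ^ p) ^ w := by
    rw [map_pow, mul_pow, inv_pow, ← pow_mul, ← pow_mul, mul_comm p w,
      inv_mul_cancel_right₀ (pow_ne_zero _ hθ0)]
  -- the top piece
  obtain ⟨y, hyK, hy⟩ := exists_conj_eq_pow_mul K hp2 hK hζ hζK hϖ hc hres hpe hord hw hθK hθn hzK
    hτu s hw'
  -- ascent at `s`
  have hsθ0 : s θ ≠ 0 := by
    intro h0
    apply hθ0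
    have h1 : s θ = s 0 := by rw [h0, map_zero]
    exact s.injective h1
  have hy0 : y ≠ 0 := by
    intro h0
    rw [h0, zero_pow hp.ne_zero, zero_mul, map_pow] at hy
    exact pow_ne_zero p hsθ0 hy
  have hyθ0 : y * θ ^ w' ≠ 0 := mul_ne_zero hy0 (pow_ne_zero _ hθ0)
  have ht : (s θ * (y * θ ^ w')⁻¹) ^ p = 1 := by
    have h1 : (y * θ ^ w') ^ p = y ^ p * (θ ^ p) ^ w' := by
      rw [mul_pow, ← pow_mul, ← pow_mul, mul_comm w' p]
    rw [mul_pow, inv_pow, ← map_pow, hy, h1]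
    exact mul_inv_cancel₀ (h1 ▸ pow_ne_zero p hyθ0)
  obtain ⟨i, -, hi⟩ := hζ.eq_pow_of_pow_eq_one ht
  have hsθ : s θ = (ζ ^ i * y) * θ ^ w' := by
    have h1 : s θ = (s θ * (y * θ ^ w')⁻¹) * (y * θ ^ w') := by
      rw [inv_mul_cancel_right₀ hyθ0]
    rw [h1, ← hi]
    ring
  exact char_eq_of_conj K hζ (fun g => ℓ (φ g)) hθ0 hθ s hw' hw'0
    (K.mul_mem (pow_mem hζK i) hyK) hsθ g g' hg

/-- **Vanishing.**  Under the hypotheses of `conj_invariant`, if moreover `χ σ ≠ 1` for some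
`σ ∈ G_{F0}`, then every `φ ∈ HSpace p k F0 K ζ _ χ` vanishes. -/
theorem eq_zero_of_ne_one (hp2 : p ≠ 2) (k : Type) [Field k] [CharP k p]
    (F0 : IntermediateField ℚ_[p] (PadicAlgCl p)) (hK : ∀ (s : Gp p), ∀ x ∈ K, s x ∈ K)
    {ζ : PadicAlgCl p} (hζ : IsPrimitiveRoot ζ p) (hζK : ζ ∈ K) (χ : Gp p → k)
    {τ0 : Gp p} (hτ0 : τ0 ∈ F0.fixingSubgroup) (hχ : χ τ0 = 1)
    {ϖ c : 𝒪[K]} (hϖ : Irreducible ϖ) (hc : τ0 (incl K ϖ) = incl K ϖ * incl K c)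
    (hres : ∀ x : 𝒪[K], ‖τ0 (incl K x) - incl K x‖ < 1)
    {e : ℕ} (hpe : ‖((p : ℕ) : PadicAlgCl p)‖ = ‖incl K ϖ‖ ^ e)
    (hord : ∀ j, 0 < j → j < e → ‖incl K c ^ j - 1‖ = 1)
    {σ : Gp p} (hσ : σ ∈ F0.fixingSubgroup) (hχσ : χ σ ≠ 1)
    {φ : K.fixingSubgroup → k} (hφ : φ ∈ HSpace p k F0 K ζ hζ.pow_eq_one χ) : φ = 0 := by
  funext g
  have hg' : σ * (g : Gp p) * σ⁻¹ ∈ K.fixingSubgroup := by
    rw [IntermediateField.mem_fixingSubgroup_iff]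
    intro x hx
    change σ ((g : Gp p) (σ⁻¹ x)) = x
    rw [(IntermediateField.mem_fixingSubgroup_iff _ _).mp g.2 _ (hK σ⁻¹ x hx)]
    exact σ.apply_symm_apply x
  have h1 : φ ⟨σ * (g : Gp p) * σ⁻¹, hg'⟩ = χ σ * φ g := hφ.2.1 σ hσ g ⟨_, hg'⟩ rfl
  have h2 : φ ⟨σ * (g : Gp p) * σ⁻¹, hg'⟩ = φ g :=
    conj_invariant K hp2 k F0 hK hζ hζK χ hτ0 hχ hϖ hc hres hpe hord hφ σ g ⟨_, hg'⟩ rfl
  have h3 : (χ σ - 1) * φ g = 0 := by rw [sub_mul, one_mul, ← h1, h2, sub_self]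
  rcases mul_eq_zero.mp h3 with h4 | h4
  · exact absurd (sub_eq_zero.mp h4) hχσ
  · exact h4

end Main

end Fermat.Agent.S56.LF.TameInv
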