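import Mathlib
import Fermat.Agent.CFT.Local.UnramPadicAbs
import Fermat.Agent.S56.Flat.LocalBricks
import Fermat.Agent.S56.LF.WildFin

/-!
# S56, brick LF, row LR: the character half

The last conjunct of `Flat.LRStatement`, for an arbitrary finite `K` containing `ζ_p` and one
root of unity `ξ` of order `p ^ N - 1` with `(|k| - 1) ∣ N` (helper40, second seat of the row).

* `inertia_clause` : a character `χ : Gal(ℚ̄_p/ℚ_p) → kˣ` of finite level is trivial on the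
  inertial elements fixing `ζ_p`, as soon as some inertial `τ0` acts on `ζ_p` through a generator
  of `𝔽_pˣ`.  Input: the second clause of `Flat.LGWildStatement` (tame inertia is cyclic) and the
  finite level facts of `WildFin`.
* `fix_clause` / `fix_clause_key` : `χ σ = 1` for every `σ` fixing `ζ_p` and `ξ`.  Input:
  `Flat.LGFrobStatement` at `(⊥, M)`, resp. `Flat.LGKeyStatement` at `M` with
  `WildFin.exists_frobenius`.
* `char_half` / `char_half_key` : both clauses, in the spelling of the last conjunct of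
  `Flat.LRStatement`; `char_half_unram` : the same for every finite `K ∋ ζ_p` containing
  `unram ⊥ (|k| - 1)`.
-/

set_option autoImplicit false

open scoped NNReal NormedField Valued IntermediateField
open Fermat.Agent.CFT.Local Fermat.Agent.CFT.Local.NormedLocal Fermat.Agent.CFT.Local.UnramPadic
open Fermat.Agent.S56.Flat

namespace Fermat.Agent.S56.LF.TameRChar

variable {p : ℕ} [Fact p.Prime]

/-! ### Roots of unity and the norm -/

/-- A root of unity has norm one. -/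
lemma norm_root {n : ℕ} (hn : n ≠ 0) {x : PadicAlgCl p} (hx : x ^ n = 1) : ‖x‖ = 1 :=
  (isOfFinOrder_iff_pow_eq_one.mpr ⟨n, Nat.pos_of_ne_zero hn, hx⟩).norm_eq_one

/-- A root of unity of order prime to `p`, different from `1`, is not congruent to `1`. -/
lemma norm_sub_one_eq_one {n : ℕ} (hn : ¬ p ∣ n) {η : PadicAlgCl p} (hη : η ^ n = 1)
    (hη1 : η ≠ 1) : ‖η - 1‖ = 1 := by
  have hn0 : n ≠ 0 := by
    rintro rfl
    exact hn (dvd_zero p)
  have hηn : ‖η‖ = 1 := norm_root hn0 hη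
  have hle : ‖η - 1‖ ≤ 1 := by
    rw [sub_eq_add_neg]
    refine le_trans (IsUltrametricDist.norm_add_le_max _ _) (max_le hηn.le ?_)
    rw [norm_neg, norm_one]
  refine le_antisymm hle (not_lt.mp fun hlt => ?_)
  have hsum : ∑ i ∈ Finset.range n, η ^ i = 0 := by
    have h := geom_sum_mul η n
    rw [hη, sub_self] at h
    exact (mul_eq_zero.mp h).resolve_right (sub_ne_zero.mpr hη1)
  have hcong : ‖(n : PadicAlgCl p)‖ < 1 := by
    have e : (n : PadicAlgCl p) = -∑ i ∈ Finset.range n, (η ^ i - 1) := by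
      rw [Finset.sum_sub_distrib, hsum, Finset.sum_const, Finset.card_range, nsmul_eq_mul,
        mul_one, zero_sub, neg_neg]
    rw [e, norm_neg]
    obtain ⟨i, -, hi⟩ := IsUltrametricDist.exists_norm_finsetSum_le_of_nonempty
      (Finset.nonempty_range_iff.mpr hn0) (fun i => η ^ i - 1)
    refine lt_of_le_of_lt hi ?_
    have h := WildFin.norm_pow_sub_pow_lt hηn.le (le_of_eq norm_one) hlt i
    rwa [one_pow] at h
  rw [WildFin.norm_natCast_of_not_dvd hn] at hcong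
  exact lt_irrefl _ hcong

/-- Two congruent roots of unity of order prime to `p` are equal. -/
lemma eq_of_norm_sub_lt_one {n : ℕ} (hn : ¬ p ∣ n) {x y : PadicAlgCl p} (hx : x ^ n = 1)
    (hy : y ^ n = 1) (h : ‖x - y‖ < 1) : x = y := by
  have hn0 : n ≠ 0 := by
    rintro rfl
    exact hn (dvd_zero p)
  by_contra hne
  have hy0 : y ≠ 0 := by
    rintro rfl
    rw [zero_pow hn0] at hy
    exact zero_ne_one hy
  have hη : (x / y) ^ n = 1 := by rw [div_pow, hx, hy, div_one]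
  have hη1 : x / y ≠ 1 := fun h1 => hne ((div_eq_one_iff_eq hy0).mp h1)
  have h1 := norm_sub_one_eq_one hn hη hη1
  have e2 : y * (x / y) = x := by field_simp
  have e : x - y = y * (x / y - 1) := by rw [mul_sub, mul_one, e2]
  rw [e, norm_mul, norm_root hn0 hy, one_mul, h1] at h
  exact lt_irrefl _ h

/-- An inertial element fixes the roots of unity of order prime to `p`. -/
lemma inertial_fix_root {τ : Gp p} (hτ : IsInertial p τ) {n : ℕ} (hn : ¬ p ∣ n)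
    {ξ : PadicAlgCl p} (hξ : ξ ^ n = 1) : τ ξ = ξ := by
  have hn0 : n ≠ 0 := by
    rintro rfl
    exact hn (dvd_zero p)
  have h1 : (τ ξ) ^ n = 1 := by rw [← map_pow, hξ, map_one]
  exact eq_of_norm_sub_lt_one hn h1 hξ (hτ ξ (norm_root hn0 hξ).le)

/-- A Frobenius on `M` raises the roots of unity of order prime to `p` of `M` to the `p`-th
power. -/
lemma frob_root {M : IntermediateField ℚ_[p] (PadicAlgCl p)} {s : Gp p}
    (hs : ∀ x ∈ M, ‖x‖ ≤ 1 → ‖s x - x ^ p‖ < 1) {n : ℕ} (hn : ¬ p ∣ n)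
    {ξ : PadicAlgCl p} (hξM : ξ ∈ M) (hξ : ξ ^ n = 1) : s ξ = ξ ^ p := by
  have hn0 : n ≠ 0 := by
    rintro rfl
    exact hn (dvd_zero p)
  have h1 : (s ξ) ^ n = 1 := by rw [← map_pow, hξ, map_one]
  have h2 : (ξ ^ p) ^ n = 1 := by rw [← pow_mul, mul_comm, pow_mul, hξ, one_pow]
  exact eq_of_norm_sub_lt_one hn h1 h2 (hs ξ hξM (norm_root hn0 hξ).le)

/-- All `p`-th roots of unity are at distance at most `‖ζ - 1‖` from `1`. -/
lemma norm_sub_one_le {ζ η : PadicAlgCl p} (hζ : IsPrimitiveRoot ζ p) (hη : η ^ p = 1) :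
    ‖η - 1‖ ≤ ‖ζ - 1‖ := by
  have hp : p.Prime := Fact.out
  have : NeZero p := ⟨hp.ne_zero⟩
  obtain ⟨c, -, hc⟩ := hζ.eq_pow_of_pow_eq_one hη
  have hζn : ‖ζ‖ = 1 := norm_root hp.ne_zero hζ.pow_eq_one
  rw [← hc, ← geom_sum_mul ζ c, norm_mul]
  refine mul_le_of_le_one_left (norm_nonneg _) ?_
  refine IsUltrametricDist.norm_sum_le_of_forall_le_of_nonneg zero_le_one (fun i _ => ?_)
  rw [norm_pow, hζn, one_pow]

/-- An element wild on `M ∋ ζ` fixes `ζ`. -/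
lemma wild_fix_root {ζ : PadicAlgCl p} (hζ : IsPrimitiveRoot ζ p)
    {M : IntermediateField ℚ_[p] (PadicAlgCl p)} (hζM : ζ ∈ M) {w : Gp p}
    (hw : ∀ x ∈ M, x ≠ 0 → ‖w x - x‖ < ‖x‖) : w ζ = ζ := by
  have hp : p.Prime := Fact.out
  by_contra hne
  have hζ0 : ζ ≠ 0 := hζ.ne_zero hp.ne_zero
  have hζ1 : ζ ≠ 1 := hζ.ne_one hp.one_lt
  have hζn : ‖ζ‖ = 1 := norm_root hp.ne_zero hζ.pow_eq_one
  have hη : (w ζ / ζ) ^ p = 1 := by
    rw [div_pow, ← map_pow, hζ.pow_eq_one, map_one, div_one]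
  have hη1 : w ζ / ζ ≠ 1 := fun h1 => hne ((div_eq_one_iff_eq hζ0).mp h1)
  have hprim : IsPrimitiveRoot (w ζ / ζ) p := by
    have h := IsPrimitiveRoot.orderOf (w ζ / ζ)
    rwa [orderOf_eq_prime hη hη1] at h
  have h1 : ‖ζ - 1‖ ≤ ‖w ζ / ζ - 1‖ := norm_sub_one_le hprim hζ.pow_eq_one
  have h2 := hw (ζ - 1) (M.sub_mem hζM M.one_mem) (sub_ne_zero.mpr hζ1)
  have e2 : ζ * (w ζ / ζ) = w ζ := by field_simp
  have e : w (ζ - 1) - (ζ - 1) = ζ * (w ζ / ζ - 1) := by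
    rw [map_sub, map_one, mul_sub, mul_one, e2]
    ring
  rw [e, norm_mul, hζn, one_mul] at h2
  exact lt_irrefl _ (lt_of_le_of_lt h1 h2)

/-! ### The action on `ζ_p` -/

/-- Every automorphism raises `ζ` to a power. -/
lemma exists_map_eq_pow {ζ : PadicAlgCl p} (hζ : IsPrimitiveRoot ζ p) (σ : Gp p) :
    ∃ m : ℕ, σ ζ = ζ ^ m := by
  have hp : p.Prime := Fact.out
  have : NeZero p := ⟨hp.ne_zero⟩
  have h1 : (σ ζ) ^ p = 1 := by rw [← map_pow, hζ.pow_eq_one, map_one]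
  obtain ⟨i, -, hi⟩ := hζ.eq_pow_of_pow_eq_one h1
  exact ⟨i, hi.symm⟩

/-- Powers of `ζ` are compared in `ZMod p`. -/
lemma pow_eq_pow_iff_zmod {ζ : PadicAlgCl p} (hζ : IsPrimitiveRoot ζ p) (a b : ℕ) :
    ζ ^ a = ζ ^ b ↔ (a : ZMod p) = (b : ZMod p) := by
  have hp : p.Prime := Fact.out
  have hfin : IsOfFinOrder ζ := hζ.isOfFinOrder hp.ne_zero
  rw [hfin.pow_eq_pow_iff_modEq, ← hζ.eq_orderOf, ZMod.natCast_eq_natCast_iff]

/-- The `(p - 1)`-st power of every automorphism fixes `ζ`. -/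
lemma pow_fix_root {ζ : PadicAlgCl p} (hζ : IsPrimitiveRoot ζ p) (σ : Gp p) {j : ℕ}
    (hj : (p - 1) ∣ j) : (σ ^ j) ζ = ζ := by
  have hp : p.Prime := Fact.out
  obtain ⟨m, hm⟩ := exists_map_eq_pow hζ σ
  rw [pow_apply_root σ hm j]
  have hm0 : (m : ZMod p) ≠ 0 := by
    intro h0
    have h1 : ζ ^ m = ζ ^ 0 := (pow_eq_pow_iff_zmod hζ m 0).mpr (by rw [h0, Nat.cast_zero])
    rw [pow_zero, ← hm] at h1
    have h2 : σ ζ = σ 1 := by rw [h1, map_one]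
    exact hζ.ne_one hp.one_lt (σ.injective h2)
  obtain ⟨c, rfl⟩ := hj
  have h3 : ((m ^ ((p - 1) * c) : ℕ) : ZMod p) = ((1 : ℕ) : ZMod p) := by
    rw [Nat.cast_pow, pow_mul, ZMod.pow_card_sub_one_eq_one hm0, one_pow, Nat.cast_one]
  have h4 := (pow_eq_pow_iff_zmod hζ _ _).mpr h3
  rw [h4, pow_one]

/-! ### Arithmetic -/

lemma dvd_of_pow_sub_one_dvd {a N j : ℕ} (ha : 2 ≤ a) (h : a ^ N - 1 ∣ a ^ j - 1) : N ∣ j := by
  have h1 : Nat.gcd (a ^ N - 1) (a ^ j - 1) = a ^ N - 1 := Nat.gcd_eq_left h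
  rw [Nat.pow_sub_one_gcd_pow_sub_one] at h1
  have e1 : 1 ≤ a ^ Nat.gcd N j := Nat.one_le_pow _ _ (by omega)
  have e2 : 1 ≤ a ^ N := Nat.one_le_pow _ _ (by omega)
  have h2 : a ^ Nat.gcd N j = a ^ N := by omega
  have h3 : Nat.gcd N j = N := Nat.pow_right_injective ha h2
  have h4 := Nat.gcd_dvd_right N j
  rwa [h3] at h4

/-- `kˣ` has no `p`-power torsion. -/
lemma units_eq_one_of_pow (k : Type) [Field k] [CharP k p] {u : kˣ} {n : ℕ}
    (h : u ^ (p ^ n) = 1) : u = 1 := by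
  have hp : p.Prime := Fact.out
  have h0 : ((u : k)) ^ (p ^ n) = 1 := by
    rw [← Units.val_pow_eq_pow_val, h, Units.val_one]
  have h1 : ((u : k) - 1) ^ (p ^ n) = 0 := by
    rw [sub_pow_char_pow, one_pow, h0, sub_self]
  have h2 : (u : k) - 1 = 0 := (pow_eq_zero_iff (pow_ne_zero n hp.ne_zero)).mp h1
  exact Units.ext (sub_eq_zero.mp h2)

omit [Fact p.Prime] in
lemma card_eq_prime_pow (k : Type) [Field k] [Finite k] [CharP k p] :
    ∃ n : ℕ, Nat.card k = p ^ n := by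
  classical
  let _ := Fintype.ofFinite k
  obtain ⟨n, -, hn⟩ := FiniteField.card k p
  exact ⟨n, by rw [Nat.card_eq_fintype_card, hn]⟩

omit [Fact p.Prime] in
lemma sub_one_dvd_card_sub_one (k : Type) [Field k] [Finite k] [CharP k p] :
    (p - 1) ∣ Nat.card k - 1 := by
  obtain ⟨n, hn⟩ := card_eq_prime_pow (p := p) k
  rw [hn]
  have h7 := Nat.pow_sub_one_dvd_pow_sub_one p (one_dvd n)
  rwa [pow_one] at h7

/-- `p ^ N - 1` is prime to `p` and nonzero. -/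
lemma not_dvd_pow_sub_one {N : ℕ} (hN0 : 0 < N) : ¬ p ∣ p ^ N - 1 ∧ p ^ N - 1 ≠ 0 := by
  have hp : p.Prime := Fact.out
  have hpN : p ≤ p ^ N := by
    calc p = p ^ 1 := (pow_one p).symm
      _ ≤ p ^ N := Nat.pow_le_pow_right hp.pos hN0
  have h2 := hp.two_le
  refine ⟨fun h => ?_, by omega⟩
  have h1 : p ∣ p ^ N := dvd_pow_self p hN0.ne'
  have h3 : p ∣ 1 := (Nat.dvd_add_right h).mp (by
    rw [Nat.sub_add_cancel (by omega)]
    exact h1)
  exact hp.one_lt.ne' (Nat.dvd_one.mp h3)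

/-- A character trivial on the fixing subgroup of `M` takes the same value on two automorphisms
agreeing on `M`. -/
lemma map_eq_of_agree {k : Type} [Field k] (χ : Gp p →* kˣ)
    {M : IntermediateField ℚ_[p] (PadicAlgCl p)}
    (hM : ∀ σ : Gp p, (∀ x ∈ M, σ x = x) → χ σ = 1) {σ σ' : Gp p}
    (h : ∀ x ∈ M, σ x = σ' x) : χ σ = χ σ' := by
  have h1 : χ (σ'⁻¹ * σ) = 1 := by
    refine hM _ (fun x hx => ?_)
    rw [AlgEquiv.mul_apply, h x hx, ← AlgEquiv.mul_apply, inv_mul_cancel, AlgEquiv.one_apply]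
  rw [map_mul, map_inv, inv_mul_eq_one] at h1
  exact h1.symm

/-! ### The two clauses -/

section Clauses

variable (k : Type) [Field k] [Finite k] [CharP k p]

omit [Finite k] in
/-- **The inertia clause.**  A character of finite level (trivial on the fixing subgroup of the
normal finite `M ∋ ζ`) kills every inertial element fixing `ζ`. -/
theorem inertia_clause (hWild : LGWildStatement) {ζ : PadicAlgCl p} (hζ : IsPrimitiveRoot ζ p)
    (M : IntermediateField ℚ_[p] (PadicAlgCl p)) [Normal ℚ_[p] M] [FiniteDimensional ℚ_[p] M]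
    (hζM : ζ ∈ M) {τ0 : Gp p} {g0 : ℕ} (hτ0 : IsInertial p τ0) (hτ0ζ : τ0 ζ = ζ ^ g0)
    (hg0 : orderOf (g0 : ZMod p) = p - 1) (χ : Gp p →* kˣ)
    (hM : ∀ σ : Gp p, (∀ x ∈ M, σ x = x) → χ σ = 1)
    {τ : Gp p} (hτ : IsInertial p τ) (hτζ : τ ζ = ζ) : χ τ = 1 := by
  have hp : p.Prime := Fact.out
  obtain ⟨τ1, hτ1, hgen⟩ := (hWild p M).2 (fun σ x hx => WildFin.map_mem M σ hx)
  -- `χ` kills the wild elements
  have hwild : ∀ w ∈ WildFin.wildAt M, χ w = 1 := by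
    intro w hw
    obtain ⟨a, ha⟩ := WildFin.exists_pow_mem_fixingSubgroup_of_mem_wildAt M hw
    have h1 : χ (w ^ (p ^ a)) = 1 :=
      hM _ (fun x hx => (IntermediateField.mem_fixingSubgroup_iff M _).mp ha x hx)
    rw [map_pow] at h1
    exact units_eq_one_of_pow k h1
  -- `χ τ1` has order dividing `p - 1`
  obtain ⟨s, hs, -⟩ := WildFin.exists_frobenius M
  have hτ1M : τ1 ∈ WildFin.inertiaAt M := fun x _ hx1 => hτ1 x hx1
  have h2 := hwild _ (WildFin.frob_conj_mem_wildAt M hs hτ1M)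
  have h3 : χ τ1 ^ p = χ τ1 := by
    have e : (χ τ1 ^ p)⁻¹ * (χ s * χ τ1 * (χ s)⁻¹) = 1 := by
      simpa only [map_mul, map_inv, map_pow] using h2
    rw [mul_comm (χ s), mul_inv_cancel_right, inv_mul_eq_one] at e
    exact e
  have h4 : χ τ1 ^ (p - 1) = 1 := by
    have e : χ τ1 ^ (p - 1) * χ τ1 = 1 * χ τ1 := by
      rw [← pow_succ, Nat.sub_add_cancel hp.one_lt.le, h3, one_mul]
    exact mul_right_cancel e
  -- decompose `τ` and `τ0`
  obtain ⟨a, ha⟩ := hgen τ hτ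
  obtain ⟨b, hb⟩ := hgen τ0 hτ0
  have hwa : ((τ1 ^ a)⁻¹ * τ) ζ = ζ := wild_fix_root hζ hζM ha.2
  have hwb : ((τ1 ^ b)⁻¹ * τ0) ζ = ζ := wild_fix_root hζ hζM hb.2
  obtain ⟨m1, hm1⟩ := exists_map_eq_pow hζ τ1
  have ea : ζ ^ (m1 ^ a) = ζ := by
    have h : (τ1 ^ a) (((τ1 ^ a)⁻¹ * τ) ζ) = (τ1 ^ a) ζ := by rw [hwa]
    rw [← AlgEquiv.mul_apply, mul_inv_cancel_left, hτζ, pow_apply_root τ1 hm1 a] at h
    exact h.symm
  have eb : ζ ^ (m1 ^ b) = ζ ^ g0 := by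
    have h : (τ1 ^ b) (((τ1 ^ b)⁻¹ * τ0) ζ) = (τ1 ^ b) ζ := by rw [hwb]
    rw [← AlgEquiv.mul_apply, mul_inv_cancel_left, hτ0ζ, pow_apply_root τ1 hm1 b] at h
    exact h.symm
  have hA : (m1 : ZMod p) ^ a = 1 := by
    have h := (pow_eq_pow_iff_zmod hζ (m1 ^ a) 1).mp (by rw [ea, pow_one])
    rwa [Nat.cast_pow, Nat.cast_one] at h
  have hB : (m1 : ZMod p) ^ b = (g0 : ZMod p) := by
    have h := (pow_eq_pow_iff_zmod hζ (m1 ^ b) g0).mp eb
    rwa [Nat.cast_pow] at h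
  have hdvd : (p - 1) ∣ a := by
    rw [← hg0, ← hB]
    exact (orderOf_pow_dvd b).trans (orderOf_dvd_of_pow_eq_one hA)
  obtain ⟨c, rfl⟩ := hdvd
  have h5 := hwild _ (WildFin.mem_wildAt.mpr ha.2)
  rw [map_mul, map_inv, map_pow, pow_mul, h4, one_pow, inv_one, one_mul] at h5
  exact h5

/-- Common part of the two forms of the clause on the fixing subgroup: `σ` fixes `ζ` and `ξ` and
is `s ^ j * τ` on `M`, with `s` a Frobenius on `M` and `τ` inertial. -/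
theorem fix_core (hWild : LGWildStatement) {ζ : PadicAlgCl p}
    (hζ : IsPrimitiveRoot ζ p) (M : IntermediateField ℚ_[p] (PadicAlgCl p)) [Normal ℚ_[p] M]
    [FiniteDimensional ℚ_[p] M] (hζM : ζ ∈ M) {N : ℕ} (hN0 : 0 < N) (hN : (Nat.card k - 1) ∣ N)
    {ξ : PadicAlgCl p} (hξM : ξ ∈ M) (hξ : IsPrimitiveRoot ξ (p ^ N - 1))
    {τ0 : Gp p} {g0 : ℕ} (hτ0 : IsInertial p τ0) (hτ0ζ : τ0 ζ = ζ ^ g0)
    (hg0 : orderOf (g0 : ZMod p) = p - 1) (χ : Gp p →* kˣ)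
    (hM : ∀ σ : Gp p, (∀ x ∈ M, σ x = x) → χ σ = 1)
    {σ : Gp p} (hσζ : σ ζ = ζ) (hσξ : σ ξ = ξ) {s τ : Gp p} {j : ℕ}
    (hs : ∀ x ∈ M, ‖x‖ ≤ 1 → ‖s x - x ^ p‖ < 1) (hτ : IsInertial p τ)
    (hστ : ∀ x ∈ M, σ x = (s ^ j) (τ x)) : χ σ = 1 := by
  have hp : p.Prime := Fact.out
  obtain ⟨hn, hn0⟩ := not_dvd_pow_sub_one (p := p) hN0
  -- the action on `ξ`
  have hτξ : τ ξ = ξ := inertial_fix_root hτ hn hξ.pow_eq_one
  have hsξ : s ξ = ξ ^ p := frob_root hs hn hξM hξ.pow_eq_one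
  have h1 : ξ ^ (p ^ j) = ξ := by
    have h := hστ ξ hξM
    rw [hτξ, pow_apply_root s hsξ j, hσξ] at h
    exact h.symm
  have hNj : N ∣ j := by
    have hξ0 : ξ ≠ 0 := hξ.ne_zero hn0
    have hpos : 1 ≤ p ^ j := Nat.one_le_pow _ _ hp.pos
    have h2 : ξ ^ (p ^ j - 1) = 1 := by
      have h3 : ξ ^ (p ^ j - 1) * ξ = 1 * ξ := by
        rw [← pow_succ, Nat.sub_add_cancel hpos, h1, one_mul]
      exact mul_right_cancel₀ hξ0 h3
    exact dvd_of_pow_sub_one_dvd hp.two_le ((hξ.pow_eq_one_iff_dvd _).mp h2)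
  -- the action on `ζ`
  have hp1 : (p - 1) ∣ j := (sub_one_dvd_card_sub_one (p := p) k).trans (hN.trans hNj)
  have hsjζ : (s ^ j) ζ = ζ := pow_fix_root hζ s hp1
  have hτζ : τ ζ = ζ := by
    have h := hστ ζ hζM
    rw [hσζ] at h
    have h5 : (s ^ j) (τ ζ) = (s ^ j) ζ := by rw [← h, hsjζ]
    exact (s ^ j).injective h5
  -- conclusion
  have hχτ : χ τ = 1 := inertia_clause k hWild hζ M hζM hτ0 hτ0ζ hg0 χ hM hτ hτζ
  have hχs : χ s ^ j = 1 := by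
    obtain ⟨c, hc⟩ := hN.trans hNj
    rw [hc, pow_mul, ← Nat.card_units, pow_card_eq_one', one_pow]
  have hχσ : χ σ = χ (s ^ j * τ) :=
    map_eq_of_agree χ hM (fun x hx => by rw [AlgEquiv.mul_apply]; exact hστ x hx)
  rw [hχσ, map_mul, map_pow, hχs, hχτ, one_mul]

/-- **The clause on the fixing subgroup, `LGFrob` form.**  A character of finite level kills
every `σ` fixing `ζ` and one root of unity `ξ` of order `p ^ N - 1`, `(|k| - 1) ∣ N`. -/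
theorem fix_clause (hWild : LGWildStatement) (hFrob : LGFrobStatement) {ζ : PadicAlgCl p}
    (hζ : IsPrimitiveRoot ζ p) (M : IntermediateField ℚ_[p] (PadicAlgCl p)) [Normal ℚ_[p] M]
    [FiniteDimensional ℚ_[p] M] (hζM : ζ ∈ M) {N : ℕ} (hN0 : 0 < N) (hN : (Nat.card k - 1) ∣ N)
    {ξ : PadicAlgCl p} (hξM : ξ ∈ M) (hξ : IsPrimitiveRoot ξ (p ^ N - 1))
    {τ0 : Gp p} {g0 : ℕ} (hτ0 : IsInertial p τ0) (hτ0ζ : τ0 ζ = ζ ^ g0)
    (hg0 : orderOf (g0 : ZMod p) = p - 1) (χ : Gp p →* kˣ)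
    (hM : ∀ σ : Gp p, (∀ x ∈ M, σ x = x) → χ σ = 1)
    {σ : Gp p} (hσζ : σ ζ = ζ) (hσξ : σ ξ = ξ) : χ σ = 1 := by
  obtain ⟨s, -, hs, hdec⟩ := hFrob p ⊥ M bot_le
  rw [card_residueField_bot] at hs
  obtain ⟨j, τ, hτ, -, hστ⟩ := hdec σ (by
    rw [IntermediateField.fixingSubgroup_bot]
    exact Subgroup.mem_top σ)
  exact fix_core k hWild hζ M hζM hN0 hN hξM hξ hτ0 hτ0ζ hg0 χ hM hσζ hσξ hs hτ hστ

/-- **The clause on the fixing subgroup, `LGKey` form.** -/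
theorem fix_clause_key (hWild : LGWildStatement) (hKey : LGKeyStatement) {ζ : PadicAlgCl p}
    (hζ : IsPrimitiveRoot ζ p) (M : IntermediateField ℚ_[p] (PadicAlgCl p)) [Normal ℚ_[p] M]
    [FiniteDimensional ℚ_[p] M] (hζM : ζ ∈ M) {N : ℕ} (hN0 : 0 < N) (hN : (Nat.card k - 1) ∣ N)
    {ξ : PadicAlgCl p} (hξM : ξ ∈ M) (hξ : IsPrimitiveRoot ξ (p ^ N - 1))
    {τ0 : Gp p} {g0 : ℕ} (hτ0 : IsInertial p τ0) (hτ0ζ : τ0 ζ = ζ ^ g0)
    (hg0 : orderOf (g0 : ZMod p) = p - 1) (χ : Gp p →* kˣ)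
    (hM : ∀ σ : Gp p, (∀ x ∈ M, σ x = x) → χ σ = 1)
    {σ : Gp p} (hσζ : σ ζ = ζ) (hσξ : σ ξ = ξ) : χ σ = 1 := by
  have hp : p.Prime := Fact.out
  obtain ⟨s, hs, hgen⟩ := WildFin.exists_frobenius M
  obtain ⟨j, hj⟩ := hgen σ
  -- `(s ^ j)⁻¹ * σ` lies in the inertia at the level `M`, hence agrees on `M` with an inertial `τ`
  have hroots : ∀ η ∈ M, ∀ n : ℕ, n.Coprime p → η ^ n = 1 → ((s ^ j)⁻¹ * σ) η = η := by
    intro η hηM n hnp hη
    have hn : ¬ p ∣ n := (Nat.Prime.coprime_iff_not_dvd hp).mp hnp.symm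
    have hn0 : n ≠ 0 := by
      rintro rfl
      exact hn (dvd_zero p)
    have h1 : (((s ^ j)⁻¹ * σ) η) ^ n = 1 := by rw [← map_pow, hη, map_one]
    exact eq_of_norm_sub_lt_one hn h1 hη
      ((WildFin.mem_inertiaAt.mp hj) η hηM (norm_root hn0 hη).le)
  obtain ⟨τ, hτ, hιτ⟩ := hKey p M ((s ^ j)⁻¹ * σ) hroots
  have hστ : ∀ x ∈ M, σ x = (s ^ j) (τ x) := by
    intro x hx
    rw [← hιτ x hx, ← AlgEquiv.mul_apply, mul_inv_cancel_left]
  exact fix_core k hWild hζ M hζM hN0 hN hξM hξ hτ0 hτ0ζ hg0 χ hM hσζ hσξ hs hτ hστ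

/-- **LR, the character half, `LGFrob` form**: the last conjunct of `Flat.LRStatement` for a
finite `K` containing `ζ` and a root of unity `ξ` of order `p ^ N - 1` with `(|k| - 1) ∣ N`,
given an inertial `τ0` acting on `ζ` through a generator of `𝔽_pˣ`. -/
theorem char_half (hWild : LGWildStatement) (hFrob : LGFrobStatement)
    {ζ : PadicAlgCl p} (hζ : IsPrimitiveRoot ζ p)
    (K : IntermediateField ℚ_[p] (PadicAlgCl p)) [FiniteDimensional ℚ_[p] K] (hζK : ζ ∈ K)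
    {N : ℕ} (hN0 : 0 < N) (hN : (Nat.card k - 1) ∣ N) {ξ : PadicAlgCl p} (hξK : ξ ∈ K)
    (hξ : IsPrimitiveRoot ξ (p ^ N - 1)) {τ0 : Gp p} {g0 : ℕ} (hτ0 : IsInertial p τ0)
    (hτ0ζ : τ0 ζ = ζ ^ g0) (hg0 : orderOf (g0 : ZMod p) = p - 1) (χ : Gp p →* kˣ)
    (hχ : ∃ L : IntermediateField ℚ_[p] (PadicAlgCl p),
      FiniteDimensional ℚ_[p] L ∧ ∀ σ : Gp p, (∀ x ∈ L, σ x = x) → χ σ = 1) :
    (∀ σ ∈ K.fixingSubgroup, χ σ = 1) ∧
      ∀ τ : Gp p, IsInertial p τ → τ ζ = ζ → χ τ = 1 := by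
  obtain ⟨L, hLfin, hL⟩ := hχ
  have := hLfin
  have hLM : L ≤ IntermediateField.normalClosure ℚ_[p] ↥(L ⊔ K) (PadicAlgCl p) :=
    le_sup_left.trans (IntermediateField.le_normalClosure (L ⊔ K))
  have hKM : K ≤ IntermediateField.normalClosure ℚ_[p] ↥(L ⊔ K) (PadicAlgCl p) :=
    le_sup_right.trans (IntermediateField.le_normalClosure (L ⊔ K))
  have hM : ∀ σ : Gp p,
      (∀ x ∈ IntermediateField.normalClosure ℚ_[p] ↥(L ⊔ K) (PadicAlgCl p), σ x = x) →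
        χ σ = 1 :=
    fun σ h => hL σ (fun x hx => h x (hLM hx))
  refine ⟨fun σ hσ => ?_, fun τ hτ hτζ => ?_⟩
  · have hfix := (IntermediateField.mem_fixingSubgroup_iff K σ).mp hσ
    exact fix_clause k hWild hFrob hζ _ (hKM hζK) hN0 hN (hKM hξK) hξ hτ0 hτ0ζ hg0 χ hM
      (hfix ζ hζK) (hfix ξ hξK)
  · exact inertia_clause k hWild hζ _ (hKM hζK) hτ0 hτ0ζ hg0 χ hM hτ hτζ

/-- **LR, the character half, `LGKey` form**: as `char_half`, from `Flat.LGKeyStatement` instead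
of `Flat.LGFrobStatement`. -/
theorem char_half_key (hWild : LGWildStatement) (hKey : LGKeyStatement)
    {ζ : PadicAlgCl p} (hζ : IsPrimitiveRoot ζ p)
    (K : IntermediateField ℚ_[p] (PadicAlgCl p)) [FiniteDimensional ℚ_[p] K] (hζK : ζ ∈ K)
    {N : ℕ} (hN0 : 0 < N) (hN : (Nat.card k - 1) ∣ N) {ξ : PadicAlgCl p} (hξK : ξ ∈ K)
    (hξ : IsPrimitiveRoot ξ (p ^ N - 1)) {τ0 : Gp p} {g0 : ℕ} (hτ0 : IsInertial p τ0)
    (hτ0ζ : τ0 ζ = ζ ^ g0) (hg0 : orderOf (g0 : ZMod p) = p - 1) (χ : Gp p →* kˣ)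
    (hχ : ∃ L : IntermediateField ℚ_[p] (PadicAlgCl p),
      FiniteDimensional ℚ_[p] L ∧ ∀ σ : Gp p, (∀ x ∈ L, σ x = x) → χ σ = 1) :
    (∀ σ ∈ K.fixingSubgroup, χ σ = 1) ∧
      ∀ τ : Gp p, IsInertial p τ → τ ζ = ζ → χ τ = 1 := by
  obtain ⟨L, hLfin, hL⟩ := hχ
  have := hLfin
  have hLM : L ≤ IntermediateField.normalClosure ℚ_[p] ↥(L ⊔ K) (PadicAlgCl p) :=
    le_sup_left.trans (IntermediateField.le_normalClosure (L ⊔ K))
  have hKM : K ≤ IntermediateField.normalClosure ℚ_[p] ↥(L ⊔ K) (PadicAlgCl p) :=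
    le_sup_right.trans (IntermediateField.le_normalClosure (L ⊔ K))
  have hM : ∀ σ : Gp p,
      (∀ x ∈ IntermediateField.normalClosure ℚ_[p] ↥(L ⊔ K) (PadicAlgCl p), σ x = x) →
        χ σ = 1 :=
    fun σ h => hL σ (fun x hx => h x (hLM hx))
  refine ⟨fun σ hσ => ?_, fun τ hτ hτζ => ?_⟩
  · have hfix := (IntermediateField.mem_fixingSubgroup_iff K σ).mp hσ
    exact fix_clause_key k hWild hKey hζ _ (hKM hζK) hN0 hN (hKM hξK) hξ hτ0 hτ0ζ hg0 χ hM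
      (hfix ζ hζK) (hfix ξ hξK)
  · exact inertia_clause k hWild hζ _ (hKM hζK) hτ0 hτ0ζ hg0 χ hM hτ hτζ

/-- **LR, the character half for `K ⊇ unram ⊥ (|k| - 1)`** (`LGKey` form): the last conjunct of
`Flat.LRStatement` for every finite `K` containing `ζ` and the unramified extension of degree
`|k| - 1`. -/
theorem char_half_unram (hWild : LGWildStatement) (hKey : LGKeyStatement)
    {ζ : PadicAlgCl p} (hζ : IsPrimitiveRoot ζ p)
    (K : IntermediateField ℚ_[p] (PadicAlgCl p)) [FiniteDimensional ℚ_[p] K] (hζK : ζ ∈ K)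
    (hEK : unram (⊥ : IntermediateField ℚ_[p] (PadicAlgCl p)) (Nat.card k - 1) ≤ K)
    {τ0 : Gp p} {g0 : ℕ} (hτ0 : IsInertial p τ0)
    (hτ0ζ : τ0 ζ = ζ ^ g0) (hg0 : orderOf (g0 : ZMod p) = p - 1) (χ : Gp p →* kˣ)
    (hχ : ∃ L : IntermediateField ℚ_[p] (PadicAlgCl p),
      FiniteDimensional ℚ_[p] L ∧ ∀ σ : Gp p, (∀ x ∈ L, σ x = x) → χ σ = 1) :
    (∀ σ ∈ K.fixingSubgroup, χ σ = 1) ∧
      ∀ τ : Gp p, IsInertial p τ → τ ζ = ζ → χ τ = 1 := by
  have hN0 : 0 < Nat.card k - 1 := by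
    have h := Finite.one_lt_card (α := k)
    omega
  have hξ := isPrimitiveRoot_zeta (⊥ : IntermediateField ℚ_[p] (PadicAlgCl p)) hN0
  rw [card_residueField_bot] at hξ
  exact char_half_key k hWild hKey hζ K hζK hN0 dvd_rfl (hEK (zeta_mem_unram _ _)) hξ hτ0 hτ0ζ
    hg0 χ hχ

end Clauses

end Fermat.Agent.S56.LF.TameRChar
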