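import Mathlib
import Fermat.Agent.S56.Flat.Defs
import Fermat.Agent.S56.LF.FlatKummer
import Fermat.Agent.S56.LF.ThreeStepFixB
import Fermat.Agent.S56.LF.CocDict
import Fermat.Agent.S56.LF.TopTri

/-!
# S56, brick LF: the induced case of LF-top, up to the counts

Assembly of the three-step argument in shape (I) (`LF/ThreeStepFixB.lean`) in the vocabulary of
`Flat/Defs.lean`, through the dictionary `LF/CocDict.lean`.

`r` is diagonal on `G_{F0}` and antidiagonal outside; `K ⊇ F0` is a `Gal`-stable finite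
extension containing `ζ_p` on whose Galois group the two diagonal characters are trivial, with
`σ ^ n0 ∈ G_K` for all `σ` and `n0` prime to `p`.

* `lfTop_induced_of` : the bound of `LFTopStatement`, given a finite-dimensional space `Hγ` of
  dimension `≤ 1` receiving the lower left entries (on `G_K`) of the flat classes, and the
  vanishing on `G_K` of their upper left entries (pure group theory: no `ζ`, no level).
* `lfTop_induced` : the case `Hγ = HSpace p k F0 K ζ _ (ψ'/ψ)`.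
-/

set_option autoImplicit false

noncomputable section

namespace Fermat.Agent.S56.LF.TopIndTwin

open Matrix Module Fermat.Agent.S56.Flat Fermat.Agent.S56.LF.FlatKummer
open Fermat.Agent.S56.LF.ThreeStep Fermat.Agent.S56.LF.CocDict

variable {p : ℕ} [Fact p.Prime] {k : Type} [Field k]

/-- The first row of an invertible matrix `r σ` is not zero. -/
theorem row_ne_zero (r : Gp p →* Matrix (Fin 2) (Fin 2) k) (σ : Gp p)
    (h00 : r σ 0 0 = 0) (h01 : r σ 0 1 = 0) : False := by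
  have h := congrFun (congrFun (r_mul_r_inv r σ) 0) 0
  rw [Matrix.mul_apply, Fin.sum_univ_two, h00, h01, zero_mul, zero_mul, add_zero,
    Matrix.one_apply_eq] at h
  exact zero_ne_one h

/-- The stabiliser of a `Gal`-stable field is stable under conjugation. -/
theorem conj_mem_fixingSubgroup (K : IntermediateField ℚ_[p] (PadicAlgCl p))
    (hstab : ∀ σ : Gp p, ∀ x ∈ K, σ x ∈ K) (σ g : Gp p) (hg : g ∈ K.fixingSubgroup) :
    σ * g * σ⁻¹ ∈ K.fixingSubgroup := by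
  rw [IntermediateField.mem_fixingSubgroup_iff] at hg ⊢
  intro x hx
  have h1 : σ⁻¹ x ∈ K := hstab σ⁻¹ x hx
  show σ (g (σ⁻¹ x)) = x
  rw [hg _ h1]
  show (σ * σ⁻¹) x = x
  rw [mul_inv_cancel]
  rfl

/-- **LF-top in the induced shape, up to the counts, general `Hγ`.** -/
theorem lfTop_induced_of (hp2 : p ≠ 2) [CharP k p]
    (r : Gp p →* Matrix (Fin 2) (Fin 2) k)
    (F0 : IntermediateField ℚ_[p] (PadicAlgCl p))
    (hdiag : ∀ σ ∈ F0.fixingSubgroup, r σ 1 0 = 0 ∧ r σ 0 1 = 0)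
    (hanti : ∀ σ : Gp p, σ ∉ F0.fixingSubgroup → r σ 0 0 = 0 ∧ r σ 1 1 = 0)
    (hne : ∃ τ : Gp p, r τ 0 0 ≠ r τ 1 1)
    (F : Gp p) (hF : F ∉ F0.fixingSubgroup)
    (Cs : Submodule k (Gp p → Matrix (Fin 2) (Fin 2) k))
    (hder : ∀ d ∈ Cs, ∀ σ τ : Gp p, d (σ * τ) = d σ * r τ + r σ * d τ)
    (htr : ∀ d ∈ Cs, ∀ σ : Gp p, (d σ * r σ⁻¹).trace = 0)
    (hflat : ∀ d ∈ Cs, d ∉ Inn (p := p) r →
      FlatLocal p ((Fin 2 → k) × (Fin 2 → k)) (liftAct r d))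
    (K : IntermediateField ℚ_[p] (PadicAlgCl p))
    (hKF0 : K.fixingSubgroup ≤ F0.fixingSubgroup)
    (hstab : ∀ σ : Gp p, ∀ x ∈ K, σ x ∈ K)
    (hK0 : ∀ g ∈ K.fixingSubgroup, r g 0 0 = 1) (hK1 : ∀ g ∈ K.fixingSubgroup, r g 1 1 = 1)
    (n0 : ℕ) (hn0 : (n0 : k) ≠ 0) (hpow : ∀ σ : Gp p, σ ^ n0 ∈ K.fixingSubgroup)
    (Hγ : Submodule k (↥K.fixingSubgroup → k)) [Module.Finite k Hγ]
    (hFγ : ∀ d : Gp p → Matrix (Fin 2) (Fin 2) k,
      (∀ σ τ : Gp p, d (σ * τ) = d σ * r τ + r σ * d τ) →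
      (∀ σ : Gp p, (d σ * r σ⁻¹).trace = 0) →
      FlatLocal p ((Fin 2 → k) × (Fin 2 → k)) (liftAct r d) →
      (fun g : ↥K.fixingSubgroup => (d (g : Gp p) * r (g : Gp p)⁻¹) 1 0) ∈ Hγ)
    (hα : ∀ d : Gp p → Matrix (Fin 2) (Fin 2) k,
      (∀ σ τ : Gp p, d (σ * τ) = d σ * r τ + r σ * d τ) →
      (∀ σ : Gp p, (d σ * r σ⁻¹).trace = 0) →
      FlatLocal p ((Fin 2 → k) × (Fin 2 → k)) (liftAct r d) →
      ∀ g ∈ K.fixingSubgroup, (d g * r g⁻¹) 0 0 = 0)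
    (hγ1 : finrank k Hγ ≤ 1) :
    finrank k (↥Cs ⧸ (Inn (p := p) r).comap Cs.subtype) ≤ 1 + finrank k (Comm0 (p := p) r) := by
  classical
  have h2 : (2 : k) ≠ 0 := by
    intro h
    have h' : ((2 : ℕ) : k) = 0 := by exact_mod_cast h
    have hdvd := (CharP.cast_eq_zero_iff k p 2).mp h'
    have hp : p.Prime := Fact.out
    exact hp2 ((Nat.prime_dvd_prime_iff_eq hp Nat.prime_two).mp hdvd)
  -- the shape: facts on the entries
  have hF00 : r F 0 0 = 0 := (hanti F hF).1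
  have hF11 : r F 1 1 = 0 := (hanti F hF).2
  have hF01 : r F 0 1 ≠ 0 := fun h01 => row_ne_zero r F hF00 h01
  have ha_ne : ∀ σ ∈ F0.fixingSubgroup, r σ 0 0 ≠ 0 := fun σ hσ h00 =>
    row_ne_zero r σ h00 (hdiag σ hσ).2
  have ha_mul : ∀ σ ∈ F0.fixingSubgroup, ∀ τ : Gp p, r (σ * τ) 0 0 = r σ 0 0 * r τ 0 0 := by
    intro σ hσ τ
    rw [map_mul, Matrix.mul_apply, Fin.sum_univ_two, (hdiag σ hσ).2, zero_mul, add_zero]
  have hd_mul : ∀ σ ∈ F0.fixingSubgroup, ∀ τ : Gp p, r (σ * τ) 1 1 = r σ 1 1 * r τ 1 1 := by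
    intro σ hσ τ
    rw [map_mul, Matrix.mul_apply, Fin.sum_univ_two, (hdiag σ hσ).1, zero_mul, zero_add]
  -- index two and normality, from the shape
  have hidx : ∀ σ : Gp p, σ ∈ F0.fixingSubgroup ∨ F⁻¹ * σ ∈ F0.fixingSubgroup := by
    intro σ
    by_cases hσ : σ ∈ F0.fixingSubgroup
    · exact Or.inl hσ
    · refine Or.inr ?_
      by_contra hFσ
      have e : σ = F * (F⁻¹ * σ) := by group
      have h01 : r σ 0 1 = 0 := by
        rw [e, map_mul, Matrix.mul_apply, Fin.sum_univ_two, hF00, (hanti _ hFσ).2, zero_mul,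
          mul_zero, add_zero]
      exact row_ne_zero r σ (hanti σ hσ).1 h01
  have hnorm : ∀ σ ∈ F0.fixingSubgroup, F⁻¹ * σ * F ∈ F0.fixingSubgroup := by
    intro σ hσ
    by_contra hcon
    have e : F * (F⁻¹ * σ * F) = σ * F := by group
    have h1 : r (F * (F⁻¹ * σ * F)) 0 1 = 0 := by
      rw [map_mul, Matrix.mul_apply, Fin.sum_univ_two, hF00, (hanti _ hcon).2, zero_mul,
        mul_zero, add_zero]
    have h3 : r (σ * F) 0 1 = r σ 0 0 * r F 0 1 := by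
      rw [map_mul, Matrix.mul_apply, Fin.sum_univ_two, (hdiag σ hσ).2, zero_mul, add_zero]
    rw [e, h3] at h1
    rcases mul_eq_zero.mp h1 with h | h
    · exact ha_ne σ hσ h
    · exact hF01 h
  have hne' : ∃ σ ∈ F0.fixingSubgroup, r σ 0 0 ≠ r σ 1 1 := by
    obtain ⟨τ, hτ⟩ := hne
    refine ⟨τ, ?_, hτ⟩
    by_contra hcon
    apply hτ
    rw [(hanti τ hcon).1, (hanti τ hcon).2]
  -- the two characters on `G_{F0}`
  have hχγ : ∀ σ ∈ F0.fixingSubgroup, ∀ τ ∈ F0.fixingSubgroup,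
      (fun σ : Gp p => r σ 1 1 / r σ 0 0) (σ * τ) =
        (fun σ : Gp p => r σ 1 1 / r σ 0 0) σ * (fun σ : Gp p => r σ 1 1 / r σ 0 0) τ := by
    intro σ hσ τ _
    show r (σ * τ) 1 1 / r (σ * τ) 0 0 = r σ 1 1 / r σ 0 0 * (r τ 1 1 / r τ 0 0)
    rw [ha_mul σ hσ τ, hd_mul σ hσ τ, mul_div_mul_comm]
  have hχβ : ∀ σ ∈ F0.fixingSubgroup, ∀ τ ∈ F0.fixingSubgroup,
      (fun σ : Gp p => r σ 0 0 / r σ 1 1) (σ * τ) =
        (fun σ : Gp p => r σ 0 0 / r σ 1 1) σ * (fun σ : Gp p => r σ 0 0 / r σ 1 1) τ := by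
    intro σ hσ τ _
    show r (σ * τ) 0 0 / r (σ * τ) 1 1 = r σ 0 0 / r σ 1 1 * (r τ 0 0 / r τ 1 1)
    rw [ha_mul σ hσ τ, hd_mul σ hσ τ, mul_div_mul_comm]
  have hχγN : ∀ g ∈ K.fixingSubgroup, (fun σ : Gp p => r σ 1 1 / r σ 0 0) g = 1 := by
    intro g hg
    show r g 1 1 / r g 0 0 = 1
    rw [hK0 g hg, hK1 g hg, div_one]
  have hχβN : ∀ g ∈ K.fixingSubgroup, (fun σ : Gp p => r σ 0 0 / r σ 1 1) g = 1 := by
    intro g hg
    show r g 0 0 / r g 1 1 = 1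
    rw [hK0 g hg, hK1 g hg, div_one]
  -- the cocycle space
  have hCZ : Cs.map ((toCoc r : _ ≃ₗ[k] _) : _ →ₗ[k] _) ≤ Z1 (rGL r) := by
    rintro _ ⟨d, hd, rfl⟩
    exact toCoc_mem_Z1 r (hder d hd) (htr d hd)
  have Fγ : ∀ c ∈ Cs.map ((toCoc r : _ ≃ₗ[k] _) : _ →ₗ[k] _), c ∉ B1 (rGL r) →
      (fun g : K.fixingSubgroup => c g 1 0) ∈ Hγ := by
    rintro _ ⟨d, hd, rfl⟩ hcB
    have hdinn : d ∉ Inn (p := p) r := fun h =>
      hcB ((mem_inn_iff_toCoc_mem_B1 r h2 d).mp h)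
    exact hFγ d (hder d hd) (htr d hd) (hflat d hd hdinn)
  have hα' : ∀ c ∈ Cs.map ((toCoc r : _ ≃ₗ[k] _) : _ →ₗ[k] _), c ∉ B1 (rGL r) →
      ∀ g ∈ K.fixingSubgroup, c g 0 0 = 0 := by
    rintro _ ⟨d, hd, rfl⟩ hcB g hg
    have hdinn : d ∉ Inn (p := p) r := fun h =>
      hcB ((mem_inn_iff_toCoc_mem_B1 r h2 d).mp h)
    exact hα d (hder d hd) (htr d hd) (hflat d hd hdinn) g hg
  -- the `Δ`-inputs
  have hΔ0 : ∀ f : Gp p → k,
      (∀ σ ∈ F0.fixingSubgroup, ∀ τ ∈ F0.fixingSubgroup, f (σ * τ) = f σ + f τ) →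
      (∀ g ∈ K.fixingSubgroup, f g = 0) → ∀ σ ∈ F0.fixingSubgroup, f σ = 0 := fun f hf hfN =>
    add_eq_zero_of_pow_on F0.fixingSubgroup K.fixingSubgroup n0 hn0 (fun σ _ => hpow σ) f hf hfN
  have hΔγ : ∀ f : Gp p → k,
      (∀ σ ∈ F0.fixingSubgroup, ∀ τ ∈ F0.fixingSubgroup,
        f (σ * τ) = f σ + (rGL r σ : Matrix (Fin 2) (Fin 2) k) 1 1 /
          (rGL r σ : Matrix (Fin 2) (Fin 2) k) 0 0 * f τ) →
      (∀ g ∈ K.fixingSubgroup, f g = 0) →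
      ∃ x : k, ∀ σ ∈ F0.fixingSubgroup, f σ = ((rGL r σ : Matrix (Fin 2) (Fin 2) k) 1 1 /
        (rGL r σ : Matrix (Fin 2) (Fin 2) k) 0 0 - 1) * x := fun f hf hfN =>
    twisted_coboundary_of_pow_on F0.fixingSubgroup K.fixingSubgroup n0 hn0 (fun σ _ => hpow σ)
      (fun σ : Gp p => r σ 1 1 / r σ 0 0) f hχγ hχγN hf hfN
  have hΔβ : ∀ f : Gp p → k,
      (∀ σ ∈ F0.fixingSubgroup, ∀ τ ∈ F0.fixingSubgroup,
        f (σ * τ) = f σ + (rGL r σ : Matrix (Fin 2) (Fin 2) k) 0 0 /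
          (rGL r σ : Matrix (Fin 2) (Fin 2) k) 1 1 * f τ) →
      (∀ g ∈ K.fixingSubgroup, f g = 0) →
      ∃ y : k, ∀ σ ∈ F0.fixingSubgroup, f σ = ((rGL r σ : Matrix (Fin 2) (Fin 2) k) 0 0 /
        (rGL r σ : Matrix (Fin 2) (Fin 2) k) 1 1 - 1) * y := fun f hf hfN =>
    twisted_coboundary_of_pow_on F0.fixingSubgroup K.fixingSubgroup n0 hn0 (fun σ _ => hpow σ)
      (fun σ : Gp p => r σ 0 0 / r σ 1 1) f hχβ hχβN hf hfN
  -- the three-step argument in shape (I)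
  obtain ⟨-, hfin⟩ := ThreeStepFixB.finrank_induced_of_entry_zero' (rGL r) F0.fixingSubgroup
    K.fixingSubgroup F (Cs.map ((toCoc r : _ ≃ₗ[k] _) : _ →ₗ[k] _))
    (fun σ hσ => (hdiag σ hσ).2) (fun σ hσ => (hdiag σ hσ).1) hF00 hF11 hKF0 hK0 hK1
    (fun g hg => conj_mem_fixingSubgroup K hstab F g hg) hidx hnorm hne' h2 hΔ0 hΔγ hΔβ Hγ hCZ
    Fγ hα'
  rw [finrank_quot_eq r h2 Cs]
  exact hfin.trans (hγ1.trans (Nat.le_add_right 1 _))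

/-- **LF-top in the induced shape, up to the counts.**  The case
`Hγ = HSpace p k F0 K ζ _ (ψ'/ψ)` of `lfTop_induced_of`. -/
theorem lfTop_induced (hLev : LevelStatement) (hp2 : p ≠ 2) [CharP k p]
    (r : Gp p →* Matrix (Fin 2) (Fin 2) k)
    (F0 : IntermediateField ℚ_[p] (PadicAlgCl p))
    (hdiag : ∀ σ ∈ F0.fixingSubgroup, r σ 1 0 = 0 ∧ r σ 0 1 = 0)
    (hanti : ∀ σ : Gp p, σ ∉ F0.fixingSubgroup → r σ 0 0 = 0 ∧ r σ 1 1 = 0)
    (hne : ∃ τ : Gp p, r τ 0 0 ≠ r τ 1 1)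
    (F : Gp p) (hF : F ∉ F0.fixingSubgroup)
    (Cs : Submodule k (Gp p → Matrix (Fin 2) (Fin 2) k))
    (hder : ∀ d ∈ Cs, ∀ σ τ : Gp p, d (σ * τ) = d σ * r τ + r σ * d τ)
    (htr : ∀ d ∈ Cs, ∀ σ : Gp p, (d σ * r σ⁻¹).trace = 0)
    (hflat : ∀ d ∈ Cs, d ∉ Inn (p := p) r →
      FlatLocal p ((Fin 2 → k) × (Fin 2 → k)) (liftAct r d))
    (K : IntermediateField ℚ_[p] (PadicAlgCl p)) [FiniteDimensional ℚ_[p] K]
    (ζ : PadicAlgCl p) (hζ : IsPrimitiveRoot ζ p) (hζK : ζ ∈ K)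
    (hKF0 : K.fixingSubgroup ≤ F0.fixingSubgroup)
    (hstab : ∀ σ : Gp p, ∀ x ∈ K, σ x ∈ K)
    (hK0 : ∀ g ∈ K.fixingSubgroup, r g 0 0 = 1) (hK1 : ∀ g ∈ K.fixingSubgroup, r g 1 1 = 1)
    (n0 : ℕ) (hn0 : (n0 : k) ≠ 0) (hpow : ∀ σ : Gp p, σ ^ n0 ∈ K.fixingSubgroup)
    [Module.Finite k (HSpace p k F0 K ζ hζ.pow_eq_one (fun σ => r σ 1 1 / r σ 0 0))]
    (hα : ∀ d : Gp p → Matrix (Fin 2) (Fin 2) k,
      (∀ σ τ : Gp p, d (σ * τ) = d σ * r τ + r σ * d τ) →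
      (∀ σ : Gp p, (d σ * r σ⁻¹).trace = 0) →
      FlatLocal p ((Fin 2 → k) × (Fin 2 → k)) (liftAct r d) →
      ∀ g ∈ K.fixingSubgroup, (d g * r g⁻¹) 0 0 = 0)
    (hγ1 : finrank k (HSpace p k F0 K ζ hζ.pow_eq_one (fun σ => r σ 1 1 / r σ 0 0)) ≤ 1) :
    finrank k (↥Cs ⧸ (Inn (p := p) r).comap Cs.subtype) ≤ 1 + finrank k (Comm0 (p := p) r) := by
  refine lfTop_induced_of hp2 r F0 hdiag hanti hne F hF Cs hder htr hflat K hKF0
    hstab hK0 hK1 n0 hn0 hpow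
    (HSpace p k F0 K ζ hζ.pow_eq_one (fun σ => r σ 1 1 / r σ 0 0))
    (fun d hd htrd hfl => ?_) hα hγ1
  have hcZ : toCoc r d ∈ Z1 (rGL r) := toCoc_mem_Z1 r hd htrd
  have ha_mul : ∀ σ ∈ F0.fixingSubgroup, ∀ τ : Gp p, r (σ * τ) 0 0 = r σ 0 0 * r τ 0 0 := by
    intro σ hσ τ
    rw [map_mul, Matrix.mul_apply, Fin.sum_univ_two, (hdiag σ hσ).2, zero_mul, add_zero]
  have hd_mul : ∀ σ ∈ F0.fixingSubgroup, ∀ τ : Gp p, r (σ * τ) 1 1 = r σ 1 1 * r τ 1 1 := by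
    intro σ hσ τ
    rw [map_mul, Matrix.mul_apply, Fin.sum_univ_two, (hdiag σ hσ).1, zero_mul, zero_add]
  exact TopTri.twisted_mem_HSpace_on r hLev hp2 d hfl F0 K (fun g hg => hKF0 hg) ζ hζ hζK
    (fun σ => r σ 1 1 / r σ 0 0) (fun σ => toCoc r d σ 1 0)
    (fun σ hσ τ _ => by
      show r (σ * τ) 1 1 / r (σ * τ) 0 0 = r σ 1 1 / r σ 0 0 * (r τ 1 1 / r τ 0 0)
      rw [ha_mul σ hσ τ, hd_mul σ hσ τ, mul_div_mul_comm])
    (fun g hg => by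
      show r g 1 1 / r g 0 0 = 1
      rw [hK0 g hg, hK1 g hg, div_one])
    (fun σ hσ τ _ => by
      have e : toCoc r d (σ * τ) 1 0 =
          toCoc r d σ 1 0 + ad (rGL r) σ (toCoc r d τ) 1 0 := by
        rw [hcZ.2 σ τ, Matrix.add_apply]
      exact e.trans (congrArg (fun x => toCoc r d σ 1 0 + x)
        (ad_entries_diag (rGL r) (hdiag σ hσ).1 (hdiag σ hσ).2 _).1))
    (fun g _ hg => by
      show (d g * r g⁻¹) 1 0 = 0
      rw [d_eq_zero_of_liftAct r d g hg, Matrix.zero_mul]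
      rfl)

end Fermat.Agent.S56.LF.TopIndTwin
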