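import Mathlib
import Fermat.Agent.CFT.Local.UnramPadic
import Fermat.Agent.S56.Flat.Defs
import Fermat.Agent.S56.Flat.LocalBricks
import Fermat.Agent.S56.Flat.Top
import Fermat.Agent.S56.LF.FlatKummer
import Fermat.Agent.S56.LF.EtaClassLI
import Fermat.Agent.S56.LF.TameGen
import Fermat.Agent.S56.LF.CocDict
import Fermat.Agent.S56.LF.TopTri
import Fermat.Agent.S56.LF.TopIndTwin

/-!
# S56, brick LF: the closer of the induced case `T(I)`, up to the `γ`-count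

`Flat.TIStatement` from `Flat.LIStatement` (the tame field `K` of the induced case), the level
statement `FlatKummer.LevelStatement`, and the `γ`-count for the field of `Flat.LIStatement`
(`GammaCountStatement`: the space `HSpace p k F0 K ζ _ (ψ'/ψ)` has dimension at most `1`).

Wiring: `r = diag(ψ, ψ')` on `G_{F0}` (`F0` the unramified quadratic extension), antidiagonal
outside.  The characters `ψ, ψ'` (made unit valued by `diagU`) have finite level, hence die on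
`G_K`; the inertial element with two distinct diagonal entries is transported to the tame
generator `τ0` (`TameGen.diag_ne_of_li`); conjugation by `F ∉ G_{F0}` gives `ψ' τ0 = (ψ τ0) ^ p`
and `ψ τ0 = (ψ' τ0) ^ p`; the determinant clause gives `ψ ψ' = ω̄`; the upper left entry of every
flat class vanishes on `G_{F0}` (`EtaClassLI`), and the lower left entry lies in
`HSpace p k F0 K ζ _ (ψ'/ψ)` (`TopTri.twisted_mem_HSpace_on`).  The three-step argument in the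
form `TopIndTwin.lfTop_induced_of` concludes.
-/

set_option autoImplicit false

noncomputable section

namespace Fermat.Agent.S56.LF.TopITwin

open Matrix Module Fermat.Agent.S56.Flat Fermat.Agent.S56.LF.FlatKummer
open Fermat.Agent.S56.LF.ThreeStep Fermat.Agent.S56.LF.CocDict
open Fermat.Agent.CFT.Local.UnramPadic

/-- **The `γ`-count of the induced case** (the count of `Flat.CntFinStatement` at
`(Fb, F0, K) = (F0, F0, K)`, `a = a' = 2`, `e0 = p + 1`, evaluated by the arithmetic of the pair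
set): for the field `K` and the data `ϖ, z, τ0, φ` of `Flat.LIStatement` and characters `A, D` of
`G_{F0}` with `A D = ω̄`, `D τ0 = (A τ0) ^ p`, `A τ0 = (D τ0) ^ p`, `A τ0 ≠ D τ0`, the space
`HSpace p k F0 K ζ _ (D / A)` is finite-dimensional of dimension at most `1`. -/
def GammaCountStatement : Prop :=
  ∀ (p : ℕ) [Fact p.Prime], p ≠ 2 →
  ∀ (k : Type) [Field k] [Finite k] [CharP k p]
    (K : IntermediateField ℚ_[p] (PadicAlgCl p)) [FiniteDimensional ℚ_[p] K],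
    unram (⊥ : IntermediateField ℚ_[p] (PadicAlgCl p)) 2 ≤ K →
    (∀ σ : Gp p, ∀ x ∈ K, σ x ∈ K) →
    ∀ (ζ : PadicAlgCl p) (hζ : IsPrimitiveRoot ζ p), ζ ∈ K →
    ∀ (ϖ z : PadicAlgCl p), ϖ ∈ K → ‖ϖ‖ < 1 → (∀ x ∈ K, ‖x‖ < 1 → ‖x‖ ≤ ‖ϖ‖) →
      ‖ϖ‖ ^ ((p + 1) * (p - 1)) = ‖(p : PadicAlgCl p)‖ →
      z ∈ unram (⊥ : IntermediateField ℚ_[p] (PadicAlgCl p)) 2 →
      IsPrimitiveRoot z (p ^ 2 - 1) →
    ∀ (τ0 φ : Gp p),
      τ0 ∈ (unram (⊥ : IntermediateField ℚ_[p] (PadicAlgCl p)) 2).fixingSubgroup →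
      IsInertial p τ0 → τ0 ϖ = z * ϖ →
      (∀ n : ℕ, τ0 ζ = ζ ^ n → ‖(n : PadicAlgCl p) - z ^ (p + 1)‖ < 1) →
      φ ∈ (unram (⊥ : IntermediateField ℚ_[p] (PadicAlgCl p)) 2).fixingSubgroup →
      (∀ x ∈ K, ‖x‖ ≤ 1 → ‖φ x - x ^ (p ^ 2)‖ < 1) →
    ∀ (A D χ : Gp p → kˣ),
      (∀ σ ∈ (unram (⊥ : IntermediateField ℚ_[p] (PadicAlgCl p)) 2).fixingSubgroup,
        ∀ τ ∈ (unram (⊥ : IntermediateField ℚ_[p] (PadicAlgCl p)) 2).fixingSubgroup,
          A (σ * τ) = A σ * A τ) →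
      (∀ σ ∈ (unram (⊥ : IntermediateField ℚ_[p] (PadicAlgCl p)) 2).fixingSubgroup,
        ∀ n : ℕ, σ ζ = ζ ^ n → ((A σ : kˣ) : k) * ((D σ : kˣ) : k) = n) →
      (∀ σ ∈ (unram (⊥ : IntermediateField ℚ_[p] (PadicAlgCl p)) 2).fixingSubgroup,
        χ σ * A σ = D σ) →
      ((D τ0 : kˣ) : k) = ((A τ0 : kˣ) : k) ^ p → ((A τ0 : kˣ) : k) = ((D τ0 : kˣ) : k) ^ p →
      A τ0 ≠ D τ0 →
      Module.Finite k (HSpace p k (unram (⊥ : IntermediateField ℚ_[p] (PadicAlgCl p)) 2) K ζ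
        hζ.pow_eq_one (fun σ => ((χ σ : kˣ) : k))) ∧
      Module.finrank k (HSpace p k (unram (⊥ : IntermediateField ℚ_[p] (PadicAlgCl p)) 2) K ζ
        hζ.pow_eq_one (fun σ => ((χ σ : kˣ) : k))) ≤ 1

variable {p : ℕ} [Fact p.Prime] {k : Type} [Field k]

/-- The second row of an invertible matrix `r σ` is not zero. -/
theorem row_one_ne_zero (r : Gp p →* Matrix (Fin 2) (Fin 2) k) (σ : Gp p)
    (h10 : r σ 1 0 = 0) (h11 : r σ 1 1 = 0) : False := by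
  have h := congrFun (congrFun (r_mul_r_inv r σ) 1) 1
  rw [Matrix.mul_apply, Fin.sum_univ_two, h10, h11, zero_mul, zero_mul, add_zero,
    Matrix.one_apply_eq] at h
  exact zero_ne_one h

/-- Powers of a diagonal `2 × 2` matrix. -/
theorem diag_pow (M : Matrix (Fin 2) (Fin 2) k) (h10 : M 1 0 = 0) (h01 : M 0 1 = 0) (n : ℕ) :
    (M ^ n) 0 0 = M 0 0 ^ n ∧ (M ^ n) 1 1 = M 1 1 ^ n ∧ (M ^ n) 0 1 = 0 ∧ (M ^ n) 1 0 = 0 := by
  induction n with
  | zero => simp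
  | succ n ih =>
    obtain ⟨i1, i2, i3, i4⟩ := ih
    rw [pow_succ]
    refine ⟨?_, ?_, ?_, ?_⟩
    · rw [Matrix.mul_apply, Fin.sum_univ_two, i1, i3, zero_mul, add_zero, pow_succ]
    · rw [Matrix.mul_apply, Fin.sum_univ_two, i2, i4, zero_mul, zero_add, pow_succ]
    · rw [Matrix.mul_apply, Fin.sum_univ_two, i3, h01, mul_zero, zero_mul, add_zero]
    · rw [Matrix.mul_apply, Fin.sum_univ_two, i4, h10, mul_zero, zero_mul, add_zero]

/-- If conjugation by an antidiagonal `r F` turns a diagonal `r τ0` into its `n`-th power, the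
two diagonal entries of `r τ0` are the `n`-th powers of each other. -/
theorem conj_entries (r : Gp p →* Matrix (Fin 2) (Fin 2) k) (F τ0 : Gp p) (n : ℕ)
    (hconj : r (F * τ0 * F⁻¹) = r τ0 ^ n)
    (h10 : r τ0 1 0 = 0) (h01 : r τ0 0 1 = 0) (hF00 : r F 0 0 = 0) (hF11 : r F 1 1 = 0) :
    r τ0 1 1 = r τ0 0 0 ^ n ∧ r τ0 0 0 = r τ0 1 1 ^ n := by
  have e : r F * r τ0 = r τ0 ^ n * r F := by
    have h1 : r (F * τ0 * F⁻¹) * r F = r (F * τ0) := by
      rw [← map_mul]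
      congr 1
      group
    rw [hconj] at h1
    rw [h1, map_mul]
  obtain ⟨p1, p2, p3, p4⟩ := diag_pow (r τ0) h10 h01 n
  have hb : r F 0 1 ≠ 0 := fun hb => TopIndTwin.row_ne_zero r F hF00 hb
  have hc : r F 1 0 ≠ 0 := fun hc => row_one_ne_zero r F hc hF11
  have e01 := congrFun (congrFun e 0) 1
  rw [Matrix.mul_apply, Fin.sum_univ_two, Matrix.mul_apply, Fin.sum_univ_two, hF00, zero_mul,
    zero_add, p1, p3, zero_mul, add_zero] at e01
  have e10 := congrFun (congrFun e 1) 0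
  rw [Matrix.mul_apply, Fin.sum_univ_two, Matrix.mul_apply, Fin.sum_univ_two, hF11, zero_mul,
    add_zero, p4, p2, zero_mul, zero_add] at e10
  exact ⟨mul_left_cancel₀ hb (e01.trans (mul_comm _ _)),
    mul_left_cancel₀ hc (e10.trans (mul_comm _ _))⟩

open Classical in
/-- The diagonal entry `r σ i i` as a unit (`1` when the entry vanishes). -/
def diagU (r : Gp p →* Matrix (Fin 2) (Fin 2) k) (i : Fin 2) (σ : Gp p) : kˣ :=
  if h : r σ i i = 0 then 1 else Units.mk0 (r σ i i) h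

theorem diagU_val (r : Gp p →* Matrix (Fin 2) (Fin 2) k) (i : Fin 2) (σ : Gp p)
    (h : r σ i i ≠ 0) : ((diagU r i σ : kˣ) : k) = r σ i i := by
  unfold diagU
  rw [dif_neg h]
  rfl

section OnSubgroup

variable (r : Gp p →* Matrix (Fin 2) (Fin 2) k) (G0 : Subgroup (Gp p))
  (hdiag : ∀ σ ∈ G0, r σ 1 0 = 0 ∧ r σ 0 1 = 0)

include hdiag

theorem diag_ne_zero (i : Fin 2) (σ : Gp p) (hσ : σ ∈ G0) : r σ i i ≠ 0 := by
  intro h0
  fin_cases i
  · exact TopIndTwin.row_ne_zero r σ h0 (hdiag σ hσ).2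
  · exact row_one_ne_zero r σ (hdiag σ hσ).1 h0

theorem diag_mul (i : Fin 2) (σ : Gp p) (hσ : σ ∈ G0) (τ : Gp p) :
    r (σ * τ) i i = r σ i i * r τ i i := by
  fin_cases i
  · show r (σ * τ) 0 0 = r σ 0 0 * r τ 0 0
    rw [map_mul, Matrix.mul_apply, Fin.sum_univ_two, (hdiag σ hσ).2, zero_mul, add_zero]
  · show r (σ * τ) 1 1 = r σ 1 1 * r τ 1 1
    rw [map_mul, Matrix.mul_apply, Fin.sum_univ_two, (hdiag σ hσ).1, zero_mul, zero_add]

theorem diagU_val_on (i : Fin 2) (σ : Gp p) (hσ : σ ∈ G0) :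
    ((diagU r i σ : kˣ) : k) = r σ i i :=
  diagU_val r i σ (diag_ne_zero r G0 hdiag i σ hσ)

theorem diagU_mul (i : Fin 2) (σ : Gp p) (hσ : σ ∈ G0) (τ : Gp p) (hτ : τ ∈ G0) :
    diagU r i (σ * τ) = diagU r i σ * diagU r i τ := by
  apply Units.ext
  rw [Units.val_mul, diagU_val_on r G0 hdiag i _ (mul_mem hσ hτ), diagU_val_on r G0 hdiag i σ hσ,
    diagU_val_on r G0 hdiag i τ hτ, diag_mul r G0 hdiag i σ hσ τ]

theorem diagU_eq_one (i : Fin 2) (σ : Gp p) (hσ : σ ∈ G0) (h1 : r σ = 1) :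
    diagU r i σ = 1 := by
  apply Units.ext
  rw [diagU_val_on r G0 hdiag i σ hσ, h1, Matrix.one_apply_eq, Units.val_one]

end OnSubgroup

/-- **`T(I)` from `LI`, the level statement and the `γ`-count.** -/
theorem ti_of_gammaCount (hG : GammaCountStatement) (hLI : LIStatement)
    (hLev : LevelStatement) : TIStatement := by
  intro p _ hp2 k _ _ _ r h hdiag hanti hτ Cs hder htr _ hflat
  classical
  obtain ⟨ζ, hζ⟩ := exists_primitiveRoot (q := p) p (Fact.out : p.Prime).ne_zero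
  obtain ⟨K, hKfd, ϖ, z, τ0, φ, φ1, n0, hF0K, hζK, hK, ⟨-, hn0, hn0K⟩, hϖK, hϖ1, hϖmax, hϖp,
    hz, hzp, hτ0, hτ0I, hτ0ϖ, hω, hφ, hφK, -, hconj, hchar⟩ := hLI p hp2 k ζ hζ
  have hKF0 : K.fixingSubgroup ≤
      (unram (⊥ : IntermediateField ℚ_[p] (PadicAlgCl p)) 2).fixingSubgroup :=
    IntermediateField.fixingSubgroup_le hF0K
  obtain ⟨F, hF⟩ := EtaClassLI.exists_not_mem_fixingSubgroup_unram_two (p := p)
  -- the diagonal characters
  have hAval := diagU_val_on r _ hdiag 0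
  have hDval := diagU_val_on r _ hdiag 1
  have hA := diagU_mul r _ hdiag 0
  have hD := diagU_mul r _ hdiag 1
  obtain ⟨L, hLfd, hL⟩ := h.1
  have hAK := (hchar (diagU r 0) hA
    ⟨L, hLfd, fun σ hσ hx => diagU_eq_one r _ hdiag 0 σ hσ (hL σ hx)⟩).1
  have hDK := (hchar (diagU r 1) hD
    ⟨L, hLfd, fun σ hσ hx => diagU_eq_one r _ hdiag 1 σ hσ (hL σ hx)⟩).1
  have hK0 : ∀ g ∈ K.fixingSubgroup, r g 0 0 = 1 := by
    intro g hg
    rw [← hAval g (hKF0 hg), hAK g hg, Units.val_one]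
  have hK1 : ∀ g ∈ K.fixingSubgroup, r g 1 1 = 1 := by
    intro g hg
    rw [← hDval g (hKF0 hg), hDK g hg, Units.val_one]
  have hr : ∀ g ∈ K.fixingSubgroup, r g = 1 := by
    intro g hg
    ext i j
    fin_cases i <;> fin_cases j
    · exact hK0 g hg
    · exact (hdiag g (hKF0 hg)).2
    · exact (hdiag g (hKF0 hg)).1
    · exact hK1 g hg
  have hn0k : (n0 : k) ≠ 0 := fun h0 => hn0 ((CharP.cast_eq_zero_iff k p n0).mp h0)
  -- the tame generator has two distinct diagonal entries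
  have hne0 : r τ0 0 0 ≠ r τ0 1 1 :=
    TameGen.diag_ne_of_li r hr hK hn0 hn0K hϖK hϖ1 hϖmax hϖp hz hzp hτ0 hτ0I hτ0ϖ
      (hdiag τ0 hτ0).1 (hdiag τ0 hτ0).2 hτ
  have hneU : diagU r 0 τ0 ≠ diagU r 1 τ0 := by
    intro hcon
    apply hne0
    rw [← hAval τ0 hτ0, ← hDval τ0 hτ0, hcon]
  -- conjugation by `F`
  have hg : (τ0 ^ p)⁻¹ * (F * τ0 * F⁻¹) ∈ K.fixingSubgroup := by
    rw [IntermediateField.mem_fixingSubgroup_iff]
    intro x hx
    show (τ0 ^ p)⁻¹ ((F * τ0 * F⁻¹) x) = x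
    rw [hconj F hF x hx]
    show ((τ0 ^ p)⁻¹ * τ0 ^ p) x = x
    rw [inv_mul_cancel]
    rfl
  have hrc : r (F * τ0 * F⁻¹) = r τ0 ^ p := by
    have e : F * τ0 * F⁻¹ = τ0 ^ p * ((τ0 ^ p)⁻¹ * (F * τ0 * F⁻¹)) :=
      (mul_inv_cancel_left _ _).symm
    rw [e, map_mul, hr _ hg, mul_one, map_pow]
  obtain ⟨hDA0, hAD0⟩ := conj_entries r F τ0 p hrc (hdiag τ0 hτ0).1 (hdiag τ0 hτ0).2
    (hanti F hF).1 (hanti F hF).2
  have hDA : ((diagU r 1 τ0 : kˣ) : k) = ((diagU r 0 τ0 : kˣ) : k) ^ p := by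
    rw [hAval τ0 hτ0, hDval τ0 hτ0]
    exact hDA0
  have hAD' : ((diagU r 0 τ0 : kˣ) : k) = ((diagU r 1 τ0 : kˣ) : k) ^ p := by
    rw [hAval τ0 hτ0, hDval τ0 hτ0]
    exact hAD0
  -- the determinant
  have hAD : ∀ σ ∈ (unram (⊥ : IntermediateField ℚ_[p] (PadicAlgCl p)) 2).fixingSubgroup,
      ∀ n : ℕ, σ ζ = ζ ^ n →
        ((diagU r 0 σ : kˣ) : k) * ((diagU r 1 σ : kˣ) : k) = n := by
    intro σ hσ n hn
    have hdet := h.2.1 σ n (fun μ hμ => by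
      obtain ⟨i, -, rfl⟩ := hζ.eq_pow_of_pow_eq_one hμ
      rw [map_pow, hn, ← pow_mul, ← pow_mul, mul_comm])
    rw [Matrix.det_fin_two, (hdiag σ hσ).2, zero_mul, sub_zero] at hdet
    rw [hAval σ hσ, hDval σ hσ]
    exact hdet
  -- the character `χ = ψ' / ψ`
  have hχ : ∀ σ ∈ (unram (⊥ : IntermediateField ℚ_[p] (PadicAlgCl p)) 2).fixingSubgroup,
      (diagU r 1 σ * (diagU r 0 σ)⁻¹) * diagU r 0 σ = diagU r 1 σ :=
    fun σ _ => inv_mul_cancel_right _ _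
  obtain ⟨hfin, hle⟩ := hG p hp2 k K hF0K hK ζ hζ hζK ϖ z hϖK hϖ1 hϖmax hϖp hz hzp τ0 φ hτ0 hτ0I
    hτ0ϖ hω hφ hφK (diagU r 0) (diagU r 1) (fun σ => diagU r 1 σ * (diagU r 0 σ)⁻¹) hA hAD hχ
    hDA hAD' hneU
  have hχval : ∀ σ ∈ (unram (⊥ : IntermediateField ℚ_[p] (PadicAlgCl p)) 2).fixingSubgroup,
      ((diagU r 1 σ * (diagU r 0 σ)⁻¹ : kˣ) : k) = r σ 1 1 / r σ 0 0 := by
    intro σ hσ
    rw [Units.val_mul, Units.val_inv_eq_inv_val, hAval σ hσ, hDval σ hσ, div_eq_mul_inv]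
  refine TopIndTwin.lfTop_induced_of hp2 r _ hdiag hanti ⟨τ0, hne0⟩ F hF Cs hder htr hflat K hKF0
    hK hK0 hK1 n0 hn0k hn0K
    (HSpace p k (unram (⊥ : IntermediateField ℚ_[p] (PadicAlgCl p)) 2) K ζ hζ.pow_eq_one
      (fun σ => ((diagU r 1 σ * (diagU r 0 σ)⁻¹ : kˣ) : k)))
    (fun d hd htrd hfl => ?_)
    (fun d hd htrd hfl g hg =>
      EtaClassLI.alpha_eq_zero_of_li_clauses hLev hp2 r d hd htrd hfl hdiag hanti K hF0K ζ hζ hζK
        hK n0 hn0 hn0K ϖ z hϖK hϖ1 hϖmax hϖp hz hzp τ0 hτ0 hτ0I hτ0ϖ g (hKF0 hg))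
    hle
  have hcZ : toCoc r d ∈ Z1 (rGL r) := toCoc_mem_Z1 r hd htrd
  exact TopTri.twisted_mem_HSpace_on r hLev hp2 d hfl _ K (fun g hg => hKF0 hg) ζ hζ hζK
    (fun σ => ((diagU r 1 σ * (diagU r 0 σ)⁻¹ : kˣ) : k)) (fun σ => toCoc r d σ 1 0)
    (fun σ hσ τ hτ' => by
      show ((diagU r 1 (σ * τ) * (diagU r 0 (σ * τ))⁻¹ : kˣ) : k) =
        ((diagU r 1 σ * (diagU r 0 σ)⁻¹ : kˣ) : k) * ((diagU r 1 τ * (diagU r 0 τ)⁻¹ : kˣ) : k)
      rw [← Units.val_mul, hA σ hσ τ hτ', hD σ hσ τ hτ', _root_.mul_inv, mul_mul_mul_comm])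
    (fun g hg => by
      show ((diagU r 1 g * (diagU r 0 g)⁻¹ : kˣ) : k) = 1
      rw [hAK g hg, hDK g hg, inv_one, mul_one, Units.val_one])
    (fun σ hσ τ _ => by
      have e : toCoc r d (σ * τ) 1 0 =
          toCoc r d σ 1 0 + ad (rGL r) σ (toCoc r d τ) 1 0 := by
        rw [hcZ.2 σ τ, Matrix.add_apply]
      have e2 := (ad_entries_diag (rGL r) (hdiag σ hσ).1 (hdiag σ hσ).2 (toCoc r d τ)).1
      show toCoc r d (σ * τ) 1 0 =
        toCoc r d σ 1 0 + ((diagU r 1 σ * (diagU r 0 σ)⁻¹ : kˣ) : k) * toCoc r d τ 1 0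
      rw [hχval σ hσ]
      exact e.trans (congrArg (fun x => toCoc r d σ 1 0 + x) e2))
    (fun g _ hg => by
      show (d g * r g⁻¹) 1 0 = 0
      rw [d_eq_zero_of_liftAct r d g hg, Matrix.zero_mul]
      rfl)

end Fermat.Agent.S56.LF.TopITwin
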