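import Mathlib
import Fermat.Agent.S56.Flat.CntFin
import Fermat.Agent.S56.LF.IndCount
import Fermat.Agent.S56.LF.TopITwin

/-!
# S56, brick LF: `T(I)` from `LI`, `CntFin` and the level statement

The `γ`-count `IndCount.gamma_count` (helper52) closes the hypothesis `GammaCountStatement` of
`TopITwin.ti_of_gammaCount`:

* `gammaCountStatement : Flat.CntFinStatement → TopITwin.GammaCountStatement`;
* `ti_of : Flat.LIStatement → Flat.CntFinStatement → FlatKummer.LevelStatement → Flat.TIStatement`.
-/

set_option autoImplicit false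

namespace Fermat.Agent.S56.LF.TopITwinExit

open Fermat.Agent.S56.Flat

/-- The `γ`-count of the induced case, from `Flat.CntFinStatement`. -/
theorem gammaCountStatement (hCnt : CntFinStatement) : TopITwin.GammaCountStatement :=
  fun _ _ hp2 k _ _ _ K _ hF0K hK ζ hζ hζK ϖ z hϖK hϖ1 hmax hpe hzF0 hz τ0 φ hτ0 hτ0I hτ0ϖ hω hφ
      hφK A D χ hA hAD hχ hDA hAD' hne =>
    IndCount.gamma_count hCnt hp2 k K hF0K hK ζ hζ hζK ϖ z hϖK hϖ1 hmax hpe hzF0 hz τ0 φ hτ0 hτ0I
      hτ0ϖ hω hφ hφK A D χ hA hAD hχ hDA hAD' hne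

/-- **`T(I)`: the flat local bound in the induced shape**, from the tame field of the induced case
(`Flat.LIStatement`), the count (`Flat.CntFinStatement`) and the level statement. -/
theorem ti_of (hLI : LIStatement) (hCnt : CntFinStatement) (hLev : FlatKummer.LevelStatement) :
    TIStatement :=
  TopITwin.ti_of_gammaCount (gammaCountStatement hCnt) hLI hLev

end Fermat.Agent.S56.LF.TopITwinExit
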