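import Mathlib
import Fermat.Agent.S56.LF.TopInduced
import Fermat.Agent.S56.LF.TameGen
import Fermat.Agent.S56.LF.IndCount

/-!
# S56, brick LF: the induced case `TIStatement` — the two seams closed

`TopInduced.ti_of_seams` reduces `Flat.TIStatement` to `Flat.LIStatement`,
`FlatKummer.LevelStatement` and two seams.  Both seams are theorems:

* `transportSeam : TopInduced.TransportSeam` — inertia acts on the tame field `K` through the
  powers of `τ0` (`TameGen.exists_pow_inv_mul_mem_fixingSubgroup`);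
* `gammaCountSeam : CntFinStatement → TopInduced.GammaCountSeam` — the count for `ψ'/ψ`
  (`IndCount.gamma_count`).

Hence `ti_of : LIStatement → CntFinStatement → LevelStatement → TIStatement`.
-/

set_option autoImplicit false

namespace Fermat.Agent.S56.LF.TopInducedClose

open Fermat.Agent.S56.Flat Fermat.Agent.S56.LF.FlatKummer

/-- **The transport seam**: every inertial element acts on `K` as a power of `τ0`. -/
theorem transportSeam : TopInduced.TransportSeam := by
  intro p _ K _ hK ϖ z τ0 n0 hϖK hϖ1 hmax hnorm _ hz hτ0I hτ0ϖ hτ0z hn0 hpow τ hτI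
  have hN : Normal ℚ_[p] K := by
    rw [IntermediateField.normal_iff_forall_map_le']
    rintro σ x ⟨y, hy, rfl⟩
    exact hK σ y hy
  rw [TameGen.succ_mul_pred_eq] at hnorm
  exact TameGen.exists_pow_inv_mul_mem_fixingSubgroup hϖK hϖ1 hmax TameGen.not_dvd_sq_sub_one
    hnorm hz (fun x _ hx1 => hτ0I x hx1) hτ0z hτ0ϖ hn0 hpow (fun x _ hx1 => hτI x hx1)

/-- **The count seam**: `dim HSpace p k F0 K ζ _ (ψ'/ψ) ≤ 1`. -/
theorem gammaCountSeam (hCnt : CntFinStatement) : TopInduced.GammaCountSeam := by
  intro p _ hp2 k _ _ _ K _ hF0K hKst ζ hζ hζK ϖ z hϖK hϖ1 hmax hpe hzF0 hz τ0 φ hτ0 hτ0I hτ0ϖ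
    hω hφ hφK A D χ hA hAD hχ hDA hAD' hne
  exact IndCount.gamma_count hCnt hp2 k K hF0K hKst ζ hζ hζK ϖ z hϖK hϖ1 hmax hpe hzF0 hz τ0 φ
    hτ0 hτ0I hτ0ϖ hω hφ hφK A D χ hA hAD hχ hDA hAD' hne

/-- **T(I)**: the flat local bound in the induced case, from the tame field `LIStatement`, the
count `CntFinStatement` and the level bound `LevelStatement`. -/
theorem ti_of (hLI : LIStatement) (hCnt : CntFinStatement) (hLev : LevelStatement) :
    TIStatement :=
  TopInduced.ti_of_seams hLI hLev transportSeam (gammaCountSeam hCnt)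

end Fermat.Agent.S56.LF.TopInducedClose
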