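import Mathlib
import Fermat.Agent.S56.LF.TopInducedSeam
import Fermat.Agent.S56.LF.IndCount

/-!
# S56, brick LF: the induced case `TIStatement` from the row Props

(helper243.)  `ti_of : LIStatement → CntFinStatement → LevelStatement → TIStatement`: the count
seam of `LF/TopInduced.lean` is `IndCount.gamma_count` (helper52), the transport seam is closed
in `LF/TopInducedSeam.lean`.
-/

set_option autoImplicit false

namespace Fermat.Agent.S56.LF.TopInducedExit

open Fermat.Agent.S56.Flat Fermat.Agent.S56.LF.FlatKummer Fermat.Agent.S56.LF.TopInduced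

/-- The count seam of `LF/TopInduced.lean` from `CntFinStatement`. -/
theorem gammaCountSeam (hCnt : CntFinStatement) : GammaCountSeam := by
  intro p _ hp2 k _ _ _ K _ hF0K hKst ζ hζ hζK ϖ z hϖK hϖ1 hmax hpe hzF0 hz τ0 φ hτ0 hτ0I hτ0ϖ hω
    hφ hφK A D χ hA hAD hχ hDA hAD' hne
  exact IndCount.gamma_count hCnt hp2 k K hF0K hKst ζ hζ hζK ϖ z hϖK hϖ1 hmax hpe hzF0 hz τ0 φ
    hτ0 hτ0I hτ0ϖ hω hφ hφK A D χ hA hAD hχ hDA hAD' hne

/-- **T(I): `TIStatement` from `LIStatement`, `CntFinStatement` and `LevelStatement`.** -/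
theorem ti_of (hLI : LIStatement) (hCnt : CntFinStatement) (hLev : LevelStatement) :
    TIStatement :=
  TopInducedSeam.ti_of_count hLI hLev (gammaCountSeam hCnt)

end Fermat.Agent.S56.LF.TopInducedExit
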