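import Fermat.Agent.CFT.Local.WildIndex

/-!
# Unit filtration versus `p`-th powers in a discrete valuation ring (S56, brick LF, row C2 core)

`O` a discrete valuation ring with uniformiser `ϖ`, `p` a prime with `p = ϖ ^ e * υ` (`υ` a unit)
and `e = e0 * (p - 1)` (as soon as `O` contains a primitive `p`-th root of unity).  `U_n` is
`Fermat.Agent.CFT.Local.principalUnits O n`.  The landed `CFT/Local/WildIndex` treats the levels
`n > e0`; this file treats the levels `n ≤ e0`:

* `exists_pow_coord_low`, `exists_pow_coord_crit` : the coordinate of `u ^ p` for `u ∈ U_n`,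
  `n < e0` (it is `a ^ p`) and `n = e0` (it is `a ^ p + υ a`);
* `pow_mem_succ` : a `p`-th power lying in `U_l`, `p ∤ l`, `l < p e0`, lies in `U_(l+1)`;
* `exists_pow_mul_mem_succ` : `U_(p m) ⊆ U_(p m + 1) · (U_m) ^ p` for `m < e0` (perfect residue
  field);
* `mem_range_pow_of_mem` : `U_(p e0 + 1)` consists of `p`-th powers (`O` complete);
* `peel` : every unit is, modulo `p`-th powers, in `U_N` or of exact level `l < N`, `p ∤ l`
  (`N ≤ p e0`).
-/

set_option autoImplicit false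

namespace Fermat.Agent.S56.LF.UnitPow

open IsLocalRing Fermat.Agent.CFT.Local

theorem mul_eq_add_mul_pred {p : ℕ} (hp : 0 < p) (e0 : ℕ) : p * e0 = e0 + e0 * (p - 1) := by
  obtain ⟨q, rfl⟩ : ∃ q, p = q + 1 := ⟨p - 1, by omega⟩
  rw [Nat.add_sub_cancel]
  ring

section LocalRing

variable {O : Type*} [CommRing O] [IsLocalRing O]

/-- `x y⁻¹ ∈ U_n` when `x - y ∈ 𝔪 ^ n`. -/
theorem mul_inv_mem_of_sub_mem {x y : Oˣ} {n : ℕ}
    (h : (x : O) - (y : O) ∈ maximalIdeal O ^ n) : x * y⁻¹ ∈ principalUnits O n := by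
  rw [mem_principalUnits]
  have h2 : (y : O) * ((y⁻¹ : Oˣ) : O) = 1 := y.mul_inv
  have h1 : ((x * y⁻¹ : Oˣ) : O) - 1 = ((x : O) - (y : O)) * ((y⁻¹ : Oˣ) : O) := by
    push_cast
    linear_combination h2
  rw [h1]
  exact Ideal.mul_mem_right _ _ h

end LocalRing

section DVR

variable {O : Type*} [CommRing O] [IsDomain O] [IsDiscreteValuationRing O]
  {ϖ : O} (hϖ : Irreducible ϖ)

include hϖ

/-- A principal unit with prescribed coordinate. -/
theorem exists_principalUnit (n : ℕ) (hn : 1 ≤ n) (a : O) :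
    ∃ u : principalUnits O n, ((u : Oˣ) : O) = 1 + ϖ ^ n * a := by
  have hmem : ϖ ^ n * a ∈ maximalIdeal O :=
    Ideal.mul_mem_right _ _ (uniformizer_pow_mem_maximalIdeal hϖ hn)
  have hu : IsUnit (1 + ϖ ^ n * a) := isUnit_one_add_of_mem O hmem
  have hmem' : hu.unit ∈ principalUnits O n := by
    rw [mem_principalUnits, mem_maximalIdeal_pow_iff hϖ]
    exact ⟨a, by simp⟩
  exact ⟨⟨hu.unit, hmem'⟩, by simp⟩

/-- Two elements of `U_n` with the same coordinate modulo `𝔪` differ by an element of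
`U_(n+1)`. -/
theorem mul_inv_mem_succ_of_residue_coord_eq (n : ℕ) (hn : 1 ≤ n) (x y : principalUnits O n)
    (h : residue O (coord hϖ n x) = residue O (coord hϖ n y)) :
    (x : Oˣ) * (y : Oˣ)⁻¹ ∈ principalUnits O (n + 1) := by
  have hker : x * y⁻¹ ∈ (gradedHom hϖ n hn).ker := by
    rw [MonoidHom.mem_ker, map_mul, map_inv, gradedHom_apply, gradedHom_apply, h, mul_inv_cancel]
  rw [ker_gradedHom, Subgroup.mem_subgroupOf] at hker
  exact hker

variable {p : ℕ} (hp : p.Prime) {e e0 : ℕ} {υ : Oˣ}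
  (hpe : (p : O) = ϖ ^ e * (υ : O)) (he : e = e0 * (p - 1))

include hp hpe he

theorem residue_prime_eq_zero (he0 : 1 ≤ e0) : residue O (p : O) = 0 := by
  have he1 : 1 ≤ e := by
    rw [he]
    exact Nat.mul_pos he0 (Nat.sub_pos_of_lt hp.one_lt)
  rw [hpe, map_mul, (residue_eq_zero_iff _).mpr (uniformizer_pow_mem_maximalIdeal hϖ he1),
    zero_mul]

/-- The coordinate of a `p`-th power below the critical level `e0 = e / (p - 1)`:
`(1 + ϖ^n a)^p = 1 + ϖ^(p n) c` with `c ≡ a^p mod 𝔪`. -/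
theorem exists_pow_coord_low (n : ℕ) (hne : n < e0) (u : principalUnits O n) :
    ∃ c : O, ((u : Oˣ) : O) ^ p = 1 + ϖ ^ (p * n) * c ∧
      residue O c = residue O (coord hϖ n u) ^ p := by
  obtain ⟨q, rfl⟩ : ∃ q, p = q + 1 := ⟨p - 1, by have := hp.pos; omega⟩
  rw [Nat.add_sub_cancel] at he
  have hq : 1 ≤ q := by have := hp.two_le; omega
  obtain ⟨d, hd⟩ : ∃ d, n + e = (q + 1) * n + 1 + d := by
    refine ⟨n + e - ((q + 1) * n + 1), ?_⟩
    have h1 : (n + 1) * q ≤ e0 * q := Nat.mul_le_mul_right q (Nat.succ_le_of_lt hne)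
    have h2 : (n + 1) * q = n * q + q := by ring
    have h3 : (q + 1) * n = n * q + n := by ring
    omega
  set a := coord hϖ n u with ha
  obtain ⟨r, hr⟩ := one_add_pow_prime_eq hp (ϖ ^ n * a)
  refine ⟨a ^ (q + 1) + ϖ ^ (1 + d) * ((υ : O) * a + (υ : O) * a * (ϖ ^ n * a) * r), ?_, ?_⟩
  · have h1 : (ϖ ^ n * a) ^ (q + 1) = ϖ ^ ((q + 1) * n) * a ^ (q + 1) := by
      rw [mul_pow, ← pow_mul, mul_comm n]
    have h2 : ϖ ^ ((q + 1) * n) * ϖ ^ (1 + d) = ϖ ^ n * ϖ ^ e := by
      rw [← pow_add, ← pow_add]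
      congr 1
      omega
    rw [coord_spec hϖ n u, hr, h1, hpe]
    linear_combination (-((υ : O) * a + (υ : O) * a * (ϖ ^ n * a) * r)) * h2
  · have h0 : residue O (ϖ ^ (1 + d)) = 0 :=
      (residue_eq_zero_iff _).mpr (uniformizer_pow_mem_maximalIdeal hϖ (by omega))
    rw [map_add, map_mul, h0, zero_mul, add_zero, map_pow]

/-- The coordinate of a `p`-th power at the critical level `e0 = e / (p - 1)`:
`(1 + ϖ^e0 a)^p = 1 + ϖ^(p e0) c` with `c ≡ a^p + υ a mod 𝔪`. -/
theorem exists_pow_coord_crit (he0 : 1 ≤ e0) (u : principalUnits O e0) :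
    ∃ c : O, ((u : Oˣ) : O) ^ p = 1 + ϖ ^ (p * e0) * c ∧
      residue O c = residue O (coord hϖ e0 u) ^ p +
        residue O (υ : O) * residue O (coord hϖ e0 u) := by
  obtain ⟨q, rfl⟩ : ∃ q, p = q + 1 := ⟨p - 1, by have := hp.pos; omega⟩
  rw [Nat.add_sub_cancel] at he
  set a := coord hϖ e0 u with ha
  obtain ⟨r, hr⟩ := one_add_pow_prime_eq hp (ϖ ^ e0 * a)
  refine ⟨a ^ (q + 1) + (υ : O) * a + ϖ ^ e0 * ((υ : O) * a * a * r), ?_, ?_⟩
  · have h1 : (ϖ ^ e0 * a) ^ (q + 1) = ϖ ^ ((q + 1) * e0) * a ^ (q + 1) := by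
      rw [mul_pow, ← pow_mul, mul_comm e0]
    have h2 : ϖ ^ ((q + 1) * e0) = ϖ ^ e0 * ϖ ^ e := by
      rw [← pow_add, he]
      congr 1
      ring
    rw [coord_spec hϖ e0 u, hr, h1, hpe, h2]
    ring
  · have h0 : residue O (ϖ ^ e0) = 0 :=
      (residue_eq_zero_iff _).mpr (uniformizer_pow_mem_maximalIdeal hϖ he0)
    rw [map_add, map_add, map_mul (residue O) (ϖ ^ e0), h0, zero_mul, add_zero, map_pow, map_mul]

/-- `u ∈ U_n → u^p ∈ U_(p n)` for `n < e0`. -/
theorem pow_mem_low (n : ℕ) (hne : n < e0) {u : Oˣ} (hu : u ∈ principalUnits O n) :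
    u ^ p ∈ principalUnits O (p * n) := by
  obtain ⟨c, hc, -⟩ := exists_pow_coord_low hϖ hp hpe he n hne ⟨u, hu⟩
  rw [mem_principalUnits, mem_maximalIdeal_pow_iff hϖ]
  refine ⟨c, ?_⟩
  rw [Units.val_pow_eq_pow_val]
  change (u : O) ^ p = _ at hc
  rw [hc]
  ring

/-- `u ∈ U_e0 → u^p ∈ U_(p e0)`. -/
theorem pow_mem_crit (he0 : 1 ≤ e0) {u : Oˣ} (hu : u ∈ principalUnits O e0) :
    u ^ p ∈ principalUnits O (p * e0) := by
  obtain ⟨c, hc, -⟩ := exists_pow_coord_crit hϖ hp hpe he he0 ⟨u, hu⟩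
  rw [mem_principalUnits, mem_maximalIdeal_pow_iff hϖ]
  refine ⟨c, ?_⟩
  rw [Units.val_pow_eq_pow_val]
  change (u : O) ^ p = _ at hc
  rw [hc]
  ring

/-- `u ∈ U_n → u^p ∈ U_l` for every `l ≤ min (p n) (p e0)` (`n ≥ 1`). -/
theorem pow_mem_of_le (n : ℕ) (hn : 1 ≤ n) {u : Oˣ} (hu : u ∈ principalUnits O n) {l : ℕ}
    (hl1 : l ≤ p * n) (hl2 : l ≤ p * e0) : u ^ p ∈ principalUnits O l := by
  rcases lt_trichotomy n e0 with h | h | h
  · exact principalUnits_le O hl1 (pow_mem_low hϖ hp hpe he n h hu)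
  · subst h
    exact principalUnits_le O hl2 (pow_mem_crit hϖ hp hpe he hn hu)
  · have hq : 0 < p - 1 := Nat.sub_pos_of_lt hp.one_lt
    have hne : e < n * (p - 1) := by
      rw [he]
      exact mul_lt_mul_of_pos_right h hq
    have h1 := pow_prime_mem_principalUnits hϖ hp hpe n hn hne hu
    refine principalUnits_le O ?_ h1
    have h2 := mul_eq_add_mul_pred hp.pos e0
    omega

/-- If `y^p ∈ U_l` with `l ≥ 1` then `y ∈ U_1` (residue characteristic `p`). -/
theorem mem_principalUnits_one_of_pow_mem (he0 : 1 ≤ e0) {y : Oˣ} {l : ℕ} (hl1 : 1 ≤ l)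
    (hy : y ^ p ∈ principalUnits O l) : y ∈ principalUnits O 1 := by
  have hp0 : residue O (p : O) = 0 := residue_prime_eq_zero hϖ hp hpe he he0
  have h1 : (y : O) ^ p - 1 ∈ maximalIdeal O := by
    have h2 : y ^ p ∈ principalUnits O 1 := principalUnits_le O hl1 hy
    rw [mem_principalUnits, pow_one, Units.val_pow_eq_pow_val] at h2
    exact h2
  have h3 : residue O (y : O) ^ p = 1 := by
    have h4 := (residue_eq_zero_iff _).mpr h1
    rw [map_sub, map_pow, map_one, sub_eq_zero] at h4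
    exact h4
  obtain ⟨r, hr⟩ := one_add_pow_prime_eq hp (residue O (y : O) - 1)
  have h5 : (residue O (y : O) - 1) ^ p = 0 := by
    have h6 : (1 + (residue O (y : O) - 1)) = residue O (y : O) := by ring
    have h7 : ((p : ℕ) : ResidueField O) = 0 := by
      rw [← hp0, map_natCast]
    rw [h6, h3, h7] at hr
    linear_combination -hr
  have h8 : residue O (y : O) - 1 = 0 := (pow_eq_zero_iff hp.ne_zero).mp h5
  rw [mem_principalUnits, pow_one, ← residue_eq_zero_iff, map_sub, map_one]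
  exact h8

/-- **LF6b (1), injectivity.**  A `p`-th power lying in `U_l`, where `p ∤ l` and `l < p e0`,
lies in `U_(l+1)`. -/
theorem pow_mem_succ {l : ℕ} (hl1 : 1 ≤ l) (hl : l < p * e0) (hpl : ¬ p ∣ l) {y : Oˣ}
    (hy : y ^ p ∈ principalUnits O l) : y ^ p ∈ principalUnits O (l + 1) := by
  have he0 : 1 ≤ e0 := by
    rcases Nat.eq_zero_or_pos e0 with h | h
    · rw [h, Nat.mul_zero] at hl
      omega
    · exact h
  have key : ∀ m : ℕ, 1 ≤ m → p * m ≤ l + p → y ∈ principalUnits O m := by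
    intro m hm
    induction m, hm using Nat.le_induction with
    | base =>
      intro _
      exact mem_principalUnits_one_of_pow_mem hϖ hp hpe he he0 hl1 hy
    | succ m hm ih =>
      intro hle
      have hle' : p * m ≤ l := by
        have : p * (m + 1) = p * m + p := by ring
        omega
      have hym : y ∈ principalUnits O m := ih (by omega)
      have hlt : p * m < l := by
        rcases Nat.lt_or_ge (p * m) l with h | h
        · exact h
        · exact absurd ⟨m, by omega⟩ hpl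
      have hme : m < e0 := by
        by_contra hcon
        have : p * e0 ≤ p * m := Nat.mul_le_mul_left p (by omega)
        omega
      obtain ⟨c, hc, hres⟩ := exists_pow_coord_low hϖ hp hpe he m hme ⟨y, hym⟩
      have hpm1 : 1 ≤ p * m := Nat.mul_pos hp.pos hm
      have hmem : y ^ p ∈ principalUnits O (p * m) := pow_mem_low hϖ hp hpe he m hme hym
      have hmem' : y ^ p ∈ principalUnits O (p * m + 1) := principalUnits_le O (by omega) hy
      have h1 := (mem_principalUnits_succ_iff hϖ (p * m) hpm1 ⟨y ^ p, hmem⟩).mp hmem'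
      have hcoord : coord hϖ (p * m) ⟨y ^ p, hmem⟩ = c := by
        apply coord_unique
        change ((y ^ p : Oˣ) : O) = _
        rw [Units.val_pow_eq_pow_val]
        exact hc
      rw [hcoord, hres] at h1
      have h2 : residue O (coord hϖ m ⟨y, hym⟩) = 0 := (pow_eq_zero_iff hp.ne_zero).mp h1
      exact (mem_principalUnits_succ_iff hϖ m hm ⟨y, hym⟩).mpr h2
  have hm0 : y ∈ principalUnits O (l / p + 1) :=
    key (l / p + 1) (Nat.le_add_left 1 _) (by
      have := Nat.mul_div_le l p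
      have h2 : p * (l / p + 1) = p * (l / p) + p := by ring
      omega)
  exact pow_mem_of_le hϖ hp hpe he (l / p + 1) (Nat.le_add_left 1 _) hm0
    (by have := Nat.lt_mul_div_succ l hp.pos; omega) (by omega)

/-- **LF6b (1)**, in the form used for the graded pieces of `B = U·(K^×)^p/(K^×)^p`: an element of
`U_l` (`p ∤ l`, `l < p e0`) that lies in `U_(l+1)` times a `p`-th power lies in `U_(l+1)`. -/
theorem mem_succ_of_mul_pow_inv_mem {l : ℕ} (hl1 : 1 ≤ l) (hl : l < p * e0) (hpl : ¬ p ∣ l)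
    {u y : Oˣ} (hu : u ∈ principalUnits O l)
    (h : u * (y ^ p)⁻¹ ∈ principalUnits O (l + 1)) : u ∈ principalUnits O (l + 1) := by
  have h1 : y ^ p ∈ principalUnits O l := by
    have h2 : (u * (y ^ p)⁻¹)⁻¹ * u ∈ principalUnits O l :=
      mul_mem (inv_mem (principalUnits_le O (Nat.le_succ l) h)) hu
    rwa [mul_inv_rev, inv_inv, inv_mul_cancel_right] at h2
  have h3 := pow_mem_succ hϖ hp hpe he hl1 hl hpl h1
  have h4 : u * (y ^ p)⁻¹ * y ^ p ∈ principalUnits O (l + 1) := mul_mem h h3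
  rwa [inv_mul_cancel_right] at h4

/-- **LF6b (2).**  For `1 ≤ m < e0` and a perfect residue field, every element of `U_(p m)` is a
`p`-th power of an element of `U_m` modulo `U_(p m + 1)`. -/
theorem exists_pow_mul_mem_succ (hperf : ∀ x : ResidueField O, ∃ y, y ^ p = x) {m : ℕ}
    (hm1 : 1 ≤ m) (hm : m < e0) {x : Oˣ} (hx : x ∈ principalUnits O (p * m)) :
    ∃ y ∈ principalUnits O m, x * (y ^ p)⁻¹ ∈ principalUnits O (p * m + 1) := by
  obtain ⟨b', hb'⟩ := hperf (residue O (coord hϖ (p * m) ⟨x, hx⟩))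
  obtain ⟨b, rfl⟩ := residue_surjective (R := O) b'
  obtain ⟨y, hy⟩ := exists_principalUnit hϖ m hm1 b
  have hycoord : coord hϖ m y = b := coord_unique hϖ m y b hy
  obtain ⟨c, hc, hres⟩ := exists_pow_coord_low hϖ hp hpe he m hm y
  have hmem : (y : Oˣ) ^ p ∈ principalUnits O (p * m) := pow_mem_low hϖ hp hpe he m hm y.2
  have hcoord : coord hϖ (p * m) ⟨(y : Oˣ) ^ p, hmem⟩ = c := by
    apply coord_unique
    change (((y : Oˣ) ^ p : Oˣ) : O) = _
    rw [Units.val_pow_eq_pow_val]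
    exact hc
  refine ⟨y, y.2, ?_⟩
  have hpm1 : 1 ≤ p * m := Nat.mul_pos hp.pos hm1
  exact mul_inv_mem_succ_of_residue_coord_eq hϖ (p * m) hpm1 ⟨x, hx⟩ ⟨(y : Oˣ) ^ p, hmem⟩
    (by rw [hcoord, hres, hycoord, hb'])

/-- **LF6b (3).**  In a complete discrete valuation ring, `U_(p e0 + 1)` consists of `p`-th
powers. -/
theorem mem_range_pow_of_mem [IsAdicComplete (maximalIdeal O) O] {x : Oˣ}
    (hx : x ∈ principalUnits O (p * e0 + 1)) : x ∈ (powMonoidHom p : Oˣ →* Oˣ).range := by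
  have hq : 0 < p - 1 := Nat.sub_pos_of_lt hp.one_lt
  have hne : e < (e0 + 1) * (p - 1) := by
    rw [he]
    exact mul_lt_mul_of_pos_right (Nat.lt_succ_self e0) hq
  have harith : e0 + 1 + e = p * e0 + 1 := by
    have h2 := mul_eq_add_mul_pred hp.pos e0
    omega
  rw [← harith] at hx
  obtain ⟨y, -, hy⟩ := exists_pow_prime_eq hϖ hp hpe (e0 + 1) (Nat.le_add_left 1 e0) hne hx
  exact MonoidHom.mem_range.mpr ⟨y, hy⟩

/-- **Peeling.**  For a perfect residue field and `N ≤ p e0`, every unit `u` is, up to a `p`-th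
power, either in `U_N` or of exact level `l` for some `1 ≤ l < N` prime to `p`. -/
theorem peel (hperf : ∀ x : ResidueField O, ∃ y, y ^ p = x) {N : ℕ} (hN : N ≤ p * e0) (u : Oˣ) :
    ∃ y : Oˣ, u * (y ^ p)⁻¹ ∈ principalUnits O N ∨
      ∃ l, 1 ≤ l ∧ l < N ∧ ¬ p ∣ l ∧ u * (y ^ p)⁻¹ ∈ principalUnits O l ∧
        u * (y ^ p)⁻¹ ∉ principalUnits O (l + 1) := by
  have key : ∀ n, n ≤ N → ∃ y : Oˣ, u * (y ^ p)⁻¹ ∈ principalUnits O n ∨
      ∃ l, 1 ≤ l ∧ l < N ∧ ¬ p ∣ l ∧ u * (y ^ p)⁻¹ ∈ principalUnits O l ∧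
        u * (y ^ p)⁻¹ ∉ principalUnits O (l + 1) := by
    intro n
    induction n with
    | zero =>
      intro _
      exact ⟨1, Or.inl (by rw [principalUnits_zero]; exact Subgroup.mem_top _)⟩
    | succ n ih =>
      intro hn
      obtain ⟨y, hy | hy⟩ := ih (by omega)
      · rcases Nat.eq_zero_or_pos n with h0 | hpos
        · subst h0
          obtain ⟨z', hz'⟩ := hperf
            ((unitsResidue O (u * (y ^ p)⁻¹) : (ResidueField O)ˣ) : ResidueField O)
          have hz'0 : z' ≠ 0 := by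
            rintro rfl
            rw [zero_pow hp.ne_zero] at hz'
            exact (unitsResidue O (u * (y ^ p)⁻¹)).ne_zero hz'.symm
          obtain ⟨z, hz⟩ := unitsResidue_surjective O (Units.mk0 z' hz'0)
          refine ⟨y * z, Or.inl ?_⟩
          change u * ((y * z) ^ p)⁻¹ ∈ principalUnits O 1
          have h1 : u * ((y * z) ^ p)⁻¹ = u * (y ^ p)⁻¹ * (z ^ p)⁻¹ := by
            rw [mul_pow, mul_inv, mul_assoc]
          have h2 : (Units.mk0 z' hz'0) ^ p = unitsResidue O (u * (y ^ p)⁻¹) := by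
            apply Units.ext
            rw [Units.val_pow_eq_pow_val, Units.val_mk0, hz']
          rw [h1, ← ker_unitsResidue O, MonoidHom.mem_ker, map_mul, map_inv, map_pow, hz, h2,
            mul_inv_cancel]
        · by_cases hdvd : p ∣ n
          · obtain ⟨m, rfl⟩ := hdvd
            have hm1 : 1 ≤ m := by
              rcases Nat.eq_zero_or_pos m with h | h
              · rw [h, Nat.mul_zero] at hpos
                omega
              · exact h
            have hm : m < e0 := by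
              by_contra hcon
              have : p * e0 ≤ p * m := Nat.mul_le_mul_left p (by omega)
              omega
            obtain ⟨z, -, hz⟩ := exists_pow_mul_mem_succ hϖ hp hpe he hperf hm1 hm hy
            refine ⟨y * z, Or.inl ?_⟩
            have h1 : u * ((y * z) ^ p)⁻¹ = u * (y ^ p)⁻¹ * (z ^ p)⁻¹ := by
              rw [mul_pow, mul_inv, mul_assoc]
            rw [h1]
            exact hz
          · by_cases hmem : u * (y ^ p)⁻¹ ∈ principalUnits O (n + 1)
            · exact ⟨y, Or.inl hmem⟩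
            · exact ⟨y, Or.inr ⟨n, Nat.succ_le_of_lt hpos, by omega, hdvd, hy, hmem⟩⟩
      · exact ⟨y, Or.inr hy⟩
  exact key N le_rfl

end DVR

section Equivariance

variable {O : Type*} [CommRing O] [IsDomain O] [IsDiscreteValuationRing O]
  {ϖ : O} (hϖ : Irreducible ϖ)

include hϖ

/-- A ring endomorphism `σ` with `σ ϖ = ϖ c` preserves the unit filtration. -/
theorem map_mem_principalUnits (σ : O →+* O) {c : O} (hc : σ ϖ = ϖ * c) {l : ℕ} {u : Oˣ}
    (hu : u ∈ principalUnits O l) : Units.map (σ : O →* O) u ∈ principalUnits O l := by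
  rw [mem_principalUnits, mem_maximalIdeal_pow_iff hϖ] at hu ⊢
  obtain ⟨a, ha⟩ := hu
  refine ⟨c ^ l * σ a, ?_⟩
  have h1 : ((Units.map (σ : O →* O) u : Oˣ) : O) = σ (u : O) := rfl
  have h2 : (u : O) = 1 + ϖ ^ l * a := by rw [← ha]; ring
  rw [h1, h2, map_add, map_one, map_mul, map_pow, hc, mul_pow]
  ring

/-- **LF6b (1), action.**  If `σ ϖ = ϖ c` then the coordinate of `σ u` (`u ∈ U_l`) is
`c ^ l * σ (coordinate of u)`. -/
theorem coord_map (σ : O →+* O) {c : O} (hc : σ ϖ = ϖ * c) (l : ℕ) (u : principalUnits O l) :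
    coord hϖ l ⟨Units.map (σ : O →* O) u, map_mem_principalUnits hϖ σ hc u.2⟩ =
      c ^ l * σ (coord hϖ l u) := by
  apply coord_unique
  change σ ((u : Oˣ) : O) = _
  rw [coord_spec hϖ l u, map_add, map_one, map_mul, map_pow, hc, mul_pow]
  ring

theorem residue_coord_map (σ : O →+* O) {c : O} (hc : σ ϖ = ϖ * c) (l : ℕ)
    (u : principalUnits O l) :
    residue O (coord hϖ l ⟨Units.map (σ : O →* O) u, map_mem_principalUnits hϖ σ hc u.2⟩) =
      residue O c ^ l * residue O (σ (coord hϖ l u)) := by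
  rw [coord_map hϖ σ hc l u, map_mul, map_pow]

end Equivariance

section CharLemmas

/-- `(1 + x)^w = 1 + w x + x² r`. -/
theorem one_add_pow_eq {R : Type*} [CommRing R] (x : R) (w : ℕ) :
    ∃ r : R, (1 + x) ^ w = 1 + w * x + x ^ 2 * r := by
  induction w with
  | zero => exact ⟨0, by simp⟩
  | succ w ih =>
    obtain ⟨r, hr⟩ := ih
    refine ⟨w + r + x * r, ?_⟩
    rw [pow_succ, hr]
    push_cast
    ring

theorem natCast_pow_char {κ : Type*} [CommRing κ] (p : ℕ) [Fact p.Prime] [CharP κ p] (w : ℕ) :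
    (w : κ) ^ p = w := by
  induction w with
  | zero => simp [zero_pow (Fact.out : p.Prime).ne_zero]
  | succ w ih => rw [Nat.cast_succ, add_pow_char, ih, one_pow]

/-- Telescoping: `℘(x + x^p + ... + x^(p^(j-1))) = x^(p^j) - x` for `℘ y = y^p - y`. -/
theorem sum_pow_sub_sum {κ : Type*} [CommRing κ] (p : ℕ) [Fact p.Prime] [CharP κ p] (x : κ)
    (j : ℕ) :
    (∑ i ∈ Finset.range j, x ^ p ^ i) ^ p - ∑ i ∈ Finset.range j, x ^ p ^ i = x ^ p ^ j - x := by
  induction j with
  | zero => simp [zero_pow (Fact.out : p.Prime).ne_zero]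
  | succ j ih =>
    rw [Finset.sum_range_succ, add_pow_char, ← pow_mul, ← pow_succ]
    linear_combination ih

/-- Every ring endomorphism of a finite field of characteristic `p` is a power of the
Frobenius. -/
theorem exists_frobenius_pow_of_ringHom {κ : Type*} [Field κ] [Finite κ] (p : ℕ) [Fact p.Prime]
    [CharP κ p] (f : κ →+* κ) : ∃ j : ℕ, ∀ x, f x = x ^ p ^ j := by
  let _ : Algebra (ZMod p) κ := ZMod.algebra κ p
  let f' : κ →ₐ[ZMod p] κ :=
    { f with
      commutes' := fun r => RingHom.congr_fun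
        (Subsingleton.elim (f.comp (algebraMap (ZMod p) κ)) (algebraMap (ZMod p) κ)) r }
  obtain ⟨n, hn⟩ := (FiniteField.bijective_frobeniusAlgHom_pow (ZMod p) κ).2 f'
  refine ⟨n, fun x => ?_⟩
  have h1 := DFunLike.congr_fun hn x
  simp only [AlgHom.coe_pow, FiniteField.coe_frobeniusAlgHom, pow_iterate, ZMod.card] at h1
  exact h1.symm

end CharLemmas

section Crit

variable {O : Type*} [CommRing O] [IsDomain O] [IsDiscreteValuationRing O]
  {ϖ : O} (hϖ : Irreducible ϖ) {p : ℕ} (hp : p.Prime) {e e0 : ℕ} {υ : Oˣ}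
  (hpe : (p : O) = ϖ ^ e * (υ : O)) (he : e = e0 * (p - 1))

include hϖ hp hpe he

/-- An element of `U_(p e0)` whose coordinate is `b^p + υ b` modulo `𝔪` is a `p`-th power
(`O` complete). -/
theorem mem_range_pow_of_coord_eq [IsAdicComplete (maximalIdeal O) O] (he0 : 1 ≤ e0)
    (x : principalUnits O (p * e0)) (b : O)
    (hb : residue O (coord hϖ (p * e0) x) =
      residue O b ^ p + residue O (υ : O) * residue O b) :
    (x : Oˣ) ∈ (powMonoidHom p : Oˣ →* Oˣ).range := by
  obtain ⟨y, hy⟩ := exists_principalUnit hϖ e0 he0 b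
  have hycoord : coord hϖ e0 y = b := coord_unique hϖ e0 y b hy
  obtain ⟨c, hc, hres⟩ := exists_pow_coord_crit hϖ hp hpe he he0 y
  have hmem : (y : Oˣ) ^ p ∈ principalUnits O (p * e0) := pow_mem_crit hϖ hp hpe he he0 y.2
  have hcoord : coord hϖ (p * e0) ⟨(y : Oˣ) ^ p, hmem⟩ = c := by
    apply coord_unique
    change (((y : Oˣ) ^ p : Oˣ) : O) = _
    rw [Units.val_pow_eq_pow_val]
    exact hc
  have hN1 : 1 ≤ p * e0 := Nat.mul_pos hp.pos he0
  have h1 : (x : Oˣ) * ((y : Oˣ) ^ p)⁻¹ ∈ principalUnits O (p * e0 + 1) :=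
    mul_inv_mem_succ_of_residue_coord_eq hϖ (p * e0) hN1 x ⟨(y : Oˣ) ^ p, hmem⟩
      (by rw [hcoord, hres, hycoord, hb])
  obtain ⟨z, hz⟩ := MonoidHom.mem_range.mp (mem_range_pow_of_mem hϖ hp hpe he h1)
  change z ^ p = _ at hz
  refine MonoidHom.mem_range.mpr ⟨z * y, ?_⟩
  change (z * (y : Oˣ)) ^ p = (x : Oˣ)
  rw [mul_pow, hz, inv_mul_cancel_right]

/-- **LF6b (4), size.**  For a complete discrete valuation ring with finite residue field,
`U_(p e0)` modulo its `p`-th powers of units has at most `p` elements. -/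
theorem card_quot_crit_le [IsAdicComplete (maximalIdeal O) O] [Finite (ResidueField O)]
    (he0 : 1 ≤ e0) :
    Nat.card (principalUnits O (p * e0) ⧸
      ((powMonoidHom p : Oˣ →* Oˣ).range.subgroupOf (principalUnits O (p * e0)))) ≤ p := by
  classical
  have hN1 : 1 ≤ p * e0 := Nat.mul_pos hp.pos he0
  have hp0 : ((p : ℕ) : ResidueField O) = 0 := by
    rw [← residue_prime_eq_zero hϖ hp hpe he he0, map_natCast]
  have : Fact p.Prime := ⟨hp⟩
  have : CharP (ResidueField O) p := (CharP.charP_iff_prime_eq_zero hp).mpr hp0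
  let ℘ : ResidueField O →+ ResidueField O :=
    AddMonoidHom.mk' (fun b => b ^ p + residue O (υ : O) * b) (by
      intro a b
      rw [add_pow_char, mul_add]
      ring)
  have h℘ : ∀ b, ℘ b = b ^ p + residue O (υ : O) * b := fun _ => rfl
  -- the kernel of `℘` has at most `p` elements
  have hker : Nat.card ℘.ker ≤ p := by
    let T : Finset (ResidueField O) :=
      insert 0 (Polynomial.nthRoots (p - 1) (-(residue O (υ : O)))).toFinset
    have hsub : ∀ b : ℘.ker, (b : ResidueField O) ∈ T := by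
      rintro ⟨b, hb⟩
      rw [AddMonoidHom.mem_ker, h℘] at hb
      by_cases hb0 : b = 0
      · exact Finset.mem_insert.mpr (Or.inl hb0)
      · refine Finset.mem_insert_of_mem (Multiset.mem_toFinset.mpr ?_)
        rw [Polynomial.mem_nthRoots (Nat.sub_pos_of_lt hp.one_lt)]
        have h1 : (b ^ (p - 1) + residue O (υ : O)) * b = 0 := by
          rw [add_mul, pow_sub_one_mul hp.ne_zero]
          exact hb
        rcases mul_eq_zero.mp h1 with h2 | h2
        · exact eq_neg_of_add_eq_zero_left h2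
        · exact absurd h2 hb0
    have h1 : Nat.card ℘.ker ≤ Nat.card T :=
      Nat.card_le_card_of_injective (fun b : ℘.ker => (⟨(b : ResidueField O), hsub b⟩ : T))
        (fun a b hab => Subtype.ext (Subtype.mk.inj hab))
    have h2 : T.card ≤ p := by
      calc T.card ≤ (Polynomial.nthRoots (p - 1) (-(residue O (υ : O)))).toFinset.card + 1 :=
            Finset.card_insert_le _ _
        _ ≤ Multiset.card (Polynomial.nthRoots (p - 1) (-(residue O (υ : O)))) + 1 :=
            Nat.add_le_add_right (Multiset.toFinset_card_le _) 1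
        _ ≤ (p - 1) + 1 := Nat.add_le_add_right (Polynomial.card_nthRoots _ _) 1
        _ = p := Nat.sub_add_cancel hp.one_le
    have h3 : Nat.card T = T.card := Nat.card_eq_finsetCard T
    rw [h3] at h1
    exact h1.trans h2
  -- the index of the image of `℘` is the order of its kernel
  have hindex : ℘.range.index ≤ p := by
    have h1 := AddSubgroup.card_mul_index ℘.range
    have h2 := AddSubgroup.card_mul_index ℘.ker
    rw [AddSubgroup.index_ker] at h2
    have h3 : 0 < Nat.card ℘.range := Nat.card_pos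
    have h4 : ℘.range.index = Nat.card ℘.ker := by
      have h5 : Nat.card ℘.range * ℘.range.index = Nat.card ℘.range * Nat.card ℘.ker := by
        rw [h1, ← h2, mul_comm]
      exact Nat.eq_of_mul_eq_mul_left h3 h5
    rw [h4]
    exact hker
  -- a surjection from `κ / ℘ κ` onto the quotient
  choose uu huu using fun b : ResidueField O =>
    gradedHom_surjective hϖ (p * e0) hN1 (Multiplicative.ofAdd b)
  let F : ResidueField O ⧸ ℘.range →
      principalUnits O (p * e0) ⧸
        ((powMonoidHom p : Oˣ →* Oˣ).range.subgroupOf (principalUnits O (p * e0))) :=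
    fun c => QuotientGroup.mk (uu (Quotient.out c))
  have hF : Function.Surjective F := by
    intro g
    obtain ⟨x, rfl⟩ := QuotientGroup.mk_surjective g
    refine ⟨QuotientAddGroup.mk (residue O (coord hϖ (p * e0) x)), ?_⟩
    obtain ⟨b', hb'⟩ : ∃ b' : ResidueField O, b' = Quotient.out
        (QuotientAddGroup.mk (residue O (coord hϖ (p * e0) x)) : ResidueField O ⧸ ℘.range) :=
      ⟨_, rfl⟩
    have h1 : (QuotientAddGroup.mk b' : ResidueField O ⧸ ℘.range) =
        QuotientAddGroup.mk (residue O (coord hϖ (p * e0) x)) := by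
      rw [hb']
      exact QuotientAddGroup.out_eq' _
    rw [QuotientAddGroup.eq] at h1
    obtain ⟨d', hd'⟩ := AddMonoidHom.mem_range.mp h1
    obtain ⟨d, rfl⟩ := residue_surjective (R := O) d'
    change QuotientGroup.mk (uu (Quotient.out
      (QuotientAddGroup.mk (residue O (coord hϖ (p * e0) x)) : ResidueField O ⧸ ℘.range))) =
        QuotientGroup.mk x
    rw [← hb', QuotientGroup.eq, Subgroup.mem_subgroupOf]
    have h2 : residue O (coord hϖ (p * e0) ((uu b')⁻¹ * x)) =
        residue O d ^ p + residue O (υ : O) * residue O d := by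
      have h3 : gradedHom hϖ (p * e0) hN1 ((uu b')⁻¹ * x) =
          Multiplicative.ofAdd (-b' + residue O (coord hϖ (p * e0) x)) := by
        rw [map_mul, map_inv, huu, gradedHom_apply, ofAdd_add, ofAdd_neg]
      rw [gradedHom_apply] at h3
      rw [Multiplicative.ofAdd.injective h3, ← hd', h℘]
    exact mem_range_pow_of_coord_eq hϖ hp hpe he he0 _ d h2
  have h6 := Nat.card_le_card_of_surjective F hF
  have h7 : Nat.card (ResidueField O ⧸ ℘.range) = ℘.range.index :=
    (AddSubgroup.index_eq_card _).symm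
  rw [h7] at h6
  exact h6.trans hindex

/-- **LF6b (4), action**, with the action of `σ` on the residue field given as a power of the
Frobenius.  If `σ ζ = ζ ^ w` for a primitive `p`-th root of unity `ζ`, then `σ u ≡ u ^ w` modulo
`p`-th powers for `u ∈ U_(p e0)`. -/
theorem map_mul_pow_inv_mem_range_of_frobenius [IsAdicComplete (maximalIdeal O) O]
    (he0 : 1 ≤ e0) {ζ : O} (hζ : IsPrimitiveRoot ζ p) (σ : O →+* O) {w : ℕ} (hw : σ ζ = ζ ^ w)
    {j : ℕ} (hσ : ∀ x : O, residue O (σ x) = residue O x ^ p ^ j) {u : Oˣ}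
    (hu : u ∈ principalUnits O (p * e0)) :
    Units.map (σ : O →* O) u * (u ^ w)⁻¹ ∈ (powMonoidHom p : Oˣ →* Oˣ).range := by
  classical
  have hp0 : residue O (p : O) = 0 := residue_prime_eq_zero hϖ hp hpe he he0
  have hp0' : ((p : ℕ) : ResidueField O) = 0 := by rw [← hp0, map_natCast]
  have : Fact p.Prime := ⟨hp⟩
  have : CharP (ResidueField O) p := (CharP.charP_iff_prime_eq_zero hp).mpr hp0'
  -- `lam = ζ - 1`
  have hζp : ζ ^ p = 1 := hζ.pow_eq_one
  have hζ1 : ζ ≠ 1 := hζ.ne_one hp.one_lt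
  obtain ⟨lam, hlam⟩ : ∃ lam : O, lam = ζ - 1 := ⟨_, rfl⟩
  have hlam0 : lam ≠ 0 := by
    rw [hlam]
    exact sub_ne_zero.mpr hζ1
  have hζlam : ζ = 1 + lam := by rw [hlam]; ring
  have hlamm : lam ∈ maximalIdeal O := by
    have hζu : IsUnit ζ := hζ.isUnit hp.ne_zero
    have h1 : hζu.unit ^ p ∈ principalUnits O 1 := by
      have h2 : hζu.unit ^ p = 1 :=
        Units.ext (by rw [Units.val_pow_eq_pow_val, IsUnit.unit_spec, hζp, Units.val_one])
      rw [h2]
      exact one_mem _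
    have h3 := mem_principalUnits_one_of_pow_mem hϖ hp hpe he he0 le_rfl h1
    rw [mem_principalUnits, pow_one, IsUnit.unit_spec] at h3
    rw [hlam]
    exact h3
  have hlamres : residue O lam = 0 := (residue_eq_zero_iff _).mpr hlamm
  have hζres : residue O ζ = 1 := by rw [hζlam, map_add, map_one, hlamres, add_zero]
  -- `lam ^ p = p * lam * η` with `η ≡ -1`
  obtain ⟨r, hr⟩ := one_add_pow_prime_eq hp lam
  rw [← hζlam, hζp] at hr
  obtain ⟨η, hη⟩ : ∃ η : O, η = -(1 + lam * r) := ⟨_, rfl⟩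
  have hE1 : lam ^ p = (p : O) * lam * η := by
    rw [hη]
    linear_combination -hr
  have hηres : residue O η = -1 := by
    rw [hη, map_neg, map_add, map_one, map_mul, hlamres, zero_mul, add_zero]
  have hηu : IsUnit η := by
    rw [← residue_ne_zero_iff_isUnit, hηres]
    exact neg_ne_zero.mpr one_ne_zero
  -- the valuation of `lam` is `e0`
  obtain ⟨k, μ, hμ⟩ := IsDiscreteValuationRing.eq_unit_mul_pow_irreducible hlam0 hϖ
  have hq : 0 < p - 1 := Nat.sub_pos_of_lt hp.one_lt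
  have hE2 : lam ^ (p - 1) = (p : O) * η := by
    have h1 : lam ^ (p - 1) * lam = (p : O) * η * lam := by
      rw [pow_sub_one_mul hp.ne_zero, hE1]
      ring
    exact mul_right_cancel₀ hlam0 h1
  have hk : k = e0 := by
    have h1 : ((μ ^ (p - 1) : Oˣ) : O) * ϖ ^ (k * (p - 1)) =
        ((υ * hηu.unit : Oˣ) : O) * ϖ ^ e := by
      rw [Units.val_pow_eq_pow_val, Units.val_mul, IsUnit.unit_spec, pow_mul, ← mul_pow, ← hμ,
        hE2, hpe]
      ring
    have h2 := IsDiscreteValuationRing.unit_mul_pow_congr_pow hϖ hϖ _ _ _ _ h1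
    rw [he] at h2
    exact Nat.eq_of_mul_eq_mul_right hq h2
  rw [hk] at hμ
  have hM : (p : O) * lam = ϖ ^ (p * e0) * ((υ : O) * (μ : O)) := by
    have h1 : ϖ ^ (p * e0) = ϖ ^ e * ϖ ^ e0 := by
      rw [← pow_add]
      congr 1
      have := mul_eq_add_mul_pred hp.pos e0
      omega
    rw [hpe, hμ, h1]
    ring
  -- `u = 1 + p * lam * a`
  obtain ⟨a, ha⟩ : ∃ a : O, (u : O) = 1 + (p : O) * lam * a := by
    rw [mem_principalUnits, mem_maximalIdeal_pow_iff hϖ] at hu
    obtain ⟨a', ha'⟩ := hu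
    refine ⟨((μ⁻¹ : Oˣ) : O) * ((υ⁻¹ : Oˣ) : O) * a', ?_⟩
    have hυ' : (υ : O) * ((υ⁻¹ : Oˣ) : O) = 1 := υ.mul_inv
    have hμ' : (μ : O) * ((μ⁻¹ : Oˣ) : O) = 1 := μ.mul_inv
    rw [hM]
    linear_combination ha' - ϖ ^ (p * e0) * a' * ((μ : O) * ((μ⁻¹ : Oˣ) : O)) * hυ' -
      ϖ ^ (p * e0) * a' * hμ'
  -- `σ u`
  obtain ⟨ρ, hρ⟩ : ∃ ρ : O, ρ = ∑ i ∈ Finset.range w, ζ ^ i := ⟨_, rfl⟩
  have hρres : residue O ρ = (w : ResidueField O) := by
    rw [hρ, map_sum]
    simp [hζres]
  have hσlam : σ lam = lam * ρ := by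
    rw [hlam, map_sub, map_one, hw, hρ, mul_geom_sum]
  have hσu : σ (u : O) = 1 + (p : O) * lam * (ρ * σ a) := by
    rw [ha, map_add, map_one, map_mul, map_mul, map_natCast, hσlam]
    ring
  -- `u ^ w`
  obtain ⟨r', hr'⟩ := one_add_pow_eq ((p : O) * lam * a) w
  have huw : (u : O) ^ w =
      1 + (p : O) * lam * ((w : O) * a + (p : O) * lam * a ^ 2 * r') := by
    rw [ha, hr']
    ring
  -- the `p`-th power `(1 + lam * b) ^ p`
  obtain ⟨b, hb⟩ : ∃ b : O, b = (w : O) * ∑ i ∈ Finset.range j, a ^ p ^ i := ⟨_, rfl⟩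
  have hymem : lam * b ∈ maximalIdeal O := Ideal.mul_mem_right _ _ hlamm
  have hyu : IsUnit (1 + lam * b) := isUnit_one_add_of_mem O hymem
  obtain ⟨r₂, hr₂⟩ := one_add_pow_prime_eq hp (lam * b)
  have hyp : (1 + lam * b) ^ p =
      1 + (p : O) * lam * (b + lam * b ^ 2 * r₂ + η * b ^ p) := by
    have h3 : (lam * b) ^ p = (p : O) * lam * η * b ^ p := by rw [mul_pow, hE1]
    rw [hr₂, h3]
    ring
  -- the difference
  obtain ⟨C, hC⟩ : ∃ C : O, C = ((w : O) * a + (p : O) * lam * a ^ 2 * r') - ρ * σ a -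
      (b + lam * b ^ 2 * r₂ + η * b ^ p) -
      (p : O) * lam * (ρ * σ a) * (b + lam * b ^ 2 * r₂ + η * b ^ p) := ⟨_, rfl⟩
  have hdiff : (u : O) ^ w - σ (u : O) * (1 + lam * b) ^ p = (p : O) * lam * C := by
    rw [huw, hσu, hyp, hC]
    ring
  have hCres : residue O C = 0 := by
    have hbres : residue O b =
        (w : ResidueField O) * ∑ i ∈ Finset.range j, residue O a ^ p ^ i := by
      rw [hb, map_mul, map_natCast, map_sum]
      simp only [map_pow]
    have htel := sum_pow_sub_sum p (residue O a) j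
    have hwp := natCast_pow_char (κ := ResidueField O) p w
    have hbp : residue O b ^ p =
        (w : ResidueField O) * (∑ i ∈ Finset.range j, residue O a ^ p ^ i) ^ p := by
      rw [hbres, mul_pow, hwp]
    rw [hC]
    simp only [map_sub, map_add, map_mul, map_pow, map_natCast, hp0', hlamres, hρres, hηres, hσ]
    linear_combination (-1 : ResidueField O) * hbres + hbp + (w : ResidueField O) * htel
  have hCm : C ∈ maximalIdeal O := (residue_eq_zero_iff _).mp hCres
  obtain ⟨s, hs⟩ : ∃ s, C = ϖ * s := by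
    rw [hϖ.maximalIdeal_eq, Ideal.mem_span_singleton'] at hCm
    obtain ⟨s, hs⟩ := hCm
    exact ⟨s, by rw [← hs, mul_comm]⟩
  have hmem : (u : O) ^ w - σ (u : O) * (1 + lam * b) ^ p ∈ maximalIdeal O ^ (p * e0 + 1) := by
    rw [hdiff, hM, hs, mem_maximalIdeal_pow_iff hϖ]
    exact ⟨(υ : O) * (μ : O) * s, by ring⟩
  have hx2 : ((Units.map (σ : O →* O) u * hyu.unit ^ p : Oˣ) : O) =
      σ (u : O) * (1 + lam * b) ^ p := by
    rw [Units.val_mul, Units.val_pow_eq_pow_val, IsUnit.unit_spec]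
    rfl
  have h1 : u ^ w * (Units.map (σ : O →* O) u * hyu.unit ^ p)⁻¹ ∈
      principalUnits O (p * e0 + 1) := by
    apply mul_inv_mem_of_sub_mem
    rw [hx2, Units.val_pow_eq_pow_val]
    exact hmem
  obtain ⟨z, hz⟩ := MonoidHom.mem_range.mp (mem_range_pow_of_mem hϖ hp hpe he h1)
  change z ^ p = _ at hz
  have hgrp : ∀ A B Y : Oˣ, (A * (B * Y)⁻¹ * Y)⁻¹ = B * A⁻¹ := by
    intro A B Y
    simp only [mul_inv, inv_inv]
    rw [← mul_assoc, mul_inv_cancel_right, mul_comm]
  refine MonoidHom.mem_range.mpr ⟨(z * hyu.unit)⁻¹, ?_⟩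
  change ((z * hyu.unit)⁻¹) ^ p = _
  rw [inv_pow, mul_pow, hz]
  exact hgrp _ _ _

/-- **LF6b (4), action.**  `O` complete with finite residue field, `ζ ∈ O` a primitive `p`-th
root of unity, `σ` a ring automorphism of `O` with `σ ζ = ζ ^ w`.  Then `σ u ≡ u ^ w` modulo
`p`-th powers for every `u ∈ U_(p e0)`: the group `U_(p e0) (Oˣ)^p / (Oˣ)^p` (of order `≤ p`)
carries the action "by the cyclotomic character". -/
theorem map_mul_pow_inv_mem_range [IsAdicComplete (maximalIdeal O) O]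
    [Finite (ResidueField O)] (he0 : 1 ≤ e0) {ζ : O} (hζ : IsPrimitiveRoot ζ p) (σ : O ≃+* O)
    {w : ℕ} (hw : σ ζ = ζ ^ w) {u : Oˣ} (hu : u ∈ principalUnits O (p * e0)) :
    Units.map ((σ : O →+* O) : O →* O) u * (u ^ w)⁻¹ ∈
      (powMonoidHom p : Oˣ →* Oˣ).range := by
  have hp0' : ((p : ℕ) : ResidueField O) = 0 := by
    rw [← residue_prime_eq_zero hϖ hp hpe he he0, map_natCast]
  have : Fact p.Prime := ⟨hp⟩
  have : CharP (ResidueField O) p := (CharP.charP_iff_prime_eq_zero hp).mpr hp0'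
  obtain ⟨j, hj⟩ := exists_frobenius_pow_of_ringHom p (ResidueField.map (σ : O →+* O))
  exact map_mul_pow_inv_mem_range_of_frobenius hϖ hp hpe he he0 hζ (σ : O →+* O) hw
    (fun x => by rw [← hj, ResidueField.map_residue]) hu

end Crit

end Fermat.Agent.S56.LF.UnitPow
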