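import Fermat.Agent.S56.LF.UnitPow

/-!
# Extras for the unit filtration versus `p`-th powers (S56, brick LF, row C2)

Complements to `S56/LF/UnitPow.lean` (same setting: `O` a discrete valuation ring with uniformiser
`ϖ`, `p` a prime with `p = ϖ^e υ`, `υ` a unit); none of these is in that file.

* `exists_sub_one_eq`, `exists_eq_mul_pred` : if `O` contains a primitive `p`-th root of unity `ζ`
  and `e ≥ 1`, then `ζ - 1 = ϖ^e0 μ` (`μ` a unit) with `e0 (p - 1) = e`; this PRODUCES the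
  hypothesis `he : e = e0 * (p - 1)` of every exit of `UnitPow`;
* `exists_unit_map_uniformizer` : a ring automorphism multiplies the uniformiser by a unit (so
  `UnitPow.coord_map` applies to every ring automorphism), and `isLocalHom_of_map_uniformizer`;
* `charP_residueField`, `exists_pow_eq_residue` : for `e ≥ 1` the residue field has characteristic
  `p`, and if it is finite its `p`-power map is surjective (the `hperf` of `UnitPow`);
* `exists_pow_eq_of_high` : (`O` complete) `U_l ⊆ (U_(l-e))^p` when `p e < l (p-1)`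
  (no divisibility hypothesis on `e`);
* `exists_pow_eq_one_add` : (`O` complete) `1 + p (ζ - 1) c` is a `p`-th power as soon as
  `c ≡ z - z^p mod 𝔪` for some `z` (Artin-Schreier form of the top piece of `U / U^p`).
-/

set_option autoImplicit false

namespace Fermat.Agent.S56.LF.UnitPowExtra

open IsLocalRing Fermat.Agent.CFT.Local

section Low

variable {O : Type*} [CommRing O] [IsDomain O] [IsDiscreteValuationRing O]
  {ϖ : O} (hϖ : Irreducible ϖ) {p : ℕ} (hp : p.Prime) {e : ℕ} {υ : Oˣ}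
  (hpe : (p : O) = ϖ ^ e * (υ : O))

include hϖ hp hpe

omit hp in
/-- For `e ≥ 1` the residue field has characteristic `p`. -/
theorem natCast_residue_eq_zero (he : 1 ≤ e) : (p : ResidueField O) = 0 := by
  rw [← map_natCast (residue O), residue_eq_zero_iff, hpe]
  exact Ideal.mul_mem_right _ _ (uniformizer_pow_mem_maximalIdeal hϖ he)

/-- For `e ≥ 1` the residue field has characteristic `p`. -/
theorem charP_residueField (he : 1 ≤ e) : CharP (ResidueField O) p :=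
  (CharP.charP_iff_prime_eq_zero hp).mpr (natCast_residue_eq_zero hϖ hpe he)

/-- (`O` complete) `U_l ⊆ (U_(l-e))^p` when `p e < l (p-1)`. -/
theorem exists_pow_eq_of_high [IsAdicComplete (maximalIdeal O) O] (l : ℕ)
    (hle : p * e < l * (p - 1)) {u : Oˣ} (hu : u ∈ principalUnits O l) :
    ∃ y ∈ principalUnits O (l - e), y ^ p = u := by
  obtain ⟨q, rfl⟩ : ∃ q, p = q + 1 := ⟨p - 1, by have := hp.pos; omega⟩
  rw [Nat.add_sub_cancel] at hle
  have hq : 1 ≤ q := by have := hp.two_le; omega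
  have h1 : e * q + e < l * q := by
    have : (q + 1) * e = e * q + e := by ring
    omega
  have hel : e < l := by
    by_contra hcon
    rw [not_lt] at hcon
    have := Nat.mul_le_mul_right q hcon
    omega
  obtain ⟨n, rfl⟩ : ∃ n, l = n + e := ⟨l - e, by omega⟩
  rw [Nat.add_sub_cancel]
  have h2 : (n + e) * q = n * q + e * q := by ring
  have hn : 1 ≤ n := by omega
  have hne : e < n * (q + 1 - 1) := by
    rw [Nat.add_sub_cancel]
    omega
  exact exists_pow_prime_eq hϖ hp hpe n hn hne hu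

end Low

section Adapters

variable {O : Type*} [CommRing O] [IsDomain O] [IsDiscreteValuationRing O]

/-- A ring automorphism of a DVR multiplies a uniformiser by a unit. -/
theorem exists_unit_map_uniformizer {ϖ : O} (hϖ : Irreducible ϖ) (σ : O ≃+* O) :
    ∃ t : Oˣ, σ ϖ = ϖ * (t : O) := by
  have h1 : Irreducible (σ ϖ) := (MulEquiv.irreducible_iff σ.toMulEquiv).mpr hϖ
  obtain ⟨t, ht⟩ := IsDiscreteValuationRing.associated_of_irreducible O hϖ h1
  exact ⟨t, ht.symm⟩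

/-- The `p`-power map of a finite residue field of characteristic `p` is surjective. -/
theorem exists_pow_eq_residue {ϖ : O} (hϖ : Irreducible ϖ) {p : ℕ} (hp : p.Prime) {e : ℕ}
    {υ : Oˣ} (hpe : (p : O) = ϖ ^ e * (υ : O)) (he : 1 ≤ e) [Finite (ResidueField O)]
    (x : ResidueField O) : ∃ z, z ^ p = x := by
  have hchar : CharP (ResidueField O) p := charP_residueField hϖ hp hpe he
  have hfact : Fact p.Prime := ⟨hp⟩
  obtain ⟨z, hz⟩ := (Finite.injective_iff_surjective (f := frobenius (ResidueField O) p)).mp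
    (frobenius_inj (ResidueField O) p) x
  exact ⟨z, hz⟩

end Adapters

section Graded

variable {O : Type*} [CommRing O] [IsDomain O] [IsDiscreteValuationRing O]
  {ϖ : O} (hϖ : Irreducible ϖ)

include hϖ

/-- A ring endomorphism multiplying the uniformiser by a unit is a local homomorphism. -/
theorem isLocalHom_of_map_uniformizer (σ : O →+* O) (t : Oˣ) (hσ : σ ϖ = ϖ * (t : O)) :
    IsLocalHom σ := by
  constructor
  intro a ha
  by_contra hna
  have h1 : a ∈ maximalIdeal O := (mem_maximalIdeal a).mpr hna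
  rw [← pow_one (maximalIdeal O), mem_maximalIdeal_pow_iff hϖ] at h1
  obtain ⟨b, rfl⟩ := h1
  rw [map_mul, map_pow, hσ, pow_one] at ha
  have h2 : ϖ * (t : O) * σ b ∈ maximalIdeal O :=
    Ideal.mul_mem_right _ _ (Ideal.mul_mem_right _ _ (uniformizer_mem_maximalIdeal hϖ))
  exact (mem_maximalIdeal _).mp h2 ha

end Graded

section Algebra

/-- `(ζ - 1)^p = -p (ζ - 1) (1 + (ζ - 1) s)` for a `p`-th root of unity `ζ`. -/
theorem exists_sub_one_pow_eq {R : Type*} [CommRing R] {p : ℕ} (hp : p.Prime) {ζ : R}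
    (hζ : ζ ^ p = 1) :
    ∃ s : R, (ζ - 1) ^ p = -((p : R) * (ζ - 1) * (1 + (ζ - 1) * s)) := by
  obtain ⟨r, hr⟩ := one_add_pow_prime_eq hp (ζ - 1)
  have h1 : (1 + (ζ - 1)) ^ p = 1 := by
    rw [show (1 : R) + (ζ - 1) = ζ by ring, hζ]
  exact ⟨r, by linear_combination h1 - hr⟩

end Algebra

section Top

variable {O : Type*} [CommRing O] [IsDomain O] [IsDiscreteValuationRing O]
  {ϖ : O} (hϖ : Irreducible ϖ) {p : ℕ} (hp : p.Prime) {e : ℕ} {υ : Oˣ}
  (hpe : (p : O) = ϖ ^ e * (υ : O))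

include hϖ hp hpe

/-- For a primitive `p`-th root of unity `ζ` in `O` (`p = ϖ^e υ`, `e ≥ 1`):
`ζ - 1 = ϖ^e0 μ` with `μ` a unit and `e0 (p - 1) = e`. -/
theorem exists_sub_one_eq (he : 1 ≤ e) {ζ : O} (hζ : IsPrimitiveRoot ζ p) :
    ∃ (e0 : ℕ) (μ : Oˣ), 1 ≤ e0 ∧ ζ - 1 = ϖ ^ e0 * (μ : O) ∧ e0 * (p - 1) = e := by
  have hne : ζ - 1 ≠ 0 := sub_ne_zero.mpr (hζ.ne_one hp.one_lt)
  obtain ⟨s, hs⟩ := exists_sub_one_pow_eq hp hζ.pow_eq_one
  have hs' : (ζ - 1) ^ (p - 1) = -((p : O) * (1 + (ζ - 1) * s)) := by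
    apply mul_left_cancel₀ hne
    rw [← pow_succ', Nat.sub_add_cancel hp.pos, hs]
    ring
  obtain ⟨e0, μ, hμ⟩ := IsDiscreteValuationRing.eq_unit_mul_pow_irreducible hne hϖ
  have hpmem : (p : O) ∈ maximalIdeal O := by
    rw [hpe]
    exact Ideal.mul_mem_right _ _ (uniformizer_pow_mem_maximalIdeal hϖ he)
  have he0 : 1 ≤ e0 := by
    by_contra h
    have h0 : e0 = 0 := by omega
    rw [h0, pow_zero, mul_one] at hμ
    have h1 : IsUnit ((ζ - 1) ^ (p - 1)) := by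
      rw [hμ]
      exact μ.isUnit.pow _
    rw [hs'] at h1
    have h2 : -((p : O) * (1 + (ζ - 1) * s)) ∈ maximalIdeal O :=
      neg_mem (Ideal.mul_mem_right _ _ hpmem)
    exact (mem_maximalIdeal _).mp h2 h1
  have hlam : ζ - 1 ∈ maximalIdeal O := by
    rw [hμ]
    exact Ideal.mul_mem_left _ _ (uniformizer_pow_mem_maximalIdeal hϖ he0)
  have hunit : IsUnit (1 + (ζ - 1) * s) :=
    isUnit_one_add_of_mem O (Ideal.mul_mem_right _ _ hlam)
  have hkey : ((μ ^ (p - 1) : Oˣ) : O) * ϖ ^ (e0 * (p - 1)) =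
      ((-(υ * hunit.unit) : Oˣ) : O) * ϖ ^ e := by
    have h1 : (ζ - 1) ^ (p - 1) = ((μ ^ (p - 1) : Oˣ) : O) * ϖ ^ (e0 * (p - 1)) := by
      rw [hμ, mul_pow, ← pow_mul, Units.val_pow_eq_pow_val]
    rw [← h1, hs', hpe]
    simp only [Units.val_neg, Units.val_mul, IsUnit.unit_spec]
    ring
  have hexp := IsDiscreteValuationRing.unit_mul_pow_congr_pow hϖ hϖ _ _ _ _ hkey
  exact ⟨e0, μ, he0, by rw [hμ, mul_comm], hexp⟩

/-- If `O` contains a primitive `p`-th root of unity and `e ≥ 1`, then `e = e0 (p - 1)` with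
`e0 ≥ 1`: the hypothesis `he` of the exits of `UnitPow`. -/
theorem exists_eq_mul_pred (he : 1 ≤ e) {ζ : O} (hζ : IsPrimitiveRoot ζ p) :
    ∃ e0 : ℕ, 1 ≤ e0 ∧ e = e0 * (p - 1) := by
  obtain ⟨e0, -, he0, -, hee⟩ := exists_sub_one_eq hϖ hp hpe he hζ
  exact ⟨e0, he0, hee.symm⟩

omit [IsDomain O] [IsDiscreteValuationRing O] hϖ hp in
/-- `p (ζ - 1) = ϖ^(p e0) υ μ` when `ζ - 1 = ϖ^e0 μ` and `e0 (p-1) = e`. -/
theorem natCast_mul_sub_one_eq (hp0 : p ≠ 0) (e0 : ℕ) (he : e0 * (p - 1) = e) {ζ : O} (μ : Oˣ)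
    (hμ : ζ - 1 = ϖ ^ e0 * (μ : O)) :
    (p : O) * (ζ - 1) = ϖ ^ (p * e0) * ((υ : O) * (μ : O)) := by
  have h1 : p * e0 = e + e0 := by
    rw [← he]
    obtain ⟨q, rfl⟩ : ∃ q, p = q + 1 := ⟨p - 1, by omega⟩
    rw [Nat.add_sub_cancel]
    ring
  rw [hpe, hμ, h1, pow_add]
  ring

/-- (`O` complete) `1 + p (ζ - 1) c` is a `p`-th power as soon as `c ≡ z - z^p mod 𝔪`. -/
theorem exists_pow_eq_one_add [IsAdicComplete (maximalIdeal O) O] (e0 : ℕ) (he0 : 1 ≤ e0)
    (he : e0 * (p - 1) = e) {ζ : O} (hζ : ζ ^ p = 1) (μ : Oˣ)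
    (hμ : ζ - 1 = ϖ ^ e0 * (μ : O)) (c z : O) (hcz : c - (z - z ^ p) ∈ maximalIdeal O) :
    ∃ y : Oˣ, (y : O) ^ p = 1 + (p : O) * (ζ - 1) * c := by
  have hq : 1 ≤ p - 1 := by have := hp.two_le; omega
  obtain ⟨s, hs⟩ := exists_sub_one_pow_eq hp hζ
  have hlam : ζ - 1 ∈ maximalIdeal O := by
    rw [hμ]
    exact Ideal.mul_mem_right _ _ (uniformizer_pow_mem_maximalIdeal hϖ he0)
  have hplam := natCast_mul_sub_one_eq hpe hp.ne_zero e0 he μ hμ
  have hplam_mem : (p : O) * (ζ - 1) ∈ maximalIdeal O ^ (p * e0) := by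
    rw [hplam, mem_maximalIdeal_pow_iff hϖ]
    exact ⟨_, rfl⟩
  obtain ⟨r, hr⟩ := one_add_pow_prime_eq hp ((ζ - 1) * z)
  have hy0 : IsUnit (1 + (ζ - 1) * z) := isUnit_one_add_of_mem O (Ideal.mul_mem_right _ _ hlam)
  obtain ⟨c0, hy0p, hcc0⟩ : ∃ c0 : O, (1 + (ζ - 1) * z) ^ p = 1 + (p : O) * (ζ - 1) * c0 ∧
      c - c0 ∈ maximalIdeal O := by
    refine ⟨z - z ^ p + (ζ - 1) * (z ^ 2 * r - s * z ^ p), ?_, ?_⟩
    · have h7 : ((ζ - 1) * z) ^ p = -((p : O) * (ζ - 1) * (1 + (ζ - 1) * s)) * z ^ p := by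
        rw [mul_pow, hs]
      rw [hr, h7]
      ring
    · have h4 : c - (z - z ^ p + (ζ - 1) * (z ^ 2 * r - s * z ^ p)) =
          (c - (z - z ^ p)) - (ζ - 1) * (z ^ 2 * r - s * z ^ p) := by ring
      rw [h4]
      exact Ideal.sub_mem _ hcz (Ideal.mul_mem_right _ _ hlam)
  have hW : IsUnit (1 + (p : O) * (ζ - 1) * c) :=
    isUnit_one_add_of_mem O (Ideal.mul_mem_right _ _ (Ideal.mul_mem_left _ _ hlam))
  have hmemW : hW.unit * (hy0.unit ^ p)⁻¹ ∈ principalUnits O (p * e0 + 1) := by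
    rw [mem_principalUnits]
    have h1 : ((hW.unit * (hy0.unit ^ p)⁻¹ : Oˣ) : O) - 1 =
        (((hy0.unit ^ p)⁻¹ : Oˣ) : O) * ((p : O) * (ζ - 1) * (c - c0)) := by
      have h2 : (((hy0.unit ^ p)⁻¹ : Oˣ) : O) * (1 + (ζ - 1) * z) ^ p = 1 := by
        have h3 : ((hy0.unit ^ p : Oˣ) : O) = (1 + (ζ - 1) * z) ^ p := by
          rw [Units.val_pow_eq_pow_val, IsUnit.unit_spec]
        rw [← h3, ← Units.val_mul, inv_mul_cancel, Units.val_one]
      rw [hy0p] at h2
      rw [Units.val_mul, IsUnit.unit_spec]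
      linear_combination h2
    rw [h1, pow_succ]
    apply Ideal.mul_mem_left
    exact Ideal.mul_mem_mul hplam_mem hcc0
  have hhigh : p * e < (p * e0 + 1) * (p - 1) := by
    rw [← he, ← mul_assoc]
    exact Nat.mul_lt_mul_of_pos_right (Nat.lt_succ_self _) hq
  obtain ⟨y1, -, hy1⟩ := exists_pow_eq_of_high hϖ hp hpe (p * e0 + 1) hhigh hmemW
  refine ⟨hy0.unit * y1, ?_⟩
  have h5 : (hy0.unit * y1) ^ p = hW.unit := by
    rw [mul_pow, hy1, mul_comm hW.unit, ← mul_assoc, mul_inv_cancel, one_mul]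
  rw [← Units.val_pow_eq_pow_val, h5, IsUnit.unit_spec]

end Top

end Fermat.Agent.S56.LF.UnitPowExtra
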