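import Fermat.Agent.S56.LF.UnitPow

/-!
# Complements to `UnitPow` (S56, brick LF, row C2): the hypothesis `e = e0 * (p - 1)` and the
passage to the fraction field

* `exists_e0_of_primitiveRoot` : a discrete valuation ring `O` with `p = ϖ ^ e * υ`, `e ≥ 1`,
  containing a primitive `p`-th root of unity `ζ` has `e = e0 * (p - 1)` with `e0 ≥ 1` the
  valuation of `ζ - 1`; this produces the hypothesis `he` of every statement of `UnitPow`.
* `exists_unit_of_pow_eq` : an `n`-th root, in the fraction field, of a unit of an integrally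
  closed domain is a unit; hence `mem_range_pow_iff` : for `u ∈ Oˣ`, `u` is a `p`-th power in
  `K` iff it is a `p`-th power in `Oˣ` (so `U ∩ (K^×)^p = U ∩ (Oˣ)^p`).
-/

set_option autoImplicit false

namespace Fermat.Agent.S56.LF.UnitPowRoot

open IsLocalRing Fermat.Agent.CFT.Local

section Root

variable {O : Type*} [CommRing O] [IsDomain O] [IsDiscreteValuationRing O]
  {ϖ : O} (hϖ : Irreducible ϖ) {p : ℕ} (hp : p.Prime) {e : ℕ} {υ : Oˣ}
  (hpe : (p : O) = ϖ ^ e * (υ : O))

include hϖ hp hpe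

/-- If `O` has residue characteristic `p` (`e ≥ 1`) and contains a primitive `p`-th root of
unity `ζ`, then `e = e0 * (p - 1)` where `e0 ≥ 1` is the valuation of `ζ - 1`. -/
theorem exists_e0_of_primitiveRoot (he1 : 1 ≤ e) {ζ : O} (hζ : IsPrimitiveRoot ζ p) :
    ∃ (e0 : ℕ) (μ : Oˣ), 1 ≤ e0 ∧ e = e0 * (p - 1) ∧ ζ - 1 = (μ : O) * ϖ ^ e0 := by
  have hp0 : residue O (p : O) = 0 := by
    rw [hpe, map_mul, (residue_eq_zero_iff _).mpr (uniformizer_pow_mem_maximalIdeal hϖ he1),
      zero_mul]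
  have hp0' : ((p : ℕ) : ResidueField O) = 0 := by rw [← hp0, map_natCast]
  have hζp : ζ ^ p = 1 := hζ.pow_eq_one
  have hζ1 : ζ ≠ 1 := hζ.ne_one hp.one_lt
  have hζres : residue O ζ = 1 := by
    have h3 : residue O ζ ^ p = 1 := by rw [← map_pow, hζp, map_one]
    obtain ⟨r, hr⟩ := one_add_pow_prime_eq hp (residue O ζ - 1)
    have h5 : (residue O ζ - 1) ^ p = 0 := by
      have h6 : (1 + (residue O ζ - 1)) = residue O ζ := by ring
      rw [h6, h3, hp0'] at hr
      linear_combination -hr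
    have h8 : residue O ζ - 1 = 0 := (pow_eq_zero_iff hp.ne_zero).mp h5
    exact sub_eq_zero.mp h8
  obtain ⟨lam, hlam⟩ : ∃ lam : O, lam = ζ - 1 := ⟨_, rfl⟩
  have hlam0 : lam ≠ 0 := by
    rw [hlam]
    exact sub_ne_zero.mpr hζ1
  have hζlam : ζ = 1 + lam := by rw [hlam]; ring
  have hlamres : residue O lam = 0 := by rw [hlam, map_sub, map_one, hζres, sub_self]
  obtain ⟨r, hr⟩ := one_add_pow_prime_eq hp lam
  rw [← hζlam, hζp] at hr
  obtain ⟨η, hη⟩ : ∃ η : O, η = -(1 + lam * r) := ⟨_, rfl⟩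
  have hE1 : lam ^ p = (p : O) * lam * η := by
    rw [hη]
    linear_combination -hr
  have hηres : residue O η = -1 := by
    rw [hη, map_neg, map_add, map_one, map_mul, hlamres, zero_mul, add_zero]
  have hηu : IsUnit η := by
    rw [← residue_ne_zero_iff_isUnit, hηres]
    exact neg_ne_zero.mpr one_ne_zero
  obtain ⟨k, μ, hμ⟩ := IsDiscreteValuationRing.eq_unit_mul_pow_irreducible hlam0 hϖ
  have hE2 : lam ^ (p - 1) = (p : O) * η := by
    have h1 : lam ^ (p - 1) * lam = (p : O) * η * lam := by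
      rw [pow_sub_one_mul hp.ne_zero, hE1]
      ring
    exact mul_right_cancel₀ hlam0 h1
  have hk : k * (p - 1) = e := by
    have h1 : ((μ ^ (p - 1) : Oˣ) : O) * ϖ ^ (k * (p - 1)) =
        ((υ * hηu.unit : Oˣ) : O) * ϖ ^ e := by
      rw [Units.val_pow_eq_pow_val, Units.val_mul, IsUnit.unit_spec, pow_mul, ← mul_pow, ← hμ,
        hE2, hpe]
      ring
    exact IsDiscreteValuationRing.unit_mul_pow_congr_pow hϖ hϖ _ _ _ _ h1
  refine ⟨k, μ, ?_, hk.symm, ?_⟩
  · rcases Nat.eq_zero_or_pos k with h | h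
    · rw [h, Nat.zero_mul] at hk
      omega
    · exact h
  · rw [← hlam]
    exact hμ

end Root

section Frac

/-- An `n`-th root, in the fraction field, of a unit of an integrally closed domain is a
unit. -/
theorem exists_unit_of_pow_eq {O K : Type*} [CommRing O] [IsDomain O] [IsIntegrallyClosed O]
    [Field K] [Algebra O K] [IsFractionRing O K] {n : ℕ} (hn : 0 < n) (u : Oˣ) (x : K)
    (hx : x ^ n = algebraMap O K (u : O)) :
    ∃ y : Oˣ, algebraMap O K (y : O) = x ∧ y ^ n = u := by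
  obtain ⟨y, hy⟩ := IsIntegrallyClosed.exists_algebraMap_eq_of_isIntegral_pow (R := O) hn
    (x := x) (by rw [hx]; exact isIntegral_algebraMap)
  have hyn : y ^ n = (u : O) := by
    apply IsFractionRing.injective O K
    rw [map_pow, hy, hx]
  have hyu : IsUnit y := by
    have h1 : IsUnit (y ^ n) := by
      rw [hyn]
      exact u.isUnit
    exact (isUnit_pow_iff hn.ne').mp h1
  refine ⟨hyu.unit, ?_, ?_⟩
  · rw [IsUnit.unit_spec]
    exact hy
  · apply Units.ext
    rw [Units.val_pow_eq_pow_val, IsUnit.unit_spec, hyn]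

/-- A unit of `O` is an `n`-th power in the fraction field iff it is an `n`-th power of a
unit of `O`. -/
theorem mem_range_pow_iff {O K : Type*} [CommRing O] [IsDomain O] [IsIntegrallyClosed O]
    [Field K] [Algebra O K] [IsFractionRing O K] {n : ℕ} (hn : 0 < n) (u : Oˣ) :
    u ∈ (powMonoidHom n : Oˣ →* Oˣ).range ↔ ∃ x : K, x ^ n = algebraMap O K (u : O) := by
  constructor
  · intro h
    obtain ⟨y, hy⟩ := MonoidHom.mem_range.mp h
    change y ^ n = u at hy
    refine ⟨algebraMap O K (y : O), ?_⟩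
    rw [← map_pow, ← Units.val_pow_eq_pow_val, hy]
  · rintro ⟨x, hx⟩
    obtain ⟨y, -, hy⟩ := exists_unit_of_pow_eq hn u x hx
    exact MonoidHom.mem_range.mpr ⟨y, hy⟩

end Frac

end Fermat.Agent.S56.LF.UnitPowRoot
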